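/-
TW / WP4 (global Euler characteristic), brick EC2, part 2 (helper19).

For a fixed coefficient module `T`, the "`T`-dual" `X^D = Hom_k(X, T)` (conjugation action) of a
representation `X` over a field `k`: functoriality, exactness of `X ↦ X^D` on short exact sequences,
discreteness of `X^D` for finite-dimensional discrete `X` and discrete `T`.
-/
import Mathlib
import Fermat.Agent.PT.PRO.LevelCoh28

set_option autoImplicit false
set_option linter.unusedSectionVars false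
set_option linter.style.haveILetI false

universe u

open CategoryTheory groupCohomology Representation
open Fermat.Agent.PT.PRO.LevelCoh28

namespace Fermat.Agent.TW.GlobalEC.DualRep19

variable {k G : Type u} [Field k] [Group G] (T : Rep.{u} k G)

/-- `X^D = Hom_k(X, T)` with the conjugation action `(g • f) x = g (f (g⁻¹ x))`. -/
abbrev dualRep (X : Rep.{u} k G) : Rep.{u} k G := Rep.of (Representation.linHom X.ρ T.ρ)

theorem dualRep_ρ_apply (X : Rep.{u} k G) (g : G) (f : X.V →ₗ[k] T.V) (x : X) :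
    ((dualRep T X).ρ g f : X.V →ₗ[k] T.V) x = T.ρ g (f (X.ρ g⁻¹ x)) := rfl

variable {A B C : Rep.{u} k G}

/-- The transpose `φ^D : B^D → A^D` of a linear map `φ : A → B`. -/
def dualMap (φ : A.V →ₗ[k] B.V) : (dualRep T B).V →ₗ[k] (dualRep T A).V where
  toFun f := LinearMap.comp (f : B.V →ₗ[k] T.V) φ
  map_add' _ _ := LinearMap.add_comp _ _ _
  map_smul' _ _ := LinearMap.smul_comp _ _ _

theorem dualMap_apply (φ : A.V →ₗ[k] B.V) (f : B.V →ₗ[k] T.V) (a : A) :
    (dualMap T φ f : A.V →ₗ[k] T.V) a = f (φ a) := rfl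

/-- The transpose of an equivariant map is equivariant. -/
theorem dualMap_equivariant (φ : A.V →ₗ[k] B.V) (hφ : ∀ g a, φ (A.ρ g a) = B.ρ g (φ a)) (g : G)
    (f : (dualRep T B).V) :
    dualMap T φ ((dualRep T B).ρ g f) = (dualRep T A).ρ g (dualMap T φ f) := by
  apply LinearMap.ext
  intro a
  show T.ρ g ((f : B.V →ₗ[k] T.V) (B.ρ g⁻¹ (φ a))) =
    T.ρ g ((f : B.V →ₗ[k] T.V) (φ (A.ρ g⁻¹ a)))
  rw [hφ]

/-! ### Exactness of `X ↦ X^D` -/

section Exact

variable (φ : A.V →ₗ[k] B.V) (ψ : B.V →ₗ[k] C.V)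
  (hinj : Function.Injective φ) (hsurj : Function.Surjective ψ)
  (hex : ∀ b, ψ b = 0 ↔ ∃ a, φ a = b)

include hsurj in
theorem dualMap_injective : Function.Injective (dualMap T ψ) := by
  intro f f' h
  apply LinearMap.ext
  intro c
  obtain ⟨b, rfl⟩ := hsurj c
  exact LinearMap.congr_fun h b

include hinj in
theorem dualMap_surjective : Function.Surjective (dualMap T φ) := by
  intro h
  obtain ⟨r, hr⟩ := φ.exists_leftInverse_of_injective (LinearMap.ker_eq_bot.2 hinj)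
  refine ⟨LinearMap.comp (h : A.V →ₗ[k] T.V) r, ?_⟩
  apply LinearMap.ext
  intro a
  show (h : A.V →ₗ[k] T.V) (r (φ a)) = (h : A.V →ₗ[k] T.V) a
  have : r (φ a) = a := LinearMap.congr_fun hr a
  rw [this]

include hsurj hex in
theorem dualMap_exact (f : (dualRep T B).V) :
    dualMap T φ f = 0 ↔ ∃ f' : (dualRep T C).V, dualMap T ψ f' = f := by
  constructor
  · intro h
    obtain ⟨s, hs⟩ := ψ.exists_rightInverse_of_surjective (LinearMap.range_eq_top.2 hsurj)
    refine ⟨LinearMap.comp (f : B.V →ₗ[k] T.V) s, ?_⟩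
    apply LinearMap.ext
    intro b
    show (f : B.V →ₗ[k] T.V) (s (ψ b)) = (f : B.V →ₗ[k] T.V) b
    have h1 : ψ (s (ψ b) - b) = 0 := by
      have : ψ (s (ψ b)) = ψ b := LinearMap.congr_fun hs (ψ b)
      rw [map_sub, this, sub_self]
    obtain ⟨a, ha⟩ := (hex _).1 h1
    have h2 : (f : B.V →ₗ[k] T.V) (φ a) = 0 := LinearMap.congr_fun h a
    rw [ha, map_sub, sub_eq_zero] at h2
    exact h2
  · rintro ⟨f', rfl⟩
    apply LinearMap.ext
    intro a
    show (f' : C.V →ₗ[k] T.V) (ψ (φ a)) = 0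
    rw [(hex _).2 ⟨a, rfl⟩, map_zero]

end Exact

/-! ### Discreteness -/

theorem isDiscrete_dualRep {𝓤 : Set (Subgroup G)} (h𝓤 : IsLevelBasis 𝓤)
    (hT : IsDiscrete 𝓤 T) {X : Rep.{u} k G} (hX : IsDiscrete 𝓤 X) [Module.Finite k X.V] :
    IsDiscrete 𝓤 (dualRep T X) := by
  intro f
  obtain ⟨S, hS⟩ := (Module.Finite.fg_top : (⊤ : Submodule k X.V).FG)
  obtain ⟨U₁, hU₁, -, hfix₁⟩ := hX.exists_fixing h𝓤 S.finite_toSet
  obtain ⟨U₂, hU₂, -, hfix₂⟩ :=
    hT.exists_fixing h𝓤 ((S.finite_toSet).image (f : X.V →ₗ[k] T.V))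
  obtain ⟨W, hW, hWle⟩ := h𝓤.directed U₁ hU₁ U₂ hU₂
  refine ⟨W, hW, fun s hs => ?_⟩
  have hs₁ : s⁻¹ ∈ U₁ := U₁.inv_mem ((hWle.trans inf_le_left) hs)
  have hs₂ : s ∈ U₂ := (hWle.trans inf_le_right) hs
  -- `s⁻¹` fixes `X` pointwise
  have hX1 : ∀ x : X.V, X.ρ s⁻¹ x = x := by
    intro x
    have hx : x ∈ Submodule.span k (S : Set X.V) := by rw [hS]; trivial
    refine Submodule.span_induction (p := fun x _ => X.ρ s⁻¹ x = x) ?_ ?_ ?_ ?_ hx
    · intro y hy
      exact hfix₁ _ hs₁ y hy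
    · exact map_zero _
    · intro y z _ _ hy hz
      rw [map_add, hy, hz]
    · intro r y _ hy
      rw [map_smul, hy]
  -- `s` fixes the values of `f`
  have hT1 : ∀ x : X.V, T.ρ s ((f : X.V →ₗ[k] T.V) x) = (f : X.V →ₗ[k] T.V) x := by
    intro x
    have hx : x ∈ Submodule.span k (S : Set X.V) := by rw [hS]; trivial
    refine Submodule.span_induction
      (p := fun x _ => T.ρ s ((f : X.V →ₗ[k] T.V) x) = (f : X.V →ₗ[k] T.V) x) ?_ ?_ ?_ ?_ hx
    · intro y hy
      exact hfix₂ _ hs₂ _ ⟨y, hy, rfl⟩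
    · simp
    · intro y z _ _ hy hz
      rw [map_add, map_add, hy, hz]
    · intro r y _ hy
      rw [map_smul, map_smul, hy]
  apply LinearMap.ext
  intro x
  show T.ρ s ((f : X.V →ₗ[k] T.V) (X.ρ s⁻¹ x)) = (f : X.V →ₗ[k] T.V) x
  rw [hX1, hT1]

end Fermat.Agent.TW.GlobalEC.DualRep19
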