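/-
TW / WP4 (global Euler characteristic), brick EC2, part 3 (helper19).

The cup product `H¹(X^D) × H¹(X) → H²(T)` for `X^D = Hom_k(X, T)` in the level cochain model of
`PT/PRO/LevelCoh28`: `cup f x (g, h) = f g (g • x h)`; it maps cocycles to cocycles, is compatible
with coboundaries, natural in `X`, and after composing with a linear map `τ : H²(T) → k` descends
to a bilinear pairing `pairH : H¹(X^D) → H¹(X) → k`.
-/
import Mathlib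
import Fermat.Agent.PT.PRO.LevelCoh28
import Fermat.Agent.TW.GlobalEC.DualRep19

set_option autoImplicit false
set_option linter.unusedSectionVars false
set_option linter.style.haveILetI false

universe u

open CategoryTheory groupCohomology Representation
open Fermat.Agent.PT.PRO.LevelCoh28
open Fermat.Agent.TW.GlobalEC.DualRep19

namespace Fermat.Agent.TW.GlobalEC.Cup19

/-! ### Descending a bilinear map to quotients -/

section LiftQ₂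

variable {k M N Q : Type*} [CommRing k] [AddCommGroup M] [Module k M] [AddCommGroup N]
  [Module k N] [AddCommGroup Q] [Module k Q]

/-- A bilinear map vanishing on `M' × N` and on `M × N'` descends to `M ⧸ M' × N ⧸ N'`. -/
def liftQ₂ (P : M →ₗ[k] N →ₗ[k] Q) (M' : Submodule k M) (N' : Submodule k N)
    (hl : ∀ m ∈ M', ∀ n, P m n = 0) (hr : ∀ m, ∀ n ∈ N', P m n = 0) :
    M ⧸ M' →ₗ[k] N ⧸ N' →ₗ[k] Q :=
  M'.liftQ ((N'.liftQ P.flip (fun n hn => by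
      rw [LinearMap.mem_ker]
      apply LinearMap.ext
      intro m
      exact hr m n hn)).flip) (fun m hm => by
    rw [LinearMap.mem_ker]
    apply LinearMap.ext
    intro y
    obtain ⟨n, rfl⟩ := N'.mkQ_surjective y
    simp only [LinearMap.flip_apply, Submodule.mkQ_apply, Submodule.liftQ_apply,
      LinearMap.zero_apply]
    exact hl m hm n)

@[simp]
theorem liftQ₂_mk (P : M →ₗ[k] N →ₗ[k] Q) (M' : Submodule k M) (N' : Submodule k N)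
    (hl : ∀ m ∈ M', ∀ n, P m n = 0) (hr : ∀ m, ∀ n ∈ N', P m n = 0) (m : M) (n : N) :
    liftQ₂ P M' N' hl hr (M'.mkQ m) (N'.mkQ n) = P m n := rfl

end LiftQ₂

variable {k G : Type u} [Field k] [Group G] (T : Rep.{u} k G) {X Y : Rep.{u} k G}

/-! ### The cup product on cochains -/

/-- `cup f x (g, h) = f g (g • x h)`. -/
def cup (f : G → (dualRep.{u} T X).V) (x : G → X.V) : G × G → T.V :=
  fun p => (f p.1 : X.V →ₗ[k] T.V) (X.ρ p.1 (x p.2))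

theorem cup_apply (f : G → (dualRep.{u} T X).V) (x : G → X.V) (g h : G) :
    cup T f x (g, h) = (f g : X.V →ₗ[k] T.V) (X.ρ g (x h)) := rfl

theorem cocycle_dual_apply {f : G → (dualRep.{u} T X).V} (hf : f ∈ cocycles₁ (dualRep.{u} T X))
    (g h : G) (v : X.V) :
    (f (g * h) : X.V →ₗ[k] T.V) v =
      T.ρ g ((f h : X.V →ₗ[k] T.V) (X.ρ g⁻¹ v)) + (f g : X.V →ₗ[k] T.V) v := by
  have := (mem_cocycles₁_iff f).1 hf g h
  rw [this]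
  rfl

theorem cup_mem_cocycles₂ {f : G → (dualRep.{u} T X).V} (hf : f ∈ cocycles₁ (dualRep.{u} T X))
    {x : G → X.V} (hx : x ∈ cocycles₁ X) : cup T f x ∈ cocycles₂ T := by
  rw [mem_cocycles₂_iff]
  intro g h j
  have hx' := (mem_cocycles₁_iff x).1 hx h j
  simp only [cup_apply]
  rw [cocycle_dual_apply T hf, hx', map_mul, Module.End.mul_apply,
    ← Module.End.mul_apply (X.ρ g⁻¹), ← map_mul, inv_mul_cancel, map_one, Module.End.one_apply,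
    map_add, map_add]
  abel

theorem isLevel₂_cup {𝓤 : Set (Subgroup G)} (h𝓤 : IsLevelBasis 𝓤) (hX : IsDiscrete 𝓤 X)
    {f : G → (dualRep.{u} T X).V} (hf : IsLevel₁ 𝓤 f) {x : G → X.V} (hx : IsLevel₁ 𝓤 x) :
    IsLevel₂ 𝓤 (cup T f x) := by
  obtain ⟨U, hU, -, hinv, hfix⟩ := hx.exists_normal_fixing h𝓤 hX
  obtain ⟨V, hV, hfinv⟩ := hf
  obtain ⟨W, hW, hWle⟩ := h𝓤.directed U hU V hV
  refine ⟨W, hW, fun g g' s hs s' hs' => ?_⟩
  simp only [cup_apply]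
  rw [hfinv g s ((hWle.trans inf_le_right) hs), hinv g' s' ((hWle.trans inf_le_left) hs'),
    map_mul, Module.End.mul_apply, hfix s ((hWle.trans inf_le_left) hs) g']

/-- `cup (d φ₀) x = d (φ₀ ∘ x)` for a cocycle `x`. -/
theorem cup_d₀₁_left (φ₀ : (dualRep.{u} T X).V) {x : G → X.V} (hx : x ∈ cocycles₁ X) :
    cup T ((d₀₁ (dualRep.{u} T X)).hom φ₀) x =
      (d₁₂ T).hom (fun h => (φ₀ : X.V →ₗ[k] T.V) (x h)) := by
  funext ⟨g, h⟩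
  have hx' := (mem_cocycles₁_iff x).1 hx g h
  rw [cup_apply, d₀₁_hom_apply, d₁₂_hom_apply]
  show T.ρ g ((φ₀ : X.V →ₗ[k] T.V) (X.ρ g⁻¹ (X.ρ g (x h)))) - (φ₀ : X.V →ₗ[k] T.V) (X.ρ g (x h)) =
    T.ρ g ((φ₀ : X.V →ₗ[k] T.V) (x h)) - (φ₀ : X.V →ₗ[k] T.V) (x (g * h)) +
      (φ₀ : X.V →ₗ[k] T.V) (x g)
  rw [hx', ← Module.End.mul_apply (X.ρ g⁻¹), ← map_mul, inv_mul_cancel, map_one,
    Module.End.one_apply, map_add]
  abel

/-- `cup f (d v) = - d (g ↦ f g (g • v))` for a cocycle `f`. -/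
theorem cup_d₀₁_right {f : G → (dualRep.{u} T X).V} (hf : f ∈ cocycles₁ (dualRep.{u} T X)) (v : X.V) :
    cup T f ((d₀₁ X).hom v) =
      -(d₁₂ T).hom (fun g => (f g : X.V →ₗ[k] T.V) (X.ρ g v)) := by
  funext ⟨g, h⟩
  rw [cup_apply, d₀₁_hom_apply, Pi.neg_apply, d₁₂_hom_apply]
  show (f g : X.V →ₗ[k] T.V) (X.ρ g (X.ρ h v - v)) =
    -(T.ρ g ((f h : X.V →ₗ[k] T.V) (X.ρ h v)) - (f (g * h) : X.V →ₗ[k] T.V) (X.ρ (g * h) v) +
      (f g : X.V →ₗ[k] T.V) (X.ρ g v))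
  rw [cocycle_dual_apply T hf, map_mul, Module.End.mul_apply,
    ← Module.End.mul_apply (X.ρ g⁻¹), ← map_mul, inv_mul_cancel, map_one, Module.End.one_apply,
    map_sub, map_sub]
  abel

theorem isLevel₁_comp_apply {𝓤 : Set (Subgroup G)} (φ₀ : (dualRep.{u} T X).V) {x : G → X.V}
    (hx : IsLevel₁ 𝓤 x) : IsLevel₁ 𝓤 (fun h => (φ₀ : X.V →ₗ[k] T.V) (x h)) :=
  hx.comp (φ₀ : X.V →ₗ[k] T.V)

theorem isLevel₁_apply_smul {𝓤 : Set (Subgroup G)} (h𝓤 : IsLevelBasis 𝓤) (hX : IsDiscrete 𝓤 X)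
    {f : G → (dualRep.{u} T X).V} (hf : IsLevel₁ 𝓤 f) (v : X.V) :
    IsLevel₁ 𝓤 (fun g => (f g : X.V →ₗ[k] T.V) (X.ρ g v)) := by
  obtain ⟨U, hU, hv⟩ := hX v
  obtain ⟨V, hV, hfinv⟩ := hf
  obtain ⟨W, hW, hWle⟩ := h𝓤.directed U hU V hV
  refine ⟨W, hW, fun g s hs => ?_⟩
  show (f (g * s) : X.V →ₗ[k] T.V) (X.ρ (g * s) v) = (f g : X.V →ₗ[k] T.V) (X.ρ g v)
  rw [hfinv g s ((hWle.trans inf_le_right) hs), map_mul, Module.End.mul_apply,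
    hv s ((hWle.trans inf_le_left) hs)]

/-- Naturality of the cup product. -/
theorem cup_dualMap (π : X.V →ₗ[k] Y.V) (hπ : ∀ g a, π (X.ρ g a) = Y.ρ g (π a))
    (f : G → (dualRep.{u} T Y).V) (x : G → X.V) :
    cup T (dualMap T π ∘ f) x = cup T f (π ∘ x) := by
  funext ⟨g, h⟩
  show (f g : Y.V →ₗ[k] T.V) (π (X.ρ g (x h))) = (f g : Y.V →ₗ[k] T.V) (Y.ρ g (π (x h)))
  rw [hπ]

/-! ### The cup product on level cocycles and the pairing on `H¹` -/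

variable (𝓑 : LevelBasis G)

theorem cup_mem_Z2 (hX : IsDiscrete 𝓑.sets X) {f : G → (dualRep.{u} T X).V}
    (hf : f ∈ Z1 𝓑 (dualRep.{u} T X)) {x : G → X.V} (hx : x ∈ Z1 𝓑 X) : cup T f x ∈ Z2 𝓑 T :=
  ⟨cup_mem_cocycles₂ T hf.1 hx.1, isLevel₂_cup T 𝓑.isBasis hX hf.2 hx.2⟩

/-- The cup product as a bilinear map on level cocycles. -/
def cupZ (hX : IsDiscrete 𝓑.sets X) :
    ↥(Z1 𝓑 (dualRep.{u} T X)) →ₗ[k] ↥(Z1 𝓑 X) →ₗ[k] ↥(Z2 𝓑 T) :=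
  LinearMap.mk₂ k (fun f x => ⟨cup T (f : G → (dualRep.{u} T X).V) (x : G → X.V),
      cup_mem_Z2 T 𝓑 hX f.2 x.2⟩)
    (fun f f' x => by
      apply Subtype.ext
      funext ⟨g, h⟩
      simp [cup_apply])
    (fun r f x => by
      apply Subtype.ext
      funext ⟨g, h⟩
      simp [cup_apply])
    (fun f x x' => by
      apply Subtype.ext
      funext ⟨g, h⟩
      simp [cup_apply])
    (fun r f x => by
      apply Subtype.ext
      funext ⟨g, h⟩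
      simp [cup_apply])

@[simp]
theorem cupZ_coe (hX : IsDiscrete 𝓑.sets X) (f : ↥(Z1 𝓑 (dualRep.{u} T X))) (x : ↥(Z1 𝓑 X)) :
    (cupZ T 𝓑 hX f x : G × G → T.V) = cup T (f : G → (dualRep.{u} T X).V) (x : G → X.V) := rfl

theorem cup_mem_B2_of_left {f : G → (dualRep.{u} T X).V}
    (hf : f ∈ coboundaries₁ (dualRep.{u} T X)) {x : G → X.V} (hx : x ∈ Z1 𝓑 X) :
    cup T f x ∈ B2 𝓑 T := by
  obtain ⟨φ₀, rfl⟩ := hf
  rw [cup_d₀₁_left T φ₀ hx.1]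
  exact (mem_B2_iff 𝓑 T _).2 ⟨_, isLevel₁_comp_apply T φ₀ hx.2, rfl⟩

theorem cup_mem_B2_of_right (hX : IsDiscrete 𝓑.sets X) {f : G → (dualRep.{u} T X).V}
    (hf : f ∈ Z1 𝓑 (dualRep.{u} T X)) {x : G → X.V} (hx : x ∈ coboundaries₁ X) :
    cup T f x ∈ B2 𝓑 T := by
  obtain ⟨v, rfl⟩ := hx
  rw [cup_d₀₁_right T hf.1 v]
  exact (B2 𝓑 T).neg_mem
    ((mem_B2_iff 𝓑 T _).2 ⟨_, isLevel₁_apply_smul T 𝓑.isBasis hX hf.2 v, rfl⟩)

variable (τ : H2 𝓑 T →ₗ[k] k)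

/-- The pairing `H¹(X^D) × H¹(X) → H²(T) → k`. -/
def pairH (hX : IsDiscrete 𝓑.sets X) : H1 𝓑 (dualRep.{u} T X) →ₗ[k] H1 𝓑 X →ₗ[k] k :=
  liftQ₂ ((cupZ T 𝓑 hX).compr₂ (τ ∘ₗ H2mk 𝓑 T)) _ _
    (fun f hf x => by
      have h0 : H2mk 𝓑 T (cupZ T 𝓑 hX f x) = 0 := by
        rw [H2mk_eq_zero_iff]
        exact cup_mem_B2_of_left T 𝓑 hf x.2
      simp only [LinearMap.compr₂_apply, LinearMap.comp_apply, h0, map_zero])
    (fun f x hx => by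
      have h0 : H2mk 𝓑 T (cupZ T 𝓑 hX f x) = 0 := by
        rw [H2mk_eq_zero_iff]
        exact cup_mem_B2_of_right T 𝓑 hX f.2 hx
      simp only [LinearMap.compr₂_apply, LinearMap.comp_apply, h0, map_zero])

@[simp]
theorem pairH_mk (hX : IsDiscrete 𝓑.sets X) (f : ↥(Z1 𝓑 (dualRep.{u} T X))) (x : ↥(Z1 𝓑 X)) :
    pairH T 𝓑 τ hX (H1mk 𝓑 (dualRep.{u} T X) f) (H1mk 𝓑 X x) =
      τ (H2mk 𝓑 T (cupZ T 𝓑 hX f x)) := rfl

/-- The cochain-level duality hypothesis of plan `EC`: both kernels of the cup product pairing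
into `H²(T)` consist of coboundaries. -/
structure DualHyp (X : Rep.{u} k G) : Prop where
  left : ∀ f ∈ Z1 𝓑 (dualRep.{u} T X), (∀ x ∈ Z1 𝓑 X, cup T f x ∈ B2 𝓑 T) →
    f ∈ coboundaries₁ (dualRep.{u} T X)
  right : ∀ x ∈ Z1 𝓑 X, (∀ f ∈ Z1 𝓑 (dualRep.{u} T X), cup T f x ∈ B2 𝓑 T) →
    x ∈ coboundaries₁ X

variable {T 𝓑 τ}

theorem pairH_eq_zero_left (hτ : Function.Injective τ) (hX : IsDiscrete 𝓑.sets X)
    (hl : ∀ f ∈ Z1 𝓑 (dualRep.{u} T X), (∀ x ∈ Z1 𝓑 X, cup T f x ∈ B2 𝓑 T) →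
      f ∈ coboundaries₁ (dualRep.{u} T X))
    {F : H1 𝓑 (dualRep.{u} T X)} (hF : ∀ x, pairH T 𝓑 τ hX F x = 0) : F = 0 := by
  obtain ⟨f, rfl⟩ := H1mk_surjective 𝓑 (dualRep.{u} T X) F
  rw [H1mk_eq_zero_iff]
  refine hl _ f.2 (fun x hx => ?_)
  have h1 := hF (H1mk 𝓑 X ⟨x, hx⟩)
  rw [pairH_mk] at h1
  have h2 := hτ (h1.trans (map_zero τ).symm)
  rw [H2mk_eq_zero_iff] at h2
  exact h2

theorem pairH_eq_zero_right (hτ : Function.Injective τ) (hX : IsDiscrete 𝓑.sets X)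
    (hr : ∀ x ∈ Z1 𝓑 X, (∀ f ∈ Z1 𝓑 (dualRep.{u} T X), cup T f x ∈ B2 𝓑 T) →
      x ∈ coboundaries₁ X)
    {x : H1 𝓑 X} (hx : ∀ F, pairH T 𝓑 τ hX F x = 0) : x = 0 := by
  obtain ⟨x, rfl⟩ := H1mk_surjective 𝓑 X x
  rw [H1mk_eq_zero_iff]
  refine hr _ x.2 (fun f hf => ?_)
  have h1 := hx (H1mk 𝓑 (dualRep.{u} T X) ⟨f, hf⟩)
  rw [pairH_mk] at h1
  have h2 := hτ (h1.trans (map_zero τ).symm)
  rw [H2mk_eq_zero_iff] at h2
  exact h2

/-- Naturality of the pairing. -/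
theorem pairH_map (hX : IsDiscrete 𝓑.sets X) (hY : IsDiscrete 𝓑.sets Y) (π : X.V →ₗ[k] Y.V)
    (hπ : ∀ g a, π (X.ρ g a) = Y.ρ g (π a)) (F : H1 𝓑 (dualRep.{u} T Y)) (x : H1 𝓑 X) :
    pairH T 𝓑 τ hX (mapH1 (𝓑 := 𝓑) (dualMap T π) (dualMap_equivariant T π hπ) F) x =
      pairH T 𝓑 τ hY F (mapH1 (𝓑 := 𝓑) π hπ x) := by
  obtain ⟨f, rfl⟩ := H1mk_surjective 𝓑 (dualRep.{u} T Y) F
  obtain ⟨x, rfl⟩ := H1mk_surjective 𝓑 X x
  rw [mapH1_mk, mapH1_mk, pairH_mk, pairH_mk]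
  congr 2
  apply Subtype.ext
  exact cup_dualMap T π hπ (f : G → (dualRep.{u} T Y).V) (x : G → X.V)

end Fermat.Agent.TW.GlobalEC.Cup19
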