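/-
TW / WP4 (global Euler characteristic), brick EC2, part 1 (helper19).

The low end of the long exact sequence of level cohomology (`PT/PRO/LevelCoh28`): for a short exact
sequence `0 → A --φ--> B --ψ--> C → 0` of discrete modules, the connecting map
`δ⁰ : C^G → H¹(A)` and the exactness of
`0 → A^G → B^G → C^G → H¹(A) → H¹(B)`
(exactness at `H¹(B)` is `LevelCoh28.ker_mapH1`).
-/
import Mathlib
import Fermat.Agent.PT.PRO.LevelCoh28

set_option autoImplicit false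
set_option linter.unusedSectionVars false
set_option linter.style.haveILetI false

universe u

open CategoryTheory groupCohomology Representation
open Fermat.Agent.PT.PRO.LevelCoh28

namespace Fermat.Agent.TW.GlobalEC.H0Seq19

variable {k G : Type u} [CommRing k] [Group G] {𝓑 : LevelBasis G} {A B C : Rep.{u} k G}

/-! ### The map on invariants -/

section MapInv

variable (φ : A →ₗ[k] B) (hφ : ∀ g a, φ (A.ρ g a) = B.ρ g (φ a))

/-- The map on invariants induced by an equivariant linear map. -/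
noncomputable def mapInv : ↥(invariants A.ρ) →ₗ[k] ↥(invariants B.ρ) :=
  LinearMap.codRestrict _ (φ.comp (invariants A.ρ).subtype) (fun a g => by
    simp only [LinearMap.comp_apply, Submodule.subtype_apply]
    rw [← hφ, a.2 g])

@[simp]
theorem mapInv_coe (a : ↥(invariants A.ρ)) : (mapInv φ hφ a : B) = φ (a : A) := rfl

theorem mapInv_injective (hinj : Function.Injective φ) : Function.Injective (mapInv φ hφ) := by
  intro a a' h
  apply Subtype.ext
  apply hinj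
  have := congrArg (fun x : ↥(invariants B.ρ) => (x : B)) h
  simpa using this

end MapInv

/-! ### The connecting map `δ⁰ : C^G → H¹(A)` -/

section Connecting

variable (φ : A →ₗ[k] B) (hφ : ∀ g a, φ (A.ρ g a) = B.ρ g (φ a))
  (ψ : B →ₗ[k] C) (hψ : ∀ g b, ψ (B.ρ g b) = C.ρ g (ψ b))
  (hinj : Function.Injective φ) (hsurj : Function.Surjective ψ)
  (hex : ∀ b, ψ b = 0 ↔ ∃ a, φ a = b) (hB : IsDiscrete 𝓑.sets B)

include hφ hinj hB in
/-- **(K0)** If `φ ∘ α = d b` for a vector `b` of the discrete module `B`, then `α` is a level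
1-cocycle. -/
theorem mem_Z1_of_comp_eq_d₀₁ {b : B} {α : G → A} (hα : φ ∘ α = (d₀₁ B).hom b) :
    α ∈ Z1 𝓑 A := by
  refine mem_Z1_of 𝓑 A ?_ (isLevel₁_of_comp (𝓑 := 𝓑) φ hinj (hα ▸ isLevel₁_d₀₁ hB b))
  have h0 : (d₁₂ B).hom ((d₀₁ B).hom b) = 0 := by
    have := d₀₁_apply_mem_cocycles₁ b
    rwa [cocycles₁, LinearMap.mem_ker] at this
  have h1 : φ ∘ (d₁₂ A).hom α = 0 := by
    rw [← d₁₂_comp φ hφ, hα, h0]
  funext x
  apply hinj
  have := congrFun h1 x
  simp only [Function.comp_apply] at this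
  rw [this]
  exact (map_zero φ).symm

/-- The cochain representing `δ⁰ c`. -/
noncomputable def delta0Fun (c : C) : G → A :=
  pre φ ∘ (d₀₁ B).hom (Function.surjInv hsurj c)

include hψ hex in
theorem φ_comp_delta0Fun {c : C} (hc : c ∈ invariants C.ρ) :
    φ ∘ delta0Fun φ ψ hsurj c = (d₀₁ B).hom (Function.surjInv hsurj c) := by
  funext g
  refine φ_pre φ ψ hex ?_
  rw [d₀₁_hom_apply, map_sub, hψ, Function.surjInv_eq hsurj, hc g, sub_self]

include hφ hψ hinj hex hB in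
theorem delta0Fun_mem_Z1 {c : C} (hc : c ∈ invariants C.ρ) :
    delta0Fun φ ψ hsurj c ∈ Z1 𝓑 A :=
  mem_Z1_of_comp_eq_d₀₁ φ hφ hinj hB (φ_comp_delta0Fun φ ψ hψ hsurj hex hc)

include hφ hinj hex in
/-- The class of `α` with `φ ∘ α = d b` only depends on `ψ b`. -/
theorem sub_mem_coboundaries₁_of_eq {b b' : B} (hbb' : ψ b = ψ b') {α α' : G → A}
    (hα : φ ∘ α = (d₀₁ B).hom b) (hα' : φ ∘ α' = (d₀₁ B).hom b') :
    α - α' ∈ coboundaries₁ A := by
  have h0 : ψ (b - b') = 0 := by rw [map_sub, hbb', sub_self]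
  obtain ⟨a, ha⟩ := (hex _).1 h0
  refine ⟨a, ?_⟩
  funext g
  apply hinj
  have h1 := congrFun hα g
  have h2 := congrFun hα' g
  simp only [Function.comp_apply, d₀₁_hom_apply] at h1 h2
  simp only [d₀₁_hom_apply, Pi.sub_apply, map_sub, hφ, ha, h1, h2]
  abel

include hφ hψ hinj hex in
/-- **Characterisation of `δ⁰`** at cochain level. -/
theorem delta0Fun_sub_mem {c : C} (hc : c ∈ invariants C.ρ) {b : B} (hb : ψ b = c)
    {α : G → A} (hα : φ ∘ α = (d₀₁ B).hom b) :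
    delta0Fun φ ψ hsurj c - α ∈ coboundaries₁ A :=
  sub_mem_coboundaries₁_of_eq φ hφ ψ hinj hex
    ((Function.surjInv_eq hsurj c).trans hb.symm) (φ_comp_delta0Fun φ ψ hψ hsurj hex hc) hα

/-- The connecting map `δ⁰ : C^G → H¹(A)`. -/
noncomputable def delta0 : ↥(invariants C.ρ) →ₗ[k] H1 𝓑 A where
  toFun c := H1mk 𝓑 A ⟨delta0Fun φ ψ hsurj (c : C),
    delta0Fun_mem_Z1 φ hφ ψ hψ hinj hsurj hex hB c.2⟩
  map_add' c c' := by
    rw [← map_add, ← sub_eq_zero, ← map_sub, H1mk_eq_zero_iff]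
    have h1 : φ ∘ (delta0Fun φ ψ hsurj (c : C) + delta0Fun φ ψ hsurj (c' : C)) =
        (d₀₁ B).hom (Function.surjInv hsurj (c : C) + Function.surjInv hsurj (c' : C)) := by
      rw [map_add, ← φ_comp_delta0Fun φ ψ hψ hsurj hex c.2,
        ← φ_comp_delta0Fun φ ψ hψ hsurj hex c'.2]
      funext x
      simp
    have h2 : ψ (Function.surjInv hsurj (c : C) + Function.surjInv hsurj (c' : C)) =
        ((c + c' : ↥(invariants C.ρ)) : C) := by
      simp [Function.surjInv_eq hsurj]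
    exact delta0Fun_sub_mem φ hφ ψ hψ hinj hsurj hex (c + c').2 h2 h1
  map_smul' r c := by
    rw [RingHom.id_apply, ← map_smul, ← sub_eq_zero, ← map_sub, H1mk_eq_zero_iff]
    have h1 : φ ∘ (r • delta0Fun φ ψ hsurj (c : C)) =
        (d₀₁ B).hom (r • Function.surjInv hsurj (c : C)) := by
      rw [map_smul, ← φ_comp_delta0Fun φ ψ hψ hsurj hex c.2]
      funext x
      simp
    have h2 : ψ (r • Function.surjInv hsurj (c : C)) = ((r • c : ↥(invariants C.ρ)) : C) := by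
      simp [Function.surjInv_eq hsurj]
    exact delta0Fun_sub_mem φ hφ ψ hψ hinj hsurj hex (r • c).2 h2 h1

include hφ hψ hinj hex hB in
/-- **Characterisation of `δ⁰`** on classes. -/
theorem delta0_eq (c : ↥(invariants C.ρ)) {b : B} (hb : ψ b = (c : C)) (α : ↥(Z1 𝓑 A))
    (hα : φ ∘ (α : G → A) = (d₀₁ B).hom b) :
    delta0 φ hφ ψ hψ hinj hsurj hex hB c = H1mk 𝓑 A α := by
  show H1mk 𝓑 A _ = H1mk 𝓑 A α
  rw [← sub_eq_zero, ← map_sub, H1mk_eq_zero_iff]
  exact delta0Fun_sub_mem φ hφ ψ hψ hinj hsurj hex c.2 hb hα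

end Connecting

/-! ### Exactness -/

section Exactness

variable (φ : A →ₗ[k] B) (hφ : ∀ g a, φ (A.ρ g a) = B.ρ g (φ a))
  (ψ : B →ₗ[k] C) (hψ : ∀ g b, ψ (B.ρ g b) = C.ρ g (ψ b))
  (hinj : Function.Injective φ) (hsurj : Function.Surjective ψ)
  (hex : ∀ b, ψ b = 0 ↔ ∃ a, φ a = b) (hB : IsDiscrete 𝓑.sets B)

include hinj hex in
/-- **Exactness at `B^G`**. -/
theorem ker_mapInv :
    LinearMap.ker (mapInv ψ hψ) = LinearMap.range (mapInv φ hφ) := by
  ext b
  rw [LinearMap.mem_ker, LinearMap.mem_range]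
  constructor
  · intro h
    have h0 : ψ (b : B) = 0 := by
      have := congrArg (fun x : ↥(invariants C.ρ) => (x : C)) h
      simpa using this
    obtain ⟨a, ha⟩ := (hex _).1 h0
    have hainv : a ∈ invariants A.ρ := fun g => by
      apply hinj
      rw [hφ, ha, b.2 g]
    exact ⟨⟨a, hainv⟩, Subtype.ext ha⟩
  · rintro ⟨a, rfl⟩
    apply Subtype.ext
    simp only [mapInv_coe, ZeroMemClass.coe_zero]
    exact (hex _).2 ⟨_, rfl⟩

include hφ hψ hinj hex hB in
/-- **Exactness at `C^G`**: `ker δ⁰ = range (B^G → C^G)`. -/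
theorem ker_delta0 :
    LinearMap.ker (delta0 (𝓑 := 𝓑) φ hφ ψ hψ hinj hsurj hex hB) =
      LinearMap.range (mapInv ψ hψ) := by
  ext c
  rw [LinearMap.mem_ker, LinearMap.mem_range]
  constructor
  · intro h
    have h' : H1mk 𝓑 A ⟨delta0Fun φ ψ hsurj (c : C),
        delta0Fun_mem_Z1 φ hφ ψ hψ hinj hsurj hex hB c.2⟩ = 0 := h
    rw [H1mk_eq_zero_iff] at h'
    obtain ⟨a, ha⟩ := h'
    -- `b₀ - φ a` is an invariant lift of `c`
    set b₀ : B := Function.surjInv hsurj (c : C) with hb₀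
    have hd : (d₀₁ B).hom (b₀ - φ a) = 0 := by
      rw [map_sub, ← φ_comp_delta0Fun φ ψ hψ hsurj hex c.2, d₀₁_comp φ hφ a]
      have : (d₀₁ A).hom a = delta0Fun φ ψ hsurj (c : C) := ha
      rw [this, sub_self]
    have hinv : b₀ - φ a ∈ invariants B.ρ := by
      rw [← d₀₁_ker_eq_invariants, LinearMap.mem_ker]
      exact hd
    refine ⟨⟨b₀ - φ a, hinv⟩, Subtype.ext ?_⟩
    simp only [mapInv_coe, map_sub, hb₀, Function.surjInv_eq hsurj]
    rw [(hex _).2 ⟨a, rfl⟩, sub_zero]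
  · rintro ⟨b, rfl⟩
    have hd : (d₀₁ B).hom (b : B) = 0 := by
      have : (b : B) ∈ LinearMap.ker (d₀₁ B).hom := by
        rw [d₀₁_ker_eq_invariants]; exact b.2
      exact this
    have hα : φ ∘ ((0 : ↥(Z1 𝓑 A)) : G → A) = (d₀₁ B).hom (b : B) := by
      rw [hd]
      funext g
      exact map_zero φ
    rw [delta0_eq φ hφ ψ hψ hinj hsurj hex hB (mapInv ψ hψ b) (b := (b : B)) rfl 0 hα, map_zero]

include hφ hψ hinj hex hB in
/-- **Exactness at `H¹(A)`**: `ker H¹(φ) = range δ⁰`. -/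
theorem ker_mapH1_eq_range_delta0 :
    LinearMap.ker (mapH1 (𝓑 := 𝓑) φ hφ) =
      LinearMap.range (delta0 (𝓑 := 𝓑) φ hφ ψ hψ hinj hsurj hex hB) := by
  ext x
  obtain ⟨α, rfl⟩ := H1mk_surjective 𝓑 A x
  rw [LinearMap.mem_ker, mapH1_mk, H1mk_eq_zero_iff, LinearMap.mem_range]
  constructor
  · rintro ⟨b, hb⟩
    have hb' : φ ∘ (α : G → A) = (d₀₁ B).hom b := hb.symm
    have hc : ψ b ∈ invariants C.ρ := fun g => by
      have h1 := congrFun hb' g
      simp only [Function.comp_apply, d₀₁_hom_apply] at h1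
      have h2 : ψ (B.ρ g b - b) = 0 := by rw [← h1]; exact (hex _).2 ⟨_, rfl⟩
      rw [map_sub, hψ, sub_eq_zero] at h2
      exact h2
    exact ⟨⟨ψ b, hc⟩, delta0_eq φ hφ ψ hψ hinj hsurj hex hB ⟨ψ b, hc⟩ rfl α hb'⟩
  · rintro ⟨c, hc⟩
    have h1 : (mapZ1 (𝓑 := 𝓑) φ hφ ⟨delta0Fun φ ψ hsurj (c : C),
        delta0Fun_mem_Z1 φ hφ ψ hψ hinj hsurj hex hB c.2⟩ : G → B) ∈ coboundaries₁ B :=
      ⟨Function.surjInv hsurj (c : C), (φ_comp_delta0Fun φ ψ hψ hsurj hex c.2).symm⟩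
    have h2 : mapH1 (𝓑 := 𝓑) φ hφ (delta0 φ hφ ψ hψ hinj hsurj hex hB c) = 0 := by
      show mapH1 (𝓑 := 𝓑) φ hφ (H1mk 𝓑 A _) = 0
      rw [mapH1_mk, H1mk_eq_zero_iff]
      exact h1
    rw [hc, mapH1_mk, H1mk_eq_zero_iff] at h2
    exact h2

end Exactness

end Fermat.Agent.TW.GlobalEC.H0Seq19
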