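/-
TW / WP4 (global Euler characteristic), brick EC2, part 4 (helper19): ADDITIVITY.

Setting (plan `EC`, report #302): `G` a group with a level basis `𝓑`, `k` a field, `T` a discrete
`k[G]`-module with an injective linear map `τ : H²_lvl(G, T) → k`.  For a finite-dimensional
discrete `X` put `X^D = Hom_k(X, T)` and
`a(X) = dim (X^D)^G = dim Hom_G(X, T)`, `b(X) = dim H¹_lvl(G, X)`, `c(X) = dim X^G`,
`eps(X) = a(X) - b(X) + c(X)`.

THEOREM (`eps_additive`): for a short exact sequence `0 → A → B → C → 0` of finite-dimensional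
discrete modules with finite `H¹` and finite `Hom_G(-, T)`, if the cup product pairing
`H¹(X^D) × H¹(X) → H²(T)` is left-nondegenerate for `X = B` and nondegenerate on both sides for
`X = C` (cochain-level hypothesis `Cup19.DualHyp`), then `eps B = eps A + eps C`.
-/
import Mathlib
import Fermat.Agent.PT.PRO.LevelCoh28
import Fermat.Agent.TW.GlobalEC.H0Seq19
import Fermat.Agent.TW.GlobalEC.DualRep19
import Fermat.Agent.TW.GlobalEC.Cup19

set_option autoImplicit false
set_option linter.unusedSectionVars false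
set_option linter.style.haveILetI false

universe u

open CategoryTheory groupCohomology Representation
open Fermat.Agent.PT.PRO.LevelCoh28
open Fermat.Agent.TW.GlobalEC.H0Seq19
open Fermat.Agent.TW.GlobalEC.DualRep19
open Fermat.Agent.TW.GlobalEC.Cup19

namespace Fermat.Agent.TW.GlobalEC.Additivity19

/-! ### Linear algebra: the annihilator of a subspace under a perfect pairing -/

section LinAlg

variable {K V W : Type*} [Field K] [AddCommGroup V] [Module K V] [AddCommGroup W] [Module K W]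

/-- A pairing `P : V → W → K` which is nondegenerate on both sides, `W` finite-dimensional:
the annihilator in `V` of a subspace `R ≤ W` has dimension `dim W - dim R`. -/
theorem finrank_comap_dualAnnihilator_add [FiniteDimensional K W] (P : V →ₗ[K] W →ₗ[K] K)
    (hl : ∀ v, (∀ w, P v w = 0) → v = 0) (hr : ∀ w, (∀ v, P v w = 0) → w = 0)
    (R : Submodule K W) :
    Module.finrank K ↥(R.dualAnnihilator.comap (P : V →ₗ[K] Module.Dual K W)) +
      Module.finrank K ↥R = Module.finrank K W := by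
  have hinj : Function.Injective (P : V →ₗ[K] Module.Dual K W) := by
    rw [← LinearMap.ker_eq_bot, LinearMap.ker_eq_bot']
    intro v hv
    exact hl v (fun w => by rw [hv]; rfl)
  -- the range of `P` is everything: its coannihilator is trivial
  have hco : (LinearMap.range (P : V →ₗ[K] Module.Dual K W)).dualCoannihilator = ⊥ := by
    rw [eq_bot_iff]
    intro w hw
    rw [Submodule.mem_dualCoannihilator] at hw
    rw [Submodule.mem_bot]
    exact hr w (fun v => hw (P v) ⟨v, rfl⟩)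
  have hrange : LinearMap.range (P : V →ₗ[K] Module.Dual K W) = ⊤ := by
    apply Submodule.eq_top_of_finrank_eq
    have h1 := Subspace.finrank_add_finrank_dualCoannihilator_eq
      (LinearMap.range (P : V →ₗ[K] Module.Dual K W))
    rw [hco, finrank_bot, add_zero] at h1
    rw [h1, Subspace.dual_finrank_eq]
  have hsurj : Function.Surjective (P : V →ₗ[K] Module.Dual K W) :=
    LinearMap.range_eq_top.1 hrange
  let e : V ≃ₗ[K] Module.Dual K W := LinearEquiv.ofBijective P ⟨hinj, hsurj⟩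
  have h2 : Module.finrank K ↥(R.dualAnnihilator.comap (P : V →ₗ[K] Module.Dual K W)) =
      Module.finrank K ↥R.dualAnnihilator :=
    (e.ofSubmodule' R.dualAnnihilator).finrank_eq
  rw [h2, add_comm]
  exact Subspace.finrank_add_finrank_dualAnnihilator_eq R

end LinAlg

variable {k G : Type u} [Field k] [Group G]

/-- `a(X) = dim (X^D)^G = dim Hom_G(X, T)`. -/
noncomputable def aInv (T X : Rep.{u} k G) : ℕ :=
  Module.finrank k ↥(invariants (dualRep.{u} T X).ρ)

/-- `b(X) = dim H¹_lvl(G, X)`. -/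
noncomputable def bH1 (𝓑 : LevelBasis G) (X : Rep.{u} k G) : ℕ := Module.finrank k (H1 𝓑 X)

/-- `c(X) = dim X^G`. -/
noncomputable def cInv (X : Rep.{u} k G) : ℕ := Module.finrank k ↥(invariants X.ρ)

/-- `eps(X) = a(X) - b(X) + c(X)`. -/
noncomputable def eps (𝓑 : LevelBasis G) (T X : Rep.{u} k G) : ℤ :=
  (aInv T X : ℤ) - (bH1 𝓑 X : ℤ) + (cInv X : ℤ)

variable {𝓑 : LevelBasis G} {T : Rep.{u} k G} {A B C : Rep.{u} k G}
  (φ : A.V →ₗ[k] B.V) (hφ : ∀ g a, φ (A.ρ g a) = B.ρ g (φ a))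
  (ψ : B.V →ₗ[k] C.V) (hψ : ∀ g b, ψ (B.ρ g b) = C.ρ g (ψ b))
  (hinj : Function.Injective φ) (hsurj : Function.Surjective ψ)
  (hex : ∀ b, ψ b = 0 ↔ ∃ a, φ a = b)

/-! ### Part 1: the count for `c - b` -/

include hφ hinj hsurj hex in
/-- From `0 → A^G → B^G → C^G → H¹(A) → H¹(B) → H¹(C)`:
`(c - b)(B) = (c - b)(A) + (c - b)(C) + dim coker (H¹(B) → H¹(C))`. -/
theorem count_cb (hB : IsDiscrete 𝓑.sets B)
    [Module.Finite k A.V] [Module.Finite k B.V] [Module.Finite k C.V]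
    [Module.Finite k (H1 𝓑 A)] [Module.Finite k (H1 𝓑 B)] :
    (cInv B : ℤ) - (bH1 𝓑 B : ℤ) + Module.finrank k ↥(LinearMap.range (mapH1 (𝓑 := 𝓑) ψ hψ)) =
      ((cInv A : ℤ) - (bH1 𝓑 A : ℤ)) + (cInv C : ℤ) := by
  have e1 := LinearMap.finrank_range_add_finrank_ker (mapInv φ hφ)
  rw [LinearMap.ker_eq_bot.2 (mapInv_injective φ hφ hinj), finrank_bot, add_zero] at e1
  have e2 := LinearMap.finrank_range_add_finrank_ker (mapInv ψ hψ)
  rw [ker_mapInv φ hφ ψ hψ hinj hex] at e2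
  have e3 := LinearMap.finrank_range_add_finrank_ker
    (delta0 (𝓑 := 𝓑) φ hφ ψ hψ hinj hsurj hex hB)
  rw [ker_delta0 φ hφ ψ hψ hinj hsurj hex hB] at e3
  have e4 := LinearMap.finrank_range_add_finrank_ker (mapH1 (𝓑 := 𝓑) φ hφ)
  rw [ker_mapH1_eq_range_delta0 φ hφ ψ hψ hinj hsurj hex hB] at e4
  have e5 := LinearMap.finrank_range_add_finrank_ker (mapH1 (𝓑 := 𝓑) ψ hψ)
  rw [ker_mapH1 φ hφ ψ hψ hinj hsurj hex hB] at e5
  unfold cInv bH1
  omega

/-! ### Part 2: the count for `a` -/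

include hφ hψ hinj hsurj hex in
/-- From `0 → (C^D)^G → (B^D)^G → (A^D)^G → H¹(C^D) → H¹(B^D)`:
`a(B) + dim ker (H¹(C^D) → H¹(B^D)) = a(A) + a(C)`. -/
theorem count_a (hT : IsDiscrete 𝓑.sets T) (hB : IsDiscrete 𝓑.sets B) [Module.Finite k B.V]
    [Module.Finite k ↥(invariants (dualRep.{u} T A).ρ)]
    [Module.Finite k ↥(invariants (dualRep.{u} T B).ρ)]
    [Module.Finite k ↥(invariants (dualRep.{u} T C).ρ)] :
    aInv T B + Module.finrank k ↥(LinearMap.ker
        (mapH1 (𝓑 := 𝓑) (dualMap T ψ) (dualMap_equivariant T ψ hψ))) =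
      aInv T A + aInv T C := by
  have hBD : IsDiscrete 𝓑.sets (dualRep.{u} T B) := isDiscrete_dualRep T 𝓑.isBasis hT hB
  have hφ' := dualMap_equivariant T ψ hψ
  have hψ' := dualMap_equivariant T φ hφ
  have hinj' := dualMap_injective T ψ hsurj
  have hsurj' := dualMap_surjective T φ hinj
  have hex' := dualMap_exact T φ ψ hsurj hex
  have e1 := LinearMap.finrank_range_add_finrank_ker (mapInv (dualMap T ψ) hφ')
  rw [LinearMap.ker_eq_bot.2 (mapInv_injective (dualMap T ψ) hφ' hinj'), finrank_bot,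
    add_zero] at e1
  have e2 := LinearMap.finrank_range_add_finrank_ker (mapInv (dualMap T φ) hψ')
  rw [ker_mapInv (dualMap T ψ) hφ' (dualMap T φ) hψ' hinj' hex'] at e2
  have e3 := LinearMap.finrank_range_add_finrank_ker
    (delta0 (𝓑 := 𝓑) (dualMap T ψ) hφ' (dualMap T φ) hψ' hinj' hsurj' hex' hBD)
  rw [ker_delta0 (dualMap T ψ) hφ' (dualMap T φ) hψ' hinj' hsurj' hex' hBD] at e3
  rw [ker_mapH1_eq_range_delta0 (dualMap T ψ) hφ' (dualMap T φ) hψ' hinj' hsurj' hex' hBD]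
  unfold aInv
  omega

/-! ### Part 3: duality -/

variable (τ : H2 𝓑 T →ₗ[k] k)

/-- `ker (H¹(C^D) → H¹(B^D))` is the annihilator of `range (H¹(B) → H¹(C))`. -/
theorem ker_mapH1_dualMap (hτ : Function.Injective τ) (hB : IsDiscrete 𝓑.sets B)
    (hC : IsDiscrete 𝓑.sets C)
    (hBl : ∀ f ∈ Z1 𝓑 (dualRep.{u} T B), (∀ x ∈ Z1 𝓑 B, cup T f x ∈ B2 𝓑 T) →
      f ∈ coboundaries₁ (dualRep.{u} T B)) :
    LinearMap.ker (mapH1 (𝓑 := 𝓑) (dualMap T ψ) (dualMap_equivariant T ψ hψ)) =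
      (LinearMap.range (mapH1 (𝓑 := 𝓑) ψ hψ)).dualAnnihilator.comap
        (pairH T 𝓑 τ hC : H1 𝓑 (dualRep.{u} T C) →ₗ[k] Module.Dual k (H1 𝓑 C)) := by
  ext F
  rw [LinearMap.mem_ker, Submodule.mem_comap, Submodule.mem_dualAnnihilator]
  constructor
  · rintro h _ ⟨x, rfl⟩
    have := pairH_map (τ := τ) hB hC ψ hψ F x
    rw [h, map_zero, LinearMap.zero_apply] at this
    exact this.symm
  · intro h
    refine pairH_eq_zero_left hτ hB hBl (fun x => ?_)
    rw [pairH_map (τ := τ) hB hC ψ hψ F x]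
    exact h _ ⟨x, rfl⟩

/-- `dim ker (H¹(C^D) → H¹(B^D)) + dim range (H¹(B) → H¹(C)) = dim H¹(C)`. -/
theorem finrank_ker_add_finrank_range (hτ : Function.Injective τ) (hB : IsDiscrete 𝓑.sets B)
    (hC : IsDiscrete 𝓑.sets C)
    (hBl : ∀ f ∈ Z1 𝓑 (dualRep.{u} T B), (∀ x ∈ Z1 𝓑 B, cup T f x ∈ B2 𝓑 T) →
      f ∈ coboundaries₁ (dualRep.{u} T B))
    (dC : DualHyp T 𝓑 C) [Module.Finite k (H1 𝓑 C)] :
    Module.finrank k ↥(LinearMap.ker
        (mapH1 (𝓑 := 𝓑) (dualMap T ψ) (dualMap_equivariant T ψ hψ))) +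
      Module.finrank k ↥(LinearMap.range (mapH1 (𝓑 := 𝓑) ψ hψ)) = bH1 𝓑 C := by
  rw [ker_mapH1_dualMap ψ hψ τ hτ hB hC hBl]
  exact finrank_comap_dualAnnihilator_add (pairH T 𝓑 τ hC)
    (fun F hF => pairH_eq_zero_left hτ hC dC.left hF)
    (fun x hx => pairH_eq_zero_right hτ hC dC.right hx) _

/-! ### The additivity theorem -/

include hφ hψ hinj hsurj hex in
/-- **EC2 (additivity of `eps = a - b + c`).** -/
theorem eps_additive (hτ : Function.Injective τ) (hT : IsDiscrete 𝓑.sets T)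
    (hB : IsDiscrete 𝓑.sets B) (hC : IsDiscrete 𝓑.sets C)
    [Module.Finite k A.V] [Module.Finite k B.V] [Module.Finite k C.V]
    [Module.Finite k (H1 𝓑 A)] [Module.Finite k (H1 𝓑 B)] [Module.Finite k (H1 𝓑 C)]
    [Module.Finite k ↥(invariants (dualRep.{u} T A).ρ)]
    [Module.Finite k ↥(invariants (dualRep.{u} T B).ρ)]
    [Module.Finite k ↥(invariants (dualRep.{u} T C).ρ)]
    (hBl : ∀ f ∈ Z1 𝓑 (dualRep.{u} T B), (∀ x ∈ Z1 𝓑 B, cup T f x ∈ B2 𝓑 T) →
      f ∈ coboundaries₁ (dualRep.{u} T B))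
    (dC : DualHyp T 𝓑 C) :
    eps 𝓑 T B = eps 𝓑 T A + eps 𝓑 T C := by
  have h1 := count_cb (𝓑 := 𝓑) φ hφ ψ hψ hinj hsurj hex hB
  have h2 := count_a (𝓑 := 𝓑) (T := T) φ hφ ψ hψ hinj hsurj hex hT hB
  have h3 := finrank_ker_add_finrank_range ψ hψ τ hτ hB hC hBl dC
  unfold eps
  omega

include hφ hψ hinj hsurj hex in
/-- `eps_additive` with the full duality hypothesis for `B` and `C`. -/
theorem eps_additive' (hτ : Function.Injective τ) (hT : IsDiscrete 𝓑.sets T)
    (hB : IsDiscrete 𝓑.sets B) (hC : IsDiscrete 𝓑.sets C)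
    [Module.Finite k A.V] [Module.Finite k B.V] [Module.Finite k C.V]
    [Module.Finite k (H1 𝓑 A)] [Module.Finite k (H1 𝓑 B)] [Module.Finite k (H1 𝓑 C)]
    [Module.Finite k ↥(invariants (dualRep.{u} T A).ρ)]
    [Module.Finite k ↥(invariants (dualRep.{u} T B).ρ)]
    [Module.Finite k ↥(invariants (dualRep.{u} T C).ρ)]
    (dB : DualHyp T 𝓑 B) (dC : DualHyp T 𝓑 C) :
    eps 𝓑 T B = eps 𝓑 T A + eps 𝓑 T C :=
  eps_additive φ hφ ψ hψ hinj hsurj hex τ hτ hT hB hC dB.left dC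

end Fermat.Agent.TW.GlobalEC.Additivity19
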