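/-
Program TW (S56), work package WP4 "EC" (global Euler characteristic), helper26: SPECIFICATION.

This file fixes the objects and the EXACT statements (as `def … : Prop`) of the bricks of WP4; see
the plan in the team reports (stmt = S56, kind = plan, author helper26).  A brick `ECn` is
delivered as a theorem `foo : Spec26.<Name> …` in its own file; the assembly consumes them.

Conventions: universe 0 everywhere (`Rep.{0}`), level cohomology of `PT/PRO/LevelCoh28`
(`LevelBasis`, `Z1`, `B2`, `H1`, `H2`, `IsDiscrete`), `k` a field (in the application `ZMod p`).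
Equivariant maps are plain linear maps with an explicit equivariance hypothesis (no categorical
morphisms in the statements).

* `homRep X T`        : `Hom_k(X, T)` with the conjugation action (`Representation.linHom`);
* `eqHomRank X T`     : `dim_k Hom_G(X, T)` (`finrank` of the invariants of `homRep X T`);
* `cup f x`           : the cup product `(f ∪ x)(g, h) = f(g)(g • x(h))` of 1-cochains;
* `IsDualAt 𝓑 T X`    : the cup product pairing `H¹(X^D) × H¹(X) → H²(T)`, `X^D = homRep X T`, has
                         trivial left and right kernels (cochain form);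
* `euler 𝓑 T X`       : `dim Hom_G(X, T) - dim H¹_𝓑(G, X) + dim X^G` as an integer;
* `IsProjRep P`       : `P` has the lifting property for equivariant surjections;
* `IsAdditive f`      : `f : Rep k G → ℤ` is additive on short exact sequences of f.d. modules;
* `InductionPrinciple`: (EC1) additive + vanishing on projectives ⟹ vanishing;
* `Additivity`        : (EC2) `euler` is additive under duality hypotheses.
-/
import Mathlib
import Fermat.Agent.PT.PRO.LevelCoh28

set_option autoImplicit false

open CategoryTheory groupCohomology Module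

namespace Fermat.Agent.TW.GlobalEC.Spec26

open Fermat.Agent.PT.PRO.LevelCoh28

noncomputable section

variable {k G : Type} [Field k] [Group G]

/-! ### Internal Hom, equivariant maps, cup product -/

/-- `Hom_k(X, T)` with the conjugation action `(g • f)(x) = g • f(g⁻¹ • x)`. -/
def homRep (X T : Rep.{0} k G) : Rep.{0} k G :=
  Rep.of (Representation.linHom X.ρ T.ρ)

theorem homRep_ρ_apply (X T : Rep.{0} k G) (g : G) (f : X →ₗ[k] T) (x : X) :
    (show X →ₗ[k] T from (homRep X T).ρ g f) x = T.ρ g (f (X.ρ g⁻¹ x)) := rfl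

/-- `dim_k Hom_G(X, T)`. -/
def eqHomRank (X T : Rep.{0} k G) : ℕ :=
  finrank k (homRep X T).ρ.invariants

/-- The cup product of a 1-cochain with values in `Hom_k(X, T)` and a 1-cochain with values in
`X`: `(f ∪ x)(g, h) = f(g)(g • x(h))`. -/
def cup {X T : Rep.{0} k G} (f : G → (X →ₗ[k] T)) (x : G → X) : G × G → T :=
  fun gh => f gh.1 (X.ρ gh.1 (x gh.2))

theorem cup_apply {X T : Rep.{0} k G} (f : G → (X →ₗ[k] T)) (x : G → X) (g h : G) :
    cup f x (g, h) = f g (X.ρ g (x h)) := rfl

/-- **Duality at `X`** (cochain form): the cup product pairing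
`H¹_𝓑(G, Hom(X, T)) × H¹_𝓑(G, X) → H²_𝓑(G, T)` has trivial left and right kernels. -/
def IsDualAt (𝓑 : LevelBasis G) (T X : Rep.{0} k G) : Prop :=
  (∀ f : G → (X →ₗ[k] T), f ∈ Z1 𝓑 (homRep X T) →
      (∀ x : G → X, x ∈ Z1 𝓑 X → cup f x ∈ B2 𝓑 T) → f ∈ coboundaries₁ (homRep X T)) ∧
  (∀ x : G → X, x ∈ Z1 𝓑 X →
      (∀ f : G → (X →ₗ[k] T), f ∈ Z1 𝓑 (homRep X T) → cup f x ∈ B2 𝓑 T) →
      x ∈ coboundaries₁ X)

/-- The partial Euler characteristic `dim Hom_G(X, T) - dim H¹_𝓑(G, X) + dim X^G`. -/
def euler (𝓑 : LevelBasis G) (T X : Rep.{0} k G) : ℤ :=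
  (eqHomRank X T : ℤ) - (finrank k (H1 𝓑 X) : ℤ) + (finrank k X.ρ.invariants : ℤ)

/-! ### Projective representations and additive functions -/

/-- `P` has the lifting property for equivariant surjections (i.e. is projective). -/
def IsProjRep (P : Rep.{0} k G) : Prop :=
  ∀ (A B : Rep.{0} k G) (ψ : A →ₗ[k] B), (∀ g a, ψ (A.ρ g a) = B.ρ g (ψ a)) →
    Function.Surjective ψ →
    ∀ φ : P →ₗ[k] B, (∀ g x, φ (P.ρ g x) = B.ρ g (φ x)) →
      ∃ φ' : P →ₗ[k] A, (∀ g x, φ' (P.ρ g x) = A.ρ g (φ' x)) ∧ ∀ x, ψ (φ' x) = φ x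

/-- A short exact sequence `0 → A → B → C → 0` of representations (linear maps + equivariance). -/
structure IsShortExact (A B C : Rep.{0} k G) (φ : A →ₗ[k] B) (ψ : B →ₗ[k] C) : Prop where
  φ_comm : ∀ g a, φ (A.ρ g a) = B.ρ g (φ a)
  ψ_comm : ∀ g b, ψ (B.ρ g b) = C.ρ g (ψ b)
  inj : Function.Injective φ
  surj : Function.Surjective ψ
  exact : Function.Exact φ ψ

/-- `f` is additive on short exact sequences of finite-dimensional representations. -/
def IsAdditive (f : Rep.{0} k G → ℤ) : Prop :=
  ∀ (A B C : Rep.{0} k G) (φ : A →ₗ[k] B) (ψ : B →ₗ[k] C), IsShortExact A B C φ ψ →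
    FiniteDimensional k B → f B = f A + f C

/-- **(EC1) The induction principle**: an additive function on finite-dimensional `k[G]`-modules
(`G` finite) which vanishes on the projective ones vanishes identically.
To be proved for `k = ZMod p` (any prime `p`): `theorem … : InductionPrinciple (ZMod p) G`. -/
def InductionPrinciple (k G : Type) [Field k] [Group G] : Prop :=
  ∀ f : Rep.{0} k G → ℤ, IsAdditive f →
    (∀ P : Rep.{0} k G, FiniteDimensional k P → IsProjRep P → f P = 0) →
    ∀ N : Rep.{0} k G, FiniteDimensional k N → f N = 0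

/-- **(EC2) Additivity of the partial Euler characteristic**: if `H²_𝓑(G, T)` embeds into `k`
and duality holds at the three terms of a short exact sequence of finite-dimensional discrete
modules (with finite `H¹` and `Hom_G(-, T)`), then `euler` is additive. -/
def Additivity (𝓑 : LevelBasis G) (T : Rep.{0} k G) : Prop :=
  IsDiscrete 𝓑.sets T → (∃ τ : H2 𝓑 T →ₗ[k] k, Function.Injective τ) →
  ∀ (A B C : Rep.{0} k G) (φ : A →ₗ[k] B) (ψ : B →ₗ[k] C), IsShortExact A B C φ ψ →
    FiniteDimensional k B → IsDiscrete 𝓑.sets B →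
    IsDualAt 𝓑 T A → IsDualAt 𝓑 T B → IsDualAt 𝓑 T C →
    FiniteDimensional k (H1 𝓑 A) → FiniteDimensional k (H1 𝓑 B) → FiniteDimensional k (H1 𝓑 C) →
    FiniteDimensional k (homRep A T).ρ.invariants → FiniteDimensional k (homRep B T).ρ.invariants →
    FiniteDimensional k (homRep C T).ρ.invariants →
    euler 𝓑 T B = euler 𝓑 T A + euler 𝓑 T C

end

end Fermat.Agent.TW.GlobalEC.Spec26
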