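/-
TW / WP4 (global Euler characteristic), brick EC2, part 5 (helper19): ADAPTER to the contracts of
`Spec26` (helper26).

`Additivity19` proves the additivity of `eps = a - b + c` in the universe-polymorphic setting of
`LevelCoh28`, with `X^D = DualRep19.dualRep T X`.  Here everything is specialised to `Rep.{0}` and
restated with the vocabulary of `Spec26` (`homRep X T`, `euler`, `IsShortExact`, `IsDualAt`):

* `euler_additive_of_K` : additivity of `Spec26.euler` on a short exact sequence, given the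
  numerical hypothesis (K)
  `dim ker (H¹(C^D) → H¹(B^D)) + rank (H¹(B) → H¹(C)) = dim H¹(C)`
  (this is the content of the contract `SpecD26.AdditivityK`; the literal contract is proved in
  `AdditivityK19`);
* `additivity : Spec26.Additivity 𝓑 T` : the original form of the contract (duality hypotheses
  `IsDualAt` and an injective `τ : H²(T) → k`).
-/
import Mathlib
import Fermat.Agent.TW.GlobalEC.Spec26
import Fermat.Agent.TW.GlobalEC.Additivity19

set_option autoImplicit false
set_option linter.unusedSectionVars false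
set_option linter.style.haveILetI false

open CategoryTheory groupCohomology Representation Module
open Fermat.Agent.PT.PRO.LevelCoh28

namespace Fermat.Agent.TW.GlobalEC.EulerAdd19

open Fermat.Agent.TW.GlobalEC

variable {k G : Type} [Field k] [Group G]

/-- The arithmetic behind the additivity of `a - b + c`. -/
theorem arith_K {aA aB aC bA bB bC cA cB cC ker rk : ℕ}
    (h1 : (cB : ℤ) - (bB : ℤ) + (rk : ℤ) = ((cA : ℤ) - (bA : ℤ)) + (cC : ℤ))
    (h2 : aB + ker = aA + aC) (h3 : ker + rk = bC) :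
    (aB : ℤ) - (bB : ℤ) + (cB : ℤ) =
      ((aA : ℤ) - (bA : ℤ) + (cA : ℤ)) + ((aC : ℤ) - (bC : ℤ) + (cC : ℤ)) := by
  omega

/-- The hypothesis (K) only depends on the underlying linear map. -/
theorem kernelRank_congr {𝓑 : LevelBasis G} {X Y : Rep.{0} k G} {f f' : X.V →ₗ[k] Y.V}
    (h : f = f') (hf : ∀ g a, f (X.ρ g a) = Y.ρ g (f a))
    (hf' : ∀ g a, f' (X.ρ g a) = Y.ρ g (f' a)) (r b : ℕ)
    (hK : finrank k ↥(LinearMap.ker (mapH1 (𝓑 := 𝓑) f hf)) + r = b) :
    finrank k ↥(LinearMap.ker (mapH1 (𝓑 := 𝓑) f' hf')) + r = b := by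
  subst h
  exact hK

/-- `Spec26.homRep X T` is `DualRep19.dualRep T X`. -/
theorem homRep_eq_dualRep (X T : Rep.{0} k G) :
    Spec26.homRep X T = DualRep19.dualRep.{0} T X := rfl

/-- `Spec26.euler` is `Additivity19.eps`. -/
theorem euler_eq_eps (𝓑 : LevelBasis G) (T X : Rep.{0} k G) :
    Spec26.euler 𝓑 T X = Additivity19.eps 𝓑 T X := rfl

/-- `Spec26.IsDualAt` is `Cup19.DualHyp`. -/
theorem dualHyp_of_isDualAt {𝓑 : LevelBasis G} {T X : Rep.{0} k G}
    (h : Spec26.IsDualAt 𝓑 T X) : Cup19.DualHyp T 𝓑 X :=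
  ⟨fun f hf hx => h.1 f hf hx, fun x hx hf => h.2 x hx hf⟩

/-- A quotient of a discrete module is discrete. -/
theorem isDiscrete_of_surjective {𝓑 : LevelBasis G} {B C : Rep.{0} k G} (ψ : B.V →ₗ[k] C.V)
    (hψ : ∀ g b, ψ (B.ρ g b) = C.ρ g (ψ b)) (hsurj : Function.Surjective ψ)
    (hB : IsDiscrete 𝓑.sets B) : IsDiscrete 𝓑.sets C := by
  intro c
  obtain ⟨b, rfl⟩ := hsurj c
  obtain ⟨U, hU, hfix⟩ := hB b
  exact ⟨U, hU, fun s hs => by rw [← hψ, hfix s hs]⟩

/-- **EC2, (K)-form**: `Spec26.euler` is additive on a short exact sequence of finite-dimensional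
discrete modules for which (K) holds. -/
theorem euler_additive_of_K {𝓑 : LevelBasis G} {T : Rep.{0} k G} (hT : IsDiscrete 𝓑.sets T)
    {A B C : Rep.{0} k G} {φ : A.V →ₗ[k] B.V} {ψ : B.V →ₗ[k] C.V}
    (h : Spec26.IsShortExact A B C φ ψ) (hBfin : FiniteDimensional k B.V)
    (hB : IsDiscrete 𝓑.sets B)
    (hK : finrank k ↥(LinearMap.ker (mapH1 (𝓑 := 𝓑) (DualRep19.dualMap T ψ)
        (DualRep19.dualMap_equivariant T ψ h.ψ_comm))) +
      finrank k ↥(LinearMap.range (mapH1 (𝓑 := 𝓑) ψ h.ψ_comm)) = finrank k (H1 𝓑 C))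
    (hA1 : FiniteDimensional k (H1 𝓑 A)) (hB1 : FiniteDimensional k (H1 𝓑 B))
    (hAi : FiniteDimensional k (Spec26.homRep A T).ρ.invariants)
    (hBi : FiniteDimensional k (Spec26.homRep B T).ρ.invariants)
    (hCi : FiniteDimensional k (Spec26.homRep C T).ρ.invariants) :
    Spec26.euler 𝓑 T B = Spec26.euler 𝓑 T A + Spec26.euler 𝓑 T C := by
  have hex : ∀ b, ψ b = 0 ↔ ∃ a, φ a = b := fun b => h.exact b
  haveI : Module.Finite k B.V := hBfin
  haveI : Module.Finite k A.V := Module.Finite.of_injective φ h.inj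
  haveI : Module.Finite k C.V := Module.Finite.of_surjective ψ h.surj
  haveI : Module.Finite k (H1 𝓑 A) := hA1
  haveI : Module.Finite k (H1 𝓑 B) := hB1
  haveI : Module.Finite k ↥(invariants (DualRep19.dualRep.{0} T A).ρ) := hAi
  haveI : Module.Finite k ↥(invariants (DualRep19.dualRep.{0} T B).ρ) := hBi
  haveI : Module.Finite k ↥(invariants (DualRep19.dualRep.{0} T C).ρ) := hCi
  have h1 := Additivity19.count_cb (𝓑 := 𝓑) φ h.φ_comm ψ h.ψ_comm h.inj h.surj hex hB
  have h2 := Additivity19.count_a (𝓑 := 𝓑) (T := T) φ h.φ_comm ψ h.ψ_comm h.inj h.surj hex hT hB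
  have key := arith_K h1 h2 hK
  exact key

/-- **EC2, original form** (`Spec26.Additivity`): if `H²(T)` embeds into `k` and duality holds at
the terms of a short exact sequence, then `euler` is additive. -/
theorem additivity (𝓑 : LevelBasis G) (T : Rep.{0} k G) : Spec26.Additivity 𝓑 T := by
  rintro hT ⟨τ, hτ⟩ A B C φ ψ h hBfin hB _ dB dC hA1 hB1 hC1 hAi hBi hCi
  have hC : IsDiscrete 𝓑.sets C := isDiscrete_of_surjective ψ h.ψ_comm h.surj hB
  have hex : ∀ b, ψ b = 0 ↔ ∃ a, φ a = b := fun b => h.exact b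
  haveI : Module.Finite k B.V := hBfin
  haveI : Module.Finite k A.V := Module.Finite.of_injective φ h.inj
  haveI : Module.Finite k C.V := Module.Finite.of_surjective ψ h.surj
  haveI : Module.Finite k (H1 𝓑 A) := hA1
  haveI : Module.Finite k (H1 𝓑 B) := hB1
  haveI : Module.Finite k (H1 𝓑 C) := hC1
  haveI : Module.Finite k ↥(invariants (DualRep19.dualRep.{0} T A).ρ) := hAi
  haveI : Module.Finite k ↥(invariants (DualRep19.dualRep.{0} T B).ρ) := hBi
  haveI : Module.Finite k ↥(invariants (DualRep19.dualRep.{0} T C).ρ) := hCi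
  have key := Additivity19.eps_additive' (𝓑 := 𝓑) (T := T) φ h.φ_comm ψ h.ψ_comm h.inj h.surj hex
    τ hτ hT hB hC (dualHyp_of_isDualAt dB) (dualHyp_of_isDualAt dC)
  exact key

end Fermat.Agent.TW.GlobalEC.EulerAdd19
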