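/-
Program TW (S56), work package WP4 "EC" (global Euler characteristic), helper26: SPECIFICATION,
part B: the objects and contracts of the bricks EC4 (projective evaluation) and EC5 (arithmetic
core), on top of `Spec26`.

* `pTorsionRep p X` : the `p`-torsion `X[p]` of a `G`-module, as a `Rep (ZMod p) G`
                       (`X : Rep R G` for an arbitrary commutative ring `R`, in the application
                       `R = ℤ`: being `R`-generic avoids the two non-defeq `Module ℤ` instances);
* `modPRep p X`     : `X / pX` as a `Rep (ZMod p) G`;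
* `trivRep p G`     : the trivial representation on `ZMod p`;
* `infl U P`        : inflation of a `G ⧸ U`-module to `G`;
* `NoPTorsionH1On`  : "`H¹_lev(U, C)` has no `p`-torsion" for a subgroup `U ≤ G`, in cochain form
                       (functions on `G`, conditions only on `U`);
* `ProjectiveEvaluation` : (EC4), abstract;
* `negEigenRank`    : `dim {x | σ x = -x}`.
-/
import Mathlib
import Fermat.Agent.TW.GlobalEC.Spec26

set_option autoImplicit false
set_option linter.unusedSectionVars false

open CategoryTheory groupCohomology Module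

namespace Fermat.Agent.TW.GlobalEC.SpecB26

open Fermat.Agent.PT.PRO.LevelCoh28 Fermat.Agent.TW.GlobalEC.Spec26

noncomputable section

variable {G : Type} [Group G]

/-! ### `X[p]` and `X / pX` as `𝔽_p[G]`-modules -/

section ModP

variable {R : Type} [CommRing R] (p : ℕ) [Fact p.Prime] (X : Rep.{0} R G)

/-- The `p`-torsion subgroup of `X`, as an additive subgroup. -/
def pTorsionSub : AddSubgroup X where
  carrier := {x | p • x = 0}
  zero_mem' := smul_zero _
  add_mem' {x y} hx hy := by
    change p • (x + y) = 0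
    rw [smul_add, show p • x = 0 from hx, show p • y = 0 from hy, add_zero]
  neg_mem' {x} hx := by
    change p • (-x) = 0
    rw [smul_neg, show p • x = 0 from hx, neg_zero]

theorem mem_pTorsionSub (x : X) : x ∈ pTorsionSub p X ↔ p • x = 0 := Iff.rfl

instance : Module (ZMod p) (pTorsionSub p X) :=
  AddCommGroup.zmodModule (n := p) fun x => Subtype.ext (by
    rw [AddSubgroup.coe_nsmul]; exact x.2)

/-- The action of `g` on `X[p]`. -/
def pTorsionAct (g : G) : pTorsionSub p X →+ pTorsionSub p X where
  toFun x := ⟨X.ρ g x.1, by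
    change p • X.ρ g x.1 = 0
    rw [← map_nsmul, show p • x.1 = 0 from x.2, map_zero]⟩
  map_zero' := Subtype.ext (map_zero _)
  map_add' x y := Subtype.ext (map_add _ _ _)

/-- `X[p]` as a representation over `ZMod p`. -/
def pTorsionRep : Rep.{0} (ZMod p) G :=
  Rep.of (X := pTorsionSub p X)
    { toFun := fun g => (pTorsionAct p X g).toZModLinearMap p
      map_one' := by
        ext x
        change X.ρ 1 x.1 = x.1
        rw [map_one, Module.End.one_apply]
      map_mul' := fun g h => by
        ext x
        change X.ρ (g * h) x.1 = X.ρ g (X.ρ h x.1)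
        rw [map_mul, Module.End.mul_apply] }

/-- The underlying element of `X` of an element of `X[p]`. -/
def pTorsionRep.val (x : pTorsionRep p X) : X := (show pTorsionSub p X from x).1

theorem pTorsionRep.val_ρ (g : G) (x : pTorsionRep p X) :
    pTorsionRep.val p X ((pTorsionRep p X).ρ g x) = X.ρ g (pTorsionRep.val p X x) := rfl

theorem pTorsionRep.val_injective : Function.Injective (pTorsionRep.val p X) :=
  fun _ _ h => Subtype.ext h

theorem pTorsionRep.nsmul_val (x : pTorsionRep p X) : p • pTorsionRep.val p X x = 0 :=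
  (show pTorsionSub p X from x).2

/-- The subgroup `pX`. -/
def pMulSub : AddSubgroup X := (nsmulAddMonoidHom p : X →+ X).range

theorem mem_pMulSub (x : X) : x ∈ pMulSub p X ↔ ∃ y : X, p • y = x := Iff.rfl

instance : Module (ZMod p) (X ⧸ pMulSub p X) :=
  AddCommGroup.zmodModule (n := p) fun x => by
    induction x using QuotientAddGroup.induction_on with
    | H x =>
      rw [← QuotientAddGroup.mk_nsmul, QuotientAddGroup.eq_zero_iff]
      exact ⟨x, rfl⟩

/-- The action of `g` on `X / pX`. -/
def modPAct (g : G) : X ⧸ pMulSub p X →+ X ⧸ pMulSub p X :=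
  QuotientAddGroup.map _ _ (X.ρ g).toAddMonoidHom (by
    rintro _ ⟨y, rfl⟩
    exact ⟨X.ρ g y, by
      change p • X.ρ g y = X.ρ g (p • y)
      rw [map_nsmul]⟩)

/-- `X / pX` as a representation over `ZMod p`. -/
def modPRep : Rep.{0} (ZMod p) G :=
  Rep.of (X := X ⧸ pMulSub p X)
    { toFun := fun g => (modPAct p X g).toZModLinearMap p
      map_one' := by
        ext x
        induction x using QuotientAddGroup.induction_on with
        | H x =>
          change ((X.ρ 1 x : X) : X ⧸ pMulSub p X) = x
          rw [map_one, Module.End.one_apply]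
      map_mul' := fun g h => by
        ext x
        induction x using QuotientAddGroup.induction_on with
        | H x =>
          change ((X.ρ (g * h) x : X) : X ⧸ pMulSub p X) = ((X.ρ g (X.ρ h x) : X) : X ⧸ pMulSub p X)
          rw [map_mul, Module.End.mul_apply] }

/-- The class in `X / pX` of an element of `X`. -/
def modPRep.mk (x : X) : modPRep p X := (QuotientAddGroup.mk x : X ⧸ pMulSub p X)

theorem modPRep.mk_ρ (g : G) (x : X) :
    (modPRep p X).ρ g (modPRep.mk p X x) = modPRep.mk p X (X.ρ g x) := rfl

theorem modPRep.mk_surjective : Function.Surjective (modPRep.mk p X) :=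
  QuotientAddGroup.mk_surjective

theorem modPRep.mk_eq_zero_iff (x : X) : modPRep.mk p X x = 0 ↔ ∃ y : X, p • y = x :=
  (QuotientAddGroup.eq_zero_iff x).trans (mem_pMulSub p X x)

end ModP

/-- The trivial representation of `G` on `ZMod p`. -/
def trivRep (p : ℕ) (G : Type) [Group G] : Rep.{0} (ZMod p) G :=
  Rep.of (X := ZMod p) (1 : Representation (ZMod p) G (ZMod p))

/-- Inflation of a representation of `G ⧸ U` to `G`. -/
abbrev infl {k : Type} [CommRing k] (U : Subgroup G) [U.Normal] (P : Rep.{0} k (G ⧸ U)) :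
    Rep.{0} k G :=
  Rep.res (QuotientGroup.mk' U) P

/-- The dimension of the `(-1)`-eigenspace of an endomorphism. -/
def negEigenRank {k V : Type} [Field k] [AddCommGroup V] [Module k V] (σ : V →ₗ[k] V) : ℕ :=
  finrank k (LinearMap.ker (σ + LinearMap.id))

/-! ### No `p`-torsion in `H¹` of an open subgroup -/

/-- "`H¹_lev(U, C)` has no `p`-torsion" in cochain form: a function `z : G → C` which is a
cocycle on `U`, right-invariant under some `V ∈ 𝓑` contained in `U`, and such that `p z` is a
coboundary on `U`, is a coboundary on `U`. -/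
def NoPTorsionH1On {R : Type} [CommRing R] (𝓑 : LevelBasis G) (C : Rep.{0} R G) (U : Subgroup G)
    (p : ℕ) : Prop :=
  ∀ z : G → C, (∀ u ∈ U, ∀ v ∈ U, z (u * v) = z u + C.ρ u (z v)) →
    (∃ V ∈ 𝓑.sets, V ≤ U ∧ ∀ u ∈ U, ∀ v ∈ V, z (u * v) = z u) →
    (∃ c : C, ∀ u ∈ U, p • z u = C.ρ u c - c) →
    ∃ c : C, ∀ u ∈ U, z u = C.ρ u c - c

/-! ### (EC4) projective evaluation -/

/-- **(EC4) Projective evaluation.**  `C` a discrete `p`-divisible `ℤ[G]`-module, `T = C[p]`,
`U ∈ 𝓑` normal with `H¹_lev(U, C)[p] = 0`, `P` a finite-dimensional projective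
`𝔽_p[G ⧸ U]`-module, `C^U = C.quotientToInvariants U`.  Then
`dim Hom_G(P, T) = dim Hom_{G/U}(P, C^U[p])`,
`dim H¹_𝓑(G, Hom(P, T)) = dim Hom_{G/U}(P, C^U / p)` and `dim P^{G/U} = dim Hom_{G/U}(P, 𝔽_p)`. -/
def ProjectiveEvaluation {R : Type} [CommRing R] (p : ℕ) [Fact p.Prime] (𝓑 : LevelBasis G)
    (C : Rep.{0} R G) : Prop :=
  IsDiscrete 𝓑.sets C → (∀ c : C, ∃ c' : C, p • c' = c) →
  ∀ (U : Subgroup G) [U.Normal], U ∈ 𝓑.sets → NoPTorsionH1On 𝓑 C U p →
  ∀ P : Rep.{0} (ZMod p) (G ⧸ U), FiniteDimensional (ZMod p) P → IsProjRep P →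
    eqHomRank (infl U P) (pTorsionRep p C) =
        eqHomRank P (pTorsionRep p (C.quotientToInvariants U)) ∧
    finrank (ZMod p) (H1 𝓑 (homRep (infl U P) (pTorsionRep p C))) =
        eqHomRank P (modPRep p (C.quotientToInvariants U)) ∧
    finrank (ZMod p) P.ρ.invariants = eqHomRank P (trivRep p (G ⧸ U))

end

end Fermat.Agent.TW.GlobalEC.SpecB26
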