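/-
Program TW (S56), work package WP4 "EC" (global Euler characteristic), helper26: SPECIFICATION,
part C: the invariant `h_P` of a `ℤ[G]`-module, its calculus (brick EC5e), and the abstract
contract of the arithmetic core (brick EC5).

Conventions as in `Spec26`/`SpecB26`: universe 0, `G`-modules are `X : Rep.{0} R G` (`R` an
arbitrary commutative ring; in the applications `R = ℤ` and `X = Rep.ofMulDistribMulAction G M`
for a commutative group `M` with a `MulDistribMulAction G M`, e.g. the objects `repIT`, `repCT`,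
`repUnits` of `PT/GLOB/ClassAction23`), maps between them are ADDITIVE maps `X →+ Y` with an
explicit equivariance hypothesis (no `Module` instance is involved, so no instance diamond can
arise), `P` is a finite-dimensional `Rep.{0} (ZMod p) G` with the lifting property
`Spec26.IsProjRep`.

* `IsPFinite p X`      : `X[p]` and `X / pX` are finite;
* `hP p P X`           : `h_P(X) = dim Hom_G(P, X / pX) - dim Hom_G(P, X[p])` as an integer;
* `IsShortExactAdd`    : short exact sequence `0 → A → B → C → 0` of `G`-modules (additive maps);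
* `AddInvariant R G`   : an abstract additive invariant with a domain (what EC5a / EC5d may
                          quantify over, if they prefer an abstract export);
* contracts of the calculus (EC5e): `PFiniteTwoOfThree`, `HPAdditive`, `HPFinite`, `HPPerm`;
* `InfinitePlaceFormula` : `dim Hom_G(P, 𝔽_p[S_∞(K)]) = dim P - dim P^{c = -1}`;
* `ArithmeticCore`     : (EC5) `h_P(C^U) = dim P^{c = -1} + dim Hom_{G/U}(P, 𝔽_p)`.
-/
import Mathlib
import Fermat.Agent.TW.GlobalEC.SpecB26

set_option autoImplicit false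
set_option linter.unusedSectionVars false

open CategoryTheory groupCohomology Module

namespace Fermat.Agent.TW.GlobalEC.SpecC26

open Fermat.Agent.PT.PRO.LevelCoh28 Fermat.Agent.TW.GlobalEC.Spec26
open Fermat.Agent.TW.GlobalEC.SpecB26

noncomputable section

variable {G : Type} [Group G]

/-! ### The invariant `h_P` -/

section HP

variable {R : Type} [CommRing R] (p : ℕ) [Fact p.Prime]

/-- `X[p]` and `X / pX` are finite. -/
def IsPFinite (X : Rep.{0} R G) : Prop :=
  Finite (pTorsionSub p X) ∧ Finite (X ⧸ pMulSub p X)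

/-- `h_P(X) = dim Hom_G(P, X / pX) - dim Hom_G(P, X[p])`. -/
def hP (P : Rep.{0} (ZMod p) G) (X : Rep.{0} R G) : ℤ :=
  (eqHomRank P (modPRep p X) : ℤ) - (eqHomRank P (pTorsionRep p X) : ℤ)

end HP

/-- A short exact sequence `0 → A → B → C → 0` of `G`-modules: additive maps + equivariance. -/
structure IsShortExactAdd {R : Type} [CommRing R] (A B C : Rep.{0} R G) (φ : A →+ B)
    (ψ : B →+ C) : Prop where
  φ_comm : ∀ g a, φ (A.ρ g a) = B.ρ g (φ a)
  ψ_comm : ∀ g b, ψ (B.ρ g b) = C.ρ g (ψ b)
  inj : Function.Injective φ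
  surj : Function.Surjective ψ
  exact : Function.Exact φ ψ

/-- An abstract additive invariant of `G`-modules with a domain of definition (closed under the
two-out-of-three property, containing the finite modules, on which the invariant vanishes). -/
structure AddInvariant (R G : Type) [CommRing R] [Group G] where
  /-- the domain -/
  dom : Rep.{0} R G → Prop
  /-- the invariant -/
  h : Rep.{0} R G → ℤ
  dom_mid : ∀ (A B C : Rep.{0} R G) (φ : A →+ B) (ψ : B →+ C), IsShortExactAdd A B C φ ψ →
    dom A → dom C → dom B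
  dom_right : ∀ (A B C : Rep.{0} R G) (φ : A →+ B) (ψ : B →+ C), IsShortExactAdd A B C φ ψ →
    dom A → dom B → dom C
  dom_left : ∀ (A B C : Rep.{0} R G) (φ : A →+ B) (ψ : B →+ C), IsShortExactAdd A B C φ ψ →
    dom B → dom C → dom A
  h_add : ∀ (A B C : Rep.{0} R G) (φ : A →+ B) (ψ : B →+ C), IsShortExactAdd A B C φ ψ →
    dom A → dom B → dom C → h B = h A + h C
  dom_finite : ∀ X : Rep.{0} R G, Finite X → dom X
  h_finite : ∀ X : Rep.{0} R G, Finite X → h X = 0

/-! ### Contracts of the calculus (brick EC5e) -/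

section Calculus

variable (p : ℕ) [Fact p.Prime]

/-- Two-out-of-three for `IsPFinite` (from the six-term sequence
`0 → A[p] → B[p] → C[p] → A/p → B/p → C/p → 0`). -/
def PFiniteTwoOfThree (R G : Type) [CommRing R] [Group G] : Prop :=
  ∀ (A B C : Rep.{0} R G) (φ : A →+ B) (ψ : B →+ C), IsShortExactAdd A B C φ ψ →
    (IsPFinite p A → IsPFinite p C → IsPFinite p B) ∧
    (IsPFinite p A → IsPFinite p B → IsPFinite p C) ∧
    (IsPFinite p B → IsPFinite p C → IsPFinite p A)

/-- `h_P` is additive on short exact sequences of `p`-finite modules, for projective `P`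
(`Hom_G(P, -)` is exact on the six-term sequence). -/
def HPAdditive (R G : Type) [CommRing R] [Group G] : Prop :=
  ∀ P : Rep.{0} (ZMod p) G, FiniteDimensional (ZMod p) P → IsProjRep P →
  ∀ (A B C : Rep.{0} R G) (φ : A →+ B) (ψ : B →+ C), IsShortExactAdd A B C φ ψ →
    IsPFinite p A → IsPFinite p B → IsPFinite p C → hP p P B = hP p P A + hP p P C

/-- `h_P` vanishes on finite modules (dévissage `0 → pX → X → X/pX → 0`, and `h_P(X) = 0` when
`pX = 0` or `p` is invertible on `X`). -/
def HPFinite (R G : Type) [CommRing R] [Group G] : Prop :=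
  ∀ P : Rep.{0} (ZMod p) G, FiniteDimensional (ZMod p) P → IsProjRep P →
  ∀ X : Rep.{0} R G, Finite X → hP p P X = 0

/-- The resulting `AddInvariant`: existence form of the whole calculus. -/
def HPInvariant (R G : Type) [CommRing R] [Group G] : Prop :=
  ∀ P : Rep.{0} (ZMod p) G, FiniteDimensional (ZMod p) P → IsProjRep P →
  ∃ I : AddInvariant R G, (∀ X, I.dom X ↔ IsPFinite p X) ∧ ∀ X, I.h X = hP p P X

/-- Permutation modules: `h_P(ℤ[Ω]) = dim Hom_G(P, 𝔽_p[Ω])` for a finite `G`-set `Ω`
(no projectivity needed: `ℤ[Ω][p] = 0`, `ℤ[Ω]/p = 𝔽_p[Ω]`). -/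
def HPPerm (G : Type) [Group G] : Prop :=
  ∀ (Ω : Type) [MulAction G Ω] [Finite Ω] (P : Rep.{0} (ZMod p) G),
    IsPFinite p (Rep.ofMulAction ℤ G Ω) ∧
    hP p P (Rep.ofMulAction ℤ G Ω) = (eqHomRank P (Rep.ofMulAction (ZMod p) G Ω) : ℤ)

end Calculus

/-! ### Infinite places -/

/-- For `K / ℚ` finite Galois, `c ∈ Gal(K/ℚ)` the complex conjugation attached to an embedding
`φ : K → ℂ` (`c = 1` iff `K` is totally real), `p` odd and ANY finite-dimensional `P`:
`dim Hom_G(P, 𝔽_p[S_∞(K)]) = dim P - dim P^{c = -1}`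
(`S_∞(K) ≅ G / ⟨c⟩` as `G`-sets, Frobenius reciprocity, `p` odd). -/
def InfinitePlaceFormula (p : ℕ) [Fact p.Prime] (K : Type) [Field K] [NumberField K] : Prop :=
  p ≠ 2 → IsGalois ℚ K →
  ∀ (c : K ≃ₐ[ℚ] K) (φ : K →+* ℂ), NumberField.ComplexEmbedding.IsConj φ c →
  ∀ P : Rep.{0} (ZMod p) (K ≃ₐ[ℚ] K), FiniteDimensional (ZMod p) P →
    (eqHomRank P (Rep.ofMulAction (ZMod p) (K ≃ₐ[ℚ] K) (NumberField.InfinitePlace K)) : ℤ) =
      (finrank (ZMod p) P : ℤ) - (negEigenRank (P.ρ c) : ℤ)

/-! ### (EC5) the arithmetic core, abstract form -/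

/-- **(EC5) Arithmetic core.**  To be proved for `G = Gal(ℚ̄/ℚ)`, `𝓑 = levelS S`, `C = CS S`
(`PT/GLUE/Objects21`), `cc = complexConjugation`, `p` odd, `p ∈ S`: for every normal `U ∈ 𝓑` and
every finite-dimensional projective `𝔽_p[G ⧸ U]`-module `P`, the module `C^U` is `p`-finite and
`h_P(C^U) = dim P^{cc = -1} + dim Hom_{G/U}(P, 𝔽_p)`. -/
def ArithmeticCore {R : Type} [CommRing R] (p : ℕ) [Fact p.Prime] (𝓑 : LevelBasis G)
    (C : Rep.{0} R G) (cc : G) : Prop :=
  ∀ (U : Subgroup G) [U.Normal], U ∈ 𝓑.sets →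
    IsPFinite p (C.quotientToInvariants U) ∧
    ∀ P : Rep.{0} (ZMod p) (G ⧸ U), FiniteDimensional (ZMod p) P → IsProjRep P →
      hP p P (C.quotientToInvariants U) =
        (negEigenRank (P.ρ (QuotientGroup.mk cc)) : ℤ) + (eqHomRank P (trivRep p (G ⧸ U)) : ℤ)

end

end Fermat.Agent.TW.GlobalEC.SpecC26
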