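/-
Program TW (S56), work package WP4 "EC" (global Euler characteristic), helper26: SPECIFICATION,
part D (supersedes `Spec26.IsDualAt`, `Spec26.Additivity` and the `H¹`-clause of
`SpecB26.ProjectiveEvaluation`).

WHY.  `C = C_S = I_S / E_S` is not known to be `p`-divisible (this is equivalent to the
`p`-closedness of the completions of `ℚ_S`), so the dual of `H¹(G, N)` is the hyper-cohomology
group `ℍ¹(G, K(P; C)) = Ext¹_G(N, C)` of the Poitou–Tate library (PT/PRO: `IndRes20.Res`,
`Pairing20.Datum`, `GlobalDuality20b.left_kernel / right_kernel`) and NOT `H¹(G, Hom(N, C[p]))`.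
The Euler characteristic `euler = dim Hom_G(X, T) - dim H¹(X) + dim X^G` (`T = C[p]`) is unchanged.

* `LKDatum R ρC 𝒰`, `RKDatum R ρC 𝒰` : the cochain-level left / right kernel statements for the
      pairing datum `K(P; C) = R.datum ρC` of a resolution `R : Res k G P1 P0 M` (generic `k`,
      so that at `k = ℤ` no instance diamond occurs: same device as `HypPFund18.HypPDatum`);
* `HyperDuality 𝓑 C p` : both hold for EVERY resolution `0 → P₁ → P₀ → M → 0` with `P_i` finite free
      over `ℤ`, `P₀` discrete, `p M = 0`                      (supplied from PT by helper26);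
* `HasInv 𝓑 C p`       : an additive invariant `inv` on the level 2-cocycles `z` of `C` with
      `p z ∈ B²`, vanishing exactly on `B²`                     (supplied from PT by helper26);
* `dualMap ψ`           : `f ↦ f ∘ ψ`, `homRep C T → homRep B T`;
* `KernelRank 𝓑 T`     : (K) `dim ker(H¹(C^D) → H¹(B^D)) + rank(H¹(B) → H¹(C)) = dim H¹(C)`;
* `AdditivityK 𝓑 T`    : (EC2, new form) `euler` is additive on a short exact sequence for which
      (K) holds;
* `ProjH1 p 𝓑 C`       : (EC4b) `dim H¹_𝓑(G, infl P) = dim Hom_{G/U}(P, C^U / p)` for projective `P`.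
-/
import Mathlib
import Fermat.Agent.PT.PRO.IndRes20
import Fermat.Agent.TW.GlobalEC.SpecC26

set_option autoImplicit false
set_option linter.unusedSectionVars false

open CategoryTheory groupCohomology Module

namespace Fermat.Agent.TW.GlobalEC.SpecD26

open Fermat.Agent.PT.PRO Fermat.Agent.PT.PRO.IndRes20
open Fermat.Agent.TW.GlobalEC.Spec26 Fermat.Agent.TW.GlobalEC.SpecB26
open Fermat.Agent.TW.GlobalEC.SpecC26

/-! ### The cochain-level kernels of the Poitou–Tate pairing, for an arbitrary resolution -/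

section Generic

variable {k : Type*} [CommRing k] {G : Type*} [Group G]
variable {P1 P0 M C : Type*} [AddCommGroup P1] [Module k P1] [AddCommGroup P0] [Module k P0]
  [AddCommGroup M] [Module k M] [AddCommGroup C] [Module k C]

/-- **Left kernel** of the pairing `ℍ¹(K(P; C)) × H¹(M) → H²(C)`, cochain form: a level
hyper-1-cocycle `(c, y)` of `K(P; C) = [Hom(P₀, C) → Hom(P₁, C)]` whose pairing with every level
lifted cocycle is the coboundary of a level cochain is a hyper-coboundary. -/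
def LKDatum (R : Res k G P1 P0 M) (ρC : Representation k G C) (𝒰 : Set (Subgroup G)) : Prop :=
  ∀ (c : G → (P0 →ₗ[k] C)) (y : P1 →ₗ[k] C), (R.datum ρC).IsHyperCocycle c y →
    HyperLevel25.IsLevel₁ 𝒰 c →
    (∀ (a' : G → P0) (b : G × G → P1), (R.datum ρC).IsLift a' b → HyperLevel25.IsLevel₁ 𝒰 a' →
      ∃ u : G → C, HyperLevel25.IsLevel₁ 𝒰 u ∧
        (R.datum ρC).pairFun c y a' b = HyperLevel25.dOne ρC u) →
    ∃ y₀ : P0 →ₗ[k] C, c = HyperLevel25.dZero (R.datum ρC).ρY0 y₀ ∧ y = (R.datum ρC).f y₀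

/-- **Right kernel**, cochain form: a level lifted cocycle `(a', b)` whose pairing with every level
hyper-1-cocycle is the coboundary of a level cochain lifts a coboundary of `M`. -/
def RKDatum (R : Res k G P1 P0 M) (ρC : Representation k G C) (𝒰 : Set (Subgroup G)) : Prop :=
  ∀ (a' : G → P0) (b : G × G → P1), (R.datum ρC).IsLift a' b → HyperLevel25.IsLevel₁ 𝒰 a' →
    (∀ (c : G → (P0 →ₗ[k] C)) (y : P1 →ₗ[k] C), (R.datum ρC).IsHyperCocycle c y →
      HyperLevel25.IsLevel₁ 𝒰 c →
      ∃ u : G → C, HyperLevel25.IsLevel₁ 𝒰 u ∧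
        (R.datum ρC).pairFun c y a' b = HyperLevel25.dOne ρC u) →
    ∃ a₀ : M, ⇑R.π ∘ a' = HyperLevel25.dZero R.ρM a₀

end Generic

/-! ### The two inputs from the Poitou–Tate library -/

section Inputs

variable {k : Type} [CommRing k] {G : Type} [Group G]

/-- **Hyper-duality** (application: `k = ℤ`): the left and right kernel statements hold for the
pairing datum of every resolution `0 → P₁ → P₀ → M → 0` of a `p`-torsion `G`-module by finite free
`k`-modules with discrete action.  (Stated for a generic commutative ring `k` and a bundled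
`C : Rep k G` so that no `Module ℤ C` instance is ever synthesised: provers should keep their
intermediate lemmas generic in `k` in the same way and put `k = ℤ` only at the very end.) -/
def HyperDuality (𝓑 : LevelCoh28.LevelBasis G) (C : Rep.{0} k G) (p : ℕ) : Prop :=
  ∀ (P1 P0 M : Type) [AddCommGroup P1] [Module k P1] [AddCommGroup P0] [Module k P0]
    [AddCommGroup M] [Module k M] [Module.Free k P0] [Module.Finite k P0] [Module.Free k P1]
    [Module.Finite k P1] (R : Res k G P1 P0 M),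
    HyperLevel25.IsDiscrete 𝓑.sets R.ρ0 → (∀ m : M, p • m = 0) →
    LKDatum R C.ρ 𝓑.sets ∧ RKDatum R C.ρ 𝓑.sets

/-- The level 2-cocycles `z` of `C` such that `p z` is a level coboundary. -/
def IsPCocycle₂ (𝓑 : LevelCoh28.LevelBasis G) (C : Rep.{0} k G) (p : ℕ) (z : G × G → C) : Prop :=
  z ∈ LevelCoh28.Z2 𝓑 C ∧ p • z ∈ LevelCoh28.B2 𝓑 C

/-- **The invariant map**: an additive function on the level 2-cocycles of `C` killed by `p` in
cohomology, with values in `ZMod p`, vanishing exactly on the level coboundaries. -/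
def HasInv (𝓑 : LevelCoh28.LevelBasis G) (C : Rep.{0} k G) (p : ℕ) : Prop :=
  ∃ inv : (G × G → C) → ZMod p,
    (∀ z z', IsPCocycle₂ 𝓑 C p z → IsPCocycle₂ 𝓑 C p z' → inv (z + z') = inv z + inv z') ∧
    ∀ z, IsPCocycle₂ 𝓑 C p z → (inv z = 0 ↔ z ∈ LevelCoh28.B2 𝓑 C)

end Inputs

/-! ### (K) and the new form of EC2 -/

section Additivity

variable {k G : Type} [Field k] [Group G]

/-- `f ↦ f ∘ ψ`, as a map `homRep C T → homRep B T`. -/
def dualMap {B C : Rep.{0} k G} (T : Rep.{0} k G) (ψ : B →ₗ[k] C) :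
    homRep C T →ₗ[k] homRep B T :=
  LinearMap.lcomp k T ψ

theorem dualMap_apply {B C : Rep.{0} k G} (T : Rep.{0} k G) (ψ : B →ₗ[k] C) (f : C →ₗ[k] T)
    (b : B) : (show B →ₗ[k] T from dualMap T ψ f) b = f (ψ b) := rfl

theorem dualMap_comm {B C : Rep.{0} k G} (T : Rep.{0} k G) (ψ : B →ₗ[k] C)
    (hψ : ∀ g b, ψ (B.ρ g b) = C.ρ g (ψ b)) (g : G) (f : homRep C T) :
    dualMap T ψ ((homRep C T).ρ g f) = (homRep B T).ρ g (dualMap T ψ f) := by
  apply LinearMap.ext
  intro b
  change T.ρ g ((show C →ₗ[k] T from f) (C.ρ g⁻¹ (ψ b))) =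
    T.ρ g ((show C →ₗ[k] T from f) (ψ (B.ρ g⁻¹ b)))
  rw [hψ]

/-- **(K)** for a surjection `ψ : B → C` of finite-dimensional discrete modules:
`dim ker(H¹(C^D) → H¹(B^D)) + rank(H¹(B) → H¹(C)) = dim H¹(C)`, `X^D = homRep X T`. -/
def KernelRankAt (𝓑 : LevelCoh28.LevelBasis G) (T : Rep.{0} k G) {B C : Rep.{0} k G}
    (ψ : B →ₗ[k] C) (hψ : ∀ g b, ψ (B.ρ g b) = C.ρ g (ψ b)) : Prop :=
  finrank k (LinearMap.ker (LevelCoh28.mapH1 (𝓑 := 𝓑) (dualMap T ψ) (dualMap_comm T ψ hψ))) +
    finrank k (LinearMap.range (LevelCoh28.mapH1 (𝓑 := 𝓑) ψ hψ)) =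
  finrank k (LevelCoh28.H1 𝓑 C)

/-- **(EC3K)** (K) holds for every equivariant surjection of finite-dimensional discrete modules
with finite-dimensional `H¹`. -/
def KernelRank (𝓑 : LevelCoh28.LevelBasis G) (T : Rep.{0} k G) : Prop :=
  ∀ (B C : Rep.{0} k G) (ψ : B →ₗ[k] C) (hψ : ∀ g b, ψ (B.ρ g b) = C.ρ g (ψ b)),
    Function.Surjective ψ → FiniteDimensional k B → LevelCoh28.IsDiscrete 𝓑.sets B →
    FiniteDimensional k (LevelCoh28.H1 𝓑 B) → FiniteDimensional k (LevelCoh28.H1 𝓑 C) →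
    KernelRankAt 𝓑 T ψ hψ

/-- **(EC2, new form) Additivity of the partial Euler characteristic** on a short exact sequence
of finite-dimensional discrete modules for which (K) holds (finiteness of `H¹` and of
`Hom_G(-, T)` at the three terms assumed). -/
def AdditivityK (𝓑 : LevelCoh28.LevelBasis G) (T : Rep.{0} k G) : Prop :=
  LevelCoh28.IsDiscrete 𝓑.sets T →
  ∀ (A B C : Rep.{0} k G) (φ : A →ₗ[k] B) (ψ : B →ₗ[k] C) (h : IsShortExact A B C φ ψ),
    FiniteDimensional k B → LevelCoh28.IsDiscrete 𝓑.sets B →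
    KernelRankAt 𝓑 T ψ h.ψ_comm →
    FiniteDimensional k (LevelCoh28.H1 𝓑 A) → FiniteDimensional k (LevelCoh28.H1 𝓑 B) →
    FiniteDimensional k (LevelCoh28.H1 𝓑 C) →
    FiniteDimensional k (homRep A T).ρ.invariants → FiniteDimensional k (homRep B T).ρ.invariants →
    FiniteDimensional k (homRep C T).ρ.invariants →
    euler 𝓑 T B = euler 𝓑 T A + euler 𝓑 T C

end Additivity

/-! ### (EC4b) `H¹` of an inflated projective module -/

section Proj

variable {G : Type} [Group G]

/-- **(EC4b)**  `C` a discrete `ℤ[G]`-module with hyper-duality and invariant map, `U ∈ 𝓑` normal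
with `H¹_lev(U, C)[p] = 0` and `C^U` `p`-finite, `P` a finite-dimensional projective
`𝔽_p[G ⧸ U]`-module with `H¹_𝓑(G, infl P)` finite-dimensional:
`dim H¹_𝓑(G, infl P) = dim Hom_{G/U}(P, C^U / p)`. -/
def ProjH1 (p : ℕ) [Fact p.Prime] (𝓑 : LevelCoh28.LevelBasis G) (C : Rep.{0} ℤ G) : Prop :=
  LevelCoh28.IsDiscrete 𝓑.sets C → HyperDuality 𝓑 C p → HasInv 𝓑 C p →
  ∀ (U : Subgroup G) [U.Normal], U ∈ 𝓑.sets → NoPTorsionH1On 𝓑 C U p →
    IsPFinite p (C.quotientToInvariants U) →
  ∀ P : Rep.{0} (ZMod p) (G ⧸ U), FiniteDimensional (ZMod p) P → IsProjRep P →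
    FiniteDimensional (ZMod p) (LevelCoh28.H1 𝓑 (infl U P)) →
    finrank (ZMod p) (LevelCoh28.H1 𝓑 (infl U P)) =
      eqHomRank P (modPRep p (C.quotientToInvariants U))

/-- (EC4a) the two clauses of `SpecB26.ProjectiveEvaluation` that survive (no divisibility):
`dim Hom_G(infl P, C[p]) = dim Hom_{G/U}(P, C^U[p])` and `dim P^{G/U} = dim Hom_{G/U}(P, 𝔽_p)`. -/
def ProjH0 (p : ℕ) [Fact p.Prime] (𝓑 : LevelCoh28.LevelBasis G) (C : Rep.{0} ℤ G) : Prop :=
  ∀ (U : Subgroup G) [U.Normal], U ∈ 𝓑.sets →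
  ∀ P : Rep.{0} (ZMod p) (G ⧸ U), FiniteDimensional (ZMod p) P →
    eqHomRank (infl U P) (pTorsionRep p C) =
        eqHomRank P (pTorsionRep p (C.quotientToInvariants U)) ∧
    (IsProjRep P → finrank (ZMod p) P.ρ.invariants = eqHomRank P (trivRep p (G ⧸ U)))

end Proj

end Fermat.Agent.TW.GlobalEC.SpecD26
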