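/-
TW / WP4 (global Euler characteristic), brick EC2 (helper19): THE CONTRACT `SpecD26.AdditivityK`.

`additivityK 𝓑 T : SpecD26.AdditivityK 𝓑 T` for every level basis `𝓑` of every group `G` and every
`T : Rep.{0} k G`, `k` a field: the partial Euler characteristic
`euler 𝓑 T X = dim Hom_G(X, T) - dim H¹_𝓑(G, X) + dim X^G` is additive on every short exact
sequence `0 → A → B → C → 0` of finite-dimensional discrete modules for which the numerical
hypothesis (K) = `SpecD26.KernelRankAt 𝓑 T ψ _` holds.  Unconditional (no duality input).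
-/
import Mathlib
import Fermat.Agent.TW.GlobalEC.SpecD26
import Fermat.Agent.TW.GlobalEC.EulerAdd19

set_option autoImplicit false
set_option linter.unusedSectionVars false

open CategoryTheory groupCohomology Representation Module
open Fermat.Agent.PT.PRO.LevelCoh28

namespace Fermat.Agent.TW.GlobalEC.AdditivityK19

open Fermat.Agent.TW.GlobalEC

variable {k G : Type} [Field k] [Group G]

/-- The transpose of `SpecD26` is the transpose of `DualRep19`. -/
theorem dualMap_eq {B C : Rep.{0} k G} (T : Rep.{0} k G) (ψ : B.V →ₗ[k] C.V) :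
    SpecD26.dualMap T ψ = DualRep19.dualMap T ψ :=
  LinearMap.ext fun _ => LinearMap.ext fun _ => rfl

/-- **EC2** (contract `SpecD26.AdditivityK`). -/
theorem additivityK (𝓑 : LevelBasis G) (T : Rep.{0} k G) : SpecD26.AdditivityK 𝓑 T := by
  intro hT A B C φ ψ h hBfin hB hK hA1 hB1 _ hAi hBi hCi
  have hK' := EulerAdd19.kernelRank_congr (𝓑 := 𝓑) (dualMap_eq T ψ)
    (SpecD26.dualMap_comm T ψ h.ψ_comm) (DualRep19.dualMap_equivariant T ψ h.ψ_comm) _ _ hK
  exact EulerAdd19.euler_additive_of_K hT h hBfin hB hK' hA1 hB1 hAi hBi hCi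

end Fermat.Agent.TW.GlobalEC.AdditivityK19
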