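/-
Program TW (S56), WP4 "EC", brick EC7-abs (abstract assembly), part 2, helper3.

Bookkeeping for the term `d(N) = dim N^{c = -1}` (`SpecB26.negEigenRank`), `c` an involution and
`2` invertible:

* `negEigenRank_additive`             : `d` is additive on short exact sequences;
* `finrank_eq_posEigen_add_negEigen`  : `dim P = dim P^{c = 1} + dim P^{c = -1}`;
* `range_sub_id_eq_ker_add_id`        : `(c - 1) P = P^{c = -1}`.
-/
import Mathlib
import Fermat.Agent.TW.GlobalEC.SpecB26

set_option autoImplicit false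

open Module

namespace Fermat.Agent.TW.GlobalEC.NegEigen3

open Fermat.Agent.TW.GlobalEC.SpecB26

noncomputable section

variable {k : Type} [Field k]

section single

variable {V : Type} [AddCommGroup V] [Module k V] (σ : V →ₗ[k] V)

theorem mem_ker_add_id (v : V) : v ∈ LinearMap.ker (σ + LinearMap.id) ↔ σ v = -v := by
  rw [LinearMap.mem_ker, LinearMap.add_apply, LinearMap.id_apply, add_eq_zero_iff_eq_neg]

theorem mem_ker_sub_id (v : V) : v ∈ LinearMap.ker (σ - LinearMap.id) ↔ σ v = v := by
  rw [LinearMap.mem_ker, LinearMap.sub_apply, LinearMap.id_apply, sub_eq_zero]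

/-- For an involution `σ` with `2` invertible, `(σ - 1) V = V^{σ = -1}`. -/
theorem range_sub_id_eq_ker_add_id (h2 : (2 : k) ≠ 0) (hσ : ∀ v, σ (σ v) = v) :
    LinearMap.range (σ - LinearMap.id) = LinearMap.ker (σ + LinearMap.id) := by
  ext w
  rw [mem_ker_add_id]
  constructor
  · rintro ⟨v, rfl⟩
    rw [LinearMap.sub_apply, LinearMap.id_apply, map_sub, hσ]
    abel
  · intro hw
    refine ⟨(-(2 : k)⁻¹) • w, ?_⟩
    rw [LinearMap.sub_apply, LinearMap.id_apply, map_smul, hw, ← smul_sub]
    have : -w - w = (-(2 : k)) • w := by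
      rw [neg_smul, two_smul]
      abel
    rw [this, smul_smul, neg_mul_neg, inv_mul_cancel₀ h2, one_smul]

/-- `dim V = dim V^{σ = 1} + dim V^{σ = -1}`. -/
theorem finrank_eq_posEigen_add_negEigen [FiniteDimensional k V] (h2 : (2 : k) ≠ 0)
    (hσ : ∀ v, σ (σ v) = v) :
    finrank k V = finrank k (LinearMap.ker (σ - LinearMap.id)) + negEigenRank σ := by
  have h1 := LinearMap.finrank_range_add_finrank_ker (σ - LinearMap.id)
  rw [range_sub_id_eq_ker_add_id σ h2 hσ] at h1
  rw [negEigenRank]
  omega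

end single

section additive

variable {A B C : Type} [AddCommGroup A] [Module k A] [AddCommGroup B] [Module k B]
  [AddCommGroup C] [Module k C]

/-- `N ↦ dim N^{σ = -1}` is additive on short exact sequences (`σ` an involution, `2`
invertible). -/
theorem negEigenRank_additive (h2 : (2 : k) ≠ 0) [FiniteDimensional k B] (σA : A →ₗ[k] A)
    (σB : B →ₗ[k] B) (σC : C →ₗ[k] C) (hσB : ∀ b, σB (σB b) = b) (φ : A →ₗ[k] B)
    (ψ : B →ₗ[k] C) (hφ : ∀ a, φ (σA a) = σB (φ a)) (hψ : ∀ b, ψ (σB b) = σC (ψ b))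
    (hinj : Function.Injective φ) (hsurj : Function.Surjective ψ) (hex : Function.Exact φ ψ) :
    negEigenRank σB = negEigenRank σA + negEigenRank σC := by
  -- the restrictions to the `(-1)`-eigenspaces
  let φ' : LinearMap.ker (σA + LinearMap.id) →ₗ[k] LinearMap.ker (σB + LinearMap.id) :=
    (φ.comp (LinearMap.ker (σA + LinearMap.id)).subtype).codRestrict _ (fun a => by
      rw [mem_ker_add_id]
      have := (mem_ker_add_id σA a.1).1 a.2
      show σB (φ a.1) = -φ a.1
      rw [← hφ, this, map_neg])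
  let ψ' : LinearMap.ker (σB + LinearMap.id) →ₗ[k] LinearMap.ker (σC + LinearMap.id) :=
    (ψ.comp (LinearMap.ker (σB + LinearMap.id)).subtype).codRestrict _ (fun b => by
      rw [mem_ker_add_id]
      have := (mem_ker_add_id σB b.1).1 b.2
      show σC (ψ b.1) = -ψ b.1
      rw [← hψ, this, map_neg])
  have hφ'inj : Function.Injective φ' := by
    intro a a' h
    apply Subtype.ext
    apply hinj
    exact congrArg Subtype.val h
  have hψ'surj : Function.Surjective ψ' := by
    rintro ⟨c, hc⟩
    rw [mem_ker_add_id] at hc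
    obtain ⟨b, rfl⟩ := hsurj c
    have hb' : (2 : k)⁻¹ • (b - σB b) ∈ LinearMap.ker (σB + LinearMap.id) := by
      rw [mem_ker_add_id, map_smul, map_sub, hσB, ← smul_neg, neg_sub]
    refine ⟨⟨(2 : k)⁻¹ • (b - σB b), hb'⟩, ?_⟩
    apply Subtype.ext
    show ψ ((2 : k)⁻¹ • (b - σB b)) = ψ b
    rw [map_smul, map_sub, hψ, hc, sub_neg_eq_add, ← two_smul k (ψ b), smul_smul,
      inv_mul_cancel₀ h2, one_smul]
  have hker : LinearMap.ker ψ' = LinearMap.range φ' := by
    ext b
    rw [LinearMap.mem_ker, LinearMap.mem_range]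
    constructor
    · intro hb
      have hb0 : ψ b.1 = 0 := congrArg Subtype.val hb
      obtain ⟨a, ha⟩ := (hex b.1).1 hb0
      have hb1 := (mem_ker_add_id σB b.1).1 b.2
      have ha' : a ∈ LinearMap.ker (σA + LinearMap.id) := by
        rw [mem_ker_add_id]
        apply hinj
        rw [hφ, map_neg, ha, hb1]
      exact ⟨⟨a, ha'⟩, Subtype.ext ha⟩
    · rintro ⟨a, rfl⟩
      apply Subtype.ext
      show ψ (φ a.1) = 0
      exact (hex _).2 ⟨a.1, rfl⟩
  have h1 := LinearMap.finrank_range_add_finrank_ker ψ'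
  rw [LinearMap.range_eq_top.2 hψ'surj, finrank_top, hker,
    LinearMap.finrank_range_of_inj hφ'inj] at h1
  rw [negEigenRank, negEigenRank, negEigenRank]
  omega

end additive

end

end Fermat.Agent.TW.GlobalEC.NegEigen3
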