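/-
Program TW (S56), WP4 "EC", brick EC7 (bridge), the archimedean term, helper3.

For a finite-dimensional `𝔽_p[G_ℚ]`-module `M` and `N = M^*(1) = M.dualTwist (cycloChar p)`
(`= Contract52.dualOf p M`), `c` = complex conjugation, `p` odd:

* `cycloChar_complexConjugation` : `χ_p(c) = -1`;
* `negEigenRank_dualTwist_eq`    : `dim N^{c = -1} = dim M^{c = 1}`;
* `finrank_invariants_res_archimedeanLoc` : `h⁰(ℝ, M) = dim M^{c = 1}`;
* `negEigenRank_dualTwist_eq_archimedean` :
    `negEigenRank (N.ρ c) = finrank (Rep.res (extArithLoc S (Sum.inl ())) M).ρ.invariants`,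
  i.e. the term `d(N)` of Tate's formula `EC7Main3.tate_formula` is the archimedean local term of
  `Status52.BaseInequality`.
-/
import Mathlib
import Fermat.Prelude.Def_GaloisRep_ComplexConjugation
import Fermat.Prelude.Def_ExtCitation_KummerBridge
import Fermat.Prelude.Def_GroupCohomology_Selmer
import Fermat.Prelude.Def_ExtEndgame_ProductionDatum
import Fermat.Agent.TW.GlobalEC.NegEigen3

set_option autoImplicit false

open Module ExtCitation

namespace Fermat.Agent.TW.GlobalEC.ArchTerm3

open Fermat.Agent.TW.GlobalEC.SpecB26

local notation "Qb" => AlgebraicClosure ℚ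
local notation "GQ" => (AlgebraicClosure ℚ ≃ₐ[ℚ] AlgebraicClosure ℚ)

noncomputable section

/-- Complex conjugation inverts roots of unity. -/
theorem complexConjugation_apply_of_pow_eq_one {m : ℕ} (hm : m ≠ 0) {ζ : Qb} (hζ : ζ ^ m = 1) :
    complexConjugation ζ = ζ⁻¹ := by
  apply complexEmbedding.toRingHom.injective
  change complexEmbedding (complexConjugation ζ) = complexEmbedding ζ⁻¹
  rw [complexEmbedding_complexConjugation, map_inv₀]
  have h1 : (complexEmbedding ζ) ^ m = 1 := by rw [← map_pow, hζ, map_one]
  have h2 : ‖complexEmbedding ζ‖ = 1 := Complex.norm_eq_one_of_pow_eq_one h1 hm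
  exact (Complex.inv_eq_conj h2).symm

variable (p : ℕ) [Fact p.Prime]

/-- The mod `p` cyclotomic character of complex conjugation is `-1`. -/
theorem cycloChar_complexConjugation : ((cycloChar p complexConjugation : (ZMod p)ˣ) : ZMod p) = -1 := by
  have hp : p.Prime := Fact.out
  have : NeZero p := ⟨hp.ne_zero⟩
  have key := modularCyclotomicCharacter.unique (L := Qb) (card_rootsOfUnity_eq_self p)
    ((complexConjugation : GQ) : Qb ≃+* Qb) (c := (-1 : ZMod p)) (by
      intro t ht
      have ht1 : (t : Qb) ^ p = 1 := by
        have := (mem_rootsOfUnity p t).1 ht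
        rw [← Units.val_pow_eq_pow_val, this, Units.val_one]
      have hval : (-1 : ZMod p).val = p - 1 := by
        have : Fact (1 < p) := ⟨hp.one_lt⟩
        rw [ZMod.neg_val, if_neg one_ne_zero, ZMod.val_one]
      rw [hval]
      show complexConjugation (t : Qb) = (t : Qb) ^ (p - 1)
      rw [complexConjugation_apply_of_pow_eq_one hp.ne_zero ht1]
      have ht0 : (t : Qb) ≠ 0 := t.ne_zero
      rw [eq_comm, ← mul_right_inj' ht0, mul_inv_cancel₀ ht0, ← pow_succ',
        Nat.sub_add_cancel hp.one_le, ht1])
  exact key.symm

variable (M : Rep.{0} (ZMod p) GQ)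

/-- `dim (M^*(1))^{c = -1} = dim M^{c = 1}`. -/
theorem negEigenRank_dualTwist_eq [FiniteDimensional (ZMod p) M] :
    negEigenRank ((M.dualTwist (cycloChar p)).ρ complexConjugation)
      = finrank (ZMod p) (LinearMap.ker (M.ρ complexConjugation - LinearMap.id)) := by
  have hker : LinearMap.ker ((M.dualTwist (cycloChar p)).ρ complexConjugation + LinearMap.id)
      = (LinearMap.range (M.ρ complexConjugation - LinearMap.id)).dualAnnihilator := by
    ext f
    rw [NegEigen3.mem_ker_add_id, Submodule.mem_dualAnnihilator]
    have h1 : (M.dualTwist (cycloChar p)).ρ complexConjugation f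
        = -(f ∘ₗ M.ρ complexConjugation) := by
      rw [Rep.dualTwist_ρ_apply, cycloChar_complexConjugation, complexConjugation_inv]
      exact neg_one_smul (ZMod p) (f ∘ₗ M.ρ complexConjugation)
    rw [h1, neg_inj]
    constructor
    · rintro h _ ⟨v, rfl⟩
      have := LinearMap.congr_fun h v
      rw [LinearMap.sub_apply, LinearMap.id_apply, map_sub, sub_eq_zero]
      exact this
    · intro h
      refine LinearMap.ext fun v => ?_
      have := h _ ⟨v, rfl⟩
      rw [LinearMap.sub_apply, LinearMap.id_apply, map_sub, sub_eq_zero] at this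
      exact this
  have h0 : negEigenRank ((M.dualTwist (cycloChar p)).ρ complexConjugation)
      = finrank (ZMod p)
        (LinearMap.range (M.ρ complexConjugation - LinearMap.id)).dualAnnihilator := by
    rw [negEigenRank, hker]
  have h1 := LinearMap.finrank_range_add_finrank_ker (M.ρ complexConjugation - LinearMap.id)
  have h2 := Subspace.finrank_add_finrank_dualAnnihilator_eq
    (LinearMap.range (M.ρ complexConjugation - LinearMap.id))
  rw [h0]
  omega

/-- `h⁰(ℝ, M) = dim M^{c = 1}`. -/
theorem finrank_invariants_res_archimedeanLoc :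
    finrank (ZMod p) (Rep.res archimedeanLoc M).ρ.invariants
      = finrank (ZMod p) (LinearMap.ker (M.ρ complexConjugation - LinearMap.id)) := by
  have : (Rep.res archimedeanLoc M).ρ.invariants
      = LinearMap.ker (M.ρ complexConjugation - LinearMap.id) := by
    ext v
    rw [NegEigen3.mem_ker_sub_id, Representation.mem_invariants]
    constructor
    · intro h
      exact h archimedeanGen
    · rintro h ⟨g, hg⟩
      show M.ρ g v = v
      obtain ⟨n, rfl⟩ := Subgroup.mem_zpowers_iff.1 hg
      have hfix : ∀ m : ℕ, M.ρ (complexConjugation ^ m) v = v := by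
        intro m
        induction m with
        | zero => rw [pow_zero, map_one, Module.End.one_apply]
        | succ m ih => rw [pow_succ, map_mul, Module.End.mul_apply, h, ih]
      have hinv : ∀ g : GQ, M.ρ g v = v → M.ρ g⁻¹ v = v := by
        intro g hg
        conv_lhs => rw [← hg]
        rw [← Module.End.mul_apply, ← map_mul, inv_mul_cancel, map_one, Module.End.one_apply]
      rcases Int.eq_nat_or_neg n with ⟨m, rfl | rfl⟩
      · rw [zpow_natCast]
        exact hfix m
      · rw [zpow_neg, zpow_natCast]
        exact hinv _ (hfix m)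
  rw [this]

/-- The term `d(N)` of Tate's formula is the archimedean local term:
`dim (M^*(1))^{c = -1} = h⁰(ℝ, M)`. -/
theorem negEigenRank_dualTwist_eq_archimedean [FiniteDimensional (ZMod p) M]
    (S : Finset Nat.Primes) :
    negEigenRank ((M.dualTwist (cycloChar p)).ρ complexConjugation)
      = finrank (ZMod p) (Rep.res (extArithLoc S (Sum.inl ())) M).ρ.invariants := by
  rw [negEigenRank_dualTwist_eq]
  exact (finrank_invariants_res_archimedeanLoc p M).symm

end

end Fermat.Agent.TW.GlobalEC.ArchTerm3
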