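/-
Program TW (S56), WP4 "EC", brick EC7 (final bridge), helper28.

`Status52.BaseInequality p S M` (= the inequality of `Contract52.BaseCase`, with EQUALITY) from

* Tate's formula for `N = M^*(1) = M.dualTwist (cycloChar p)` over `(Γ, levelS S, C_S[p])`:
    `euler (levelS S) (pTorsionRep p (CS S)) N + negEigenRank (N.ρ complexConjugation) = 0`
  (the conclusion of `EC7Main3.tate_formula` at `X = N`, `cc = complexConjugation`), taken here as a
  HYPOTHESIS `hT`;
* EC6 (`HomCS28.eqHomRank_dual_CS`): `dim Hom_Γ(N, C_S[p]) + dim M^Γ = dim Ш¹_S(M) + Σ_q h⁰(ℚ_q, M)`;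
* the archimedean term (`ArchTerm3.negEigenRank_dualTwist_eq_archimedean`);
* the identification `H¹_lev(levelS S, N) ≃ continuousH1S S N` (`LevelBridge13.H1Equiv`).

Main statements:

* `finrank_H1_levelS`        : `finrank (H1 (levelS S) X) = finrank (continuousH1S S X)`;
* `baseEquality_of_tate`     : the inequality of `BaseCase`, as an equality;
* `baseInequality_of_tate`   : literally the body of `Status52.BaseInequality p S M`;
* `baseCase_of_tate`         : `Contract52.BaseCase p S M`.
-/
import Mathlib
import Fermat.Agent.TW.GlobalEC.HomCS28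
import Fermat.Agent.TW.GlobalEC.ArchTerm3

set_option autoImplicit false

open CategoryTheory groupCohomology Module ExtCitation

namespace Fermat.Agent.TW.GlobalEC.BaseBridge28

open Fermat.Agent.PT.PRO.LevelCoh28 Fermat.Agent.PT.GLUE.Objects21
open Fermat.Agent.PT.BR.LevelBridge13
open Fermat.Agent.TW.GlobalEC.Spec26 Fermat.Agent.TW.GlobalEC.SpecB26
open Fermat.Agent.TW.Spec.Contract52

local notation "Γ" => (AlgebraicClosure ℚ ≃ₐ[ℚ] AlgebraicClosure ℚ)

/-- The level cohomology `H¹` for the basis `levelS S` has the dimension of the Prelude's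
`continuousH1S S X`. -/
theorem finrank_H1_levelS {k : Type} [Field k] (S : Finset Nat.Primes) (X : Rep.{0} k Γ) :
    finrank k (H1 (levelS S) X) = finrank k (continuousH1S S X) := by
  rw [← Fermat.Agent.PT.GLUE.BasisCompare13.globalBasis_eq S]
  exact (H1Equiv S X).finrank_eq

variable (p : ℕ) [Fact p.Prime]

/-- **EC7, final bridge (equality form).** -/
theorem baseEquality_of_tate (hp2 : p ≠ 2) (S : Finset Nat.Primes) (hpS : pPrime p ∈ S)
    (M : Rep.{0} (ZMod p) Γ) (hM : IsSmoothUnramified p S M)
    (hT : euler (levelS S) (pTorsionRep p (CS S)) (M.dualTwist (cycloChar p))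
      + (negEigenRank ((M.dualTwist (cycloChar p)).ρ complexConjugation) : ℤ) = 0) :
    finrank (ZMod p) (sha₁ S M) + finrank (ZMod p) (dualOf p M).ρ.invariants
        + ∑ v, finrank (ZMod p) (Rep.res (extArithLoc S v) M).ρ.invariants
      = finrank (ZMod p) (continuousH1S S (dualOf p M)) + finrank (ZMod p) M.ρ.invariants := by
  have hfin := hM.finite
  have h6 := (HomCS28.eqHomRank_dual_CS p hp2 S hpS M hM).2
  have hsum := HomCS28.sum_extArith p S M
  have harch := ArchTerm3.negEigenRank_dualTwist_eq_archimedean p M S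
  have hH1 := finrank_H1_levelS (k := ZMod p) S (M.dualTwist (cycloChar p))
  change negEigenRank ((M.dualTwist (cycloChar p)).ρ complexConjugation)
      = finrank (ZMod p) (Rep.res archimedeanLoc M).ρ.invariants at harch
  unfold euler at hT
  show finrank (ZMod p) (sha₁ S M) + finrank (ZMod p) (M.dualTwist (cycloChar p)).ρ.invariants
        + ∑ v, finrank (ZMod p) (Rep.res (extArithLoc S v) M).ρ.invariants
      = finrank (ZMod p) (continuousH1S S (M.dualTwist (cycloChar p)))
        + finrank (ZMod p) M.ρ.invariants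
  omega

/-- **EC7, final bridge.**  Literally the body of `Status52.BaseInequality p S M`. -/
theorem baseInequality_of_tate (hp2 : p ≠ 2) (S : Finset Nat.Primes) (hpS : pPrime p ∈ S)
    (M : Rep.{0} (ZMod p) Γ) (hM : IsSmoothUnramified p S M)
    (hT : euler (levelS S) (pTorsionRep p (CS S)) (M.dualTwist (cycloChar p))
      + (negEigenRank ((M.dualTwist (cycloChar p)).ρ complexConjugation) : ℤ) = 0) :
    finrank (ZMod p) (sha₁ S M) + finrank (ZMod p) (dualOf p M).ρ.invariants
        + ∑ v, finrank (ZMod p) (Rep.res (extArithLoc S v) M).ρ.invariants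
      ≤ finrank (ZMod p) (continuousH1S S (dualOf p M)) + finrank (ZMod p) M.ρ.invariants :=
  (baseEquality_of_tate p hp2 S hpS M hM hT).le

/-- **EC7, final bridge: `Contract52.BaseCase`.** -/
theorem baseCase_of_tate (hp2 : p ≠ 2) (S : Finset Nat.Primes) (hpS : pPrime p ∈ S)
    (M : Rep.{0} (ZMod p) Γ) (hM : IsSmoothUnramified p S M)
    (hT : euler (levelS S) (pTorsionRep p (CS S)) (M.dualTwist (cycloChar p))
      + (negEigenRank ((M.dualTwist (cycloChar p)).ρ complexConjugation) : ℤ) = 0) :
    BaseCase p S M :=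
  ⟨(HomCS28.finiteDimensional_H1S p S hpS M hM).1, (HomCS28.finiteDimensional_H1S p S hpS M hM).2,
    baseInequality_of_tate p hp2 S hpS M hM hT⟩

end Fermat.Agent.TW.GlobalEC.BaseBridge28
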