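/-
Program TW (S56), work package WP4 "EC", brick EC3PT (abstract half), helper26.

The two inputs `SpecD26.HyperDuality` / `SpecD26.HasInv` of the Euler characteristic argument, from
the Poitou–Tate library's hypotheses, for an arbitrary group `G`, level basis and discrete module:

* `lkrk_of_hypP`  : `GlobalDuality20b.HypP (R.datum ρC) 𝒰 ℱ p` (plus discreteness) gives the
      cochain-level left and right kernel statements `SpecD26.LKDatum`, `SpecD26.RKDatum`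
      (generic coefficient ring `k`);
* `hasInv_of_tau` : an injective `τ : H²_lev(G, C)[p] →+ ℤ/p` (`InvFund18.exists_inv_of_isFundClass`)
      gives `SpecD26.HasInv 𝓑 C p` (generic `k`).
-/
import Mathlib
import Fermat.Agent.PT.PRO.GlobalDuality20b
import Fermat.Agent.PT.PRO.Setup20
import Fermat.Agent.PT.PRO.InvP4
import Fermat.Agent.PT.PRO.LevelEquiv29
import Fermat.Agent.TW.GlobalEC.SpecD26

set_option autoImplicit false
set_option linter.unusedSectionVars false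

namespace Fermat.Agent.TW.GlobalEC.DualityAbs26

open Fermat.Agent.PT.PRO Fermat.Agent.PT.PRO.HyperLevel25 Fermat.Agent.PT.PRO.Pairing20
  Fermat.Agent.PT.PRO.IndRes20 Fermat.Agent.PT.PRO.GlobalDuality20b
  Fermat.Agent.TW.GlobalEC.SpecD26

section LKRK

variable {k : Type*} [CommRing k] {G : Type*} [Group G]
variable {P1 P0 M C : Type*} [AddCommGroup P1] [Module k P1] [AddCommGroup P0] [Module k P0]
  [AddCommGroup M] [Module k M] [AddCommGroup C] [Module k C]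

/-- The cochain-level kernel statements for `K(P; C)` from `HypP`. -/
theorem lkrk_of_hypP [Module.Finite k P0] [Module.Finite k P1] (R : Res k G P1 P0 M)
    (ρC : Representation k G C) {𝒰 ℱ : Set (Subgroup G)} {p : ℕ} (h𝒰 : IsLevelBasis 𝒰)
    (h0 : IsDiscrete 𝒰 R.ρ0) (hC : IsDiscrete 𝒰 ρC) (H : HypP (R.datum ρC) 𝒰 ℱ p) :
    LKDatum R ρC 𝒰 ∧ RKDatum R ρC 𝒰 := by
  have hY0 : IsDiscrete 𝒰 (R.datum ρC).ρY0 := Resolved4.isDiscrete_linHom h𝒰 h0 hC
  have hY1 : IsDiscrete 𝒰 (R.datum ρC).ρY1 :=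
    Resolved4.isDiscrete_linHom h𝒰 (Setup20.toResolved R h0).disc1 hC
  exact ⟨fun c y hcy hcl hpair => left_kernel h𝒰 H hY0 hY1 hcy hcl hpair,
    fun a' b hab ha hpair => right_kernel h𝒰 H h0 hab ha hpair⟩

end LKRK

section Inv

variable {k : Type} [CommRing k] {G : Type} [Group G]

/-- The class in `Hlev2` of a level 2-cocycle. -/
noncomputable def cls (𝓑 : LevelCoh28.LevelBasis G) (C : Rep.{0} k G)
    (hC : LevelCoh28.IsDiscrete 𝓑.sets C) (z : ↥(LevelCoh28.Z2 𝓑 C)) :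
    Resolved4.Hlev2 (LevelEquiv29.basis 𝓑) C.ρ hC :=
  LevelEquiv29.h2Equiv 𝓑 C hC (LevelCoh28.H2mk 𝓑 C z)

theorem cls_add (𝓑 : LevelCoh28.LevelBasis G) (C : Rep.{0} k G)
    (hC : LevelCoh28.IsDiscrete 𝓑.sets C) (z z' : ↥(LevelCoh28.Z2 𝓑 C)) :
    cls 𝓑 C hC (z + z') = cls 𝓑 C hC z + cls 𝓑 C hC z' := by
  unfold cls
  rw [map_add, map_add]

theorem cls_eq_zero_iff (𝓑 : LevelCoh28.LevelBasis G) (C : Rep.{0} k G)
    (hC : LevelCoh28.IsDiscrete 𝓑.sets C) (z : ↥(LevelCoh28.Z2 𝓑 C)) :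
    cls 𝓑 C hC z = 0 ↔ (z : G × G → C) ∈ LevelCoh28.B2 𝓑 C := by
  unfold cls
  rw [LinearEquiv.map_eq_zero_iff, LevelCoh28.H2mk_eq_zero_iff]

theorem nsmul_cls (𝓑 : LevelCoh28.LevelBasis G) (C : Rep.{0} k G)
    (hC : LevelCoh28.IsDiscrete 𝓑.sets C) (p : ℕ) (z : ↥(LevelCoh28.Z2 𝓑 C))
    (hz : p • (z : G × G → C) ∈ LevelCoh28.B2 𝓑 C) : p • cls 𝓑 C hC z = 0 := by
  have h : cls 𝓑 C hC (p • z) = 0 := (cls_eq_zero_iff 𝓑 C hC (p • z)).2 (by
    rw [Submodule.coe_smul_of_tower]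
    exact hz)
  unfold cls at h ⊢
  rwa [map_nsmul, map_nsmul] at h

/-- **`SpecD26.HasInv` from an injective `τ : H²_lev(G, C)[p] →+ ℤ/p`.** -/
theorem hasInv_of_tau (𝓑 : LevelCoh28.LevelBasis G) (C : Rep.{0} k G) (p : ℕ)
    (hC : LevelCoh28.IsDiscrete 𝓑.sets C)
    (τ : InvP4.pTor p (Resolved4.Hlev2 (LevelEquiv29.basis 𝓑) C.ρ hC) →+ ZMod p)
    (hτ : Function.Injective τ) : HasInv 𝓑 C p := by
  classical
  refine ⟨fun z => if h : IsPCocycle₂ 𝓑 C p z then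
    τ ⟨cls 𝓑 C hC ⟨z, h.1⟩, nsmul_cls 𝓑 C hC p ⟨z, h.1⟩ h.2⟩ else 0, ?_, ?_⟩
  · intro z z' hz hz'
    have hzz' : IsPCocycle₂ 𝓑 C p (z + z') :=
      ⟨Submodule.add_mem _ hz.1 hz'.1, by
        rw [smul_add]
        exact Submodule.add_mem _ hz.2 hz'.2⟩
    simp only [dif_pos hz, dif_pos hz', dif_pos hzz']
    rw [← map_add]
    exact congrArg τ (Subtype.ext (cls_add 𝓑 C hC ⟨z, hz.1⟩ ⟨z', hz'.1⟩))
  · intro z hz
    simp only [dif_pos hz]
    rw [← map_zero τ, hτ.eq_iff, ← cls_eq_zero_iff 𝓑 C hC ⟨z, hz.1⟩]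
    constructor
    · intro h
      exact congrArg Subtype.val h
    · intro h
      exact Subtype.ext h

end Inv

end Fermat.Agent.TW.GlobalEC.DualityAbs26
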