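/-
Program TW (S56), work package WP4 "EC", brick EC3PT (concrete half), helper26.

For `Γ = Gal(ℚ̄/ℚ)`, the level basis `levelS S` (open subgroups containing the kernel of
`Γ → Gal(ℚ_S/ℚ)`), the `S`-idele class module `C_S = Objects21.CS S`, `p` odd, `p ∈ S`:

* `hypPDatum_CS`   : `HypP` for the pairing datum of every resolution `0 → P₁ → P₀ → M → 0` of a
      `p`-torsion module by finite free `ℤ`-modules with discrete action (Poitou–Tate library:
      fundamental classes at the finite levels + (GEXnorm));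
* `exists_tau_CS`  : the invariant map `τ : H²_lev(Γ, C_S)[p] ↪ ℤ/p`;
* `hyperDuality_CS : SpecD26.HyperDuality (levelS S) (CS S) p`;
* `hasInv_CS       : SpecD26.HasInv (levelS S) (CS S) p`.
-/
import Mathlib
import Fermat.Agent.PT.PRO.GlobalHypP8
import Fermat.Agent.PT.PRO.InvFund18
import Fermat.Agent.PT.GLUE.FundLevel2
import Fermat.Agent.PT.GLUE.GexNormFinal15
import Fermat.Agent.PT.GLOB.FundClassExists6
import Fermat.Agent.TW.GlobalEC.DualityAbs26

set_option autoImplicit false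
set_option linter.unusedSectionVars false

open ExtCitation

namespace Fermat.Agent.TW.GlobalEC.DualityCS26

open Fermat.Agent.PT Fermat.Agent.PT.PRO Fermat.Agent.PT.GLUE Fermat.Agent.PT.GLUE.Objects21
open Fermat.Agent.PT.PRO.HyperLevel25 Fermat.Agent.PT.PRO.IndRes20
open Fermat.Agent.PT.PRO.LevelEquiv29
open Fermat.Agent.TW.GlobalEC.SpecD26

local notation "Γ" => (AlgebraicClosure ℚ ≃ₐ[ℚ] AlgebraicClosure ℚ)

variable (p : ℕ) [Fact p.Prime]

/-- **`HypP` for `K(P; C_S)`**, for every resolution of a `p`-torsion module by finite free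
`ℤ`-modules with discrete action. -/
theorem hypPDatum_CS (hp2 : p ≠ 2) (S : Finset Nat.Primes) (hpS : pPrime p ∈ S)
    {P1 P0 M : Type} [AddCommGroup P1] [Module ℤ P1] [AddCommGroup P0] [Module ℤ P0]
    [AddCommGroup M] [Module ℤ M] [Module.Free ℤ P0] [Module.Finite ℤ P0] [Module.Free ℤ P1]
    [Module.Finite ℤ P1] (R : Res ℤ Γ P1 P0 M) (h0 : IsDiscrete (levelS S).sets R.ρ0)
    (hpM : ∀ m : M, p • m = 0) :
    HypPFund18.HypPDatum R (CS S).ρ (levelS S).sets (GlobalHypP8.trivFam R (levelS S).sets) p := by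
  have hp : p.Prime := Fact.out
  have hGCF := GLOB.FundClassExists6.fundClassExists p S
  have hfund := GLUE.FundLevel2.fundFixed_CS p hp2 hpS hGCF
  have hgex := GLUE.GexNormFinal15.gexNormLevel (S := S) hp hp2 hpS
  exact HypPFund18.hypPDatum_of_isFundClass R (CS S).ρ (basis (levelS S)) hpM (isDiscrete_CS S)
    (GlobalHypP8.trivFam_sub _ _) (GlobalHypP8.trivFam_normal _ _)
    (GlobalHypP8.trivFam_cofinal _ (basis (levelS S)) h0) (GlobalHypP8.trivFam_triv0 _ _)
    hfund (GlobalHypP8.gexNorm_trivFam _ hgex)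

/-- **The invariant map** `τ : H²_lev(Γ, C_S)[p] ↪ ℤ/p`. -/
theorem exists_tau_CS (hp2 : p ≠ 2) (S : Finset Nat.Primes) (hpS : pPrime p ∈ S) :
    ∃ τ : InvP4.pTor p (Resolved4.Hlev2 (basis (levelS S)) (CS S).ρ (isDiscrete_CS S)) →+ ZMod p,
      Function.Injective τ := by
  have hGCF := GLOB.FundClassExists6.fundClassExists p S
  have hfund := GLUE.FundLevel2.fundFixed_CS p hp2 hpS hGCF
  exact InvFund18.exists_inv_of_isFundClass (CS S).ρ (basis (levelS S)) (isDiscrete_CS S) hfund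

/-- **EC3PT (i)**: hyper-duality for `(Γ, levelS S, C_S)`. -/
theorem hyperDuality_CS (hp2 : p ≠ 2) (S : Finset Nat.Primes) (hpS : pPrime p ∈ S) :
    HyperDuality (levelS S) (CS S) p := by
  intro P1 P0 M _ _ _ _ _ _ _ _ _ _ R h0 hpM
  exact DualityAbs26.lkrk_of_hypP R (CS S).ρ (basis (levelS S)) h0 (isDiscrete_CS S)
    (hypPDatum_CS p hp2 S hpS R h0 hpM).hypP

/-- **EC3PT (ii)**: the invariant map for `(Γ, levelS S, C_S)`. -/
theorem hasInv_CS (hp2 : p ≠ 2) (S : Finset Nat.Primes) (hpS : pPrime p ∈ S) :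
    HasInv (levelS S) (CS S) p := by
  obtain ⟨τ, hτ⟩ := exists_tau_CS p hp2 S hpS
  exact DualityAbs26.hasInv_of_tau (levelS S) (CS S) p (isDiscrete_CS S) τ hτ

end Fermat.Agent.TW.GlobalEC.DualityCS26
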