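/-
TW / WP4 (global Euler characteristic), helper59: ADMISSIBLE modules.

A `G`-module `X` is *admissible* (for the prime `p`) if `X[p]` and `X / pX` are finite; these are the
modules on which the mod `p` Euler characteristic `χ_p(X) = [X/p] - [X[p]]` is defined.  This file
proves the closure properties of admissibility in short exact sequences which are needed to splice
exact sequences of non finitely generated modules such as `1 → E_T → I_T → C_T → Cl_T → 1`:

* `AdmGrp.of_finite`     : finite groups are admissible;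
* `AdmGrp.of_exact_right`: `0 → A → B → C → 0` exact, `A`, `B` admissible ⟹ `C` admissible;
* `AdmGrp.of_exact_mid`  : `0 → A → B → C → 0` exact, `A`, `C` admissible ⟹ `B` admissible;
* `Adm p X` for `X : Rep R G` (in terms of `SpecB26.pTorsionSub`, `SpecB26.pMulSub`), the same
  closure properties for `Spec26.IsShortExact`-shaped sequences, and
  `adm_iff_finiteDimensional` (the finite-dimensionality of `pTorsionRep p X` and `modPRep p X`).
-/
import Mathlib
import Fermat.Agent.TW.GlobalEC.SpecB26

set_option autoImplicit false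
set_option linter.unusedSectionVars false

namespace Fermat.Agent.TW.GlobalEC.Adm59

/-! ### Plain abelian groups -/

section Groups

variable (p : ℕ)

/-- The `p`-torsion subgroup. -/
def tors (X : Type*) [AddCommGroup X] : AddSubgroup X := (nsmulAddMonoidHom p : X →+ X).ker

/-- The subgroup `pX`. -/
def mulp (X : Type*) [AddCommGroup X] : AddSubgroup X := (nsmulAddMonoidHom p : X →+ X).range

theorem mem_tors {X : Type*} [AddCommGroup X] (x : X) : x ∈ tors p X ↔ p • x = 0 := Iff.rfl

theorem mem_mulp {X : Type*} [AddCommGroup X] (x : X) : x ∈ mulp p X ↔ ∃ y : X, p • y = x :=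
  Iff.rfl

/-- An abelian group is admissible if its `p`-torsion and its quotient by `p` are finite. -/
def AdmGrp (X : Type*) [AddCommGroup X] : Prop := Finite (tors p X) ∧ Finite (X ⧸ mulp p X)

theorem AdmGrp.of_finite (X : Type*) [AddCommGroup X] [Finite X] : AdmGrp p X :=
  ⟨inferInstance, inferInstance⟩

variable {p}
variable {A B C : Type*} [AddCommGroup A] [AddCommGroup B] [AddCommGroup C]
  (f : A →+ B) (g : B →+ C)

/-- Finiteness of `C / pC` from that of `B / pB`. -/
theorem finite_quot_of_surjective (hg : Function.Surjective g) (hB : Finite (B ⧸ mulp p B)) :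
    Finite (C ⧸ mulp p C) := by
  have hle : mulp p B ≤ (mulp p C).comap g := by
    rintro _ ⟨y, rfl⟩
    exact ⟨g y, (map_nsmul g p y).symm⟩
  let φ : B ⧸ mulp p B →+ C ⧸ mulp p C := QuotientAddGroup.map _ _ g hle
  apply Finite.of_surjective φ
  intro c
  induction c using QuotientAddGroup.induction_on with
  | H c =>
    obtain ⟨b, rfl⟩ := hg c
    exact ⟨(b : B ⧸ mulp p B), rfl⟩

/-- Finiteness of `C[p]` from that of `B[p]` and `A / pA` (the connecting map of the snake
lemma). -/
theorem finite_tors_of_exact (hg : Function.Surjective g) (hex : Function.Exact f g)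
    (hB : Finite (tors p B)) (hA : Finite (A ⧸ mulp p A)) : Finite (tors p C) := by
  classical
  have hgf : ∀ a : A, g (f a) = 0 := fun a => (hex (f a)).mpr ⟨a, rfl⟩
  -- the relation "`α` is the image of `c` under the connecting map"
  let R : C → A ⧸ mulp p A → Prop := fun c α =>
    ∃ (b : B) (a : A), g b = c ∧ f a = p • b ∧ (a : A ⧸ mulp p A) = α
  have hR : ∀ c : C, p • c = 0 → ∃ α, R c α := by
    intro c hc
    obtain ⟨b, rfl⟩ := hg c
    obtain ⟨a, ha⟩ := (hex (p • b)).mp (by rw [map_nsmul, hc])
    exact ⟨_, b, a, rfl, ha, rfl⟩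
  have hdiff : ∀ (c c' : C) (α : A ⧸ mulp p A), R c α → R c' α →
      ∃ t : B, p • t = 0 ∧ g t = c - c' := by
    rintro c c' α ⟨b, a, rfl, ha, hα⟩ ⟨b', a', rfl, ha', hα'⟩
    have h1 : (a' : A ⧸ mulp p A) = (a : A ⧸ mulp p A) := hα'.trans hα.symm
    rw [QuotientAddGroup.eq, mem_mulp] at h1
    obtain ⟨a₁, ha₁⟩ := h1
    -- `p • a₁ = -a' + a`
    refine ⟨b - b' - f a₁, ?_, ?_⟩
    · rw [smul_sub, smul_sub, ← ha, ← ha', ← map_nsmul f, ha₁, map_add, map_neg]
      abel
    · rw [map_sub, map_sub, hgf, sub_zero]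
  -- representatives of the classes which are hit
  let rep : A ⧸ mulp p A → C := fun α =>
    if h : ∃ c : C, p • c = 0 ∧ R c α then h.choose else 0
  have hrep : ∀ α, (∃ c : C, p • c = 0 ∧ R c α) → R (rep α) α := by
    intro α h
    simp only [rep, dif_pos h]
    exact h.choose_spec.2
  let Ψ : (A ⧸ mulp p A) × tors p B → C := fun x => rep x.1 + g (x.2 : B)
  have hsub : (tors p C : Set C) ⊆ Set.range Ψ := by
    intro c hc
    have hc' : p • c = 0 := hc
    obtain ⟨α, hα⟩ := hR c hc'
    obtain ⟨t, ht, hgt⟩ := hdiff c (rep α) α hα (hrep α ⟨c, hc', hα⟩)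
    refine ⟨(α, ⟨t, ht⟩), ?_⟩
    change rep α + g t = c
    rw [hgt]
    abel
  exact (Set.finite_coe_iff.mpr ((Set.finite_range Ψ).subset hsub))

/-- Finiteness of `B[p]` from that of `A[p]` and `C[p]`. -/
theorem finite_tors_mid (hf : Function.Injective f) (hex : Function.Exact f g)
    (hA : Finite (tors p A)) (hC : Finite (tors p C)) : Finite (tors p B) := by
  classical
  let rep : tors p C → B := fun γ =>
    if h : ∃ b : B, p • b = 0 ∧ g b = γ then h.choose else 0
  let Ψ : tors p C × tors p A → B := fun x => rep x.1 + f (x.2 : A)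
  have hsub : (tors p B : Set B) ⊆ Set.range Ψ := by
    intro b hb
    have hb' : p • b = 0 := hb
    have hγ : p • g b = 0 := by rw [← map_nsmul, hb', map_zero]
    let γ : tors p C := ⟨g b, hγ⟩
    have hex' : ∃ b' : B, p • b' = 0 ∧ g b' = γ := ⟨b, hb', rfl⟩
    have hrep : p • rep γ = 0 ∧ g (rep γ) = γ := by
      simp only [rep, dif_pos hex']
      exact hex'.choose_spec
    obtain ⟨a, ha⟩ := (hex (b - rep γ)).mp (by rw [map_sub, hrep.2, sub_self])
    have hpa : p • a = 0 := by
      apply hf
      rw [map_nsmul, ha, smul_sub, hb', hrep.1, sub_zero, map_zero]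
    refine ⟨(γ, ⟨a, hpa⟩), ?_⟩
    change rep γ + f a = b
    rw [ha]
    abel
  exact (Set.finite_coe_iff.mpr ((Set.finite_range Ψ).subset hsub))

/-- Finiteness of `B / pB` from that of `A / pA` and `C / pC`. -/
theorem finite_quot_mid (hg : Function.Surjective g) (hex : Function.Exact f g)
    (hA : Finite (A ⧸ mulp p A)) (hC : Finite (C ⧸ mulp p C)) : Finite (B ⧸ mulp p B) := by
  classical
  have hle : mulp p A ≤ (mulp p B).comap f := by
    rintro _ ⟨y, rfl⟩
    exact ⟨f y, (map_nsmul f p y).symm⟩
  let fbar : A ⧸ mulp p A →+ B ⧸ mulp p B := QuotientAddGroup.map _ _ f hle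
  let rep : C ⧸ mulp p C → B := fun γ =>
    if h : ∃ b : B, ((g b : C) : C ⧸ mulp p C) = γ then h.choose else 0
  let Ψ : (C ⧸ mulp p C) × (A ⧸ mulp p A) → B ⧸ mulp p B :=
    fun x => ((rep x.1 : B) : B ⧸ mulp p B) + fbar x.2
  apply Finite.of_surjective Ψ
  intro β
  induction β using QuotientAddGroup.induction_on with
  | H b =>
    let γ : C ⧸ mulp p C := ((g b : C) : C ⧸ mulp p C)
    have hex' : ∃ b' : B, ((g b' : C) : C ⧸ mulp p C) = γ := ⟨b, rfl⟩
    have hrep : ((g (rep γ) : C) : C ⧸ mulp p C) = γ := by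
      simp only [rep, dif_pos hex']
      exact hex'.choose_spec
    have h1 : -(g (rep γ)) + g b ∈ mulp p C := QuotientAddGroup.eq.mp hrep
    obtain ⟨c₁, hc₁⟩ := h1
    obtain ⟨b₁, rfl⟩ := hg c₁
    obtain ⟨a, ha⟩ := (hex (b - rep γ - p • b₁)).mp (by
      rw [map_sub, map_sub, map_nsmul]
      have : p • g b₁ = -(g (rep γ)) + g b := hc₁
      rw [this]
      abel)
    refine ⟨(γ, (a : A ⧸ mulp p A)), ?_⟩
    change ((rep γ : B) : B ⧸ mulp p B) + ((f a : B) : B ⧸ mulp p B) = (b : B ⧸ mulp p B)
    rw [ha, ← QuotientAddGroup.mk_add, QuotientAddGroup.eq, mem_mulp]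
    refine ⟨b₁, ?_⟩
    abel

/-- `0 → A → B → C → 0` exact with `A`, `B` admissible: `C` is admissible. -/
theorem AdmGrp.of_exact_right (hg : Function.Surjective g) (hex : Function.Exact f g)
    (hA : AdmGrp p A) (hB : AdmGrp p B) : AdmGrp p C :=
  ⟨finite_tors_of_exact f g hg hex hB.1 hA.2, finite_quot_of_surjective g hg hB.2⟩

/-- `0 → A → B → C → 0` exact with `A`, `C` admissible: `B` is admissible. -/
theorem AdmGrp.of_exact_mid (hf : Function.Injective f) (hg : Function.Surjective g)
    (hex : Function.Exact f g) (hA : AdmGrp p A) (hC : AdmGrp p C) : AdmGrp p B :=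
  ⟨finite_tors_mid f g hf hex hA.1 hC.1, finite_quot_mid f g hg hex hA.2 hC.2⟩

/-- Finiteness of `A[p]` from that of `B[p]`. -/
theorem finite_tors_left (hf : Function.Injective f) (hB : Finite (tors p B)) :
    Finite (tors p A) := by
  let φ : tors p A → tors p B := fun a => ⟨f a, by
    change p • f (a : A) = 0
    rw [← map_nsmul, show p • (a : A) = 0 from a.2, map_zero]⟩
  apply Finite.of_injective φ
  intro a a' h
  exact Subtype.ext (hf (congrArg Subtype.val h))

/-- Finiteness of `A / pA` from that of `B / pB` and `C[p]`. -/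
theorem finite_quot_left (hf : Function.Injective f) (hex : Function.Exact f g)
    (hB : Finite (B ⧸ mulp p B)) (hC : Finite (tors p C)) : Finite (A ⧸ mulp p A) := by
  classical
  have hgf : ∀ a : A, g (f a) = 0 := fun a => (hex (f a)).mpr ⟨a, rfl⟩
  let rep : B ⧸ mulp p B → A := fun β =>
    if h : ∃ a : A, ((f a : B) : B ⧸ mulp p B) = β then h.choose else 0
  let con : tors p C → A := fun γ =>
    if h : ∃ (d : A) (b : B), g b = γ ∧ f d = p • b then h.choose else 0
  let Ψ : (B ⧸ mulp p B) × tors p C → A ⧸ mulp p A :=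
    fun x => ((rep x.1 : A) : A ⧸ mulp p A) + ((con x.2 : A) : A ⧸ mulp p A)
  apply Finite.of_surjective Ψ
  intro α
  induction α using QuotientAddGroup.induction_on with
  | H a =>
    let β : B ⧸ mulp p B := ((f a : B) : B ⧸ mulp p B)
    have hβ : ∃ a' : A, ((f a' : B) : B ⧸ mulp p B) = β := ⟨a, rfl⟩
    have hrep : ((f (rep β) : B) : B ⧸ mulp p B) = β := by
      simp only [rep, dif_pos hβ]
      exact hβ.choose_spec
    have h1 : -(f (rep β)) + f a ∈ mulp p B := QuotientAddGroup.eq.mp hrep
    obtain ⟨b, hb⟩ := h1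
    have hb' : p • b = f (a - rep β) := by
      have : p • b = -(f (rep β)) + f a := hb
      rw [this, map_sub]
      abel
    have hγ : p • g b = 0 := by rw [← map_nsmul, hb', hgf]
    let γ : tors p C := ⟨g b, hγ⟩
    have hγex : ∃ (d : A) (b' : B), g b' = γ ∧ f d = p • b' := ⟨a - rep β, b, rfl, hb'.symm⟩
    have hcon : ∃ b' : B, g b' = γ ∧ f (con γ) = p • b' := by
      simp only [con, dif_pos hγex]
      exact hγex.choose_spec
    obtain ⟨b', hgb', hfd⟩ := hcon
    obtain ⟨a₂, ha₂⟩ := (hex (b - b')).mp (by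
      rw [map_sub, hgb']
      exact sub_self _)
    refine ⟨(β, γ), ?_⟩
    change ((rep β : A) : A ⧸ mulp p A) + ((con γ : A) : A ⧸ mulp p A) = (a : A ⧸ mulp p A)
    rw [← QuotientAddGroup.mk_add, QuotientAddGroup.eq, mem_mulp]
    refine ⟨a₂, hf ?_⟩
    rw [map_nsmul, ha₂, smul_sub, hb', ← hfd, map_add, map_neg, map_add, map_sub]
    abel

/-- `0 → A → B → C → 0` exact with `B`, `C` admissible: `A` is admissible. -/
theorem AdmGrp.of_exact_left (hf : Function.Injective f) (hex : Function.Exact f g)
    (hB : AdmGrp p B) (hC : AdmGrp p C) : AdmGrp p A :=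
  ⟨finite_tors_left f hf hB.1, finite_quot_left f g hf hex hB.2 hC.1⟩

end Groups

/-! ### Representations -/

section Reps

open Fermat.Agent.TW.GlobalEC.SpecB26

variable {G : Type} [Group G] {R : Type} [CommRing R] (p : ℕ) [Fact p.Prime]

/-- A `G`-module is admissible if `X[p]` and `X / pX` are finite. -/
def Adm (X : Rep.{0} R G) : Prop := Finite (pTorsionSub p X) ∧ Finite (X ⧸ pMulSub p X)

theorem pTorsionSub_eq_tors (X : Rep.{0} R G) : pTorsionSub p X = tors p X := by
  ext x
  rfl

theorem pMulSub_eq_mulp (X : Rep.{0} R G) : pMulSub p X = mulp p X := rfl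

theorem adm_iff_admGrp (X : Rep.{0} R G) : Adm p X ↔ AdmGrp p X := by
  unfold Adm AdmGrp
  rw [pTorsionSub_eq_tors, pMulSub_eq_mulp]

theorem Adm.of_finite (X : Rep.{0} R G) [Finite X] : Adm p X :=
  (adm_iff_admGrp p X).mpr (AdmGrp.of_finite p X)

/-- Admissibility in terms of the `𝔽_p[G]`-modules `X[p]` and `X / pX` of `SpecB26`. -/
theorem adm_iff_finiteDimensional (X : Rep.{0} R G) :
    Adm p X ↔ FiniteDimensional (ZMod p) (pTorsionRep p X) ∧
      FiniteDimensional (ZMod p) (modPRep p X) := by
  unfold Adm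
  constructor
  · rintro ⟨h1, h2⟩
    exact ⟨(Module.finite_iff_finite (R := ZMod p) (M := pTorsionSub p X)).mpr h1,
      (Module.finite_iff_finite (R := ZMod p) (M := X ⧸ pMulSub p X)).mpr h2⟩
  · rintro ⟨h1, h2⟩
    exact ⟨(Module.finite_iff_finite (R := ZMod p) (M := pTorsionSub p X)).mp h1,
      (Module.finite_iff_finite (R := ZMod p) (M := X ⧸ pMulSub p X)).mp h2⟩

variable {p}
variable {A B C : Rep.{0} R G} (φ : A →ₗ[R] B) (ψ : B →ₗ[R] C)

/-- `0 → A → B → C → 0` exact with `A`, `B` admissible: `C` is admissible. -/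
theorem Adm.of_exact_right (hψ : Function.Surjective ψ) (hex : Function.Exact φ ψ)
    (hA : Adm p A) (hB : Adm p B) : Adm p C :=
  (adm_iff_admGrp p C).mpr (AdmGrp.of_exact_right φ.toAddMonoidHom ψ.toAddMonoidHom hψ hex
    ((adm_iff_admGrp p A).mp hA) ((adm_iff_admGrp p B).mp hB))

/-- `0 → A → B → C → 0` exact with `A`, `C` admissible: `B` is admissible. -/
theorem Adm.of_exact_mid (hφ : Function.Injective φ) (hψ : Function.Surjective ψ)
    (hex : Function.Exact φ ψ) (hA : Adm p A) (hC : Adm p C) : Adm p B :=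
  (adm_iff_admGrp p B).mpr (AdmGrp.of_exact_mid φ.toAddMonoidHom ψ.toAddMonoidHom hφ hψ hex
    ((adm_iff_admGrp p A).mp hA) ((adm_iff_admGrp p C).mp hC))

/-- `0 → A → B → C → 0` exact with `B`, `C` admissible: `A` is admissible. -/
theorem Adm.of_exact_left (hφ : Function.Injective φ) (hex : Function.Exact φ ψ)
    (hB : Adm p B) (hC : Adm p C) : Adm p A :=
  (adm_iff_admGrp p A).mpr (AdmGrp.of_exact_left φ.toAddMonoidHom ψ.toAddMonoidHom hφ hex
    ((adm_iff_admGrp p B).mp hB) ((adm_iff_admGrp p C).mp hC))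

/-- A module killed by an integer prime to `p` is admissible. -/
theorem Adm.of_killed (X : Rep.{0} R G) {m : ℕ} (hm : Nat.Coprime p m)
    (hX : ∀ x : X, m • x = 0) : Adm p X := by
  obtain ⟨u, v, huv⟩ : ∃ u v : ℤ, u * p + v * m = 1 := by
    have := Nat.Coprime.isCoprime hm
    obtain ⟨u, v, h⟩ := this
    exact ⟨u, v, by exact_mod_cast h⟩
  have key : ∀ x : X, x = p • (u • x) := by
    intro x
    have h1 : (u * p + v * m) • x = x := by rw [huv, one_smul]
    rw [add_smul, mul_smul, mul_smul, natCast_zsmul, natCast_zsmul, hX x, smul_zero, add_zero] at h1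
    calc x = u • p • x := h1.symm
      _ = p • (u • x) := smul_comm u p x
  refine ⟨?_, ?_⟩
  · have : Subsingleton (pTorsionSub p X) := by
      refine ⟨fun x y => Subtype.ext ?_⟩
      have hx : p • (x : X) = 0 := x.2
      have hy : p • (y : X) = 0 := y.2
      rw [key x, key y, smul_comm, hx, smul_comm p u, hy]
    exact Finite.of_subsingleton
  · have : Subsingleton (X ⧸ pMulSub p X) := by
      refine ⟨fun x y => ?_⟩
      induction x using QuotientAddGroup.induction_on with
      | H x =>
        induction y using QuotientAddGroup.induction_on with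
        | H y =>
          rw [QuotientAddGroup.eq]
          exact ⟨u • (-x + y), (key _).symm⟩
    exact Finite.of_subsingleton

end Reps

/-! ### Additive invariants of admissible modules -/

section Invariants

variable {G : Type} [Group G] {R : Type} [CommRing R] (p : ℕ) [Fact p.Prime]

/-- `h` is additive on short exact sequences of admissible modules (linear maps with explicit
equivariance, as in `Spec26.IsShortExact`). -/
def IsAdmAdditive (h : Rep.{0} R G → ℤ) : Prop :=
  ∀ (A B C : Rep.{0} R G) (φ : A →ₗ[R] B) (ψ : B →ₗ[R] C),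
    (∀ g a, φ (A.ρ g a) = B.ρ g (φ a)) → (∀ g b, ψ (B.ρ g b) = C.ρ g (ψ b)) →
    Function.Injective φ → Function.Surjective ψ → Function.Exact φ ψ →
    Adm p A → Adm p B → Adm p C → h B = h A + h C

/-- `h` vanishes on finite modules. -/
def VanishesOnFinite (h : Rep.{0} R G → ℤ) : Prop := ∀ X : Rep.{0} R G, Finite X → h X = 0

/-- `h` vanishes on modules killed by an integer prime to `p`. -/
def VanishesOnCoprime (h : Rep.{0} R G → ℤ) : Prop :=
  ∀ (X : Rep.{0} R G) (m : ℕ), Nat.Coprime p m → (∀ x : X, m • x = 0) → h X = 0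

variable {p}

theorem range_le_comap {A B : Rep.{0} R G} (f : A →ₗ[R] B)
    (hf : ∀ g a, f (A.ρ g a) = B.ρ g (f a)) (g : G) :
    LinearMap.range f ≤ (LinearMap.range f).comap (B.ρ g) := by
  rintro _ ⟨a, rfl⟩
  exact ⟨A.ρ g a, hf g a⟩

/-- **Four-term sequences**: if `0 → N → A → B` is exact, `N` and `A` are admissible, and the
cokernel `Q = B / im A` is admissible with `h Q = 0`, then `B` is admissible and
`h A = h N + h B`. -/
theorem eq_add_of_exact_of_coker {h : Rep.{0} R G → ℤ} (hadd : IsAdmAdditive p h)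
    (N A B : Rep.{0} R G) (j : N →ₗ[R] A) (f : A →ₗ[R] B)
    (hj : ∀ g n, j (N.ρ g n) = A.ρ g (j n)) (hf : ∀ g a, f (A.ρ g a) = B.ρ g (f a))
    (hjinj : Function.Injective j) (hex : Function.Exact j f)
    (hN : Adm p N) (hA : Adm p A)
    (hQ : Adm p (Rep.quotient B (LinearMap.range f) (range_le_comap f hf)))
    (hQ0 : h (Rep.quotient B (LinearMap.range f) (range_le_comap f hf)) = 0) :
    Adm p B ∧ h A = h N + h B := by
  have hst := range_le_comap f hf
  set I := Rep.subrepresentation B (LinearMap.range f) hst with hI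
  have hsurj : Function.Surjective f.rangeRestrict := LinearMap.surjective_rangeRestrict f
  have hex1 : Function.Exact j f.rangeRestrict := by
    intro a
    rw [← hex a]
    constructor
    · intro h0
      exact congrArg Subtype.val h0
    · intro h0
      apply Subtype.ext
      exact h0
  have hIadm : Adm p I := Adm.of_exact_right (C := I) j f.rangeRestrict hsurj hex1 hN hA
  have h1 : h A = h N + h I :=
    hadd N A I j f.rangeRestrict hj (fun g a => Subtype.ext (hf g a)) hjinj hsurj hex1 hN hA hIadm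
  have hBadm : Adm p B :=
    Adm.of_exact_mid (A := I) (C := Rep.quotient B (LinearMap.range f) hst)
      (LinearMap.range f).subtype (LinearMap.range f).mkQ Subtype.val_injective
      (Submodule.mkQ_surjective _) (LinearMap.exact_subtype_mkQ _) hIadm hQ
  have h2 : h B = h I + h (Rep.quotient B (LinearMap.range f) hst) :=
    hadd I B (Rep.quotient B (LinearMap.range f) hst) (LinearMap.range f).subtype
      (LinearMap.range f).mkQ (fun _ _ => rfl) (fun _ _ => rfl) Subtype.val_injective
      (Submodule.mkQ_surjective _) (LinearMap.exact_subtype_mkQ _) hIadm hBadm hQ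
  refine ⟨hBadm, ?_⟩
  rw [hQ0, add_zero] at h2
  rw [h1, h2]

/-- **Isogenies of degree prime to `p`**: an injective equivariant map `f : A → B` whose cokernel
is killed by an integer `m` prime to `p` (in the form: `m • b ∈ range f` for all `b`) does not
change `h`, and `A` is admissible if and only if `B` is. -/
theorem eq_of_injective_of_coker_killed {h : Rep.{0} R G → ℤ} (hadd : IsAdmAdditive p h)
    (hcop : VanishesOnCoprime p h) (A B : Rep.{0} R G) (f : A →ₗ[R] B)
    (hf : ∀ g a, f (A.ρ g a) = B.ρ g (f a)) (hinj : Function.Injective f)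
    {m : ℕ} (hm : Nat.Coprime p m) (hcoker : ∀ b : B, ∃ a : A, f a = m • b)
    (hAB : Adm p A ∨ Adm p B) : Adm p A ∧ Adm p B ∧ h B = h A := by
  have hst := range_le_comap f hf
  have hQkill : ∀ x : Rep.quotient B (LinearMap.range f) hst, m • x = 0 := by
    intro x
    obtain ⟨b, rfl⟩ := Submodule.mkQ_surjective (LinearMap.range f) x
    rw [← map_nsmul, Submodule.mkQ_apply, Submodule.Quotient.mk_eq_zero]
    obtain ⟨a, ha⟩ := hcoker b
    exact ⟨a, ha⟩
  have hQ : Adm p (Rep.quotient B (LinearMap.range f) hst) := Adm.of_killed _ hm hQkill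
  have hQ0 : h (Rep.quotient B (LinearMap.range f) hst) = 0 := hcop _ m hm hQkill
  have hexQ : Function.Exact f (LinearMap.range f).mkQ := by
    intro b
    rw [Submodule.mkQ_apply, Submodule.Quotient.mk_eq_zero]
    rfl
  have hA : Adm p A := by
    rcases hAB with hA | hB
    · exact hA
    · exact Adm.of_exact_left (C := Rep.quotient B (LinearMap.range f) hst) f
        (LinearMap.range f).mkQ hinj hexQ hB hQ
  have hN : Adm p (Rep.trivial R G PUnit) :=
    @Adm.of_finite G _ R _ p _ (Rep.trivial R G PUnit) (inferInstanceAs (Finite PUnit))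
  have hN0 : h (Rep.trivial R G PUnit) = 0 :=
    hcop _ 1 (Nat.coprime_one_right p) (fun _ => Subsingleton.elim _ _)
  have key := eq_add_of_exact_of_coker hadd (Rep.trivial R G PUnit) A B 0 f
    (fun _ _ => by simp) hf (fun _ _ _ => Subsingleton.elim _ _) (by
      intro a
      constructor
      · intro ha
        refine ⟨PUnit.unit, ?_⟩
        rw [LinearMap.zero_apply]
        exact (hinj (ha.trans (map_zero f).symm)).symm
      · rintro ⟨_, rfl⟩
        simp) hN hA hQ hQ0
  refine ⟨hA, key.1, ?_⟩
  have := key.2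
  rw [hN0, zero_add] at this
  exact this.symm

end Invariants

end Fermat.Agent.TW.GlobalEC.Adm59
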