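/-
TW / WP4 (global Euler characteristic), brick "EC-HP" -- helper74.

The mod-`p` Euler characteristic of `R[G]`-modules (in the application `R = ℤ`), in the encoding
of `Spec26` / `SpecB26`:  for `f : Rep (ZMod p) G → ℤ` with `Spec26.IsAdditive f`,

  `chi p f X = f (modPRep p X) - f (pTorsionRep p X)`.

* `chi_additive`   : additivity on short exact sequences (snake lemma by hand: `torMap`, `modMap`,
                     connecting map `delta`, six exactness lemmas);
* `chi_iso`, `chi_eq_zero_of_killed`, `chi_eq_zero_of_bijective`, `chi_eq_zero_of_coprime_killed`,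
  `chi_eq_zero_of_finite`, `chi_sub_chi`, `chi_eq_of_finite_ker_coker`;
* `isAdditive_eqHomRank` : `Y ↦ dim Hom_G(P, Y)` is additive for projective `P`;
* `hP p P X = dim Hom_G(P, X/p) - dim Hom_G(P, X[p])` and the corresponding `hP_*` statements.
-/
import Mathlib
import Fermat.Agent.TW.GlobalEC.SpecB26

set_option autoImplicit false
set_option linter.unusedSectionVars false

namespace Fermat.Agent.TW.GlobalEC.ChiP74

open Module
open Fermat.Agent.TW.GlobalEC.Spec26 Fermat.Agent.TW.GlobalEC.SpecB26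

noncomputable section

variable {G : Type} [Group G]

/-! ### Ranges of equivariant maps as representations -/

section range

variable {k : Type} [CommRing k]

/-- The range of an equivariant linear map, as a representation. -/
def rangeRep {Y Z : Rep.{0} k G} (β : Y →ₗ[k] Z) (hβ : ∀ g y, β (Y.ρ g y) = Z.ρ g (β y)) :
    Rep.{0} k G :=
  Rep.of (Z.ρ.subrepresentation (LinearMap.range β) (by
    rintro g _ ⟨y, rfl⟩
    exact ⟨Y.ρ g y, hβ g y⟩))

variable {Y Z : Rep.{0} k G} (β : Y →ₗ[k] Z) (hβ : ∀ g y, β (Y.ρ g y) = Z.ρ g (β y))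

/-- The inclusion of the range. -/
def rangeIncl : rangeRep β hβ →ₗ[k] Z := (LinearMap.range β).subtype

/-- The corestriction to the range. -/
def rangeProj : Y →ₗ[k] rangeRep β hβ := β.rangeRestrict

theorem rangeIncl_injective : Function.Injective (rangeIncl β hβ) := Subtype.val_injective

theorem rangeProj_surjective : Function.Surjective (rangeProj β hβ) :=
  LinearMap.surjective_rangeRestrict β

theorem rangeIncl_rangeProj (y : Y) : rangeIncl β hβ (rangeProj β hβ y) = β y := rfl

theorem rangeIncl_comm (g : G) (x : rangeRep β hβ) :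
    rangeIncl β hβ ((rangeRep β hβ).ρ g x) = Z.ρ g (rangeIncl β hβ x) := rfl

theorem rangeProj_comm (g : G) (y : Y) :
    rangeProj β hβ (Y.ρ g y) = (rangeRep β hβ).ρ g (rangeProj β hβ y) :=
  Subtype.ext (hβ g y)

theorem range_rangeIncl : LinearMap.range (rangeIncl β hβ) = LinearMap.range β :=
  Submodule.range_subtype _

/-- The kernel of an equivariant linear map, as a representation. -/
def kerRep : Rep.{0} k G :=
  Rep.of (Y.ρ.subrepresentation (LinearMap.ker β) (by
    intro g y hy
    rw [Submodule.mem_comap, LinearMap.mem_ker, hβ, (LinearMap.mem_ker.mp hy), map_zero]))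

/-- The inclusion of the kernel. -/
def kerIncl : kerRep β hβ →ₗ[k] Y := (LinearMap.ker β).subtype

theorem kerIncl_injective : Function.Injective (kerIncl β hβ) := Subtype.val_injective

theorem kerIncl_comm (g : G) (x : kerRep β hβ) :
    kerIncl β hβ ((kerRep β hβ).ρ g x) = Y.ρ g (kerIncl β hβ x) := rfl

theorem exact_kerIncl : Function.Exact (kerIncl β hβ) β := by
  intro y
  constructor
  · intro hy
    exact ⟨⟨y, hy⟩, rfl⟩
  · rintro ⟨x, rfl⟩
    exact x.2

theorem exact_kerIncl_rangeProj : Function.Exact (kerIncl β hβ) (rangeProj β hβ) := by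
  intro y
  constructor
  · intro hy
    have : β y = 0 := congrArg (rangeIncl β hβ) hy
    exact ⟨⟨y, this⟩, rfl⟩
  · rintro ⟨x, rfl⟩
    exact Subtype.ext x.2

/-- The cokernel of an equivariant linear map, as a representation. -/
def cokerRep : Rep.{0} k G :=
  Rep.of (Z.ρ.quotient (LinearMap.range β) (by
    rintro g _ ⟨y, rfl⟩
    exact ⟨Y.ρ g y, hβ g y⟩))

/-- The projection to the cokernel. -/
def cokerProj : Z →ₗ[k] cokerRep β hβ := (LinearMap.range β).mkQ

theorem cokerProj_surjective : Function.Surjective (cokerProj β hβ) :=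
  Submodule.mkQ_surjective _

theorem cokerProj_comm (g : G) (z : Z) :
    cokerProj β hβ (Z.ρ g z) = (cokerRep β hβ).ρ g (cokerProj β hβ z) := rfl

theorem exact_rangeIncl_cokerProj : Function.Exact (rangeIncl β hβ) (cokerProj β hβ) := by
  intro z
  constructor
  · intro hz
    have : z ∈ LinearMap.range β := (Submodule.Quotient.mk_eq_zero _).mp hz
    exact ⟨⟨z, this⟩, rfl⟩
  · rintro ⟨x, rfl⟩
    exact (Submodule.Quotient.mk_eq_zero _).mpr x.2

end range

section rangeField

variable {k : Type} [Field k] {Y Z : Rep.{0} k G} (β : Y →ₗ[k] Z)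
  (hβ : ∀ g y, β (Y.ρ g y) = Z.ρ g (β y))

instance [FiniteDimensional k Z] : FiniteDimensional k (rangeRep β hβ) :=
  inferInstanceAs (FiniteDimensional k (LinearMap.range β))

/-- Additivity along `Y' → Y → Z` exact at `Y`: `f Y = f (range α) + f (range β)`. -/
theorem isAdditive_range_add_range {f : Rep.{0} k G → ℤ} (hf : IsAdditive f)
    {Y' Y Z : Rep.{0} k G} (α : Y' →ₗ[k] Y) (hα : ∀ g y, α (Y'.ρ g y) = Y.ρ g (α y))
    (β : Y →ₗ[k] Z) (hβ : ∀ g y, β (Y.ρ g y) = Z.ρ g (β y))
    (hex : Function.Exact α β) [FiniteDimensional k Y] :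
    f Y = f (rangeRep α hα) + f (rangeRep β hβ) := by
  refine hf (rangeRep α hα) Y (rangeRep β hβ) (rangeIncl α hα) (rangeProj β hβ) ?_ inferInstance
  refine ⟨rangeIncl_comm α hα, rangeProj_comm β hβ, rangeIncl_injective α hα,
    rangeProj_surjective β hβ, ?_⟩
  intro y
  constructor
  · intro hy
    have h0 : β y = 0 := by
      have := congrArg (rangeIncl β hβ) hy
      simpa [rangeIncl_rangeProj] using this
    obtain ⟨y', rfl⟩ := (hex y).mp h0
    exact ⟨⟨α y', y', rfl⟩, rfl⟩
  · rintro ⟨⟨_, y', rfl⟩, rfl⟩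
    apply Subtype.ext
    exact (hex (α y')).mpr ⟨y', rfl⟩

/-- Additivity along `Y' → Y → Z` exact at `Y` with `α` injective: `f Y = f Y' + f (range β)`. -/
theorem isAdditive_add_range {f : Rep.{0} k G → ℤ} (hf : IsAdditive f)
    {Y' Y Z : Rep.{0} k G} (α : Y' →ₗ[k] Y) (hα : ∀ g y, α (Y'.ρ g y) = Y.ρ g (α y))
    (β : Y →ₗ[k] Z) (hβ : ∀ g y, β (Y.ρ g y) = Z.ρ g (β y))
    (hinj : Function.Injective α) (hex : Function.Exact α β) [FiniteDimensional k Y] :
    f Y = f Y' + f (rangeRep β hβ) := by
  refine hf Y' Y (rangeRep β hβ) α (rangeProj β hβ) ?_ inferInstance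
  refine ⟨hα, rangeProj_comm β hβ, hinj, rangeProj_surjective β hβ, ?_⟩
  intro y
  constructor
  · intro hy
    have h0 : β y = 0 := by
      have := congrArg (rangeIncl β hβ) hy
      simpa [rangeIncl_rangeProj] using this
    exact (hex y).mp h0
  · rintro ⟨y', rfl⟩
    apply Subtype.ext
    exact (hex (α y')).mpr ⟨y', rfl⟩

/-- Additivity along `Y' → Y → Z` exact at `Y` with `β` surjective: `f Y = f (range α) + f Z`. -/
theorem isAdditive_range_add {f : Rep.{0} k G → ℤ} (hf : IsAdditive f)
    {Y' Y Z : Rep.{0} k G} (α : Y' →ₗ[k] Y) (hα : ∀ g y, α (Y'.ρ g y) = Y.ρ g (α y))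
    (β : Y →ₗ[k] Z) (hβ : ∀ g y, β (Y.ρ g y) = Z.ρ g (β y))
    (hsurj : Function.Surjective β) (hex : Function.Exact α β) [FiniteDimensional k Y] :
    f Y = f (rangeRep α hα) + f Z := by
  refine hf (rangeRep α hα) Y Z (rangeIncl α hα) β ?_ inferInstance
  refine ⟨rangeIncl_comm α hα, hβ, rangeIncl_injective α hα, hsurj, ?_⟩
  intro y
  constructor
  · intro hy
    obtain ⟨y', rfl⟩ := (hex y).mp hy
    exact ⟨⟨α y', y', rfl⟩, rfl⟩
  · rintro ⟨⟨_, y', rfl⟩, rfl⟩
    exact (hex (α y')).mpr ⟨y', rfl⟩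

/-- An additive function vanishes on zero modules. -/
theorem isAdditive_subsingleton {f : Rep.{0} k G → ℤ} (hf : IsAdditive f) (Y : Rep.{0} k G)
    [Subsingleton Y] : f Y = 0 := by
  have h := hf Y Y Y LinearMap.id 0
    ⟨fun _ _ => rfl, fun _ _ => Subsingleton.elim _ _, Function.injective_id,
      fun y => ⟨y, Subsingleton.elim _ _⟩,
      fun y => ⟨fun _ => ⟨y, rfl⟩, fun _ => Subsingleton.elim _ _⟩⟩
    (Module.Finite.of_finite)
  linarith

/-- An additive function is invariant under equivariant isomorphisms. -/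
theorem isAdditive_iso {f : Rep.{0} k G → ℤ} (hf : IsAdditive f) {Y Z : Rep.{0} k G}
    (e : Y →ₗ[k] Z) (he : ∀ g y, e (Y.ρ g y) = Z.ρ g (e y)) (hbij : Function.Bijective e)
    [FiniteDimensional k Z] : f Y = f Z := by
  have hz : ∀ g (y : Z), (0 : Z →ₗ[k] Z) (Z.ρ g y) = Z.ρ g ((0 : Z →ₗ[k] Z) y) :=
    fun g y => by simp
  have hsub : Subsingleton (rangeRep (0 : Z →ₗ[k] Z) hz) := by
    refine ⟨fun a b => Subtype.ext ?_⟩
    obtain ⟨_, y, rfl⟩ := a
    obtain ⟨_, y', rfl⟩ := b
    rfl
  have h := isAdditive_add_range hf e he (0 : Z →ₗ[k] Z) hz hbij.1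
    (fun z => ⟨fun _ => hbij.2 z, fun _ => rfl⟩)
  have h0 := isAdditive_subsingleton hf (rangeRep (0 : Z →ₗ[k] Z) hz)
  linarith

end rangeField

/-! ### Functoriality of `X[p]` and `X / pX` -/

section functor

variable {R : Type} [CommRing R] (p : ℕ) [Fact p.Prime] {X Y : Rep.{0} R G}

/-- The map induced on `p`-torsion by an additive map. -/
def torMap (α : X →ₗ[R] Y) : pTorsionRep p X →ₗ[ZMod p] pTorsionRep p Y :=
  AddMonoidHom.toZModLinearMap p
    ({ toFun := fun x => ⟨α x.1, by
          change p • α x.1 = 0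
          rw [← map_nsmul, show p • x.1 = 0 from x.2, map_zero]⟩
       map_zero' := Subtype.ext (map_zero α)
       map_add' := fun x y => Subtype.ext (map_add α _ _) } :
      pTorsionSub p X →+ pTorsionSub p Y)

theorem val_torMap (α : X →ₗ[R] Y) (x : pTorsionRep p X) :
    pTorsionRep.val p Y (torMap p α x) = α (pTorsionRep.val p X x) := rfl

theorem torMap_comm (α : X →ₗ[R] Y) (hα : ∀ g x, α (X.ρ g x) = Y.ρ g (α x)) (g : G)
    (x : pTorsionRep p X) :
    torMap p α ((pTorsionRep p X).ρ g x) = (pTorsionRep p Y).ρ g (torMap p α x) := by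
  apply pTorsionRep.val_injective
  rw [val_torMap, pTorsionRep.val_ρ, pTorsionRep.val_ρ, val_torMap, hα]

/-- The map induced on `X / pX` by an additive map. -/
def modMap (α : X →ₗ[R] Y) : modPRep p X →ₗ[ZMod p] modPRep p Y :=
  AddMonoidHom.toZModLinearMap p
    (QuotientAddGroup.map (pMulSub p X) (pMulSub p Y) α.toAddMonoidHom (by
      rintro _ ⟨y, rfl⟩
      exact ⟨α y, by
        change p • α y = α (p • y)
        rw [map_nsmul]⟩))

theorem modMap_mk (α : X →ₗ[R] Y) (x : X) :
    modMap p α (modPRep.mk p X x) = modPRep.mk p Y (α x) := rfl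

theorem modMap_comm (α : X →ₗ[R] Y) (hα : ∀ g x, α (X.ρ g x) = Y.ρ g (α x)) (g : G)
    (x : modPRep p X) :
    modMap p α ((modPRep p X).ρ g x) = (modPRep p Y).ρ g (modMap p α x) := by
  obtain ⟨x, rfl⟩ := modPRep.mk_surjective p X x
  rw [modPRep.mk_ρ, modMap_mk, modMap_mk, modPRep.mk_ρ, hα]

theorem modPRep.mk_add (x y : X) :
    modPRep.mk p X (x + y) = modPRep.mk p X x + modPRep.mk p X y := rfl

theorem modPRep.mk_zero : modPRep.mk p X 0 = 0 := rfl

theorem modPRep.mk_sub (x y : X) :
    modPRep.mk p X (x - y) = modPRep.mk p X x - modPRep.mk p X y := rfl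

theorem modPRep.mk_eq_mk_iff (x y : X) :
    modPRep.mk p X x = modPRep.mk p X y ↔ ∃ z : X, p • z = x - y := by
  rw [← sub_eq_zero, ← modPRep.mk_sub, modPRep.mk_eq_zero_iff]

theorem pTorsionRep.val_add (x y : pTorsionRep p X) :
    pTorsionRep.val p X (x + y) = pTorsionRep.val p X x + pTorsionRep.val p X y := rfl

theorem pTorsionRep.val_zero : pTorsionRep.val p X 0 = 0 := rfl

/-- Build an element of `X[p]`. -/
def pTorsionRep.mk' (x : X) (hx : p • x = 0) : pTorsionRep p X :=
  (⟨x, hx⟩ : pTorsionSub p X)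

theorem pTorsionRep.val_mk' (x : X) (hx : p • x = 0) :
    pTorsionRep.val p X (pTorsionRep.mk' p x hx) = x := rfl

end functor

/-! ### The six-term sequence of a short exact sequence -/

section snake

variable {R : Type} [CommRing R] (p : ℕ) [Fact p.Prime] {A B C : Rep.{0} R G}
  (φ : A →ₗ[R] B) (ψ : B →ₗ[R] C)

theorem torMap_injective (hinj : Function.Injective φ) : Function.Injective (torMap p φ) := by
  intro x y h
  apply pTorsionRep.val_injective
  apply hinj
  rw [← val_torMap, ← val_torMap, h]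

theorem exact_torMap (hinj : Function.Injective φ) (hex : Function.Exact φ ψ) :
    Function.Exact (torMap p φ) (torMap p ψ) := by
  intro b
  constructor
  · intro hb
    have h0 : ψ (pTorsionRep.val p B b) = 0 := by
      rw [← val_torMap, hb]; rfl
    obtain ⟨a, ha⟩ := (hex _).mp h0
    have hpa : p • a = 0 := by
      apply hinj
      rw [map_nsmul, ha, map_zero]
      exact pTorsionRep.nsmul_val p B b
    refine ⟨pTorsionRep.mk' p a hpa, ?_⟩
    apply pTorsionRep.val_injective
    rw [val_torMap, pTorsionRep.val_mk', ha]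
  · rintro ⟨a, rfl⟩
    apply pTorsionRep.val_injective
    rw [val_torMap, val_torMap]
    exact (hex _).mpr ⟨_, rfl⟩

theorem modMap_surjective (hsurj : Function.Surjective ψ) :
    Function.Surjective (modMap p ψ) := by
  intro c
  obtain ⟨c, rfl⟩ := modPRep.mk_surjective p C c
  obtain ⟨b, rfl⟩ := hsurj c
  exact ⟨modPRep.mk p B b, modMap_mk p ψ b⟩

theorem exact_modMap (hsurj : Function.Surjective ψ) (hex : Function.Exact φ ψ) :
    Function.Exact (modMap p φ) (modMap p ψ) := by
  intro b
  obtain ⟨b, rfl⟩ := modPRep.mk_surjective p B b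
  constructor
  · intro hb
    rw [modMap_mk, modPRep.mk_eq_zero_iff] at hb
    obtain ⟨c, hc⟩ := hb
    obtain ⟨b', rfl⟩ := hsurj c
    have h0 : ψ (b - p • b') = 0 := by
      rw [map_sub, map_nsmul, hc, sub_self]
    obtain ⟨a, ha⟩ := (hex _).mp h0
    refine ⟨modPRep.mk p A a, ?_⟩
    rw [modMap_mk, ha, modPRep.mk_eq_mk_iff]
    exact ⟨-b', by rw [smul_neg]; abel⟩
  · rintro ⟨a, ha⟩
    obtain ⟨a, rfl⟩ := modPRep.mk_surjective p A a
    rw [← ha, modMap_mk, modMap_mk]
    have : ψ (φ a) = 0 := (hex _).mpr ⟨a, rfl⟩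
    rw [this]
    rfl

section delta

variable (hinj : Function.Injective φ) (hsurj : Function.Surjective ψ)
  (hex : Function.Exact φ ψ)

include hsurj hex in
theorem exists_lift (c : pTorsionRep p C) :
    ∃ a : A, ∃ b : B, ψ b = pTorsionRep.val p C c ∧ φ a = p • b := by
  obtain ⟨b, hb⟩ := hsurj (pTorsionRep.val p C c)
  have h0 : ψ (p • b) = 0 := by
    rw [map_nsmul, hb]
    exact pTorsionRep.nsmul_val p C c
  obtain ⟨a, ha⟩ := (hex _).mp h0
  exact ⟨a, b, hb, ha⟩

/-- The connecting map `C[p] → A / pA`, as a function. -/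
def deltaFun (c : pTorsionRep p C) : modPRep p A :=
  modPRep.mk p A (Classical.choose (exists_lift p φ ψ hsurj hex c))

include hinj in
theorem deltaFun_eq (c : pTorsionRep p C) (a : A) (b : B)
    (h1 : ψ b = pTorsionRep.val p C c) (h2 : φ a = p • b) :
    deltaFun p φ ψ hsurj hex c = modPRep.mk p A a := by
  obtain ⟨b₀, hb₀, ha₀⟩ := Classical.choose_spec (exists_lift p φ ψ hsurj hex c)
  set a₀ := Classical.choose (exists_lift p φ ψ hsurj hex c) with ha₀def
  have h0 : ψ (b₀ - b) = 0 := by rw [map_sub, hb₀, h1, sub_self]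
  obtain ⟨a', ha'⟩ := (hex _).mp h0
  unfold deltaFun
  rw [modPRep.mk_eq_mk_iff]
  refine ⟨a', hinj ?_⟩
  rw [map_nsmul, ha', map_sub, ha₀, h2, smul_sub]

/-- The connecting map `C[p] → A / pA`. -/
def delta : pTorsionRep p C →ₗ[ZMod p] modPRep p A :=
  AddMonoidHom.toZModLinearMap p
    ({ toFun := deltaFun p φ ψ hsurj hex
       map_zero' := by
         rw [deltaFun_eq p φ ψ hinj hsurj hex 0 0 0 (map_zero ψ) (by rw [map_zero, smul_zero])]
         rfl
       map_add' := fun c c' => by
         obtain ⟨a, b, h1, h2⟩ := exists_lift p φ ψ hsurj hex c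
         obtain ⟨a', b', h1', h2'⟩ := exists_lift p φ ψ hsurj hex c'
         rw [deltaFun_eq p φ ψ hinj hsurj hex c a b h1 h2,
           deltaFun_eq p φ ψ hinj hsurj hex c' a' b' h1' h2',
           deltaFun_eq p φ ψ hinj hsurj hex (c + c') (a + a') (b + b')
             (by rw [map_add, h1, h1']; rfl) (by rw [map_add, h2, h2', smul_add])]
         rfl } : pTorsionRep p C →+ modPRep p A)

theorem delta_eq (c : pTorsionRep p C) (a : A) (b : B)
    (h1 : ψ b = pTorsionRep.val p C c) (h2 : φ a = p • b) :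
    delta p φ ψ hinj hsurj hex c = modPRep.mk p A a :=
  deltaFun_eq p φ ψ hinj hsurj hex c a b h1 h2

theorem delta_comm (hφ : ∀ g a, φ (A.ρ g a) = B.ρ g (φ a)) (hψ : ∀ g b, ψ (B.ρ g b) = C.ρ g (ψ b))
    (g : G) (c : pTorsionRep p C) :
    delta p φ ψ hinj hsurj hex ((pTorsionRep p C).ρ g c) =
      (modPRep p A).ρ g (delta p φ ψ hinj hsurj hex c) := by
  obtain ⟨a, b, h1, h2⟩ := exists_lift p φ ψ hsurj hex c
  rw [delta_eq p φ ψ hinj hsurj hex c a b h1 h2, modPRep.mk_ρ,
    delta_eq p φ ψ hinj hsurj hex _ (A.ρ g a) (B.ρ g b)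
      (by rw [hψ, h1, pTorsionRep.val_ρ]) (by rw [hφ, h2, map_nsmul])]

theorem exact_torMap_delta :
    Function.Exact (torMap p ψ) (delta p φ ψ hinj hsurj hex) := by
  intro c
  constructor
  · intro hc
    obtain ⟨a, b, h1, h2⟩ := exists_lift p φ ψ hsurj hex c
    rw [delta_eq p φ ψ hinj hsurj hex c a b h1 h2, modPRep.mk_eq_zero_iff] at hc
    obtain ⟨a', rfl⟩ := hc
    have hb : p • (b - φ a') = 0 := by
      rw [smul_sub, ← h2, map_nsmul, sub_self]
    refine ⟨pTorsionRep.mk' p (b - φ a') hb, ?_⟩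
    apply pTorsionRep.val_injective
    rw [val_torMap, pTorsionRep.val_mk', map_sub, h1]
    have : ψ (φ a') = 0 := (hex _).mpr ⟨a', rfl⟩
    rw [this, sub_zero]
  · rintro ⟨b, rfl⟩
    rw [delta_eq p φ ψ hinj hsurj hex _ 0 (pTorsionRep.val p B b) (val_torMap p ψ b).symm
      (by rw [map_zero]; exact (pTorsionRep.nsmul_val p B b).symm)]
    rfl

theorem exact_delta_modMap :
    Function.Exact (delta p φ ψ hinj hsurj hex) (modMap p φ) := by
  intro a
  obtain ⟨a, rfl⟩ := modPRep.mk_surjective p A a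
  constructor
  · intro ha
    rw [modMap_mk, modPRep.mk_eq_zero_iff] at ha
    obtain ⟨b, hb⟩ := ha
    have hc : p • ψ b = 0 := by
      rw [← map_nsmul, hb]
      exact (hex _).mpr ⟨a, rfl⟩
    refine ⟨pTorsionRep.mk' p (ψ b) hc, ?_⟩
    exact delta_eq p φ ψ hinj hsurj hex _ a b (pTorsionRep.val_mk' p (ψ b) hc).symm hb.symm
  · rintro ⟨c, hc⟩
    obtain ⟨a', b, h1, h2⟩ := exists_lift p φ ψ hsurj hex c
    rw [delta_eq p φ ψ hinj hsurj hex c a' b h1 h2] at hc
    rw [← hc, modMap_mk, h2, modPRep.mk_eq_zero_iff]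
    exact ⟨b, rfl⟩

end delta

end snake

/-! ### The mod-`p` Euler characteristic -/

section chi

variable {R : Type} [CommRing R] (p : ℕ) [Fact p.Prime]

/-- The mod-`p` Euler characteristic `f(X / pX) - f(X[p])` of an `R[G]`-module, with respect to
a function `f` on `𝔽_p[G]`-modules. -/
def chi (f : Rep.{0} (ZMod p) G → ℤ) (X : Rep.{0} R G) : ℤ :=
  f (modPRep p X) - f (pTorsionRep p X)

/-- `X / pX` and `X[p]` are finite-dimensional. -/
def IsPFinite (X : Rep.{0} R G) : Prop :=
  FiniteDimensional (ZMod p) (modPRep p X) ∧ FiniteDimensional (ZMod p) (pTorsionRep p X)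

/-- **Additivity of the mod-`p` Euler characteristic** on short exact sequences. -/
theorem chi_additive {f : Rep.{0} (ZMod p) G → ℤ} (hf : IsAdditive f)
    {A B C : Rep.{0} R G} (φ : A →ₗ[R] B) (ψ : B →ₗ[R] C)
    (hφ : ∀ g a, φ (A.ρ g a) = B.ρ g (φ a)) (hψ : ∀ g b, ψ (B.ρ g b) = C.ρ g (ψ b))
    (hinj : Function.Injective φ) (hsurj : Function.Surjective ψ) (hex : Function.Exact φ ψ)
    (hA : IsPFinite p A) (hB : IsPFinite p B) (hC : IsPFinite p C) :
    chi p f B = chi p f A + chi p f C := by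
  have := hA.1; have := hA.2; have := hB.1; have := hB.2; have := hC.1; have := hC.2
  have e1 := isAdditive_add_range hf (torMap p φ) (torMap_comm p φ hφ) (torMap p ψ) (torMap_comm p ψ hψ)
    (torMap_injective p φ hinj) (exact_torMap p φ ψ hinj hex)
  have e2 := isAdditive_range_add_range hf (torMap p ψ) (torMap_comm p ψ hψ)
    (delta p φ ψ hinj hsurj hex) (delta_comm p φ ψ hinj hsurj hex hφ hψ)
    (exact_torMap_delta p φ ψ hinj hsurj hex)
  have e3 := isAdditive_range_add_range hf (delta p φ ψ hinj hsurj hex)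
    (delta_comm p φ ψ hinj hsurj hex hφ hψ) (modMap p φ) (modMap_comm p φ hφ)
    (exact_delta_modMap p φ ψ hinj hsurj hex)
  have e4 := isAdditive_range_add hf (modMap p φ) (modMap_comm p φ hφ) (modMap p ψ) (modMap_comm p ψ hψ)
    (modMap_surjective p ψ hsurj) (exact_modMap p φ ψ hsurj hex)
  unfold chi
  linarith

variable {p}

theorem modMap_bijective {X Y : Rep.{0} R G} (e : X →ₗ[R] Y) (hbij : Function.Bijective e) :
    Function.Bijective (modMap p e) := by
  refine ⟨?_, modMap_surjective p e hbij.2⟩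
  rw [injective_iff_map_eq_zero]
  intro x hx
  obtain ⟨x, rfl⟩ := modPRep.mk_surjective p X x
  rw [modMap_mk, modPRep.mk_eq_zero_iff] at hx
  obtain ⟨y, hy⟩ := hx
  obtain ⟨x', rfl⟩ := hbij.2 y
  rw [modPRep.mk_eq_zero_iff]
  refine ⟨x', hbij.1 ?_⟩
  rw [map_nsmul, hy]

theorem torMap_bijective {X Y : Rep.{0} R G} (e : X →ₗ[R] Y) (hbij : Function.Bijective e) :
    Function.Bijective (torMap p e) := by
  refine ⟨torMap_injective p e hbij.1, fun y => ?_⟩
  obtain ⟨x, hx⟩ := hbij.2 (pTorsionRep.val p Y y)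
  have hpx : p • x = 0 := by
    apply hbij.1
    rw [map_nsmul, hx, map_zero]
    exact pTorsionRep.nsmul_val p Y y
  refine ⟨pTorsionRep.mk' p x hpx, ?_⟩
  apply pTorsionRep.val_injective
  rw [val_torMap, pTorsionRep.val_mk', hx]

/-- **Invariance of the mod-`p` Euler characteristic under isomorphisms.** -/
theorem chi_iso {f : Rep.{0} (ZMod p) G → ℤ} (hf : IsAdditive f) {X Y : Rep.{0} R G}
    (e : X →ₗ[R] Y) (he : ∀ g x, e (X.ρ g x) = Y.ρ g (e x)) (hbij : Function.Bijective e)
    (hY : IsPFinite p Y) : chi p f X = chi p f Y := by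
  have := hY.1; have := hY.2
  unfold chi
  rw [isAdditive_iso hf (modMap p e) (modMap_comm p e he) (modMap_bijective e hbij),
    isAdditive_iso hf (torMap p e) (torMap_comm p e he) (torMap_bijective e hbij)]

/-- `IsPFinite` is invariant under isomorphisms. -/
theorem IsPFinite.of_bijective {X Y : Rep.{0} R G} (e : X →ₗ[R] Y)
    (hbij : Function.Bijective e) (hX : IsPFinite p X) : IsPFinite p Y := by
  have := hX.1; have := hX.2
  exact ⟨Module.Finite.of_surjective (modMap p e) (modMap_bijective e hbij).2,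
    Module.Finite.of_surjective (torMap p e) (torMap_bijective e hbij).2⟩

/-- Finite modules are `p`-finite. -/
theorem IsPFinite.of_finite (X : Rep.{0} R G) [Finite X] : IsPFinite p X := by
  have h1 : Finite (modPRep p X) := Finite.of_surjective _ (modPRep.mk_surjective p X)
  have h2 : Finite (pTorsionRep p X) := Finite.of_injective _ (pTorsionRep.val_injective p X)
  exact ⟨Module.Finite.of_finite, Module.Finite.of_finite⟩

/-- The comparison map `X[p] → X / pX`. -/
def torToMod (X : Rep.{0} R G) : pTorsionRep p X →ₗ[ZMod p] modPRep p X :=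
  AddMonoidHom.toZModLinearMap p
    ((QuotientAddGroup.mk' (pMulSub p X)).comp (pTorsionSub p X).subtype)

theorem torToMod_apply (X : Rep.{0} R G) (x : pTorsionRep p X) :
    torToMod X x = modPRep.mk p X (pTorsionRep.val p X x) := rfl

/-- **Modules killed by `p` have vanishing mod-`p` Euler characteristic.** -/
theorem chi_eq_zero_of_killed {f : Rep.{0} (ZMod p) G → ℤ} (hf : IsAdditive f) (X : Rep.{0} R G)
    (hX : ∀ x : X, p • x = 0) (hfin : FiniteDimensional (ZMod p) (modPRep p X)) :
    chi p f X = 0 := by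
  have hbij : Function.Bijective (torToMod (p := p) X) := by
    constructor
    · rw [injective_iff_map_eq_zero]
      intro x hx
      rw [torToMod_apply, modPRep.mk_eq_zero_iff] at hx
      obtain ⟨y, hy⟩ := hx
      apply pTorsionRep.val_injective
      rw [← hy, hX y]
      rfl
    · intro y
      obtain ⟨x, rfl⟩ := modPRep.mk_surjective p X y
      exact ⟨pTorsionRep.mk' p x (hX x), rfl⟩
  have hcomm : ∀ g x, torToMod (p := p) X ((pTorsionRep p X).ρ g x) =
      (modPRep p X).ρ g (torToMod X x) := by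
    intro g x
    rw [torToMod_apply, torToMod_apply, modPRep.mk_ρ, pTorsionRep.val_ρ]
  unfold chi
  rw [isAdditive_iso hf (torToMod X) hcomm hbij, sub_self]

/-- **Modules on which `p` is bijective have vanishing mod-`p` Euler characteristic.** -/
theorem chi_eq_zero_of_bijective {f : Rep.{0} (ZMod p) G → ℤ} (hf : IsAdditive f)
    (X : Rep.{0} R G) (hX : Function.Bijective fun x : X => p • x) : chi p f X = 0 := by
  have h1 : Subsingleton (modPRep p X) := by
    refine ⟨fun a b => ?_⟩
    obtain ⟨a, rfl⟩ := modPRep.mk_surjective p X a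
    obtain ⟨b, rfl⟩ := modPRep.mk_surjective p X b
    rw [modPRep.mk_eq_mk_iff]
    exact hX.2 (a - b)
  have h2 : Subsingleton (pTorsionRep p X) := by
    refine ⟨fun a b => ?_⟩
    apply pTorsionRep.val_injective
    apply hX.1
    change p • pTorsionRep.val p X a = p • pTorsionRep.val p X b
    rw [pTorsionRep.nsmul_val, pTorsionRep.nsmul_val]
  unfold chi
  rw [isAdditive_subsingleton hf (modPRep p X), isAdditive_subsingleton hf (pTorsionRep p X),
    sub_self]

/-- Multiplication by `p`, as an `R`-linear map. -/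
def pMul (p : ℕ) (X : Rep.{0} R G) : X →ₗ[R] X := p • LinearMap.id

theorem pMul_apply (X : Rep.{0} R G) (x : X) : pMul p X x = p • x := rfl

theorem pMul_comm (X : Rep.{0} R G) (g : G) (x : X) :
    pMul p X (X.ρ g x) = X.ρ g (pMul p X x) := by
  rw [pMul_apply, pMul_apply, map_nsmul]

/-- **Finite modules have vanishing mod-`p` Euler characteristic.** -/
theorem chi_eq_zero_of_finite {f : Rep.{0} (ZMod p) G → ℤ} (hf : IsAdditive f) :
    ∀ (n : ℕ) (X : Rep.{0} R G), Finite X → Nat.card X = n → chi p f X = 0 := by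
  intro n
  induction n using Nat.strong_induction_on with
  | _ n ih =>
    intro X hfin hn
    by_cases hinj : Function.Injective (pMul p X)
    · exact chi_eq_zero_of_bijective hf X ⟨hinj, Finite.injective_iff_surjective.mp hinj⟩
    · have hK : Finite (kerRep (pMul p X) (pMul_comm X)) :=
        Finite.of_injective _ (kerIncl_injective (pMul p X) (pMul_comm X))
      have hI : Finite (rangeRep (pMul p X) (pMul_comm X)) :=
        Finite.of_injective _ (rangeIncl_injective (pMul p X) (pMul_comm X))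
      have hadd := chi_additive p hf (kerIncl (pMul p X) (pMul_comm X))
        (rangeProj (pMul p X) (pMul_comm X)) (kerIncl_comm _ _) (rangeProj_comm _ _)
        (kerIncl_injective _ _) (rangeProj_surjective _ _) (exact_kerIncl_rangeProj _ _)
        (IsPFinite.of_finite _) (IsPFinite.of_finite _) (IsPFinite.of_finite _)
      have h1 : chi p f (kerRep (pMul p X) (pMul_comm X)) = 0 := by
        refine chi_eq_zero_of_killed hf _ (fun x => ?_) (IsPFinite.of_finite _).1
        apply kerIncl_injective (pMul p X) (pMul_comm X)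
        rw [map_nsmul, map_zero]
        exact x.2
      have hlt : Nat.card (rangeRep (pMul p X) (pMul_comm X)) < n := by
        have := Fintype.ofFinite X
        have := Fintype.ofFinite (rangeRep (pMul p X) (pMul_comm X))
        rw [← hn, Nat.card_eq_fintype_card, Nat.card_eq_fintype_card]
        refine Fintype.card_lt_of_surjective_not_injective (rangeProj (pMul p X) (pMul_comm X))
          (rangeProj_surjective _ _) (fun h => hinj ?_)
        intro x y hxy
        exact h (Subtype.ext hxy)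
      rw [hadd, h1, ih _ hlt _ hI rfl, add_zero]

/-- `p`-finiteness of the range of a map. -/
theorem IsPFinite.rangeRep {X Y : Rep.{0} R G} (α : X →ₗ[R] Y)
    (hα : ∀ g x, α (X.ρ g x) = Y.ρ g (α x)) (hX : FiniteDimensional (ZMod p) (modPRep p X))
    (hY : FiniteDimensional (ZMod p) (pTorsionRep p Y)) : IsPFinite p (rangeRep α hα) :=
  ⟨Module.Finite.of_surjective (modMap p (rangeProj α hα))
      (modMap_surjective p _ (rangeProj_surjective α hα)),
    Module.Finite.of_injective (torMap p (rangeIncl α hα))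
      (torMap_injective p _ (rangeIncl_injective α hα))⟩

/-- **Four-term sequences**: `chi Y - chi X = chi (coker α) - chi (ker α)`. -/
theorem chi_sub_chi {f : Rep.{0} (ZMod p) G → ℤ} (hf : IsAdditive f) {X Y : Rep.{0} R G}
    (α : X →ₗ[R] Y) (hα : ∀ g x, α (X.ρ g x) = Y.ρ g (α x))
    (hX : IsPFinite p X) (hY : IsPFinite p Y) (hK : IsPFinite p (kerRep α hα))
    (hQ : IsPFinite p (cokerRep α hα)) :
    chi p f Y - chi p f X = chi p f (cokerRep α hα) - chi p f (kerRep α hα) := by
  have hI : IsPFinite p (rangeRep α hα) := IsPFinite.rangeRep α hα hX.1 hY.2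
  have h1 := chi_additive p hf (kerIncl α hα) (rangeProj α hα) (kerIncl_comm _ _)
    (rangeProj_comm _ _) (kerIncl_injective _ _) (rangeProj_surjective _ _)
    (exact_kerIncl_rangeProj _ _) hK hX hI
  have h2 := chi_additive p hf (rangeIncl α hα) (cokerProj α hα) (rangeIncl_comm _ _)
    (cokerProj_comm _ _) (rangeIncl_injective _ _) (cokerProj_surjective _ _)
    (exact_rangeIncl_cokerProj _ _) hI hY hQ
  linarith

/-- **Maps with finite kernel and cokernel preserve the mod-`p` Euler characteristic.** -/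
theorem chi_eq_of_finite_ker_coker {f : Rep.{0} (ZMod p) G → ℤ} (hf : IsAdditive f)
    {X Y : Rep.{0} R G} (α : X →ₗ[R] Y) (hα : ∀ g x, α (X.ρ g x) = Y.ρ g (α x))
    (hX : IsPFinite p X) (hY : IsPFinite p Y) (hK : Finite (LinearMap.ker α))
    (hQ : Finite (Y ⧸ LinearMap.range α)) : chi p f X = chi p f Y := by
  have hK' : Finite (kerRep α hα) := hK
  have hQ' : Finite (cokerRep α hα) := hQ
  have h := chi_sub_chi hf α hα hX hY (IsPFinite.of_finite _) (IsPFinite.of_finite _)
  rw [chi_eq_zero_of_finite hf _ _ hK' rfl, chi_eq_zero_of_finite hf _ _ hQ' rfl] at h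
  linarith

/-- **Modules killed by an integer prime to `p` have vanishing mod-`p` Euler characteristic.** -/
theorem chi_eq_zero_of_coprime_killed {f : Rep.{0} (ZMod p) G → ℤ} (hf : IsAdditive f)
    (X : Rep.{0} R G) (m : ℕ) (hm : m.Coprime p) (hX : ∀ x : X, m • x = 0) :
    chi p f X = 0 := by
  refine chi_eq_zero_of_bijective hf X ?_
  -- `a m + b p = 1`
  have hgcd : (Nat.gcd m p : ℤ) = 1 := by exact_mod_cast hm
  have hbez := Nat.gcd_eq_gcd_ab m p
  rw [hgcd] at hbez
  have key : ∀ x : X, x = p • ((Nat.gcdB m p) • x) := by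
    intro x
    have h1 : ((m : ℤ) * Nat.gcdA m p + (p : ℤ) * Nat.gcdB m p) • x = x := by
      rw [← hbez, one_zsmul]
    rw [add_smul, mul_comm (m : ℤ), mul_smul, natCast_zsmul, hX, smul_zero, zero_add, mul_smul,
      natCast_zsmul] at h1
    exact h1.symm
  constructor
  · intro x y hxy
    have hxy' : p • x = p • y := hxy
    rw [key x, key y, smul_comm p, smul_comm p (Nat.gcdB m p) y, hxy']
  · intro x
    exact ⟨(Nat.gcdB m p) • x, (key x).symm⟩

/-- Finite modules have vanishing mod-`p` Euler characteristic. -/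
theorem chi_eq_zero_of_finite' {f : Rep.{0} (ZMod p) G → ℤ} (hf : IsAdditive f)
    (X : Rep.{0} R G) [Finite X] : chi p f X = 0 :=
  chi_eq_zero_of_finite hf _ X inferInstance rfl

end chi

/-! ### `dim Hom_G(P, -)` for projective `P` -/

section proj

variable {k : Type} [Field k]

theorem mem_invariants_homRep_iff {X T : Rep.{0} k G} (h : X →ₗ[k] T) :
    (show (homRep X T) from h) ∈ (homRep X T).ρ.invariants ↔
      ∀ g x, h (X.ρ g x) = T.ρ g (h x) := by
  rw [Representation.mem_invariants]
  constructor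
  · intro H g x
    have := LinearMap.congr_fun (H g) (X.ρ g x)
    rw [homRep_ρ_apply] at this
    rw [← this, ← Module.End.mul_apply, ← map_mul, inv_mul_cancel, map_one, Module.End.one_apply]
  · intro H g
    apply LinearMap.ext
    intro x
    rw [homRep_ρ_apply, ← H, ← Module.End.mul_apply, ← map_mul, mul_inv_cancel, map_one,
      Module.End.one_apply]

/-- Post-composition with an equivariant map, on equivariant maps out of `P`. -/
def postComp (P : Rep.{0} k G) {A B : Rep.{0} k G} (φ : A →ₗ[k] B)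
    (hφ : ∀ g a, φ (A.ρ g a) = B.ρ g (φ a)) :
    (homRep P A).ρ.invariants →ₗ[k] (homRep P B).ρ.invariants where
  toFun h := ⟨(show P →ₗ[k] B from φ ∘ₗ (show P →ₗ[k] A from h.1)), by
    have hh := (mem_invariants_homRep_iff (show P →ₗ[k] A from h.1)).mp h.2
    refine (mem_invariants_homRep_iff _).mpr fun g x => ?_
    rw [LinearMap.comp_apply, hh, hφ, LinearMap.comp_apply]⟩
  map_add' h h' := Subtype.ext (LinearMap.comp_add _ _ _)
  map_smul' c h := Subtype.ext (LinearMap.comp_smul _ _ _)

theorem postComp_apply (P : Rep.{0} k G) {A B : Rep.{0} k G} (φ : A →ₗ[k] B)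
    (hφ : ∀ g a, φ (A.ρ g a) = B.ρ g (φ a)) (h : (homRep P A).ρ.invariants) (x : P) :
    (show P →ₗ[k] B from (postComp P φ hφ h).1) x = φ ((show P →ₗ[k] A from h.1) x) := rfl

instance finiteDimensional_homRep_invariants (P T : Rep.{0} k G) [FiniteDimensional k P]
    [FiniteDimensional k T] : FiniteDimensional k (homRep P T).ρ.invariants :=
  haveI : FiniteDimensional k (homRep P T) := inferInstanceAs (FiniteDimensional k (P →ₗ[k] T))
  inferInstance

/-- **`dim Hom_G(P, -)` is additive for projective `P`.** -/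
theorem isAdditive_eqHomRank (P : Rep.{0} k G) [FiniteDimensional k P] (hP : IsProjRep P) :
    IsAdditive (fun Y : Rep.{0} k G => (eqHomRank P Y : ℤ)) := by
  intro A B C φ ψ hses hB
  have hA : FiniteDimensional k A := Module.Finite.of_injective φ hses.inj
  have hC : FiniteDimensional k C := Module.Finite.of_surjective ψ hses.surj
  -- injectivity
  have hinj : Function.Injective (postComp P φ hses.φ_comm) := by
    intro h h' hh
    apply Subtype.ext
    apply LinearMap.ext
    intro x
    apply hses.inj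
    have := congrArg (fun t : (homRep P B).ρ.invariants => (show P →ₗ[k] B from t.1) x) hh
    exact this
  -- surjectivity
  have hsurj : Function.Surjective (postComp P ψ hses.ψ_comm) := by
    intro h
    obtain ⟨h', hh', hcomp⟩ := hP B C ψ hses.ψ_comm hses.surj (show P →ₗ[k] C from h.1)
      ((mem_invariants_homRep_iff _).mp h.2)
    refine ⟨⟨h', (mem_invariants_homRep_iff h').mpr hh'⟩, ?_⟩
    apply Subtype.ext
    apply LinearMap.ext
    intro x
    exact hcomp x
  -- exactness
  have hex : LinearMap.range (postComp P φ hses.φ_comm) =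
      LinearMap.ker (postComp P ψ hses.ψ_comm) := by
    ext h
    rw [LinearMap.mem_range, LinearMap.mem_ker]
    constructor
    · rintro ⟨h', rfl⟩
      apply Subtype.ext
      apply LinearMap.ext
      intro x
      change ψ (φ ((show P →ₗ[k] A from h'.1) x)) = 0
      exact (hses.exact _).mpr ⟨_, rfl⟩
    · intro hh
      have hmem : ∀ x, (show P →ₗ[k] B from h.1) x ∈ LinearMap.range φ := by
        intro x
        have := congrArg (fun t : (homRep P C).ρ.invariants => (show P →ₗ[k] C from t.1) x) hh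
        exact (hses.exact _).mp this
      let e := LinearEquiv.ofInjective φ hses.inj
      let h0 : P →ₗ[k] A := e.symm.toLinearMap ∘ₗ
        (LinearMap.codRestrict (LinearMap.range φ) (show P →ₗ[k] B from h.1) hmem)
      have hφh0 : ∀ x, φ (h0 x) = (show P →ₗ[k] B from h.1) x := by
        intro x
        have := e.apply_symm_apply
          (LinearMap.codRestrict (LinearMap.range φ) (show P →ₗ[k] B from h.1) hmem x)
        exact congrArg Subtype.val this
      have hh0 : ∀ g x, h0 (P.ρ g x) = A.ρ g (h0 x) := by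
        intro g x
        apply hses.inj
        rw [hφh0, hses.φ_comm, hφh0]
        exact (mem_invariants_homRep_iff _).mp h.2 g x
      refine ⟨⟨h0, (mem_invariants_homRep_iff h0).mpr hh0⟩, ?_⟩
      apply Subtype.ext
      apply LinearMap.ext
      intro x
      exact hφh0 x
  have h1 := LinearMap.finrank_range_add_finrank_ker (postComp P ψ hses.ψ_comm)
  rw [LinearMap.range_eq_top.mpr hsurj, finrank_top, ← hex,
    LinearMap.finrank_range_of_inj hinj] at h1
  change ((finrank k (homRep P B).ρ.invariants : ℕ) : ℤ) =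
    (finrank k (homRep P A).ρ.invariants : ℕ) + (finrank k (homRep P C).ρ.invariants : ℕ)
  rw [← h1]
  push_cast
  ring

end proj

/-! ### The invariant `h_P` -/

section hP

variable {R : Type} [CommRing R] (p : ℕ) [Fact p.Prime]

/-- `h_P(X) = dim Hom_G(P, X / pX) - dim Hom_G(P, X[p])`. -/
def hP (P : Rep.{0} (ZMod p) G) (X : Rep.{0} R G) : ℤ :=
  chi p (fun Y => (eqHomRank P Y : ℤ)) X

theorem hP_eq (P : Rep.{0} (ZMod p) G) (X : Rep.{0} R G) :
    hP p P X = (eqHomRank P (modPRep p X) : ℤ) - (eqHomRank P (pTorsionRep p X) : ℤ) := rfl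

variable {p} (P : Rep.{0} (ZMod p) G) [FiniteDimensional (ZMod p) P] (hproj : IsProjRep P)

include hproj

/-- **Additivity of `h_P`.** -/
theorem hP_additive {A B C : Rep.{0} R G} (φ : A →ₗ[R] B) (ψ : B →ₗ[R] C)
    (hφ : ∀ g a, φ (A.ρ g a) = B.ρ g (φ a)) (hψ : ∀ g b, ψ (B.ρ g b) = C.ρ g (ψ b))
    (hinj : Function.Injective φ) (hsurj : Function.Surjective ψ) (hex : Function.Exact φ ψ)
    (hA : IsPFinite p A) (hB : IsPFinite p B) (hC : IsPFinite p C) :
    hP p P B = hP p P A + hP p P C :=
  chi_additive p (isAdditive_eqHomRank P hproj) φ ψ hφ hψ hinj hsurj hex hA hB hC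

theorem hP_iso {X Y : Rep.{0} R G} (e : X →ₗ[R] Y) (he : ∀ g x, e (X.ρ g x) = Y.ρ g (e x))
    (hbij : Function.Bijective e) (hY : IsPFinite p Y) : hP p P X = hP p P Y :=
  chi_iso (isAdditive_eqHomRank P hproj) e he hbij hY

theorem hP_eq_zero_of_finite (X : Rep.{0} R G) [Finite X] : hP p P X = 0 :=
  chi_eq_zero_of_finite' (isAdditive_eqHomRank P hproj) X

theorem hP_eq_zero_of_bijective (X : Rep.{0} R G) (hX : Function.Bijective fun x : X => p • x) :
    hP p P X = 0 :=
  chi_eq_zero_of_bijective (isAdditive_eqHomRank P hproj) X hX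

theorem hP_eq_zero_of_coprime_killed (X : Rep.{0} R G) (m : ℕ) (hm : m.Coprime p)
    (hX : ∀ x : X, m • x = 0) : hP p P X = 0 :=
  chi_eq_zero_of_coprime_killed (isAdditive_eqHomRank P hproj) X m hm hX

theorem hP_sub_hP {X Y : Rep.{0} R G} (α : X →ₗ[R] Y) (hα : ∀ g x, α (X.ρ g x) = Y.ρ g (α x))
    (hX : IsPFinite p X) (hY : IsPFinite p Y) (hK : IsPFinite p (kerRep α hα))
    (hQ : IsPFinite p (cokerRep α hα)) :
    hP p P Y - hP p P X = hP p P (cokerRep α hα) - hP p P (kerRep α hα) :=
  chi_sub_chi (isAdditive_eqHomRank P hproj) α hα hX hY hK hQ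

theorem hP_eq_of_finite_ker_coker {X Y : Rep.{0} R G} (α : X →ₗ[R] Y)
    (hα : ∀ g x, α (X.ρ g x) = Y.ρ g (α x)) (hX : IsPFinite p X) (hY : IsPFinite p Y)
    (hK : Finite (LinearMap.ker α)) (hQ : Finite (Y ⧸ LinearMap.range α)) :
    hP p P X = hP p P Y :=
  chi_eq_of_finite_ker_coker (isAdditive_eqHomRank P hproj) α hα hX hY hK hQ

end hP

end

end Fermat.Agent.TW.GlobalEC.ChiP74
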