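/-
TW / WP4 (global Euler characteristic), brick EC5-INTEGRATOR, part 2 (helper59): the dictionary
between the three landed vocabularies for the invariant `h_P`:

* `SpecC26.hP`, `SpecC26.IsPFinite`  (the specification),
* `ChiP74.hP`, `ChiP74.chi`, `ChiP74.IsPFinite`  (the calculus of helper74),
* `Adm59.Adm`, `Adm59.IsAdmAdditive`, `Adm59.VanishesOnFinite`, `Adm59.VanishesOnCoprime`
  (the hypotheses of the exports of EC5a).

So the exports `IdeleSeqRep59.adm_repCT_and_eq` and `LevelSeq59.adm_and_eq` apply to `h_P` verbatim.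
-/
import Mathlib
import Fermat.Agent.TW.GlobalEC.SpecC26
import Fermat.Agent.TW.GlobalEC.ChiP74
import Fermat.Agent.TW.GlobalEC.Adm59

set_option autoImplicit false
set_option linter.unusedSectionVars false

namespace Fermat.Agent.TW.GlobalEC.ChiBridge59

open Module
open Fermat.Agent.TW.GlobalEC.Spec26 Fermat.Agent.TW.GlobalEC.SpecB26
open Fermat.Agent.TW.GlobalEC.Adm59

variable {G : Type} [Group G] {R : Type} [CommRing R] (p : ℕ) [Fact p.Prime]

/-! ### Domains -/

theorem specIsPFinite_iff_adm (X : Rep.{0} R G) : SpecC26.IsPFinite p X ↔ Adm p X := Iff.rfl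

theorem isPFinite_iff_adm (X : Rep.{0} R G) : ChiP74.IsPFinite p X ↔ Adm p X := by
  rw [adm_iff_finiteDimensional]
  exact and_comm

theorem isPFinite_iff_spec (X : Rep.{0} R G) : ChiP74.IsPFinite p X ↔ SpecC26.IsPFinite p X :=
  isPFinite_iff_adm p X

/-! ### The invariant -/

theorem hP_spec_eq (P : Rep.{0} (ZMod p) G) (X : Rep.{0} R G) :
    SpecC26.hP p P X = ChiP74.hP p P X := rfl

variable {p}

/-- The mod-`p` Euler characteristic attached to an additive function is additive on short exact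
sequences of admissible modules. -/
theorem isAdmAdditive_chi {f : Rep.{0} (ZMod p) G → ℤ} (hf : IsAdditive f) :
    IsAdmAdditive p (ChiP74.chi p f : Rep.{0} R G → ℤ) := by
  intro A B C φ ψ hφ hψ hinj hsurj hex hA hB hC
  exact ChiP74.chi_additive p hf φ ψ hφ hψ hinj hsurj hex ((isPFinite_iff_adm p A).2 hA)
    ((isPFinite_iff_adm p B).2 hB) ((isPFinite_iff_adm p C).2 hC)

theorem vanishesOnFinite_chi {f : Rep.{0} (ZMod p) G → ℤ} (hf : IsAdditive f) :
    VanishesOnFinite (ChiP74.chi p f : Rep.{0} R G → ℤ) :=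
  fun X _ => ChiP74.chi_eq_zero_of_finite' hf X

theorem vanishesOnCoprime_chi {f : Rep.{0} (ZMod p) G → ℤ} (hf : IsAdditive f) :
    VanishesOnCoprime p (ChiP74.chi p f : Rep.{0} R G → ℤ) :=
  fun X m hm hX => ChiP74.chi_eq_zero_of_coprime_killed hf X m hm.symm hX

section hP

variable (P : Rep.{0} (ZMod p) G) [FiniteDimensional (ZMod p) P] (hproj : IsProjRep P)

include hproj

theorem isAdmAdditive_hP : IsAdmAdditive p (ChiP74.hP p P : Rep.{0} R G → ℤ) :=
  isAdmAdditive_chi (ChiP74.isAdditive_eqHomRank P hproj)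

theorem vanishesOnFinite_hP : VanishesOnFinite (ChiP74.hP p P : Rep.{0} R G → ℤ) :=
  vanishesOnFinite_chi (ChiP74.isAdditive_eqHomRank P hproj)

theorem vanishesOnCoprime_hP : VanishesOnCoprime p (ChiP74.hP p P : Rep.{0} R G → ℤ) :=
  vanishesOnCoprime_chi (ChiP74.isAdditive_eqHomRank P hproj)

/-- Invariance of `h_P` under equivariant additive bijections, with transport of admissibility. -/
theorem hP_eq_of_bijective {X Y : Rep.{0} R G} (f : X →ₗ[R] Y)
    (hf : ∀ g x, f (X.ρ g x) = Y.ρ g (f x)) (hbij : Function.Bijective f) (hX : Adm p X) :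
    Adm p Y ∧ ChiP74.hP p P X = ChiP74.hP p P Y := by
  have hY : ChiP74.IsPFinite p Y :=
    ChiP74.IsPFinite.of_bijective f hbij ((isPFinite_iff_adm p X).2 hX)
  exact ⟨(isPFinite_iff_adm p Y).1 hY, ChiP74.hP_iso P hproj f hf hbij hY⟩

end hP

end Fermat.Agent.TW.GlobalEC.ChiBridge59
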