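/-
TW / WP4 (global Euler characteristic), brick EC5a (helper59): the idele class sequences at a finite
level, on the `T`-idele objects of `PT/GLOB/Interface23`.

For a number field `L` and a finite set `T` of rational primes:

  `1 → E_T(L) → I_T(L) → C_T(L) → Cl_T(L) → 1`

with `E_T(L) = (divT T L).ker` (the `T`-units), `I_T(L) = IT T L`, `C_T(L) = CT T L` and
`Cl_T(L) = DivT T L ⧸ (divT T L).range` (the `T`-class group, finite).  All maps are equivariant for
`Gal(L/K)`.

Main results.
* `unitsToIT`, `unitsToIT_injective`, `unitsToIT_smul`;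
* `itToCT`, `ker_itToCT`, `itToCT_smul`;
* `ClT`, `ctToClT`, `ctToClT_surjective`, `ker_ctToClT`, `smul_ctToClT`;
* `finite_ClT : Finite (ClT T L)`, `finiteIndex_range_itToCT`.
-/
import Mathlib
import Fermat.Agent.PT.GLOB.Interface23
import Fermat.Agent.PT.GLOB.ClassAction23
import Fermat.Agent.PT.GLOB.FixedClass6
import Fermat.Agent.PT.GLOB.ClassKill15

set_option autoImplicit false
set_option linter.unusedSectionVars false

namespace Fermat.Agent.TW.GlobalEC.IdeleSeq59

open NumberField IsDedekindDomain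
open scoped TensorProduct nonZeroDivisors Pointwise
open Fermat.Agent.PT.GLOB.Interface23 Fermat.Agent.PT.GLOB.ClassAction23
open Fermat.Agent.PT.GLOB.FixedClass6

section Sequence

variable (T : Finset Nat.Primes)
variable (L : Type*) [Field L] [NumberField L]

/-! ### `E_T(L) → I_T(L)` -/

/-- The diagonal embedding of the `T`-units into the `T`-ideles. -/
noncomputable def unitsToIT : (divT T L).ker →* IT T L :=
  (diagI T L).comp (divT T L).ker.subtype

theorem unitsToIT_apply (x : (divT T L).ker) : unitsToIT T L x = diagI T L (x : Lˣ) := rfl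

theorem unitsToIT_injective (hT : T.Nonempty) : Function.Injective (unitsToIT T L) := by
  intro x y hxy
  exact Subtype.ext (diagI_injective T L hT hxy)

/-! ### `I_T(L) → C_T(L)` -/

/-- The map from the `T`-ideles to the `T`-idele class group. -/
noncomputable def itToCT : IT T L →* CT T L :=
  (toCT T L).comp (MonoidHom.inl (IT T L) (DivT T L))

theorem itToCT_apply (ι : IT T L) : itToCT T L ι = toCT T L (ι, 1) := rfl

/-- Exactness at `I_T(L)`. -/
theorem ker_itToCT : (itToCT T L).ker = (unitsToIT T L).range := by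
  ext ι
  rw [MonoidHom.mem_ker, itToCT_apply, toCT_eq_one_iff, MonoidHom.mem_range, MonoidHom.mem_range]
  constructor
  · rintro ⟨x, hx⟩
    have h1 : diagI T L x = ι := congrArg Prod.fst hx
    have h2 : divT T L x = 1 := congrArg Prod.snd hx
    exact ⟨⟨x, MonoidHom.mem_ker.mpr h2⟩, h1⟩
  · rintro ⟨x, hx⟩
    refine ⟨(x : Lˣ), ?_⟩
    have h2 : divT T L (x : Lˣ) = 1 := MonoidHom.mem_ker.mp x.2
    exact Prod.ext hx h2

/-! ### `C_T(L) → Cl_T(L)` -/

/-- The `T`-class group of `L`: divisors prime to `T` modulo principal divisors. -/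
abbrev ClT : Type _ := DivT T L ⧸ (divT T L).range

/-- The projection `DivT T L → Cl_T(L)`. -/
noncomputable def toClT : DivT T L →* ClT T L := QuotientGroup.mk' _

theorem toClT_surjective : Function.Surjective (toClT T L) := QuotientGroup.mk'_surjective _

theorem toClT_eq_one_iff (D : DivT T L) : toClT T L D = 1 ↔ D ∈ (divT T L).range :=
  QuotientGroup.eq_one_iff D

/-- The map from the `T`-idele class group to the `T`-class group. -/
noncomputable def ctToClT : CT T L →* ClT T L :=
  QuotientGroup.lift (diagJ T L).range ((toClT T L).comp (MonoidHom.snd (IT T L) (DivT T L)))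
    (by
      rintro j ⟨x, rfl⟩
      rw [MonoidHom.mem_ker, MonoidHom.comp_apply, MonoidHom.coe_snd, toClT_eq_one_iff]
      exact ⟨x, rfl⟩)

theorem ctToClT_toCT (j : JT T L) : ctToClT T L (toCT T L j) = toClT T L j.2 := rfl

theorem ctToClT_surjective : Function.Surjective (ctToClT T L) := by
  intro c
  obtain ⟨D, rfl⟩ := toClT_surjective T L c
  exact ⟨toCT T L (1, D), rfl⟩

/-- Exactness at `C_T(L)`. -/
theorem ker_ctToClT : (ctToClT T L).ker = (itToCT T L).range := by
  ext c
  obtain ⟨j, rfl⟩ := toCT_surjective T L c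
  rw [MonoidHom.mem_ker, ctToClT_toCT, toClT_eq_one_iff, MonoidHom.mem_range]
  constructor
  · rintro ⟨x, hx⟩
    refine ⟨j.1 / diagI T L x, ?_⟩
    rw [itToCT_apply, toCT_eq_iff]
    refine ⟨x⁻¹, ?_⟩
    rw [map_inv]
    apply Prod.ext
    · change (diagI T L x)⁻¹ = j.1 / diagI T L x / j.1
      rw [div_div_cancel_left]
    · change (divT T L x)⁻¹ = 1 / j.2
      rw [hx, one_div]
  · rintro ⟨ι, hι⟩
    rw [itToCT_apply, toCT_eq_iff] at hι
    obtain ⟨x, hx⟩ := hι
    refine ⟨x⁻¹, ?_⟩
    have h2 : divT T L x = 1 / j.2 := congrArg Prod.snd hx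
    rw [map_inv, h2, one_div, inv_inv]

end Sequence

/-! ### Finiteness of the `T`-class group -/

section Finite

variable (T : Finset Nat.Primes)
variable (L : Type*) [Field L] [NumberField L]

theorem finite_count_ne_zero (I : FractionalIdeal (𝓞 L)⁰ L) :
    {P : PrimeAway T L | FractionalIdeal.count L P.1 I ≠ 0}.Finite := by
  have h := FractionalIdeal.finite_factors (R := 𝓞 L) (K := L) I
  rw [Filter.eventually_cofinite] at h
  exact Set.Finite.preimage (Subtype.val_injective.injOn) h

/-- The part prime to `T` of the divisor of a fractional ideal. -/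
noncomputable def divOfIdeal (I : FractionalIdeal (𝓞 L)⁰ L) : DivT T L :=
  DivT.ofFinsupp T L
    (Finsupp.ofSupportFinite (fun P : PrimeAway T L => FractionalIdeal.count L P.1 I)
      (finite_count_ne_zero T L I))

theorem divOfIdeal_apply (I : FractionalIdeal (𝓞 L)⁰ L) (P : PrimeAway T L) :
    DivT.toFinsupp T L (divOfIdeal T L I) P = FractionalIdeal.count L P.1 I := rfl

theorem divOfIdeal_mul {I J : FractionalIdeal (𝓞 L)⁰ L} (hI : I ≠ 0) (hJ : J ≠ 0) :
    divOfIdeal T L (I * J) = divOfIdeal T L I * divOfIdeal T L J := by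
  apply divT_ext
  intro P
  change _ = (DivT.toFinsupp T L (divOfIdeal T L I) + DivT.toFinsupp T L (divOfIdeal T L J)) P
  rw [Finsupp.add_apply, divOfIdeal_apply, divOfIdeal_apply, divOfIdeal_apply,
    FractionalIdeal.count_mul L P.1 hI hJ]

theorem divOfIdeal_spanSingleton (x : Lˣ) :
    divOfIdeal T L (FractionalIdeal.spanSingleton (𝓞 L)⁰ (x : L)) = divT T L x := by
  apply divT_ext
  intro P
  rw [divOfIdeal_apply, divT_apply]
  rfl

theorem exists_divOfIdeal_eq (D : DivT T L) :
    ∃ I : FractionalIdeal (𝓞 L)⁰ L, I ≠ 0 ∧ divOfIdeal T L I = D := by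
  classical
  let f : HeightOneSpectrum (𝓞 L) →₀ ℤ :=
    Finsupp.mapDomain (Subtype.val : PrimeAway T L → HeightOneSpectrum (𝓞 L))
      (DivT.toFinsupp T L D)
  refine ⟨f.prod (fun w k => (w.asIdeal : FractionalIdeal (𝓞 L)⁰ L) ^ k), ?_, ?_⟩
  · rw [Finsupp.prod, Finset.prod_ne_zero_iff]
    exact fun v _ ↦ zpow_ne_zero _ (FractionalIdeal.coeIdeal_ne_zero.mpr v.ne_bot)
  · apply divT_ext
    intro P
    rw [divOfIdeal_apply, FractionalIdeal.count_finsuppProd]
    exact Finsupp.mapDomain_apply Subtype.val_injective _ P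

/-- **The `T`-class group is finite.** -/
theorem finite_ClT : Finite (ClT T L) := by
  classical
  have hsurj : Function.Surjective
      (ClassGroup.mk (R := 𝓞 L) L : (FractionalIdeal (𝓞 L)⁰ L)ˣ → ClassGroup (𝓞 L)) := by
    intro c
    exact ClassGroup.induction (R := 𝓞 L) L (P := fun c => ∃ I, ClassGroup.mk L I = c)
      (fun I => ⟨I, rfl⟩) c
  let f : ClassGroup (𝓞 L) → ClT T L := fun c =>
    toClT T L (divOfIdeal T L ((Function.surjInv hsurj c : (FractionalIdeal (𝓞 L)⁰ L)ˣ) :
      FractionalIdeal (𝓞 L)⁰ L))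
  apply Finite.of_surjective f
  intro c
  obtain ⟨D, rfl⟩ := toClT_surjective T L c
  obtain ⟨I, hI0, hID⟩ := exists_divOfIdeal_eq T L D
  refine ⟨ClassGroup.mk L (Units.mk0 I hI0), ?_⟩
  set I' : (FractionalIdeal (𝓞 L)⁰ L)ˣ :=
    Function.surjInv hsurj (ClassGroup.mk L (Units.mk0 I hI0)) with hI'
  have hmk : ClassGroup.mk L I' = ClassGroup.mk L (Units.mk0 I hI0) := Function.surjInv_eq hsurj _
  have h1 : ClassGroup.mk L (I' * (Units.mk0 I hI0)⁻¹) = 1 := by
    rw [map_mul, map_inv, hmk, mul_inv_cancel]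
  rw [ClassGroup.mk_eq_one_iff] at h1
  obtain ⟨x, hx⟩ := h1.principal
  have hx' : (I' : FractionalIdeal (𝓞 L)⁰ L) * I⁻¹ =
      FractionalIdeal.spanSingleton (𝓞 L)⁰ x := by
    apply FractionalIdeal.coeToSubmodule_injective
    show (((I' : FractionalIdeal (𝓞 L)⁰ L) * I⁻¹ : FractionalIdeal (𝓞 L)⁰ L) :
      Submodule (𝓞 L) L) = ((FractionalIdeal.spanSingleton (𝓞 L)⁰ x :
        FractionalIdeal (𝓞 L)⁰ L) : Submodule (𝓞 L) L)
    rw [FractionalIdeal.coe_spanSingleton, ← hx]
    simp
  have hI'0 : (I' : FractionalIdeal (𝓞 L)⁰ L) ≠ 0 := I'.ne_zero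
  have hx0 : x ≠ 0 := by
    rintro rfl
    rw [FractionalIdeal.spanSingleton_zero] at hx'
    exact mul_ne_zero hI'0 (inv_ne_zero hI0) hx'
  have h2 : (I' : FractionalIdeal (𝓞 L)⁰ L) =
      I * FractionalIdeal.spanSingleton (𝓞 L)⁰ ((Units.mk0 x hx0 : Lˣ) : L) := by
    rw [Units.val_mk0, ← hx', mul_comm, mul_assoc, inv_mul_cancel₀ hI0, mul_one]
  change toClT T L (divOfIdeal T L (I' : FractionalIdeal (𝓞 L)⁰ L)) = toClT T L D
  rw [h2, divOfIdeal_mul T L hI0 (by
      rw [Ne, FractionalIdeal.spanSingleton_eq_zero_iff]; exact (Units.mk0 x hx0).ne_zero),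
    divOfIdeal_spanSingleton, hID, map_mul]
  have : toClT T L (divT T L (Units.mk0 x hx0)) = 1 :=
    (toClT_eq_one_iff T L _).mpr ⟨_, rfl⟩
  rw [this, mul_one]

instance instFiniteClT : Finite (ClT T L) := finite_ClT T L

/-- The image of the `T`-ideles in the `T`-idele class group has finite index. -/
theorem finiteIndex_range_itToCT : (itToCT T L).range.FiniteIndex := by
  rw [← ker_ctToClT]
  have e := QuotientGroup.quotientKerEquivOfSurjective (ctToClT T L) (ctToClT_surjective T L)
  have : Finite (CT T L ⧸ (ctToClT T L).ker) := Finite.of_equiv _ e.symm.toEquiv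
  exact Subgroup.finiteIndex_of_finite_quotient

end Finite

/-! ### Galois equivariance -/

section Galois

variable (T : Finset Nat.Primes)
variable (K L : Type*) [Field K] [Field L] [NumberField K] [NumberField L] [Algebra K L]

theorem smul_mem_ker_divT (σ : L ≃ₐ[K] L) {x : Lˣ} (hx : x ∈ (divT T L).ker) :
    σ • x ∈ (divT T L).ker := by
  rw [MonoidHom.mem_ker] at hx ⊢
  rw [divT_smul, hx, smul_one]

/-- The Galois action on the `T`-units. -/
noncomputable instance instActionUnitsT : MulDistribMulAction (L ≃ₐ[K] L) (divT T L).ker where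
  smul σ x := ⟨σ • (x : Lˣ), smul_mem_ker_divT T K L σ x.2⟩
  one_smul _ := Subtype.ext (one_smul _ _)
  mul_smul σ τ _ := Subtype.ext (mul_smul σ τ _)
  smul_mul σ x y := Subtype.ext (smul_mul' σ (x : Lˣ) (y : Lˣ))
  smul_one σ := Subtype.ext (smul_one σ)

theorem coe_smul_unitsT (σ : L ≃ₐ[K] L) (x : (divT T L).ker) :
    ((σ • x : (divT T L).ker) : Lˣ) = σ • (x : Lˣ) := rfl

theorem unitsToIT_smul (σ : L ≃ₐ[K] L) (x : (divT T L).ker) :
    unitsToIT T L (σ • x) = σ • unitsToIT T L x :=
  diagI_smul T σ (x : Lˣ)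

theorem itToCT_smul (σ : L ≃ₐ[K] L) (ι : IT T L) :
    itToCT T L (σ • ι) = σ • itToCT T L ι := by
  rw [itToCT_apply, itToCT_apply, smul_toCT]
  have h : (σ • ((ι, (1 : DivT T L)) : JT T L) : JT T L) = (σ • ι, 1) :=
    Prod.ext rfl (smul_one σ)
  rw [h]

theorem smul_mem_range_divT (σ : L ≃ₐ[K] L) {D : DivT T L} (hD : D ∈ (divT T L).range) :
    σ • D ∈ (divT T L).range := by
  obtain ⟨x, rfl⟩ := hD
  exact ⟨σ • x, divT_smul T σ x⟩

/-- The Galois action on the `T`-class group. -/
noncomputable instance instActionClT : MulDistribMulAction (L ≃ₐ[K] L) (ClT T L) where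
  smul σ c := QuotientGroup.map (divT T L).range (divT T L).range
    (MulDistribMulAction.toMonoidHom (DivT T L) σ)
    (fun _ hD => Subgroup.mem_comap.mpr (smul_mem_range_divT T K L σ hD)) c
  one_smul c := by
    induction c using QuotientGroup.induction_on with
    | H D => exact congrArg _ (one_smul (L ≃ₐ[K] L) D)
  mul_smul σ τ c := by
    induction c using QuotientGroup.induction_on with
    | H D => exact congrArg _ (mul_smul σ τ D)
  smul_mul σ c d := map_mul _ c d
  smul_one σ := map_one _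

theorem smul_toClT (σ : L ≃ₐ[K] L) (D : DivT T L) : σ • toClT T L D = toClT T L (σ • D) := rfl

theorem ctToClT_smul (σ : L ≃ₐ[K] L) (c : CT T L) :
    ctToClT T L (σ • c) = σ • ctToClT T L c := by
  obtain ⟨j, rfl⟩ := toCT_surjective T L c
  rw [smul_toCT, ctToClT_toCT, ctToClT_toCT, smul_toClT]
  rfl

end Galois

end Fermat.Agent.TW.GlobalEC.IdeleSeq59
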