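/-
TW / WP4 (global Euler characteristic), brick EC5a, part 3 (helper59): the idele class sequence
`1 → E_T(L) → I_T(L) → C_T(L) → Cl_T(L) → 1` of `IdeleSeq59` at the level of `Rep ℤ Gal(L/K)`, and
its consequence for additive invariants of admissible modules (`Adm59`):

  `h (I_T(L)) = h (E_T(L)) + h (C_T(L))`   and   `C_T(L)` is admissible.

The representations of `I_T(L)` and `C_T(L)` are `ClassAction23.repIT`, `ClassAction23.repCT`.
-/
import Mathlib
import Fermat.Agent.TW.GlobalEC.IdeleSeq59
import Fermat.Agent.TW.GlobalEC.Adm59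

set_option autoImplicit false
set_option linter.unusedSectionVars false

namespace Fermat.Agent.TW.GlobalEC.IdeleSeqRep59

open NumberField IsDedekindDomain
open Fermat.Agent.PT.GLOB.Interface23 Fermat.Agent.PT.GLOB.ClassAction23
open Fermat.Agent.TW.GlobalEC.IdeleSeq59 Fermat.Agent.TW.GlobalEC.Adm59

variable (T : Finset Nat.Primes)
variable (K L : Type) [Field K] [Field L] [NumberField K] [NumberField L] [Algebra K L]

/-- The `T`-units `E_T(L) = (divT T L).ker` as a `Gal(L/K)`-module. -/
noncomputable abbrev repUnitsT : Rep ℤ (L ≃ₐ[K] L) :=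
  Rep.ofMulDistribMulAction (L ≃ₐ[K] L) (divT T L).ker

/-- The `T`-class group `Cl_T(L)` as a `Gal(L/K)`-module. -/
noncomputable abbrev repClT : Rep ℤ (L ≃ₐ[K] L) :=
  Rep.ofMulDistribMulAction (L ≃ₐ[K] L) (ClT T L)

/-- `E_T(L) → I_T(L)` as a linear map. -/
noncomputable def unitsToITLin : repUnitsT T K L →ₗ[ℤ] repIT T K L :=
  (unitsToIT T L).toAdditive.toIntLinearMap

/-- `I_T(L) → C_T(L)` as a linear map. -/
noncomputable def itToCTLin : repIT T K L →ₗ[ℤ] repCT T K L :=
  (itToCT T L).toAdditive.toIntLinearMap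

/-- `C_T(L) → Cl_T(L)` as a linear map. -/
noncomputable def ctToClTLin : repCT T K L →ₗ[ℤ] repClT T K L :=
  (ctToClT T L).toAdditive.toIntLinearMap

theorem unitsToITLin_comm (σ : L ≃ₐ[K] L) (a : repUnitsT T K L) :
    unitsToITLin T K L ((repUnitsT T K L).ρ σ a) = (repIT T K L).ρ σ (unitsToITLin T K L a) :=
  congrArg Additive.ofMul (unitsToIT_smul T K L σ (Additive.toMul a))

theorem itToCTLin_comm (σ : L ≃ₐ[K] L) (a : repIT T K L) :
    itToCTLin T K L ((repIT T K L).ρ σ a) = (repCT T K L).ρ σ (itToCTLin T K L a) :=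
  congrArg Additive.ofMul (itToCT_smul T K L σ (Additive.toMul a))

theorem ctToClTLin_comm (σ : L ≃ₐ[K] L) (a : repCT T K L) :
    ctToClTLin T K L ((repCT T K L).ρ σ a) = (repClT T K L).ρ σ (ctToClTLin T K L a) :=
  congrArg Additive.ofMul (ctToClT_smul T K L σ (Additive.toMul a))

theorem unitsToITLin_injective (hT : T.Nonempty) : Function.Injective (unitsToITLin T K L) := by
  intro a b hab
  have h := unitsToIT_injective T L hT (congrArg Additive.toMul hab)
  exact congrArg Additive.ofMul h

theorem exact_unitsToITLin_itToCTLin :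
    Function.Exact (unitsToITLin T K L) (itToCTLin T K L) := by
  intro (ι : Additive (IT T L))
  have h := ker_itToCT T L
  constructor
  · intro h0
    have h1 : Additive.toMul ι ∈ (itToCT T L).ker :=
      MonoidHom.mem_ker.mpr (congrArg Additive.toMul h0)
    rw [h] at h1
    obtain ⟨x, hx⟩ := h1
    exact ⟨Additive.ofMul x, congrArg Additive.ofMul hx⟩
  · rintro ⟨x, rfl⟩
    have h1 : unitsToIT T L (Additive.toMul x) ∈ (itToCT T L).ker := by
      rw [h]
      exact ⟨_, rfl⟩
    exact congrArg Additive.ofMul (MonoidHom.mem_ker.mp h1)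

theorem exact_itToCTLin_ctToClTLin :
    Function.Exact (itToCTLin T K L) (ctToClTLin T K L) := by
  intro (c : Additive (CT T L))
  have h := ker_ctToClT T L
  constructor
  · intro h0
    have h1 : Additive.toMul c ∈ (ctToClT T L).ker :=
      MonoidHom.mem_ker.mpr (congrArg Additive.toMul h0)
    rw [h] at h1
    obtain ⟨x, hx⟩ := h1
    exact ⟨Additive.ofMul x, congrArg Additive.ofMul hx⟩
  · rintro ⟨x, rfl⟩
    have h1 : itToCT T L (Additive.toMul x) ∈ (ctToClT T L).ker := by
      rw [h]
      exact ⟨_, rfl⟩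
    exact congrArg Additive.ofMul (MonoidHom.mem_ker.mp h1)

theorem ctToClTLin_surjective : Function.Surjective (ctToClTLin T K L) := by
  intro c
  obtain ⟨x, hx⟩ := ctToClT_surjective T L (Additive.toMul c)
  exact ⟨Additive.ofMul x, congrArg Additive.ofMul hx⟩

instance finite_repClT : Finite (repClT T K L) :=
  inferInstanceAs (Finite (Additive (ClT T L)))

/-- The cokernel of `I_T(L) → C_T(L)` is finite. -/
theorem finite_coker_itToCTLin :
    Finite ((repCT T K L) ⧸ LinearMap.range (itToCTLin T K L)) := by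
  let φ : ((repCT T K L) ⧸ LinearMap.range (itToCTLin T K L)) →ₗ[ℤ] repClT T K L :=
    (LinearMap.range (itToCTLin T K L)).liftQ (ctToClTLin T K L) (by
      rintro _ ⟨x, rfl⟩
      exact (exact_itToCTLin_ctToClTLin T K L _).mpr ⟨x, rfl⟩)
  apply Finite.of_injective φ
  rw [← LinearMap.ker_eq_bot, Submodule.ker_liftQ_eq_bot']
  ext c
  rw [LinearMap.mem_ker, LinearMap.mem_range]
  exact ((exact_itToCTLin_ctToClTLin T K L c).trans Iff.rfl).symm

/-- **EC5a, invariant form.**  For an invariant `h` which is additive on short exact sequences of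
admissible `ℤ[Gal(L/K)]`-modules and vanishes on finite modules: if the `T`-units and the `T`-ideles
are admissible, so is the `T`-idele class group, and `h(I_T) = h(E_T) + h(C_T)`. -/
theorem adm_repCT_and_eq (p : ℕ) [Fact p.Prime] (hT : T.Nonempty)
    {h : Rep.{0} ℤ (L ≃ₐ[K] L) → ℤ} (hadd : IsAdmAdditive p h) (hfin : VanishesOnFinite h)
    (hU : Adm p (repUnitsT T K L)) (hI : Adm p (repIT T K L)) :
    Adm p (repCT T K L) ∧ h (repIT T K L) = h (repUnitsT T K L) + h (repCT T K L) := by
  have hst := range_le_comap (itToCTLin T K L) (itToCTLin_comm T K L)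
  have hQfin : Finite (Rep.quotient (repCT T K L) (LinearMap.range (itToCTLin T K L)) hst) :=
    finite_coker_itToCTLin T K L
  have hQadm : Adm p (Rep.quotient (repCT T K L) (LinearMap.range (itToCTLin T K L)) hst) :=
    Adm.of_finite p _
  exact eq_add_of_exact_of_coker hadd (repUnitsT T K L) (repIT T K L) (repCT T K L)
    (unitsToITLin T K L) (itToCTLin T K L) (unitsToITLin_comm T K L) (itToCTLin_comm T K L)
    (unitsToITLin_injective T K L hT) (exact_unitsToITLin_itToCTLin T K L) hU hI
    hQadm (hfin _ hQfin)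

end Fermat.Agent.TW.GlobalEC.IdeleSeqRep59
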