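/-
TW / WP4 (global Euler characteristic), brick EC5a, part 2 (helper59): the comparison between the
invariants `(C_S)^{U_K}` of the limit module `C_S = I_S / E_S` and the `S`-idele class group
`CT S K` of a finite level `K`.

The comparison map `FundLevel2.phiAdd hS K : (C_S)^{U_K} →+ CT S K` is injective and equivariant
(`FundLevel2.phiAdd_injective`, `FundLevel2.phiAdd_fixedRep`); here we record that its cokernel is
killed by an integer prime to `p`.  Together with the four term exact sequence of `IdeleSeq59`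
(`T := S`, `L := K.F`) this computes every additive invariant of `(C_S)^{U_K}` which is insensitive
to finite modules and to isogenies of degree prime to `p`.
-/
import Mathlib
import Fermat.Agent.PT.GLUE.FundLevel2
import Fermat.Agent.TW.GlobalEC.IdeleSeq59
import Fermat.Agent.TW.GlobalEC.Adm59

set_option autoImplicit false
set_option linter.unusedSectionVars false

namespace Fermat.Agent.TW.GlobalEC.LevelSeq59

open Fermat.Agent.PT.GLUE.Objects21 Fermat.Agent.PT.GLUE.Levels21
open Fermat.Agent.PT.GLUE.FiniteLevelI21 Fermat.Agent.PT.GLUE.LevelCT21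
open Fermat.Agent.PT.GLUE.LevelQuot13 Fermat.Agent.PT.GLUE.FundLevel2
open Fermat.Agent.PT.GLOB Fermat.Agent.PT.GLOB.ClassAction23
open Fermat.Agent.PT.PRO.HyperColim18 Fermat.Agent.PT.PRO.FundRaw18

local notation "Qbar" => AlgebraicClosure ℚ
local notation "Γ" => (AlgebraicClosure ℚ ≃ₐ[ℚ] AlgebraicClosure ℚ)

local instance isAlgClosureQbarLS59 : IsAlgClosure ℚ Qbar := ⟨inferInstance, inferInstance⟩
local instance normalQbarLS59 : Normal ℚ Qbar := IsAlgClosure.normal ℚ Qbar
local instance isGaloisQbarLS59 : IsGalois ℚ Qbar := IsAlgClosure.isGalois ℚ Qbar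

variable {S : Finset Nat.Primes} (p : ℕ) [hp : Fact p.Prime]

/-- The cokernel of the comparison map `(C_S)^{U_K} → CT S K` is killed by an integer prime to
`p`. -/
theorem exists_coprime_pow_mem_range_phiAdd (hpS : (⟨p, hp.out⟩ : Nat.Primes) ∈ S) (K : Lev S) :
    ∃ m : ℕ, 0 < m ∧ Nat.Coprime p m ∧ ∀ c : Interface23.CT S K.F,
      ∃ x : fixedSub K.U (CS S).ρ, phiAdd ⟨_, hpS⟩ K x = Additive.ofMul (c ^ m) := by
  have hS : S.Nonempty := ⟨_, hpS⟩
  obtain ⟨m, hm0, hm, hcap⟩ := Fermat.Agent.PT.GLUE.Capitulation27.exists_coprime_capitulates p hp.out hpS K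
  refine ⟨m, hm0, hm, fun c => ?_⟩
  obtain ⟨L, hL, ι, h⟩ := hcap c
  exact exists_phiAdd_eq hS K L ι h

/-! ### The comparison at the level of representations of `Γ ⧸ U_K` -/

section Rep

open Fermat.Agent.TW.GlobalEC.Adm59

variable (hpS : (⟨p, hp.out⟩ : Nat.Primes) ∈ S) (K : Lev S)

/-- The `S`-idele class group of the level `K` as a module over `Γ ⧸ U_K` (through
`eLev K : Γ ⧸ U_K ≃* Gal(K/ℚ)`). -/
noncomputable abbrev resCT : Rep.{0} ℤ (Γ ⧸ K.U) :=
  Rep.res (eLev K).toMonoidHom (repCT S ℚ K.F)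

/-- The comparison map `(C_S)^{U_K} → C_S(K)` as a linear map. -/
noncomputable def phiLin : fixedObj K.U (CS S).ρ →ₗ[ℤ] resCT K :=
  (phiAdd ⟨_, hpS⟩ K).toIntLinearMap

theorem phiLin_apply (x : fixedSub K.U (CS S).ρ) : phiLin p hpS K x = phiAdd ⟨_, hpS⟩ K x := rfl

theorem phiLin_comm (q : Γ ⧸ K.U) (x : fixedObj K.U (CS S).ρ) :
    phiLin p hpS K ((fixedObj K.U (CS S).ρ).ρ q x) = (resCT K).ρ q (phiLin p hpS K x) := by
  induction q using QuotientGroup.induction_on with
  | H g => exact phiAdd_fixedRep ⟨_, hpS⟩ K g x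

theorem phiLin_injective : Function.Injective (phiLin p hpS K) :=
  phiAdd_injective ⟨_, hpS⟩ K

include hpS in
/-- **EC5a, comparison with the limit module.**  For an invariant `h` of `ℤ[Γ ⧸ U_K]`-modules which
is additive on short exact sequences of admissible modules and vanishes on modules killed by an
integer prime to `p`: `(C_S)^{U_K}` is admissible if and only if `C_S(K)` is, and then `h` takes the
same value on both. -/
theorem adm_and_eq {h : Rep.{0} ℤ (Γ ⧸ K.U) → ℤ} (hadd : IsAdmAdditive p h)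
    (hcop : VanishesOnCoprime p h)
    (hA : Adm p (fixedObj K.U (CS S).ρ) ∨ Adm p (resCT K)) :
    Adm p (fixedObj K.U (CS S).ρ) ∧ Adm p (resCT K) ∧
      h (resCT K) = h (fixedObj K.U (CS S).ρ) := by
  obtain ⟨m, -, hm, hcap⟩ := exists_coprime_pow_mem_range_phiAdd p hpS K
  refine eq_of_injective_of_coker_killed hadd hcop (fixedObj K.U (CS S).ρ) (resCT K)
    (phiLin p hpS K) (phiLin_comm p hpS K) (phiLin_injective p hpS K) hm ?_ hA
  intro (c : Additive (Interface23.CT S K.F))
  obtain ⟨x, hx⟩ := hcap (Additive.toMul c)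
  exact ⟨x, hx⟩

end Rep

end Fermat.Agent.TW.GlobalEC.LevelSeq59
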