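/-
TW / WP4 (global Euler characteristic), brick EC5-INTEGRATOR, part 3 (helper59): the two models of
the `G ⧸ U`-module `C^U` of invariants of a normal subgroup,

* Mathlib's `Rep.quotientToInvariants C U` (used by `SpecB26.ProjectiveEvaluation` and
  `SpecC26.ArithmeticCore`), and
* `FundRaw18.fixedObj U C.ρ` (used by the Poitou–Tate chapters, `FundLevel2`, `LevelSeq59`),

are identified by an equivariant linear bijection (the identity on underlying vectors).
-/
import Mathlib
import Fermat.Agent.PT.PRO.FundRaw18

set_option autoImplicit false
set_option linter.unusedSectionVars false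

namespace Fermat.Agent.TW.GlobalEC.QuotInv59

open Fermat.Agent.PT.PRO.HyperColim18 Fermat.Agent.PT.PRO.FundRaw18
open Fermat.Agent.PT.PRO.GlobalDuality20

variable {k : Type} [CommRing k] {G : Type} [Group G] (C : Rep.{0} k G) (U : Subgroup G)
  [U.Normal]

/-- The identification of the two submodules of invariants. -/
def toFixedSub : Representation.invariants (C.ρ.comp U.subtype) →ₗ[k] fixedSub U C.ρ where
  toFun x := ⟨x.1, fun s hs => x.2 ⟨s, hs⟩⟩
  map_add' _ _ := rfl
  map_smul' _ _ := rfl

/-- The identification `C.quotientToInvariants U → fixedObj U C.ρ`. -/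
def toFixed : C.quotientToInvariants U →ₗ[k] fixedObj U C.ρ := toFixedSub C U

theorem toFixed_injective : Function.Injective (toFixed C U) := by
  intro x y hxy
  have h : ((toFixedSub C U x : fixedSub U C.ρ) : C) = ((toFixedSub C U y : fixedSub U C.ρ) : C) :=
    congrArg Subtype.val hxy
  exact Subtype.ext h

theorem toFixed_surjective : Function.Surjective (toFixed C U) := by
  intro y
  exact ⟨(⟨(show fixedSub U C.ρ from y).1, fun s => (show fixedSub U C.ρ from y).2 s.1 s.2⟩ :
    Representation.invariants (C.ρ.comp U.subtype)), rfl⟩

theorem toFixed_bijective : Function.Bijective (toFixed C U) :=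
  ⟨toFixed_injective C U, toFixed_surjective C U⟩

theorem toFixed_comm (q : G ⧸ U) (x : C.quotientToInvariants U) :
    toFixed C U ((C.quotientToInvariants U).ρ q x) = (fixedObj U C.ρ).ρ q (toFixed C U x) := by
  induction q using QuotientGroup.induction_on with
  | H g => exact Subtype.ext rfl

end Fermat.Agent.TW.GlobalEC.QuotInv59
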