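/-
TW / WP4 (global Euler characteristic), brick EC5-INTEGRATOR, part 1 (helper59): transport of the
`Spec26`/`SpecB26` vocabulary along a group isomorphism `e : G ≃* H` (restriction of scalars
`Rep.res`).

The finite-level inputs of the arithmetic core are statements about modules over
`Gal(K/ℚ)`, whereas `SpecC26.ArithmeticCore` lives over `Γ ⧸ U`; the two groups are identified by
`LevelQuot13.eLev`.  Here:

* `eqHomRank_res`        : `dim Hom_G(P, res_e Y) = dim Hom_H(res_{e⁻¹} P, Y)`;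
* `isProjRep_res_symm`   : `P` projective over `G` ⟹ `res_{e⁻¹} P` projective over `H`;
* `hP_res`               : `h_P(res_e X) = h_{res_{e⁻¹} P}(X)`;
* `eqHomRank_trivRep_res`: `dim Hom_G(P, 𝔽_p) = dim Hom_H(res_{e⁻¹} P, 𝔽_p)`;
* `adm_res`, `isAdmAdditive_res`, `vanishesOnFinite_res`, `vanishesOnCoprime_res` : the
  `Adm59` vocabulary is insensitive to `Rep.res`.
-/
import Mathlib
import Fermat.Agent.TW.GlobalEC.SpecB26
import Fermat.Agent.TW.GlobalEC.ChiP74
import Fermat.Agent.TW.GlobalEC.Adm59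

set_option autoImplicit false
set_option linter.unusedSectionVars false

namespace Fermat.Agent.TW.GlobalEC.ResTransport59

open Module
open Fermat.Agent.TW.GlobalEC.Spec26 Fermat.Agent.TW.GlobalEC.SpecB26
open Fermat.Agent.TW.GlobalEC.ChiP74 Fermat.Agent.TW.GlobalEC.Adm59

noncomputable section

variable {G H : Type} [Group G] [Group H]

section Field

variable {k : Type} [Field k] (e : G ≃* H)

/-- `Hom_G(P, res_e Y) ≃ Hom_H(res_{e⁻¹} P, Y)`: the same linear maps. -/
def invEquiv (P : Rep.{0} k G) (Y : Rep.{0} k H) :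
    (homRep P (Rep.res e.toMonoidHom Y)).ρ.invariants ≃ₗ[k]
      (homRep (Rep.res e.symm.toMonoidHom P) Y).ρ.invariants where
  toFun f := ⟨(show P →ₗ[k] Y from f.1), by
    have hf := (mem_invariants_homRep_iff (X := P) (T := Rep.res e.toMonoidHom Y)
      (show P →ₗ[k] Y from f.1)).1 f.2
    refine (mem_invariants_homRep_iff (X := Rep.res e.symm.toMonoidHom P) (T := Y)
      (show P →ₗ[k] Y from f.1)).2 ?_
    intro h x
    have h1 := hf (e.symm h) x
    have h2 : (Rep.res e.toMonoidHom Y).ρ (e.symm h) = Y.ρ h := by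
      change Y.ρ (e (e.symm h)) = Y.ρ h
      rw [MulEquiv.apply_symm_apply]
    rw [h2] at h1
    exact h1⟩
  map_add' _ _ := rfl
  map_smul' _ _ := rfl
  invFun f := ⟨(show P →ₗ[k] Y from f.1), by
    have hf := (mem_invariants_homRep_iff (X := Rep.res e.symm.toMonoidHom P) (T := Y)
      (show P →ₗ[k] Y from f.1)).1 f.2
    refine (mem_invariants_homRep_iff (X := P) (T := Rep.res e.toMonoidHom Y)
      (show P →ₗ[k] Y from f.1)).2 ?_
    intro g x
    have h1 := hf (e g) x
    have h2 : (Rep.res e.symm.toMonoidHom P).ρ (e g) = P.ρ g := by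
      change P.ρ (e.symm (e g)) = P.ρ g
      rw [MulEquiv.symm_apply_apply]
    rw [h2] at h1
    exact h1⟩
  left_inv _ := rfl
  right_inv _ := rfl

/-- `dim Hom_G(P, res_e Y) = dim Hom_H(res_{e⁻¹} P, Y)`. -/
theorem eqHomRank_res (P : Rep.{0} k G) (Y : Rep.{0} k H) :
    eqHomRank P (Rep.res e.toMonoidHom Y) = eqHomRank (Rep.res e.symm.toMonoidHom P) Y :=
  LinearEquiv.finrank_eq (invEquiv e P Y)

/-- Projectivity is preserved by transport along a group isomorphism. -/
theorem isProjRep_res_symm (P : Rep.{0} k G) (hP : IsProjRep P) :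
    IsProjRep (Rep.res e.symm.toMonoidHom P) := by
  intro A B ψ hψ hsurj φ hφ
  obtain ⟨φ', hφ', hlift⟩ := hP (Rep.res e.toMonoidHom A) (Rep.res e.toMonoidHom B) ψ
    (fun g a => hψ (e g) a) hsurj φ (fun g x => by
      have h1 := hφ (e g) x
      have h2 : (Rep.res e.symm.toMonoidHom P).ρ (e g) = P.ρ g := by
        change P.ρ (e.symm (e g)) = P.ρ g
        rw [MulEquiv.symm_apply_apply]
      rw [h2] at h1
      exact h1)
  refine ⟨φ', fun h x => ?_, hlift⟩
  have h1 := hφ' (e.symm h) x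
  have h2 : (Rep.res e.toMonoidHom A).ρ (e.symm h) = A.ρ h := by
    change A.ρ (e (e.symm h)) = A.ρ h
    rw [MulEquiv.apply_symm_apply]
  rw [h2] at h1
  exact h1

end Field

section ModP

variable {R : Type} [CommRing R] (p : ℕ) [Fact p.Prime] (e : G ≃* H)

theorem modPRep_res (X : Rep.{0} R H) :
    modPRep p (Rep.res e.toMonoidHom X) = Rep.res e.toMonoidHom (modPRep p X) := rfl

theorem pTorsionRep_res (X : Rep.{0} R H) :
    pTorsionRep p (Rep.res e.toMonoidHom X) = Rep.res e.toMonoidHom (pTorsionRep p X) := rfl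

theorem trivRep_res : Rep.res e.toMonoidHom (trivRep p H) = trivRep p G := rfl

/-- `h_P(res_e X) = h_{res_{e⁻¹} P}(X)`. -/
theorem hP_res (P : Rep.{0} (ZMod p) G) (X : Rep.{0} R H) :
    hP p P (Rep.res e.toMonoidHom X) = hP p (Rep.res e.symm.toMonoidHom P) X := by
  rw [hP_eq, hP_eq, modPRep_res, pTorsionRep_res, eqHomRank_res, eqHomRank_res]

/-- `dim Hom_G(P, 𝔽_p) = dim Hom_H(res_{e⁻¹} P, 𝔽_p)`. -/
theorem eqHomRank_trivRep_res (P : Rep.{0} (ZMod p) G) :
    eqHomRank P (trivRep p G) = eqHomRank (Rep.res e.symm.toMonoidHom P) (trivRep p H) := by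
  rw [← trivRep_res p e, eqHomRank_res]

/-! ### The `Adm59` vocabulary -/

theorem adm_res (X : Rep.{0} R H) : Adm p (Rep.res e.toMonoidHom X) ↔ Adm p X := Iff.rfl

theorem isAdmAdditive_res {h : Rep.{0} R G → ℤ} (hadd : IsAdmAdditive p h) :
    IsAdmAdditive p (fun X : Rep.{0} R H => h (Rep.res e.toMonoidHom X)) := by
  intro A B C φ ψ hφ hψ hinj hsurj hex hA hB hC
  exact hadd (Rep.res e.toMonoidHom A) (Rep.res e.toMonoidHom B) (Rep.res e.toMonoidHom C) φ ψ
    (fun g a => hφ (e g) a) (fun g b => hψ (e g) b) hinj hsurj hex hA hB hC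

theorem vanishesOnFinite_res {h : Rep.{0} R G → ℤ} (hfin : VanishesOnFinite h) :
    VanishesOnFinite (fun X : Rep.{0} R H => h (Rep.res e.toMonoidHom X)) :=
  fun X hX => hfin (Rep.res e.toMonoidHom X) hX

theorem vanishesOnCoprime_res {h : Rep.{0} R G → ℤ} (hcop : VanishesOnCoprime p h) :
    VanishesOnCoprime p (fun X : Rep.{0} R H => h (Rep.res e.toMonoidHom X)) :=
  fun X m hm hX => hcop (Rep.res e.toMonoidHom X) m hm hX

end ModP

end

end Fermat.Agent.TW.GlobalEC.ResTransport59
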