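/-
TW / WP4 (global Euler characteristic), brick EC5-INTEGRATOR, part 4 (helper59): the arithmetic core
`SpecC26.ArithmeticCore p (levelS S) (CS S) complexConjugation` from the finite-level inputs.

For a level `K : Lev S` write `L = K.F`, `G = Gal(L/ℚ)`.  The finite-level input `LevelInput p S L`
says: the `S`-ideles `I_S(L)` and the `S`-units `E_S(L)` are admissible, and for every
finite-dimensional projective `𝔽_p[G]`-module `P` there is an integer `A`
(`= Σ_{q ∈ S} dim Hom_G(P, 𝔽_p[primes of L above q])`) with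

  `h_P(I_S(L)) = A + dim P`                                        (EC5b + EC5c),
  `h_P(E_S(L)) + dim Hom_G(P, 𝔽_p) = A + dim Hom_G(P, 𝔽_p[S_∞(L)])`  (EC5d).

Together with `SpecC26.InfinitePlaceFormula p L` (`dim Hom_G(P, 𝔽_p[S_∞(L)]) = dim P - dim P^{c=-1}`)
this gives, through

  `(C_S)^{U_K} ↪ C_S(L)` (cokernel prime to `p`, `LevelSeq59`),
  `1 → E_S(L) → I_S(L) → C_S(L) → Cl_S(L) → 1` (`IdeleSeqRep59`),

the formula `h_P((C_S)^{U_K}) = dim P^{c=-1} + dim Hom(P, 𝔽_p)`.
-/
import Mathlib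
import Fermat.Prelude.Def_GaloisRep_ComplexConjugation
import Fermat.Agent.PT.GLUE.LevelQuot13
import Fermat.Agent.TW.GlobalEC.SpecC26
import Fermat.Agent.TW.GlobalEC.LevelSeq59
import Fermat.Agent.TW.GlobalEC.IdeleSeqRep59
import Fermat.Agent.TW.GlobalEC.ChiBridge59
import Fermat.Agent.TW.GlobalEC.ResTransport59
import Fermat.Agent.TW.GlobalEC.QuotInv59

set_option autoImplicit false
set_option linter.unusedSectionVars false

namespace Fermat.Agent.TW.GlobalEC.ArithCore59

open Module NumberField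
open Fermat.Agent.PT.GLUE.Objects21 Fermat.Agent.PT.GLUE.Levels21
open Fermat.Agent.PT.GLUE.LevelQuot13
open Fermat.Agent.PT.GLOB Fermat.Agent.PT.GLOB.ClassAction23
open Fermat.Agent.PT.PRO.HyperColim18 Fermat.Agent.PT.PRO.FundRaw18
open Fermat.Agent.TW.GlobalEC.Spec26 Fermat.Agent.TW.GlobalEC.SpecB26
open Fermat.Agent.TW.GlobalEC.Adm59 Fermat.Agent.TW.GlobalEC.IdeleSeqRep59
open Fermat.Agent.TW.GlobalEC.LevelSeq59 Fermat.Agent.TW.GlobalEC.ChiBridge59
open Fermat.Agent.TW.GlobalEC.ResTransport59 Fermat.Agent.TW.GlobalEC.QuotInv59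

local notation "Qbar" => AlgebraicClosure ℚ
local notation "Γ" => (AlgebraicClosure ℚ ≃ₐ[ℚ] AlgebraicClosure ℚ)

local instance isAlgClosureQbarAC59 : IsAlgClosure ℚ Qbar := ⟨inferInstance, inferInstance⟩
local instance normalQbarAC59 : Normal ℚ Qbar := IsAlgClosure.normal ℚ Qbar
local instance isGaloisQbarAC59 : IsGalois ℚ Qbar := IsAlgClosure.isGalois ℚ Qbar

/-! ### The finite-level input -/

/-- **The finite-level input of the arithmetic core** (EC5b + EC5c + EC5d at the level `L`). -/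
def LevelInput (p : ℕ) [Fact p.Prime] (S : Finset Nat.Primes) (L : Type) [Field L]
    [NumberField L] : Prop :=
  Adm p (repIT S ℚ L) ∧ Adm p (repUnitsT S ℚ L) ∧
  ∀ P : Rep.{0} (ZMod p) (L ≃ₐ[ℚ] L), FiniteDimensional (ZMod p) P → IsProjRep P →
    ∃ A : ℤ,
      ChiP74.hP p P (repIT S ℚ L) = A + (finrank (ZMod p) P : ℤ) ∧
      ChiP74.hP p P (repUnitsT S ℚ L) + (eqHomRank P (trivRep p (L ≃ₐ[ℚ] L)) : ℤ) =
        A + (eqHomRank P (Rep.ofMulAction (ZMod p) (L ≃ₐ[ℚ] L) (InfinitePlace L)) : ℤ)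

/-! ### Complex conjugation at a finite level -/

section Conj

variable {S : Finset Nat.Primes} (K : Lev S)

/-- The complex embedding of a level. -/
noncomputable def levelEmbedding : ↥K.F →+* ℂ :=
  (complexEmbedding : Qbar →+* ℂ).comp (algebraMap ↥K.F Qbar)

theorem levelEmbedding_apply (x : ↥K.F) : levelEmbedding K x = complexEmbedding (x : Qbar) := rfl

/-- The restriction of the complex conjugation to a level is the conjugation of the level with
respect to its complex embedding. -/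
theorem isConj_levelEmbedding :
    NumberField.ComplexEmbedding.IsConj (levelEmbedding K)
      (AlgEquiv.restrictNormalHom (F := ℚ) (K₁ := Qbar) K.F complexConjugation) := by
  refine RingHom.ext fun x => ?_
  change starRingEnd ℂ (levelEmbedding K x) =
    levelEmbedding K (AlgEquiv.restrictNormalHom (F := ℚ) (K₁ := Qbar) K.F complexConjugation x)
  rw [levelEmbedding_apply, levelEmbedding_apply, ← complexEmbedding_complexConjugation]
  congr 1
  exact (AlgEquiv.restrictNormal_commutes complexConjugation K.F x).symm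

end Conj

/-! ### The assembly -/

section Main

variable {S : Finset Nat.Primes} (p : ℕ) [hp : Fact p.Prime]

/-- Admissibility of `(C_S)^{U_K}` from the admissibility of `I_S(K)` and `E_S(K)`. -/
theorem adm_fixedObj (hpS : (⟨p, hp.out⟩ : Nat.Primes) ∈ S) (K : Lev S)
    (hI : Adm p (repIT S ℚ K.F)) (hE : Adm p (repUnitsT S ℚ K.F)) :
    Adm p (fixedObj K.U (CS S).ρ) := by
  have hS : S.Nonempty := ⟨_, hpS⟩
  have h0add : ∀ (G : Type) [Group G], IsAdmAdditive p (fun _ : Rep.{0} ℤ G => (0 : ℤ)) :=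
    fun G _ A B C φ ψ _ _ _ _ _ _ _ _ => (add_zero (0 : ℤ)).symm
  have hC : Adm p (repCT S ℚ K.F) :=
    (adm_repCT_and_eq S ℚ K.F p hS (h0add _) (fun _ _ => rfl) hE hI).1
  exact (adm_and_eq p hpS K (h0add _) (fun _ _ _ _ => rfl) (Or.inr hC)).1

/-- **(EC5) The arithmetic core** from the finite-level inputs. -/
theorem arithmeticCore (hp2 : p ≠ 2) (hpS : (⟨p, hp.out⟩ : Nat.Primes) ∈ S)
    (hlev : ∀ K : Lev S, LevelInput p S K.F)
    (hinf : ∀ K : Lev S, SpecC26.InfinitePlaceFormula p K.F) :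
    SpecC26.ArithmeticCore p (levelS S) (CS S) complexConjugation := by
  intro U hUn hU
  obtain ⟨K, rfl⟩ := exists_lev_U_eq hU
  have hS : S.Nonempty := ⟨_, hpS⟩
  obtain ⟨hI, hE, hform⟩ := hlev K
  -- admissibility
  have hfix : Adm p (fixedObj K.U (CS S).ρ) := adm_fixedObj p hpS K hI hE
  have hbij := toFixed_bijective (CS S) K.U
  let eq : (CS S).quotientToInvariants K.U ≃ₗ[ℤ] fixedObj K.U (CS S).ρ :=
    LinearEquiv.ofBijective (toFixed (CS S) K.U) hbij
  have hquot : Adm p ((CS S).quotientToInvariants K.U) := by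
    have h1 : ChiP74.IsPFinite p ((CS S).quotientToInvariants K.U) :=
      ChiP74.IsPFinite.of_bijective eq.symm.toLinearMap eq.symm.bijective
        ((isPFinite_iff_adm p _).2 hfix)
    exact (isPFinite_iff_adm p _).1 h1
  refine ⟨hquot, fun P hPfd hproj => ?_⟩
  have := hPfd
  -- the invariant
  have hadd : IsAdmAdditive p (ChiP74.hP p P : Rep.{0} ℤ (Γ ⧸ K.U) → ℤ) := isAdmAdditive_hP P hproj
  have hfin : VanishesOnFinite (ChiP74.hP p P : Rep.{0} ℤ (Γ ⧸ K.U) → ℤ) :=
    vanishesOnFinite_hP P hproj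
  have hcop : VanishesOnCoprime p (ChiP74.hP p P : Rep.{0} ℤ (Γ ⧸ K.U) → ℤ) :=
    vanishesOnCoprime_hP P hproj
  -- step 1: `C^U` versus `fixedObj`
  have h1 : ChiP74.hP p P ((CS S).quotientToInvariants K.U) =
      ChiP74.hP p P (fixedObj K.U (CS S).ρ) :=
    ChiP74.hP_iso P hproj (toFixed (CS S) K.U) (toFixed_comm (CS S) K.U) hbij
      ((isPFinite_iff_adm p _).2 hfix)
  -- step 2: `fixedObj` versus `C_S(K)`
  have h2 := (adm_and_eq p hpS K hadd hcop (Or.inl hfix)).2.2
  -- step 3: the idele class sequence, over `Gal(K/ℚ)`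
  have h3 := (adm_repCT_and_eq S ℚ K.F p hS (isAdmAdditive_res p (eLev K) hadd)
    (vanishesOnFinite_res (eLev K) hfin) hE hI).2
  -- transport of `P`
  set P' : Rep.{0} (ZMod p) (↥K.F ≃ₐ[ℚ] ↥K.F) := Rep.res (eLev K).symm.toMonoidHom P with hP'
  have : FiniteDimensional (ZMod p) P' := hPfd
  have hproj' : IsProjRep P' := isProjRep_res_symm (eLev K) P hproj
  obtain ⟨A, hA1, hA2⟩ := hform P' inferInstance hproj'
  have h4 := hinf K hp2 inferInstance
    (AlgEquiv.restrictNormalHom (F := ℚ) (K₁ := Qbar) K.F complexConjugation) (levelEmbedding K)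
    (isConj_levelEmbedding K) P' inferInstance
  have h5 : P'.ρ (AlgEquiv.restrictNormalHom (F := ℚ) (K₁ := Qbar) K.F complexConjugation) =
      P.ρ (QuotientGroup.mk complexConjugation) := by
    change P.ρ ((eLev K).symm (AlgEquiv.restrictNormalHom (F := ℚ) (K₁ := Qbar) K.F
      complexConjugation)) = _
    rw [eLev_symm_restrictNormalHom]
  have h6 : finrank (ZMod p) P' = finrank (ZMod p) P := rfl
  have h7 := eqHomRank_trivRep_res p (eLev K) P
  have h8 : ∀ X : Rep.{0} ℤ (↥K.F ≃ₐ[ℚ] ↥K.F),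
      ChiP74.hP p P (Rep.res (eLev K).toMonoidHom X) = ChiP74.hP p P' X :=
    fun X => hP_res p (eLev K) P X
  rw [h8, h8] at h3
  have h9 : ChiP74.hP p P (resCT K) = ChiP74.hP p P' (repCT S ℚ K.F) := h8 _
  rw [h5] at h4
  rw [SpecC26.hP, ← ChiP74.hP_eq, h1, ← h2, h9, h7]
  have h3' : ChiP74.hP p P' (repCT S ℚ K.F) =
      ChiP74.hP p P' (repIT S ℚ K.F) - ChiP74.hP p P' (repUnitsT S ℚ K.F) := by
    have := h3
    linarith
  rw [h3', hA1]
  rw [h6] at *
  linarith

end Main

end Fermat.Agent.TW.GlobalEC.ArithCore59
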