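/-
TW / WP4 (global Euler characteristic), brick "HP" part 1 (helper5): additive functions on exact
sequences of representations, in the language of `Spec26` (`IsShortExact`, `IsAdditive`).

For `e : Rep k G → ℤ` additive on short exact sequences of finite-dimensional representations:
* `eq_zero_of_subsingleton`, `eq_of_bijective`;
* `eq_ker_add_range`: `e X = e (ker f) + e (range f)`;
* `six_term`: for an exact sequence `0 → X₁ → X₂ → X₃ → X₄ → X₅ → X₆ → 0` of finite-dimensional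
  representations, `e X₁ + e X₃ + e X₅ = e X₂ + e X₄ + e X₆`.
-/
import Mathlib
import Fermat.Agent.TW.GlobalEC.Spec26

set_option autoImplicit false

namespace Fermat.Agent.TW.GlobalEC.LongExact5

open Fermat.Agent.TW.GlobalEC.Spec26

variable {k G : Type} [Field k] [Group G]

/-- The kernel of an equivariant map is stable. -/
theorem ker_le_comap {X Y : Rep.{0} k G} (f : X →ₗ[k] Y)
    (hf : ∀ g x, f (X.ρ g x) = Y.ρ g (f x)) (g : G) :
    LinearMap.ker f ≤ (LinearMap.ker f).comap (X.ρ g) := by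
  intro x hx
  rw [Submodule.mem_comap, LinearMap.mem_ker, hf, LinearMap.mem_ker.mp hx, map_zero]

/-- The range of an equivariant map is stable. -/
theorem range_le_comap {X Y : Rep.{0} k G} (f : X →ₗ[k] Y)
    (hf : ∀ g x, f (X.ρ g x) = Y.ρ g (f x)) (g : G) :
    LinearMap.range f ≤ (LinearMap.range f).comap (Y.ρ g) := by
  rintro _ ⟨x, rfl⟩
  exact ⟨X.ρ g x, hf g x⟩

/-- The kernel of an equivariant map, as a representation. -/
noncomputable abbrev kerRep {X Y : Rep.{0} k G} (f : X →ₗ[k] Y)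
    (hf : ∀ g x, f (X.ρ g x) = Y.ρ g (f x)) : Rep.{0} k G :=
  Rep.subrepresentation X (LinearMap.ker f) (ker_le_comap f hf)

/-- The range of an equivariant map, as a representation. -/
noncomputable abbrev rangeRep {X Y : Rep.{0} k G} (f : X →ₗ[k] Y)
    (hf : ∀ g x, f (X.ρ g x) = Y.ρ g (f x)) : Rep.{0} k G :=
  Rep.subrepresentation Y (LinearMap.range f) (range_le_comap f hf)

theorem sub_congr (e : Rep.{0} k G → ℤ) (X : Rep.{0} k G) {W W' : Submodule k X} (h : W = W')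
    (hW : ∀ g, W ≤ W.comap (X.ρ g)) (hW' : ∀ g, W' ≤ W'.comap (X.ρ g)) :
    e (Rep.subrepresentation X W hW) = e (Rep.subrepresentation X W' hW') := by
  subst h
  rfl

variable {e : Rep.{0} k G → ℤ}

/-- An additive function vanishes on zero representations. -/
theorem eq_zero_of_subsingleton (he : IsAdditive e) (X : Rep.{0} k G) [Subsingleton X] :
    e X = 0 := by
  have := he X X X 0 0 ⟨fun _ _ => Subsingleton.elim _ _, fun _ _ => Subsingleton.elim _ _,
    fun _ _ _ => Subsingleton.elim _ _, fun x => ⟨x, Subsingleton.elim _ _⟩,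
    fun x => ⟨fun _ => ⟨x, Subsingleton.elim _ _⟩, fun _ => Subsingleton.elim _ _⟩⟩
    (Module.Finite.of_finite)
  omega

/-- An additive function is invariant under isomorphisms. -/
theorem eq_of_bijective (he : IsAdditive e) (X Y : Rep.{0} k G) [FiniteDimensional k Y]
    (f : X →ₗ[k] Y) (hf : ∀ g x, f (X.ρ g x) = Y.ρ g (f x)) (hbij : Function.Bijective f) :
    e X = e Y := by
  have h0 : e (Rep.trivial k G PUnit) = 0 :=
    eq_zero_of_subsingleton he _
  have := he X Y (Rep.trivial k G PUnit) f 0 ⟨hf, fun _ _ => rfl, hbij.1,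
    fun x => ⟨0, Subsingleton.elim _ _⟩, fun y => ⟨fun _ => hbij.2 y, fun _ => rfl⟩⟩ inferInstance
  omega

/-- `e X = e (ker f) + e (range f)`. -/
theorem eq_ker_add_range (he : IsAdditive e) {X Y : Rep.{0} k G} [FiniteDimensional k X]
    (f : X →ₗ[k] Y) (hf : ∀ g x, f (X.ρ g x) = Y.ρ g (f x)) :
    e X = e (kerRep f hf) + e (rangeRep f hf) := by
  refine he (kerRep f hf) X (rangeRep f hf) (LinearMap.ker f).subtype f.rangeRestrict
    ⟨fun _ _ => rfl, ?_, Subtype.val_injective, LinearMap.surjective_rangeRestrict f, ?_⟩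
    inferInstance
  · intro g x
    apply Subtype.ext
    exact hf g x
  · intro x
    constructor
    · intro h0
      exact ⟨⟨x, congrArg Subtype.val h0⟩, rfl⟩
    · rintro ⟨y, rfl⟩
      apply Subtype.ext
      exact y.2

/-- For an injective map, `e X = e (range f)`. -/
theorem eq_range_of_injective (he : IsAdditive e) {X Y : Rep.{0} k G} [FiniteDimensional k X]
    (f : X →ₗ[k] Y) (hf : ∀ g x, f (X.ρ g x) = Y.ρ g (f x)) (hinj : Function.Injective f) :
    e X = e (rangeRep f hf) := by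
  have h1 := eq_ker_add_range he f hf
  have : Subsingleton (kerRep f hf) := by
    refine ⟨fun a b => ?_⟩
    apply Subtype.ext
    apply hinj
    rw [LinearMap.mem_ker.mp a.2, LinearMap.mem_ker.mp b.2]
  have h2 := eq_zero_of_subsingleton he (kerRep f hf)
  omega

/-- For a surjective map, `e Y = e (range f)`. -/
theorem eq_range_of_surjective (he : IsAdditive e) {X Y : Rep.{0} k G} [FiniteDimensional k Y]
    (f : X →ₗ[k] Y) (hf : ∀ g x, f (X.ρ g x) = Y.ρ g (f x)) (hsurj : Function.Surjective f) :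
    e Y = e (rangeRep f hf) := by
  refine (eq_of_bijective he (rangeRep f hf) Y (LinearMap.range f).subtype (fun _ _ => rfl)
    ⟨Subtype.val_injective, fun y => ?_⟩).symm
  exact ⟨⟨y, hsurj y⟩, rfl⟩

/-- Exactness: `e (ker f') = e (range f)`. -/
theorem ker_eq_range_of_exact {X Y Z : Rep.{0} k G} (f : X →ₗ[k] Y) (f' : Y →ₗ[k] Z)
    (hf : ∀ g x, f (X.ρ g x) = Y.ρ g (f x)) (hf' : ∀ g x, f' (Y.ρ g x) = Z.ρ g (f' x))
    (hex : Function.Exact f f') : e (kerRep f' hf') = e (rangeRep f hf) :=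
  sub_congr e Y (LinearMap.exact_iff.mp hex) _ _

/-- **Six-term exact sequences.** -/
theorem six_term (he : IsAdditive e) {X₁ X₂ X₃ X₄ X₅ X₆ : Rep.{0} k G}
    [FiniteDimensional k X₁] [FiniteDimensional k X₂] [FiniteDimensional k X₃]
    [FiniteDimensional k X₄] [FiniteDimensional k X₅] [FiniteDimensional k X₆]
    (f₁ : X₁ →ₗ[k] X₂) (f₂ : X₂ →ₗ[k] X₃) (f₃ : X₃ →ₗ[k] X₄) (f₄ : X₄ →ₗ[k] X₅)
    (f₅ : X₅ →ₗ[k] X₆)
    (h₁ : ∀ g x, f₁ (X₁.ρ g x) = X₂.ρ g (f₁ x)) (h₂ : ∀ g x, f₂ (X₂.ρ g x) = X₃.ρ g (f₂ x))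
    (h₃ : ∀ g x, f₃ (X₃.ρ g x) = X₄.ρ g (f₃ x)) (h₄ : ∀ g x, f₄ (X₄.ρ g x) = X₅.ρ g (f₄ x))
    (h₅ : ∀ g x, f₅ (X₅.ρ g x) = X₆.ρ g (f₅ x))
    (hinj : Function.Injective f₁) (e₁₂ : Function.Exact f₁ f₂) (e₂₃ : Function.Exact f₂ f₃)
    (e₃₄ : Function.Exact f₃ f₄) (e₄₅ : Function.Exact f₄ f₅) (hsurj : Function.Surjective f₅) :
    e X₁ + e X₃ + e X₅ = e X₂ + e X₄ + e X₆ := by
  have a1 := eq_range_of_injective he f₁ h₁ hinj
  have a2 := eq_ker_add_range he f₂ h₂
  have a3 := eq_ker_add_range he f₃ h₃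
  have a4 := eq_ker_add_range he f₄ h₄
  have a5 := eq_ker_add_range he f₅ h₅
  have a6 := eq_range_of_surjective he f₅ h₅ hsurj
  have k2 : e (kerRep f₂ h₂) = e (rangeRep f₁ h₁) := ker_eq_range_of_exact f₁ f₂ h₁ h₂ e₁₂
  have k3 : e (kerRep f₃ h₃) = e (rangeRep f₂ h₂) := ker_eq_range_of_exact f₂ f₃ h₂ h₃ e₂₃
  have k4 : e (kerRep f₄ h₄) = e (rangeRep f₃ h₃) := ker_eq_range_of_exact f₃ f₄ h₃ h₄ e₃₄
  have k5 : e (kerRep f₅ h₅) = e (rangeRep f₄ h₄) := ker_eq_range_of_exact f₄ f₅ h₄ h₅ e₄₅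
  omega

end Fermat.Agent.TW.GlobalEC.LongExact5
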