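/-
TW / WP4 (global Euler characteristic), brick EC5d, permutation modules (helper5).

`permFun k G Ω`: the permutation representation on functions `Ω → k`, `(g f) w = f (g⁻¹ w)`,
for a `G`-set `Ω`.  For `e : Rep k G → ℤ` additive (`Spec26.IsAdditive`):
* `e_ofMulAction_eq`: `e (Rep.ofMulAction k G Ω) = e (permFun k G Ω)` for finite `Ω`
  (Mathlib's permutation module `k[Ω]` versus functions);
* `e_permFun_add`: if the finite `G`-set `Ω` is the disjoint union of the images of two
  equivariant injections `Ω₁ → Ω`, `Ω₂ → Ω`, then `e (k^Ω) = e (k^Ω₁) + e (k^Ω₂)`;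
* `e_permFun_congr`: invariance under isomorphisms of `G`-sets; `e_permFun_empty`.
-/
import Mathlib
import Fermat.Agent.TW.GlobalEC.Spec26
import Fermat.Agent.TW.GlobalEC.LongExact5

set_option autoImplicit false

namespace Fermat.Agent.TW.GlobalEC.PermSum5

open Function
open Fermat.Agent.TW.GlobalEC.Spec26 Fermat.Agent.TW.GlobalEC.LongExact5

variable (k G : Type) [Field k] [Group G]

/-- The permutation representation on functions `Ω → k`: `(g f) w = f (g⁻¹ w)`. -/
def permFunRho (Ω : Type) [MulAction G Ω] : Representation k G (Ω → k) where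
  toFun g := LinearMap.funLeft k k (fun w => g⁻¹ • w)
  map_one' := by
    ext f w
    simp [LinearMap.funLeft_apply]
  map_mul' g h := by
    ext f w
    simp [LinearMap.funLeft_apply, mul_smul]

/-- The permutation module `k^Ω` as an object of `Rep k G`. -/
noncomputable abbrev permFun (Ω : Type) [MulAction G Ω] : Rep.{0} k G := Rep.of (permFunRho k G Ω)

theorem permFun_ρ_apply (Ω : Type) [MulAction G Ω] (g : G) (f : Ω → k) (w : Ω) :
    (show Ω → k from (permFun k G Ω).ρ g f) w = f (g⁻¹ • w) := rfl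

variable {k G} {e : Rep.{0} k G → ℤ}

/-- Mathlib's permutation module `k[Ω]` and `k^Ω` have the same invariants (`Ω` finite). -/
theorem e_ofMulAction_eq (he : IsAdditive e) (Ω : Type) [MulAction G Ω] [Finite Ω] :
    e (Rep.ofMulAction k G Ω) = e (permFun k G Ω) := by
  have : FiniteDimensional k (permFun k G Ω) :=
    inferInstanceAs (FiniteDimensional k (Ω → k))
  let Φ : MonoidAlgebra k Ω ≃ₗ[k] (Ω → k) :=
    (MonoidAlgebra.coeffLinearEquiv k).trans (Finsupp.linearEquivFunOnFinite k k Ω)
  refine eq_of_bijective he (Rep.ofMulAction k G Ω) (permFun k G Ω) Φ.toLinearMap ?_ Φ.bijective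
  intro g x
  funext w
  change ((Representation.ofMulAction k G Ω g x).coeff) w = x.coeff (g⁻¹ • w)
  rw [Representation.ofMulAction_def]
  change (Finsupp.mapDomain (g • ·) x.coeff) w = x.coeff (g⁻¹ • w)
  have h1 : (g • · : Ω → Ω) = MulAction.toPerm g := rfl
  rw [h1, Finsupp.mapDomain_equiv_apply]
  rfl

/-- Additivity for a decomposition of a finite `G`-set into two stable pieces. -/
theorem e_permFun_add (he : IsAdditive e) {Ω Ω₁ Ω₂ : Type} [MulAction G Ω] [MulAction G Ω₁]
    [MulAction G Ω₂] [Finite Ω] (ι₁ : Ω₁ → Ω) (ι₂ : Ω₂ → Ω)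
    (h₁ : ∀ (g : G) w, ι₁ (g • w) = g • ι₁ w) (h₂ : ∀ (g : G) w, ι₂ (g • w) = g • ι₂ w)
    (hinj₁ : Injective ι₁) (hinj₂ : Injective ι₂)
    (hcover : ∀ w, w ∈ Set.range ι₁ ∨ w ∈ Set.range ι₂) (hdisj : ∀ a b, ι₁ a ≠ ι₂ b) :
    e (permFun k G Ω) = e (permFun k G Ω₁) + e (permFun k G Ω₂) := by
  have : Finite Ω₁ := Finite.of_injective ι₁ hinj₁
  have : Finite Ω₂ := Finite.of_injective ι₂ hinj₂
  have : FiniteDimensional k (permFun k G Ω) := inferInstanceAs (FiniteDimensional k (Ω → k))
  have : FiniteDimensional k (permFun k G Ω₁) := inferInstanceAs (FiniteDimensional k (Ω₁ → k))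
  have : FiniteDimensional k (permFun k G Ω₂) := inferInstanceAs (FiniteDimensional k (Ω₂ → k))
  -- restriction to `Ω₁`
  let res₁ : permFun k G Ω →ₗ[k] permFun k G Ω₁ := LinearMap.funLeft k k ι₁
  have hres₁ : ∀ g x, res₁ ((permFun k G Ω).ρ g x) = (permFun k G Ω₁).ρ g (res₁ x) := by
    intro g x
    funext w
    change x (g⁻¹ • ι₁ w) = x (ι₁ (g⁻¹ • w))
    rw [h₁]
  have hsurj₁ : Surjective res₁ := by
    intro u
    refine ⟨Function.extend ι₁ u 0, ?_⟩
    funext w
    exact hinj₁.extend_apply u 0 w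
  have e1 := eq_ker_add_range he res₁ hres₁
  have e2 := eq_range_of_surjective he res₁ hres₁ hsurj₁
  -- the kernel is `k^Ω₂`
  let res₂ : kerRep res₁ hres₁ →ₗ[k] permFun k G Ω₂ :=
    (LinearMap.funLeft k k ι₂).comp (LinearMap.ker res₁).subtype
  have e3 : e (kerRep res₁ hres₁) = e (permFun k G Ω₂) := by
    refine eq_of_bijective he _ _ res₂ ?_ ⟨?_, ?_⟩
    · intro g x
      funext w
      change x.1 (g⁻¹ • ι₂ w) = x.1 (ι₂ (g⁻¹ • w))
      rw [h₂]
    · intro x y hxy
      apply Subtype.ext
      funext w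
      rcases hcover w with ⟨a, rfl⟩ | ⟨b, rfl⟩
      · have hx : res₁ x.1 = 0 := x.2
        have hy : res₁ y.1 = 0 := y.2
        have hx' := congrFun hx a
        have hy' := congrFun hy a
        change x.1 (ι₁ a) = 0 at hx'
        change y.1 (ι₁ a) = 0 at hy'
        rw [hx', hy']
      · exact congrFun hxy b
    · intro u
      refine ⟨⟨Function.extend ι₂ u 0, ?_⟩, ?_⟩
      · change res₁ (Function.extend ι₂ u 0) = 0
        funext a
        change Function.extend ι₂ u 0 (ι₁ a) = 0
        rw [Function.extend_apply']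
        · rfl
        · rintro ⟨b, hb⟩
          exact hdisj a b hb.symm
      · funext w
        exact hinj₂.extend_apply u 0 w
  omega

/-- Invariance under isomorphisms of `G`-sets. -/
theorem e_permFun_congr (he : IsAdditive e) {Ω Ω' : Type} [MulAction G Ω] [MulAction G Ω']
    [Finite Ω'] (ι : Ω ≃ Ω') (hι : ∀ (g : G) w, ι (g • w) = g • ι w) :
    e (permFun k G Ω) = e (permFun k G Ω') := by
  have : Finite Ω := Finite.of_equiv _ ι.symm
  have : FiniteDimensional k (permFun k G Ω) := inferInstanceAs (FiniteDimensional k (Ω → k))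
  refine (eq_of_bijective he (permFun k G Ω') (permFun k G Ω) (LinearMap.funLeft k k ι) ?_
    ⟨?_, ?_⟩).symm
  · intro g x
    funext w
    change x (g⁻¹ • ι w) = x (ι (g⁻¹ • w))
    rw [hι]
  · exact LinearMap.funLeft_injective_of_surjective k k ι ι.surjective
  · exact LinearMap.funLeft_surjective_of_injective k k ι ι.injective

/-- The permutation module of the empty `G`-set vanishes. -/
theorem e_permFun_empty (he : IsAdditive e) (Ω : Type) [MulAction G Ω] [IsEmpty Ω] :
    e (permFun k G Ω) = 0 := by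
  have : Subsingleton (permFun k G Ω) := inferInstanceAs (Subsingleton (Ω → k))
  exact eq_zero_of_subsingleton he _

end Fermat.Agent.TW.GlobalEC.PermSum5
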