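/-
TW / WP4 (global Euler characteristic), brick EC5d, the `G`-sets of primes (helper5).

`L/K` Galois extension of number fields, `G = Gal(L/K)`.
* `PrimesOverQ L q` (`= LocUnits5.Sq L q` literally): the primes of `𝓞 L` containing the natural
  number `q`, with the `G`-action induced by `Interface23.instMulActionHeightOne`
  (`instMulActionPrimesOverQ`);
* `PrimesOverSet T L`: the primes of `𝓞 L` above a finite set `T` of rational primes
  (`= ↥(UnitsBridge24.primesOverT T L)` as a set), with its `G`-action;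
* `e_primesOverSet`: for `e` additive, `e (𝔽^{PrimesOverSet T L}) = ∑ q ∈ T, e (𝔽^{PrimesOverQ L q})`.
-/
import Mathlib
import Fermat.Agent.PT.GLOB.Interface23
import Fermat.Agent.PT.GLOB.UnitsBridge24
import Fermat.Agent.TW.GlobalEC.PermSum5

set_option autoImplicit false
set_option linter.unusedSectionVars false

namespace Fermat.Agent.TW.GlobalEC.PrimesDecomp5

open NumberField IsDedekindDomain HeightOneSpectrum
open Fermat.Agent.PT.GLOB.Interface23 Fermat.Agent.PT.GLOB.UnitsBridge24
open Fermat.Agent.TW.GlobalEC.Spec26 Fermat.Agent.TW.GlobalEC.LongExact5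
open Fermat.Agent.TW.GlobalEC.PermSum5

variable (K L : Type) [Field K] [Field L] [NumberField K] [NumberField L] [Algebra K L]

/-- The primes of `𝓞 L` containing the natural number `q` (same type as `LocUnits5.Sq L q`). -/
abbrev PrimesOverQ (q : ℕ) : Type := {P : HeightOneSpectrum (𝓞 L) // (q : 𝓞 L) ∈ P.asIdeal}

theorem natCast_mem_smul (σ : L ≃ₐ[K] L) (P : HeightOneSpectrum (𝓞 L)) (q : ℕ)
    (h : (q : 𝓞 L) ∈ P.asIdeal) : (q : 𝓞 L) ∈ (σ • P).asIdeal := by
  have h1 := (natCast_mem_smul_iff K L σ P.asIdeal (q : ℤ)).mpr (by simpa using h)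
  rw [smul_asIdeal]
  simpa using h1

/-- The Galois action on the primes above `q`. -/
noncomputable instance instMulActionPrimesOverQ (q : ℕ) :
    MulAction (L ≃ₐ[K] L) (PrimesOverQ L q) where
  smul σ P := ⟨σ • P.1, natCast_mem_smul K L σ P.1 q P.2⟩
  one_smul _ := Subtype.ext (one_smul _ _)
  mul_smul _ _ _ := Subtype.ext (mul_smul _ _ _)

theorem coe_smul_primesOverQ (q : ℕ) (σ : L ≃ₐ[K] L) (P : PrimesOverQ L q) :
    (σ • P : PrimesOverQ L q).1 = σ • P.1 := rfl

/-- The primes of `𝓞 L` above a finite set of rational primes. -/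
abbrev PrimesOverSet (T : Finset Nat.Primes) : Type :=
  {P : HeightOneSpectrum (𝓞 L) // ∃ q ∈ T, ((q : ℕ) : 𝓞 L) ∈ P.asIdeal}

/-- The Galois action on the primes above `T`. -/
noncomputable instance instMulActionPrimesOverSet (T : Finset Nat.Primes) :
    MulAction (L ≃ₐ[K] L) (PrimesOverSet L T) where
  smul σ P := ⟨σ • P.1, by
    obtain ⟨q, hq, h⟩ := P.2
    exact ⟨q, hq, natCast_mem_smul K L σ P.1 q h⟩⟩
  one_smul _ := Subtype.ext (one_smul _ _)
  mul_smul _ _ _ := Subtype.ext (mul_smul _ _ _)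

theorem coe_smul_primesOverSet (T : Finset Nat.Primes) (σ : L ≃ₐ[K] L) (P : PrimesOverSet L T) :
    (σ • P : PrimesOverSet L T).1 = σ • P.1 := rfl

instance finite_primesOverSet (T : Finset Nat.Primes) : Finite (PrimesOverSet L T) := by
  have h := finite_primesOverT T L
  have h2 : {P : HeightOneSpectrum (𝓞 L) | ∃ q ∈ T, ((q : ℕ) : 𝓞 L) ∈ P.asIdeal}.Finite := by
    refine h.subset ?_
    rintro P ⟨q, hq, hmem⟩
    exact ⟨q, hq, by simpa using hmem⟩
  exact h2.to_subtype

instance finite_primesOverQ (q : Nat.Primes) : Finite (PrimesOverQ L (q : ℕ)) :=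
  Finite.of_injective
    (fun P : PrimesOverQ L (q : ℕ) => (⟨P.1, q, Finset.mem_singleton_self q, P.2⟩ :
      PrimesOverSet L {q}))
    (fun _ _ hab => Subtype.ext (congrArg (fun x : PrimesOverSet L {q} => x.1) hab))

/-- Two distinct rational primes cannot lie in the same prime ideal. -/
theorem not_mem_of_ne (P : HeightOneSpectrum (𝓞 L)) {q q' : ℕ} (hq : q.Prime) (hq' : q'.Prime)
    (hne : q ≠ q') (h : (q : 𝓞 L) ∈ P.asIdeal) : (q' : 𝓞 L) ∉ P.asIdeal := by
  intro h'
  have hco : Nat.Coprime q q' := (Nat.coprime_primes hq hq').mpr hne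
  have hco' : IsCoprime (q : ℤ) (q' : ℤ) := Nat.isCoprime_iff_coprime.mpr hco
  obtain ⟨a, b, hab⟩ := hco'
  have h1 : ((a * q + b * q' : ℤ) : 𝓞 L) ∈ P.asIdeal := by
    push_cast
    exact P.asIdeal.add_mem (P.asIdeal.mul_mem_left _ h) (P.asIdeal.mul_mem_left _ h')
  rw [hab, Int.cast_one] at h1
  exact P.isPrime.ne_top ((Ideal.eq_top_iff_one _).mpr h1)

variable {k : Type} [Field k] {e : Rep.{0} k (L ≃ₐ[K] L) → ℤ}

/-- **Decomposition** of the permutation module on the primes above `T`. -/
theorem e_primesOverSet (he : IsAdditive e) (T : Finset Nat.Primes) :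
    e (permFun k (L ≃ₐ[K] L) (PrimesOverSet L T)) =
      ∑ q ∈ T, e (permFun k (L ≃ₐ[K] L) (PrimesOverQ L (q : ℕ))) := by
  classical
  induction T using Finset.induction_on with
  | empty =>
    have : IsEmpty (PrimesOverSet L (∅ : Finset Nat.Primes)) :=
      ⟨fun P => by
        obtain ⟨q, hq, _⟩ := P.2
        exact absurd hq (Finset.notMem_empty q)⟩
    rw [e_permFun_empty he, Finset.sum_empty]
  | insert q T hqT ih =>
    rw [Finset.sum_insert hqT, ← ih]
    refine e_permFun_add he
      (fun P : PrimesOverQ L (q : ℕ) => (⟨P.1, q, Finset.mem_insert_self q T, P.2⟩ :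
        PrimesOverSet L (insert q T)))
      (fun P : PrimesOverSet L T => (⟨P.1, by
        obtain ⟨q', hq', h⟩ := P.2
        exact ⟨q', Finset.mem_insert_of_mem hq', h⟩⟩ : PrimesOverSet L (insert q T)))
      (fun _ _ => rfl) (fun _ _ => rfl) ?_ ?_ ?_ ?_
    · intro a b hab
      exact Subtype.ext (congrArg (fun x : PrimesOverSet L (insert q T) => x.1) hab)
    · intro a b hab
      exact Subtype.ext (congrArg (fun x : PrimesOverSet L (insert q T) => x.1) hab)
    · intro P
      obtain ⟨q', hq', h⟩ := P.2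
      rcases Finset.mem_insert.mp hq' with rfl | hq'T
      · left
        exact ⟨⟨P.1, h⟩, rfl⟩
      · right
        exact ⟨⟨P.1, q', hq'T, h⟩, rfl⟩
    · intro a b hab
      have hab' : a.1 = b.1 := congrArg (fun x : PrimesOverSet L (insert q T) => x.1) hab
      obtain ⟨q', hq', h⟩ := b.2
      have hne : (q : ℕ) ≠ (q' : ℕ) := by
        intro heq
        apply hqT
        have : q = q' := Subtype.ext heq
        rw [this]
        exact hq'
      exact not_mem_of_ne L a.1 q.2 q'.2 hne a.2 (hab' ▸ h)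

end Fermat.Agent.TW.GlobalEC.PrimesDecomp5
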