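/-
TW / WP4 (global Euler characteristic), brick EC5d, abstract part (helper5).

Additive invariants of `k[G]`-modules (`k` a commutative ring, in the application `k = ℤ`; the
statements are written for a general `k` so that the module structures are the ones carried by
`Rep`, cf. the remark at `Objects21.Lin`).  `h : Rep k G → ℤ` is *additive* if `h B = h A + h C` for
every short exact sequence `0 → A → B → C → 0` of finitely generated modules (plain linear maps
with explicit equivariance, same style as `Spec26.IsShortExact`) and *vanishes on finite modules*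
if `h X = 0` for finite `X`.  For such an `h` and an equivariant map `f : A → B` with finite
cokernel and kernel `N`: `h A = h N + h B`.

The hypotheses are deliberately the weakest possible (additivity only on sequences with finitely
generated middle term), so that every concrete invariant such as
`h_P X = dim Hom_G(P, X/p) - dim Hom_G(P, X[p])` satisfies them.
-/
import Mathlib

set_option autoImplicit false

namespace Fermat.Agent.TW.GlobalEC.AddInvariant5

variable {k G : Type} [CommRing k] [Group G]

/-- A short exact sequence `0 → A → B → C → 0` of `k[G]`-modules (linear maps + equivariance). -/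
structure IsShortExactRep (A B C : Rep.{0} k G) (φ : A →ₗ[k] B) (ψ : B →ₗ[k] C) : Prop where
  φ_comm : ∀ g a, φ (A.ρ g a) = B.ρ g (φ a)
  ψ_comm : ∀ g b, ψ (B.ρ g b) = C.ρ g (ψ b)
  inj : Function.Injective φ
  surj : Function.Surjective ψ
  exact : Function.Exact φ ψ

/-- `h` is additive on short exact sequences with finitely generated middle term. -/
def IsAdditiveRep (h : Rep.{0} k G → ℤ) : Prop :=
  ∀ (A B C : Rep.{0} k G) (φ : A →ₗ[k] B) (ψ : B →ₗ[k] C), IsShortExactRep A B C φ ψ →
    Module.Finite k B → h B = h A + h C

/-- `h` vanishes on finite modules. -/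
def VanishesOnFinite (h : Rep.{0} k G → ℤ) : Prop :=
  ∀ X : Rep.{0} k G, Finite X → h X = 0

/-- The image of an equivariant map is stable. -/
theorem range_le_comap {A B : Rep.{0} k G} (f : A →ₗ[k] B)
    (hf : ∀ g a, f (A.ρ g a) = B.ρ g (f a)) (g : G) :
    LinearMap.range f ≤ (LinearMap.range f).comap (B.ρ g) := by
  rintro _ ⟨a, rfl⟩
  exact ⟨A.ρ g a, hf g a⟩

/-- **Four-term sequences**: if `0 → N → A → B` is exact and `B / im A` is finite, then
`h A = h N + h B`. -/
theorem eq_add_of_exact_of_finite_coker {h : Rep.{0} k G → ℤ} (hadd : IsAdditiveRep h)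
    (hfin : VanishesOnFinite h) (N A B : Rep.{0} k G) [Module.Finite k A] [Module.Finite k B]
    (j : N →ₗ[k] A) (f : A →ₗ[k] B)
    (hj : ∀ g n, j (N.ρ g n) = A.ρ g (j n)) (hf : ∀ g a, f (A.ρ g a) = B.ρ g (f a))
    (hjinj : Function.Injective j) (hex : Function.Exact j f)
    (hcoker : Finite (B ⧸ LinearMap.range f)) :
    h A = h N + h B := by
  have hst := range_le_comap f hf
  have h1 : h A = h N + h (Rep.subrepresentation B (LinearMap.range f) hst) := by
    refine hadd N A (Rep.subrepresentation B (LinearMap.range f) hst) j f.rangeRestrict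
      ⟨hj, ?_, hjinj, ?_, ?_⟩ inferInstance
    · intro g a
      apply Subtype.ext
      exact hf g a
    · exact LinearMap.surjective_rangeRestrict f
    · intro a
      rw [← hex a]
      constructor
      · intro h0
        exact congrArg Subtype.val h0
      · intro h0
        apply Subtype.ext
        exact h0
  have h2 : h B = h (Rep.subrepresentation B (LinearMap.range f) hst) +
      h (Rep.quotient B (LinearMap.range f) hst) := by
    refine hadd (Rep.subrepresentation B (LinearMap.range f) hst) B
      (Rep.quotient B (LinearMap.range f) hst) (LinearMap.range f).subtype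
      (LinearMap.range f).mkQ ⟨fun _ _ => rfl, fun _ _ => rfl, ?_, ?_, ?_⟩ inferInstance
    · exact Subtype.val_injective
    · exact Submodule.mkQ_surjective _
    · exact LinearMap.exact_subtype_mkQ _
  have h3 : h (Rep.quotient B (LinearMap.range f) hst) = 0 := hfin _ hcoker
  omega

/-- Isomorphism invariance. -/
theorem eq_of_bijective {h : Rep.{0} k G → ℤ} (hadd : IsAdditiveRep h)
    (hfin : VanishesOnFinite h) (A B : Rep.{0} k G) [Module.Finite k A] [Module.Finite k B]
    (f : A →ₗ[k] B) (hf : ∀ g a, f (A.ρ g a) = B.ρ g (f a)) (hbij : Function.Bijective f) :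
    h A = h B := by
  have h0 : h (Rep.trivial k G PUnit) = 0 := hfin _ (inferInstanceAs (Finite PUnit))
  have := eq_add_of_exact_of_finite_coker hadd hfin (Rep.trivial k G PUnit) A B 0 f
    (fun _ _ => by simp) hf (fun _ _ _ => Subsingleton.elim _ _) ?_ ?_
  · omega
  · intro a
    constructor
    · intro ha
      refine ⟨PUnit.unit, ?_⟩
      rw [LinearMap.zero_apply]
      exact (hbij.1 (ha.trans (map_zero f).symm)).symm
    · rintro ⟨_, rfl⟩
      simp
  · rw [LinearMap.range_eq_top.mpr hbij.2]
    exact Finite.of_subsingleton

end Fermat.Agent.TW.GlobalEC.AddInvariant5
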