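/-
TW / WP4 (global Euler characteristic), brick "HP" part 2 (helper5): the six-term exact sequence
`0 → A[p] → B[p] → C[p] → A/p → B/p → C/p → 0` attached to a short exact sequence
`0 → A → B → C → 0` of `R[G]`-modules, on the objects `pTorsionRep`, `modPRep` of `SpecB26`
(representations over `ZMod p`), with all maps `ZMod p`-linear and `G`-equivariant.
-/
import Mathlib
import Fermat.Agent.TW.GlobalEC.SpecB26
import Fermat.Agent.TW.GlobalEC.AddInvariant5

set_option autoImplicit false

namespace Fermat.Agent.TW.GlobalEC.ModPSeq5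

open Fermat.Agent.TW.GlobalEC.Spec26 Fermat.Agent.TW.GlobalEC.SpecB26
open Fermat.Agent.TW.GlobalEC.AddInvariant5

variable {G : Type} [Group G] {R : Type} [CommRing R] (p : ℕ) [Fact p.Prime]

section Basic

variable (X : Rep.{0} R G)

theorem val_zero : pTorsionRep.val p X 0 = 0 := rfl

theorem val_add (x y : pTorsionRep p X) :
    pTorsionRep.val p X (x + y) = pTorsionRep.val p X x + pTorsionRep.val p X y := rfl

/-- An element of `X` killed by `p`, as an element of `X[p]`. -/
def torMk (x : X) (hx : p • x = 0) : pTorsionRep p X := (⟨x, hx⟩ : pTorsionSub p X)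

theorem val_torMk (x : X) (hx : p • x = 0) : pTorsionRep.val p X (torMk p X x hx) = x := rfl

theorem mk_zero : modPRep.mk p X 0 = 0 := rfl

theorem mk_add (x y : X) : modPRep.mk p X (x + y) = modPRep.mk p X x + modPRep.mk p X y := rfl

theorem mk_sub (x y : X) : modPRep.mk p X (x - y) = modPRep.mk p X x - modPRep.mk p X y := rfl

theorem mk_nsmul_self (x : X) : modPRep.mk p X (p • x) = 0 :=
  (modPRep.mk_eq_zero_iff p X _).mpr ⟨x, rfl⟩

theorem mk_eq_mk_iff (x y : X) :
    modPRep.mk p X x = modPRep.mk p X y ↔ ∃ z : X, p • z = x - y := by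
  rw [← sub_eq_zero, ← mk_sub, modPRep.mk_eq_zero_iff]

end Basic

section Maps

variable {A B : Rep.{0} R G} (φ : A →ₗ[R] B)

/-- The map induced on `p`-torsion, additively. -/
def torAdd : pTorsionRep p A →+ pTorsionRep p B where
  toFun x := torMk p B (φ (pTorsionRep.val p A x)) (by
    rw [← map_nsmul, pTorsionRep.nsmul_val, map_zero])
  map_zero' := pTorsionRep.val_injective p B (by
    rw [val_torMk, val_zero, val_zero, map_zero])
  map_add' x y := pTorsionRep.val_injective p B (by
    rw [val_torMk, val_add, val_add, val_torMk, val_torMk, map_add])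

/-- The map induced on `p`-torsion. -/
def torMap : pTorsionRep p A →ₗ[ZMod p] pTorsionRep p B := (torAdd p φ).toZModLinearMap p

theorem val_torMap (x : pTorsionRep p A) :
    pTorsionRep.val p B (torMap p φ x) = φ (pTorsionRep.val p A x) := rfl

theorem torMap_comm (hφ : ∀ g a, φ (A.ρ g a) = B.ρ g (φ a)) (g : G) (x : pTorsionRep p A) :
    torMap p φ ((pTorsionRep p A).ρ g x) = (pTorsionRep p B).ρ g (torMap p φ x) := by
  apply pTorsionRep.val_injective
  rw [val_torMap, pTorsionRep.val_ρ, pTorsionRep.val_ρ, val_torMap, hφ]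

/-- The map induced modulo `p`, additively. -/
def modAdd : modPRep p A →+ modPRep p B :=
  QuotientAddGroup.map (pMulSub p A) (pMulSub p B) φ.toAddMonoidHom (by
    rintro _ ⟨y, rfl⟩
    exact ⟨φ y, by
      change p • φ y = φ (p • y)
      rw [map_nsmul]⟩)

/-- The map induced modulo `p`. -/
def modMap : modPRep p A →ₗ[ZMod p] modPRep p B := (modAdd p φ).toZModLinearMap p

theorem modMap_mk (a : A) : modMap p φ (modPRep.mk p A a) = modPRep.mk p B (φ a) := rfl

theorem modMap_comm (hφ : ∀ g a, φ (A.ρ g a) = B.ρ g (φ a)) (g : G) (x : modPRep p A) :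
    modMap p φ ((modPRep p A).ρ g x) = (modPRep p B).ρ g (modMap p φ x) := by
  obtain ⟨a, rfl⟩ := modPRep.mk_surjective p A x
  rw [modPRep.mk_ρ, modMap_mk, modMap_mk, modPRep.mk_ρ, hφ]

end Maps

section Delta

variable {A B C : Rep.{0} R G} {φ : A →ₗ[R] B} {ψ : B →ₗ[R] C}
  (hs : IsShortExactRep A B C φ ψ)

include hs in
/-- Lifting data for the connecting homomorphism. -/
theorem exists_lift (c : pTorsionRep p C) :
    ∃ (b : B) (a : A), ψ b = pTorsionRep.val p C c ∧ φ a = p • b := by
  obtain ⟨b, hb⟩ := hs.surj (pTorsionRep.val p C c)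
  have h0 : ψ (p • b) = 0 := by rw [map_nsmul, hb, pTorsionRep.nsmul_val]
  obtain ⟨a, ha⟩ := (hs.exact (p • b)).mp h0
  exact ⟨b, a, hb, ha⟩

/-- The connecting homomorphism, as a function. -/
noncomputable def deltaFun (c : pTorsionRep p C) : modPRep p A :=
  modPRep.mk p A (Classical.choose (Classical.choose_spec (exists_lift p hs c)))

theorem deltaFun_eq (c : pTorsionRep p C) (b : B) (a : A) (hb : ψ b = pTorsionRep.val p C c)
    (ha : φ a = p • b) : deltaFun p hs c = modPRep.mk p A a := by
  obtain ⟨hb0, ha0⟩ := Classical.choose_spec (Classical.choose_spec (exists_lift p hs c))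
  set b0 := Classical.choose (exists_lift p hs c) with hb0def
  set a0 := Classical.choose (Classical.choose_spec (exists_lift p hs c)) with ha0def
  change modPRep.mk p A a0 = modPRep.mk p A a
  have h1 : ψ (b0 - b) = 0 := by rw [map_sub, hb0, hb, sub_self]
  obtain ⟨a1, ha1⟩ := (hs.exact (b0 - b)).mp h1
  rw [mk_eq_mk_iff]
  refine ⟨a1, hs.inj ?_⟩
  rw [map_nsmul, ha1, map_sub, ha0, ha, smul_sub]

/-- The connecting homomorphism, additively. -/
noncomputable def deltaAdd : pTorsionRep p C →+ modPRep p A where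
  toFun := deltaFun p hs
  map_zero' := by
    rw [deltaFun_eq p hs 0 0 0 (by rw [map_zero, val_zero]) (by rw [map_zero, smul_zero])]
    rfl
  map_add' c c' := by
    obtain ⟨b, a, hb, ha⟩ := exists_lift p hs c
    obtain ⟨b', a', hb', ha'⟩ := exists_lift p hs c'
    rw [deltaFun_eq p hs c b a hb ha, deltaFun_eq p hs c' b' a' hb' ha',
      deltaFun_eq p hs (c + c') (b + b') (a + a') (by rw [map_add, hb, hb', val_add])
        (by rw [map_add, ha, ha', smul_add])]
    rfl

/-- The connecting homomorphism `C[p] → A/p`. -/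
noncomputable def deltaMap : pTorsionRep p C →ₗ[ZMod p] modPRep p A :=
  (deltaAdd p hs).toZModLinearMap p

theorem deltaMap_eq (c : pTorsionRep p C) (b : B) (a : A) (hb : ψ b = pTorsionRep.val p C c)
    (ha : φ a = p • b) : deltaMap p hs c = modPRep.mk p A a :=
  deltaFun_eq p hs c b a hb ha

theorem deltaMap_comm (g : G) (c : pTorsionRep p C) :
    deltaMap p hs ((pTorsionRep p C).ρ g c) = (modPRep p A).ρ g (deltaMap p hs c) := by
  obtain ⟨b, a, hb, ha⟩ := exists_lift p hs c
  rw [deltaMap_eq p hs c b a hb ha, modPRep.mk_ρ,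
    deltaMap_eq p hs _ (B.ρ g b) (A.ρ g a) (by rw [hs.ψ_comm, hb, pTorsionRep.val_ρ])
      (by rw [hs.φ_comm, ha, map_nsmul])]

end Delta

section Exactness

variable {A B C : Rep.{0} R G} {φ : A →ₗ[R] B} {ψ : B →ₗ[R] C}
  (hs : IsShortExactRep A B C φ ψ)

include hs in
theorem torMap_injective : Function.Injective (torMap p φ) := by
  intro x y h
  apply pTorsionRep.val_injective
  apply hs.inj
  rw [← val_torMap, ← val_torMap, h]

include hs in
theorem exact_torMap_torMap : Function.Exact (torMap p φ) (torMap p ψ) := by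
  intro y
  constructor
  · intro h0
    have h1 : ψ (pTorsionRep.val p B y) = 0 := by
      rw [← val_torMap, h0, val_zero]
    obtain ⟨a, ha⟩ := (hs.exact _).mp h1
    have hpa : p • a = 0 := by
      apply hs.inj
      rw [map_nsmul, ha, pTorsionRep.nsmul_val, map_zero]
    refine ⟨torMk p A a hpa, ?_⟩
    apply pTorsionRep.val_injective
    rw [val_torMap, val_torMk, ha]
  · rintro ⟨x, rfl⟩
    apply pTorsionRep.val_injective
    rw [val_torMap, val_torMap, val_zero]
    exact (hs.exact _).mpr ⟨_, rfl⟩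

theorem exact_torMap_deltaMap : Function.Exact (torMap p ψ) (deltaMap p hs) := by
  intro c
  constructor
  · intro h0
    obtain ⟨b, a, hb, ha⟩ := exists_lift p hs c
    rw [deltaMap_eq p hs c b a hb ha, modPRep.mk_eq_zero_iff] at h0
    obtain ⟨a', ha'⟩ := h0
    have hpb : p • (b - φ a') = 0 := by
      rw [smul_sub, ← map_nsmul, ha', ha, sub_self]
    refine ⟨torMk p B (b - φ a') hpb, ?_⟩
    apply pTorsionRep.val_injective
    rw [val_torMap, val_torMk, map_sub, hb]
    have : ψ (φ a') = 0 := (hs.exact _).mpr ⟨_, rfl⟩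
    rw [this, sub_zero]
  · rintro ⟨y, rfl⟩
    rw [deltaMap_eq p hs _ (pTorsionRep.val p B y) 0 (val_torMap p ψ y).symm
      (by rw [map_zero, pTorsionRep.nsmul_val])]
    rfl

theorem exact_deltaMap_modMap : Function.Exact (deltaMap p hs) (modMap p φ) := by
  intro x
  obtain ⟨a, rfl⟩ := modPRep.mk_surjective p A x
  constructor
  · intro h0
    rw [modMap_mk, modPRep.mk_eq_zero_iff] at h0
    obtain ⟨b, hb⟩ := h0
    have hpc : p • ψ b = 0 := by
      rw [← map_nsmul, hb]
      exact (hs.exact _).mpr ⟨_, rfl⟩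
    exact ⟨torMk p C (ψ b) hpc, deltaMap_eq p hs _ b a rfl hb.symm⟩
  · rintro ⟨c, hc⟩
    obtain ⟨b, a', hb, ha'⟩ := exists_lift p hs c
    rw [deltaMap_eq p hs c b a' hb ha'] at hc
    rw [← hc, modMap_mk, ha']
    exact mk_nsmul_self p B b

include hs in
theorem exact_modMap_modMap : Function.Exact (modMap p φ) (modMap p ψ) := by
  intro y
  obtain ⟨b, rfl⟩ := modPRep.mk_surjective p B y
  constructor
  · intro h0
    rw [modMap_mk, modPRep.mk_eq_zero_iff] at h0
    obtain ⟨c', hc'⟩ := h0
    obtain ⟨b', rfl⟩ := hs.surj c'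
    have h1 : ψ (b - p • b') = 0 := by rw [map_sub, map_nsmul, hc', sub_self]
    obtain ⟨a, ha⟩ := (hs.exact _).mp h1
    refine ⟨modPRep.mk p A a, ?_⟩
    rw [modMap_mk, ha, mk_sub, mk_nsmul_self, sub_zero]
  · rintro ⟨x, hx⟩
    obtain ⟨a, rfl⟩ := modPRep.mk_surjective p A x
    rw [← hx, modMap_mk, modMap_mk]
    have : ψ (φ a) = 0 := (hs.exact _).mpr ⟨_, rfl⟩
    rw [this]
    rfl

include hs in
theorem modMap_surjective : Function.Surjective (modMap p ψ) := by
  intro z
  obtain ⟨c, rfl⟩ := modPRep.mk_surjective p C z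
  obtain ⟨b, rfl⟩ := hs.surj c
  exact ⟨modPRep.mk p B b, rfl⟩

end Exactness

end Fermat.Agent.TW.GlobalEC.ModPSeq5
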