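/-
TW / WP4 (global Euler characteristic), brick "HP" part 3 (helper5): the Euler characteristic of
multiplication by `p`.

For `e : Rep (ZMod p) G → ℤ` additive on short exact sequences (`Spec26.IsAdditive`) and an
`R[G]`-module `X` put `hE p e X = e (X / pX) - e (X[p])` (`SpecB26.modPRep`, `pTorsionRep`).
* `hE_additive`: `hE` is additive on short exact sequences `0 → A → B → C → 0` for which the six
  representations `A[p], …, C/p` are finite-dimensional;
* `hE_eq_zero_of_bijective`, `hE_eq_zero_of_coprime`, `hE_eq_zero_of_killed`,
  `hE_eq_zero_of_finite`: `hE` vanishes on uniquely `p`-divisible modules, on modules killed by an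
  integer prime to `p`, on modules killed by `p` and on finite modules;
* for `R = ℤ`: `isAdditiveRep_hE`, `vanishesOnFinite_hE` (the hypotheses of
  `SUnitSeq5.euler_sUnit`).
With `e = eqHomRank P` for a projective `P` (`HomExact5`) this is the invariant `h_P` of the plan.
-/
import Mathlib
import Fermat.Agent.TW.GlobalEC.LongExact5
import Fermat.Agent.TW.GlobalEC.ModPSeq5

set_option autoImplicit false

namespace Fermat.Agent.TW.GlobalEC.HP5

open Fermat.Agent.TW.GlobalEC.Spec26 Fermat.Agent.TW.GlobalEC.SpecB26
open Fermat.Agent.TW.GlobalEC.AddInvariant5 Fermat.Agent.TW.GlobalEC.LongExact5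
open Fermat.Agent.TW.GlobalEC.ModPSeq5

variable {G : Type} [Group G] {R : Type} [CommRing R] (p : ℕ) [Fact p.Prime]

/-- The Euler characteristic of multiplication by `p` on `X` with respect to `e`:
`e (X / pX) - e (X[p])`. -/
noncomputable def hE (e : Rep.{0} (ZMod p) G → ℤ) (X : Rep.{0} R G) : ℤ :=
  e (modPRep p X) - e (pTorsionRep p X)

variable {e : Rep.{0} (ZMod p) G → ℤ}

/-- **Additivity** of `hE` on short exact sequences. -/
theorem hE_additive (he : IsAdditive e) {A B C : Rep.{0} R G} {φ : A →ₗ[R] B} {ψ : B →ₗ[R] C}
    (hs : IsShortExactRep A B C φ ψ)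
    [FiniteDimensional (ZMod p) (pTorsionRep p A)] [FiniteDimensional (ZMod p) (pTorsionRep p B)]
    [FiniteDimensional (ZMod p) (pTorsionRep p C)] [FiniteDimensional (ZMod p) (modPRep p A)]
    [FiniteDimensional (ZMod p) (modPRep p B)] [FiniteDimensional (ZMod p) (modPRep p C)] :
    hE p e B = hE p e A + hE p e C := by
  have := six_term he (torMap p φ) (torMap p ψ) (deltaMap p hs) (modMap p φ) (modMap p ψ)
    (torMap_comm p φ hs.φ_comm) (torMap_comm p ψ hs.ψ_comm) (deltaMap_comm p hs)
    (modMap_comm p φ hs.φ_comm) (modMap_comm p ψ hs.ψ_comm) (torMap_injective p hs)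
    (exact_torMap_torMap p hs) (exact_torMap_deltaMap p hs) (exact_deltaMap_modMap p hs)
    (exact_modMap_modMap p hs) (modMap_surjective p hs)
  unfold hE
  omega

/-! ### Vanishing -/

/-- `hE` vanishes on uniquely `p`-divisible modules. -/
theorem hE_eq_zero_of_bijective (he : IsAdditive e) (X : Rep.{0} R G)
    (hX : Function.Bijective fun x : X => p • x) : hE p e X = 0 := by
  have h1 : Subsingleton (pTorsionRep p X) := by
    refine ⟨fun a b => ?_⟩
    apply pTorsionRep.val_injective
    apply hX.1
    change p • _ = p • _
    rw [pTorsionRep.nsmul_val, pTorsionRep.nsmul_val]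
  have h2 : Subsingleton (modPRep p X) := by
    refine ⟨fun a b => ?_⟩
    obtain ⟨x, rfl⟩ := modPRep.mk_surjective p X a
    obtain ⟨y, rfl⟩ := modPRep.mk_surjective p X b
    rw [mk_eq_mk_iff]
    exact hX.2 (x - y)
  unfold hE
  rw [eq_zero_of_subsingleton he, eq_zero_of_subsingleton he, sub_zero]

/-- `hE` vanishes on modules killed by an integer prime to `p`. -/
theorem hE_eq_zero_of_coprime (he : IsAdditive e) (X : Rep.{0} R G) (m : ℕ) (hm : Nat.Coprime p m)
    (hX : ∀ x : X, m • x = 0) : hE p e X = 0 := by
  apply hE_eq_zero_of_bijective p he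
  have hco : IsCoprime (p : ℤ) (m : ℤ) := Nat.isCoprime_iff_coprime.mpr hm
  obtain ⟨a, b, hab⟩ := hco
  have key : ∀ x : X, a • (p • x) = x := by
    intro x
    have h1 : (a * p + b * m) • x = x := by rw [hab, one_smul]
    rw [add_smul, mul_smul, mul_smul, natCast_zsmul, natCast_zsmul, hX, smul_zero, add_zero] at h1
    exact h1
  constructor
  · intro x y hxy
    have hxy' : p • x = p • y := hxy
    rw [← key x, ← key y, hxy']
  · intro x
    refine ⟨a • x, ?_⟩
    change p • (a • x) = x
    rw [smul_comm, key]

/-- For a module killed by `p`, the natural map `X[p] → X / pX` is bijective. -/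
theorem hE_eq_zero_of_killed (he : IsAdditive e) (X : Rep.{0} R G)
    [FiniteDimensional (ZMod p) (modPRep p X)] (hX : ∀ x : X, p • x = 0) : hE p e X = 0 := by
  let f : pTorsionRep p X →+ modPRep p X :=
    { toFun := fun x => modPRep.mk p X (pTorsionRep.val p X x)
      map_zero' := rfl
      map_add' := fun _ _ => rfl }
  have h := eq_of_bijective he (pTorsionRep p X) (modPRep p X) (f.toZModLinearMap p)
    (fun g x => by
      change modPRep.mk p X (pTorsionRep.val p X ((pTorsionRep p X).ρ g x)) = _
      rw [pTorsionRep.val_ρ, ← modPRep.mk_ρ]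
      rfl) ⟨?_, ?_⟩
  · unfold hE
    omega
  · intro x y hxy
    have hxy' : modPRep.mk p X (pTorsionRep.val p X x) = modPRep.mk p X (pTorsionRep.val p X y) :=
      hxy
    rw [mk_eq_mk_iff] at hxy'
    obtain ⟨z, hz⟩ := hxy'
    apply pTorsionRep.val_injective
    rw [hX z] at hz
    exact (sub_eq_zero.mp hz.symm)
  · intro y
    obtain ⟨x, rfl⟩ := modPRep.mk_surjective p X y
    exact ⟨torMk p X x (hX x), rfl⟩

/-! ### Finite modules -/

theorem finite_pTorsionRep (X : Rep.{0} R G) [Finite X] : Finite (pTorsionRep p X) :=
  inferInstanceAs (Finite (pTorsionSub p X))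

theorem finite_modPRep (X : Rep.{0} R G) [Finite X] : Finite (modPRep p X) :=
  inferInstanceAs (Finite (X ⧸ pMulSub p X))

theorem finiteDimensional_of_finite (Y : Rep.{0} (ZMod p) G) (h : Finite Y) :
    FiniteDimensional (ZMod p) Y := Module.Finite.of_finite

theorem hE_eq_zero_of_finite_aux (he : IsAdditive e) :
    ∀ (n : ℕ) (X : Rep.{0} R G), Finite X → Nat.card X ≤ n → hE p e X = 0 := by
  intro n
  induction n with
  | zero =>
    intro X hX hn
    have : 0 < Nat.card X := Nat.card_pos
    omega
  | succ n ih =>
    intro X hX hn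
    let pe : X →ₗ[R] X := p • LinearMap.id
    have hpe : ∀ g x, pe (X.ρ g x) = X.ρ g (pe x) := by
      intro g x
      change p • X.ρ g x = X.ρ g (p • x)
      rw [map_nsmul]
    by_cases htop : LinearMap.range pe = ⊤
    · apply hE_eq_zero_of_bijective p he
      have hsurj : Function.Surjective (fun x : X => p • x) := fun x => by
        obtain ⟨y, hy⟩ := LinearMap.range_eq_top.mp htop x
        exact ⟨y, hy⟩
      exact ⟨Finite.injective_iff_surjective.mpr hsurj, hsurj⟩
    · have hst := AddInvariant5.range_le_comap pe hpe
      have hs : IsShortExactRep (Rep.subrepresentation X (LinearMap.range pe) hst) X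
          (Rep.quotient X (LinearMap.range pe) hst) (LinearMap.range pe).subtype
          (LinearMap.range pe).mkQ :=
        ⟨fun _ _ => rfl, fun _ _ => rfl, Subtype.val_injective, Submodule.mkQ_surjective _,
          LinearMap.exact_subtype_mkQ _⟩
      have hYfin : Finite (Rep.subrepresentation X (LinearMap.range pe) hst) :=
        inferInstanceAs (Finite (LinearMap.range pe))
      have hQfin : Finite (Rep.quotient X (LinearMap.range pe) hst) :=
        Finite.of_surjective (LinearMap.range pe).mkQ (Submodule.mkQ_surjective _)
      have hcard : Nat.card (Rep.subrepresentation X (LinearMap.range pe) hst) ≤ n := by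
        obtain ⟨x, hx⟩ : ∃ x, x ∉ LinearMap.range pe := by
          by_contra h
          push Not at h
          exact htop (eq_top_iff.mpr fun x _ => h x)
        have h1 : Nat.card (LinearMap.range pe) < Nat.card X :=
          Finite.card_subtype_lt (p := (· ∈ LinearMap.range pe)) hx
        have h2 : Nat.card (Rep.subrepresentation X (LinearMap.range pe) hst) =
            Nat.card (LinearMap.range pe) := rfl
        omega
      have hY := ih _ hYfin hcard
      have := finiteDimensional_of_finite p _ (finite_modPRep p (Rep.quotient X (LinearMap.range pe) hst))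
      have hQ : hE p e (Rep.quotient X (LinearMap.range pe) hst) = 0 :=
        hE_eq_zero_of_killed p he _ (by
          intro q
          obtain ⟨x, rfl⟩ := Submodule.mkQ_surjective (LinearMap.range pe) q
          rw [← map_nsmul, Submodule.mkQ_apply, Submodule.Quotient.mk_eq_zero]
          exact ⟨x, rfl⟩)
      have := finiteDimensional_of_finite p _ (finite_modPRep p X)
      have := finiteDimensional_of_finite p _ (finite_pTorsionRep p X)
      have := finiteDimensional_of_finite p _
        (finite_modPRep p (Rep.subrepresentation X (LinearMap.range pe) hst))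
      have := finiteDimensional_of_finite p _
        (finite_pTorsionRep p (Rep.subrepresentation X (LinearMap.range pe) hst))
      have := finiteDimensional_of_finite p _
        (finite_pTorsionRep p (Rep.quotient X (LinearMap.range pe) hst))
      have := hE_additive p he hs
      omega

/-- `hE` vanishes on finite modules. -/
theorem hE_eq_zero_of_finite (he : IsAdditive e) (X : Rep.{0} R G) [Finite X] : hE p e X = 0 :=
  hE_eq_zero_of_finite_aux p he (Nat.card X) X inferInstance le_rfl

/-! ### Finitely generated `ℤ[G]`-modules -/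

section FG

variable (M : Type) [AddCommGroup M] [Module.Finite ℤ M]

/-- The quotient of a finitely generated abelian group by a subgroup containing `pM` is
finite. -/
theorem finite_quotient_of_fg (H : AddSubgroup M) (hH : ∀ x : M, p • x ∈ H) : Finite (M ⧸ H) := by
  have htors : Module.IsTorsion ℤ (M ⧸ H.toIntSubmodule) := by
    intro y
    obtain ⟨x, rfl⟩ := Submodule.Quotient.mk_surjective _ y
    refine ⟨⟨(p : ℤ), mem_nonZeroDivisors_of_ne_zero
      (by exact_mod_cast (Fact.out : p.Prime).ne_zero)⟩, ?_⟩
    rw [Submonoid.mk_smul, ← Submodule.Quotient.mk_smul, Submodule.Quotient.mk_eq_zero,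
      natCast_zsmul]
    exact hH x
  have hfin : Finite (M ⧸ H.toIntSubmodule) := Module.finite_of_fg_torsion _ htors
  exact hfin

/-- A subgroup killed by `p` of a finitely generated abelian group is finite. -/
theorem finite_of_fg_of_killed (H : AddSubgroup M) (hH : ∀ x ∈ H, p • x = 0) : Finite H := by
  have htors : Module.IsTorsion ℤ H.toIntSubmodule := by
    intro y
    refine ⟨⟨(p : ℤ), mem_nonZeroDivisors_of_ne_zero
      (by exact_mod_cast (Fact.out : p.Prime).ne_zero)⟩, ?_⟩
    rw [Submonoid.mk_smul, natCast_zsmul]
    apply Subtype.ext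
    rw [Submodule.coe_smul_of_tower]
    exact hH y.1 y.2
  have hfin : Finite H.toIntSubmodule := Module.finite_of_fg_torsion _ htors
  exact hfin

end FG

section IntCase

variable [Module.Finite ℤ R]

theorem finite_pTorsionRep_of_fg (X : Rep.{0} R G) [Module.Finite R X] :
    Finite (pTorsionRep p X) := by
  have : Module.Finite ℤ X := Module.Finite.trans R X
  exact finite_of_fg_of_killed p X (pTorsionSub p X) (fun _ hx => hx)

theorem finite_modPRep_of_fg (X : Rep.{0} R G) [Module.Finite R X] :
    Finite (modPRep p X) := by
  have : Module.Finite ℤ X := Module.Finite.trans R X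
  exact finite_quotient_of_fg p X (pMulSub p X) (fun x => ⟨x, rfl⟩)

/-- For `R = ℤ` (or any ring finite over `ℤ`), `hE` is additive on short exact sequences of
finitely generated modules. -/
theorem isAdditiveRep_hE [IsNoetherianRing R] (he : IsAdditive e) :
    IsAdditiveRep (fun X : Rep.{0} R G => hE p e X) := by
  intro A B C φ ψ hs hB
  have hA : Module.Finite R A := Module.Finite.of_injective φ hs.inj
  have hC : Module.Finite R C := Module.Finite.of_surjective ψ hs.surj
  have := finiteDimensional_of_finite p _ (finite_pTorsionRep_of_fg p A)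
  have := finiteDimensional_of_finite p _ (finite_pTorsionRep_of_fg p B)
  have := finiteDimensional_of_finite p _ (finite_pTorsionRep_of_fg p C)
  have := finiteDimensional_of_finite p _ (finite_modPRep_of_fg p A)
  have := finiteDimensional_of_finite p _ (finite_modPRep_of_fg p B)
  have := finiteDimensional_of_finite p _ (finite_modPRep_of_fg p C)
  exact hE_additive p he hs

omit [Module.Finite ℤ R] in
/-- `hE` vanishes on finite modules. -/
theorem vanishesOnFinite_hE (he : IsAdditive e) :
    VanishesOnFinite (fun X : Rep.{0} R G => hE p e X) :=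
  fun X _ => hE_eq_zero_of_finite p he X

end IntCase

end Fermat.Agent.TW.GlobalEC.HP5
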