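/-
TW / WP4 (global Euler characteristic), brick "HP" part 4 (helper5): for a finite-dimensional
projective representation `P` (`Spec26.IsProjRep`), the function `X ↦ dim Hom_G(P, X)`
(`Spec26.eqHomRank P X`) is additive on short exact sequences (`Spec26.IsAdditive`).
-/
import Mathlib
import Fermat.Agent.TW.GlobalEC.Spec26

set_option autoImplicit false

namespace Fermat.Agent.TW.GlobalEC.HomExact5

open Module Fermat.Agent.TW.GlobalEC.Spec26

variable {k G : Type} [Field k] [Group G]

/-- `Hom_G(P, X)` as a subspace of `Hom_k(P, X)`. -/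
noncomputable abbrev eqHom (P X : Rep.{0} k G) : Submodule k (P →ₗ[k] X) :=
  (homRep P X).ρ.invariants

theorem mem_eqHom_iff {P X : Rep.{0} k G} (f : P →ₗ[k] X) :
    f ∈ eqHom P X ↔ ∀ g x, f (P.ρ g x) = X.ρ g (f x) := by
  change (∀ g : G, (Representation.linHom P.ρ X.ρ) g f = f) ↔ _
  constructor
  · intro h g x
    have := (Representation.linHom.mem_invariants_iff_comm f g).mp (h g)
    exact LinearMap.congr_fun this x
  · intro h g
    rw [Representation.linHom.mem_invariants_iff_comm]
    ext x
    exact h g x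

theorem eqHomRank_eq (P X : Rep.{0} k G) : eqHomRank P X = finrank k (eqHom P X) := rfl

/-- Composition with an equivariant map. -/
noncomputable def compHom (P : Rep.{0} k G) {X Y : Rep.{0} k G} (φ : X →ₗ[k] Y)
    (hφ : ∀ g x, φ (X.ρ g x) = Y.ρ g (φ x)) : eqHom P X →ₗ[k] eqHom P Y where
  toFun f := ⟨φ ∘ₗ f.1, (mem_eqHom_iff _).mpr fun g x => by
    rw [LinearMap.comp_apply, (mem_eqHom_iff f.1).mp f.2, hφ, LinearMap.comp_apply]⟩
  map_add' f f' := Subtype.ext (LinearMap.comp_add _ _ _)
  map_smul' c f := Subtype.ext (LinearMap.comp_smul _ _ _)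

theorem compHom_apply (P : Rep.{0} k G) {X Y : Rep.{0} k G} (φ : X →ₗ[k] Y)
    (hφ : ∀ g x, φ (X.ρ g x) = Y.ρ g (φ x)) (f : eqHom P X) (x : P) :
    (compHom P φ hφ f).1 x = φ (f.1 x) := rfl

/-- **`Hom_G(P, -)` is exact for projective `P`**, dimension form. -/
theorem isAdditive_eqHomRank (P : Rep.{0} k G) [FiniteDimensional k P] (hP : IsProjRep P) :
    IsAdditive (fun X : Rep.{0} k G => (eqHomRank P X : ℤ)) := by
  intro A B C φ ψ hs hB
  have hinj : Function.Injective (compHom P φ hs.φ_comm) := by
    intro f f' h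
    apply Subtype.ext
    ext x
    apply hs.inj
    rw [← compHom_apply P φ hs.φ_comm, ← compHom_apply P φ hs.φ_comm, h]
  have hsurj : Function.Surjective (compHom P ψ hs.ψ_comm) := by
    intro f
    obtain ⟨f', hf', hlift⟩ := hP B C ψ hs.ψ_comm hs.surj f.1 ((mem_eqHom_iff f.1).mp f.2)
    refine ⟨⟨f', (mem_eqHom_iff f').mpr hf'⟩, ?_⟩
    apply Subtype.ext
    ext x
    exact hlift x
  have hker : LinearMap.ker (compHom P ψ hs.ψ_comm) = LinearMap.range (compHom P φ hs.φ_comm) := by
    ext f
    rw [LinearMap.mem_ker, LinearMap.mem_range]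
    constructor
    · intro h0
      have hmem : ∀ x, f.1 x ∈ LinearMap.range φ := by
        intro x
        have : ψ (f.1 x) = 0 := by
          rw [← compHom_apply P ψ hs.ψ_comm, h0]
          rfl
        exact (hs.exact _).mp this
      let e := LinearEquiv.ofInjective φ hs.inj
      let f'' : P →ₗ[k] A := e.symm.toLinearMap ∘ₗ (f.1.codRestrict (LinearMap.range φ) hmem)
      have hφf : ∀ x, φ (f'' x) = f.1 x := by
        intro x
        have := e.apply_symm_apply (f.1.codRestrict (LinearMap.range φ) hmem x)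
        exact congrArg Subtype.val this
      refine ⟨⟨f'', (mem_eqHom_iff f'').mpr fun g x => ?_⟩, ?_⟩
      · apply hs.inj
        rw [hφf, hs.φ_comm, hφf, (mem_eqHom_iff f.1).mp f.2]
      · apply Subtype.ext
        ext x
        exact hφf x
    · rintro ⟨f', rfl⟩
      apply Subtype.ext
      ext x
      change ψ (φ (f'.1 x)) = 0
      exact (hs.exact _).mpr ⟨_, rfl⟩
  have h1 := LinearMap.finrank_range_add_finrank_ker (compHom P ψ hs.ψ_comm)
  rw [hker, LinearMap.finrank_range_of_inj hinj, LinearMap.range_eq_top.mpr hsurj,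
    finrank_top] at h1
  simp only [eqHomRank_eq]
  omega

end Fermat.Agent.TW.GlobalEC.HomExact5
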