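/-
TW / WP4 (global Euler characteristic), brick EC5d, abstract linear algebra (helper5).

A real square matrix with zero column sums and strictly negative off-diagonal entries has a kernel
all of whose nonzero vectors are strictly positive or strictly negative.  Consequence for a family
`ε : ι → A` in a finitely generated abelian group of rank `card ι - 1` admitting such a "logarithm
matrix": the relation lattice `{f : ι → ℤ | ∑ f i • ε i = 0}` is infinite cyclic with a strictly
positive generator, and the `ε i` generate a subgroup of finite index.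
-/
import Mathlib

set_option autoImplicit false

namespace Fermat.Agent.TW.GlobalEC.SignKernel5

open Finset

section Real

variable {ι : Type*} [Fintype ι] [DecidableEq ι] (M : ι → ι → ℝ)

/-- Key step: a kernel vector is either everywhere `≤ 0` or everywhere `> 0`. -/
theorem nonpos_or_pos (hcol : ∀ j, ∑ i, M i j = 0) (hoff : ∀ i j, i ≠ j → M i j < 0)
    (f : ι → ℝ) (hf : ∀ i, ∑ j, M i j * f j = 0) :
    (∀ i, f i ≤ 0) ∨ (∀ i, 0 < f i) := by
  by_contra hcon
  push Not at hcon
  obtain ⟨⟨i₁, hi₁⟩, ⟨i₂, hi₂⟩⟩ := hcon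
  set S : Finset ι := univ.filter (fun i => 0 < f i) with hS
  have hi₁S : i₁ ∈ S := by simp [hS, hi₁]
  have hi₂S : i₂ ∉ S := by simp [hS, hi₂]
  -- the column sums over `S`
  set a : ι → ℝ := fun j => ∑ i ∈ S, M i j with ha
  have hzero : ∑ j, f j * a j = 0 := by
    have h1 : ∑ i ∈ S, ∑ j, M i j * f j = 0 := Finset.sum_eq_zero fun i _ => hf i
    rw [Finset.sum_comm] at h1
    rw [← h1]
    refine Finset.sum_congr rfl fun j _ => ?_
    rw [ha, Finset.mul_sum]
    exact Finset.sum_congr rfl fun i _ => mul_comm _ _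
  have hapos : ∀ j ∈ S, 0 < a j := by
    intro j hj
    have h2 : a j = -∑ i ∈ Sᶜ, M i j := by
      have := hcol j
      rw [← Finset.sum_add_sum_compl S] at this
      rw [ha]
      linarith
    rw [h2, neg_pos]
    refine Finset.sum_neg' (fun i hi => ?_) ⟨i₂, by simpa using hi₂S, ?_⟩
    · refine (hoff i j ?_).le
      rintro rfl
      exact (Finset.mem_compl.mp hi) hj
    · refine hoff i₂ j ?_
      rintro rfl
      exact hi₂S hj
  have haneg : ∀ j, j ∉ S → a j ≤ 0 := by
    intro j hj
    rw [ha]
    refine Finset.sum_nonpos fun i hi => (hoff i j ?_).le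
    rintro rfl
    exact hj hi
  have hpos : 0 < ∑ j, f j * a j := by
    rw [← Finset.sum_add_sum_compl S]
    have h3 : 0 < ∑ j ∈ S, f j * a j := by
      refine Finset.sum_pos' (fun j hj => ?_) ⟨i₁, hi₁S, ?_⟩
      · exact (mul_pos (by simpa [hS] using hj) (hapos j hj)).le
      · exact mul_pos hi₁ (hapos i₁ hi₁S)
    have h4 : 0 ≤ ∑ j ∈ Sᶜ, f j * a j := by
      refine Finset.sum_nonneg fun j hj => ?_
      have hjS : j ∉ S := Finset.mem_compl.mp hj
      have hfj : f j ≤ 0 := by
        by_contra h
        exact hjS (by simp [hS, not_le.mp h])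
      exact mul_nonneg_of_nonpos_of_nonpos hfj (haneg j hjS)
    linarith
  linarith

/-- **Sign trichotomy** for kernel vectors. -/
theorem sign_trichotomy (hcol : ∀ j, ∑ i, M i j = 0) (hoff : ∀ i j, i ≠ j → M i j < 0)
    (f : ι → ℝ) (hf : ∀ i, ∑ j, M i j * f j = 0) :
    (∀ i, 0 < f i) ∨ (∀ i, f i < 0) ∨ (∀ i, f i = 0) := by
  have hf' : ∀ i, ∑ j, M i j * (-f) j = 0 := by
    intro i
    simp only [Pi.neg_apply, mul_neg, Finset.sum_neg_distrib, hf i, neg_zero]
  rcases nonpos_or_pos M hcol hoff f hf with h1 | h1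
  · rcases nonpos_or_pos M hcol hoff (-f) hf' with h2 | h2
    · right; right
      intro i
      have := h1 i
      have := h2 i
      simp only [Pi.neg_apply] at this
      linarith
    · right; left
      intro i
      have := h2 i
      simp only [Pi.neg_apply] at this
      linarith
  · left; exact h1

end Real

section Group

variable {ι : Type*} [Fintype ι] [DecidableEq ι]
  {A : Type*} [AddCommGroup A]

/-- The homomorphism `f ↦ ∑ j, f j • ε j`. -/
def phi (ε : ι → A) : (ι → ℤ) →+ A where
  toFun f := ∑ j, f j • ε j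
  map_zero' := by simp
  map_add' f g := by simp [add_smul, Finset.sum_add_distrib]

omit [DecidableEq ι] in
theorem phi_apply (ε : ι → A) (f : ι → ℤ) : phi ε f = ∑ j, f j • ε j := rfl

theorem phi_single (ε : ι → A) (j : ι) : phi ε (Pi.single j 1) = ε j := by
  rw [phi_apply, Finset.sum_eq_single j]
  · simp
  · intro b _ hb
    simp [Pi.single_eq_of_ne hb]
  · intro h
    exact absurd (Finset.mem_univ j) h

variable (L : A →+ (ι → ℝ)) (hL : ∀ x, ∑ i, L x i = 0)
  (ε : ι → A) (hε : ∀ i j, i ≠ j → L (ε j) i < 0)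

include hL hε in
/-- Relations among the `ε j` are strictly positive, strictly negative or zero. -/
theorem rel_sign (f : ι → ℤ) (hf : phi ε f = 0) :
    (∀ i, 0 < f i) ∨ (∀ i, f i < 0) ∨ f = 0 := by
  have key : ∀ i, ∑ j, L (ε j) i * ((f j : ℤ) : ℝ) = 0 := by
    intro i
    have h1 : L (phi ε f) i = 0 := by rw [hf, map_zero]; rfl
    rw [phi_apply, map_sum, Finset.sum_apply] at h1
    rw [← h1]
    refine Finset.sum_congr rfl fun j _ => ?_
    rw [map_zsmul, Pi.smul_apply, zsmul_eq_mul, mul_comm]
  rcases sign_trichotomy (fun i j => L (ε j) i) (fun j => hL (ε j)) hε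
    (fun j => ((f j : ℤ) : ℝ)) key with h | h | h
  · left; intro i; exact_mod_cast h i
  · right; left; intro i; exact_mod_cast h i
  · right; right; funext i; exact_mod_cast h i

variable [Module.Finite ℤ A] (hrank : Module.finrank ℤ A < Fintype.card ι)

omit [DecidableEq ι] in
include hrank in
theorem exists_family_rel (v : ι → A) : ∃ g : ι → ℤ, ∑ i, g i • v i = 0 ∧ ∃ i, g i ≠ 0 := by
  rw [← Fintype.not_linearIndependent_iff]
  intro h
  exact absurd h.fintype_card_le_finrank (not_le.mpr hrank)

include hL hε hrank in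
/-- The relation lattice is infinite cyclic with a strictly positive generator. -/
theorem exists_pos_generator [Nonempty ι] :
    ∃ c : ι → ℤ, (∀ i, 0 < c i) ∧ ∀ f : ι → ℤ, phi ε f = 0 ↔ ∃ a : ℤ, f = a • c := by
  classical
  obtain ⟨i₀⟩ := ‹Nonempty ι›
  -- a positive relation exists
  have hex : ∃ c : ι → ℤ, phi ε c = 0 ∧ ∀ i, 0 < c i := by
    obtain ⟨g, hg0, i, hgi⟩ := exists_family_rel hrank ε
    have hg : phi ε g = 0 := hg0
    rcases rel_sign L hL ε hε g hg with h | h | h
    · exact ⟨g, hg, h⟩
    · refine ⟨-g, by rw [map_neg, hg, neg_zero], fun i => ?_⟩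
      have := h i
      simp only [Pi.neg_apply]
      omega
    · exact absurd (congrFun h i) hgi
  -- choose one with minimal value at `i₀`
  let P : ℕ → Prop := fun n => ∃ c : ι → ℤ, phi ε c = 0 ∧ (∀ i, 0 < c i) ∧ c i₀ = n
  have hP : ∃ n, P n := by
    obtain ⟨c, hc0, hc⟩ := hex
    exact ⟨(c i₀).toNat, c, hc0, hc, (Int.toNat_of_nonneg (hc i₀).le).symm⟩
  obtain ⟨c, hc0, hc, hcn⟩ := Nat.find_spec hP
  refine ⟨c, hc, fun f => ⟨fun hf => ?_, ?_⟩⟩
  · set a := f i₀ / c i₀ with ha
    set f' := f - a • c with hf'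
    have hf'0 : phi ε f' = 0 := by
      rw [hf', map_sub, map_zsmul, hf, hc0, smul_zero, sub_zero]
    have hval : f' i₀ = f i₀ % c i₀ := by
      simp only [hf', Pi.sub_apply, Pi.smul_apply, smul_eq_mul, ha]
      rw [Int.emod_def]
      ring
    have hnn : 0 ≤ f' i₀ := hval ▸ Int.emod_nonneg _ (hc i₀).ne'
    have hlt : f' i₀ < c i₀ := hval ▸ Int.emod_lt_of_pos _ (hc i₀)
    rcases rel_sign L hL ε hε f' hf'0 with h | h | h
    · exfalso
      have hmem : P (f' i₀).toNat :=
        ⟨f', hf'0, h, (Int.toNat_of_nonneg hnn).symm⟩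
      have hmin := Nat.find_min' hP hmem
      have : ((Nat.find hP : ℕ) : ℤ) ≤ ((f' i₀).toNat : ℤ) := by exact_mod_cast hmin
      rw [Int.toNat_of_nonneg hnn, ← hcn] at this
      omega
    · exfalso
      have := h i₀
      omega
    · refine ⟨a, ?_⟩
      have : f - a • c = 0 := h
      exact sub_eq_zero.mp this
  · rintro ⟨a, rfl⟩
    rw [map_zsmul, hc0, smul_zero]

include hL hε hrank in
/-- The `ε j` generate a subgroup of finite index. -/
theorem finite_quotient_range [Nonempty ι] : Finite (A ⧸ (phi ε).range) := by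
  classical
  obtain ⟨i₀⟩ := ‹Nonempty ι›
  -- every element has a nonzero multiple in the range
  have htors : ∀ x : A, ∃ m : ℤ, m ≠ 0 ∧ m • x ∈ (phi ε).range := by
    intro x
    obtain ⟨g, hg0, i, hgi⟩ := exists_family_rel hrank (Function.update ε i₀ x)
    by_cases hgi₀ : g i₀ = 0
    · exfalso
      have hrel : phi ε g = 0 := by
        rw [phi_apply, ← hg0]
        refine Finset.sum_congr rfl fun j _ => ?_
        by_cases hj : j = i₀
        · subst hj; simp [hgi₀]
        · rw [Function.update_of_ne hj]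
      rcases rel_sign L hL ε hε g hrel with h | h | h
      · have := h i₀; omega
      · have := h i₀; omega
      · exact hgi (congrFun h i)
    · refine ⟨g i₀, hgi₀, ?_⟩
      refine ⟨-(Function.update g i₀ 0), ?_⟩
      have h1 : ∑ j, g j • Function.update ε i₀ x j =
          g i₀ • x + ∑ j ∈ Finset.univ.erase i₀, g j • ε j := by
        rw [← Finset.add_sum_erase _ _ (Finset.mem_univ i₀), Function.update_self]
        congr 1
        refine Finset.sum_congr rfl fun j hj => ?_
        rw [Function.update_of_ne (Finset.ne_of_mem_erase hj)]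
      have h2 : ∑ j, Function.update g i₀ 0 j • ε j =
          ∑ j ∈ Finset.univ.erase i₀, g j • ε j := by
        rw [← Finset.add_sum_erase _ _ (Finset.mem_univ i₀), Function.update_self, zero_smul,
          zero_add]
        refine Finset.sum_congr rfl fun j hj => ?_
        rw [Function.update_of_ne (Finset.ne_of_mem_erase hj)]
      rw [map_neg, phi_apply, h2, neg_eq_iff_add_eq_zero, add_comm, ← hg0, h1]
  -- pass to `ℤ`-modules
  let N : Submodule ℤ A := (phi ε).range.toIntSubmodule
  have hfin : Finite (A ⧸ N) := by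
    apply Module.finite_of_fg_torsion
    intro y
    obtain ⟨x, rfl⟩ := Submodule.Quotient.mk_surjective N y
    obtain ⟨m, hm, hmx⟩ := htors x
    refine ⟨⟨m, mem_nonZeroDivisors_of_ne_zero hm⟩, ?_⟩
    rw [Submonoid.mk_smul, ← Submodule.Quotient.mk_smul, Submodule.Quotient.mk_eq_zero]
    exact hmx
  exact hfin

omit [DecidableEq ι] [Module.Finite ℤ A] in
/-- A positive generator of the relation lattice is invariant under every permutation of the
index set that preserves the relation lattice. -/
theorem generator_invariant (ε : ι → A) {c : ι → ℤ} (hc : ∀ i, 0 < c i)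
    (hgen : ∀ f : ι → ℤ, phi ε f = 0 ↔ ∃ a : ℤ, f = a • c)
    (σ : Equiv.Perm ι) (hσ : ∀ f : ι → ℤ, phi ε f = 0 → phi ε (f ∘ σ) = 0) [Nonempty ι] :
    c ∘ σ = c := by
  have hc0 : phi ε c = 0 := (hgen c).mpr ⟨1, (one_smul _ _).symm⟩
  obtain ⟨a, ha⟩ := (hgen _).mp (hσ c hc0)
  have hsum : ∑ i, (c ∘ σ) i = ∑ i, c i := Equiv.sum_comp σ c
  have hpos : 0 < ∑ i, c i := Finset.sum_pos (fun i _ => hc i) Finset.univ_nonempty
  rw [ha] at hsum
  simp only [Pi.smul_apply, smul_eq_mul, ← Finset.mul_sum] at hsum
  have ha1 : a = 1 := by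
    have : (a - 1) * ∑ i, c i = 0 := by linarith
    rcases mul_eq_zero.mp this with h | h
    · omega
    · omega
  rw [ha, ha1, one_smul]

end Group

end Fermat.Agent.TW.GlobalEC.SignKernel5
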