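/-
TW / WP4 (global Euler characteristic), brick EC5d, part (M1)+(M2) (helper5).

Minkowski units: for a number field `K` and a group `G = Gal(K/k)` of automorphisms there is a
`G`-equivariant family of units `ε w`, indexed by the infinite places `w` of `K`, such that
`log w' (ε w) < 0` for all `w' ≠ w`.  The associated homomorphism
`φ : (InfinitePlace K → ℤ) → (𝓞 K)ˣ`, `f ↦ ∏ w, ε w ^ f w`, has finite cokernel and its kernel is
infinite cyclic, generated by a strictly positive `G`-invariant vector.
-/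
import Mathlib
import Fermat.Agent.TW.GlobalEC.SignKernel5

set_option autoImplicit false

namespace Fermat.Agent.TW.GlobalEC.MinkowskiUnit5

open NumberField NumberField.InfinitePlace NumberField.Units

section Action

variable (k K : Type*) [Field k] [Field K] [Algebra k K]

/-- The action of an automorphism on the units of the ring of integers. -/
noncomputable def unitsSmul (σ : Gal(K/k)) : (𝓞 K)ˣ →* (𝓞 K)ˣ :=
  Units.map ((MulSemiringAction.toRingHom Gal(K/k) (𝓞 K) σ : 𝓞 K →+* 𝓞 K) : 𝓞 K →* 𝓞 K)

theorem coe_unitsSmul (σ : Gal(K/k)) (u : (𝓞 K)ˣ) :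
    ((unitsSmul k K σ u : (𝓞 K)ˣ) : K) = σ (u : K) := rfl

theorem unitsSmul_one (u : (𝓞 K)ˣ) : unitsSmul k K 1 u = u := by
  apply Units.ext
  apply RingOfIntegers.ext
  rfl

theorem unitsSmul_mul (σ τ : Gal(K/k)) (u : (𝓞 K)ˣ) :
    unitsSmul k K (σ * τ) u = unitsSmul k K σ (unitsSmul k K τ u) := by
  apply Units.ext
  apply RingOfIntegers.ext
  rfl

theorem place_unitsSmul (σ : Gal(K/k)) (w : InfinitePlace K) (u : (𝓞 K)ˣ) :
    w ((unitsSmul k K σ u : (𝓞 K)ˣ) : K) = (σ⁻¹ • w) (u : K) := by
  rw [coe_unitsSmul, InfinitePlace.smul_apply]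
  rfl

end Action

section Units

variable (k K : Type*) [Field k] [Field K] [NumberField K] [Algebra k K] [FiniteDimensional k K]

open Classical in
/-- A unit attached to `w`, fixed by the stabiliser of `w`, with `log w' u < 0` for `w' ≠ w`. -/
theorem exists_fixed_unit (w : InfinitePlace K) :
    ∃ u : (𝓞 K)ˣ, (∀ τ : Gal(K/k), τ • w = w → unitsSmul k K τ u = u) ∧
      ∀ w' : InfinitePlace K, w' ≠ w → Real.log (w' (u : K)) < 0 := by
  obtain ⟨u₀, hu₀⟩ := dirichletUnitTheorem.exists_unit K w
  let D : Finset Gal(K/k) := Finset.univ.filter (fun d => d • w = w)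
  have hD : ∀ d, d ∈ D ↔ d • w = w := fun d => by simp [D]
  refine ⟨∏ d ∈ D, unitsSmul k K d u₀, ?_, ?_⟩
  · intro τ hτ
    rw [map_prod]
    refine Finset.prod_bij (fun d _ => τ * d) ?_ ?_ ?_ ?_
    · intro d hd
      rw [hD] at hd ⊢
      rw [mul_smul, hd, hτ]
    · intro a _ b _ hab
      exact mul_left_cancel hab
    · intro b hb
      refine ⟨τ⁻¹ * b, ?_, by simp⟩
      rw [hD] at hb ⊢
      rw [mul_smul, hb, inv_smul_eq_iff, hτ]
    · intro d _
      rw [unitsSmul_mul]
  · intro w' hw'
    have h1 : (w' (((∏ d ∈ D, unitsSmul k K d u₀ : (𝓞 K)ˣ)) : K)) =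
        ∏ d ∈ D, (d⁻¹ • w') (u₀ : K) := by
      rw [Units.coe_prod, map_prod, map_prod]
      refine Finset.prod_congr rfl fun d _ => ?_
      exact place_unitsSmul k K d w' u₀
    rw [h1, Real.log_prod (fun d _ => ?_)]
    · refine Finset.sum_neg' ?_ ?_
      · intro d hd
        refine (hu₀ (d⁻¹ • w') ?_).le
        intro h
        rw [hD] at hd
        apply hw'
        rw [inv_smul_eq_iff, hd] at h
        exact h
      · refine ⟨1, (hD 1).mpr (one_smul _ _), ?_⟩
        refine hu₀ ((1 : Gal(K/k))⁻¹ • w') ?_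
        rw [inv_one, one_smul]
        exact hw'
    · exact (pos_at_place u₀ _).ne'

/-- **Minkowski units**: a `Gal(K/k)`-equivariant family of units `ε w` with
`log w' (ε w) < 0` for all `w' ≠ w`. -/
theorem exists_equivariant_units :
    ∃ ε : InfinitePlace K → (𝓞 K)ˣ,
      (∀ (τ : Gal(K/k)) (w : InfinitePlace K), unitsSmul k K τ (ε w) = ε (τ • w)) ∧
      ∀ w w' : InfinitePlace K, w' ≠ w → Real.log (w' (ε w : K)) < 0 := by
  classical
  -- orbit representatives
  let r : InfinitePlace K → InfinitePlace K := fun w =>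
    (Quotient.mk (MulAction.orbitRel Gal(K/k) (InfinitePlace K)) w).out
  have hr : ∀ w, ∃ σ : Gal(K/k), σ • r w = w := by
    intro w
    have h : (MulAction.orbitRel Gal(K/k) (InfinitePlace K)) (r w) w := Quotient.mk_out w
    rw [MulAction.orbitRel_apply] at h
    obtain ⟨σ, hσ⟩ := h
    exact ⟨σ⁻¹, by rw [inv_smul_eq_iff]; exact hσ.symm⟩
  have hrτ : ∀ (τ : Gal(K/k)) w, r (τ • w) = r w := by
    intro τ w
    have : Quotient.mk (MulAction.orbitRel Gal(K/k) (InfinitePlace K)) (τ • w) =
        Quotient.mk (MulAction.orbitRel Gal(K/k) (InfinitePlace K)) w := by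
      apply Quotient.sound
      change (MulAction.orbitRel Gal(K/k) (InfinitePlace K)) (τ • w) w
      rw [MulAction.orbitRel_apply]
      exact ⟨τ, rfl⟩
    simp only [r, this]
  choose s hs using hr
  choose u hu1 hu2 using fun w => exists_fixed_unit k K w
  refine ⟨fun w => unitsSmul k K (s w) (u (r w)), ?_, ?_⟩
  · intro τ w
    simp only
    rw [hrτ τ w, ← unitsSmul_mul]
    have hfix : ((s (τ • w))⁻¹ * (τ * s w)) • r w = r w := by
      rw [mul_smul, mul_smul, hs w, inv_smul_eq_iff]
      conv_rhs => rw [← hrτ τ w]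
      rw [hs]
    have := hu1 (r w) _ hfix
    rw [unitsSmul_mul] at this
    have h2 := congrArg (unitsSmul k K (s (τ • w))) this
    rw [← unitsSmul_mul, mul_inv_cancel, unitsSmul_one] at h2
    exact h2
  · intro w w' hw'
    rw [place_unitsSmul]
    refine hu2 (r w) _ ?_
    intro h
    apply hw'
    rw [inv_smul_eq_iff, hs] at h
    exact h

end Units

section Lattice

open Fermat.Agent.TW.GlobalEC.SignKernel5

variable (K : Type*) [Field K] [NumberField K]

/-- The full logarithmic map `x ↦ (mult w * log w x)_w` on units. -/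
noncomputable def logFull : Additive (𝓞 K)ˣ →+ (InfinitePlace K → ℝ) where
  toFun x := fun w => (w.mult : ℝ) * Real.log (w ((Additive.toMul x : (𝓞 K)ˣ) : K))
  map_zero' := by
    funext w
    simp
  map_add' x y := by
    funext w
    simp only [toMul_add, Units.val_mul, map_mul, Pi.add_apply]
    rw [Real.log_mul (pos_at_place _ w).ne' (pos_at_place _ w).ne', mul_add]

omit [NumberField K] in
theorem logFull_apply (x : Additive (𝓞 K)ˣ) (w : InfinitePlace K) :
    logFull K x w = (w.mult : ℝ) * Real.log (w ((Additive.toMul x : (𝓞 K)ˣ) : K)) := rfl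

theorem sum_logFull (x : Additive (𝓞 K)ˣ) : ∑ w, logFull K x w = 0 :=
  sum_mult_mul_log (Additive.toMul x)

theorem finrank_units_lt : Module.finrank ℤ (Additive (𝓞 K)ˣ) < Fintype.card (InfinitePlace K) := by
  rw [Units.finrank_eq, Units.rank]
  have : 0 < Fintype.card (InfinitePlace K) := Fintype.card_pos
  omega

variable {K} in
omit [NumberField K] in
theorem logFull_neg {ε : InfinitePlace K → (𝓞 K)ˣ}
    (hε : ∀ w w' : InfinitePlace K, w' ≠ w → Real.log (w' (ε w : K)) < 0)
    (i j : InfinitePlace K) (hij : i ≠ j) : logFull K (Additive.ofMul (ε j)) i < 0 := by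
  rw [logFull_apply]
  refine mul_neg_of_pos_of_neg ?_ (hε j i hij)
  exact_mod_cast mult_pos

end Lattice

section Main

open Fermat.Agent.TW.GlobalEC.SignKernel5

variable (k K : Type*) [Field k] [Field K] [NumberField K] [Algebra k K] [FiniteDimensional k K]

/-- The action of an automorphism on the units, additively. -/
noncomputable def unitsSmulAdd (σ : Gal(K/k)) : Additive (𝓞 K)ˣ →+ Additive (𝓞 K)ˣ :=
  MonoidHom.toAdditive (unitsSmul k K σ)

omit [NumberField K] [FiniteDimensional k K] in
theorem unitsSmulAdd_apply (σ : Gal(K/k)) (x : Additive (𝓞 K)ˣ) :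
    unitsSmulAdd k K σ x = Additive.ofMul (unitsSmul k K σ (Additive.toMul x)) := rfl

omit [NumberField K] [FiniteDimensional k K] in
theorem unitsSmulAdd_one (x : Additive (𝓞 K)ˣ) : unitsSmulAdd k K 1 x = x := by
  rw [unitsSmulAdd_apply, unitsSmul_one]
  rfl

omit [NumberField K] [FiniteDimensional k K] in
theorem unitsSmulAdd_mul (σ τ : Gal(K/k)) (x : Additive (𝓞 K)ˣ) :
    unitsSmulAdd k K (σ * τ) x = unitsSmulAdd k K σ (unitsSmulAdd k K τ x) := by
  rw [unitsSmulAdd_apply, unitsSmul_mul]
  rfl

omit [NumberField K] [FiniteDimensional k K] in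
theorem unitsSmulAdd_injective (σ : Gal(K/k)) : Function.Injective (unitsSmulAdd k K σ) := by
  intro x y h
  have := congrArg (unitsSmulAdd k K σ⁻¹) h
  rwa [← unitsSmulAdd_mul, ← unitsSmulAdd_mul, inv_mul_cancel, unitsSmulAdd_one,
    unitsSmulAdd_one] at this

omit [NumberField K] [FiniteDimensional k K] in
/-- Equivariance of `phi` for an equivariant family. -/
theorem unitsSmulAdd_phi [Fintype (InfinitePlace K)] {ε : InfinitePlace K → (𝓞 K)ˣ}
    (hε : ∀ (τ : Gal(K/k)) (w : InfinitePlace K), unitsSmul k K τ (ε w) = ε (τ • w))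
    (τ : Gal(K/k)) (f : InfinitePlace K → ℤ) :
    unitsSmulAdd k K τ (phi (fun w => Additive.ofMul (ε w)) f) =
      phi (fun w => Additive.ofMul (ε w)) (fun w => f (τ⁻¹ • w)) := by
  rw [phi_apply, phi_apply, map_sum]
  refine Fintype.sum_equiv (MulAction.toPerm τ) _ _ fun w => ?_
  rw [map_zsmul, unitsSmulAdd_apply, toMul_ofMul, hε, MulAction.toPerm_apply, inv_smul_smul]

/-- **Main theorem on units** (Minkowski form of Dirichlet's unit theorem, equivariant):
there is a `Gal(K/k)`-equivariant family `ε` of units indexed by the infinite places whose relation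
lattice is `ℤ • c` for a strictly positive `Gal(K/k)`-invariant vector `c`, and which generates a
subgroup of finite index of the units. -/
theorem units_main :
    ∃ (ε : InfinitePlace K → (𝓞 K)ˣ) (c : InfinitePlace K → ℤ),
      (∀ (τ : Gal(K/k)) (w : InfinitePlace K), unitsSmul k K τ (ε w) = ε (τ • w)) ∧
      (∀ w, 0 < c w) ∧
      (∀ (τ : Gal(K/k)) (w : InfinitePlace K), c (τ • w) = c w) ∧
      (∀ f : InfinitePlace K → ℤ,
        phi (fun w => Additive.ofMul (ε w)) f = 0 ↔ ∃ a : ℤ, f = a • c) ∧
      Finite (Additive (𝓞 K)ˣ ⧸ (phi (fun w => Additive.ofMul (ε w))).range) := by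
  classical
  obtain ⟨ε, hε1, hε2⟩ := exists_equivariant_units k K
  have hneg := logFull_neg hε2
  obtain ⟨c, hc, hgen⟩ := exists_pos_generator (logFull K) (sum_logFull K)
    (fun w => Additive.ofMul (ε w)) hneg (finrank_units_lt K)
  refine ⟨ε, c, hε1, hc, ?_, hgen, ?_⟩
  · intro τ w
    have hinv := generator_invariant (fun w => Additive.ofMul (ε w)) hc hgen
      (MulAction.toPerm τ) ?_
    · exact congrFun hinv w
    · intro f hf
      apply unitsSmulAdd_injective k K τ
      rw [unitsSmulAdd_phi k K hε1, map_zero, ← hf]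
      congr 1
      funext w
      simp
  · exact finite_quotient_range (logFull K) (sum_logFull K)
      (fun w => Additive.ofMul (ε w)) hneg (finrank_units_lt K)

end Main

end Fermat.Agent.TW.GlobalEC.MinkowskiUnit5
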