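/-
TW / WP4 (global Euler characteristic), brick EC5d (helper5): the `S`-units as a Galois module.

`L/K` a Galois extension of number fields, `G = Gal(L/K)`, `T` a finite set of primes of `K`,
`T_L = above T` the primes of `L` above `T`, `U = sUnit L T_L` the `T_L`-units of `L`
(`PT/GLOB/SUnits24`, action `SUnitsGalois24.sUnitSmul`).  Object level:

* `valLin_sUnitSmul`, `unitsLin_unitsSmulAdd`: the sequence
  `0 → 𝓞_Lˣ → U → ℤ[T_L]` (`SUnits24.unitsLin`, `SUnits24.valLin`) is `G`-equivariant; it is exact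
  (`SUnits24.ker_valLin`, `unitsLin_injective`) and the last map has finite cokernel
  (`finite_coker_valLin`);
* `MinkowskiUnit5.units_main`: an equivariant `ℤ[S_∞(L)] → 𝓞_Lˣ` with finite cokernel and kernel
  `ℤ • c`, `c` invariant.

Export (`euler_sUnit`): for every invariant `h` of `ℤ[G]`-modules which is additive on short exact
sequences of finitely generated modules and vanishes on finite modules,
`h(U) + h(ℤ) = h(ℤ[T_L]) + h(ℤ[S_∞(L)])`.
-/
import Mathlib
import Fermat.Agent.PT.GLOB.SUnits24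
import Fermat.Agent.PT.GLOB.PrimesAbove24
import Fermat.Agent.PT.GLOB.SUnitsGalois24
import Fermat.Agent.TW.GlobalEC.SignKernel5
import Fermat.Agent.TW.GlobalEC.MinkowskiUnit5
import Fermat.Agent.TW.GlobalEC.AddInvariant5

set_option autoImplicit false
set_option linter.unusedSectionVars false

namespace Fermat.Agent.TW.GlobalEC.SUnitSeq5

open NumberField IsDedekindDomain HeightOneSpectrum Module
open Fermat.Agent.PT.GLOB.SUnits24 Fermat.Agent.PT.GLOB.PrimesAbove24
open Fermat.Agent.PT.GLOB.SUnitsGalois24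
open Fermat.Agent.TW.GlobalEC.SignKernel5 Fermat.Agent.TW.GlobalEC.MinkowskiUnit5
open Fermat.Agent.TW.GlobalEC.AddInvariant5

section Coker

variable (L : Type*) [Field L] [NumberField L] (S : Finset (HeightOneSpectrum (𝓞 L)))

/-- The valuation map on `S`-units has finite cokernel. -/
theorem finite_coker_valLin : Finite ((S → ℤ) ⧸ LinearMap.range (valLin L S)) := by
  apply Module.finite_of_fg_torsion
  intro y
  obtain ⟨f, rfl⟩ := Submodule.Quotient.mk_surjective _ y
  refine ⟨⟨(Nat.card (ClassGroup (𝓞 L)) : ℤ),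
    mem_nonZeroDivisors_of_ne_zero (by exact_mod_cast Nat.card_pos.ne')⟩, ?_⟩
  rw [Submonoid.mk_smul, ← Submodule.Quotient.mk_smul, Submodule.Quotient.mk_eq_zero,
    natCast_zsmul]
  exact card_smul_mem_range_valLin L S f

end Coker

section Objects

variable (K L : Type*) [Field K] [Field L] [NumberField K] [NumberField L] [Algebra K L]
  [IsGalois K L] (T : Finset (HeightOneSpectrum (𝓞 K)))

/-- The Galois action on the primes of `L` above `T`. -/
noncomputable def primeSmul (σ : L ≃ₐ[K] L) (w : above (𝓞 K) (𝓞 L) T) :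
    above (𝓞 K) (𝓞 L) T :=
  ⟨smulH K L σ w.1, (smulH_mem_above K L T σ w.1).mpr w.2⟩

theorem primeSmul_one (w : above (𝓞 K) (𝓞 L) T) : primeSmul K L T 1 w = w :=
  Subtype.ext (smulH_one K L w.1)

theorem primeSmul_mul (σ τ : L ≃ₐ[K] L) (w : above (𝓞 K) (𝓞 L) T) :
    primeSmul K L T (σ * τ) w = primeSmul K L T σ (primeSmul K L T τ w) :=
  Subtype.ext (smulH_smulH K L σ τ w.1).symm

/-- The valuation map is equivariant. -/
theorem valLin_sUnitSmul (σ : L ≃ₐ[K] L) (x : sUnit L (above (𝓞 K) (𝓞 L) T))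
    (w : above (𝓞 K) (𝓞 L) T) :
    valLin L (above (𝓞 K) (𝓞 L) T) (Additive.ofMul (sUnitSmul K L T σ x)) w =
      valLin L (above (𝓞 K) (𝓞 L) T) (Additive.ofMul x) (primeSmul K L T σ⁻¹ w) := by
  rw [valLin_apply, valLin_apply, toMul_ofMul, toMul_ofMul, valHom_apply, valHom_apply]
  congr 1
  apply WithZero.coe_injective
  rw [coe_ordHom, coe_ordHom]
  exact valuation_apply_galois K L σ w.1 _

/-- The inclusion of the units into the `T_L`-units is equivariant. -/
theorem unitsLin_unitsSmulAdd (σ : L ≃ₐ[K] L) (u : Additive (𝓞 L)ˣ) :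
    unitsLin L (above (𝓞 K) (𝓞 L) T) (unitsSmulAdd K L σ u) =
      Additive.ofMul (sUnitSmul K L T σ
        (Additive.toMul (unitsLin L (above (𝓞 K) (𝓞 L) T) u))) := by
  rw [unitsLin_apply, unitsLin_apply]
  apply congrArg Additive.ofMul
  apply sUnit_ext
  rw [coe_sUnitSmul, toMul_ofMul, coe_unitsToSUnit, coe_unitsToSUnit]
  rfl

/-! ### The four representations -/

/-- The representation of `Gal(L/K)` on the `T_L`-units. -/
noncomputable def sUnitRho :
    Representation ℤ (L ≃ₐ[K] L) (Additive (sUnit L (above (𝓞 K) (𝓞 L) T))) where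
  toFun σ := (MonoidHom.toAdditive (sUnitSmul K L T σ)).toIntLinearMap
  map_one' := LinearMap.ext fun x =>
    congrArg Additive.ofMul (sUnitSmul_one K L T (Additive.toMul x))
  map_mul' σ τ := LinearMap.ext fun x =>
    congrArg Additive.ofMul (sUnitSmul_mul K L T σ τ (Additive.toMul x))

theorem sUnitRho_apply (σ : L ≃ₐ[K] L) (x : Additive (sUnit L (above (𝓞 K) (𝓞 L) T))) :
    sUnitRho K L T σ x = Additive.ofMul (sUnitSmul K L T σ (Additive.toMul x)) := rfl

/-- The representation of `Gal(L/K)` on the units of `L`. -/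
noncomputable def unitsRho : Representation ℤ (L ≃ₐ[K] L) (Additive (𝓞 L)ˣ) where
  toFun σ := (unitsSmulAdd K L σ).toIntLinearMap
  map_one' := LinearMap.ext fun x => unitsSmulAdd_one K L x
  map_mul' σ τ := LinearMap.ext fun x => unitsSmulAdd_mul K L σ τ x

theorem unitsRho_apply (σ : L ≃ₐ[K] L) (x : Additive (𝓞 L)ˣ) :
    unitsRho K L σ x = unitsSmulAdd K L σ x := rfl

/-- The permutation representation on the primes above `T`: `(σ f) w = f (σ⁻¹ w)`. -/
noncomputable def primesRho : Representation ℤ (L ≃ₐ[K] L) (above (𝓞 K) (𝓞 L) T → ℤ) where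
  toFun σ := LinearMap.funLeft ℤ ℤ (primeSmul K L T σ⁻¹)
  map_one' := by
    ext f w
    simp [LinearMap.funLeft_apply, primeSmul_one]
  map_mul' σ τ := by
    ext f w
    simp [LinearMap.funLeft_apply, primeSmul_mul, mul_inv_rev]

theorem primesRho_apply (σ : L ≃ₐ[K] L) (f : above (𝓞 K) (𝓞 L) T → ℤ)
    (w : above (𝓞 K) (𝓞 L) T) : primesRho K L T σ f w = f (primeSmul K L T σ⁻¹ w) := rfl

/-- The permutation representation on the infinite places: `(σ f) w = f (σ⁻¹ w)`. -/
noncomputable def placesRho : Representation ℤ (L ≃ₐ[K] L) (InfinitePlace L → ℤ) where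
  toFun σ := LinearMap.funLeft ℤ ℤ (fun w => σ⁻¹ • w)
  map_one' := by
    ext f w
    simp [LinearMap.funLeft_apply]
  map_mul' σ τ := by
    ext f w
    simp [LinearMap.funLeft_apply, mul_inv_rev, mul_smul]

theorem placesRho_apply (σ : L ≃ₐ[K] L) (f : InfinitePlace L → ℤ) (w : InfinitePlace L) :
    placesRho K L σ f w = f (σ⁻¹ • w) := rfl

end Objects

section Export

variable (K L : Type) [Field K] [Field L] [NumberField K] [NumberField L] [Algebra K L]
  [IsGalois K L] (T : Finset (HeightOneSpectrum (𝓞 K)))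

/-- The `T_L`-units as a `ℤ[Gal(L/K)]`-module. -/
noncomputable abbrev sUnitRep : Rep.{0} ℤ (L ≃ₐ[K] L) := Rep.of (sUnitRho K L T)

/-- The units of `L` as a `ℤ[Gal(L/K)]`-module. -/
noncomputable abbrev unitsRep : Rep.{0} ℤ (L ≃ₐ[K] L) := Rep.of (unitsRho K L)

/-- The permutation module on the primes of `L` above `T`. -/
noncomputable abbrev primesRep : Rep.{0} ℤ (L ≃ₐ[K] L) := Rep.of (primesRho K L T)

/-- The permutation module on the infinite places of `L`. -/
noncomputable abbrev placesRep : Rep.{0} ℤ (L ≃ₐ[K] L) := Rep.of (placesRho K L)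

/-- **Units**: `h(ℤ[S_∞(L)]) = h(ℤ) + h(𝓞_Lˣ)`. -/
theorem euler_units (h : Rep.{0} ℤ (L ≃ₐ[K] L) → ℤ) (hadd : IsAdditiveRep h)
    (hfin : VanishesOnFinite h) :
    h (placesRep K L) = h (Rep.trivial ℤ (L ≃ₐ[K] L) ℤ) + h (unitsRep K L) := by
  classical
  obtain ⟨ε, c, hε, hc, hcinv, hgen, hfinq⟩ := units_main K L
  refine eq_add_of_exact_of_finite_coker hadd hfin (Rep.trivial ℤ (L ≃ₐ[K] L) ℤ)
    (placesRep K L) (unitsRep K L)
    (LinearMap.toSpanSingleton ℤ (InfinitePlace L → ℤ) c)
    (phi (fun w => Additive.ofMul (ε w))).toIntLinearMap ?_ ?_ ?_ ?_ ?_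
  · intro g n
    funext w
    change n • c w = n • c (g⁻¹ • w)
    rw [hcinv]
  · intro g f
    change phi (fun w => Additive.ofMul (ε w)) (fun w => f (g⁻¹ • w)) =
      unitsSmulAdd K L g (phi (fun w => Additive.ofMul (ε w)) f)
    rw [unitsSmulAdd_phi K L hε]
  · intro a b hab
    obtain ⟨w⟩ := (inferInstance : Nonempty (InfinitePlace L))
    have := congrFun hab w
    simp only [LinearMap.toSpanSingleton_apply, Pi.smul_apply, smul_eq_mul] at this
    exact mul_right_cancel₀ (hc w).ne' this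
  · intro f
    change phi (fun w => Additive.ofMul (ε w)) f = 0 ↔ _
    rw [hgen f]
    constructor
    · rintro ⟨a, rfl⟩
      exact ⟨a, rfl⟩
    · rintro ⟨a, rfl⟩
      exact ⟨a, rfl⟩
  · have : LinearMap.range (phi (fun w => Additive.ofMul (ε w))).toIntLinearMap =
        (phi (fun w => Additive.ofMul (ε w))).range.toIntSubmodule := by
      ext x
      simp
    rw [this]
    exact hfinq

/-- **`S`-units**: `h(U_{T_L}) = h(𝓞_Lˣ) + h(ℤ[T_L])`. -/
theorem euler_sUnit_units (h : Rep.{0} ℤ (L ≃ₐ[K] L) → ℤ) (hadd : IsAdditiveRep h)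
    (hfin : VanishesOnFinite h) :
    h (sUnitRep K L T) = h (unitsRep K L) + h (primesRep K L T) := by
  refine eq_add_of_exact_of_finite_coker hadd hfin (unitsRep K L) (sUnitRep K L T)
    (primesRep K L T) (unitsLin L (above (𝓞 K) (𝓞 L) T)) (valLin L (above (𝓞 K) (𝓞 L) T))
    ?_ ?_ ?_ ?_ ?_
  · intro g u
    exact unitsLin_unitsSmulAdd K L T g u
  · intro g x
    funext w
    exact valLin_sUnitSmul K L T g (Additive.toMul x) w
  · exact unitsLin_injective L _
  · exact LinearMap.exact_iff.mpr (ker_valLin L _)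
  · exact finite_coker_valLin L _

/-- **The `S`-units as a Galois module** (export of brick EC5d): for every invariant `h` of
`ℤ[Gal(L/K)]`-modules which is additive on short exact sequences of finitely generated modules
and vanishes on finite modules,
`h(U_{T_L}) + h(ℤ) = h(ℤ[T_L]) + h(ℤ[S_∞(L)])`. -/
theorem euler_sUnit (h : Rep.{0} ℤ (L ≃ₐ[K] L) → ℤ) (hadd : IsAdditiveRep h)
    (hfin : VanishesOnFinite h) :
    h (sUnitRep K L T) + h (Rep.trivial ℤ (L ≃ₐ[K] L) ℤ) =
      h (primesRep K L T) + h (placesRep K L) := by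
  have h1 := euler_units K L h hadd hfin
  have h2 := euler_sUnit_units K L T h hadd hfin
  omega

end Export

end Fermat.Agent.TW.GlobalEC.SUnitSeq5
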