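/-
TW / WP4 (global Euler characteristic), brick EC5d, final form (helper5).

`L/K` Galois extension of number fields (types in universe 0), `G = Gal(L/K)`, `T` a finite set of
primes of `K`, `U = sUnitRep K L T` the `T_L`-units of `L` as a `ℤ[G]`-module (`SUnitSeq5`), `p` a
prime.  For every `e : Rep (ZMod p) G → ℤ` additive on short exact sequences
(`Spec26.IsAdditive`), with `hE p e X = e (X/pX) - e (X[p])` (`HP5`):

  `hE p e U + e (𝔽_p) = e (𝔽_p[T_L]) + e (𝔽_p[S_∞(L)])`            (`hE_sUnit`)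

and for a finite-dimensional projective `𝔽_p[G]`-module `P` (`Spec26.IsProjRep`), with
`hP p P X = dim Hom_G(P, X/pX) - dim Hom_G(P, X[p])`:

  `hP p P U = dim Hom_G(P, 𝔽_p[T_L]) + dim Hom_G(P, 𝔽_p[S_∞(L)]) - dim Hom_G(P, 𝔽_p)`  (`hP_sUnit`).
-/
import Mathlib
import Fermat.Agent.TW.GlobalEC.SUnitSeq5
import Fermat.Agent.TW.GlobalEC.HP5
import Fermat.Agent.TW.GlobalEC.HomExact5

set_option autoImplicit false
set_option linter.unusedSectionVars false

namespace Fermat.Agent.TW.GlobalEC.SUnitHP5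

open NumberField IsDedekindDomain HeightOneSpectrum Module
open Fermat.Agent.PT.GLOB.SUnits24 Fermat.Agent.PT.GLOB.PrimesAbove24
open Fermat.Agent.PT.GLOB.SUnitsGalois24
open Fermat.Agent.TW.GlobalEC.Spec26 Fermat.Agent.TW.GlobalEC.SpecB26
open Fermat.Agent.TW.GlobalEC.AddInvariant5 Fermat.Agent.TW.GlobalEC.LongExact5
open Fermat.Agent.TW.GlobalEC.ModPSeq5 Fermat.Agent.TW.GlobalEC.HP5
open Fermat.Agent.TW.GlobalEC.HomExact5 Fermat.Agent.TW.GlobalEC.SUnitSeq5

section Reduction

variable {G : Type} [Group G] (p : ℕ) [Fact p.Prime] {e : Rep.{0} (ZMod p) G → ℤ}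

/-- If `X` has no `p`-torsion and `r : X → Y` is an equivariant surjection onto an
`𝔽_p[G]`-module with kernel `pX`, then `hE p e X = e Y`. -/
theorem hE_eq_of_reduction {R : Type} [CommRing R] (he : IsAdditive e) (X : Rep.{0} R G)
    (Y : Rep.{0} (ZMod p) G) [FiniteDimensional (ZMod p) Y] (r : X →+ Y)
    (hr : ∀ g x, r (X.ρ g x) = Y.ρ g (r x)) (hsurj : Function.Surjective r)
    (hker : ∀ x, r x = 0 ↔ ∃ y : X, p • y = x) (htf : ∀ x : X, p • x = 0 → x = 0) :
    hE p e X = e Y := by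
  have h1 : Subsingleton (pTorsionRep p X) := by
    refine ⟨fun a b => ?_⟩
    apply pTorsionRep.val_injective
    rw [htf _ (pTorsionRep.nsmul_val p X a), htf _ (pTorsionRep.nsmul_val p X b)]
  let f : modPRep p X →+ Y :=
    QuotientAddGroup.lift (pMulSub p X) r (fun x hx => (hker x).mpr hx)
  have hf : ∀ x, f (modPRep.mk p X x) = r x := fun x => rfl
  have h2 : e (modPRep p X) = e Y := by
    refine eq_of_bijective he (modPRep p X) Y (f.toZModLinearMap p) ?_ ⟨?_, ?_⟩
    · intro g x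
      obtain ⟨x, rfl⟩ := modPRep.mk_surjective p X x
      change f ((modPRep p X).ρ g (modPRep.mk p X x)) = Y.ρ g (f (modPRep.mk p X x))
      rw [modPRep.mk_ρ, hf, hf, hr]
    · intro a b hab
      obtain ⟨x, rfl⟩ := modPRep.mk_surjective p X a
      obtain ⟨y, rfl⟩ := modPRep.mk_surjective p X b
      have hab' : r x = r y := hab
      rw [mk_eq_mk_iff, ← hker, map_sub, hab', sub_self]
    · intro y
      obtain ⟨x, rfl⟩ := hsurj y
      exact ⟨modPRep.mk p X x, rfl⟩
  unfold hE
  rw [eq_zero_of_subsingleton he (pTorsionRep p X), h2, sub_zero]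

/-- The permutation representation on functions `Ω → S` attached to an action `act` of `G` on
`Ω`: `(g f) w = f (g⁻¹ w)`. -/
def funRho (S : Type) [CommRing S] {Ω : Type} (act : G → Ω → Ω) (h1 : ∀ w, act 1 w = w)
    (hmul : ∀ g h w, act (g * h) w = act g (act h w)) : Representation S G (Ω → S) where
  toFun g := LinearMap.funLeft S S (act g⁻¹)
  map_one' := by
    ext f w
    simp [LinearMap.funLeft_apply, h1]
  map_mul' g h := by
    ext f w
    simp [LinearMap.funLeft_apply, hmul, mul_inv_rev]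

theorem funRho_apply (S : Type) [CommRing S] {Ω : Type} (act : G → Ω → Ω) (h1 : ∀ w, act 1 w = w)
    (hmul : ∀ g h w, act (g * h) w = act g (act h w)) (g : G) (f : Ω → S) (w : Ω) :
    funRho S act h1 hmul g f w = f (act g⁻¹ w) := rfl

/-- `hE` of a permutation lattice. -/
theorem hE_funRep (he : IsAdditive e) {Ω : Type} [Finite Ω] (act : G → Ω → Ω)
    (h1 : ∀ w, act 1 w = w) (hmul : ∀ g h w, act (g * h) w = act g (act h w))
    (ρ : Representation ℤ G (Ω → ℤ)) (hρ : ∀ g f w, ρ g f w = f (act g⁻¹ w)) :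
    hE p e (Rep.of ρ) = e (Rep.of (funRho (ZMod p) act h1 hmul)) := by
  have : FiniteDimensional (ZMod p) (Rep.of (funRho (ZMod p) act h1 hmul)) :=
    inferInstanceAs (FiniteDimensional (ZMod p) (Ω → ZMod p))
  let r : (Ω → ℤ) →+ (Ω → ZMod p) :=
    { toFun := fun f w => ((f w : ℤ) : ZMod p)
      map_zero' := by
        funext w
        simp
      map_add' := fun f f' => by
        funext w
        simp }
  refine hE_eq_of_reduction p he (Rep.of ρ) (Rep.of (funRho (ZMod p) act h1 hmul)) r ?_ ?_ ?_ ?_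
  · intro g f
    funext w
    change ((ρ g f w : ℤ) : ZMod p) = _
    rw [hρ]
    rfl
  · intro u
    refine ⟨fun w => ((u w).val : ℤ), ?_⟩
    funext w
    change (((u w).val : ℤ) : ZMod p) = u w
    simp
  · intro f
    constructor
    · intro h0
      have hdvd : ∀ w, (p : ℤ) ∣ f w := by
        intro w
        have := congrFun h0 w
        exact (ZMod.intCast_zmod_eq_zero_iff_dvd (f w) p).mp this
      choose f' hf' using hdvd
      refine ⟨f', ?_⟩
      funext w
      change p • f' w = f w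
      rw [hf' w, nsmul_eq_mul]
    · rintro ⟨f', rfl⟩
      funext w
      change (((p • f') w : ℤ) : ZMod p) = 0
      simp
  · intro f hf
    funext w
    have := congrFun hf w
    change p • f w = 0 at this
    rw [nsmul_eq_mul] at this
    rcases mul_eq_zero.mp this with h | h
    · exact absurd h (by exact_mod_cast (Fact.out : p.Prime).ne_zero)
    · exact h

/-- `hE` of the trivial module `ℤ`. -/
theorem hE_trivial (he : IsAdditive e) :
    hE p e (Rep.trivial ℤ G ℤ) = e (trivRep p G) := by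
  have : FiniteDimensional (ZMod p) (trivRep p G) :=
    inferInstanceAs (FiniteDimensional (ZMod p) (ZMod p))
  refine hE_eq_of_reduction p he (Rep.trivial ℤ G ℤ) (trivRep p G) (Int.castAddHom (ZMod p))
    ?_ ?_ ?_ ?_
  · intro g x
    rfl
  · intro u
    refine ⟨((show ZMod p from u).val : ℤ), ?_⟩
    change ((((show ZMod p from u).val : ℕ) : ℤ) : ZMod p) = u
    rw [Int.cast_natCast, ZMod.natCast_zmod_val]
  · intro x
    change ((x : ℤ) : ZMod p) = 0 ↔ _
    rw [ZMod.intCast_zmod_eq_zero_iff_dvd]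
    constructor
    · rintro ⟨y, rfl⟩
      exact ⟨y, by rw [nsmul_eq_mul]⟩
    · rintro ⟨y, rfl⟩
      exact ⟨y, by rw [nsmul_eq_mul]⟩
  · intro x hx
    change p • x = 0 at hx
    rw [nsmul_eq_mul] at hx
    rcases mul_eq_zero.mp hx with h | h
    · exact absurd h (by exact_mod_cast (Fact.out : p.Prime).ne_zero)
    · exact h

end Reduction

section Final

variable (K L : Type) [Field K] [Field L] [NumberField K] [NumberField L] [Algebra K L]
  [IsGalois K L] (T : Finset (HeightOneSpectrum (𝓞 K))) (p : ℕ) [Fact p.Prime]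

/-- `𝔽_p[T_L]`: the permutation module over `ZMod p` on the primes of `L` above `T`. -/
noncomputable def primesRepP : Rep.{0} (ZMod p) (L ≃ₐ[K] L) :=
  Rep.of (funRho (ZMod p) (primeSmul K L T) (primeSmul_one K L T) (primeSmul_mul K L T))

/-- `𝔽_p[S_∞(L)]`: the permutation module over `ZMod p` on the infinite places of `L`. -/
noncomputable def placesRepP : Rep.{0} (ZMod p) (L ≃ₐ[K] L) :=
  Rep.of (funRho (ZMod p) (fun (σ : L ≃ₐ[K] L) (w : InfinitePlace L) => σ • w)
    (fun w => one_smul _ w) (fun σ τ w => mul_smul σ τ w))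

theorem primesRepP_ρ_apply (σ : L ≃ₐ[K] L) (f : above (𝓞 K) (𝓞 L) T → ZMod p)
    (w : above (𝓞 K) (𝓞 L) T) :
    (show above (𝓞 K) (𝓞 L) T → ZMod p from (primesRepP K L T p).ρ σ f) w =
      f (primeSmul K L T σ⁻¹ w) := rfl

theorem placesRepP_ρ_apply (σ : L ≃ₐ[K] L) (f : InfinitePlace L → ZMod p) (w : InfinitePlace L) :
    (show InfinitePlace L → ZMod p from (placesRepP K L p).ρ σ f) w = f (σ⁻¹ • w) := rfl

variable {p}

/-- **EC5d, general additive form.** -/
theorem hE_sUnit {e : Rep.{0} (ZMod p) (L ≃ₐ[K] L) → ℤ} (he : IsAdditive e) :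
    hE p e (sUnitRep K L T) + e (trivRep p (L ≃ₐ[K] L)) =
      e (primesRepP K L T p) + e (placesRepP K L p) := by
  have h1 := euler_sUnit K L T (fun X => hE p e X) (isAdditiveRep_hE p he)
    (vanishesOnFinite_hE p he)
  have h2 : hE p e (Rep.trivial ℤ (L ≃ₐ[K] L) ℤ) = e (trivRep p (L ≃ₐ[K] L)) := hE_trivial p he
  have h3 : hE p e (primesRep K L T) = e (primesRepP K L T p) :=
    hE_funRep p he (primeSmul K L T) (primeSmul_one K L T) (primeSmul_mul K L T)
      (primesRho K L T) (fun _ _ _ => rfl)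
  have h4 : hE p e (placesRep K L) = e (placesRepP K L p) :=
    hE_funRep p he (fun (σ : L ≃ₐ[K] L) (w : InfinitePlace L) => σ • w)
      (fun w => one_smul _ w) (fun σ τ w => mul_smul σ τ w) (placesRho K L) (fun _ _ _ => rfl)
  omega

/-- The invariant `h_P X = dim Hom_G(P, X/pX) - dim Hom_G(P, X[p])`. -/
noncomputable def hP {G R : Type} [Group G] [CommRing R] (p : ℕ) [Fact p.Prime]
    (P : Rep.{0} (ZMod p) G) (X : Rep.{0} R G) : ℤ :=
  (eqHomRank P (modPRep p X) : ℤ) - (eqHomRank P (pTorsionRep p X) : ℤ)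

theorem hP_eq_hE {G R : Type} [Group G] [CommRing R] (p : ℕ) [Fact p.Prime]
    (P : Rep.{0} (ZMod p) G) (X : Rep.{0} R G) :
    hP p P X = hE p (fun Y => (eqHomRank P Y : ℤ)) X := rfl

/-- **EC5d**: the `S`-units as a Galois module, `h_P` form.  For a finite-dimensional projective
`𝔽_p[Gal(L/K)]`-module `P`:
`h_P(U_{T_L}) = dim Hom(P, 𝔽_p[T_L]) + dim Hom(P, 𝔽_p[S_∞(L)]) - dim Hom(P, 𝔽_p)`. -/
theorem hP_sUnit (P : Rep.{0} (ZMod p) (L ≃ₐ[K] L)) [FiniteDimensional (ZMod p) P]
    (hproj : IsProjRep P) :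
    hP p P (sUnitRep K L T) =
      (eqHomRank P (primesRepP K L T p) : ℤ) + (eqHomRank P (placesRepP K L p) : ℤ) -
        (eqHomRank P (trivRep p (L ≃ₐ[K] L)) : ℤ) := by
  have := hE_sUnit K L T (isAdditive_eqHomRank P hproj)
  rw [hP_eq_hE]
  omega

end Final

end Fermat.Agent.TW.GlobalEC.SUnitHP5
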