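/-
TW / WP4 (global Euler characteristic), brick EC5d in the FINAL encoding of `SpecC26` (helper5).

`T` a finite set of rational primes, `L/K` Galois extension of number fields, `G = Gal(L/K)`,
`E_T(L) = ker (divT T L)` the `T`-units of `L` in the model of `Interface23` (with the Galois
action `IdeleSeq59.instActionUnitsT`), `repUnitsT T K L = Rep.ofMulDistribMulAction G E_T(L)`.
For a prime `p` and a finite-dimensional projective `𝔽_p[G]`-module `P`:

  `IsPFinite p (repUnitsT T K L)` and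
  `hP p P (repUnitsT T K L) + dim Hom_G(P, 𝔽_p)
      = ∑ q ∈ T, dim Hom_G(P, 𝔽_p[primes of L above q]) + dim Hom_G(P, 𝔽_p[S_∞(L)])`

with `𝔽_p[Ω] = Rep.ofMulAction (ZMod p) G Ω` (`ec5d`); also for any additive `e` (`ec5d_additive`).
-/
import Mathlib
import Fermat.Agent.TW.GlobalEC.SpecC26
import Fermat.Agent.TW.GlobalEC.SUnitHP5
import Fermat.Agent.TW.GlobalEC.PrimesDecomp5
import Fermat.Agent.TW.GlobalEC.IdeleSeq59

set_option autoImplicit false
set_option linter.unusedSectionVars false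

namespace Fermat.Agent.TW.GlobalEC.EC5dFinal5

open NumberField IsDedekindDomain HeightOneSpectrum Module
open Fermat.Agent.PT.GLOB.Interface23 Fermat.Agent.PT.GLOB.UnitsBridge24
open Fermat.Agent.PT.GLOB.SUnits24 Fermat.Agent.PT.GLOB.PrimesAbove24
open Fermat.Agent.PT.GLOB.SUnitsGalois24
open Fermat.Agent.TW.GlobalEC.Spec26 Fermat.Agent.TW.GlobalEC.SpecB26
open Fermat.Agent.TW.GlobalEC.AddInvariant5 Fermat.Agent.TW.GlobalEC.LongExact5
open Fermat.Agent.TW.GlobalEC.HP5 Fermat.Agent.TW.GlobalEC.HomExact5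
open Fermat.Agent.TW.GlobalEC.SUnitSeq5 Fermat.Agent.TW.GlobalEC.SUnitHP5
open Fermat.Agent.TW.GlobalEC.PermSum5 Fermat.Agent.TW.GlobalEC.PrimesDecomp5
open Fermat.Agent.TW.GlobalEC.IdeleSeq59

variable (T : Finset Nat.Primes)
variable (K L : Type) [Field K] [Field L] [NumberField K] [NumberField L] [Algebra K L]
  [IsGalois K L]

/-- The `T`-units `E_T(L) = ker (divT T L)` of `Interface23` as a `ℤ[Gal(L/K)]`-module. -/
noncomputable abbrev repUnitsT : Rep.{0} ℤ (L ≃ₐ[K] L) :=
  Rep.ofMulDistribMulAction (L ≃ₐ[K] L) (divT T L).ker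

/-- The bridge `E_T(L) → U_{L, T_L}` (identity on underlying elements), additively. -/
noncomputable def bridgeAdd :
    Additive (divT T L).ker →+ Additive (sUnit L (above (𝓞 K) (𝓞 L) (primesOverT T K))) :=
  MonoidHom.toAdditive (unitsTEquiv T K L).toMonoidHom

theorem bridgeAdd_apply (x : Additive (divT T L).ker) :
    bridgeAdd T K L x = Additive.ofMul (unitsTEquiv T K L (Additive.toMul x)) := rfl

theorem bridgeAdd_bijective : Function.Bijective (bridgeAdd T K L) :=
  (unitsTEquiv T K L).bijective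

theorem unitsTEquiv_smul (σ : L ≃ₐ[K] L) (y : (divT T L).ker) :
    unitsTEquiv T K L (σ • y) = sUnitSmul K L (primesOverT T K) σ (unitsTEquiv T K L y) := by
  apply sUnit_ext
  rfl

/-- The bridge as a linear map between the representations. -/
noncomputable def bridgeLin :
    repUnitsT T K L →ₗ[ℤ] sUnitRep K L (primesOverT T K) :=
  (bridgeAdd T K L).toIntLinearMap

theorem bridgeLin_comm (σ : L ≃ₐ[K] L) (x : repUnitsT T K L) :
    bridgeLin T K L ((repUnitsT T K L).ρ σ x) =
      (sUnitRep K L (primesOverT T K)).ρ σ (bridgeLin T K L x) := by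
  change Additive.ofMul (unitsTEquiv T K L
      (σ • Additive.toMul (show Additive (divT T L).ker from x))) =
    Additive.ofMul (sUnitSmul K L (primesOverT T K) σ
      (unitsTEquiv T K L (Additive.toMul (show Additive (divT T L).ker from x))))
  rw [unitsTEquiv_smul]

theorem finite_repUnitsT :
    @Module.Finite ℤ (repUnitsT T K L) _ _ (repUnitsT T K L).hV2 := by
  let e : sUnitRep K L (primesOverT T K) ≃ₗ[ℤ] repUnitsT T K L :=
    (LinearEquiv.ofBijective (bridgeLin T K L) (bridgeAdd_bijective T K L)).symm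
  exact Module.Finite.equiv e

section Main

variable (p : ℕ) [Fact p.Prime] {e : Rep.{0} (ZMod p) (L ≃ₐ[K] L) → ℤ}

/-- `hE` of the two models of the `T`-units agree. -/
theorem hE_repUnitsT (he : IsAdditive e) :
    hE p e (repUnitsT T K L) = hE p e (sUnitRep K L (primesOverT T K)) := by
  have := finite_repUnitsT T K L
  exact AddInvariant5.eq_of_bijective (isAdditiveRep_hE p he) (vanishesOnFinite_hE p he)
    (repUnitsT T K L) (sUnitRep K L (primesOverT T K)) (bridgeLin T K L) (bridgeLin_comm T K L)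
    (bridgeAdd_bijective T K L)

/-- The primes above `T`: the two index sets agree. -/
theorem mem_above_primesOverT_iff (P : HeightOneSpectrum (𝓞 L)) :
    P ∈ above (𝓞 K) (𝓞 L) (primesOverT T K) ↔ ∃ q ∈ T, ((q : ℕ) : 𝓞 L) ∈ P.asIdeal := by
  rw [above_primesOverT, mem_primesOverT]
  refine exists_congr fun q => and_congr_right fun _ => ?_
  rw [Int.cast_natCast]

/-- The permutation module on `above (primesOverT T K)` versus the one on `PrimesOverSet L T`. -/
theorem e_primesRepP (he : IsAdditive e) :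
    e (primesRepP K L (primesOverT T K) p) =
      e (permFun (ZMod p) (L ≃ₐ[K] L) (PrimesOverSet L T)) := by
  have : FiniteDimensional (ZMod p) (permFun (ZMod p) (L ≃ₐ[K] L) (PrimesOverSet L T)) :=
    inferInstanceAs (FiniteDimensional (ZMod p) (PrimesOverSet L T → ZMod p))
  let ι : PrimesOverSet L T → above (𝓞 K) (𝓞 L) (primesOverT T K) :=
    fun P => ⟨P.1, (mem_above_primesOverT_iff T K L P.1).mpr P.2⟩
  have hιinj : Function.Injective ι := fun a b hab =>
    Subtype.ext (congrArg (fun x : above (𝓞 K) (𝓞 L) (primesOverT T K) => x.1) hab)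
  have hιsurj : Function.Surjective ι := fun w =>
    ⟨⟨w.1, (mem_above_primesOverT_iff T K L w.1).mp w.2⟩, rfl⟩
  refine eq_of_bijective he (primesRepP K L (primesOverT T K) p)
    (permFun (ZMod p) (L ≃ₐ[K] L) (PrimesOverSet L T))
    (LinearMap.funLeft (ZMod p) (ZMod p) ι) ?_ ⟨?_, ?_⟩
  · intro σ f
    funext P
    change f (primeSmul K L (primesOverT T K) σ⁻¹ (ι P)) = f (ι (σ⁻¹ • P))
    congr 1
  · exact LinearMap.funLeft_injective_of_surjective _ _ ι hιsurj
  · exact LinearMap.funLeft_surjective_of_injective _ _ ι hιinj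

/-- **EC5d, additive form, final encoding.** -/
theorem ec5d_additive (he : IsAdditive e) :
    hE p e (repUnitsT T K L) + e (trivRep p (L ≃ₐ[K] L)) =
      ∑ q ∈ T, e (Rep.ofMulAction (ZMod p) (L ≃ₐ[K] L) (PrimesOverQ L (q : ℕ))) +
        e (Rep.ofMulAction (ZMod p) (L ≃ₐ[K] L) (InfinitePlace L)) := by
  have h1 := hE_sUnit K L (primesOverT T K) he
  have h2 := hE_repUnitsT T K L p he
  have h3 := e_primesRepP T K L p he
  have h4 := e_primesOverSet K L he T
  have h5 : ∀ q ∈ T, e (permFun (ZMod p) (L ≃ₐ[K] L) (PrimesOverQ L ((q : Nat.Primes) : ℕ))) =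
      e (Rep.ofMulAction (ZMod p) (L ≃ₐ[K] L) (PrimesOverQ L ((q : Nat.Primes) : ℕ))) :=
    fun q _ => (e_ofMulAction_eq he _).symm
  have h6 : e (placesRepP K L p) =
      e (Rep.ofMulAction (ZMod p) (L ≃ₐ[K] L) (InfinitePlace L)) :=
    (e_ofMulAction_eq he (InfinitePlace L)).symm
  rw [Finset.sum_congr rfl h5] at h4
  omega

/-- `p`-finiteness of the `T`-units. -/
theorem isPFinite_repUnitsT : SpecC26.IsPFinite p (repUnitsT T K L) := by
  have := finite_repUnitsT T K L
  exact ⟨finite_pTorsionRep_of_fg p (repUnitsT T K L), finite_modPRep_of_fg p (repUnitsT T K L)⟩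

/-- **EC5d**, final encoding (`SpecC26.hP`, `SpecC26.IsPFinite`, `Rep.ofMulAction`). -/
theorem ec5d (P : Rep.{0} (ZMod p) (L ≃ₐ[K] L)) [FiniteDimensional (ZMod p) P]
    (hproj : IsProjRep P) :
    SpecC26.IsPFinite p (repUnitsT T K L) ∧
    SpecC26.hP p P (repUnitsT T K L) + (eqHomRank P (trivRep p (L ≃ₐ[K] L)) : ℤ) =
      ∑ q ∈ T, (eqHomRank P (Rep.ofMulAction (ZMod p) (L ≃ₐ[K] L) (PrimesOverQ L (q : ℕ))) : ℤ) +
        (eqHomRank P (Rep.ofMulAction (ZMod p) (L ≃ₐ[K] L) (InfinitePlace L)) : ℤ) :=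
  ⟨isPFinite_repUnitsT T K L p, ec5d_additive T K L p (isAdditive_eqHomRank P hproj)⟩

end Main

end Fermat.Agent.TW.GlobalEC.EC5dFinal5
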