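/-
Program TW (S56), WP4 "EC", brick EC4 (projective evaluation), part (i-a), helper3.

For a normal subgroup `U` of `G` (in the application an open normal subgroup of the level basis)
and a representation `T` of `G`:

* `infl U P`   : inflation of a representation `P` of `G ⧸ U` to `G`;
* `coind U T`  : the coinduced module `Z = Map(G ⧸ U, T)` with `(g • z)(x) = g • z(ḡ⁻¹ x)`;
* `starRho U T`: the commuting action of `G ⧸ U` on `Z` by right translation, `(y ∗ z)(x) = z(xy)`;
* `frob`       : Frobenius reciprocity `Hom_k(P, T) → Hom_k(P, Z)`, `f ↦ (p ↦ (x ↦ f(x p)))`,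
                 `G`-equivariant for the conjugation action on the source and the action through
                 `Z` on the target, with image the `∗`-equivariant maps; `ev1 : Z → T`, `z ↦ z 1`.
-/
import Mathlib
import Fermat.Agent.PT.PRO.LevelCoh28
import Fermat.Agent.TW.GlobalEC.Spec26

set_option autoImplicit false

open groupCohomology Module

namespace Fermat.Agent.TW.GlobalEC.Coind3

open Fermat.Agent.PT.PRO.LevelCoh28 Fermat.Agent.TW.GlobalEC.Spec26

noncomputable section

variable {k G : Type} [Field k] [Group G] (U : Subgroup G) [U.Normal]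

/-- Inflation of a representation of `G ⧸ U` to `G`. -/
abbrev infl (P : Rep.{0} k (G ⧸ U)) : Rep.{0} k G :=
  Rep.of (P.ρ.comp (QuotientGroup.mk' U))

theorem infl_ρ_apply (P : Rep.{0} k (G ⧸ U)) (g : G) (p : P) :
    (infl U P).ρ g p = P.ρ (g : G ⧸ U) p := rfl

/-- The `G`-action on `Map(G ⧸ U, T)`: `(g • z)(x) = g • z(ḡ⁻¹ x)`. -/
def coindRho (T : Rep.{0} k G) : Representation k G ((G ⧸ U) → T) where
  toFun g :=
    { toFun := fun z x => T.ρ g (z ((g : G ⧸ U)⁻¹ * x))
      map_add' := fun z z' => by funext x; simp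
      map_smul' := fun r z => by funext x; simp }
  map_one' := by
    ext z x
    simp
  map_mul' g h := by
    ext z x
    simp [mul_assoc]

/-- The coinduced module `Map(G ⧸ U, T)`. -/
abbrev coind (T : Rep.{0} k G) : Rep.{0} k G := Rep.of (coindRho U T)

theorem coind_ρ_apply (T : Rep.{0} k G) (g : G) (z : (G ⧸ U) → T) (x : G ⧸ U) :
    (coind U T).ρ g z x = T.ρ g (z ((g : G ⧸ U)⁻¹ * x)) := rfl

/-- The commuting action of `G ⧸ U` on `Map(G ⧸ U, T)` by right translation. -/
def starRho (T : Rep.{0} k G) : Representation k (G ⧸ U) ((G ⧸ U) → T) where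
  toFun y :=
    { toFun := fun z x => z (x * y)
      map_add' := fun z z' => by funext x; simp
      map_smul' := fun r z => by funext x; simp }
  map_one' := by
    ext z x
    simp
  map_mul' y y' := by
    ext z x
    simp [mul_assoc]

theorem starRho_apply (T : Rep.{0} k G) (y : G ⧸ U) (z : (G ⧸ U) → T) (x : G ⧸ U) :
    starRho U T y z x = z (x * y) := rfl

/-- The two actions on `Map(G ⧸ U, T)` commute. -/
theorem star_comm (T : Rep.{0} k G) (y : G ⧸ U) (g : G) (z : (G ⧸ U) → T) :
    starRho U T y ((coind U T).ρ g z) = (coind U T).ρ g (starRho U T y z) := by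
  funext x
  simp only [starRho_apply]
  rw [coind_ρ_apply, coind_ρ_apply, starRho_apply, mul_assoc]


/-! ### Discreteness of the coinduced module -/

variable {U} in
/-- The coinduced module of a discrete module is discrete (for `U` in the level basis). -/
theorem isDiscrete_coind {𝓑 : LevelBasis G} (hU : U ∈ 𝓑.sets) {T : Rep.{0} k G}
    (hT : IsDiscrete 𝓑.sets T) : IsDiscrete 𝓑.sets (coind U T) := by
  intro z
  have : U.FiniteIndex := 𝓑.isBasis.finiteIndex U hU
  have : Finite (G ⧸ U) := Subgroup.finite_quotient_of_finiteIndex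
  obtain ⟨V, hV, -, hfix⟩ := hT.exists_fixing 𝓑.isBasis (Set.finite_range z)
  obtain ⟨W, hW, hWle⟩ := 𝓑.isBasis.directed U hU V hV
  refine ⟨W, hW, fun s hs => ?_⟩
  funext x
  have hsU : s ∈ U := (hWle hs).1
  have h1 : ((s : G) : G ⧸ U) = 1 := (QuotientGroup.eq_one_iff s).2 hsU
  rw [coind_ρ_apply, h1, inv_one, one_mul]
  exact hfix s (hWle hs).2 _ ⟨x, rfl⟩

/-! ### The `∗`-action on cocycles and cohomology -/

section star

variable (𝓑 : LevelBasis G) (T : Rep.{0} k G)

theorem starRho_equivariant (y : G ⧸ U) (g : G) (z : coind U T) :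
    starRho U T y ((coind U T).ρ g z) = (coind U T).ρ g (starRho U T y z) :=
  star_comm U T y g z

/-- The `∗`-action of `G ⧸ U` on the level cocycles of the coinduced module. -/
def starZ1Rho : Representation k (G ⧸ U) ↥(Z1 𝓑 (coind U T)) where
  toFun y := mapZ1 (𝓑 := 𝓑) (A := coind U T) (B := coind U T) (starRho U T y)
    (starRho_equivariant U T y)
  map_one' := by
    refine LinearMap.ext fun c => ?_
    apply Subtype.ext
    funext g
    show starRho U T 1 ((c : G → coind U T) g) = _
    rw [map_one]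
    rfl
  map_mul' y y' := by
    refine LinearMap.ext fun c => ?_
    apply Subtype.ext
    funext g
    show starRho U T (y * y') ((c : G → coind U T) g) = _
    rw [map_mul]
    rfl

theorem starZ1Rho_apply (y : G ⧸ U) (c : ↥(Z1 𝓑 (coind U T))) (g : G) :
    ((starZ1Rho U 𝓑 T y c : ↥(Z1 𝓑 (coind U T))) : G → coind U T) g
      = starRho U T y ((c : G → coind U T) g) := rfl

/-- The `∗`-action of `G ⧸ U` on `H¹` of the coinduced module. -/
def starH1Rho : Representation k (G ⧸ U) (H1 𝓑 (coind U T)) where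
  toFun y := mapH1 (𝓑 := 𝓑) (A := coind U T) (B := coind U T) (starRho U T y)
    (starRho_equivariant U T y)
  map_one' := by
    refine LinearMap.ext fun c => ?_
    obtain ⟨c, rfl⟩ := H1mk_surjective 𝓑 (coind U T) c
    rw [mapH1_mk]
    have : mapZ1 (𝓑 := 𝓑) (A := coind U T) (B := coind U T) (starRho U T 1)
        (starRho_equivariant U T 1) c = c := by
      have := (starZ1Rho U 𝓑 T).map_one'
      exact LinearMap.congr_fun this c
    rw [this]
    rfl
  map_mul' y y' := by
    refine LinearMap.ext fun c => ?_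
    obtain ⟨c, rfl⟩ := H1mk_surjective 𝓑 (coind U T) c
    have : mapZ1 (𝓑 := 𝓑) (A := coind U T) (B := coind U T) (starRho U T (y * y'))
        (starRho_equivariant U T (y * y')) c = starZ1Rho U 𝓑 T y (starZ1Rho U 𝓑 T y' c) := by
      have := (starZ1Rho U 𝓑 T).map_mul' y y'
      exact LinearMap.congr_fun this c
    rw [mapH1_mk, this]
    rfl

theorem starH1Rho_mk (y : G ⧸ U) (c : ↥(Z1 𝓑 (coind U T))) :
    starH1Rho U 𝓑 T y (H1mk 𝓑 (coind U T) c) = H1mk 𝓑 (coind U T) (starZ1Rho U 𝓑 T y c) := rfl

/-- `Z = Map(G ⧸ U, T)` as a representation of `G ⧸ U` (by `∗`). -/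
abbrev Zstar : Rep.{0} k (G ⧸ U) := Rep.of (starRho U T)

/-- The level cocycles of `Z` as a representation of `G ⧸ U` (by `∗`). -/
abbrev Z1star : Rep.{0} k (G ⧸ U) := Rep.of (starZ1Rho U 𝓑 T)

/-- `H¹_𝓑(G, Z)` as a representation of `G ⧸ U` (by `∗`). -/
abbrev H1star : Rep.{0} k (G ⧸ U) := Rep.of (starH1Rho U 𝓑 T)

end star

end

end Fermat.Agent.TW.GlobalEC.Coind3
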