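/-
Program TW (S56), WP4 "EC", brick EC4 (projective evaluation), part (i-b), helper3.

`U` a normal subgroup of `G` belonging to the level basis `𝓑`, `P` a finite-dimensional
*projective* representation of `G ⧸ U` (`Spec26.IsProjRep`), `T` a discrete representation of `G`,
`Z = coind U T = Map(G ⧸ U, T)`.  Then

  `H¹_𝓑(G, Hom_k(P, T)) ≃ Hom_{G ⧸ U}(P, H¹_𝓑(G, Z))`,   `[c] ↦ (p ↦ [g ↦ (x ↦ c g (x p))])`,

(`evalH1`, `evalH1_injective`, `range_evalH1`), hence the dimension formula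
`finrank_H1_homRep_infl`.
-/
import Mathlib
import Fermat.Agent.PT.PRO.LevelCoh28
import Fermat.Agent.TW.GlobalEC.Spec26
import Fermat.Agent.TW.GlobalEC.Coind3

set_option autoImplicit false

open groupCohomology Module

namespace Fermat.Agent.TW.GlobalEC.ProjEval3

open Fermat.Agent.PT.PRO.LevelCoh28 Fermat.Agent.TW.GlobalEC.Spec26
  Fermat.Agent.TW.GlobalEC.Coind3

noncomputable section

/-! ### Lifting through a non-surjective map -/

section lift

variable {k H : Type} [Field k] [Group H]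

/-- A projective representation lifts equivariant maps through any equivariant map whose range
contains the range of the given map. -/
theorem IsProjRep.exists_lift_of_range_le {P : Rep.{0} k H} (hP : IsProjRep P)
    (A B : Rep.{0} k H) (ψ : A →ₗ[k] B) (hψ : ∀ g a, ψ (A.ρ g a) = B.ρ g (ψ a))
    (φ : P →ₗ[k] B) (hφ : ∀ g x, φ (P.ρ g x) = B.ρ g (φ x))
    (hle : LinearMap.range φ ≤ LinearMap.range ψ) :
    ∃ φ' : P →ₗ[k] A, (∀ g x, φ' (P.ρ g x) = A.ρ g (φ' x)) ∧ ∀ x, ψ (φ' x) = φ x := by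
  have hinv : ∀ g, LinearMap.range ψ ≤ (LinearMap.range ψ).comap (B.ρ g) := by
    rintro g _ ⟨a, rfl⟩
    exact ⟨A.ρ g a, hψ g a⟩
  let R : Rep.{0} k H := Rep.of (B.ρ.subrepresentation (LinearMap.range ψ) hinv)
  let ψ' : A →ₗ[k] R := ψ.rangeRestrict
  let φR : P →ₗ[k] R := φ.codRestrict (LinearMap.range ψ) (fun x => hle ⟨x, rfl⟩)
  have hψ' : ∀ g a, ψ' (A.ρ g a) = R.ρ g (ψ' a) := by
    intro g a
    apply Subtype.ext
    exact hψ g a
  have hφR : ∀ g x, φR (P.ρ g x) = R.ρ g (φR x) := by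
    intro g x
    apply Subtype.ext
    exact hφ g x
  have hsurj : Function.Surjective ψ' := ψ.surjective_rangeRestrict
  obtain ⟨φ', h1, h2⟩ := hP A R ψ' hψ' hsurj φR hφR
  refine ⟨φ', h1, fun x => ?_⟩
  have := congrArg Subtype.val (h2 x)
  exact this

end lift

variable {k G : Type} [Field k] [Group G] (U : Subgroup G) [U.Normal] (𝓑 : LevelBasis G)
  (P : Rep.{0} k (G ⧸ U)) (T : Rep.{0} k G)

/-- A reducible version of `Spec26.homRep`. -/
abbrev hom' (X T : Rep.{0} k G) : Rep.{0} k G := Rep.of (Representation.linHom X.ρ T.ρ)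

theorem homRep_eq (X T : Rep.{0} k G) : homRep X T = hom' X T := rfl

theorem hom'_ρ_apply (X T : Rep.{0} k G) (g : G) (f : X →ₗ[k] T) (x : X) :
    (hom' X T).ρ g f x = T.ρ g (f (X.ρ g⁻¹ x)) := rfl

/-! ### The evaluation of a cochain at `p` -/

/-- For a cochain `c : G → Hom_k(P, T)` and `p : P`, the cochain `g ↦ (x ↦ c g (x p))` with
values in `Z = Map(G ⧸ U, T)`. -/
def cp (c : G → (P →ₗ[k] T)) (p : P) : G → ((G ⧸ U) → T) := fun g x => c g (P.ρ x p)

theorem cp_apply (c : G → (P →ₗ[k] T)) (p : P) (g : G) (x : G ⧸ U) :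
    cp U P T c p g x = c g (P.ρ x p) := rfl

theorem cp_mem_cocycles₁ {c : G → (P →ₗ[k] T)} (hc : c ∈ cocycles₁ (hom' (infl U P) T)) (p : P) :
    cp U P T c p ∈ cocycles₁ (coind U T) := by
  rw [mem_cocycles₁_iff] at hc ⊢
  intro g h
  funext x
  have h1 := LinearMap.congr_fun (hc g h) (P.ρ x p)
  show c (g * h) (P.ρ x p) = T.ρ g (c h (P.ρ ((g : G ⧸ U)⁻¹ * x) p)) + c g (P.ρ x p)
  rw [h1]
  show T.ρ g (c h ((infl U P).ρ g⁻¹ (P.ρ x p))) + c g (P.ρ x p) = _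
  rw [infl_ρ_apply, map_mul, QuotientGroup.mk_inv]
  rfl

theorem cp_isLevel₁ {c : G → (P →ₗ[k] T)} (hc : IsLevel₁ 𝓑.sets c) (p : P) :
    IsLevel₁ 𝓑.sets (cp U P T c p) := by
  obtain ⟨V, hV, h⟩ := hc
  refine ⟨V, hV, fun g s hs => ?_⟩
  funext x
  rw [cp_apply, cp_apply, h g s hs]

theorem cp_mem_Z1 {c : G → (P →ₗ[k] T)} (hc : c ∈ Z1 𝓑 (hom' (infl U P) T)) (p : P) :
    cp U P T c p ∈ Z1 𝓑 (coind U T) :=
  ⟨cp_mem_cocycles₁ U P T hc.1 p, cp_isLevel₁ U 𝓑 P T hc.2 p⟩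

/-- Frobenius reciprocity at the level of vectors: `f ↦ (x ↦ f (x p))`. -/
def frobVec (f : P →ₗ[k] T) (p : P) : (G ⧸ U) → T := fun x => f (P.ρ x p)

theorem cp_d₀₁ (f : P →ₗ[k] T) (p : P) :
    cp U P T ((d₀₁ (hom' (infl U P) T)).hom f) p = (d₀₁ (coind U T)).hom (frobVec U P T f p) := by
  funext g x
  rw [cp_apply, d₀₁_hom_apply, d₀₁_hom_apply]
  show (hom' (infl U P) T).ρ g f (P.ρ x p) - f (P.ρ x p)
    = T.ρ g (f (P.ρ ((g : G ⧸ U)⁻¹ * x) p)) - f (P.ρ x p)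
  rw [hom'_ρ_apply, infl_ρ_apply, map_mul, QuotientGroup.mk_inv]
  rfl

theorem cp_mem_coboundaries₁ {c : G → (P →ₗ[k] T)}
    (hc : c ∈ coboundaries₁ (hom' (infl U P) T)) (p : P) :
    cp U P T c p ∈ coboundaries₁ (coind U T) := by
  obtain ⟨f, rfl⟩ := hc
  exact ⟨frobVec U P T f p, (cp_d₀₁ U P T f p).symm⟩


/-! ### The evaluation map on cocycles and on `H¹` -/

/-- `c ↦ (p ↦ c_p)` on level cocycles. -/
def evalZ1 : ↥(Z1 𝓑 (hom' (infl U P) T)) →ₗ[k] (P →ₗ[k] ↥(Z1 𝓑 (coind U T))) where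
  toFun c :=
    { toFun := fun p => ⟨cp U P T (c : G → (P →ₗ[k] T)) p, cp_mem_Z1 U 𝓑 P T c.2 p⟩
      map_add' := fun p p' => by
        apply Subtype.ext
        funext g x
        show (c : G → (P →ₗ[k] T)) g (P.ρ x (p + p')) = _
        rw [map_add, map_add]
        rfl
      map_smul' := fun r p => by
        apply Subtype.ext
        funext g x
        show (c : G → (P →ₗ[k] T)) g (P.ρ x (r • p)) = _
        rw [map_smul, map_smul]
        rfl }
  map_add' c c' := by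
    refine LinearMap.ext fun p => ?_
    apply Subtype.ext
    funext g x
    rfl
  map_smul' r c := by
    refine LinearMap.ext fun p => ?_
    apply Subtype.ext
    funext g x
    rfl

theorem evalZ1_apply (c : ↥(Z1 𝓑 (hom' (infl U P) T))) (p : P) (g : G) (x : G ⧸ U) :
    ((evalZ1 U 𝓑 P T c p : ↥(Z1 𝓑 (coind U T))) : G → coind U T) g x
      = (c : G → (P →ₗ[k] T)) g (P.ρ x p) := rfl

/-- `evalZ1 c` is equivariant for the `∗`-action. -/
theorem evalZ1_equivariant (c : ↥(Z1 𝓑 (hom' (infl U P) T))) (y : G ⧸ U) (p : P) :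
    evalZ1 U 𝓑 P T c (P.ρ y p) = starZ1Rho U 𝓑 T y (evalZ1 U 𝓑 P T c p) := by
  apply Subtype.ext
  funext g x
  rw [evalZ1_apply, starZ1Rho_apply, starRho_apply, evalZ1_apply, map_mul]
  rfl

/-- The evaluation map `H¹_𝓑(G, Hom_k(P, T)) → Hom_k(P, H¹_𝓑(G, Z))`. -/
def evalH1 : H1 𝓑 (hom' (infl U P) T) →ₗ[k] (P →ₗ[k] H1 𝓑 (coind U T)) :=
  Submodule.liftQ _
    ((LinearMap.llcomp k P ↥(Z1 𝓑 (coind U T)) (H1 𝓑 (coind U T)) (H1mk 𝓑 (coind U T))).comp
      (evalZ1 U 𝓑 P T))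
    (by
      intro c hc
      rw [Submodule.mem_comap, Submodule.subtype_apply] at hc
      rw [LinearMap.mem_ker]
      refine LinearMap.ext fun p => ?_
      show H1mk 𝓑 (coind U T) (evalZ1 U 𝓑 P T c p) = 0
      rw [H1mk_eq_zero_iff]
      exact cp_mem_coboundaries₁ U P T hc p)

theorem evalH1_mk (c : ↥(Z1 𝓑 (hom' (infl U P) T))) (p : P) :
    evalH1 U 𝓑 P T (H1mk 𝓑 (hom' (infl U P) T) c) p
      = H1mk 𝓑 (coind U T) (evalZ1 U 𝓑 P T c p) := rfl

/-- The values of `evalH1` are `∗`-equivariant. -/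
theorem evalH1_equivariant (ξ : H1 𝓑 (hom' (infl U P) T)) (y : G ⧸ U) (p : P) :
    evalH1 U 𝓑 P T ξ (P.ρ y p) = starH1Rho U 𝓑 T y (evalH1 U 𝓑 P T ξ p) := by
  obtain ⟨c, rfl⟩ := H1mk_surjective 𝓑 (hom' (infl U P) T) ξ
  rw [evalH1_mk, evalH1_mk, evalZ1_equivariant, starH1Rho_mk]


/-! ### Invariants of `linHom` = equivariant maps -/

section inv

variable {H : Type} [Group H] {V W : Type} [AddCommGroup V] [Module k V] [AddCommGroup W]
  [Module k W] (ρV : Representation k H V) (ρW : Representation k H W)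

theorem mem_invariants_linHom_iff (f : V →ₗ[k] W) :
    f ∈ (Representation.linHom ρV ρW).invariants ↔ ∀ y v, f (ρV y v) = ρW y (f v) := by
  rw [Representation.mem_invariants]
  constructor
  · intro h y v
    have := LinearMap.congr_fun (h y) (ρV y v)
    rw [Representation.linHom_apply, LinearMap.comp_apply, LinearMap.comp_apply,
      ← Module.End.mul_apply, ← map_mul, inv_mul_cancel, map_one, Module.End.one_apply] at this
    exact this.symm
  · intro h y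
    refine LinearMap.ext fun v => ?_
    rw [Representation.linHom_apply, LinearMap.comp_apply, LinearMap.comp_apply, ← h,
      ← Module.End.mul_apply, ← map_mul, mul_inv_cancel, map_one, Module.End.one_apply]

end inv

/-! ### Finitely many level cochains have a common level -/

theorem exists_common_level {ι : Type} [Finite ι] {X : Type} (f : ι → G → X)
    (hf : ∀ i, IsLevel₁ 𝓑.sets (f i)) : ∃ V ∈ 𝓑.sets, ∀ i, InvOn₁ V (f i) := by
  classical
  have key : ∀ s : Finset ι, ∃ V ∈ 𝓑.sets, ∀ i ∈ s, InvOn₁ V (f i) := by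
    intro s
    induction s using Finset.induction_on with
    | empty =>
      obtain ⟨V, hV⟩ := 𝓑.isBasis.nonempty
      exact ⟨V, hV, fun i hi => absurd hi (Finset.notMem_empty i)⟩
    | insert a s _ ih =>
      obtain ⟨V, hV, h⟩ := ih
      obtain ⟨V', hV', h'⟩ := hf a
      obtain ⟨W, hW, hWle⟩ := 𝓑.isBasis.directed V hV V' hV'
      refine ⟨W, hW, fun i hi => ?_⟩
      rcases Finset.mem_insert.1 hi with rfl | hi
      · exact h'.mono (hWle.trans inf_le_right)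
      · exact (h i hi).mono (hWle.trans inf_le_left)
  cases nonempty_fintype ι
  obtain ⟨V, hV, h⟩ := key Finset.univ
  exact ⟨V, hV, fun i => h i (Finset.mem_univ i)⟩

/-! ### Injectivity and range of the evaluation map -/

/-- `z ↦ d z` from `Z` to the level cocycles of `Z` (needs `Z` discrete). -/
def dZ (hZ : IsDiscrete 𝓑.sets (coind U T)) : ((G ⧸ U) → T) →ₗ[k] ↥(Z1 𝓑 (coind U T)) :=
  ((d₀₁ (coind U T)).hom).codRestrict (Z1 𝓑 (coind U T))
    (fun z => coboundaries₁_le_Z1 hZ ⟨z, rfl⟩)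

theorem dZ_apply (hZ : IsDiscrete 𝓑.sets (coind U T)) (z : (G ⧸ U) → T) :
    ((dZ U 𝓑 T hZ z : ↥(Z1 𝓑 (coind U T))) : G → coind U T) = (d₀₁ (coind U T)).hom z := rfl

theorem dZ_equivariant (hZ : IsDiscrete 𝓑.sets (coind U T)) (y : G ⧸ U) (z : (G ⧸ U) → T) :
    dZ U 𝓑 T hZ (starRho U T y z) = starZ1Rho U 𝓑 T y (dZ U 𝓑 T hZ z) := by
  apply Subtype.ext
  rw [dZ_apply]
  exact d₀₁_comp (A := coind U T) (B := coind U T) (starRho U T y) (starRho_equivariant U T y) z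

variable {P} in
theorem evalH1_injective (hP : IsProjRep P) (hZ : IsDiscrete 𝓑.sets (coind U T)) :
    Function.Injective (evalH1 U 𝓑 P T) := by
  rw [← LinearMap.ker_eq_bot, LinearMap.ker_eq_bot']
  intro ξ hξ
  obtain ⟨c, rfl⟩ := H1mk_surjective 𝓑 (hom' (infl U P) T) ξ
  rw [H1mk_eq_zero_iff]
  have hcob : ∀ p, ((evalZ1 U 𝓑 P T c p : ↥(Z1 𝓑 (coind U T))) : G → coind U T)
      ∈ coboundaries₁ (coind U T) := by
    intro p
    have := LinearMap.congr_fun hξ p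
    rw [evalH1_mk, LinearMap.zero_apply, H1mk_eq_zero_iff] at this
    exact this
  -- lift `p ↦ c_p` through `d : Z → Z¹(Z)`
  obtain ⟨ζ, hζ1, hζ2⟩ := IsProjRep.exists_lift_of_range_le hP (Zstar U T) (Z1star U 𝓑 T)
    (dZ U 𝓑 T hZ) (dZ_equivariant U 𝓑 T hZ) (evalZ1 U 𝓑 P T c) (evalZ1_equivariant U 𝓑 P T c)
    (by
      rintro _ ⟨p, rfl⟩
      obtain ⟨z, hz⟩ := hcob p
      exact ⟨z, Subtype.ext hz⟩)
  -- the primitive `f p = ζ p 1`
  let f : P →ₗ[k] T := (LinearMap.proj (1 : G ⧸ U)).comp ζ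
  refine ⟨f, ?_⟩
  funext g
  refine LinearMap.ext fun p => ?_
  rw [d₀₁_hom_apply]
  show (hom' (infl U P) T).ρ g f p - f p = (c : G → (P →ₗ[k] T)) g p
  have h1 : (c : G → (P →ₗ[k] T)) g p
      = ((evalZ1 U 𝓑 P T c p : ↥(Z1 𝓑 (coind U T))) : G → coind U T) g 1 := by
    rw [evalZ1_apply, map_one]
    rfl
  have h2 := congrArg (fun w : ↥(Z1 𝓑 (coind U T)) => (w : G → coind U T) g 1) (hζ2 p)
  simp only at h2
  rw [h1, ← h2, dZ_apply, d₀₁_hom_apply, hom'_ρ_apply, infl_ρ_apply]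
  show T.ρ g (ζ (P.ρ ((g⁻¹ : G) : G ⧸ U) p) 1) - ζ p 1
    = (coind U T).ρ g (ζ p) 1 - ζ p 1
  rw [hζ1, coind_ρ_apply]
  show T.ρ g (starRho U T ((g⁻¹ : G) : G ⧸ U) (ζ p) 1) - ζ p 1 = _
  rw [starRho_apply, one_mul, mul_one, QuotientGroup.mk_inv]


theorem H1mk_star_equivariant (y : G ⧸ U) (c : ↥(Z1 𝓑 (coind U T))) :
    H1mk 𝓑 (coind U T) (starZ1Rho U 𝓑 T y c) = starH1Rho U 𝓑 T y (H1mk 𝓑 (coind U T) c) :=
  (starH1Rho_mk U 𝓑 T y c).symm

variable {P} in
/-- Every `∗`-equivariant map `P → H¹_𝓑(G, Z)` is in the range of `evalH1` (`P` projective,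
finite-dimensional). -/
theorem exists_evalH1_eq (hP : IsProjRep P) [FiniteDimensional k P]
    (ψ₀ : P →ₗ[k] H1 𝓑 (coind U T))
    (hψ₀ : ∀ y p, ψ₀ (P.ρ y p) = starH1Rho U 𝓑 T y (ψ₀ p)) :
    ∃ ξ, evalH1 U 𝓑 P T ξ = ψ₀ := by
  -- lift through `Z¹(Z) → H¹(Z)`
  obtain ⟨ψ, hψ1, hψ2⟩ := hP (Z1star U 𝓑 T) (H1star U 𝓑 T) (H1mk 𝓑 (coind U T))
    (H1mk_star_equivariant U 𝓑 T) (H1mk_surjective 𝓑 (coind U T)) ψ₀ hψ₀
  -- the cochain `c g p = ψ p g 1`
  let c : G → (P →ₗ[k] T) := fun g =>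
    { toFun := fun p => ((ψ p : ↥(Z1 𝓑 (coind U T))) : G → coind U T) g 1
      map_add' := fun p p' => by rw [map_add]; rfl
      map_smul' := fun r p => by rw [map_smul]; rfl }
  have hc_apply : ∀ g p, c g p = ((ψ p : ↥(Z1 𝓑 (coind U T))) : G → coind U T) g 1 :=
    fun _ _ => rfl
  -- key formula: `ψ (x p) g 1 = ψ p g x`
  have hkey : ∀ (x : G ⧸ U) (p : P) (g : G),
      ((ψ (P.ρ x p) : ↥(Z1 𝓑 (coind U T))) : G → coind U T) g 1
        = ((ψ p : ↥(Z1 𝓑 (coind U T))) : G → coind U T) g x := by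
    intro x p g
    rw [hψ1 x p]
    show ((starZ1Rho U 𝓑 T x (ψ p) : ↥(Z1 𝓑 (coind U T))) : G → coind U T) g 1 = _
    rw [starZ1Rho_apply, starRho_apply, one_mul]
  -- cocycle
  have hcoc : c ∈ cocycles₁ (hom' (infl U P) T) := by
    rw [mem_cocycles₁_iff]
    intro g h
    refine LinearMap.ext fun p => ?_
    have hp := (mem_cocycles₁_iff (A := coind U T) _).1 (ψ p).2.1 g h
    have hp1 := congrFun hp 1
    show c (g * h) p = (hom' (infl U P) T).ρ g (c h) p + c g p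
    rw [hom'_ρ_apply, hc_apply, hc_apply, hc_apply, infl_ρ_apply, hkey]
    rw [hp1]
    show (coind U T).ρ g (((ψ p : ↥(Z1 𝓑 (coind U T))) : G → coind U T) h) 1
        + ((ψ p : ↥(Z1 𝓑 (coind U T))) : G → coind U T) g 1 = _
    rw [coind_ρ_apply, mul_one, QuotientGroup.mk_inv]
  -- level
  have hlev : IsLevel₁ 𝓑.sets c := by
    let b := Module.finBasis k P
    obtain ⟨V, hV, hinv⟩ := exists_common_level 𝓑
      (fun i => ((ψ (b i) : ↥(Z1 𝓑 (coind U T))) : G → coind U T)) (fun i => (ψ (b i)).2.2)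
    refine ⟨V, hV, fun g s hs => ?_⟩
    refine b.ext fun i => ?_
    rw [hc_apply, hc_apply, hinv i g s hs]
  let cc : ↥(Z1 𝓑 (hom' (infl U P) T)) := ⟨c, hcoc, hlev⟩
  refine ⟨H1mk 𝓑 (hom' (infl U P) T) cc, ?_⟩
  refine LinearMap.ext fun p => ?_
  rw [evalH1_mk, ← hψ2 p]
  congr 1
  apply Subtype.ext
  funext g x
  rw [evalZ1_apply]
  show c g (P.ρ x p) = _
  rw [hc_apply, hkey]

variable {P} in
/-- The range of `evalH1` is the space of `∗`-equivariant maps. -/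
theorem range_evalH1 (hP : IsProjRep P) [FiniteDimensional k P] :
    LinearMap.range (evalH1 U 𝓑 P T)
      = (Representation.linHom P.ρ (starH1Rho U 𝓑 T)).invariants := by
  ext ψ₀
  rw [mem_invariants_linHom_iff]
  constructor
  · rintro ⟨ξ, rfl⟩ y p
    exact evalH1_equivariant U 𝓑 P T ξ y p
  · intro h
    exact exists_evalH1_eq U 𝓑 T hP ψ₀ h

variable {P} in
/-- **EC4 (i-b)**: for `P` finite-dimensional projective over `G ⧸ U` and `Z = Map(G ⧸ U, T)`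
discrete: `dim H¹_𝓑(G, Hom_k(P, T)) = dim Hom_{G ⧸ U}(P, H¹_𝓑(G, Z))`. -/
theorem finrank_H1_homRep_infl (hP : IsProjRep P) [FiniteDimensional k P]
    (hZ : IsDiscrete 𝓑.sets (coind U T)) :
    finrank k (H1 𝓑 (homRep (infl U P) T)) = eqHomRank P (H1star U 𝓑 T) := by
  show finrank k (H1 𝓑 (hom' (infl U P) T))
    = finrank k (Representation.linHom P.ρ (starH1Rho U 𝓑 T)).invariants
  rw [← range_evalH1 U 𝓑 T hP]
  exact (LinearMap.finrank_range_of_inj (evalH1_injective U 𝓑 T hP hZ)).symm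

end

end Fermat.Agent.TW.GlobalEC.ProjEval3
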