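/-
Program TW (S56), WP4 "EC", brick EC4 (projective evaluation), helper3: `Hom`-rank bookkeeping.

* `finrank_invariants_linHom_eq` : a general comparison of `dim Hom_H(V, A)` and `dim Hom_{H'}(V, B)`
  along an injective map `ι : A → B`;
* `eqHomRank_congr`              : `eqHomRank P A = eqHomRank P B` for an equivariant isomorphism
  `A ≃ B`;
* `eqHomRank_infl_pTorsion`      : **EC4, `H⁰`-part**:
  `dim Hom_G(infl P, C[p]) = dim Hom_{G/U}(P, C^U[p])` (no hypothesis on `P`).
-/
import Mathlib
import Fermat.Agent.TW.GlobalEC.SpecB26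
import Fermat.Agent.TW.GlobalEC.ProjEval3

set_option autoImplicit false

open Module

namespace Fermat.Agent.TW.GlobalEC.HomInv3

open Fermat.Agent.PT.PRO.LevelCoh28 Fermat.Agent.TW.GlobalEC.Spec26
  Fermat.Agent.TW.GlobalEC.SpecB26 Fermat.Agent.TW.GlobalEC.ProjEval3

noncomputable section

/-! ### A general comparison -/

section general

variable {k : Type} [Field k] {H H' : Type} [Group H] [Group H']
  {V A B : Type} [AddCommGroup V] [Module k V] [AddCommGroup A] [Module k A]
  [AddCommGroup B] [Module k B]

/-- Comparison of `dim Hom_H(V, A)` and `dim Hom_{H'}(V, B)` along an injective `ι : A → B` such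
that `f` is `H`-equivariant iff `ι ∘ f` is `H'`-equivariant, and such that every `H'`-equivariant
map `V → B` has image in the range of `ι`. -/
theorem finrank_invariants_linHom_eq (ρV : Representation k H V) (ρV' : Representation k H' V)
    (ρA : Representation k H A) (ρB : Representation k H' B) (ι : A →ₗ[k] B)
    (hι : Function.Injective ι)
    (h1 : ∀ f : V →ₗ[k] A, (∀ y v, f (ρV y v) = ρA y (f v)) ↔
      (∀ y v, ι (f (ρV' y v)) = ρB y (ι (f v))))
    (h2 : ∀ g : V →ₗ[k] B, (∀ y v, g (ρV' y v) = ρB y (g v)) →
      LinearMap.range g ≤ LinearMap.range ι) :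
    finrank k (Representation.linHom ρV ρA).invariants
      = finrank k (Representation.linHom ρV' ρB).invariants := by
  have hΨ : Function.Injective (LinearMap.compRight k ι : (V →ₗ[k] A) →ₗ[k] (V →ₗ[k] B)) := by
    intro f f' h
    refine LinearMap.ext fun v => hι ?_
    exact LinearMap.congr_fun h v
  have hmap : (Representation.linHom ρV ρA).invariants.map
      (LinearMap.compRight k ι : (V →ₗ[k] A) →ₗ[k] (V →ₗ[k] B))
      = (Representation.linHom ρV' ρB).invariants := by
    ext g
    rw [Submodule.mem_map, mem_invariants_linHom_iff]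
    constructor
    · rintro ⟨f, hf, rfl⟩
      rw [mem_invariants_linHom_iff] at hf
      exact (h1 f).1 hf
    · intro hg
      have hle := h2 g hg
      let e := LinearEquiv.ofInjective ι hι
      let f : V →ₗ[k] A :=
        e.symm.toLinearMap.comp (g.codRestrict (LinearMap.range ι) (fun v => hle ⟨v, rfl⟩))
      have hf : ∀ v, ι (f v) = g v := by
        intro v
        have := e.apply_symm_apply (⟨g v, hle ⟨v, rfl⟩⟩ : LinearMap.range ι)
        exact congrArg Subtype.val this
      refine ⟨f, ?_, ?_⟩
      · rw [mem_invariants_linHom_iff, h1]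
        intro y v
        rw [hf, hf, hg]
      · exact LinearMap.ext hf
  rw [← hmap]
  exact (Submodule.equivMapOfInjective _ hΨ _).finrank_eq

/-- An equivariant linear isomorphism `A ≃ B` gives `dim Hom_H(P, A) = dim Hom_H(P, B)`. -/
theorem eqHomRank_congr (P A B : Rep.{0} k H) (e : A ≃ₗ[k] B)
    (he : ∀ h a, e (A.ρ h a) = B.ρ h (e a)) : eqHomRank P A = eqHomRank P B := by
  show finrank k (Representation.linHom P.ρ A.ρ).invariants
    = finrank k (Representation.linHom P.ρ B.ρ).invariants
  refine finrank_invariants_linHom_eq P.ρ P.ρ A.ρ B.ρ e.toLinearMap e.injective (fun f => ?_)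
    (fun g _ => ?_)
  · constructor
    · intro h y v
      rw [h y v]
      exact he y (f v)
    · intro h y v
      apply e.injective
      rw [he]
      exact h y v
  · rw [LinearEquiv.range]
    exact le_top

/-- The map-of-submodules form of `finrank_invariants_linHom_eq`: post-composition with `ι`
maps `Hom_H(V, A)` onto `Hom_{H'}(V, B)`. -/
theorem map_invariants_linHom_eq (ρV : Representation k H V) (ρV' : Representation k H' V)
    (ρA : Representation k H A) (ρB : Representation k H' B) (ι : A →ₗ[k] B)
    (hι : Function.Injective ι)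
    (h1 : ∀ f : V →ₗ[k] A, (∀ y v, f (ρV y v) = ρA y (f v)) ↔
      (∀ y v, ι (f (ρV' y v)) = ρB y (ι (f v))))
    (h2 : ∀ g : V →ₗ[k] B, (∀ y v, g (ρV' y v) = ρB y (g v)) →
      LinearMap.range g ≤ LinearMap.range ι) :
    (Representation.linHom ρV ρA).invariants.map
      (LinearMap.compRight k ι : (V →ₗ[k] A) →ₗ[k] (V →ₗ[k] B))
      = (Representation.linHom ρV' ρB).invariants := by
  ext g
  rw [Submodule.mem_map, mem_invariants_linHom_iff]
  constructor
  · rintro ⟨f, hf, rfl⟩
    rw [mem_invariants_linHom_iff] at hf
    exact (h1 f).1 hf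
  · intro hg
    have hle := h2 g hg
    let e := LinearEquiv.ofInjective ι hι
    let f : V →ₗ[k] A :=
      e.symm.toLinearMap.comp (g.codRestrict (LinearMap.range ι) (fun v => hle ⟨v, rfl⟩))
    have hf : ∀ v, ι (f v) = g v := by
      intro v
      have := e.apply_symm_apply (⟨g v, hle ⟨v, rfl⟩⟩ : LinearMap.range ι)
      exact congrArg Subtype.val this
    refine ⟨f, ?_, ?_⟩
    · rw [mem_invariants_linHom_iff, h1]
      intro y v
      rw [hf, hf, hg]
    · exact LinearMap.ext hf

/-- Finite-dimensionality version of `finrank_invariants_linHom_eq`. -/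
theorem finiteDimensional_invariants_linHom (ρV : Representation k H V)
    (ρV' : Representation k H' V) (ρA : Representation k H A) (ρB : Representation k H' B)
    (ι : A →ₗ[k] B) (hι : Function.Injective ι)
    (h1 : ∀ f : V →ₗ[k] A, (∀ y v, f (ρV y v) = ρA y (f v)) ↔
      (∀ y v, ι (f (ρV' y v)) = ρB y (ι (f v))))
    (h2 : ∀ g : V →ₗ[k] B, (∀ y v, g (ρV' y v) = ρB y (g v)) →
      LinearMap.range g ≤ LinearMap.range ι)
    [FiniteDimensional k (Representation.linHom ρV ρA).invariants] :
    FiniteDimensional k (Representation.linHom ρV' ρB).invariants := by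
  rw [← map_invariants_linHom_eq ρV ρV' ρA ρB ι hι h1 h2]
  infer_instance

end general

/-! ### `p`-torsion of the `U`-invariants -/

section pTorsion

variable {R : Type} [CommRing R] (p : ℕ) [Fact p.Prime]

section mk

variable {G' : Type} [Group G'] (X : Rep.{0} R G')

/-- The element of `X[p]` given by a `p`-torsion element of `X`. -/
def mkT (x : X) (hx : p • x = 0) : pTorsionRep p X := (⟨x, hx⟩ : pTorsionSub p X)

@[simp] theorem val_mkT (x : X) (hx : p • x = 0) : pTorsionRep.val p X (mkT p X x hx) = x := rfl

theorem mkT_val (t : pTorsionRep p X) :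
    mkT p X (pTorsionRep.val p X t) (pTorsionRep.nsmul_val p X t) = t := rfl

theorem val_add (t t' : pTorsionRep p X) :
    pTorsionRep.val p X (t + t') = pTorsionRep.val p X t + pTorsionRep.val p X t' := rfl

theorem val_zero : pTorsionRep.val p X 0 = 0 := rfl

theorem val_sub (t t' : pTorsionRep p X) :
    pTorsionRep.val p X (t - t') = pTorsionRep.val p X t - pTorsionRep.val p X t' := rfl

theorem val_neg (t : pTorsionRep p X) :
    pTorsionRep.val p X (-t) = -pTorsionRep.val p X t := rfl

end mk

variable {G : Type} [Group G] (C : Rep.{0} R G) (U : Subgroup G) [U.Normal]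

/-- The underlying element of `C` of an element of `C^U`. -/
def invVal (c : C.quotientToInvariants U) : C := c.1

theorem invVal_ρ (g : G) (c : C.quotientToInvariants U) :
    invVal C U ((C.quotientToInvariants U).ρ (g : G ⧸ U) c) = C.ρ g (invVal C U c) := rfl

theorem invVal_fixed (c : C.quotientToInvariants U) (u : G) (hu : u ∈ U) :
    C.ρ u (invVal C U c) = invVal C U c := c.2 ⟨u, hu⟩

theorem invVal_injective : Function.Injective (invVal C U) := fun _ _ h => Subtype.ext h

theorem invVal_add (c c' : C.quotientToInvariants U) :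
    invVal C U (c + c') = invVal C U c + invVal C U c' := rfl

theorem invVal_zero : invVal C U 0 = 0 := rfl

theorem invVal_nsmul (n : ℕ) (c : C.quotientToInvariants U) :
    invVal C U (n • c) = n • invVal C U c := rfl

/-- The element of `C^U` given by a `U`-fixed element of `C`. -/
def mkInv (c : C) (hc : ∀ u ∈ U, C.ρ u c = c) : C.quotientToInvariants U :=
  ⟨c, fun u => hc u.1 u.2⟩

@[simp] theorem invVal_mkInv (c : C) (hc : ∀ u ∈ U, C.ρ u c = c) :
    invVal C U (mkInv C U c hc) = c := rfl

/-- The inclusion `(C^U)[p] → C[p]`, additive. -/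
def inclAdd : pTorsionRep p (C.quotientToInvariants U) →+ pTorsionRep p C where
  toFun x := mkT p C (invVal C U (pTorsionRep.val p _ x)) (by
    rw [← invVal_nsmul, pTorsionRep.nsmul_val, invVal_zero])
  map_zero' := rfl
  map_add' _ _ := rfl

/-- The inclusion `(C^U)[p] → C[p]`. -/
def incl : pTorsionRep p (C.quotientToInvariants U) →ₗ[ZMod p] pTorsionRep p C :=
  (inclAdd p C U).toZModLinearMap p

theorem val_incl (x : pTorsionRep p (C.quotientToInvariants U)) :
    pTorsionRep.val p C (incl p C U x) = invVal C U (pTorsionRep.val p _ x) := rfl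

theorem incl_injective : Function.Injective (incl p C U) := by
  intro x x' h
  apply pTorsionRep.val_injective
  apply invVal_injective
  rw [← val_incl, ← val_incl, h]

theorem incl_equivariant (g : G) (x : pTorsionRep p (C.quotientToInvariants U)) :
    incl p C U ((pTorsionRep p (C.quotientToInvariants U)).ρ (g : G ⧸ U) x)
      = (pTorsionRep p C).ρ g (incl p C U x) := rfl

theorem mem_range_incl (t : pTorsionRep p C)
    (ht : ∀ u ∈ U, (pTorsionRep p C).ρ u t = t) : t ∈ LinearMap.range (incl p C U) := by
  have h1 : ∀ u ∈ U, C.ρ u (pTorsionRep.val p C t) = pTorsionRep.val p C t := by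
    intro u hu
    rw [← pTorsionRep.val_ρ, ht u hu]
  refine ⟨mkT p _ (mkInv C U (pTorsionRep.val p C t) h1) ?_, ?_⟩
  · apply invVal_injective
    rw [invVal_nsmul, invVal_mkInv, pTorsionRep.nsmul_val, invVal_zero]
  · apply pTorsionRep.val_injective
    rfl

/-- **EC4, `H⁰`-part**: `dim Hom_G(infl P, C[p]) = dim Hom_{G/U}(P, C^U[p])`. -/
theorem eqHomRank_infl_pTorsion (P : Rep.{0} (ZMod p) (G ⧸ U)) :
    eqHomRank (SpecB26.infl U P) (pTorsionRep p C)
      = eqHomRank P (pTorsionRep p (C.quotientToInvariants U)) := by
  symm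
  show finrank (ZMod p)
      (Representation.linHom P.ρ (pTorsionRep p (C.quotientToInvariants U)).ρ).invariants
    = finrank (ZMod p)
      (Representation.linHom (P.ρ.comp (QuotientGroup.mk' U)) (pTorsionRep p C).ρ).invariants
  refine finrank_invariants_linHom_eq P.ρ (P.ρ.comp (QuotientGroup.mk' U))
    (pTorsionRep p (C.quotientToInvariants U)).ρ (pTorsionRep p C).ρ (incl p C U)
    (incl_injective p C U) (fun f => ?_) (fun g hg => ?_)
  · constructor
    · intro h g v
      show incl p C U (f (P.ρ (g : G ⧸ U) v)) = _
      rw [h, incl_equivariant]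
    · intro h y v
      obtain ⟨g, rfl⟩ := QuotientGroup.mk_surjective y
      apply incl_injective p C U
      rw [incl_equivariant]
      exact h g v
  · rintro _ ⟨v, rfl⟩
    apply mem_range_incl
    intro u hu
    have h1 := hg u v
    have h2 : (P.ρ.comp (QuotientGroup.mk' U)) u v = v := by
      show P.ρ ((u : G) : G ⧸ U) v = v
      rw [(QuotientGroup.eq_one_iff u).2 hu, map_one, Module.End.one_apply]
    rw [h2] at h1
    exact h1.symm

/-- If `C^U[p]` is finite and `P` is finite-dimensional then `Hom_G(infl P, C[p])` is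
finite-dimensional. -/
theorem finiteDimensional_hom_infl_pTorsion (P : Rep.{0} (ZMod p) (G ⧸ U))
    [FiniteDimensional (ZMod p) P] [Finite (pTorsionSub p (C.quotientToInvariants U))] :
    FiniteDimensional (ZMod p)
      (homRep (SpecB26.infl U P) (pTorsionRep p C)).ρ.invariants := by
  have hfin : Finite (pTorsionRep p (C.quotientToInvariants U)) :=
    inferInstanceAs (Finite (pTorsionSub p (C.quotientToInvariants U)))
  have : Module.Finite (ZMod p) (pTorsionRep p (C.quotientToInvariants U)) :=
    Module.Finite.of_finite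
  have : FiniteDimensional (ZMod p)
      (Representation.linHom P.ρ (pTorsionRep p (C.quotientToInvariants U)).ρ).invariants :=
    inferInstance
  show FiniteDimensional (ZMod p)
      (Representation.linHom (P.ρ.comp (QuotientGroup.mk' U)) (pTorsionRep p C).ρ).invariants
  refine finiteDimensional_invariants_linHom P.ρ (P.ρ.comp (QuotientGroup.mk' U))
    (pTorsionRep p (C.quotientToInvariants U)).ρ (pTorsionRep p C).ρ (incl p C U)
    (incl_injective p C U) (fun f => ?_) (fun g hg => ?_)
  · constructor
    · intro h g v
      show incl p C U (f (P.ρ (g : G ⧸ U) v)) = _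
      rw [h, incl_equivariant]
    · intro h y v
      obtain ⟨g, rfl⟩ := QuotientGroup.mk_surjective y
      apply incl_injective p C U
      rw [incl_equivariant]
      exact h g v
  · rintro _ ⟨v, rfl⟩
    apply mem_range_incl
    intro u hu
    have h1 := hg u v
    have h2 : (P.ρ.comp (QuotientGroup.mk' U)) u v = v := by
      show P.ρ ((u : G) : G ⧸ U) v = v
      rw [(QuotientGroup.eq_one_iff u).2 hu, map_one, Module.End.one_apply]
    rw [h2] at h1
    exact h1.symm

end pTorsion

end

end Fermat.Agent.TW.GlobalEC.HomInv3
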