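/-
TW / WP4 (global Euler characteristic), brick EC5-inf (helper5): the contract
`SpecC26.InfinitePlaceFormula`.

* `eqHomRank_permFun_of_stabilizer` (abstract Frobenius reciprocity): `H` a group acting
  transitively on `Ω`, `w₀ : Ω` with stabiliser `{1, c}`, `c * c = 1`, `2` invertible in `k`, `P`
  finite-dimensional: `dim Hom_H(P, k^Ω) + dim P^{c = -1} = dim P`;
* `eqHomRank_ofMulAction_eq`: Mathlib's permutation module `k[Ω]` versus functions `Ω → k`;
* `infinitePlaceFormula : SpecC26.InfinitePlaceFormula p K`.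
-/
import Mathlib
import Fermat.Agent.TW.GlobalEC.SpecC26
import Fermat.Agent.TW.GlobalEC.HomExact5
import Fermat.Agent.TW.GlobalEC.PermSum5
import Fermat.Agent.TW.GlobalEC.NegEigen3
import Fermat.Agent.TW.GlobalEC.HomInv3

set_option autoImplicit false

namespace Fermat.Agent.TW.GlobalEC.InfPlace5

open Module NumberField
open Fermat.Agent.TW.GlobalEC.Spec26 Fermat.Agent.TW.GlobalEC.SpecB26
open Fermat.Agent.TW.GlobalEC.HomExact5 Fermat.Agent.TW.GlobalEC.PermSum5

section Abstract

variable {k H : Type} [Field k] [Group H] {Ω : Type} [MulAction H Ω]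

/-- Evaluation at a point: `Hom_H(P, k^Ω) → P^*`. -/
noncomputable def evalAt (P : Rep.{0} k H) (w₀ : Ω) :
    eqHom P (permFun k H Ω) →ₗ[k] Module.Dual k P where
  toFun f :=
    { toFun := fun x => (show Ω → k from f.1 x) w₀
      map_add' := fun x y => by rw [map_add]; rfl
      map_smul' := fun a x => by rw [map_smul]; rfl }
  map_add' _ _ := rfl
  map_smul' _ _ := rfl

theorem evalAt_apply (P : Rep.{0} k H) (w₀ : Ω) (f : eqHom P (permFun k H Ω)) (x : P) :
    evalAt P w₀ f x = (show Ω → k from f.1 x) w₀ := rfl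

/-- Values of an equivariant map at translates of the base point. -/
theorem apply_smul (P : Rep.{0} k H) (w₀ : Ω) (f : eqHom P (permFun k H Ω)) (x : P) (h : H) :
    (show Ω → k from f.1 x) (h • w₀) = evalAt P w₀ f (P.ρ h⁻¹ x) := by
  rw [evalAt_apply, (mem_eqHom_iff f.1).mp f.2 h⁻¹ x]
  change _ = (show Ω → k from f.1 x) ((h⁻¹)⁻¹ • w₀)
  rw [inv_inv]

variable (w₀ : Ω) (htrans : ∀ w : Ω, ∃ h : H, h • w₀ = w) (c : H)
  (hstab : ∀ h : H, h • w₀ = w₀ ↔ h = 1 ∨ h = c)

include htrans in
theorem evalAt_injective (P : Rep.{0} k H) : Function.Injective (evalAt P w₀) := by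
  intro f f' hff'
  apply Subtype.ext
  ext x w
  obtain ⟨h, rfl⟩ := htrans w
  change (show Ω → k from f.1 x) (h • w₀) = (show Ω → k from f'.1 x) (h • w₀)
  rw [apply_smul, apply_smul, hff']

include hstab in
/-- The functionals in the range of `evalAt` are `c`-invariant. -/
theorem evalAt_comp_c (P : Rep.{0} k H) (f : eqHom P (permFun k H Ω)) (x : P) :
    evalAt P w₀ f (P.ρ c x) = evalAt P w₀ f x := by
  have hc : c • w₀ = w₀ := (hstab c).mpr (Or.inr rfl)
  have hc' : c⁻¹ • w₀ = w₀ := by rw [inv_smul_eq_iff, hc]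
  have := apply_smul P w₀ f x c⁻¹
  rw [inv_inv, hc'] at this
  exact this.symm

include htrans hstab in
/-- Every `c`-invariant functional is in the range of `evalAt`. -/
theorem exists_evalAt_eq (P : Rep.{0} k H) (l : Module.Dual k P)
    (hl : ∀ x, l (P.ρ c x) = l x) : ∃ f, evalAt P w₀ f = l := by
  classical
  choose g hg using htrans
  -- `l (a x)` only depends on `a⁻¹ • w₀`
  have key : ∀ (a b : H) (x : P), a⁻¹ • w₀ = b⁻¹ • w₀ → l (P.ρ a x) = l (P.ρ b x) := by
    intro a b x hab
    have h1 : (b * a⁻¹) • w₀ = w₀ := by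
      rw [mul_smul, hab, smul_inv_smul]
    rcases (hstab (b * a⁻¹)).mp h1 with h2 | h2
    · have : b = a := by
        have := congrArg (· * a) h2
        simpa using this
      rw [this]
    · have : b = c * a := by
        have := congrArg (· * a) h2
        simpa using this
      rw [this, map_mul, Module.End.mul_apply, hl]
  let F : P →ₗ[k] (Ω → k) :=
    { toFun := fun x w => l (P.ρ (g w)⁻¹ x)
      map_add' := fun x y => by
        funext w
        simp [map_add]
      map_smul' := fun a x => by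
        funext w
        simp [map_smul] }
  have hF : F ∈ eqHom P (permFun k H Ω) := by
    rw [mem_eqHom_iff]
    intro h x
    funext w
    change l (P.ρ (g w)⁻¹ (P.ρ h x)) = l (P.ρ (g (h⁻¹ • w))⁻¹ x)
    rw [← Module.End.mul_apply, ← map_mul]
    apply key
    rw [mul_inv_rev, inv_inv, inv_inv, mul_smul, hg, hg]
  refine ⟨⟨F, hF⟩, ?_⟩
  ext x
  change l (P.ρ (g w₀)⁻¹ x) = l x
  have := key (g w₀)⁻¹ 1 x (by rw [inv_inv, hg, inv_one, one_smul])
  rw [this, map_one, Module.End.one_apply]

include htrans hstab in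
/-- **Frobenius reciprocity** for a transitive `H`-set with stabiliser `{1, c}`. -/
theorem eqHomRank_permFun_of_stabilizer (hcc : c * c = 1) (h2 : (2 : k) ≠ 0)
    (P : Rep.{0} k H) [FiniteDimensional k P] :
    eqHomRank P (permFun k H Ω) + negEigenRank (P.ρ c) = finrank k P := by
  have hinv : ∀ v, P.ρ c (P.ρ c v) = v := by
    intro v
    rw [← Module.End.mul_apply, ← map_mul, hcc, map_one, Module.End.one_apply]
  have hrange : LinearMap.range (evalAt P w₀) =
      (LinearMap.range (P.ρ c - LinearMap.id)).dualAnnihilator := by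
    ext l
    rw [Submodule.mem_dualAnnihilator]
    constructor
    · rintro ⟨f, rfl⟩ y ⟨x, rfl⟩
      rw [LinearMap.sub_apply, LinearMap.id_apply, map_sub,
        evalAt_comp_c w₀ c hstab P f x, sub_self]
    · intro hl
      refine exists_evalAt_eq w₀ htrans c hstab P l fun x => ?_
      have := hl (P.ρ c x - x) ⟨x, rfl⟩
      rw [map_sub, sub_eq_zero] at this
      exact this
  have h1 : eqHomRank P (permFun k H Ω) = finrank k (LinearMap.range (evalAt P w₀)) := by
    rw [eqHomRank_eq, LinearMap.finrank_range_of_inj (evalAt_injective w₀ htrans P)]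
  have h3 := Subspace.finrank_add_finrank_dualAnnihilator_eq
    (LinearMap.range (P.ρ c - LinearMap.id))
  rw [NegEigen3.range_sub_id_eq_ker_add_id (P.ρ c) h2 hinv] at h3 hrange
  rw [h1, hrange, negEigenRank]
  omega

end Abstract

section Iso

variable {k G : Type} [Field k] [Group G]

/-- `dim Hom_G(P, k[Ω]) = dim Hom_G(P, k^Ω)` for a finite `G`-set `Ω`. -/
theorem eqHomRank_ofMulAction_eq (P : Rep.{0} k G) (Ω : Type) [MulAction G Ω] [Finite Ω] :
    eqHomRank P (Rep.ofMulAction k G Ω) = eqHomRank P (permFun k G Ω) := by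
  let Φ : MonoidAlgebra k Ω ≃ₗ[k] (Ω → k) :=
    (MonoidAlgebra.coeffLinearEquiv k).trans (Finsupp.linearEquivFunOnFinite k k Ω)
  refine HomInv3.eqHomRank_congr P (Rep.ofMulAction k G Ω) (permFun k G Ω) Φ ?_
  intro g x
  funext w
  change ((Representation.ofMulAction k G Ω g x).coeff) w = x.coeff (g⁻¹ • w)
  rw [Representation.ofMulAction_def]
  change (Finsupp.mapDomain (g • ·) x.coeff) w = x.coeff (g⁻¹ • w)
  have h1 : (g • · : Ω → Ω) = MulAction.toPerm g := rfl
  rw [h1, Finsupp.mapDomain_equiv_apply]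
  rfl

end Iso

section Arithmetic

/-- **(EC5-inf)** `dim Hom_G(P, 𝔽_p[S_∞(K)]) = dim P - dim P^{c = -1}`. -/
theorem infinitePlaceFormula (p : ℕ) [Fact p.Prime] (K : Type) [Field K] [NumberField K] :
    SpecC26.InfinitePlaceFormula p K := by
  intro hp2 hgal c φ hc P hP
  have h2 : (2 : ZMod p) ≠ 0 := by
    intro h
    have h3 : ((2 : ℕ) : ZMod p) = 0 := by exact_mod_cast h
    rw [ZMod.natCast_eq_zero_iff] at h3
    have := (Nat.prime_dvd_prime_iff_eq (Fact.out : p.Prime) Nat.prime_two).mp h3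
    exact hp2 this
  have htrans : ∀ w : InfinitePlace K, ∃ σ : K ≃ₐ[ℚ] K, σ • InfinitePlace.mk φ = w := fun w =>
    InfinitePlace.exists_smul_eq_of_comap_eq (Subsingleton.elim _ _)
  have hstab : ∀ σ : K ≃ₐ[ℚ] K, σ • InfinitePlace.mk φ = InfinitePlace.mk φ ↔ σ = 1 ∨ σ = c := by
    intro σ
    rw [← MulAction.mem_stabilizer_iff, InfinitePlace.mem_stabilizer_mk_iff]
    refine or_congr Iff.rfl ⟨fun h => h.ext hc, fun h => h ▸ hc⟩
  have hcc : c * c = 1 := by
    ext x
    exact ComplexEmbedding.isConj_apply_apply hc x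
  have h1 := eqHomRank_permFun_of_stabilizer (InfinitePlace.mk φ) htrans c hstab hcc h2 P
  rw [eqHomRank_ofMulAction_eq P (InfinitePlace K)]
  omega

end Arithmetic

end Fermat.Agent.TW.GlobalEC.InfPlace5
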