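/-
TW / WP4 (global Euler characteristic), brick EC5e -- helper74.

The calculus of `h_P` for ADDITIVE equivariant maps (the shape of `SpecC26.IsShortExactAdd`), and
the literal contracts of `SpecC26`:
`pFiniteTwoOfThree`, `hPAdditive`, `hPFinite`, `hPInvariant`, `hPPerm`.

The first part repeats the six-term sequence of `ChiP74` with `→+` in place of `→ₗ[R]`
(`torMap`, `modMap`, `delta` only use additivity).
-/
import Mathlib
import Fermat.Agent.TW.GlobalEC.ChiP74
import Fermat.Agent.TW.GlobalEC.SpecC26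
import Fermat.Agent.TW.GlobalEC.Adm59

set_option autoImplicit false
set_option linter.unusedSectionVars false

namespace Fermat.Agent.TW.GlobalEC.HPCalculus74

open Module
open Fermat.Agent.TW.GlobalEC.Spec26 Fermat.Agent.TW.GlobalEC.SpecB26
open Fermat.Agent.TW.GlobalEC.ChiP74

noncomputable section

variable {G : Type} [Group G]

/-! ### Functoriality of `X[p]` and `X / pX` -/

section functor

variable {R : Type} [CommRing R] (p : ℕ) [Fact p.Prime] {X Y : Rep.{0} R G}

/-- The map induced on `p`-torsion by an additive map. -/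
def torMapA (α : X →+ Y) : pTorsionRep p X →ₗ[ZMod p] pTorsionRep p Y :=
  AddMonoidHom.toZModLinearMap p
    ({ toFun := fun x => ⟨α x.1, by
          change p • α x.1 = 0
          rw [← map_nsmul, show p • x.1 = 0 from x.2, map_zero]⟩
       map_zero' := Subtype.ext (map_zero α)
       map_add' := fun x y => Subtype.ext (map_add α _ _) } :
      pTorsionSub p X →+ pTorsionSub p Y)

theorem val_torMapA (α : X →+ Y) (x : pTorsionRep p X) :
    pTorsionRep.val p Y (torMapA p α x) = α (pTorsionRep.val p X x) := rfl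

theorem torMap_commA (α : X →+ Y) (hα : ∀ g x, α (X.ρ g x) = Y.ρ g (α x)) (g : G)
    (x : pTorsionRep p X) :
    torMapA p α ((pTorsionRep p X).ρ g x) = (pTorsionRep p Y).ρ g (torMapA p α x) := by
  apply pTorsionRep.val_injective
  rw [val_torMapA, pTorsionRep.val_ρ, pTorsionRep.val_ρ, val_torMapA, hα]

/-- The map induced on `X / pX` by an additive map. -/
def modMapA (α : X →+ Y) : modPRep p X →ₗ[ZMod p] modPRep p Y :=
  AddMonoidHom.toZModLinearMap p
    (QuotientAddGroup.map (pMulSub p X) (pMulSub p Y) α (by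
      rintro _ ⟨y, rfl⟩
      exact ⟨α y, by
        change p • α y = α (p • y)
        rw [map_nsmul]⟩))

theorem modMap_mkA (α : X →+ Y) (x : X) :
    modMapA p α (modPRep.mk p X x) = modPRep.mk p Y (α x) := rfl

theorem modMap_commA (α : X →+ Y) (hα : ∀ g x, α (X.ρ g x) = Y.ρ g (α x)) (g : G)
    (x : modPRep p X) :
    modMapA p α ((modPRep p X).ρ g x) = (modPRep p Y).ρ g (modMapA p α x) := by
  obtain ⟨x, rfl⟩ := modPRep.mk_surjective p X x
  rw [modPRep.mk_ρ, modMap_mkA, modMap_mkA, modPRep.mk_ρ, hα]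

end functor

/-! ### The six-term sequence of a short exact sequence -/

section snake

variable {R : Type} [CommRing R] (p : ℕ) [Fact p.Prime] {A B C : Rep.{0} R G}
  (φ : A →+ B) (ψ : B →+ C)

theorem torMap_injectiveA (hinj : Function.Injective φ) : Function.Injective (torMapA p φ) := by
  intro x y h
  apply pTorsionRep.val_injective
  apply hinj
  rw [← val_torMapA, ← val_torMapA, h]

theorem exact_torMapA (hinj : Function.Injective φ) (hex : Function.Exact φ ψ) :
    Function.Exact (torMapA p φ) (torMapA p ψ) := by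
  intro b
  constructor
  · intro hb
    have h0 : ψ (pTorsionRep.val p B b) = 0 := by
      rw [← val_torMapA, hb]; rfl
    obtain ⟨a, ha⟩ := (hex _).mp h0
    have hpa : p • a = 0 := by
      apply hinj
      rw [map_nsmul, ha, map_zero]
      exact pTorsionRep.nsmul_val p B b
    refine ⟨pTorsionRep.mk' p a hpa, ?_⟩
    apply pTorsionRep.val_injective
    rw [val_torMapA, pTorsionRep.val_mk', ha]
  · rintro ⟨a, rfl⟩
    apply pTorsionRep.val_injective
    rw [val_torMapA, val_torMapA]
    exact (hex _).mpr ⟨_, rfl⟩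

theorem modMap_surjectiveA (hsurj : Function.Surjective ψ) :
    Function.Surjective (modMapA p ψ) := by
  intro c
  obtain ⟨c, rfl⟩ := modPRep.mk_surjective p C c
  obtain ⟨b, rfl⟩ := hsurj c
  exact ⟨modPRep.mk p B b, modMap_mkA p ψ b⟩

theorem exact_modMapA (hsurj : Function.Surjective ψ) (hex : Function.Exact φ ψ) :
    Function.Exact (modMapA p φ) (modMapA p ψ) := by
  intro b
  obtain ⟨b, rfl⟩ := modPRep.mk_surjective p B b
  constructor
  · intro hb
    rw [modMap_mkA, modPRep.mk_eq_zero_iff] at hb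
    obtain ⟨c, hc⟩ := hb
    obtain ⟨b', rfl⟩ := hsurj c
    have h0 : ψ (b - p • b') = 0 := by
      rw [map_sub, map_nsmul, hc, sub_self]
    obtain ⟨a, ha⟩ := (hex _).mp h0
    refine ⟨modPRep.mk p A a, ?_⟩
    rw [modMap_mkA, ha, modPRep.mk_eq_mk_iff]
    exact ⟨-b', by rw [smul_neg]; abel⟩
  · rintro ⟨a, ha⟩
    obtain ⟨a, rfl⟩ := modPRep.mk_surjective p A a
    rw [← ha, modMap_mkA, modMap_mkA]
    have : ψ (φ a) = 0 := (hex _).mpr ⟨a, rfl⟩
    rw [this]
    rfl

section deltaA

variable (hinj : Function.Injective φ) (hsurj : Function.Surjective ψ)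
  (hex : Function.Exact φ ψ)

include hsurj hex in
theorem exists_liftA (c : pTorsionRep p C) :
    ∃ a : A, ∃ b : B, ψ b = pTorsionRep.val p C c ∧ φ a = p • b := by
  obtain ⟨b, hb⟩ := hsurj (pTorsionRep.val p C c)
  have h0 : ψ (p • b) = 0 := by
    rw [map_nsmul, hb]
    exact pTorsionRep.nsmul_val p C c
  obtain ⟨a, ha⟩ := (hex _).mp h0
  exact ⟨a, b, hb, ha⟩

/-- The connecting map `C[p] → A / pA`, as a function. -/
def deltaFunA (c : pTorsionRep p C) : modPRep p A :=
  modPRep.mk p A (Classical.choose (exists_liftA p φ ψ hsurj hex c))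

include hinj in
theorem deltaFun_eqA (c : pTorsionRep p C) (a : A) (b : B)
    (h1 : ψ b = pTorsionRep.val p C c) (h2 : φ a = p • b) :
    deltaFunA p φ ψ hsurj hex c = modPRep.mk p A a := by
  obtain ⟨b₀, hb₀, ha₀⟩ := Classical.choose_spec (exists_liftA p φ ψ hsurj hex c)
  set a₀ := Classical.choose (exists_liftA p φ ψ hsurj hex c) with ha₀def
  have h0 : ψ (b₀ - b) = 0 := by rw [map_sub, hb₀, h1, sub_self]
  obtain ⟨a', ha'⟩ := (hex _).mp h0
  unfold deltaFunA
  rw [modPRep.mk_eq_mk_iff]
  refine ⟨a', hinj ?_⟩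
  rw [map_nsmul, ha', map_sub, ha₀, h2, smul_sub]

/-- The connecting map `C[p] → A / pA`. -/
def deltaA : pTorsionRep p C →ₗ[ZMod p] modPRep p A :=
  AddMonoidHom.toZModLinearMap p
    ({ toFun := deltaFunA p φ ψ hsurj hex
       map_zero' := by
         rw [deltaFun_eqA p φ ψ hinj hsurj hex 0 0 0 (map_zero ψ) (by rw [map_zero, smul_zero])]
         rfl
       map_add' := fun c c' => by
         obtain ⟨a, b, h1, h2⟩ := exists_liftA p φ ψ hsurj hex c
         obtain ⟨a', b', h1', h2'⟩ := exists_liftA p φ ψ hsurj hex c'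
         rw [deltaFun_eqA p φ ψ hinj hsurj hex c a b h1 h2,
           deltaFun_eqA p φ ψ hinj hsurj hex c' a' b' h1' h2',
           deltaFun_eqA p φ ψ hinj hsurj hex (c + c') (a + a') (b + b')
             (by rw [map_add, h1, h1']; rfl) (by rw [map_add, h2, h2', smul_add])]
         rfl } : pTorsionRep p C →+ modPRep p A)

theorem delta_eqA (c : pTorsionRep p C) (a : A) (b : B)
    (h1 : ψ b = pTorsionRep.val p C c) (h2 : φ a = p • b) :
    deltaA p φ ψ hinj hsurj hex c = modPRep.mk p A a :=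
  deltaFun_eqA p φ ψ hinj hsurj hex c a b h1 h2

theorem delta_commA (hφ : ∀ g a, φ (A.ρ g a) = B.ρ g (φ a)) (hψ : ∀ g b, ψ (B.ρ g b) = C.ρ g (ψ b))
    (g : G) (c : pTorsionRep p C) :
    deltaA p φ ψ hinj hsurj hex ((pTorsionRep p C).ρ g c) =
      (modPRep p A).ρ g (deltaA p φ ψ hinj hsurj hex c) := by
  obtain ⟨a, b, h1, h2⟩ := exists_liftA p φ ψ hsurj hex c
  rw [delta_eqA p φ ψ hinj hsurj hex c a b h1 h2, modPRep.mk_ρ,
    delta_eqA p φ ψ hinj hsurj hex _ (A.ρ g a) (B.ρ g b)
      (by rw [hψ, h1, pTorsionRep.val_ρ]) (by rw [hφ, h2, map_nsmul])]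

theorem exact_torMap_deltaA :
    Function.Exact (torMapA p ψ) (deltaA p φ ψ hinj hsurj hex) := by
  intro c
  constructor
  · intro hc
    obtain ⟨a, b, h1, h2⟩ := exists_liftA p φ ψ hsurj hex c
    rw [delta_eqA p φ ψ hinj hsurj hex c a b h1 h2, modPRep.mk_eq_zero_iff] at hc
    obtain ⟨a', rfl⟩ := hc
    have hb : p • (b - φ a') = 0 := by
      rw [smul_sub, ← h2, map_nsmul, sub_self]
    refine ⟨pTorsionRep.mk' p (b - φ a') hb, ?_⟩
    apply pTorsionRep.val_injective
    rw [val_torMapA, pTorsionRep.val_mk', map_sub, h1]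
    have : ψ (φ a') = 0 := (hex _).mpr ⟨a', rfl⟩
    rw [this, sub_zero]
  · rintro ⟨b, rfl⟩
    rw [delta_eqA p φ ψ hinj hsurj hex _ 0 (pTorsionRep.val p B b) (val_torMapA p ψ b).symm
      (by rw [map_zero]; exact (pTorsionRep.nsmul_val p B b).symm)]
    rfl

theorem exact_delta_modMapA :
    Function.Exact (deltaA p φ ψ hinj hsurj hex) (modMapA p φ) := by
  intro a
  obtain ⟨a, rfl⟩ := modPRep.mk_surjective p A a
  constructor
  · intro ha
    rw [modMap_mkA, modPRep.mk_eq_zero_iff] at ha
    obtain ⟨b, hb⟩ := ha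
    have hc : p • ψ b = 0 := by
      rw [← map_nsmul, hb]
      exact (hex _).mpr ⟨a, rfl⟩
    refine ⟨pTorsionRep.mk' p (ψ b) hc, ?_⟩
    exact delta_eqA p φ ψ hinj hsurj hex _ a b (pTorsionRep.val_mk' p (ψ b) hc).symm hb.symm
  · rintro ⟨c, hc⟩
    obtain ⟨a', b, h1, h2⟩ := exists_liftA p φ ψ hsurj hex c
    rw [delta_eqA p φ ψ hinj hsurj hex c a' b h1 h2] at hc
    rw [← hc, modMap_mkA, h2, modPRep.mk_eq_zero_iff]
    exact ⟨b, rfl⟩

end deltaA

end snake


/-! ### Additivity for additive maps -/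

section chi

variable {R : Type} [CommRing R] (p : ℕ) [Fact p.Prime]

/-- **Additivity of the mod-`p` Euler characteristic**, additive maps. -/
theorem chi_additive_add {f : Rep.{0} (ZMod p) G → ℤ} (hf : IsAdditive f)
    {A B C : Rep.{0} R G} (φ : A →+ B) (ψ : B →+ C)
    (hφ : ∀ g a, φ (A.ρ g a) = B.ρ g (φ a)) (hψ : ∀ g b, ψ (B.ρ g b) = C.ρ g (ψ b))
    (hinj : Function.Injective φ) (hsurj : Function.Surjective ψ) (hex : Function.Exact φ ψ)
    (hA : ChiP74.IsPFinite p A) (hB : ChiP74.IsPFinite p B) (hC : ChiP74.IsPFinite p C) :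
    chi p f B = chi p f A + chi p f C := by
  have := hA.1; have := hA.2; have := hB.1; have := hB.2; have := hC.1; have := hC.2
  have e1 := isAdditive_add_range hf (torMapA p φ) (torMap_commA p φ hφ) (torMapA p ψ)
    (torMap_commA p ψ hψ) (torMap_injectiveA p φ hinj) (exact_torMapA p φ ψ hinj hex)
  have e2 := isAdditive_range_add_range hf (torMapA p ψ) (torMap_commA p ψ hψ)
    (deltaA p φ ψ hinj hsurj hex) (delta_commA p φ ψ hinj hsurj hex hφ hψ)
    (exact_torMap_deltaA p φ ψ hinj hsurj hex)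
  have e3 := isAdditive_range_add_range hf (deltaA p φ ψ hinj hsurj hex)
    (delta_commA p φ ψ hinj hsurj hex hφ hψ) (modMapA p φ) (modMap_commA p φ hφ)
    (exact_delta_modMapA p φ ψ hinj hsurj hex)
  have e4 := isAdditive_range_add hf (modMapA p φ) (modMap_commA p φ hφ) (modMapA p ψ)
    (modMap_commA p ψ hψ) (modMap_surjectiveA p ψ hsurj) (exact_modMapA p φ ψ hsurj hex)
  unfold chi
  linarith

end chi

/-! ### The contracts of `SpecC26` (EC5e) -/

section contracts

open Fermat.Agent.TW.GlobalEC.SpecC26 Fermat.Agent.TW.GlobalEC.Adm59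

variable (p : ℕ) [Fact p.Prime] (R : Type) [CommRing R] (G)

variable {R G} in
/-- `SpecC26.IsPFinite` is `ChiP74.IsPFinite`. -/
theorem isPFinite_iff (X : Rep.{0} R G) : SpecC26.IsPFinite p X ↔ ChiP74.IsPFinite p X :=
  (adm_iff_finiteDimensional p X).trans and_comm

variable {R G} in
/-- `SpecC26.hP` is `ChiP74.hP`. -/
theorem hP_eq_hP (P : Rep.{0} (ZMod p) G) (X : Rep.{0} R G) :
    SpecC26.hP p P X = ChiP74.hP p P X := rfl

/-- **(EC5e)** two-out-of-three for `p`-finiteness. -/
theorem pFiniteTwoOfThree : PFiniteTwoOfThree p R G := by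
  intro A B C φ ψ hses
  refine ⟨fun hA hC => ?_, fun hA hB => ?_, fun hB hC => ?_⟩
  · exact (adm_iff_admGrp p B).mpr (AdmGrp.of_exact_mid φ ψ hses.inj hses.surj hses.exact
      ((adm_iff_admGrp p A).mp hA) ((adm_iff_admGrp p C).mp hC))
  · exact (adm_iff_admGrp p C).mpr (AdmGrp.of_exact_right φ ψ hses.surj hses.exact
      ((adm_iff_admGrp p A).mp hA) ((adm_iff_admGrp p B).mp hB))
  · exact (adm_iff_admGrp p A).mpr (AdmGrp.of_exact_left φ ψ hses.inj hses.exact
      ((adm_iff_admGrp p B).mp hB) ((adm_iff_admGrp p C).mp hC))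

/-- **(EC5e)** additivity of `h_P`. -/
theorem hPAdditive : HPAdditive p R G := by
  intro P hPfd hproj A B C φ ψ hses hA hB hC
  exact chi_additive_add p (isAdditive_eqHomRank P hproj) φ ψ hses.φ_comm hses.ψ_comm hses.inj
    hses.surj hses.exact ((isPFinite_iff p A).mp hA) ((isPFinite_iff p B).mp hB)
    ((isPFinite_iff p C).mp hC)

/-- **(EC5e)** `h_P` vanishes on finite modules. -/
theorem hPFinite : HPFinite p R G := by
  intro P hPfd hproj X hX
  exact ChiP74.hP_eq_zero_of_finite P hproj X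

/-- **(EC5e)** the additive invariant `h_P`. -/
theorem hPInvariant : HPInvariant p R G := by
  intro P hPfd hproj
  refine ⟨{ dom := SpecC26.IsPFinite p
            h := SpecC26.hP p P
            dom_mid := fun A B C φ ψ hses => (pFiniteTwoOfThree (p := p) (R := R) (G := G) A B C φ ψ hses).1
            dom_right := fun A B C φ ψ hses => (pFiniteTwoOfThree (p := p) (R := R) (G := G) A B C φ ψ hses).2.1
            dom_left := fun A B C φ ψ hses => (pFiniteTwoOfThree (p := p) (R := R) (G := G) A B C φ ψ hses).2.2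
            h_add := fun A B C φ ψ hses => hPAdditive (p := p) (R := R) (G := G) P hPfd hproj A B C φ ψ hses
            dom_finite := fun X hX => (isPFinite_iff p X).mpr (ChiP74.IsPFinite.of_finite X)
            h_finite := fun X hX => hPFinite (p := p) (R := R) (G := G) P hPfd hproj X hX }, fun X => Iff.rfl,
    fun X => rfl⟩

end contracts

/-! ### Iso-invariance of `dim Hom_G(P, -)` -/

section congr

variable {k : Type} [Field k]

/-- `dim Hom_G(P, -)` is invariant under equivariant isomorphisms (no projectivity needed). -/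
theorem eqHomRank_congr (P : Rep.{0} k G) {Y Y' : Rep.{0} k G} (e : Y →ₗ[k] Y')
    (he : ∀ g y, e (Y.ρ g y) = Y'.ρ g (e y)) (hbij : Function.Bijective e) :
    eqHomRank P Y = eqHomRank P Y' := by
  let E := LinearEquiv.ofBijective e hbij
  have hinj : Function.Injective (postComp P e he) := by
    intro h h' hh
    apply Subtype.ext
    apply LinearMap.ext
    intro x
    apply hbij.1
    exact congrArg (fun t : (homRep P Y').ρ.invariants => (show P →ₗ[k] Y' from t.1) x) hh
  have hsurj : Function.Surjective (postComp P e he) := by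
    intro h'
    let h0 : P →ₗ[k] Y := E.symm.toLinearMap ∘ₗ (show P →ₗ[k] Y' from h'.1)
    have he0 : ∀ x, e (h0 x) = (show P →ₗ[k] Y' from h'.1) x := fun x => E.apply_symm_apply _
    have hh0 : ∀ g x, h0 (P.ρ g x) = Y.ρ g (h0 x) := by
      intro g x
      apply hbij.1
      rw [he0, he, he0]
      exact (mem_invariants_homRep_iff _).mp h'.2 g x
    refine ⟨⟨h0, (mem_invariants_homRep_iff h0).mpr hh0⟩, ?_⟩
    apply Subtype.ext
    apply LinearMap.ext
    intro x
    exact he0 x
  exact (LinearEquiv.ofBijective (postComp P e he) ⟨hinj, hsurj⟩).finrank_eq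

/-- `dim Hom_G(P, 0) = 0`. -/
theorem eqHomRank_of_subsingleton (P Y : Rep.{0} k G) [Subsingleton Y] : eqHomRank P Y = 0 := by
  have : Subsingleton (homRep P Y) :=
    ⟨fun a b => LinearMap.ext fun x => Subsingleton.elim (α := Y) _ _⟩
  exact finrank_zero_of_subsingleton

end congr

/-! ### Permutation modules -/

section perm

variable (p : ℕ) [Fact p.Prime] (G) (Ω : Type) [MulAction G Ω]

/-- Reduction of coefficients `ℤ[Ω] → 𝔽_p[Ω]`. -/
def permRed : (Rep.ofMulAction ℤ G Ω) →+ (Rep.ofMulAction (ZMod p) G Ω) :=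
  AddMonoidHom.mk' (MonoidAlgebra.map (M := Ω) (Int.castAddHom (ZMod p)))
    (MonoidAlgebra.map_add _)

theorem permRed_single (ω : Ω) (n : ℤ) :
    permRed G p Ω (MonoidAlgebra.single ω n) = MonoidAlgebra.single ω (n : ZMod p) := by
  change MonoidAlgebra.map (Int.castAddHom (ZMod p)) (MonoidAlgebra.single ω n) = _
  rw [MonoidAlgebra.map_single]
  rfl

theorem coeff_permRed (x : Rep.ofMulAction ℤ G Ω) (ω : Ω) :
    (show MonoidAlgebra (ZMod p) Ω from permRed G p Ω x).coeff ω =
      (((show MonoidAlgebra ℤ Ω from x).coeff ω : ℤ) : ZMod p) := by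
  change (MonoidAlgebra.map (Int.castAddHom (ZMod p)) _).coeff ω = _
  rw [MonoidAlgebra.coeff_map]
  rfl

theorem permRed_comm (g : G) (x : Rep.ofMulAction ℤ G Ω) :
    permRed G p Ω ((Rep.ofMulAction ℤ G Ω).ρ g x) =
      (Rep.ofMulAction (ZMod p) G Ω).ρ g (permRed G p Ω x) := by
  induction (show MonoidAlgebra ℤ Ω from x) using MonoidAlgebra.induction_linear with
  | zero => simp
  | add x y hx hy => rw [map_add, map_add, map_add, map_add, hx, hy]
  | single ω n =>
    change permRed G p Ω (Representation.ofMulAction ℤ G Ω g (MonoidAlgebra.single ω n)) =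
      Representation.ofMulAction (ZMod p) G Ω g (permRed G p Ω (MonoidAlgebra.single ω n))
    rw [Representation.ofMulAction_single, permRed_single, permRed_single,
      Representation.ofMulAction_single]

theorem permRed_surjective : Function.Surjective (permRed G p Ω) :=
  MonoidAlgebra.map_surjective _ (ZMod.intCast_surjective)

theorem permRed_eq_zero_iff (x : Rep.ofMulAction ℤ G Ω) :
    permRed G p Ω x = 0 ↔ ∃ y : Rep.ofMulAction ℤ G Ω, p • y = x := by
  constructor
  · intro h
    have hdvd : ∀ ω, (p : ℤ) ∣ (show MonoidAlgebra ℤ Ω from x).coeff ω := by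
      intro ω
      have := coeff_permRed G p Ω x ω
      rw [h] at this
      exact (ZMod.intCast_zmod_eq_zero_iff_dvd _ _).mp this.symm
    refine ⟨(MonoidAlgebra.ofCoeff ((show MonoidAlgebra ℤ Ω from x).coeff.mapRange
      (fun n => n / (p : ℤ)) (by simp)) : MonoidAlgebra ℤ Ω), ?_⟩
    apply MonoidAlgebra.coeff_injective
    ext ω
    change (p • MonoidAlgebra.ofCoeff _ : MonoidAlgebra ℤ Ω).coeff ω = _
    rw [MonoidAlgebra.coeff_smul, Finsupp.smul_apply, MonoidAlgebra.coeff_ofCoeff,
      Finsupp.mapRange_apply, nsmul_eq_mul]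
    exact Int.mul_ediv_cancel' (hdvd ω)
  · rintro ⟨y, rfl⟩
    rw [map_nsmul]
    apply MonoidAlgebra.coeff_injective
    ext ω
    change (p • (show MonoidAlgebra (ZMod p) Ω from permRed G p Ω y)).coeff ω = 0
    rw [MonoidAlgebra.coeff_smul, Finsupp.smul_apply, nsmul_eq_mul, ZMod.natCast_self, zero_mul]

/-- The isomorphism `ℤ[Ω] / p ≃ 𝔽_p[Ω]`, as a linear map. -/
def permMod : modPRep p (Rep.ofMulAction ℤ G Ω) →ₗ[ZMod p] Rep.ofMulAction (ZMod p) G Ω :=
  AddMonoidHom.toZModLinearMap p
    (QuotientAddGroup.lift (pMulSub p (Rep.ofMulAction ℤ G Ω)) (permRed G p Ω) (by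
      rintro _ ⟨y, rfl⟩
      exact (permRed_eq_zero_iff G p Ω _).mpr ⟨y, rfl⟩))

theorem permMod_mk (x : Rep.ofMulAction ℤ G Ω) :
    permMod G p Ω (modPRep.mk p _ x) = permRed G p Ω x := rfl

theorem permMod_comm (g : G) (x : modPRep p (Rep.ofMulAction ℤ G Ω)) :
    permMod G p Ω ((modPRep p (Rep.ofMulAction ℤ G Ω)).ρ g x) =
      (Rep.ofMulAction (ZMod p) G Ω).ρ g (permMod G p Ω x) := by
  obtain ⟨x, rfl⟩ := modPRep.mk_surjective p _ x
  rw [modPRep.mk_ρ, permMod_mk, permMod_mk, permRed_comm]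

theorem permMod_bijective : Function.Bijective (permMod G p Ω) := by
  constructor
  · rw [injective_iff_map_eq_zero]
    intro x hx
    obtain ⟨x, rfl⟩ := modPRep.mk_surjective p _ x
    rw [permMod_mk, permRed_eq_zero_iff] at hx
    exact (modPRep.mk_eq_zero_iff p _ x).mpr hx
  · intro y
    obtain ⟨x, rfl⟩ := permRed_surjective G p Ω y
    exact ⟨modPRep.mk p _ x, rfl⟩

theorem subsingleton_pTorsionRep_perm : Subsingleton (pTorsionRep p (Rep.ofMulAction ℤ G Ω)) := by
  refine ⟨fun a b => ?_⟩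
  have key : ∀ x : pTorsionRep p (Rep.ofMulAction ℤ G Ω), pTorsionRep.val p _ x = 0 := by
    intro x
    have hx := pTorsionRep.nsmul_val p _ x
    apply MonoidAlgebra.coeff_injective
    ext ω
    have := congrArg (fun t : MonoidAlgebra ℤ Ω => t.coeff ω) hx
    simp only [MonoidAlgebra.coeff_smul, Finsupp.smul_apply, nsmul_eq_mul, MonoidAlgebra.coeff_zero,
      Finsupp.coe_zero, Pi.zero_apply, mul_eq_zero] at this
    rcases this with h | h
    · exact absurd h (by exact_mod_cast (Fact.out : p.Prime).ne_zero)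
    · exact h
  apply pTorsionRep.val_injective
  rw [key a, key b]

/-- **(EC5e)** permutation modules. -/
theorem hPPerm : SpecC26.HPPerm p G := by
  intro Ω _ _ P
  have hsub := subsingleton_pTorsionRep_perm G p Ω
  refine ⟨⟨?_, ?_⟩, ?_⟩
  · have : Subsingleton (pTorsionSub p (Rep.ofMulAction ℤ G Ω)) := hsub
    infer_instance
  · have hfin0 : Finite (Ω →₀ ZMod p) :=
      Finite.of_equiv (Ω → ZMod p) Finsupp.equivFunOnFinite.symm
    have hfin : Finite (Rep.ofMulAction (ZMod p) G Ω) :=
      Finite.of_equiv _ (MonoidAlgebra.coeffEquiv (R := ZMod p) (M := Ω)).symm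
    exact Finite.of_injective (permMod G p Ω) (permMod_bijective G p Ω).1
  · unfold SpecC26.hP
    rw [eqHomRank_of_subsingleton P (pTorsionRep p (Rep.ofMulAction ℤ G Ω)),
      eqHomRank_congr P (permMod G p Ω) (permMod_comm G p Ω) (permMod_bijective G p Ω)]
    simp

end perm

end

end Fermat.Agent.TW.GlobalEC.HPCalculus74
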