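/-
TW / WP4 (global Euler characteristic), brick EC5b-PROD (helper5): additive invariants of finite
products.

For an abstract additive invariant `I : SpecC26.AddInvariant ℤ G` (e.g. `h_P` on the `p`-finite
modules, `HPCalculus74.hPInvariant`), a finite index type `ι` and commutative groups `M i` with
`G`-action:

* `dom_iff_of_bijective`, `h_eq_of_bijective` : invariance under equivariant bijections;
* `pi`                 : if all `M i` are in the domain, so is `∏ i, M i` (Pi action), and
                          `h (∏ i, M i) = ∑ i, h (M i)`;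
* `isPFinite_pi`, `hP_pi` : the same for `SpecC26.IsPFinite p` and `SpecC26.hP p P`
                          (`P` finite-dimensional projective).
-/
import Mathlib
import Fermat.Agent.TW.GlobalEC.SpecC26
import Fermat.Agent.TW.GlobalEC.HPCalculus74

set_option autoImplicit false
set_option linter.unusedSectionVars false

namespace Fermat.Agent.TW.GlobalEC.PiInvariant5

open Module
open Fermat.Agent.TW.GlobalEC.Spec26 Fermat.Agent.TW.GlobalEC.SpecB26
open Fermat.Agent.TW.GlobalEC.SpecC26

noncomputable section

variable {G : Type} [Group G]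

/-! ### Invariance under equivariant bijections -/

section Iso

variable {R : Type} [CommRing R] (I : AddInvariant R G)

/-- The zero module. -/
abbrev zeroRep (R G : Type) [CommRing R] [Group G] : Rep.{0} R G := Rep.trivial R G PUnit

theorem isShortExactAdd_of_bijective {A B : Rep.{0} R G} (φ : A →+ B)
    (hφ : ∀ g a, φ (A.ρ g a) = B.ρ g (φ a)) (hb : Function.Bijective φ) :
    IsShortExactAdd A B (zeroRep R G) φ (0 : B →+ zeroRep R G) where
  φ_comm := hφ
  ψ_comm := fun _ _ => rfl
  inj := hb.1
  surj := fun _ => ⟨0, Subsingleton.elim _ _⟩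
  exact := fun b => ⟨fun _ => hb.2 b, fun _ => rfl⟩

theorem dom_zeroRep : I.dom (zeroRep R G) :=
  I.dom_finite _ (inferInstanceAs (Finite PUnit))

theorem h_zeroRep : I.h (zeroRep R G) = 0 :=
  I.h_finite _ (inferInstanceAs (Finite PUnit))

theorem dom_iff_of_bijective {A B : Rep.{0} R G} (φ : A →+ B)
    (hφ : ∀ g a, φ (A.ρ g a) = B.ρ g (φ a)) (hb : Function.Bijective φ) :
    I.dom A ↔ I.dom B :=
  ⟨fun hA => I.dom_mid A B _ φ 0 (isShortExactAdd_of_bijective φ hφ hb) hA (dom_zeroRep I),
   fun hB => I.dom_left A B _ φ 0 (isShortExactAdd_of_bijective φ hφ hb) hB (dom_zeroRep I)⟩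

theorem h_eq_of_bijective {A B : Rep.{0} R G} (φ : A →+ B)
    (hφ : ∀ g a, φ (A.ρ g a) = B.ρ g (φ a)) (hb : Function.Bijective φ) (hA : I.dom A) :
    I.h B = I.h A := by
  have hB := (dom_iff_of_bijective I φ hφ hb).1 hA
  have := I.h_add A B _ φ 0 (isShortExactAdd_of_bijective φ hφ hb) hA hB (dom_zeroRep I)
  rw [this, h_zeroRep, add_zero]

end Iso

/-! ### Finite products -/

section Pi

variable (I : AddInvariant ℤ G)

/-- The statement of the product formula for an index type. -/
def PiStatement (ι : Type) : Prop :=
  ∀ (_ : Fintype ι) (M : ι → Type) [∀ i, CommGroup (M i)] [∀ i, MulDistribMulAction G (M i)],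
    (∀ i, I.dom (Rep.ofMulDistribMulAction G (M i))) →
    I.dom (Rep.ofMulDistribMulAction G (∀ i, M i)) ∧
      I.h (Rep.ofMulDistribMulAction G (∀ i, M i)) =
        ∑ i, I.h (Rep.ofMulDistribMulAction G (M i))

/-- Restriction along an equivalence of index types. -/
def reindexHom {α β : Type} (e : α ≃ β) (M : β → Type) [∀ i, CommGroup (M i)] :
    (∀ b, M b) →* (∀ a, M (e a)) where
  toFun x := fun a => x (e a)
  map_one' := rfl
  map_mul' _ _ := rfl

theorem reindexHom_bijective {α β : Type} (e : α ≃ β) (M : β → Type) [∀ i, CommGroup (M i)] :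
    Function.Bijective (reindexHom e M) := by
  constructor
  · intro x y hxy
    funext b
    obtain ⟨a, rfl⟩ := e.surjective b
    exact congrFun hxy a
  · intro y
    refine ⟨Equiv.piCongrLeft M e y, ?_⟩
    funext a
    exact Equiv.piCongrLeft_apply_apply M e y a

theorem piStatement_of_equiv {α β : Type} (e : α ≃ β) (h : PiStatement I α) :
    PiStatement I β := by
  intro inst M _ _ hM
  letI : Fintype β := inst
  letI : Fintype α := Fintype.ofEquiv β e.symm
  have h' := h inferInstance (fun a => M (e a)) (fun a => hM (e a))
  let φ : (Rep.ofMulDistribMulAction G (∀ b, M b)) →+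
      (Rep.ofMulDistribMulAction G (∀ a, M (e a))) := (reindexHom e M).toAdditive
  have hφ : ∀ g x, φ ((Rep.ofMulDistribMulAction G (∀ b, M b)).ρ g x) =
      (Rep.ofMulDistribMulAction G (∀ a, M (e a))).ρ g (φ x) := fun _ _ => rfl
  have hb : Function.Bijective φ := reindexHom_bijective e M
  have hdom := (dom_iff_of_bijective I φ hφ hb).2 h'.1
  refine ⟨hdom, ?_⟩
  rw [← h_eq_of_bijective I φ hφ hb hdom, h'.2]
  exact Fintype.sum_equiv e _ _ (fun _ => rfl)

theorem piStatement_empty : PiStatement I PEmpty := by
  intro inst M _ _ _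
  have hfin : Finite (Rep.ofMulDistribMulAction G (∀ i : PEmpty, M i)) :=
    Finite.of_equiv (∀ i : PEmpty, M i) Additive.ofMul
  refine ⟨I.dom_finite _ hfin, ?_⟩
  rw [I.h_finite _ hfin]
  exact (Finset.sum_of_isEmpty _).symm

/-- Extension by `1` at `none`. -/
def extendHom {α : Type} (M : Option α → Type) [∀ i, CommGroup (M i)] :
    (∀ a : α, M (some a)) →* (∀ o, M o) where
  toFun x := fun o => match o with
    | none => 1
    | some a => x a
  map_one' := by
    funext o
    cases o <;> rfl
  map_mul' x y := by
    funext o
    cases o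
    · exact (one_mul (1 : M none)).symm
    · rfl

theorem extendHom_none {α : Type} (M : Option α → Type) [∀ i, CommGroup (M i)]
    (x : ∀ a : α, M (some a)) : extendHom M x none = 1 := rfl

theorem extendHom_some {α : Type} (M : Option α → Type) [∀ i, CommGroup (M i)]
    (x : ∀ a : α, M (some a)) (a : α) : extendHom M x (some a) = x a := rfl

theorem piStatement_option {α : Type} [Fintype α] (h : PiStatement I α) :
    PiStatement I (Option α) := by
  intro inst M _ _ hM
  obtain rfl : inst = instFintypeOption := Subsingleton.elim _ _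
  have h' := h inferInstance (fun a => M (some a)) (fun a => hM (some a))
  let φ : (Rep.ofMulDistribMulAction G (∀ a : α, M (some a))) →+
      (Rep.ofMulDistribMulAction G (∀ o, M o)) := (extendHom M).toAdditive
  let ψ : (Rep.ofMulDistribMulAction G (∀ o, M o)) →+
      (Rep.ofMulDistribMulAction G (M none)) := (Pi.evalMonoidHom M none).toAdditive
  have hses : IsShortExactAdd _ _ _ φ ψ :=
    { φ_comm := by
        intro g (x : Additive (∀ a : α, M (some a)))
        change Additive.ofMul (extendHom M (g • Additive.toMul x)) =
          Additive.ofMul (g • extendHom M (Additive.toMul x))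
        congr 1
        funext o
        cases o
        · exact (smul_one g).symm
        · rfl
      ψ_comm := fun _ _ => rfl
      inj := by
        intro (x : Additive (∀ a : α, M (some a))) (y : Additive (∀ a : α, M (some a))) hxy
        have h1 : extendHom M (Additive.toMul x) = extendHom M (Additive.toMul y) := hxy
        have h2 : Additive.toMul x = Additive.toMul y := by
          funext a
          exact congrFun h1 (some a)
        exact h2
      surj := by
        classical
        intro (m : Additive (M none))
        refine ⟨Additive.ofMul (Pi.mulSingle none (Additive.toMul m)), ?_⟩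
        change Additive.ofMul ((Pi.mulSingle none (Additive.toMul m) : ∀ o, M o) none) = m
        rw [Pi.mulSingle_eq_same]
        rfl
      exact := by
        intro (b : Additive (∀ o, M o))
        constructor
        · intro hb
          have hb1 : (Additive.toMul b : ∀ o, M o) none = 1 := hb
          refine ⟨Additive.ofMul (fun a => (Additive.toMul b : ∀ o, M o) (some a)), ?_⟩
          change Additive.ofMul (extendHom M (fun a => (Additive.toMul b : ∀ o, M o) (some a))) = b
          have : extendHom M (fun a => (Additive.toMul b : ∀ o, M o) (some a)) =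
              Additive.toMul b := by
            funext o
            cases o
            · exact hb1.symm
            · rfl
          rw [this]
          rfl
        · rintro ⟨x, rfl⟩
          rfl }
  have hdom := I.dom_mid _ _ _ φ ψ hses h'.1 (hM none)
  refine ⟨hdom, ?_⟩
  rw [I.h_add _ _ _ φ ψ hses h'.1 hdom (hM none), h'.2, Fintype.sum_option, add_comm]

theorem piStatement (ι : Type) [Finite ι] : PiStatement I ι :=
  Finite.induction_empty_option (P := PiStatement I) (fun e h => piStatement_of_equiv I e h)
    (piStatement_empty I) (fun h => piStatement_option I h) ι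

/-- **Additive invariants of finite products.** -/
theorem pi {ι : Type} [Fintype ι] (M : ι → Type) [∀ i, CommGroup (M i)]
    [∀ i, MulDistribMulAction G (M i)]
    (hM : ∀ i, I.dom (Rep.ofMulDistribMulAction G (M i))) :
    I.dom (Rep.ofMulDistribMulAction G (∀ i, M i)) ∧
      I.h (Rep.ofMulDistribMulAction G (∀ i, M i)) =
        ∑ i, I.h (Rep.ofMulDistribMulAction G (M i)) :=
  piStatement I ι inferInstance M hM

end Pi

/-! ### The case of `h_P` -/

section HP

variable (p : ℕ) [Fact p.Prime]

/-- The invariant `0` on the `p`-finite modules. -/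
def zeroInvariant (R : Type) [CommRing R] : AddInvariant R G where
  dom := IsPFinite p
  h := fun _ => 0
  dom_mid := fun A B C φ ψ hses =>
    (HPCalculus74.pFiniteTwoOfThree (p := p) (R := R) (G := G) A B C φ ψ hses).1
  dom_right := fun A B C φ ψ hses =>
    (HPCalculus74.pFiniteTwoOfThree (p := p) (R := R) (G := G) A B C φ ψ hses).2.1
  dom_left := fun A B C φ ψ hses =>
    (HPCalculus74.pFiniteTwoOfThree (p := p) (R := R) (G := G) A B C φ ψ hses).2.2
  h_add := fun _ _ _ _ _ _ _ _ _ => (add_zero (0 : ℤ)).symm
  dom_finite := fun X _ => (HPCalculus74.isPFinite_iff p X).mpr (ChiP74.IsPFinite.of_finite X)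
  h_finite := fun _ _ => rfl

/-- A finite product of `p`-finite modules is `p`-finite. -/
theorem isPFinite_pi {ι : Type} [Fintype ι] (M : ι → Type) [∀ i, CommGroup (M i)]
    [∀ i, MulDistribMulAction G (M i)]
    (hM : ∀ i, IsPFinite p (Rep.ofMulDistribMulAction G (M i))) :
    IsPFinite p (Rep.ofMulDistribMulAction G (∀ i, M i)) :=
  (pi (zeroInvariant (G := G) p ℤ) M hM).1

/-- `h_P` of a finite product of `p`-finite modules is the sum of the `h_P`. -/
theorem hP_pi (P : Rep.{0} (ZMod p) G) [FiniteDimensional (ZMod p) P] (hproj : IsProjRep P)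
    {ι : Type} [Fintype ι] (M : ι → Type) [∀ i, CommGroup (M i)]
    [∀ i, MulDistribMulAction G (M i)]
    (hM : ∀ i, IsPFinite p (Rep.ofMulDistribMulAction G (M i))) :
    hP p P (Rep.ofMulDistribMulAction G (∀ i, M i)) =
      ∑ i, hP p P (Rep.ofMulDistribMulAction G (M i)) := by
  obtain ⟨I, hdom, hh⟩ := HPCalculus74.hPInvariant (p := p) (R := ℤ) (G := G) P inferInstance hproj
  have := (pi I M (fun i => (hdom _).2 (hM i))).2
  rw [hh] at this
  rw [this]
  exact Finset.sum_congr rfl fun i _ => hh _

/-- Invariance of `p`-finiteness under equivariant bijections. -/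
theorem isPFinite_iff_of_bijective {R : Type} [CommRing R] {A B : Rep.{0} R G} (φ : A →+ B)
    (hφ : ∀ g a, φ (A.ρ g a) = B.ρ g (φ a)) (hb : Function.Bijective φ) :
    IsPFinite p A ↔ IsPFinite p B :=
  dom_iff_of_bijective (zeroInvariant (G := G) p R) φ hφ hb

/-- Invariance of `h_P` under equivariant bijections. -/
theorem hP_eq_of_bijective {R : Type} [CommRing R] (P : Rep.{0} (ZMod p) G)
    [FiniteDimensional (ZMod p) P] (hproj : IsProjRep P) {A B : Rep.{0} R G} (φ : A →+ B)
    (hφ : ∀ g a, φ (A.ρ g a) = B.ρ g (φ a)) (hb : Function.Bijective φ) (hA : IsPFinite p A) :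
    hP p P B = hP p P A := by
  obtain ⟨I, hdom, hh⟩ := HPCalculus74.hPInvariant (p := p) (R := R) (G := G) P inferInstance hproj
  rw [← hh, ← hh]
  exact h_eq_of_bijective I φ hφ hb ((hdom _).2 hA)

end HP

end

end Fermat.Agent.TW.GlobalEC.PiInvariant5
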