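/-
TW / WP4 (global Euler characteristic), brick EC5b-PROD + level assembly (helper5).

The finite-level input `ArithCore59.LevelInput p S L` of the arithmetic core, from the
PER-PRIME semilocal formula (EC5b + EC5c)

  `h_P((L ⊗ ℚ_q)ˣ) = dim Hom_G(P, 𝔽_p[primes of L above q]) + [q = p] dim P`      (`SemilocalFormula`)

for the primes `q ∈ S`: the `S`-ideles `I_S(L) = ∏_{q ∈ S} (L ⊗ ℚ_q)ˣ` are a finite product
(`PiInvariant5`), and the `S`-unit half is `EC5dFinal5.ec5d`.  Consequently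
(`arithmeticCore_of_semilocal`) the arithmetic core `SpecC26.ArithmeticCore` follows from the
semilocal formula at all levels, using `ArithCore59.arithmeticCore` and
`InfPlace5.infinitePlaceFormula`.
-/
import Mathlib
import Fermat.Agent.TW.GlobalEC.ArithCore59
import Fermat.Agent.TW.GlobalEC.EC5dFinal5
import Fermat.Agent.TW.GlobalEC.InfPlace5
import Fermat.Agent.TW.GlobalEC.PiInvariant5

set_option autoImplicit false
set_option linter.unusedSectionVars false

namespace Fermat.Agent.TW.GlobalEC.LevelInput5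

open Module NumberField
open Fermat.Agent.PT.GLOB.Interface23 Fermat.Agent.PT.GLOB.ClassAction23
open Fermat.Agent.TW.GlobalEC.Spec26 Fermat.Agent.TW.GlobalEC.SpecB26
open Fermat.Agent.TW.GlobalEC.PrimesDecomp5

/-- **The per-prime semilocal formula (EC5b + EC5c)** at a rational prime `q`, for the field `L`
with `G = Gal(L/ℚ)`: `(L ⊗ ℚ_q)ˣ` is `p`-finite and
`h_P((L ⊗ ℚ_q)ˣ) = dim Hom_G(P, 𝔽_p[primes above q]) + [q = p] dim P`. -/
def SemilocalFormula (p : ℕ) [Fact p.Prime] (L : Type) [Field L] [NumberField L]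
    (q : Nat.Primes) : Prop :=
  SpecC26.IsPFinite p (Rep.ofMulDistribMulAction (L ≃ₐ[ℚ] L) (Loc L q)ˣ) ∧
  ∀ P : Rep.{0} (ZMod p) (L ≃ₐ[ℚ] L), FiniteDimensional (ZMod p) P → IsProjRep P →
    SpecC26.hP p P (Rep.ofMulDistribMulAction (L ≃ₐ[ℚ] L) (Loc L q)ˣ) =
      (eqHomRank P (Rep.ofMulAction (ZMod p) (L ≃ₐ[ℚ] L) (PrimesOverQ L (q : ℕ))) : ℤ) +
        (if (q : ℕ) = p then (finrank (ZMod p) P : ℤ) else 0)

section Main

variable (p : ℕ) [hp : Fact p.Prime] (S : Finset Nat.Primes)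
  (L : Type) [Field L] [NumberField L]

/-- The `S`-ideles are `p`-finite. -/
theorem isPFinite_repIT (h : ∀ q ∈ S, SemilocalFormula p L q) :
    SpecC26.IsPFinite p (repIT S ℚ L) :=
  PiInvariant5.isPFinite_pi p (fun q : S => (Loc L q.1)ˣ) (fun q => (h q.1 q.2).1)

/-- `h_P` of the `S`-ideles. -/
theorem hP_repIT (hpS : (⟨p, hp.out⟩ : Nat.Primes) ∈ S)
    (h : ∀ q ∈ S, SemilocalFormula p L q)
    (P : Rep.{0} (ZMod p) (L ≃ₐ[ℚ] L)) [FiniteDimensional (ZMod p) P] (hproj : IsProjRep P) :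
    SpecC26.hP p P (repIT S ℚ L) =
      ∑ q ∈ S, (eqHomRank P (Rep.ofMulAction (ZMod p) (L ≃ₐ[ℚ] L) (PrimesOverQ L (q : ℕ))) : ℤ) +
        (finrank (ZMod p) P : ℤ) := by
  have h1 := PiInvariant5.hP_pi p P hproj (fun q : S => (Loc L q.1)ˣ) (fun q => (h q.1 q.2).1)
  let f : Nat.Primes → ℤ := fun q =>
    (eqHomRank P (Rep.ofMulAction (ZMod p) (L ≃ₐ[ℚ] L) (PrimesOverQ L (q : ℕ))) : ℤ) +
      (if (q : ℕ) = p then (finrank (ZMod p) P : ℤ) else 0)
  have h2 : ∀ q : S, SpecC26.hP p P (Rep.ofMulDistribMulAction (L ≃ₐ[ℚ] L) (Loc L q.1)ˣ) =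
      f q.1 := fun q => (h q.1 q.2).2 P inferInstance hproj
  have h3 : SpecC26.hP p P (repIT S ℚ L) = ∑ q : S, f q.1 := by
    rw [← Finset.sum_congr rfl fun q _ => h2 q]
    exact h1
  have h4 : ∑ q ∈ S, f q =
      ∑ q ∈ S, (eqHomRank P (Rep.ofMulAction (ZMod p) (L ≃ₐ[ℚ] L) (PrimesOverQ L (q : ℕ))) : ℤ) +
        ∑ q ∈ S, (if ((q : Nat.Primes) : ℕ) = p then (finrank (ZMod p) P : ℤ) else 0) :=
    Finset.sum_add_distrib
  have h5 : ∑ q ∈ S, (if ((q : Nat.Primes) : ℕ) = p then (finrank (ZMod p) P : ℤ) else 0) =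
      (finrank (ZMod p) P : ℤ) :=
    (Finset.sum_eq_single_of_mem (⟨p, hp.out⟩ : Nat.Primes) hpS
      (fun q _ hq => if_neg (fun hqp => hq (Subtype.ext hqp)))).trans (if_pos rfl)
  rw [h3, Finset.sum_coe_sort S f, h4, h5]

/-- **The finite-level input of the arithmetic core from the per-prime semilocal formula.** -/
theorem levelInput (hpS : (⟨p, hp.out⟩ : Nat.Primes) ∈ S) [IsGalois ℚ L]
    (h : ∀ q ∈ S, SemilocalFormula p L q) : ArithCore59.LevelInput p S L := by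
  refine ⟨isPFinite_repIT p S L h, EC5dFinal5.isPFinite_repUnitsT S ℚ L p, ?_⟩
  intro P hPfd hproj
  have := hPfd
  refine ⟨∑ q ∈ S,
    (eqHomRank P (Rep.ofMulAction (ZMod p) (L ≃ₐ[ℚ] L) (PrimesOverQ L (q : ℕ))) : ℤ), ?_, ?_⟩
  · exact hP_repIT p S L hpS h P hproj
  · exact (EC5dFinal5.ec5d S ℚ L p P hproj).2

end Main

/-! ### The arithmetic core -/

section Core

open Fermat.Agent.PT.GLUE.Objects21 Fermat.Agent.PT.GLUE.Levels21

/-- **(EC5) The arithmetic core from the semilocal formula at all levels.** -/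
theorem arithmeticCore_of_semilocal {S : Finset Nat.Primes} (p : ℕ) [hp : Fact p.Prime]
    (hp2 : p ≠ 2) (hpS : (⟨p, hp.out⟩ : Nat.Primes) ∈ S)
    (h : ∀ K : Lev S, ∀ q ∈ S, SemilocalFormula p K.F q) :
    SpecC26.ArithmeticCore p (levelS S) (CS S) complexConjugation :=
  ArithCore59.arithmeticCore p hp2 hpS (fun K => levelInput p S K.F hpS (h K))
    (fun K => InfPlace5.infinitePlaceFormula p K.F)

end Core

end Fermat.Agent.TW.GlobalEC.LevelInput5
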