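/-
TW / WP4 (global Euler characteristic), brick "EC-HP", bridge -- helper74.

The invariant `ChiP74.hP p P` (on `Rep ℤ G`) satisfies the abstract hypotheses of helper5's
`AddInvariant5` (`IsAdditiveRep`, `VanishesOnFinite`), so that `SUnitSeq5.euler_sUnit` applies to it.
-/
import Mathlib
import Fermat.Agent.TW.GlobalEC.ChiP74
import Fermat.Agent.TW.GlobalEC.AddInvariant5

set_option autoImplicit false
set_option linter.unusedSectionVars false

namespace Fermat.Agent.TW.GlobalEC.HPBridge74

open Module
open Fermat.Agent.TW.GlobalEC.Spec26 Fermat.Agent.TW.GlobalEC.SpecB26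
open Fermat.Agent.TW.GlobalEC.ChiP74 Fermat.Agent.TW.GlobalEC.AddInvariant5

variable {G : Type} [Group G] (p : ℕ) [Fact p.Prime]

/-- Finite generation over `ℤ` for an arbitrary `Module ℤ` instance gives `AddGroup.FG`. -/
theorem addGroup_fg_of_finite_int {M : Type*} [AddCommGroup M] {inst : Module ℤ M}
    (h : @Module.Finite ℤ M _ _ inst) : AddGroup.FG M := by
  have : inst = AddCommGroup.toIntModule M := Subsingleton.elim _ _
  subst this
  exact Module.Finite.iff_addGroup_fg.mp h

/-- Finitely generated abelian groups of exponent `p` are finite. -/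
theorem finite_of_fg_of_killed {M : Type*} [AddCommGroup M] (hfg : AddGroup.FG M)
    (hM : ∀ x : M, p • x = 0) : Finite M := by
  have : Module.Finite ℤ M := Module.Finite.iff_addGroup_fg.mpr hfg
  refine Module.finite_of_fg_torsion M ?_
  intro x
  refine ⟨⟨(p : ℤ), mem_nonZeroDivisors_of_ne_zero
    (by exact_mod_cast (Fact.out : p.Prime).ne_zero)⟩, ?_⟩
  change (p : ℤ) • x = 0
  rw [natCast_zsmul]
  exact hM x

/-- Finitely generated `ℤ[G]`-modules are `p`-finite (group-theoretic form). -/
theorem isPFinite_of_fg {R : Type} [CommRing R] (X : Rep.{0} R G) (hX : AddGroup.FG X) :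
    IsPFinite p X := by
  have hXf : Module.Finite ℤ X := Module.Finite.iff_addGroup_fg.mpr hX
  -- `X / pX`
  have h1' : Finite (X ⧸ pMulSub p X) := by
    have hfg : AddGroup.FG (X ⧸ pMulSub p X) := by
      have : Module.Finite ℤ (X ⧸ pMulSub p X) :=
        Module.Finite.of_surjective (QuotientAddGroup.mk' (pMulSub p X)).toIntLinearMap
          QuotientAddGroup.mk_surjective
      exact Module.Finite.iff_addGroup_fg.mp this
    refine finite_of_fg_of_killed p hfg ?_
    intro x
    obtain ⟨x, rfl⟩ := QuotientAddGroup.mk_surjective x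
    rw [← QuotientAddGroup.mk_nsmul, QuotientAddGroup.eq_zero_iff]
    exact ⟨x, rfl⟩
  have h1 : Finite (modPRep p X) := h1'
  -- `X[p]`
  have h2' : Finite (pTorsionSub p X) := by
    have hfg : AddGroup.FG (pTorsionSub p X) := by
      have : Module.Finite ℤ (pTorsionSub p X) :=
        Module.Finite.of_injective (pTorsionSub p X).subtype.toIntLinearMap
          Subtype.val_injective
      exact Module.Finite.iff_addGroup_fg.mp this
    refine finite_of_fg_of_killed p hfg ?_
    intro x
    exact Subtype.ext (by rw [AddSubgroup.coe_nsmul]; exact x.2)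
  have h2 : Finite (pTorsionRep p X) := h2'
  exact ⟨Module.Finite.of_finite, Module.Finite.of_finite⟩

/-- Finitely generated `ℤ[G]`-modules are `p`-finite. -/
theorem isPFinite_of_finite_int (X : Rep.{0} ℤ G) {inst : Module ℤ X}
    (hX : @Module.Finite ℤ X _ _ inst) : IsPFinite p X :=
  isPFinite_of_fg p X (addGroup_fg_of_finite_int hX)

variable {p} (P : Rep.{0} (ZMod p) G) [FiniteDimensional (ZMod p) P]

/-- `h_P` is additive in the sense of `AddInvariant5`. -/
theorem isAdditiveRep_hP (hproj : IsProjRep P) :
    IsAdditiveRep (hP p P : Rep.{0} ℤ G → ℤ) := by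
  intro A B C φ ψ hses hB
  have hBfg : AddGroup.FG B := addGroup_fg_of_finite_int hB
  have hBf : Module.Finite ℤ B := Module.Finite.iff_addGroup_fg.mpr hBfg
  have hAfg : AddGroup.FG A := by
    have : Module.Finite ℤ A :=
      Module.Finite.of_injective φ.toAddMonoidHom.toIntLinearMap hses.inj
    exact Module.Finite.iff_addGroup_fg.mp this
  have hCfg : AddGroup.FG C := by
    have : Module.Finite ℤ C :=
      Module.Finite.of_surjective ψ.toAddMonoidHom.toIntLinearMap hses.surj
    exact Module.Finite.iff_addGroup_fg.mp this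
  exact hP_additive P hproj φ ψ hses.φ_comm hses.ψ_comm hses.inj hses.surj hses.exact
    (isPFinite_of_fg p A hAfg) (isPFinite_of_fg p B hBfg) (isPFinite_of_fg p C hCfg)

/-- `h_P` vanishes on finite modules. -/
theorem vanishesOnFinite_hP (hproj : IsProjRep P) :
    VanishesOnFinite (hP p P : Rep.{0} ℤ G → ℤ) := by
  intro X hX
  exact hP_eq_zero_of_finite P hproj X

end Fermat.Agent.TW.GlobalEC.HPBridge74
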