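/-
TW / WP4 (global Euler characteristic), brick EC5c, part 1 (helper2).

Abstract "Brauer–Nesbitt, finite-index form" for counting homomorphisms out of a module `P`
that is projective modulo `p`:

`R` any ring, `p` a prime, `V` an `R`-module without `p`-torsion, `N ≤ M` submodules with
`e • M ≤ N` for some `e ≠ 0`.  If `P` lifts along surjections of `R`-modules killed by `p`
(`LiftsModP`), then `#Hom_R(P, N/pN) = #Hom_R(P, M/pM)`.

Everything is stated with `Nat.card` of `P →ₗ[R] _`, so no `ZMod p`-module structures on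
quotients are needed.
-/
import Mathlib

set_option autoImplicit false

namespace Fermat.Agent.TW.GlobalEC.ModPCount2

universe u v w

open Function

section Defs

variable (R : Type u) [Ring R] (p : ℕ)

/-- multiplication by `p` as an `R`-linear endomorphism. -/
def pMap (M : Type v) [AddCommGroup M] [Module R M] : M →ₗ[R] M := p • LinearMap.id

@[simp] theorem pMap_apply (M : Type v) [AddCommGroup M] [Module R M] (x : M) :
    pMap R p M x = p • x := rfl

/-- `M / pM` as an `R`-module. -/
abbrev ModP (M : Type v) [AddCommGroup M] [Module R M] : Type v :=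
  M ⧸ LinearMap.range (pMap R p M)

theorem modP_killed (M : Type v) [AddCommGroup M] [Module R M] (y : ModP R p M) : p • y = 0 := by
  obtain ⟨x, rfl⟩ := Submodule.Quotient.mk_surjective _ y
  rw [← Submodule.Quotient.mk_smul, Submodule.Quotient.mk_eq_zero]
  exact ⟨x, rfl⟩

/-- `P` lifts along surjections `Y → Z` of `R`-modules (in universe `v`) with `pY = 0`. -/
def LiftsModP (P : Type w) [AddCommGroup P] [Module R P] : Prop :=
  ∀ (Y Z : Type v) [AddCommGroup Y] [Module R Y] [AddCommGroup Z] [Module R Z],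
    (∀ y : Y, p • y = 0) → ∀ π : Y →ₗ[R] Z, Surjective π →
      ∀ f : P →ₗ[R] Z, ∃ f' : P →ₗ[R] Y, π ∘ₗ f' = f

end Defs

section Count

variable {R : Type u} [Ring R] {p : ℕ} {P : Type w} [AddCommGroup P] [Module R P]

/-- iso-invariance of the count. -/
theorem card_hom_congr {Y Y' : Type*} [AddCommGroup Y] [Module R Y] [AddCommGroup Y']
    [Module R Y'] (e : Y ≃ₗ[R] Y') : Nat.card (P →ₗ[R] Y) = Nat.card (P →ₗ[R] Y') := by
  refine Nat.card_congr
    { toFun := fun f => e.toLinearMap ∘ₗ f
      invFun := fun f => e.symm.toLinearMap ∘ₗ f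
      left_inv := fun f => by ext x; simp
      right_inv := fun f => by ext x; simp }

/-- multiplicativity of the count along `0 → ker f → Y → range f → 0`. -/
theorem card_hom_eq_ker_mul_range (hP : LiftsModP.{u, v, w} R p P)
    {Y Z : Type v} [AddCommGroup Y] [Module R Y] [AddCommGroup Z] [Module R Z]
    (hY : ∀ y : Y, p • y = 0) (f : Y →ₗ[R] Z) :
    Nat.card (P →ₗ[R] Y) =
      Nat.card (P →ₗ[R] LinearMap.ker f) * Nat.card (P →ₗ[R] LinearMap.range f) := by
  -- the group homomorphism `h ↦ f.rangeRestrict ∘ h`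
  let Ψ : (P →ₗ[R] Y) →+ (P →ₗ[R] LinearMap.range f) :=
    { toFun := fun h => f.rangeRestrict ∘ₗ h
      map_zero' := by simp
      map_add' := fun h h' => by ext x; simp }
  have hsurj : Surjective Ψ := by
    intro g
    obtain ⟨g', hg'⟩ := hP Y (LinearMap.range f) hY f.rangeRestrict
      (LinearMap.surjective_rangeRestrict f) g
    exact ⟨g', hg'⟩
  have hker : Nat.card Ψ.ker = Nat.card (P →ₗ[R] LinearMap.ker f) := by
    refine Nat.card_congr
      { toFun := fun h => LinearMap.codRestrict (LinearMap.ker f) h.1 (fun x => by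
          have h2 : Ψ h.1 = 0 := h.2
          have h3 := congrArg (fun g : P →ₗ[R] LinearMap.range f => ((g x : LinearMap.range f) : Z)) h2
          simpa [Ψ] using h3)
        invFun := fun h => ⟨(LinearMap.ker f).subtype ∘ₗ h, by
          show Ψ _ = 0
          ext x
          simp [Ψ]⟩
        left_inv := fun h => by ext x; rfl
        right_inv := fun h => by ext x; rfl }
  have hrange : Nat.card Ψ.range = Nat.card (P →ₗ[R] LinearMap.range f) := by
    have : Ψ.range = ⊤ := AddMonoidHom.range_eq_top.mpr hsurj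
    rw [this]
    exact Nat.card_congr (Equiv.Set.univ _)
  rw [← AddSubgroup.card_mul_index Ψ.ker, AddSubgroup.index_ker, hker, hrange]

/-- A four-term exact sequence `0 → A → B → C → A' → 0` with `A ≃ A'` has `#Hom(P,B) = #Hom(P,C)`. -/
theorem card_hom_eq_of_four_term (hP : LiftsModP.{u, v, w} R p P)
    {A A' B C : Type v} [AddCommGroup A] [Module R A] [AddCommGroup A'] [Module R A']
    [AddCommGroup B] [Module R B] [AddCommGroup C] [Module R C]
    (hB : ∀ y : B, p • y = 0) (hC : ∀ y : C, p • y = 0)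
    (γ : A →ₗ[R] B) (α : B →ₗ[R] C) (β : C →ₗ[R] A') (e : A ≃ₗ[R] A')
    (hγ : Injective γ) (hγα : LinearMap.range γ = LinearMap.ker α)
    (hαβ : LinearMap.range α = LinearMap.ker β) (hβ : Surjective β) :
    Nat.card (P →ₗ[R] B) = Nat.card (P →ₗ[R] C) := by
  rw [card_hom_eq_ker_mul_range hP hB α, card_hom_eq_ker_mul_range hP hC β]
  have h1 : Nat.card (P →ₗ[R] LinearMap.ker α) = Nat.card (P →ₗ[R] A) :=
    card_hom_congr ((LinearEquiv.ofEq _ _ hγα.symm).trans (LinearEquiv.ofInjective γ hγ).symm)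
  have h2 : Nat.card (P →ₗ[R] LinearMap.range α) = Nat.card (P →ₗ[R] LinearMap.ker β) :=
    card_hom_congr (LinearEquiv.ofEq _ _ hαβ)
  have h3 : Nat.card (P →ₗ[R] LinearMap.range β) = Nat.card (P →ₗ[R] A) :=
    card_hom_congr ((LinearEquiv.ofTop _ (LinearMap.range_eq_top.mpr hβ)).trans e.symm)
  rw [h1, h2, h3, mul_comm]

end Count


section Lattice

variable {R : Type u} [Ring R] {p : ℕ} {P : Type w} [AddCommGroup P] [Module R P]
  {V : Type v} [AddCommGroup V] [Module R V]

/-- the map `N/pN → M/pM` induced by an inclusion `N ≤ M`. -/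
def modPIncl (p : ℕ) {N M : Submodule R V} (h : N ≤ M) : ModP R p N →ₗ[R] ModP R p M :=
  Submodule.mapQ _ _ (Submodule.inclusion h) (by
    rintro _ ⟨n, rfl⟩
    exact ⟨Submodule.inclusion h n, by simp⟩)

theorem modPIncl_mk (p : ℕ) {N M : Submodule R V} (h : N ≤ M) (x : N) :
    modPIncl p h (Submodule.Quotient.mk x) = Submodule.Quotient.mk (Submodule.inclusion h x) :=
  rfl

/-- If `m • M ≤ N ≤ M` with `m` prime to `p`, then `N/pN ≃ M/pM`. -/
theorem modPIncl_bijective_of_coprime {N M : Submodule R V} (h : N ≤ M) (m : ℕ)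
    (hm : ∀ x ∈ M, m • x ∈ N) (hcop : Nat.Coprime m p) : Bijective (modPIncl p h) := by
  obtain ⟨a, b, hab⟩ := Nat.isCoprime_iff_coprime.mpr hcop
  have key : ∀ z : V, z = a • (m • z) + b • (p • z) := by
    intro z
    have : ((a * (m : ℤ) + b * (p : ℤ)) : ℤ) • z = z := by rw [hab, one_smul]
    rw [add_smul, mul_smul, mul_smul, natCast_zsmul, natCast_zsmul] at this
    exact this.symm
  constructor
  · rw [← LinearMap.ker_eq_bot, LinearMap.ker_eq_bot']
    intro y hy
    obtain ⟨x, rfl⟩ := Submodule.Quotient.mk_surjective _ y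
    rw [modPIncl_mk, Submodule.Quotient.mk_eq_zero] at hy
    obtain ⟨z, hz⟩ := hy
    have hz' : p • (z : V) = (x : V) := by
      have := congrArg (fun t : M => (t : V)) hz
      simpa using this
    have hzN : (z : V) ∈ N := by
      rw [key (z : V)]
      refine N.add_mem (N.smul_of_tower_mem a (hm _ z.2)) (N.smul_of_tower_mem b ?_)
      rw [hz']
      exact x.2
    rw [Submodule.Quotient.mk_eq_zero]
    refine ⟨⟨z, hzN⟩, ?_⟩
    apply Subtype.ext
    simpa using hz'
  · intro y
    obtain ⟨z, rfl⟩ := Submodule.Quotient.mk_surjective _ y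
    refine ⟨Submodule.Quotient.mk ⟨a • (m • (z : V)), N.smul_of_tower_mem a (hm _ z.2)⟩, ?_⟩
    rw [modPIncl_mk, Submodule.Quotient.eq]
    refine ⟨(-b) • z, ?_⟩
    apply Subtype.ext
    have := key (z : V)
    have e1 : ((pMap R p M ((-b) • z) : M) : V) = -(b • (p • (z : V))) := by
      simp only [pMap_apply, neg_smul, smul_neg, Submodule.coe_neg, Submodule.coe_smul_of_tower,
        neg_inj]
      exact smul_comm p b (z : V)
    rw [e1]
    simp only [Submodule.coe_sub, Submodule.coe_inclusion]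
    generalize a • m • (z : V) = X at this ⊢
    generalize b • p • (z : V) = Y at this ⊢
    rw [this]
    abel

/-- the equivalence `N/pN ≃ M/pM` when `m • M ≤ N ≤ M` with `m` prime to `p`. -/
noncomputable def modPEquivOfCoprime {N M : Submodule R V} (h : N ≤ M) (m : ℕ)
    (hm : ∀ x ∈ M, m • x ∈ N) (hcop : Nat.Coprime m p) : ModP R p N ≃ₗ[R] ModP R p M :=
  LinearEquiv.ofBijective (modPIncl p h) (modPIncl_bijective_of_coprime h m hm hcop)

end Lattice


section PStep

variable {R : Type u} [Ring R] {p : ℕ} {P : Type w} [AddCommGroup P] [Module R P]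
  {V : Type v} [AddCommGroup V] [Module R V]

/-- `M/N` for `N ≤ M` submodules of `V`. -/
abbrev SubQuot (N M : Submodule R V) : Type v := M ⧸ N.comap M.subtype

/-- multiplication by `p`, as a map `M → N` when `pM ≤ N`. -/
def pInto {N M : Submodule R V} (hp : ∀ x ∈ M, p • x ∈ N) : M →ₗ[R] N :=
  LinearMap.codRestrict N (pMap R p V ∘ₗ M.subtype) (fun x => hp x x.2)

@[simp] theorem coe_pInto {N M : Submodule R V} (hp : ∀ x ∈ M, p • x ∈ N) (x : M) :
    ((pInto hp x : N) : V) = p • (x : V) := rfl

/-- `γ : M/N → N/pN`, induced by multiplication by `p`. -/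
def gammaMap {N M : Submodule R V} (_h : N ≤ M) (hp : ∀ x ∈ M, p • x ∈ N) :
    SubQuot N M →ₗ[R] ModP R p N :=
  Submodule.liftQ _ ((LinearMap.range (pMap R p N)).mkQ ∘ₗ pInto hp) (by
    intro x hx
    rw [Submodule.mem_comap] at hx
    rw [LinearMap.mem_ker, LinearMap.comp_apply, Submodule.mkQ_apply,
      Submodule.Quotient.mk_eq_zero]
    exact ⟨⟨x, hx⟩, Subtype.ext (by simp)⟩)

theorem gammaMap_mk {N M : Submodule R V} (h : N ≤ M) (hp : ∀ x ∈ M, p • x ∈ N) (x : M) :
    gammaMap h hp (Submodule.Quotient.mk x) = Submodule.Quotient.mk (pInto hp x) := rfl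

/-- `β : M/pM → M/N`. -/
def betaMap {N M : Submodule R V} (hp : ∀ x ∈ M, p • x ∈ N) :
    ModP R p M →ₗ[R] SubQuot N M :=
  Submodule.liftQ _ (N.comap M.subtype).mkQ (by
    rintro _ ⟨z, rfl⟩
    rw [LinearMap.mem_ker, Submodule.mkQ_apply, Submodule.Quotient.mk_eq_zero,
      Submodule.mem_comap]
    simpa using hp z z.2)

theorem betaMap_mk {N M : Submodule R V} (hp : ∀ x ∈ M, p • x ∈ N) (x : M) :
    betaMap hp (Submodule.Quotient.mk x) = Submodule.Quotient.mk x := rfl

/-- If `pM ≤ N ≤ M` and `V` has no `p`-torsion, then `#Hom(P, N/pN) = #Hom(P, M/pM)`. -/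
theorem card_hom_modP_eq_of_p_step (hP : LiftsModP.{u, v, w} R p P)
    (htf : ∀ x : V, p • x = 0 → x = 0) {N M : Submodule R V} (h : N ≤ M)
    (hp : ∀ x ∈ M, p • x ∈ N) :
    Nat.card (P →ₗ[R] ModP R p N) = Nat.card (P →ₗ[R] ModP R p M) := by
  refine card_hom_eq_of_four_term hP (modP_killed R p N) (modP_killed R p M)
    (gammaMap h hp) (modPIncl p h) (betaMap hp) (LinearEquiv.refl R _) ?_ ?_ ?_ ?_
  · -- γ injective
    rw [← LinearMap.ker_eq_bot, LinearMap.ker_eq_bot']
    intro y hy
    obtain ⟨x, rfl⟩ := Submodule.Quotient.mk_surjective _ y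
    rw [gammaMap_mk, Submodule.Quotient.mk_eq_zero] at hy
    obtain ⟨n, hn⟩ := hy
    have hn' : p • (n : V) = p • (x : V) := by
      have := congrArg (fun t : N => (t : V)) hn
      simpa using this
    have hx : (x : V) = (n : V) := by
      have h0 : p • ((x : V) - (n : V)) = 0 := by rw [smul_sub, hn', sub_self]
      exact sub_eq_zero.mp (htf _ h0)
    rw [Submodule.Quotient.mk_eq_zero, Submodule.mem_comap, Submodule.subtype_apply, hx]
    exact n.2
  · -- range γ = ker α
    apply le_antisymm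
    · rintro _ ⟨y, rfl⟩
      obtain ⟨x, rfl⟩ := Submodule.Quotient.mk_surjective _ y
      rw [LinearMap.mem_ker, gammaMap_mk, modPIncl_mk, Submodule.Quotient.mk_eq_zero]
      exact ⟨x, Subtype.ext (by simp)⟩
    · intro y hy
      obtain ⟨n, rfl⟩ := Submodule.Quotient.mk_surjective _ y
      rw [LinearMap.mem_ker, modPIncl_mk, Submodule.Quotient.mk_eq_zero] at hy
      obtain ⟨z, hz⟩ := hy
      refine ⟨Submodule.Quotient.mk z, ?_⟩
      rw [gammaMap_mk]
      congr 1
      apply Subtype.ext
      have := congrArg (fun t : M => (t : V)) hz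
      simpa using this
  · -- range α = ker β
    apply le_antisymm
    · rintro _ ⟨y, rfl⟩
      obtain ⟨n, rfl⟩ := Submodule.Quotient.mk_surjective _ y
      rw [LinearMap.mem_ker, modPIncl_mk, betaMap_mk, Submodule.Quotient.mk_eq_zero,
        Submodule.mem_comap]
      simp
    · intro y hy
      obtain ⟨x, rfl⟩ := Submodule.Quotient.mk_surjective _ y
      rw [LinearMap.mem_ker, betaMap_mk, Submodule.Quotient.mk_eq_zero, Submodule.mem_comap] at hy
      exact ⟨Submodule.Quotient.mk ⟨x, hy⟩, rfl⟩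
  · -- β surjective
    intro y
    obtain ⟨x, rfl⟩ := Submodule.Quotient.mk_surjective _ y
    exact ⟨Submodule.Quotient.mk x, rfl⟩

end PStep

section Chain

variable {R : Type u} [Ring R] {p : ℕ} {P : Type w} [AddCommGroup P] [Module R P]
  {V : Type v} [AddCommGroup V] [Module R V]

/-- **Finite-index comparison.** If `e • M ≤ N ≤ M` for some `e ≠ 0`, `V` has no `p`-torsion and
`P` lifts modulo `p`, then `#Hom(P, N/pN) = #Hom(P, M/pM)`. -/
theorem card_hom_modP_eq_of_finiteIndex (hprime : p.Prime) (hP : LiftsModP.{u, v, w} R p P)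
    (htf : ∀ x : V, p • x = 0 → x = 0) :
    ∀ (e : ℕ), e ≠ 0 → ∀ (N M : Submodule R V), N ≤ M → (∀ x ∈ M, e • x ∈ N) →
      Nat.card (P →ₗ[R] ModP R p N) = Nat.card (P →ₗ[R] ModP R p M) := by
  intro e
  induction e using Nat.strong_induction_on with
  | _ e ih =>
    intro he N M h hm
    by_cases he1 : e = 1
    · subst he1
      exact card_hom_congr (modPEquivOfCoprime h 1 hm (Nat.coprime_one_left p))
    · obtain ⟨q, hq, hqe⟩ := Nat.exists_prime_and_dvd he1
      obtain ⟨e', rfl⟩ := hqe
      have he' : e' ≠ 0 := by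
        rintro rfl
        exact he (mul_zero q)
      have hlt : e' < q * e' := by
        have := hq.two_le
        nlinarith [Nat.pos_of_ne_zero he']
      -- the intermediate lattice
      let M' : Submodule R V := N ⊔ M.map (pMap R e' V)
      have hNM' : N ≤ M' := le_sup_left
      have hM'M : M' ≤ M := by
        refine sup_le h ?_
        rintro _ ⟨x, hx, rfl⟩
        exact M.smul_of_tower_mem e' hx
      have h1 : Nat.card (P →ₗ[R] ModP R p M') = Nat.card (P →ₗ[R] ModP R p M) :=
        ih e' hlt he' M' M hM'M (fun x hx => Submodule.mem_sup_right ⟨x, hx, rfl⟩)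
      have hq' : ∀ x ∈ M', q • x ∈ N := by
        intro x hx
        obtain ⟨n, hn, y, ⟨z, hz, rfl⟩, rfl⟩ := Submodule.mem_sup.mp hx
        rw [smul_add]
        refine N.add_mem (N.smul_of_tower_mem q hn) ?_
        rw [pMap_apply, smul_smul]
        exact hm z hz
      have h2 : Nat.card (P →ₗ[R] ModP R p N) = Nat.card (P →ₗ[R] ModP R p M') := by
        by_cases hqp : q = p
        · subst hqp
          exact card_hom_modP_eq_of_p_step hP htf hNM' hq'
        · exact card_hom_congr
            (modPEquivOfCoprime hNM' q hq' ((Nat.coprime_primes hq hprime).mpr hqp))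
      rw [h2, h1]

end Chain

end Fermat.Agent.TW.GlobalEC.ModPCount2
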