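/-
TW / WP4 (global Euler characteristic), brick EC5c, part 2 (helper2).

The group ring side: `R = ℤ[G]`, `A = 𝔽_p[G]`, `red : R → A` the reduction.

* `FpG G p` : `𝔽_p[G]` as a `ℤ[G]`-module, `modPEquivFpG : ℤ[G]/p ≃ₗ[ℤ[G]] FpG G p`;
* `liftsModP_of_projective` : a projective `𝔽_p[G]`-module lifts along surjections of `ℤ[G]`-modules
  killed by `p`;
* `card_hom_FpG` : `#Hom_{ℤ[G]}(P, 𝔽_p[G]) = #P` for `P` finite killed by `p`, `G` finite.
-/
import Mathlib
import Fermat.Agent.TW.GlobalEC.ModPCount2

set_option autoImplicit false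

namespace Fermat.Agent.TW.GlobalEC.GroupRingHom2

open Function MonoidAlgebra
open Fermat.Agent.TW.GlobalEC.ModPCount2

universe u v w

section Red

variable (G : Type u) [Group G] (p : ℕ)

/-- the reduction `ℤ[G] → 𝔽_p[G]`. -/
noncomputable def red : MonoidAlgebra ℤ G →+* MonoidAlgebra (ZMod p) G :=
  MonoidAlgebra.mapRingHom G (Int.castRingHom (ZMod p))

theorem coeff_red (r : MonoidAlgebra ℤ G) (g : G) :
    (red G p r).coeff g = ((r.coeff g : ℤ) : ZMod p) := by
  simp [red, MonoidAlgebra.coeff_mapRingHom]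

theorem red_single (g : G) (n : ℤ) : red G p (single g n) = single g (n : ZMod p) := by
  simp [red, MonoidAlgebra.mapRingHom_single]

theorem red_surjective : Surjective (red G p) := by
  intro a
  induction a using MonoidAlgebra.induction_linear with
  | zero => exact ⟨0, map_zero _⟩
  | add x y hx hy =>
    obtain ⟨x', rfl⟩ := hx
    obtain ⟨y', rfl⟩ := hy
    exact ⟨x' + y', map_add _ _ _⟩
  | single g c =>
    obtain ⟨n, rfl⟩ := ZMod.intCast_surjective c
    exact ⟨single g n, red_single G p g n⟩

theorem red_eq_zero_iff (r : MonoidAlgebra ℤ G) :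
    red G p r = 0 ↔ ∃ r' : MonoidAlgebra ℤ G, r = p • r' := by
  constructor
  · intro h
    have hdvd : ∀ g, (p : ℤ) ∣ r.coeff g := by
      intro g
      have := congrArg (fun a : MonoidAlgebra (ZMod p) G => a.coeff g) h
      simp only [coeff_red, coeff_zero, Finsupp.coe_zero, Pi.zero_apply] at this
      exact (ZMod.intCast_zmod_eq_zero_iff_dvd _ _).mp this
    refine ⟨ofCoeff (r.coeff.mapRange (fun n => n / (p : ℤ)) (by simp)), ?_⟩
    apply MonoidAlgebra.coeff_injective
    ext g
    rw [coeff_smul, coeff_ofCoeff, Finsupp.smul_apply, Finsupp.mapRange_apply, nsmul_eq_mul]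
    exact (Int.mul_ediv_cancel' (hdvd g)).symm
  · rintro ⟨r', rfl⟩
    apply MonoidAlgebra.coeff_injective
    ext g
    rw [coeff_red, coeff_smul, Finsupp.smul_apply, nsmul_eq_mul]
    push_cast
    rw [ZMod.natCast_self, zero_mul]
    rfl

/-- an element of the kernel of `red` kills every module killed by `p`. -/
theorem smul_eq_zero_of_red_eq_zero {Y : Type v} [AddCommGroup Y] [Module (MonoidAlgebra ℤ G) Y]
    (hY : ∀ y : Y, p • y = 0) {r : MonoidAlgebra ℤ G} (hr : red G p r = 0) (y : Y) : r • y = 0 := by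
  obtain ⟨r', rfl⟩ := (red_eq_zero_iff G p r).mp hr
  rw [smul_assoc]
  exact hY _

theorem smul_eq_smul_of_red_eq {Y : Type v} [AddCommGroup Y] [Module (MonoidAlgebra ℤ G) Y]
    (hY : ∀ y : Y, p • y = 0) {r r' : MonoidAlgebra ℤ G} (hr : red G p r = red G p r') (y : Y) :
    r • y = r' • y := by
  have : (r - r') • y = 0 :=
    smul_eq_zero_of_red_eq_zero G p hY (by rw [map_sub, hr, sub_self]) y
  rwa [sub_smul, sub_eq_zero] at this

end Red

section ModuleOfKilled

variable (G : Type u) [Group G] (p : ℕ) (Y : Type v) [AddCommGroup Y]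
  [Module (MonoidAlgebra ℤ G) Y]

/-- the `𝔽_p[G]`-action on a `ℤ[G]`-module killed by `p` (through a set-theoretic section). -/
@[instance_reducible] noncomputable def smulOfKilled : SMul (MonoidAlgebra (ZMod p) G) Y :=
  ⟨fun a y => surjInv (red_surjective G p) a • y⟩

/-- a `ℤ[G]`-module killed by `p` is an `𝔽_p[G]`-module. -/
@[instance_reducible] noncomputable def moduleOfKilled (hY : ∀ y : Y, p • y = 0) : Module (MonoidAlgebra (ZMod p) G) Y :=
  letI := smulOfKilled G p Y
  Function.Surjective.moduleLeft (red G p) (red_surjective G p) (fun c x =>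
    smul_eq_smul_of_red_eq G p hY (surjInv_eq (red_surjective G p) (red G p c)) x)

theorem red_smul_of_killed (hY : ∀ y : Y, p • y = 0) (r : MonoidAlgebra ℤ G) (y : Y) :
    letI := moduleOfKilled G p Y hY
    red G p r • y = r • y :=
  smul_eq_smul_of_red_eq G p hY (surjInv_eq (red_surjective G p) (red G p r)) y

end ModuleOfKilled

section Lifting

variable (G : Type u) [Group G] (p : ℕ)

/-- A projective `𝔽_p[G]`-module, regarded as a `ℤ[G]`-module through `red`, lifts along
surjections of `ℤ[G]`-modules killed by `p`. -/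
theorem liftsModP_of_projective {P : Type w} [AddCommGroup P] [Module (MonoidAlgebra ℤ G) P]
    [Module (MonoidAlgebra (ZMod p) G) P]
    (hcompat : ∀ (r : MonoidAlgebra ℤ G) (x : P), r • x = red G p r • x)
    [Module.Projective (MonoidAlgebra (ZMod p) G) P] :
    LiftsModP.{u, v, w} (MonoidAlgebra ℤ G) p P := by
  intro Y Z _ _ _ _ hY π hπ f
  have hZ : ∀ z : Z, p • z = 0 := by
    intro z
    obtain ⟨y, rfl⟩ := hπ z
    rw [← map_nsmul, hY, map_zero]
  let _ : Module (MonoidAlgebra (ZMod p) G) Y := moduleOfKilled G p Y hY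
  let _ : Module (MonoidAlgebra (ZMod p) G) Z := moduleOfKilled G p Z hZ
  have hredY : ∀ (r : MonoidAlgebra ℤ G) (y : Y), red G p r • y = r • y :=
    red_smul_of_killed G p Y hY
  have hredZ : ∀ (r : MonoidAlgebra ℤ G) (z : Z), red G p r • z = r • z :=
    red_smul_of_killed G p Z hZ
  let πA : Y →ₗ[MonoidAlgebra (ZMod p) G] Z :=
    { toFun := π
      map_add' := π.map_add
      map_smul' := fun a y => by
        obtain ⟨r, rfl⟩ := red_surjective G p a
        simp only [RingHom.id_apply]
        rw [hredY, hredZ, π.map_smul] }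
  let fA : P →ₗ[MonoidAlgebra (ZMod p) G] Z :=
    { toFun := f
      map_add' := f.map_add
      map_smul' := fun a x => by
        obtain ⟨r, rfl⟩ := red_surjective G p a
        simp only [RingHom.id_apply]
        rw [← hcompat, hredZ, f.map_smul] }
  obtain ⟨h, hh⟩ := Module.projective_lifting_property πA fA hπ
  refine ⟨{ toFun := h
            map_add' := h.map_add
            map_smul' := fun r x => by
              simp only [RingHom.id_apply]
              rw [hcompat, h.map_smul, hredY] }, ?_⟩
  ext x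
  exact congrArg (fun g : P →ₗ[MonoidAlgebra (ZMod p) G] Z => g x) hh

end Lifting


section FpG

variable (G : Type u) [Group G] (p : ℕ)

/-- `𝔽_p[G]` regarded as a `ℤ[G]`-module through `red`. -/
def FpG : Type u := MonoidAlgebra (ZMod p) G

noncomputable instance : AddCommGroup (FpG G p) :=
  inferInstanceAs (AddCommGroup (MonoidAlgebra (ZMod p) G))

noncomputable instance : Module (MonoidAlgebra ℤ G) (FpG G p) :=
  Module.compHom (MonoidAlgebra (ZMod p) G) (red G p)

/-- view an element of `FpG` as an element of the group algebra. -/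
def FpG.toAlg (a : FpG G p) : MonoidAlgebra (ZMod p) G := a

/-- view an element of the group algebra as an element of `FpG`. -/
def FpG.ofAlg (a : MonoidAlgebra (ZMod p) G) : FpG G p := a

theorem FpG.smul_def (r : MonoidAlgebra ℤ G) (a : FpG G p) :
    FpG.toAlg G p (r • a) = red G p r * FpG.toAlg G p a := rfl

theorem FpG.toAlg_add (a b : FpG G p) :
    FpG.toAlg G p (a + b) = FpG.toAlg G p a + FpG.toAlg G p b := rfl

theorem FpG.toAlg_zero : FpG.toAlg G p (0 : FpG G p) = 0 := rfl

omit [Group G] in
theorem FpG.toAlg_injective : Injective (FpG.toAlg G p) := fun _ _ h => h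

theorem FpG.killed (a : FpG G p) : p • a = 0 := by
  apply FpG.toAlg_injective
  show p • FpG.toAlg G p a = 0
  apply MonoidAlgebra.coeff_injective
  ext g
  rw [coeff_smul, Finsupp.smul_apply, nsmul_eq_mul, ZMod.natCast_self, zero_mul]
  rfl

/-- reduction as a `ℤ[G]`-linear map `ℤ[G] → FpG`. -/
noncomputable def redLin : MonoidAlgebra ℤ G →ₗ[MonoidAlgebra ℤ G] FpG G p where
  toFun r := FpG.ofAlg G p (red G p r)
  map_add' r s := by
    apply FpG.toAlg_injective
    show red G p (r + s) = red G p r + red G p s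
    exact map_add _ _ _
  map_smul' r s := by
    apply FpG.toAlg_injective
    show red G p (r * s) = red G p r * red G p s
    exact map_mul _ _ _

theorem redLin_surjective : Surjective (redLin G p) := fun a => by
  obtain ⟨r, hr⟩ := red_surjective G p (FpG.toAlg G p a)
  exact ⟨r, hr⟩

theorem ker_redLin : LinearMap.ker (redLin G p) =
    LinearMap.range (pMap (MonoidAlgebra ℤ G) p (MonoidAlgebra ℤ G)) := by
  ext r
  rw [LinearMap.mem_ker, LinearMap.mem_range]
  have : redLin G p r = 0 ↔ red G p r = 0 := Iff.rfl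
  rw [this, red_eq_zero_iff]
  constructor
  · rintro ⟨r', rfl⟩
    exact ⟨r', rfl⟩
  · rintro ⟨r', rfl⟩
    exact ⟨r', rfl⟩

/-- `ℤ[G]/p ≃ 𝔽_p[G]` as `ℤ[G]`-modules. -/
noncomputable def modPEquivFpG :
    ModP (MonoidAlgebra ℤ G) p (MonoidAlgebra ℤ G) ≃ₗ[MonoidAlgebra ℤ G] FpG G p :=
  (Submodule.quotEquivOfEq _ _ (ker_redLin G p).symm).trans
    ((redLin G p).quotKerEquivOfSurjective (redLin_surjective G p))

end FpG

end Fermat.Agent.TW.GlobalEC.GroupRingHom2
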