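/-
TW / WP4 (global Euler characteristic), brick EC5c, part 3 (helper2).

`#Hom_{ℤ[G]}(P, 𝔽_p[G]) = #P` for a finite `ℤ[G]`-module `P` killed by `p` (`G` finite):
a `ℤ[G]`-linear map `f : P → 𝔽_p[G]` is determined by the additive map `x ↦ (f x)(1)`, and
every additive map `P → 𝔽_p` arises (Frobenius reciprocity for the regular representation).
-/
import Mathlib
import Fermat.Agent.TW.GlobalEC.GroupRingHom2

set_option autoImplicit false

namespace Fermat.Agent.TW.GlobalEC.HomFpG2

open Function MonoidAlgebra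
open Fermat.Agent.TW.GlobalEC.ModPCount2
open Fermat.Agent.TW.GlobalEC.GroupRingHom2

universe u w

section

variable (G : Type u) [Group G] (p : ℕ)
variable {P : Type w} [AddCommGroup P] [Module (MonoidAlgebra ℤ G) P]

/-- the "coefficient at `1`" functional attached to a `ℤ[G]`-linear map `P → 𝔽_p[G]`. -/
noncomputable def coeffOne (f : P →ₗ[MonoidAlgebra ℤ G] FpG G p) : P →+ ZMod p where
  toFun x := (FpG.toAlg G p (f x)).coeff 1
  map_zero' := by rw [map_zero]; rfl
  map_add' x y := by rw [map_add, FpG.toAlg_add, coeff_add, Finsupp.add_apply]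

theorem coeffOne_apply (f : P →ₗ[MonoidAlgebra ℤ G] FpG G p) (x : P) :
    coeffOne G p f x = (FpG.toAlg G p (f x)).coeff 1 := rfl

/-- all coefficients of `f x` are recovered from `coeffOne f`. -/
theorem coeff_apply_eq (f : P →ₗ[MonoidAlgebra ℤ G] FpG G p) (x : P) (g : G) :
    (FpG.toAlg G p (f x)).coeff g = coeffOne G p f (single g⁻¹ (1 : ℤ) • x) := by
  rw [coeffOne_apply, f.map_smul, FpG.smul_def, red_single, Int.cast_one,
    coeff_single_mul_apply, one_mul, inv_inv, mul_one]

variable [Finite G]

/-- the underlying function of the `ℤ[G]`-linear map attached to a functional. -/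
noncomputable def ofFunctionalFun (l : P →+ ZMod p) (x : P) : FpG G p :=
  FpG.ofAlg G p (ofCoeff (Finsupp.equivFunOnFinite.symm fun g => l (single g⁻¹ (1 : ℤ) • x)))

theorem coeff_ofFunctionalFun (l : P →+ ZMod p) (x : P) (g : G) :
    (FpG.toAlg G p (ofFunctionalFun G p l x)).coeff g = l (single g⁻¹ (1 : ℤ) • x) := by
  show (ofCoeff (Finsupp.equivFunOnFinite.symm fun g => l (single g⁻¹ (1 : ℤ) • x))).coeff g = _
  rw [coeff_ofCoeff]
  rfl

theorem ofFunctionalFun_add (l : P →+ ZMod p) (x y : P) :
    ofFunctionalFun G p l (x + y) = ofFunctionalFun G p l x + ofFunctionalFun G p l y := by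
  apply FpG.toAlg_injective
  rw [FpG.toAlg_add]
  apply MonoidAlgebra.coeff_injective
  ext g
  rw [coeff_add, Finsupp.add_apply, coeff_ofFunctionalFun, coeff_ofFunctionalFun,
    coeff_ofFunctionalFun, smul_add, map_add]

theorem ofFunctionalFun_smul (l : P →+ ZMod p) (r : MonoidAlgebra ℤ G) (x : P) :
    ofFunctionalFun G p l (r • x) = r • ofFunctionalFun G p l x := by
  apply FpG.toAlg_injective
  rw [FpG.smul_def]
  apply MonoidAlgebra.coeff_injective
  ext g
  rw [coeff_ofFunctionalFun]
  induction r using MonoidAlgebra.induction_linear with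
  | zero =>
    rw [zero_smul, smul_zero, map_zero, map_zero, zero_mul]
    rfl
  | add r s hr hs =>
    rw [add_smul, smul_add, map_add, hr, hs, map_add, add_mul, coeff_add, Finsupp.add_apply]
  | single h n =>
    rw [red_single, coeff_single_mul_apply, coeff_ofFunctionalFun, mul_inv_rev, inv_inv,
      smul_smul, single_mul_single, one_mul]
    have h1 : single (g⁻¹ * h) n = n • single (g⁻¹ * h) (1 : ℤ) := by
      rw [smul_single, smul_eq_mul, mul_one]
    rw [h1, smul_assoc, map_zsmul, zsmul_eq_mul]

/-- the `ℤ[G]`-linear map `P → 𝔽_p[G]` attached to an additive functional `P → 𝔽_p`. -/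
noncomputable def ofFunctional (l : P →+ ZMod p) : P →ₗ[MonoidAlgebra ℤ G] FpG G p where
  toFun := ofFunctionalFun G p l
  map_add' := ofFunctionalFun_add G p l
  map_smul' := ofFunctionalFun_smul G p l

/-- **Frobenius reciprocity** for the regular representation. -/
noncomputable def homFpGEquiv : (P →ₗ[MonoidAlgebra ℤ G] FpG G p) ≃ (P →+ ZMod p) where
  toFun := coeffOne G p
  invFun := ofFunctional G p
  left_inv f := by
    ext x
    apply FpG.toAlg_injective
    apply MonoidAlgebra.coeff_injective
    ext g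
    show (FpG.toAlg G p (ofFunctionalFun G p (coeffOne G p f) x)).coeff g = _
    rw [coeff_ofFunctionalFun, coeff_apply_eq]
  right_inv l := by
    ext x
    show (FpG.toAlg G p (ofFunctionalFun G p l x)).coeff 1 = _
    rw [coeff_ofFunctionalFun, inv_one, ← MonoidAlgebra.one_def, one_smul]

/-- the number of additive functionals on a finite group killed by the prime `p`. -/
theorem card_addMonoidHom_zmod [Fact p.Prime] {Q : Type w} [AddCommGroup Q] [Finite Q]
    (hQ : ∀ x : Q, p • x = 0) : Nat.card (Q →+ ZMod p) = Nat.card Q := by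
  have inst : Module (ZMod p) Q := AddCommGroup.zmodModule hQ
  have : Module.Finite (ZMod p) Q := Module.Finite.of_finite
  have e : (Q →+ ZMod p) ≃+ Module.Dual (ZMod p) Q := AddMonoidHom.toZModLinearMapEquiv p
  have h0 : Nat.card (Q →+ ZMod p) = Nat.card (Module.Dual (ZMod p) Q) :=
    Nat.card_congr e.toEquiv
  have h1 : Nat.card (Module.Dual (ZMod p) Q) =
      Nat.card (ZMod p) ^ Module.finrank (ZMod p) (Module.Dual (ZMod p) Q) :=
    Module.natCard_eq_pow_finrank (K := ZMod p) (V := Module.Dual (ZMod p) Q)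
  rw [h0, h1, Subspace.dual_finrank_eq, ← Module.natCard_eq_pow_finrank]

/-- `#Hom_{ℤ[G]}(P, 𝔽_p[G]) = #P`. -/
theorem card_hom_FpG [Fact p.Prime] [Finite P] (hP : ∀ x : P, p • x = 0) :
    Nat.card (P →ₗ[MonoidAlgebra ℤ G] FpG G p) = Nat.card P := by
  rw [Nat.card_congr (homFpGEquiv G p), card_addMonoidHom_zmod p hP]

end

end Fermat.Agent.TW.GlobalEC.HomFpG2
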