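/-
TW / WP4 (global Euler characteristic), brick EC5c, part 4 (helper2).

Glue between `k`-linear representations (`Representation k G X`) and `ℤ[G]`-modules:
`ZG ρ` is `X` as a `ℤ[G]`-module; an additive map commuting with the group elements is
`ℤ[G]`-linear.
-/
import Mathlib
import Fermat.Agent.TW.GlobalEC.GroupRingHom2

set_option autoImplicit false

namespace Fermat.Agent.TW.GlobalEC.ZGModule2

open Function MonoidAlgebra
open Fermat.Agent.TW.GlobalEC.ModPCount2
open Fermat.Agent.TW.GlobalEC.GroupRingHom2

section Basic

variable {G : Type} [Group G] {k : Type} [CommRing k] {X : Type} [AddCommGroup X] [Module k X]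

/-- the `ℤ`-linear representation underlying a `k`-linear one. -/
def intRep (ρ : Representation k G X) : Representation ℤ G X where
  toFun g := (ρ g).toAddMonoidHom.toIntLinearMap
  map_one' := by
    ext x
    simp
  map_mul' g h := by
    ext x
    simp

@[simp] theorem intRep_apply (ρ : Representation k G X) (g : G) (x : X) :
    intRep ρ g x = ρ g x := rfl

/-- `X` as a `ℤ[G]`-module. -/
abbrev ZG (ρ : Representation k G X) : Type := (intRep ρ).asModule

/-- `X → ZG ρ`. -/
def ZG.mk (ρ : Representation k G X) : X ≃+ ZG ρ := (intRep ρ).asModuleEquiv.symm.toAddEquiv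

theorem ZG.single_smul (ρ : Representation k G X) (g : G) (n : ℤ) (x : X) :
    single g n • ZG.mk ρ x = ZG.mk ρ (n • ρ g x) := by
  rw [Representation.single_smul]
  rfl

theorem ZG.single_one_smul (ρ : Representation k G X) (g : G) (x : X) :
    single g (1 : ℤ) • ZG.mk ρ x = ZG.mk ρ (ρ g x) := by
  rw [ZG.single_smul, one_smul]

end Basic

section Linear

variable {G : Type} [Group G]
variable {Y Z : Type*} [AddCommGroup Y] [Module (MonoidAlgebra ℤ G) Y] [AddCommGroup Z]
  [Module (MonoidAlgebra ℤ G) Z]

/-- an additive map commuting with the group elements is `ℤ[G]`-linear. -/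
def linearOfComm (f : Y →+ Z) (h : ∀ (g : G) (y : Y), f (single g (1 : ℤ) • y) = single g (1 : ℤ) • f y) :
    Y →ₗ[MonoidAlgebra ℤ G] Z where
  toFun := f
  map_add' := f.map_add
  map_smul' r y := by
    simp only [RingHom.id_apply]
    induction r using MonoidAlgebra.induction_linear with
    | zero => rw [zero_smul, zero_smul, map_zero]
    | add r s hr hs => rw [add_smul, add_smul, map_add, hr, hs]
    | single g n =>
      have h1 : single g n = n • single g (1 : ℤ) := by
        rw [smul_single, smul_eq_mul, mul_one]
      rw [h1, smul_assoc, smul_assoc, map_zsmul, h]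

@[simp] theorem linearOfComm_apply (f : Y →+ Z)
    (h : ∀ (g : G) (y : Y), f (single g (1 : ℤ) • y) = single g (1 : ℤ) • f y) (y : Y) :
    linearOfComm f h y = f y := rfl

end Linear

end Fermat.Agent.TW.GlobalEC.ZGModule2
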