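/-
TW / WP4 (global Euler characteristic), brick EC5c, part 5 (helper2).

The arithmetic input: for a finite Galois extension `K/ℚ` with group `G`, the ring of integers
`𝓞 K` contains a free `ℤ[G]`-module `ℤ[G] θ` of finite index (normal basis theorem + clearing
denominators).  Hence, by the finite-index count of `ModPCount2` and Frobenius reciprocity
(`HomFpG2`), `#Hom_{ℤ[G]}(P, 𝓞_K / p) = #P` for every finite `ℤ[G]`-module `P` killed by `p`
that lifts along surjections of modules killed by `p` (e.g. a projective `𝔽_p[G]`-module).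
-/
import Mathlib
import Fermat.Agent.TW.GlobalEC.ZGModule2
import Fermat.Agent.TW.GlobalEC.HomFpG2

set_option autoImplicit false

namespace Fermat.Agent.TW.GlobalEC.NormalBasisModP2

open Function MonoidAlgebra NumberField
open Fermat.Agent.TW.GlobalEC.ModPCount2
open Fermat.Agent.TW.GlobalEC.GroupRingHom2
open Fermat.Agent.TW.GlobalEC.HomFpG2
open Fermat.Agent.TW.GlobalEC.ZGModule2

section Generic

/-- bounded exponent from pointwise exponents, for finitely generated abelian groups. -/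
theorem exists_nsmul_mem_of_forall {M : Type*} [AddCommGroup M] [AddGroup.FG M]
    (N : AddSubgroup M) (h : ∀ x : M, ∃ e : ℕ, e ≠ 0 ∧ e • x ∈ N) :
    ∃ e : ℕ, e ≠ 0 ∧ ∀ x : M, e • x ∈ N := by
  classical
  obtain ⟨S, hS⟩ := (AddGroup.fg_def.mp ‹AddGroup.FG M› : (⊤ : AddSubgroup M).FG)
  choose e he hmem using h
  refine ⟨∏ s ∈ S, e s, Finset.prod_ne_zero_iff.mpr fun s _ => he s, fun x => ?_⟩
  have hx : x ∈ AddSubgroup.closure (S : Set M) := by rw [hS]; trivial
  induction hx using AddSubgroup.closure_induction with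
  | mem s hs =>
    rw [← Finset.mul_prod_erase S e hs, mul_comm, mul_smul]
    exact N.nsmul_mem (hmem s) _
  | zero => rw [smul_zero]; exact N.zero_mem
  | add x y _ _ hx hy => rw [smul_add]; exact N.add_mem hx hy
  | neg x _ hx => rw [smul_neg]; exact N.neg_mem hx

universe u v

/-- `M ↦ M / pM` is functorial for isomorphisms. -/
noncomputable def modPCongr {R : Type u} [Ring R] (p : ℕ) {M M' : Type v} [AddCommGroup M]
    [Module R M] [AddCommGroup M'] [Module R M'] (e : M ≃ₗ[R] M') :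
    ModP R p M ≃ₗ[R] ModP R p M' :=
  Submodule.Quotient.equiv _ _ e (by
    ext y
    constructor
    · rintro ⟨_, ⟨x, rfl⟩, rfl⟩
      exact ⟨e x, by simp [pMap]⟩
    · rintro ⟨x', rfl⟩
      exact ⟨pMap R p M (e.symm x'), ⟨_, rfl⟩, by simp [pMap]⟩)

end Generic

section NF

variable (K : Type) [Field K] [NumberField K]

/-- the Galois representation on the ring of integers. -/
noncomputable def integersRho : Representation ℤ (K ≃ₐ[ℚ] K) (𝓞 K) :=
  Representation.ofDistribMulAction ℤ (K ≃ₐ[ℚ] K) (𝓞 K)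

variable [IsGalois ℚ K]

/-- an integral generator of a normal basis. -/
theorem exists_integral_normal_generator :
    ∃ θ : 𝓞 K, ∃ b : Module.Basis (K ≃ₐ[ℚ] K) ℚ K, ∀ g, b g = g (θ : K) := by
  classical
  let b₀ := IsGalois.normalBasis ℚ K
  obtain ⟨y, hy, hint⟩ := exists_integral_multiples ℤ ℚ ({b₀ 1} : Finset K)
  have hθ : IsIntegral ℤ (y • b₀ 1) := hint _ (Finset.mem_singleton_self _)
  refine ⟨⟨y • b₀ 1, hθ⟩, b₀.isUnitSMul (w := fun _ => (y : ℚ))
    (fun _ => IsUnit.mk0 _ (Int.cast_ne_zero.mpr hy)), fun g => ?_⟩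
  rw [Module.Basis.isUnitSMul_apply, IsGalois.normalBasis_apply]
  show (y : ℚ) • g (b₀ 1) = g (y • b₀ 1)
  rw [map_zsmul, Int.cast_smul_eq_zsmul]

omit [IsGalois ℚ K]

variable {K}

/-- the orbit map `ℤ[G] → 𝓞 K`, `r ↦ r • θ`. -/
noncomputable def orbitMap (θ : 𝓞 K) :
    MonoidAlgebra ℤ (K ≃ₐ[ℚ] K) →ₗ[MonoidAlgebra ℤ (K ≃ₐ[ℚ] K)] ZG (integersRho K) :=
  LinearMap.toSpanSingleton _ _ (ZG.mk (integersRho K) θ)

theorem orbitMap_apply (θ : 𝓞 K) (r : MonoidAlgebra ℤ (K ≃ₐ[ℚ] K)) :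
    orbitMap θ r = r • ZG.mk (integersRho K) θ := rfl

/-- the image in `K` of `r • θ`. -/
theorem coe_orbitMap (θ : 𝓞 K) (r : MonoidAlgebra ℤ (K ≃ₐ[ℚ] K)) :
    (((ZG.mk (integersRho K)).symm (orbitMap θ r) : 𝓞 K) : K) =
      Finsupp.linearCombination ℤ (fun g : K ≃ₐ[ℚ] K => g (θ : K)) r.coeff := by
  induction r using MonoidAlgebra.induction_linear with
  | zero =>
    rw [map_zero, map_zero, coeff_zero, map_zero]
    rfl
  | add r s hr hs =>
    rw [map_add, map_add, coeff_add, map_add, ← hr, ← hs]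
    rfl
  | single g n =>
    rw [orbitMap_apply, ZG.single_smul, AddEquiv.symm_apply_apply, coeff_single,
      Finsupp.linearCombination_single]
    rfl

theorem orbitMap_injective (θ : 𝓞 K) (b : Module.Basis (K ≃ₐ[ℚ] K) ℚ K)
    (hb : ∀ g, b g = g (θ : K)) : Injective (orbitMap θ) := by
  rw [injective_iff_map_eq_zero]
  intro r hr
  have h1 := coe_orbitMap θ r
  rw [hr, map_zero] at h1
  have hv : (fun g : K ≃ₐ[ℚ] K => g (θ : K)) = ⇑b := funext fun g => (hb g).symm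
  rw [hv] at h1
  have hli : LinearIndependent ℤ b := b.linearIndependent.restrict_scalars' ℤ
  have h2 := linearIndependent_iff.mp hli r.coeff h1.symm
  apply MonoidAlgebra.coeff_injective
  rw [h2, coeff_zero]

theorem exists_nsmul_eq_orbitMap (θ : 𝓞 K) (b : Module.Basis (K ≃ₐ[ℚ] K) ℚ K)
    (hb : ∀ g, b g = g (θ : K)) (x : 𝓞 K) :
    ∃ e : ℕ, e ≠ 0 ∧ ∃ r, orbitMap θ r = e • ZG.mk (integersRho K) x := by
  classical
  have : Fintype (K ≃ₐ[ℚ] K) := Fintype.ofFinite _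
  let c := b.repr (x : K)
  let e : ℕ := ∏ g, (c g).den
  have he : e ≠ 0 := Finset.prod_ne_zero_iff.mpr fun g _ => (c g).den_ne_zero
  let m : (K ≃ₐ[ℚ] K) → ℤ := fun g => ((e / (c g).den : ℕ) : ℤ) * (c g).num
  have hm : ∀ g, (m g : ℚ) = e * c g := by
    intro g
    have hd : (c g).den ∣ e := Finset.dvd_prod_of_mem _ (Finset.mem_univ g)
    obtain ⟨t, ht⟩ := hd
    simp only [m]
    rw [ht, Nat.mul_div_cancel_left _ (Nat.pos_of_ne_zero (c g).den_ne_zero)]
    push_cast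
    rw [mul_comm ((c g).den : ℚ), mul_assoc, Rat.den_mul_eq_num]
  refine ⟨e, he, ofCoeff (Finsupp.equivFunOnFinite.symm m), ?_⟩
  apply (ZG.mk (integersRho K)).symm.injective
  apply RingOfIntegers.ext
  rw [coe_orbitMap, coeff_ofCoeff, Finsupp.linearCombination_apply,
    Finsupp.sum_fintype _ _ (by simp)]
  rw [map_nsmul, AddEquiv.symm_apply_apply]
  have hx : (x : K) = ∑ g, c g • b g := (b.sum_repr (x : K)).symm
  have hex : ((e • x : 𝓞 K) : K) = (e : ℚ) • (x : K) := by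
    rw [Nat.cast_smul_eq_nsmul]
    exact map_nsmul (algebraMap (𝓞 K) K) e x
  rw [hex, hx, Finset.smul_sum]
  refine Finset.sum_congr rfl fun g _ => ?_
  rw [Finsupp.equivFunOnFinite_symm_apply_apply, ← hb, smul_smul, ← hm,
    Int.cast_smul_eq_zsmul]

variable (K)

instance : AddGroup.FG (ZG (integersRho K)) :=
  (Module.Finite.iff_addGroup_fg (G := 𝓞 K)).mp inferInstance

/-- **(EC5c), `ℤ[G]`-module form**: `#Hom_{ℤ[G]}(P, 𝓞_K / p) = #P` for a finite `ℤ[G]`-module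
`P` killed by `p` which lifts along surjections of modules killed by `p`. -/
theorem card_hom_integers_modP [IsGalois ℚ K] (p : ℕ) [Fact p.Prime] {P : Type} [AddCommGroup P]
    [Module (MonoidAlgebra ℤ (K ≃ₐ[ℚ] K)) P] [Finite P] (hPp : ∀ x : P, p • x = 0)
    (hP : LiftsModP.{0, 0, 0} (MonoidAlgebra ℤ (K ≃ₐ[ℚ] K)) p P) :
    Nat.card (P →ₗ[MonoidAlgebra ℤ (K ≃ₐ[ℚ] K)]
      ModP (MonoidAlgebra ℤ (K ≃ₐ[ℚ] K)) p (ZG (integersRho K))) = Nat.card P := by
  obtain ⟨θ, b, hb⟩ := exists_integral_normal_generator K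
  have hinj := orbitMap_injective θ b hb
  -- no `p`-torsion
  have htf : ∀ x : ZG (integersRho K), p • x = 0 → x = 0 := by
    intro x hx
    obtain ⟨y, rfl⟩ := (ZG.mk (integersRho K)).surjective x
    rw [← map_nsmul, map_eq_zero_iff _ (ZG.mk (integersRho K)).injective, nsmul_eq_mul,
      mul_eq_zero] at hx
    rcases hx with hx | hx
    · exact absurd (Nat.cast_eq_zero.mp hx) (Fact.out : p.Prime).ne_zero
    · rw [hx, map_zero]
  -- finite index
  obtain ⟨e, he, hmem⟩ := exists_nsmul_mem_of_forall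
    (LinearMap.range (orbitMap θ)).toAddSubgroup (fun x => by
      obtain ⟨y, rfl⟩ := (ZG.mk (integersRho K)).surjective x
      obtain ⟨e, he, r, hr⟩ := exists_nsmul_eq_orbitMap θ b hb y
      exact ⟨e, he, r, hr⟩)
  have h1 := card_hom_modP_eq_of_finiteIndex (Fact.out : p.Prime) hP htf e he
    (LinearMap.range (orbitMap θ)) ⊤ le_top (fun x _ => hmem x)
  have h2 : Nat.card (P →ₗ[MonoidAlgebra ℤ (K ≃ₐ[ℚ] K)]
      ModP (MonoidAlgebra ℤ (K ≃ₐ[ℚ] K)) p (ZG (integersRho K))) =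
      Nat.card (P →ₗ[MonoidAlgebra ℤ (K ≃ₐ[ℚ] K)] ModP (MonoidAlgebra ℤ (K ≃ₐ[ℚ] K)) p
        (⊤ : Submodule (MonoidAlgebra ℤ (K ≃ₐ[ℚ] K)) (ZG (integersRho K)))) :=
    card_hom_congr (modPCongr p Submodule.topEquiv.symm)
  have h3 : Nat.card (P →ₗ[MonoidAlgebra ℤ (K ≃ₐ[ℚ] K)] ModP (MonoidAlgebra ℤ (K ≃ₐ[ℚ] K)) p
        (LinearMap.range (orbitMap θ))) =
      Nat.card (P →ₗ[MonoidAlgebra ℤ (K ≃ₐ[ℚ] K)] FpG (K ≃ₐ[ℚ] K) p) :=
    card_hom_congr ((modPCongr p (LinearEquiv.ofInjective (orbitMap θ) hinj).symm).trans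
      (modPEquivFpG (K ≃ₐ[ℚ] K) p))
  rw [h2, ← h1, h3, card_hom_FpG (K ≃ₐ[ℚ] K) p hPp]

end NF

end Fermat.Agent.TW.GlobalEC.NormalBasisModP2
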