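/-
TW / WP4 (global Euler characteristic), brick EC5c, part 6 = FINAL STATEMENT (helper2).

In the encoding of `Spec26` / `SpecB26` (helper26):

  `eqHomRank_integersRep_modP :
     eqHomRank P (modPRep p (integersRep K)) = finrank (ZMod p) P`

for `K/ℚ` a finite Galois extension (`K : Type`), `G = K ≃ₐ[ℚ] K`, `integersRep K : Rep ℤ G` the
ring of integers with the Galois action, and `P : Rep (ZMod p) G` finite-dimensional with
`IsProjRep P`.  I.e. `dim Hom_G(P, 𝓞_K / p) = dim P`.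

Adapters used on the way (all reusable):
* `homEquivInvariants` : `Hom_{ℤ[G]}(ZG P.ρ, ZG T.ρ) ≃ (homRep P T).ρ.invariants`;
* `modPEquivZG`        : `ModP ℤ[G] p (ZG X.ρ) ≃ₗ ZG (modPRep p X).ρ`;
* `liftsModP_of_isProjRep` : `IsProjRep P → LiftsModP ℤ[G] p (ZG P.ρ)`.
-/
import Mathlib
import Fermat.Agent.TW.GlobalEC.SpecB26
import Fermat.Agent.TW.GlobalEC.NormalBasisModP2

set_option autoImplicit false

namespace Fermat.Agent.TW.GlobalEC.IntegersModP2

open Function MonoidAlgebra NumberField Module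
open Fermat.Agent.TW.GlobalEC.ModPCount2
open Fermat.Agent.TW.GlobalEC.GroupRingHom2
open Fermat.Agent.TW.GlobalEC.HomFpG2
open Fermat.Agent.TW.GlobalEC.ZGModule2
open Fermat.Agent.TW.GlobalEC.NormalBasisModP2
open Fermat.Agent.TW.GlobalEC.Spec26
open Fermat.Agent.TW.GlobalEC.SpecB26

section HomEquiv

variable {G : Type} [Group G] (p : ℕ) [Fact p.Prime] (P T : Rep.{0} (ZMod p) G)

/-- an element of the internal Hom, as a linear map. -/
def asLin {P T : Rep.{0} (ZMod p) G} (f : homRep P T) : P →ₗ[ZMod p] T := f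

/-- `ℤ[G]`-linear maps are the invariants of the internal Hom. -/
noncomputable def homEquivInvariants :
    (ZG P.ρ →ₗ[MonoidAlgebra ℤ G] ZG T.ρ) ≃ (homRep P T).ρ.invariants where
  toFun F :=
    ⟨((ZG.mk T.ρ).symm.toAddMonoidHom.comp
        (F.toAddMonoidHom.comp (ZG.mk P.ρ).toAddMonoidHom)).toZModLinearMap p, by
      intro g
      apply (Representation.linHom.mem_invariants_iff_comm (X := P) (Y := T) _ g).mpr
      ext x
      show (ZG.mk T.ρ).symm (F (ZG.mk P.ρ (P.ρ g x))) = T.ρ g ((ZG.mk T.ρ).symm (F (ZG.mk P.ρ x)))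
      rw [← ZG.single_one_smul, F.map_smul]
      obtain ⟨t, ht⟩ := (ZG.mk T.ρ).surjective (F (ZG.mk P.ρ x))
      rw [← ht, ZG.single_one_smul, AddEquiv.symm_apply_apply, AddEquiv.symm_apply_apply]⟩
  invFun f := linearOfComm
    ((ZG.mk T.ρ).toAddMonoidHom.comp ((asLin p f.1).toAddMonoidHom.comp (ZG.mk P.ρ).symm.toAddMonoidHom))
    (by
      intro g y
      obtain ⟨x, rfl⟩ := (ZG.mk P.ρ).surjective y
      show ZG.mk T.ρ (asLin p f.1 ((ZG.mk P.ρ).symm (single g (1 : ℤ) • ZG.mk P.ρ x))) =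
        single g (1 : ℤ) • ZG.mk T.ρ (asLin p f.1 ((ZG.mk P.ρ).symm (ZG.mk P.ρ x)))
      rw [ZG.single_one_smul, AddEquiv.symm_apply_apply, AddEquiv.symm_apply_apply,
        ZG.single_one_smul]
      have := (Representation.linHom.mem_invariants_iff_comm (X := P) (Y := T) (asLin p f.1) g).mp
        (f.2 g)
      exact congrArg (ZG.mk T.ρ) (LinearMap.congr_fun this x))
  left_inv F := by
    ext y
    obtain ⟨x, rfl⟩ := (ZG.mk P.ρ).surjective y
    show ZG.mk T.ρ ((ZG.mk T.ρ).symm (F (ZG.mk P.ρ ((ZG.mk P.ρ).symm (ZG.mk P.ρ x))))) = _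
    rw [AddEquiv.apply_symm_apply, AddEquiv.symm_apply_apply]
  right_inv f := by
    apply Subtype.ext
    apply LinearMap.ext (f := asLin p _) (g := asLin p f.1)
    intro x
    show (ZG.mk T.ρ).symm (ZG.mk T.ρ (asLin p f.1 ((ZG.mk P.ρ).symm (ZG.mk P.ρ x)))) = _
    rw [AddEquiv.symm_apply_apply, AddEquiv.symm_apply_apply]

end HomEquiv

section ModPIso

variable {G : Type} [Group G] (p : ℕ) [Fact p.Prime] {R : Type} [CommRing R] (X : Rep.{0} R G)

theorem modPRep_mk_add (x y : X) :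
    modPRep.mk p X (x + y) = modPRep.mk p X x + modPRep.mk p X y := rfl

/-- the reduction map `X → X / pX` as a `ℤ[G]`-linear map. -/
noncomputable def redZG : ZG X.ρ →ₗ[MonoidAlgebra ℤ G] ZG (modPRep p X).ρ :=
  linearOfComm
    ((ZG.mk (modPRep p X).ρ).toAddMonoidHom.comp
      ((AddMonoidHom.mk' (modPRep.mk p X) (modPRep_mk_add p X)).comp
        (ZG.mk X.ρ).symm.toAddMonoidHom))
    (by
      intro g y
      obtain ⟨x, rfl⟩ := (ZG.mk X.ρ).surjective y
      show ZG.mk (modPRep p X).ρ (modPRep.mk p X ((ZG.mk X.ρ).symm (single g (1 : ℤ) • ZG.mk X.ρ x)))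
        = single g (1 : ℤ) • ZG.mk (modPRep p X).ρ (modPRep.mk p X ((ZG.mk X.ρ).symm (ZG.mk X.ρ x)))
      rw [ZG.single_one_smul, AddEquiv.symm_apply_apply, AddEquiv.symm_apply_apply,
        ZG.single_one_smul, modPRep.mk_ρ])

theorem redZG_mk (x : X) :
    redZG p X (ZG.mk X.ρ x) = ZG.mk (modPRep p X).ρ (modPRep.mk p X x) := by
  show ZG.mk (modPRep p X).ρ (modPRep.mk p X ((ZG.mk X.ρ).symm (ZG.mk X.ρ x))) = _
  rw [AddEquiv.symm_apply_apply]

theorem redZG_surjective : Surjective (redZG p X) := by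
  intro y
  obtain ⟨t, rfl⟩ := (ZG.mk (modPRep p X).ρ).surjective y
  obtain ⟨x, rfl⟩ := modPRep.mk_surjective p X t
  exact ⟨ZG.mk X.ρ x, redZG_mk p X x⟩

theorem ker_redZG :
    LinearMap.ker (redZG p X) = LinearMap.range (pMap (MonoidAlgebra ℤ G) p (ZG X.ρ)) := by
  ext y
  obtain ⟨x, rfl⟩ := (ZG.mk X.ρ).surjective y
  rw [LinearMap.mem_ker, redZG_mk, map_eq_zero_iff _ (ZG.mk (modPRep p X).ρ).injective,
    modPRep.mk_eq_zero_iff, LinearMap.mem_range]
  constructor
  · rintro ⟨z, rfl⟩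
    exact ⟨ZG.mk X.ρ z, by rw [pMap_apply, ← map_nsmul]⟩
  · rintro ⟨z, hz⟩
    obtain ⟨z', rfl⟩ := (ZG.mk X.ρ).surjective z
    rw [pMap_apply, ← map_nsmul] at hz
    exact ⟨z', (ZG.mk X.ρ).injective hz⟩

/-- `(X / pX)` as a `ℤ[G]`-module is `ModP` of `X` as a `ℤ[G]`-module. -/
noncomputable def modPEquivZG :
    ModP (MonoidAlgebra ℤ G) p (ZG X.ρ) ≃ₗ[MonoidAlgebra ℤ G] ZG (modPRep p X).ρ :=
  (Submodule.quotEquivOfEq _ _ (ker_redZG p X).symm).trans
    ((redZG p X).quotKerEquivOfSurjective (redZG_surjective p X))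

end ModPIso

section Lifting

variable (G : Type) [Group G] (p : ℕ) [Fact p.Prime]

/-- the action of a group element on a `ℤ[G]`-module, as an additive map. -/
noncomputable def actHom (Y : Type) [AddCommGroup Y] [Module (MonoidAlgebra ℤ G) Y] (g : G) :
    Y →+ Y where
  toFun y := single g (1 : ℤ) • y
  map_zero' := smul_zero _
  map_add' := smul_add _

/-- a `ℤ[G]`-module killed by `p`, as a representation over `ZMod p`. -/
noncomputable def repOfKilled (Y : Type) [AddCommGroup Y] [Module (MonoidAlgebra ℤ G) Y]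
    (hY : ∀ y : Y, p • y = 0) : Rep.{0} (ZMod p) G :=
  letI : Module (ZMod p) Y := AddCommGroup.zmodModule hY
  Rep.of (X := Y)
    { toFun := fun g => (actHom G Y g).toZModLinearMap p
      map_one' := by
        ext y
        show single (1 : G) (1 : ℤ) • y = y
        rw [← MonoidAlgebra.one_def, one_smul]
      map_mul' := fun g h => by
        ext y
        show single (g * h) (1 : ℤ) • y = single g (1 : ℤ) • single h (1 : ℤ) • y
        rw [smul_smul, single_mul_single, one_mul] }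

/-- the identity `Y ≃+ repOfKilled Y`. -/
noncomputable def ofKilled (Y : Type) [AddCommGroup Y] [Module (MonoidAlgebra ℤ G) Y]
    (hY : ∀ y : Y, p • y = 0) : Y ≃+ repOfKilled G p Y hY :=
  AddEquiv.refl Y

theorem repOfKilled_ρ (Y : Type) [AddCommGroup Y] [Module (MonoidAlgebra ℤ G) Y]
    (hY : ∀ y : Y, p • y = 0) (g : G) (y : Y) :
    (repOfKilled G p Y hY).ρ g (ofKilled G p Y hY y) = ofKilled G p Y hY (single g (1 : ℤ) • y) :=
  rfl

variable {G}

/-- a projective `𝔽_p[G]`-module (lifting property in `Rep`) lifts along surjections of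
`ℤ[G]`-modules killed by `p`. -/
theorem liftsModP_of_isProjRep (P : Rep.{0} (ZMod p) G) (hP : IsProjRep P) :
    LiftsModP.{0, 0, 0} (MonoidAlgebra ℤ G) p (ZG P.ρ) := by
  intro Y Z _ _ _ _ hY π hπ f
  have hZ : ∀ z : Z, p • z = 0 := by
    intro z
    obtain ⟨y, rfl⟩ := hπ z
    rw [← map_nsmul, hY, map_zero]
  let A := repOfKilled G p Y hY
  let B := repOfKilled G p Z hZ
  let eA : Y ≃+ A := ofKilled G p Y hY
  let eB : Z ≃+ B := ofKilled G p Z hZ
  let ψ : A →ₗ[ZMod p] B :=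
    (eB.toAddMonoidHom.comp (π.toAddMonoidHom.comp eA.symm.toAddMonoidHom)).toZModLinearMap p
  let φ : P →ₗ[ZMod p] B :=
    (eB.toAddMonoidHom.comp (f.toAddMonoidHom.comp (ZG.mk P.ρ).toAddMonoidHom)).toZModLinearMap p
  have hψ : ∀ y, ψ (eA y) = eB (π y) := fun y => rfl
  have hφ : ∀ x, φ x = eB (f (ZG.mk P.ρ x)) := fun x => rfl
  obtain ⟨φ', hφ', hlift⟩ := hP A B ψ
    (fun g a => by
      obtain ⟨y, rfl⟩ := eA.surjective a
      rw [repOfKilled_ρ, hψ, hψ, repOfKilled_ρ, π.map_smul])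
    (fun b => by
      obtain ⟨z, rfl⟩ := eB.surjective b
      obtain ⟨y, rfl⟩ := hπ z
      exact ⟨eA y, hψ y⟩)
    φ
    (fun g x => by
      rw [hφ, hφ, repOfKilled_ρ, ← ZG.single_one_smul, f.map_smul])
  refine ⟨linearOfComm (eA.symm.toAddMonoidHom.comp
    (φ'.toAddMonoidHom.comp (ZG.mk P.ρ).symm.toAddMonoidHom)) ?_, ?_⟩
  · intro g y
    obtain ⟨x, rfl⟩ := (ZG.mk P.ρ).surjective y
    show eA.symm (φ' ((ZG.mk P.ρ).symm (single g (1 : ℤ) • ZG.mk P.ρ x))) =
      single g (1 : ℤ) • eA.symm (φ' ((ZG.mk P.ρ).symm (ZG.mk P.ρ x)))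
    rw [ZG.single_one_smul, AddEquiv.symm_apply_apply, AddEquiv.symm_apply_apply, hφ']
    obtain ⟨y', hy'⟩ := eA.surjective (φ' x)
    rw [← hy', repOfKilled_ρ, AddEquiv.symm_apply_apply, AddEquiv.symm_apply_apply]
  · ext y
    obtain ⟨x, rfl⟩ := (ZG.mk P.ρ).surjective y
    show π (eA.symm (φ' ((ZG.mk P.ρ).symm (ZG.mk P.ρ x)))) = f (ZG.mk P.ρ x)
    rw [AddEquiv.symm_apply_apply]
    have h1 := hlift x
    obtain ⟨y', hy'⟩ := eA.surjective (φ' x)
    rw [← hy', hψ, hφ] at h1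
    rw [← hy', AddEquiv.symm_apply_apply]
    exact eB.injective h1

end Lifting

section Final

variable (K : Type) [Field K] [NumberField K] (p : ℕ) [Fact p.Prime]

/-- the ring of integers of `K` as a representation of `Gal(K/ℚ)` over `ℤ`. -/
noncomputable def integersRep : Rep.{0} ℤ (K ≃ₐ[ℚ] K) := Rep.of (integersRho K)

/-- the identity `𝓞 K ≃+ integersRep K`. -/
noncomputable def integersRepEquiv : 𝓞 K ≃+ integersRep K := AddEquiv.refl (𝓞 K)

theorem integersRep_ρ (g : K ≃ₐ[ℚ] K) (x : 𝓞 K) :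
    (integersRep K).ρ g (integersRepEquiv K x) = integersRepEquiv K (g • x) := rfl

theorem coe_smul_integers (g : K ≃ₐ[ℚ] K) (x : 𝓞 K) : ((g • x : 𝓞 K) : K) = g (x : K) := rfl

variable [IsGalois ℚ K]

/-- **(EC5c)**: `dim Hom_G(P, 𝓞_K / p) = dim P` for every finite-dimensional projective
`𝔽_p[G]`-module `P`, `G = Gal(K/ℚ)`. -/
theorem eqHomRank_integersRep_modP (P : Rep.{0} (ZMod p) (K ≃ₐ[ℚ] K))
    [FiniteDimensional (ZMod p) P] (hP : IsProjRep P) :
    eqHomRank P (modPRep p (integersRep K)) = finrank (ZMod p) P := by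
  have hfinP : Finite P := Module.finite_of_finite (ZMod p)
  have hfinP' : Finite (ZG P.ρ) := hfinP
  have hPp : ∀ x : ZG P.ρ, p • x = 0 := by
    intro x
    obtain ⟨y, rfl⟩ := (ZG.mk P.ρ).surjective x
    rw [← map_nsmul, ZModModule.char_nsmul_eq_zero p y, map_zero]
  have hcard : Nat.card (homRep P (modPRep p (integersRep K))).ρ.invariants = Nat.card P := by
    rw [← Nat.card_congr (homEquivInvariants p P (modPRep p (integersRep K))),
      ← card_hom_congr (modPEquivZG p (integersRep K))]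
    exact card_hom_integers_modP K p hPp (liftsModP_of_isProjRep p P hP)
  have hpos : Nat.card P ≠ 0 := Nat.card_pos.ne'
  have hfin : Finite (homRep P (modPRep p (integersRep K))).ρ.invariants :=
    Nat.finite_of_card_ne_zero (hcard ▸ hpos)
  have hmf : Module.Finite (ZMod p) (homRep P (modPRep p (integersRep K))).ρ.invariants :=
    Module.Finite.of_finite
  have h1 : Nat.card (homRep P (modPRep p (integersRep K))).ρ.invariants =
      p ^ finrank (ZMod p) (homRep P (modPRep p (integersRep K))).ρ.invariants := by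
    rw [Module.natCard_eq_pow_finrank (K := ZMod p), Nat.card_zmod]
  have h2 : Nat.card P = p ^ finrank (ZMod p) P := by
    rw [Module.natCard_eq_pow_finrank (K := ZMod p), Nat.card_zmod]
  rw [h1, h2] at hcard
  exact Nat.pow_right_injective (Fact.out : p.Prime).two_le hcard

end Final

end Fermat.Agent.TW.GlobalEC.IntegersModP2
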