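/-
TW / WP4 (global Euler characteristic), brick EC5b, part 1 (helper79): the Galois action on the
semilocal objects at a rational prime `q`.

`L/K` Galois extension of number fields, `G = Gal(L/K) = L ≃ₐ[K] L`, `q` a rational prime,
`R_q = L ⊗[ℚ] ℚ_[q]` (`Interface23.Loc`, `G` acting on the left factor),
`Λ = 𝓞 L ⊗[ℤ] ℤ_[q]` (`PowerNearOneGen16.Lam'`), `Sq L q` the primes of `𝓞 L` above `q`
(`LocUnits5.Sq`).

* `sqSmul`            : the action of `G` on `Sq L q`;
* `ordAt_smul`        : `ord_P (σ a) = ord_{σ⁻¹ P} a`;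
* `instMulSemiringActionLam` : the action of `G` on `Λ`, `intToRat_smul` (equivariance of
                        `Λ → R_q`), `jHom_smul`, `dHom_smul`;
* `exists_ordHom_equivariant` : the order map `(R_q)ˣ → ℤ^{Sq}` of `LocUnits5.exists_ordHom`
                        (surjective, kernel `Λˣ`) is `G`-equivariant:
                        `v (σ y) P = v y (σ⁻¹ P)`.
-/
import Mathlib
import Fermat.Agent.PT.GLOB.LocUnits5
import Fermat.Agent.PT.GLOB.SUnitsGalois24

set_option autoImplicit false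
set_option linter.unusedSectionVars false

namespace Fermat.Agent.TW.GlobalEC.SemilocalAct79

open NumberField IsDedekindDomain HeightOneSpectrum
open scoped TensorProduct Pointwise
open Fermat.Agent.PT.GLOB.Interface23 Fermat.Agent.PT.GLOB.WeakApprox17
open Fermat.Agent.PT.GLOB.PowerNearOneGen16 Fermat.Agent.PT.GLOB.LocalPowerIndex5
open Fermat.Agent.PT.GLOB.LamIndex5 Fermat.Agent.PT.GLOB.LocUnits5
open Fermat.Agent.PT.GLOB.SUnitsGalois24

noncomputable section

variable (K L : Type) [Field K] [Field L] [NumberField K] [NumberField L] [Algebra K L]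
  [IsGalois K L] (q : ℕ) [Fact q.Prime]

/-! ### The primes above `q` -/

/-- The Galois action on the primes of `𝓞 L` above `q`. -/
def sqSmul (σ : L ≃ₐ[K] L) (P : Sq L q) : Sq L q :=
  ⟨smulH K L σ P.1, by
    rw [smulH_asIdeal]
    have h : (((q : ℕ) : ℤ) : 𝓞 L) ∈ σ • P.1.asIdeal :=
      (natCast_mem_smul_iff K L σ P.1.asIdeal ((q : ℕ) : ℤ)).mpr (by
        rw [Int.cast_natCast]; exact P.2)
    rwa [Int.cast_natCast] at h⟩

theorem coe_sqSmul (σ : L ≃ₐ[K] L) (P : Sq L q) : (sqSmul K L q σ P).1 = smulH K L σ P.1 := rfl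

theorem sqSmul_one (P : Sq L q) : sqSmul K L q 1 P = P :=
  Subtype.ext (smulH_one K L P.1)

theorem sqSmul_mul (σ τ : L ≃ₐ[K] L) (P : Sq L q) :
    sqSmul K L q (σ * τ) P = sqSmul K L q σ (sqSmul K L q τ P) :=
  Subtype.ext (smulH_smulH K L σ τ P.1).symm

theorem sqSmul_inv_sqSmul (σ : L ≃ₐ[K] L) (P : Sq L q) :
    sqSmul K L q σ⁻¹ (sqSmul K L q σ P) = P := by
  rw [← sqSmul_mul, inv_mul_cancel, sqSmul_one]

theorem sqSmul_sqSmul_inv (σ : L ≃ₐ[K] L) (P : Sq L q) :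
    sqSmul K L q σ (sqSmul K L q σ⁻¹ P) = P := by
  rw [← sqSmul_mul, mul_inv_cancel, sqSmul_one]

/-- `ord_P (σ a) = ord_{σ⁻¹ P} a`. -/
theorem ordAt_smul (σ : L ≃ₐ[K] L) (P : HeightOneSpectrum (𝓞 L)) (a : Lˣ) :
    ordAt L P (σ • a) = ordAt L (smulH K L σ⁻¹ P) a := by
  have h1 := Fermat.Agent.PT.GLOB.ClassKill15.valuation_eq_exp_neg_count L P
    ((σ • a : Lˣ) : L) (σ • a).ne_zero
  have h2 := Fermat.Agent.PT.GLOB.ClassKill15.valuation_eq_exp_neg_count L (smulH K L σ⁻¹ P)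
    (a : L) a.ne_zero
  have h3 := valuation_apply_galois K L σ P (a : L)
  rw [coe_smul_units, h3, h2] at h1
  have h4 := WithZero.exp_injective h1
  unfold ordAt
  rw [coe_smul_units]
  omega

theorem ordQ_smul (σ : L ≃ₐ[K] L) (a : Lˣ) (P : Sq L q) :
    ordQ L q (σ • a) P = ordQ L q a (sqSmul K L q σ⁻¹ P) := by
  rw [ordQ_apply, ordQ_apply, ordAt_smul, coe_sqSmul]

/-! ### The action on `Λ = 𝓞 L ⊗[ℤ] ℤ_[q]` -/

/-- The automorphism of `Λ` induced by `σ`. -/
def lamAut (σ : L ≃ₐ[K] L) : Lam' q L ≃ₐ[ℤ] Lam' q L :=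
  Algebra.TensorProduct.congr
    (MulSemiringAction.toRingEquiv (L ≃ₐ[K] L) (𝓞 L) σ).toIntAlgEquiv
    (AlgEquiv.refl : ℤ_[q] ≃ₐ[ℤ] ℤ_[q])

@[simp] theorem lamAut_tmul (σ : L ≃ₐ[K] L) (a : 𝓞 L) (c : ℤ_[q]) :
    lamAut K L q σ (a ⊗ₜ[ℤ] c) = (σ • a) ⊗ₜ[ℤ] c := rfl

/-- The Mathlib action of `G` on the tensor product (through the left factor) is the one by
`lamAut`. -/
theorem smul_eq_lamAut (σ : L ≃ₐ[K] L) (z : Lam' q L) : σ • z = lamAut K L q σ z := by
  induction z using TensorProduct.induction_on with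
  | zero => rw [smul_zero, map_zero]
  | tmul x r => rw [TensorProduct.smul_tmul', lamAut_tmul]
  | add a b ha hb => rw [smul_add, map_add, ha, hb]

/-- The action of `G` on `Λ` (extending Mathlib's `TensorProduct.leftDistribMulAction`, so that
there is no instance diamond) is by ring automorphisms. -/
instance instMulSemiringActionLam : MulSemiringAction (L ≃ₐ[K] L) (Lam' q L) :=
  { (inferInstance : DistribMulAction (L ≃ₐ[K] L) (Lam' q L)) with
    smul_one := fun σ => by rw [smul_eq_lamAut, map_one]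
    smul_mul := fun σ x y => by rw [smul_eq_lamAut, smul_eq_lamAut, smul_eq_lamAut, map_mul] }

theorem smul_lam_def (σ : L ≃ₐ[K] L) (z : Lam' q L) : σ • z = lamAut K L q σ z :=
  smul_eq_lamAut K L q σ z

theorem smul_lam_tmul (σ : L ≃ₐ[K] L) (a : 𝓞 L) (c : ℤ_[q]) :
    σ • (a ⊗ₜ[ℤ] c : Lam' q L) = (σ • a) ⊗ₜ[ℤ] c := rfl

theorem smul_lam_natCast (σ : L ≃ₐ[K] L) (n : ℕ) : σ • (n : Lam' q L) = (n : Lam' q L) := by
  rw [smul_eq_lamAut, map_natCast]

/-- `Λ → R_q` is equivariant. -/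
theorem intToRat_smul (σ : L ≃ₐ[K] L) (z : Lam' q L) :
    intToRat L q (σ • z) = σ • intToRat L q z := by
  induction z using TensorProduct.induction_on with
  | zero => rw [smul_zero, map_zero, smul_zero]
  | tmul a c => rw [smul_lam_tmul, intToRat_tmul, intToRat_tmul, smul_tmul']; rfl
  | add a b ha hb => rw [smul_add, map_add, map_add, smul_add, ha, hb]

/-- The Galois action on `Λˣ`. -/
instance instActionUnitsLam : MulDistribMulAction (L ≃ₐ[K] L) (Lam' q L)ˣ :=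
  Units.mulDistribMulActionRight

theorem coe_smul_unitsLam (σ : L ≃ₐ[K] L) (u : (Lam' q L)ˣ) :
    ((σ • u : (Lam' q L)ˣ) : Lam' q L) = σ • (u : Lam' q L) := rfl

theorem jHom_smul (σ : L ≃ₐ[K] L) (u : (Lam' q L)ˣ) :
    jHom L q (σ • u) = σ • jHom L q u := by
  apply Units.ext
  rw [coe_jHom, coe_smul_unitsLam, intToRat_smul, coe_smul_unitsTensor, coe_jHom]

theorem dHom_smul (σ : L ≃ₐ[K] L) (a : Lˣ) :
    dHom L q (σ • a) = σ • dHom L q a := by
  apply Units.ext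
  rw [coe_dHom, coe_smul_unitsTensor, coe_dHom, smul_tmul', coe_smul_units]

theorem smul_mem_range_jHom (σ : L ≃ₐ[K] L) {y : (L ⊗[ℚ] ℚ_[q])ˣ}
    (hy : y ∈ (jHom L q).range) : σ • y ∈ (jHom L q).range := by
  obtain ⟨u, rfl⟩ := hy
  exact ⟨σ • u, jHom_smul K L q σ u⟩

/-! ### The equivariant order map -/

/-- **The order map on the semilocal units is equivariant**: there is a surjective homomorphism
`v : (L ⊗ ℚ_q)ˣ → ℤ^{Sq}` with kernel `Λˣ`, extending the orders of global elements, such that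
`v (σ y) P = v y (σ⁻¹ P)`. -/
theorem exists_ordHom_equivariant :
    ∃ v : (L ⊗[ℚ] ℚ_[q])ˣ →* (Sq L q → Multiplicative ℤ), Function.Surjective v ∧
      v.ker = (jHom L q).range ∧ (∀ a : Lˣ, v (dHom L q a) = ordQ L q a) ∧
      ∀ (σ : L ≃ₐ[K] L) (y : (L ⊗[ℚ] ℚ_[q])ˣ) (P : Sq L q),
        v (σ • y) P = v y (sqSmul K L q σ⁻¹ P) := by
  obtain ⟨v, hsurj, hker, hd⟩ := exists_ordHom L q
  refine ⟨v, hsurj, hker, hd, ?_⟩
  intro σ y P
  obtain ⟨a, b, hb, rfl⟩ := exists_eq_mul L q y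
  have hb1 : v b = 1 := by rw [← MonoidHom.mem_ker, hker]; exact hb
  have hb2 : v (σ • b) = 1 := by
    rw [← MonoidHom.mem_ker, hker]; exact smul_mem_range_jHom K L q σ hb
  rw [smul_mul', map_mul, map_mul, hb1, hb2, mul_one, mul_one, ← dHom_smul, hd, hd, ordQ_smul]

end

end Fermat.Agent.TW.GlobalEC.SemilocalAct79
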