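/-
TW / WP4 (global Euler characteristic), brick EC5b, part 2 (helper79): the principal units
`U_1 = 1 + q Λ` of `Λ = 𝓞 L ⊗[ℤ] ℤ_[q]` as a Galois module.

`L/K` Galois extension of number fields, `G = L ≃ₐ[K] L`, `q` a rational prime, `p` an odd prime.

* `instActionU`       : `U_k = 1 + q^k Λ` (`LocalPowerIndex5.U`) is `G`-stable;
* `theta`             : `U_1 → Λ / qΛ`, `1 + q z ↦ z mod q` (additive form of
                        `LocalPowerIndex5.psi`), surjective; `theta_smul_sub_mem` (equivariance);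
* `pow_bijective_of_ne` : `q ≠ p`: `u ↦ u ^ p` is bijective on `U_1`;
* `theta_eq_zero_iff`, `eq_one_of_pow_eq_one_U` : `q = p`: `ker theta = U_1 ^ p`, `U_1[p] = 1`;
* `redInt`            : `𝓞 L → Λ / qΛ`, `a ↦ a ⊗ 1 mod q`, surjective with kernel `q 𝓞 L`, equivariant.
So `U_1 / U_1^p ≃ Λ / pΛ ≃ 𝓞 L / p 𝓞 L` equivariantly for `q = p`.
-/
import Mathlib
import Fermat.Agent.TW.GlobalEC.SemilocalAct79

set_option autoImplicit false
set_option linter.unusedSectionVars false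

namespace Fermat.Agent.TW.GlobalEC.SemilocalFil79

open NumberField IsDedekindDomain HeightOneSpectrum
open scoped TensorProduct Pointwise
open Fermat.Agent.PT.GLOB.Interface23 Fermat.Agent.PT.GLOB.WeakApprox17
open Fermat.Agent.PT.GLOB.PowerNearOneGen16 Fermat.Agent.PT.GLOB.LocalPowerIndex5
open Fermat.Agent.PT.GLOB.LamIndex5 Fermat.Agent.PT.GLOB.LocUnits5
open Fermat.Agent.PT.GLOB.SUnitsGalois24 Fermat.Agent.TW.GlobalEC.SemilocalAct79

noncomputable section

variable (K L : Type) [Field K] [Field L] [NumberField K] [NumberField L] [Algebra K L]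
  [IsGalois K L] (q : ℕ) [Fact q.Prime]

/-! ### Stability of the congruence subgroups -/

theorem smul_mem_span_pow (σ : L ≃ₐ[K] L) (k : ℕ) {z : Lam' q L}
    (hz : z ∈ Ideal.span {(q : Lam' q L) ^ k}) : σ • z ∈ Ideal.span {(q : Lam' q L) ^ k} := by
  obtain ⟨w, rfl⟩ := Ideal.mem_span_singleton'.mp hz
  rw [smul_mul', smul_pow', smul_lam_natCast]
  exact Ideal.mem_span_singleton'.mpr ⟨σ • w, rfl⟩

theorem smul_mem_span (σ : L ≃ₐ[K] L) {z : Lam' q L}
    (hz : z ∈ Ideal.span {(q : Lam' q L)}) : σ • z ∈ Ideal.span {(q : Lam' q L)} := by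
  have := smul_mem_span_pow K L q σ 1 (z := z) (by rwa [pow_one])
  rwa [pow_one] at this

theorem smul_mem_U (σ : L ≃ₐ[K] L) (k : ℕ) {u : (Lam' q L)ˣ} (hu : u ∈ U (Λ := Lam' q L) q k) :
    σ • u ∈ U (Λ := Lam' q L) q k := by
  rw [mem_U] at hu ⊢
  have := smul_mem_span_pow K L q σ k hu
  rwa [smul_sub, smul_one, ← coe_smul_unitsLam] at this

/-- The Galois action on `U_k = 1 + q ^ k Λ`. -/
instance instActionU (k : ℕ) : MulDistribMulAction (L ≃ₐ[K] L) (U (Λ := Lam' q L) q k) where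
  smul σ u := ⟨σ • u.1, smul_mem_U K L q σ k u.2⟩
  one_smul u := Subtype.ext (one_smul _ _)
  mul_smul σ τ u := Subtype.ext (mul_smul _ _ _)
  smul_mul σ u v := Subtype.ext (smul_mul' _ _ _)
  smul_one σ := Subtype.ext (smul_one _)

theorem coe_smul_U (σ : L ≃ₐ[K] L) (k : ℕ) (u : U (Λ := Lam' q L) q k) :
    ((σ • u : U (Λ := Lam' q L) q k) : (Lam' q L)ˣ) = σ • (u : (Lam' q L)ˣ) := rfl

/-! ### The map `theta : U_1 → Λ / qΛ` -/

theorem hreg : ∀ x : Lam' q L, (q : Lam' q L) * x = 0 → x = 0 := natCast_mul_eq_zero q L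

theorem zOf_smul (σ : L ≃ₐ[K] L) (u : U (Λ := Lam' q L) q 1) :
    zOf q (σ • u) = σ • zOf q u := by
  apply zOf_eq q (hreg L q)
  rw [coe_smul_U, coe_smul_unitsLam, zOf_spec q u, smul_add, smul_one, smul_mul',
    smul_lam_natCast]

/-- `U_1 → Λ / qΛ`, `1 + q z ↦ z mod q`, in additive form. -/
def theta : Additive (U (Λ := Lam' q L) q 1) →+ (Lam' q L ⧸ Ideal.span {(q : Lam' q L)}) where
  toFun u := Ideal.Quotient.mk _ (zOf q (Additive.toMul u))
  map_zero' := by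
    have := map_one (psi (Λ := Lam' q L) q (hreg L q))
    rw [psi_apply] at this
    exact this
  map_add' u v := by
    have := map_mul (psi (Λ := Lam' q L) q (hreg L q)) (Additive.toMul u) (Additive.toMul v)
    rw [psi_apply, psi_apply, psi_apply] at this
    exact this

theorem theta_apply (u : U (Λ := Lam' q L) q 1) :
    theta L q (Additive.ofMul u) = Ideal.Quotient.mk _ (zOf q u) := rfl

theorem theta_surjective : Function.Surjective (theta L q) := by
  intro y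
  obtain ⟨u, hu⟩ := psi_surjective (Λ := Lam' q L) q (hreg L q) (Multiplicative.ofAdd y)
  refine ⟨Additive.ofMul u, ?_⟩
  rw [psi_apply] at hu
  exact hu

/-- Equivariance of `theta`, in relational form. -/
theorem theta_smul_sub_mem (σ : L ≃ₐ[K] L) (u : U (Λ := Lam' q L) q 1) (z : Lam' q L)
    (h : theta L q (Additive.ofMul u) = Ideal.Quotient.mk _ z) :
    theta L q (Additive.ofMul (σ • u)) = Ideal.Quotient.mk _ (σ • z) := by
  rw [theta_apply, Ideal.Quotient.eq] at h ⊢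
  rw [zOf_smul, ← smul_sub]
  exact smul_mem_span K L q σ h

/-- The kernel of `theta` is `U_2`. -/
theorem theta_eq_zero_iff_mem_U (u : U (Λ := Lam' q L) q 1) :
    theta L q (Additive.ofMul u) = 0 ↔ (u : (Lam' q L)ˣ) ∈ U (Λ := Lam' q L) q 2 := by
  have := ker_psi (Λ := Lam' q L) q (hreg L q)
  have h2 : u ∈ (psi (Λ := Lam' q L) q (hreg L q)).ker ↔
      u ∈ (U (Λ := Lam' q L) q 2).subgroupOf (U (Λ := Lam' q L) q 1) := by rw [this]
  rw [MonoidHom.mem_ker, Subgroup.mem_subgroupOf, psi_apply] at h2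
  exact h2

/-! ### `p`-th powers in `U_1` -/

variable {p : ℕ}

/-- `U_1` has no `p`-torsion (`p` odd). -/
theorem eq_one_of_pow_eq_one_U (hp : p.Prime) (hp2 : p ≠ 2) (u : U (Λ := Lam' q L) q 1)
    (h : u ^ p = 1) : u = 1 := by
  apply Subtype.ext
  apply eq_one_of_pow_eq_one (Λ := Lam' q L) q hp hp2 Fact.out (hreg L q) u.1 u.2
  have := congrArg Subtype.val h
  rwa [Subgroup.coe_pow] at this

/-- For `q ≠ p` the `p`-th power map is bijective on `U_1`. -/
theorem pow_bijective_of_ne (hp : p.Prime) (hp2 : p ≠ 2) (hqp : q ≠ p) :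
    Function.Bijective (fun u : U (Λ := Lam' q L) q 1 => u ^ p) := by
  constructor
  · intro u v huv
    have h1 : (u * v⁻¹) ^ p = 1 := by
      rw [(Commute.all u v⁻¹).mul_pow, inv_pow]
      exact mul_inv_eq_one.mpr huv
    exact mul_inv_eq_one.mp (eq_one_of_pow_eq_one_U L q hp hp2 _ h1)
  · intro u
    have h := map_pow_U_of_ne (Λ := Lam' q L) q hp Fact.out hqp
    have hu : (u : (Lam' q L)ˣ) ∈
        (U (Λ := Lam' q L) q 1).map (powMonoidHom (α := (Lam' q L)ˣ) p) := by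
      rw [h]; exact u.2
    obtain ⟨w, hw, hwu⟩ := hu
    refine ⟨⟨w, hw⟩, Subtype.ext ?_⟩
    rw [Subgroup.coe_pow]
    exact hwu

/-- For `q = p` (odd) the kernel of `theta` is the group of `p`-th powers of `U_1`. -/
theorem theta_eq_zero_iff (hq2 : q ≠ 2) (u : U (Λ := Lam' q L) q 1) :
    theta L q (Additive.ofMul u) = 0 ↔ ∃ w : U (Λ := Lam' q L) q 1, w ^ q = u := by
  rw [theta_eq_zero_iff_mem_U, ← map_pow_U_of_eq (Λ := Lam' q L) (Fact.out : q.Prime) hq2]
  constructor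
  · rintro ⟨w, hw, hwu⟩
    refine ⟨⟨w, hw⟩, Subtype.ext ?_⟩
    rw [Subgroup.coe_pow]
    exact hwu
  · rintro ⟨w, rfl⟩
    exact ⟨w.1, w.2, by rw [Subgroup.coe_pow]; rfl⟩

/-! ### `𝓞 L / q ≃ Λ / q` -/

/-- `𝓞 L → Λ / qΛ`, `a ↦ a ⊗ 1 mod q`. -/
def redInt : 𝓞 L →+ (Lam' q L ⧸ Ideal.span {(q : Lam' q L)}) :=
  ((Ideal.Quotient.mk (Ideal.span {(q : Lam' q L)})).comp
    (Algebra.TensorProduct.includeLeftRingHom : 𝓞 L →+* Lam' q L)).toAddMonoidHom

theorem redInt_apply (a : 𝓞 L) :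
    redInt L q a = Ideal.Quotient.mk _ (a ⊗ₜ[ℤ] (1 : ℤ_[q]) : Lam' q L) := rfl

theorem exists_int_sub_mem (c : ℤ_[q]) : ∃ n : ℤ, ∃ d : ℤ_[q], c = (n : ℤ_[q]) + (q : ℤ_[q]) * d := by
  obtain ⟨n, hn⟩ := ZMod.intCast_surjective (PadicInt.toZMod c)
  have h1 : PadicInt.toZMod (c - (n : ℤ_[q])) = 0 := by
    rw [map_sub, map_intCast, hn, sub_self]
  obtain ⟨w, hw⟩ := (toZMod_eq_zero_iff q _).mp h1
  exact ⟨n, w, by rw [← hw]; ring⟩

theorem redInt_surjective : Function.Surjective (redInt L q) := by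
  intro y
  obtain ⟨z, rfl⟩ := Ideal.Quotient.mk_surjective y
  induction z using TensorProduct.induction_on with
  | zero => exact ⟨0, by rw [map_zero, map_zero]⟩
  | tmul a c =>
    obtain ⟨n, d, hd⟩ := exists_int_sub_mem q c
    refine ⟨n • a, ?_⟩
    rw [redInt_apply, Ideal.Quotient.eq]
    have : ((n • a) ⊗ₜ[ℤ] (1 : ℤ_[q]) : Lam' q L) - a ⊗ₜ[ℤ] c =
        (q : Lam' q L) * (a ⊗ₜ[ℤ] (-d)) := by
      rw [hd, TensorProduct.tmul_add, TensorProduct.smul_tmul, zsmul_eq_mul, mul_one,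
        Algebra.TensorProduct.natCast_def', Algebra.TensorProduct.tmul_mul_tmul, one_mul,
        mul_neg, TensorProduct.tmul_neg]
      abel
    rw [this]
    exact natCast_mul_mem_span q _
  | add z w hz hw =>
    obtain ⟨a, ha⟩ := hz
    obtain ⟨b, hb⟩ := hw
    exact ⟨a + b, by rw [map_add, ha, hb, map_add]⟩

theorem coordEquiv_tmul_one (a : 𝓞 L) (i : Idx L) :
    coordEquiv q L (a ⊗ₜ[ℤ] (1 : ℤ_[q])) i = (((RingOfIntegers.basis L).repr a i : ℤ) : ℤ_[q]) := by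
  change (TensorProduct.finsuppScalarLeft ℤ ℤ_[q] (Idx L))
    ((TensorProduct.congr (RingOfIntegers.basis L).repr (LinearEquiv.refl ℤ ℤ_[q]))
      (a ⊗ₜ[ℤ] (1 : ℤ_[q]))) i = _
  rw [TensorProduct.congr_tmul, LinearEquiv.refl_apply,
    TensorProduct.finsuppScalarLeft_apply_tmul_apply, zsmul_eq_mul, mul_one]

theorem redInt_eq_zero_iff (a : 𝓞 L) : redInt L q a = 0 ↔ ∃ b : 𝓞 L, q • b = a := by
  rw [redInt_apply, Ideal.Quotient.eq_zero_iff_mem, Ideal.mem_span_singleton']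
  constructor
  · rintro ⟨z, hz⟩
    have hdiv : ∀ i : Idx L, (q : ℤ) ∣ (RingOfIntegers.basis L).repr a i := by
      intro i
      have h1 : coordEquiv q L (z * (q : Lam' q L)) i =
          coordEquiv q L (a ⊗ₜ[ℤ] (1 : ℤ_[q])) i := by rw [hz]
      rw [mul_comm, coordEquiv_natCast_mul, Finsupp.smul_apply, coordEquiv_tmul_one,
        nsmul_eq_mul] at h1
      rw [← PadicInt.norm_int_lt_one_iff_dvd, ← h1, norm_mul, PadicInt.norm_p]
      have hq1 : (1 : ℝ) < q := by exact_mod_cast (Fact.out : q.Prime).one_lt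
      calc (q : ℝ)⁻¹ * ‖coordEquiv q L z i‖ ≤ (q : ℝ)⁻¹ * 1 :=
            mul_le_mul_of_nonneg_left (PadicInt.norm_le_one _) (by positivity)
        _ < 1 := by rw [mul_one]; exact inv_lt_one_of_one_lt₀ hq1
    choose m hm using hdiv
    refine ⟨∑ i, m i • RingOfIntegers.basis L i, ?_⟩
    conv_rhs => rw [← (RingOfIntegers.basis L).sum_repr a]
    rw [Finset.smul_sum]
    refine Finset.sum_congr rfl fun i _ => ?_
    rw [hm i, mul_smul, natCast_zsmul]
  · rintro ⟨b, rfl⟩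
    refine ⟨b ⊗ₜ[ℤ] (1 : ℤ_[q]), ?_⟩
    rw [mul_comm, Algebra.TensorProduct.natCast_def, Algebra.TensorProduct.tmul_mul_tmul, mul_one,
      nsmul_eq_mul]

/-- Equivariance of `redInt`, in relational form. -/
theorem redInt_smul (σ : L ≃ₐ[K] L) (a : 𝓞 L) (z : Lam' q L)
    (h : redInt L q a = Ideal.Quotient.mk _ z) :
    redInt L q (σ • a) = Ideal.Quotient.mk _ (σ • z) := by
  rw [redInt_apply, Ideal.Quotient.eq] at h ⊢
  rw [← smul_lam_tmul, ← smul_sub]
  exact smul_mem_span K L q σ h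

end

end Fermat.Agent.TW.GlobalEC.SemilocalFil79
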