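/-
TW / WP4 (global Euler characteristic), brick EC5b, part 3 (helper79): the mod-`p` Euler
characteristic of the semilocal units `(L ⊗[ℚ] ℚ_[q])ˣ` as a Galois module.

`L/K` Galois extension of number fields, `G = L ≃ₐ[K] L`, `q` a rational prime, `p` an odd prime,
`f : Rep (ZMod p) G → ℤ` additive (`Spec26.IsAdditive`), `chi p f X = f (X/pX) - f (X[p])`
(`ChiP74.chi`).  Then `locRep K L q = (L ⊗ ℚ_q)ˣ` is `p`-finite and

  `chi p f (locRep K L q) = f (𝔽_p[Sq]) + (if q = p then f (𝓞_L / p) else 0)`     (`chi_locRep`)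

where `Sq = LocUnits5.Sq L q` are the primes of `L` above `q` (`sqRepP`, functions `Sq → ZMod p`
with `(σ f) P = f (σ⁻¹ P)`) and `𝓞_L / p = modPRep p (intRep K L)`.  With `f = eqHomRank P` for a
projective `P` this is the `h_P`-formula of brick EC5b (`hP_locRep`); for `K = ℚ` the last term is
`finrank P` by EC5c (`hP_locRep_rat`).
-/
import Mathlib
import Fermat.Agent.TW.GlobalEC.SemilocalFil79
import Fermat.Agent.TW.GlobalEC.ChiP74
import Fermat.Agent.TW.GlobalEC.SUnitHP5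
import Fermat.Agent.TW.GlobalEC.SpecC26
import Fermat.Agent.TW.GlobalEC.IntegersModP2
import Fermat.Agent.TW.GlobalEC.HPCalculus74
import Fermat.Agent.TW.GlobalEC.HPBridge74
import Fermat.Agent.TW.GlobalEC.PrimesDecomp5

set_option autoImplicit false
set_option linter.unusedSectionVars false

namespace Fermat.Agent.TW.GlobalEC.SemilocalChi79

open NumberField IsDedekindDomain HeightOneSpectrum Module
open scoped TensorProduct Pointwise
open Fermat.Agent.PT.GLOB.Interface23 Fermat.Agent.PT.GLOB.WeakApprox17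
open Fermat.Agent.PT.GLOB.PowerNearOneGen16 Fermat.Agent.PT.GLOB.LocalPowerIndex5
open Fermat.Agent.PT.GLOB.LamIndex5 Fermat.Agent.PT.GLOB.LocUnits5
open Fermat.Agent.PT.GLOB.SUnitsGalois24
open Fermat.Agent.TW.GlobalEC.SemilocalAct79 Fermat.Agent.TW.GlobalEC.SemilocalFil79
open Fermat.Agent.TW.GlobalEC.Spec26 Fermat.Agent.TW.GlobalEC.SpecB26
open Fermat.Agent.TW.GlobalEC.ChiP74 Fermat.Agent.TW.GlobalEC.HP5
open Fermat.Agent.TW.GlobalEC.SUnitHP5 Fermat.Agent.TW.GlobalEC.PermSum5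
open Fermat.Agent.TW.GlobalEC.PrimesDecomp5

noncomputable section

/-! ### Glue: multiplicative `G`-modules as `Rep ℤ G` -/

section Glue

variable {G : Type} [Group G] (p : ℕ) [Fact p.Prime]
variable (M : Type) [CommGroup M] [MulDistribMulAction G M]

/-- The `ℤ[G]`-module attached to a multiplicative `G`-module. -/
abbrev mRep (G : Type) [Group G] (M : Type) [CommGroup M] [MulDistribMulAction G M] :
    Rep.{0} ℤ G := Rep.ofMulDistribMulAction G M

theorem mRep_ρ (g : G) (m : M) :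
    (mRep G M).ρ g (Additive.ofMul m) = Additive.ofMul (g • m) := rfl

theorem index_pMulSub :
    (pMulSub p (mRep G M)).index = (powMonoidHom p : M →* M).range.index := by
  rw [← Subgroup.index_toAddSubgroup]
  rfl

theorem finite_modPRep_of_index (h : (powMonoidHom p : M →* M).range.index ≠ 0) :
    Finite (modPRep p (mRep G M)) := by
  have h1 : (pMulSub p (mRep G M)).index ≠ 0 := by rwa [index_pMulSub]
  have : (pMulSub p (mRep G M)).FiniteIndex := ⟨h1⟩
  exact AddSubgroup.finite_quotient_of_finiteIndex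

theorem finite_pTorsionRep_of_ker (h : Finite (powMonoidHom p : M →* M).ker) :
    Finite (pTorsionRep p (mRep G M)) := by
  let φ : pTorsionRep p (mRep G M) → (powMonoidHom p : M →* M).ker := fun x =>
    ⟨Additive.toMul (pTorsionRep.val p (mRep G M) x), pTorsionRep.nsmul_val p (mRep G M) x⟩
  refine Finite.of_injective φ ?_
  intro x y hxy
  apply pTorsionRep.val_injective
  exact congrArg Subtype.val hxy

theorem isPFinite_of_pow (h1 : Finite (powMonoidHom p : M →* M).ker)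
    (h2 : (powMonoidHom p : M →* M).range.index ≠ 0) : IsPFinite p (mRep G M) :=
  ⟨finiteDimensional_of_finite p _ (finite_modPRep_of_index p M h2),
    finiteDimensional_of_finite p _ (finite_pTorsionRep_of_ker p M h1)⟩

variable {M} {N : Type} [CommGroup N] [MulDistribMulAction G N]

/-- An equivariant homomorphism of multiplicative `G`-modules as a `ℤ`-linear map. -/
def mLin (φ : M →* N) : mRep G M →ₗ[ℤ] mRep G N := (MonoidHom.toAdditive φ).toIntLinearMap

theorem mLin_apply (φ : M →* N) (m : M) :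
    mLin (G := G) φ (Additive.ofMul m) = Additive.ofMul (φ m) := rfl

theorem mLin_comm (φ : M →* N) (hφ : ∀ (g : G) (m : M), φ (g • m) = g • φ m) (g : G)
    (x : mRep G M) : mLin (G := G) φ ((mRep G M).ρ g x) = (mRep G N).ρ g (mLin (G := G) φ x) :=
  congrArg Additive.ofMul (hφ g (Additive.toMul x))

end Glue

/-! ### The objects -/

variable (K L : Type) [Field K] [Field L] [NumberField K] [NumberField L] [Algebra K L]
  [IsGalois K L] (q : ℕ) [Fact q.Prime] (p : ℕ) [Fact p.Prime]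

/-- The semilocal units `(L ⊗[ℚ] ℚ_[q])ˣ` as a `ℤ[Gal(L/K)]`-module (the `q`-component of
`ClassAction23.repIT`). -/
abbrev locRep : Rep.{0} ℤ (L ≃ₐ[K] L) := mRep (L ≃ₐ[K] L) (L ⊗[ℚ] ℚ_[q])ˣ

/-- The units of `Λ = 𝓞 L ⊗[ℤ] ℤ_[q]`. -/
abbrev lamRep : Rep.{0} ℤ (L ≃ₐ[K] L) := mRep (L ≃ₐ[K] L) (Lam' q L)ˣ

/-- The principal units `U_1 = 1 + q Λ`. -/
abbrev u1Rep : Rep.{0} ℤ (L ≃ₐ[K] L) := mRep (L ≃ₐ[K] L) (U (Λ := Lam' q L) q 1)

/-- The permutation lattice `ℤ[Sq]` on the primes of `L` above `q`. -/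
def sqRepZ : Rep.{0} ℤ (L ≃ₐ[K] L) :=
  Rep.of (funRho ℤ (sqSmul K L q) (sqSmul_one K L q) (sqSmul_mul K L q))

/-- The permutation module `𝔽_p[Sq]` on the primes of `L` above `q`. -/
def sqRepP : Rep.{0} (ZMod p) (L ≃ₐ[K] L) :=
  Rep.of (funRho (ZMod p) (sqSmul K L q) (sqSmul_one K L q) (sqSmul_mul K L q))

theorem sqRepP_ρ_apply (σ : L ≃ₐ[K] L) (f : Sq L q → ZMod p) (P : Sq L q) :
    (show Sq L q → ZMod p from (sqRepP K L q p).ρ σ f) P = f (sqSmul K L q σ⁻¹ P) := rfl

/-- The ring of integers `𝓞 L` as a `ℤ[Gal(L/K)]`-module. -/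
def intRep : Rep.{0} ℤ (L ≃ₐ[K] L) :=
  Rep.of (Representation.ofDistribMulAction ℤ (L ≃ₐ[K] L) (𝓞 L))

theorem intRep_rat (L : Type) [Field L] [NumberField L] :
    intRep ℚ L = IntegersModP2.integersRep L := rfl

/-- The identification `𝓞 L = intRep K L`. -/
def intRepMk : 𝓞 L ≃+ intRep K L := AddEquiv.refl _

theorem intRep_ρ (σ : L ≃ₐ[K] L) (a : 𝓞 L) :
    (intRep K L).ρ σ (intRepMk K L a) = intRepMk K L (σ • a) := rfl

/-! ### `p`-finiteness -/

theorem isPFinite_locRep (hp2 : p ≠ 2) : IsPFinite p (locRep K L q) := by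
  have hp : p.Prime := Fact.out
  have hfin := finite_powKer_loc L q hp hp2
  refine isPFinite_of_pow p _ hfin ?_
  rw [index_powRange_loc L q hp hp2]
  refine mul_ne_zero (mul_ne_zero (pow_ne_zero _ hp.ne_zero) ?_) Nat.card_pos.ne'
  split_ifs
  · exact pow_ne_zero _ hp.ne_zero
  · exact one_ne_zero

theorem isPFinite_lamRep (hp2 : p ≠ 2) : IsPFinite p (lamRep K L q) := by
  have hp : p.Prime := Fact.out
  have hfin := finite_powKer_lam q L hp hp2
  refine isPFinite_of_pow p _ hfin ?_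
  rw [index_powRange_lam q L hp hp2]
  refine mul_ne_zero ?_ Nat.card_pos.ne'
  split_ifs
  · exact pow_ne_zero _ hp.ne_zero
  · exact one_ne_zero

theorem moduleFinite_sqRepZ :
    @Module.Finite ℤ (sqRepZ K L q) _ _ (sqRepZ K L q).hV2 :=
  inferInstanceAs (Module.Finite ℤ (Sq L q → ℤ))

theorem isPFinite_sqRepZ : IsPFinite p (sqRepZ K L q) := by
  have := moduleFinite_sqRepZ K L q
  exact ⟨finiteDimensional_of_finite p _ (finite_modPRep_of_fg p (sqRepZ K L q)),
    finiteDimensional_of_finite p _ (finite_pTorsionRep_of_fg p (sqRepZ K L q))⟩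

theorem finite_powKer_U (hp2 : p ≠ 2) :
    Finite (powMonoidHom (α := U (Λ := Lam' q L) q 1) p).ker := by
  have hp : p.Prime := Fact.out
  have : Subsingleton (powMonoidHom (α := U (Λ := Lam' q L) q 1) p).ker := by
    refine ⟨fun a b => Subtype.ext ?_⟩
    rw [eq_one_of_pow_eq_one_U L q hp hp2 a.1 a.2, eq_one_of_pow_eq_one_U L q hp hp2 b.1 b.2]
  infer_instance

theorem range_pow_U_of_ne (hp2 : p ≠ 2) (hqp : q ≠ p) :
    (powMonoidHom (α := U (Λ := Lam' q L) q 1) p).range = ⊤ := by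
  have hp : p.Prime := Fact.out
  rw [MonoidHom.range_eq_top]
  exact (pow_bijective_of_ne L q hp hp2 hqp).2

theorem range_pow_U_of_eq (hq2 : q ≠ 2) :
    (powMonoidHom (α := U (Λ := Lam' q L) q 1) q).range =
      (U (Λ := Lam' q L) q 2).subgroupOf (U (Λ := Lam' q L) q 1) := by
  ext u
  rw [Subgroup.mem_subgroupOf, ← theta_eq_zero_iff_mem_U, theta_eq_zero_iff L q hq2]
  rfl

theorem index_range_pow_U_ne_zero (hp2 : p ≠ 2) :
    (powMonoidHom (α := U (Λ := Lam' q L) q 1) p).range.index ≠ 0 := by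
  by_cases hqp : q = p
  · subst hqp
    rw [range_pow_U_of_eq L q hp2]
    change (U (Λ := Lam' q L) q 2).relIndex (U (Λ := Lam' q L) q 1) ≠ 0
    rw [relIndex_U q (hreg L q)]
    exact Nat.card_pos.ne'
  · rw [range_pow_U_of_ne L q p hp2 hqp, Subgroup.index_top]
    exact one_ne_zero

theorem isPFinite_u1Rep (hp2 : p ≠ 2) : IsPFinite p (u1Rep K L q) :=
  isPFinite_of_pow p _ (finite_powKer_U L q p hp2) (index_range_pow_U_ne_zero L q p hp2)

/-! ### Step 1: `0 → Λˣ → (L ⊗ ℚ_q)ˣ → ℤ[Sq] → 0` -/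

/-- The order map as a `ℤ`-linear map `(L ⊗ ℚ_q)ˣ → ℤ[Sq]`. -/
def ordLin (v : (L ⊗[ℚ] ℚ_[q])ˣ →* (Sq L q → Multiplicative ℤ)) :
    locRep K L q →ₗ[ℤ] sqRepZ K L q where
  toFun y := fun P => Multiplicative.toAdd (v (Additive.toMul (α := (L ⊗[ℚ] ℚ_[q])ˣ) y) P)
  map_add' y z := by
    funext P
    change Multiplicative.toAdd (v (Additive.toMul (α := (L ⊗[ℚ] ℚ_[q])ˣ) y *
      Additive.toMul (α := (L ⊗[ℚ] ℚ_[q])ˣ) z) P) = _
    rw [map_mul]
    rfl
  map_smul' n y := by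
    funext P
    change Multiplicative.toAdd (v (Additive.toMul (α := (L ⊗[ℚ] ℚ_[q])ˣ) y ^ n) P) = _
    rw [map_zpow]
    rfl

theorem ordLin_apply (v : (L ⊗[ℚ] ℚ_[q])ˣ →* (Sq L q → Multiplicative ℤ))
    (y : (L ⊗[ℚ] ℚ_[q])ˣ) (P : Sq L q) :
    (show Sq L q → ℤ from ordLin K L q v (Additive.ofMul y)) P = Multiplicative.toAdd (v y P) := rfl

variable {p}

theorem chi_locRep_eq_add (hp2 : p ≠ 2) {f : Rep.{0} (ZMod p) (L ≃ₐ[K] L) → ℤ}
    (hf : IsAdditive f) :
    chi p f (locRep K L q) = chi p f (lamRep K L q) + chi p f (sqRepZ K L q) := by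
  obtain ⟨v, hsurj, hker, -, hequiv⟩ := exists_ordHom_equivariant K L q
  refine chi_additive p hf (mLin (G := L ≃ₐ[K] L) (jHom L q)) (ordLin K L q v)
    (mLin_comm _ (jHom_smul K L q)) ?_ ?_ ?_ ?_ (isPFinite_lamRep K L q (p := p) hp2)
    (isPFinite_locRep K L q p hp2) (isPFinite_sqRepZ K L q p)
  · intro σ y
    funext P
    exact congrArg Multiplicative.toAdd (hequiv σ (Additive.toMul (α := (L ⊗[ℚ] ℚ_[q])ˣ) y) P)
  · intro x y hxy
    exact congrArg Additive.ofMul (jHom_injective L q (congrArg Additive.toMul hxy))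
  · intro g
    obtain ⟨y, hy⟩ := hsurj (fun P => Multiplicative.ofAdd (g P))
    refine ⟨Additive.ofMul y, ?_⟩
    funext P
    change Multiplicative.toAdd (v y P) = g P
    rw [hy]
    rfl
  · intro y
    constructor
    · intro h0
      have h1 : Additive.toMul (α := (L ⊗[ℚ] ℚ_[q])ˣ) y ∈ v.ker := by
        rw [MonoidHom.mem_ker]
        funext P
        have := congrFun h0 P
        exact congrArg Multiplicative.ofAdd this
      rw [hker] at h1
      obtain ⟨u, hu⟩ := h1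
      exact ⟨Additive.ofMul u, congrArg Additive.ofMul hu⟩
    · rintro ⟨x, rfl⟩
      have h1 : jHom L q (Additive.toMul x) ∈ v.ker := by
        rw [hker]; exact ⟨_, rfl⟩
      rw [MonoidHom.mem_ker] at h1
      funext P
      change Multiplicative.toAdd (v (jHom L q (Additive.toMul x)) P) = 0
      rw [h1]
      rfl

/-! ### Step 2: `U_1 ⊆ Λˣ` has finite index -/

/-- The inclusion `U_1 → Λˣ` as a linear map. -/
def u1Incl : u1Rep K L q →ₗ[ℤ] lamRep K L q :=
  mLin (G := L ≃ₐ[K] L) (M := U (Λ := Lam' q L) q 1) (N := (Lam' q L)ˣ)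
    (U (Λ := Lam' q L) q 1).subtype

theorem u1Incl_apply (u : U (Λ := Lam' q L) q 1) :
    u1Incl K L q (Additive.ofMul u) = Additive.ofMul (u : (Lam' q L)ˣ) := rfl

theorem u1Incl_injective : Function.Injective (u1Incl K L q) := by
  intro x y hxy
  exact congrArg Additive.ofMul (Subtype.val_injective (congrArg Additive.toMul hxy))

theorem range_u1Incl :
    LinearMap.range (u1Incl K L q) =
      AddSubgroup.toIntSubmodule (M := Additive (Lam' q L)ˣ)
        (Subgroup.toAddSubgroup (U (Λ := Lam' q L) q 1)) := by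
  ext x
  constructor
  · rintro ⟨u, rfl⟩
    exact (Additive.toMul (α := U (Λ := Lam' q L) q 1) u).2
  · intro hx
    exact ⟨Additive.ofMul (⟨Additive.toMul (α := (Lam' q L)ˣ) x, hx⟩ : U (Λ := Lam' q L) q 1), rfl⟩

theorem finite_coker_u1Incl : Finite (lamRep K L q ⧸ LinearMap.range (u1Incl K L q)) := by
  rw [range_u1Incl]
  have h1 : (Subgroup.toAddSubgroup (U (Λ := Lam' q L) q 1)).index ≠ 0 := by
    rw [Subgroup.index_toAddSubgroup]
    exact Subgroup.FiniteIndex.index_ne_zero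
  have : (Subgroup.toAddSubgroup (U (Λ := Lam' q L) q 1)).FiniteIndex := ⟨h1⟩
  exact (AddSubgroup.finite_quotient_of_finiteIndex :
    Finite (Additive (Lam' q L)ˣ ⧸ Subgroup.toAddSubgroup (U (Λ := Lam' q L) q 1)))

theorem chi_lamRep_eq (hp2 : p ≠ 2) {f : Rep.{0} (ZMod p) (L ≃ₐ[K] L) → ℤ} (hf : IsAdditive f) :
    chi p f (lamRep K L q) = chi p f (u1Rep K L q) := by
  symm
  have hinj := u1Incl_injective K L q
  refine chi_eq_of_finite_ker_coker hf (u1Incl K L q)
    (mLin_comm _ (fun _ _ => rfl)) (isPFinite_u1Rep K L q p hp2) (isPFinite_lamRep K L q (p := p) hp2)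
    ?_ (finite_coker_u1Incl K L q)
  exact @Finite.of_subsingleton _ ⟨fun a b => Subtype.ext (hinj (a.2.trans b.2.symm))⟩

/-! ### Step 3: `U_1` for `q ≠ p` -/

theorem chi_u1Rep_of_ne (hp2 : p ≠ 2) (hqp : q ≠ p) {f : Rep.{0} (ZMod p) (L ≃ₐ[K] L) → ℤ}
    (hf : IsAdditive f) : chi p f (u1Rep K L q) = 0 := by
  have hp : p.Prime := Fact.out
  refine chi_eq_zero_of_bijective hf _ ?_
  have hb := pow_bijective_of_ne L q hp hp2 hqp
  constructor
  · intro x y hxy
    exact congrArg Additive.ofMul (hb.1 (congrArg Additive.toMul hxy))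
  · intro x
    obtain ⟨w, hw⟩ := hb.2 (Additive.toMul x)
    exact ⟨Additive.ofMul w, congrArg Additive.ofMul hw⟩

/-! ### Step 4: `U_1` for `q = p` -/

theorem isPFinite_intRep : IsPFinite p (intRep K L) :=
  HPBridge74.isPFinite_of_finite_int p (intRep K L) (inst := (intRep K L).hV2)
    (inferInstanceAs (Module.Finite ℤ (𝓞 L)))

/-- `𝓞 L / q 𝓞 L → Λ / q Λ`. -/
def redBar : modPRep q (intRep K L) →+ (Lam' q L ⧸ Ideal.span {(q : Lam' q L)}) :=
  QuotientAddGroup.lift (pMulSub q (intRep K L)) (redInt L q) (by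
    rintro a ⟨b, rfl⟩
    exact (redInt_eq_zero_iff L q _).mpr ⟨b, rfl⟩)

theorem redBar_mk (a : 𝓞 L) :
    redBar K L q (modPRep.mk q (intRep K L) (intRepMk K L a)) = redInt L q a := rfl

theorem redBar_bijective : Function.Bijective (redBar K L q) := by
  constructor
  · rw [injective_iff_map_eq_zero]
    intro x hx
    obtain ⟨a, rfl⟩ := modPRep.mk_surjective q (intRep K L) x
    rw [modPRep.mk_eq_zero_iff]
    exact (redInt_eq_zero_iff L q a).mp hx
  · intro y
    obtain ⟨a, rfl⟩ := redInt_surjective L q y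
    exact ⟨modPRep.mk q (intRep K L) (intRepMk K L a), rfl⟩

/-- `U_1 → 𝓞 L / q 𝓞 L`, `1 + q z ↦ z mod q` (through `Λ / q Λ ≃ 𝓞 L / q 𝓞 L`). -/
def rMap : u1Rep K L q →+ modPRep q (intRep K L) :=
  (AddEquiv.ofBijective (redBar K L q) (redBar_bijective K L q)).symm.toAddMonoidHom.comp
    (theta L q)

theorem redBar_rMap (x : u1Rep K L q) : redBar K L q (rMap K L q x) = theta L q x :=
  (AddEquiv.ofBijective (redBar K L q) (redBar_bijective K L q)).apply_symm_apply _

theorem rMap_surjective : Function.Surjective (rMap K L q) := by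
  intro y
  obtain ⟨x, hx⟩ := theta_surjective L q (redBar K L q y)
  exact ⟨x, (redBar_bijective K L q).1 ((redBar_rMap K L q x).trans hx)⟩

theorem rMap_comm (σ : L ≃ₐ[K] L) (x : u1Rep K L q) :
    rMap K L q ((u1Rep K L q).ρ σ x) = (modPRep q (intRep K L)).ρ σ (rMap K L q x) := by
  obtain ⟨a, ha⟩ := modPRep.mk_surjective q (intRep K L) (rMap K L q x)
  have h1 : redInt L q a = theta L q x := by
    have := congrArg (redBar K L q) ha
    rwa [redBar_rMap] at this
  rw [← ha, modPRep.mk_ρ]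
  apply (redBar_bijective K L q).1
  rw [redBar_rMap]
  have h2 := theta_smul_sub_mem K L q σ (Additive.toMul (α := U (Λ := Lam' q L) q 1) x)
    (zOf q (Additive.toMul (α := U (Λ := Lam' q L) q 1) x)) rfl
  have h3 := redInt_smul K L q σ a (zOf q (Additive.toMul (α := U (Λ := Lam' q L) q 1) x)) h1
  exact h2.trans h3.symm

theorem rMap_eq_zero_iff (hq2 : q ≠ 2) (x : u1Rep K L q) :
    rMap K L q x = 0 ↔ ∃ y : u1Rep K L q, q • y = x := by
  have h1 : rMap K L q x = 0 ↔ theta L q x = 0 := by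
    rw [← redBar_rMap]
    constructor
    · intro h; rw [h, map_zero]
    · intro h
      apply (redBar_bijective K L q).1
      rw [h, map_zero]
  rw [h1]
  have h2 := theta_eq_zero_iff L q hq2 (Additive.toMul (α := U (Λ := Lam' q L) q 1) x)
  constructor
  · intro h
    obtain ⟨w, hw⟩ := h2.mp h
    exact ⟨Additive.ofMul w, congrArg Additive.ofMul hw⟩
  · rintro ⟨y, rfl⟩
    exact h2.mpr ⟨Additive.toMul (α := U (Λ := Lam' q L) q 1) y, rfl⟩

theorem chi_u1Rep_of_eq (hq2 : q ≠ 2) {f : Rep.{0} (ZMod q) (L ≃ₐ[K] L) → ℤ}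
    (hf : IsAdditive f) : chi q f (u1Rep K L q) = f (modPRep q (intRep K L)) := by
  have := (isPFinite_intRep K L (p := q)).1
  refine hE_eq_of_reduction q hf (u1Rep K L q) (modPRep q (intRep K L)) (rMap K L q)
    (rMap_comm K L q) (rMap_surjective K L q) (rMap_eq_zero_iff K L q hq2) ?_
  intro x hx
  have h1 := eq_one_of_pow_eq_one_U L q (Fact.out : q.Prime) hq2
    (Additive.toMul (α := U (Λ := Lam' q L) q 1) x) (congrArg Additive.toMul hx)
  exact congrArg Additive.ofMul h1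

/-! ### The formula -/

theorem chi_sqRepZ {f : Rep.{0} (ZMod p) (L ≃ₐ[K] L) → ℤ} (hf : IsAdditive f) :
    chi p f (sqRepZ K L q) = f (sqRepP K L q p) :=
  hE_funRep p hf (sqSmul K L q) (sqSmul_one K L q) (sqSmul_mul K L q)
    (funRho ℤ (sqSmul K L q) (sqSmul_one K L q) (sqSmul_mul K L q)) (fun _ _ _ => rfl)

/-- **EC5b, additive form**: the mod-`p` Euler characteristic of the semilocal units. -/
theorem chi_locRep (hp2 : p ≠ 2) {f : Rep.{0} (ZMod p) (L ≃ₐ[K] L) → ℤ} (hf : IsAdditive f) :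
    chi p f (locRep K L q) =
      f (sqRepP K L q p) + (if q = p then f (modPRep p (intRep K L)) else 0) := by
  rw [chi_locRep_eq_add K L q hp2 hf, chi_lamRep_eq K L q hp2 hf, chi_sqRepZ K L q hf]
  by_cases hqp : q = p
  · subst hqp
    rw [if_pos rfl, chi_u1Rep_of_eq K L q hp2 hf]
    ring
  · rw [if_neg hqp, chi_u1Rep_of_ne K L q hp2 hqp hf]
    ring

/-- `sqRepP` is the permutation module `𝔽_p^Ω` of `PermSum5` on `Ω = PrimesOverQ L q`. -/
theorem sqRepP_eq : sqRepP K L q p = permFun (ZMod p) (L ≃ₐ[K] L) (PrimesOverQ L q) := rfl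

/-- **EC5b, additive form**, with Mathlib's permutation module. -/
theorem chi_locRep' (hp2 : p ≠ 2) {f : Rep.{0} (ZMod p) (L ≃ₐ[K] L) → ℤ} (hf : IsAdditive f) :
    chi p f (locRep K L q) =
      f (Rep.ofMulAction (ZMod p) (L ≃ₐ[K] L) (PrimesOverQ L q)) +
        (if q = p then f (modPRep p (intRep K L)) else 0) := by
  have : Finite (PrimesOverQ L q) := finite_Sq L q
  rw [chi_locRep K L q hp2 hf, sqRepP_eq, e_ofMulAction_eq hf]

/-- **EC5b** in the encoding of `SpecC26`: `(L ⊗ ℚ_q)ˣ` is `p`-finite and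
`h_P((L ⊗ ℚ_q)ˣ) = dim Hom_G(P, 𝔽_p[primes above q]) + (dim Hom_G(P, 𝓞_L / p) if q = p)`. -/
theorem ec5b (hp2 : p ≠ 2) (P : Rep.{0} (ZMod p) (L ≃ₐ[K] L)) [FiniteDimensional (ZMod p) P]
    (hproj : IsProjRep P) :
    SpecC26.IsPFinite p (locRep K L q) ∧
    SpecC26.hP p P (locRep K L q) =
      (eqHomRank P (Rep.ofMulAction (ZMod p) (L ≃ₐ[K] L) (PrimesOverQ L q)) : ℤ) +
        (if q = p then (eqHomRank P (modPRep p (intRep K L)) : ℤ) else 0) := by
  refine ⟨(HPCalculus74.isPFinite_iff p _).mpr (isPFinite_locRep K L q p hp2), ?_⟩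
  exact chi_locRep' K L q hp2 (ChiP74.isAdditive_eqHomRank P hproj)

end

/-- **EC5b over `ℚ`**: for `L/ℚ` Galois,
`h_P((L ⊗ ℚ_q)ˣ) = dim Hom_G(P, 𝔽_p[primes above q]) + (dim P if q = p)`. -/
theorem ec5b_rat (L : Type) [Field L] [NumberField L] [IsGalois ℚ L] (q : ℕ) [Fact q.Prime]
    {p : ℕ} [Fact p.Prime] (hp2 : p ≠ 2) (P : Rep.{0} (ZMod p) (L ≃ₐ[ℚ] L))
    [FiniteDimensional (ZMod p) P] (hproj : IsProjRep P) :
    SpecC26.IsPFinite p (locRep ℚ L q) ∧
    SpecC26.hP p P (locRep ℚ L q) =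
      (eqHomRank P (Rep.ofMulAction (ZMod p) (L ≃ₐ[ℚ] L) (PrimesOverQ L q)) : ℤ) +
        (if q = p then (finrank (ZMod p) P : ℤ) else 0) := by
  obtain ⟨h1, h2⟩ := ec5b ℚ L q hp2 P hproj
  refine ⟨h1, ?_⟩
  rw [h2, intRep_rat, IntegersModP2.eqHomRank_integersRep_modP L p P hproj]

end Fermat.Agent.TW.GlobalEC.SemilocalChi79
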