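/-
TW / WP4 (global Euler characteristic), brick EC5, FINAL PLUG (helper5).

**The arithmetic core, unconditionally**: for an odd prime `p ∈ S`,

  `SpecC26.ArithmeticCore p (levelS S) (CS S) complexConjugation`,

i.e. for every normal open `U` of the basis `levelS S` of `Γ = Gal(ℚ̄/ℚ)` and every
finite-dimensional projective `𝔽_p[Γ/U]`-module `P`, the module `(C_S)^U` is `p`-finite and
`h_P((C_S)^U) = dim P^{c = -1} + dim Hom_{Γ/U}(P, 𝔽_p)`.

Inputs: `ArithCore59.arithmeticCore` (EC5a + integration, helper59), `SemilocalChi79.ec5b_rat`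
(EC5b + EC5c, helper79 + helper2), `EC5dFinal5.ec5d` (EC5d), `InfPlace5.infinitePlaceFormula`
(EC5-inf), the calculus `HPCalculus74` (EC5e, helper74), assembled in `LevelInput5`.
-/
import Mathlib
import Fermat.Agent.TW.GlobalEC.LevelInput5
import Fermat.Agent.TW.GlobalEC.SemilocalChi79

set_option autoImplicit false
set_option linter.unusedSectionVars false

namespace Fermat.Agent.TW.GlobalEC.EC5Final5

open Module NumberField
open Fermat.Agent.PT.GLUE.Objects21 Fermat.Agent.PT.GLUE.Levels21
open Fermat.Agent.TW.GlobalEC.Spec26 Fermat.Agent.TW.GlobalEC.SpecB26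
open Fermat.Agent.TW.GlobalEC.LevelInput5

/-- The per-prime semilocal formula (EC5b + EC5c), in the form consumed by `LevelInput5`. -/
theorem semilocalFormula (p : ℕ) [Fact p.Prime] (hp2 : p ≠ 2) (L : Type) [Field L]
    [NumberField L] [IsGalois ℚ L] (q : Nat.Primes) : SemilocalFormula p L q :=
  ⟨(HPCalculus74.isPFinite_iff p _).mpr (SemilocalChi79.isPFinite_locRep ℚ L (q : ℕ) p hp2),
   fun P _ hproj => (SemilocalChi79.ec5b_rat L (q : ℕ) hp2 P hproj).2⟩

/-- The finite-level input of the arithmetic core, unconditionally. -/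
theorem levelInput (p : ℕ) [hp : Fact p.Prime] (hp2 : p ≠ 2) (S : Finset Nat.Primes)
    (hpS : (⟨p, hp.out⟩ : Nat.Primes) ∈ S) (L : Type) [Field L] [NumberField L] [IsGalois ℚ L] :
    ArithCore59.LevelInput p S L :=
  LevelInput5.levelInput p S L hpS (fun q _ => semilocalFormula p hp2 L q)

/-- **(EC5) The arithmetic core, unconditionally** (`p` odd, `p ∈ S`). -/
theorem arithmeticCore {S : Finset Nat.Primes} (p : ℕ) [hp : Fact p.Prime] (hp2 : p ≠ 2)
    (hpS : (⟨p, hp.out⟩ : Nat.Primes) ∈ S) :
    SpecC26.ArithmeticCore p (levelS S) (CS S) complexConjugation :=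
  arithmeticCore_of_semilocal p hp2 hpS (fun K q _ => semilocalFormula p hp2 K.F q)

end Fermat.Agent.TW.GlobalEC.EC5Final5
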