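/-
Program TW (S56), WP4 "EC", brick EC4 (projective evaluation), part (iii), helper3.

`H` a finite group, `k` a field, `P` a finite-dimensional *projective* representation of `H`
(`Spec26.IsProjRep`).  Then the norm `N = ∑ h` induces an isomorphism from the coinvariants of `P`
onto the invariants of `P`, hence

  `dim P^H = dim Hom_H(P, k)`      (`finrank_invariants_eq_eqHomRank_triv`).

The proof is Higman's criterion: lifting `id_P` through `Map(H, P) → P`, `F ↦ ∑ x • F(x)`, gives a
`k`-linear `u : P → P` with `∑ x u x⁻¹ = id` (`exists_higman`).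
-/
import Mathlib
import Fermat.Agent.TW.GlobalEC.Spec26

set_option autoImplicit false

open Module

namespace Fermat.Agent.TW.GlobalEC.NormIso3

open Fermat.Agent.TW.GlobalEC.Spec26

noncomputable section

variable {k H : Type} [Field k] [Group H]

/-- The translation action on `Map(H, V)`: `(h • F)(x) = F(h⁻¹ x)`. -/
def transRho (V : Type) [AddCommGroup V] [Module k V] : Representation k H (H → V) where
  toFun h :=
    { toFun := fun F x => F (h⁻¹ * x)
      map_add' := fun F F' => by funext x; rfl
      map_smul' := fun r F => by funext x; rfl }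
  map_one' := by
    ext F x
    simp
  map_mul' h h' := by
    ext F x
    simp [mul_assoc]

theorem transRho_apply (V : Type) [AddCommGroup V] [Module k V] (h : H) (F : H → V) (x : H) :
    transRho (k := k) V h F x = F (h⁻¹ * x) := rfl

variable [Fintype H] (P : Rep.{0} k H)

/-- `F ↦ ∑ x, x • F(x)`. -/
def sumMap : (H → P) →ₗ[k] P := ∑ x : H, (P.ρ x).comp (LinearMap.proj x)

theorem sumMap_apply (F : H → P) : sumMap P F = ∑ x : H, P.ρ x (F x) := by
  simp [sumMap, LinearMap.sum_apply]

theorem sumMap_equivariant (h : H) (F : H → P) :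
    sumMap P (transRho (k := k) P h F) = P.ρ h (sumMap P F) := by
  rw [sumMap_apply, sumMap_apply, map_sum]
  refine Fintype.sum_equiv (Equiv.mulLeft h⁻¹) _ _ fun x => ?_
  rw [transRho_apply, Equiv.coe_mulLeft, ← Module.End.mul_apply, ← map_mul, mul_inv_cancel_left]

theorem sumMap_surjective : Function.Surjective (sumMap P) := by
  classical
  intro v
  refine ⟨Pi.single 1 v, ?_⟩
  rw [sumMap_apply, Finset.sum_eq_single 1]
  · rw [Pi.single_eq_same, map_one, Module.End.one_apply]
  · intro x _ hx
    rw [Pi.single_eq_of_ne hx, map_zero]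
  · intro h
    exact absurd (Finset.mem_univ _) h

variable {P}

/-- **Higman's criterion** (the easy direction): a projective representation of a finite group
has a `k`-linear endomorphism `u` with `∑ x u x⁻¹ = id`. -/
theorem exists_higman (hP : IsProjRep P) :
    ∃ u : P →ₗ[k] P, ∀ v : P, ∑ x : H, P.ρ x (u (P.ρ x⁻¹ v)) = v := by
  obtain ⟨s, hs1, hs2⟩ := hP (Rep.of (transRho (k := k) (H := H) P)) P (sumMap P)
    (sumMap_equivariant P) (sumMap_surjective P) LinearMap.id (fun _ _ => rfl)
  refine ⟨(LinearMap.proj (1 : H)).comp s, fun v => ?_⟩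
  have h1 : ∀ x : H, s v x = s (P.ρ x⁻¹ v) 1 := by
    intro x
    rw [hs1 x⁻¹ v]
    show s v x = transRho (k := k) P x⁻¹ (s v) 1
    rw [transRho_apply, inv_inv, mul_one]
  have h2 := hs2 v
  rw [sumMap_apply, LinearMap.id_apply] at h2
  calc ∑ x : H, P.ρ x (((LinearMap.proj (1 : H)).comp s) (P.ρ x⁻¹ v))
      = ∑ x : H, P.ρ x (s v x) := Finset.sum_congr rfl fun x _ => by rw [h1 x]; rfl
    _ = v := h2

/-- The range of the norm of a projective representation is the space of invariants. -/
theorem range_norm (hP : IsProjRep P) : LinearMap.range P.ρ.norm = P.ρ.invariants := by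
  obtain ⟨u, hu⟩ := exists_higman hP
  apply le_antisymm
  · rintro _ ⟨v, rfl⟩
    intro h
    exact Representation.self_norm_apply P.ρ h v
  · intro v hv
    refine ⟨u v, ?_⟩
    have h1 : ∀ x : H, P.ρ x⁻¹ v = v := fun x => hv x⁻¹
    have := hu v
    simp only [h1] at this
    rw [Representation.norm, LinearMap.sum_apply]
    exact this

/-- The kernel of the norm of a projective representation is the augmentation submodule. -/
theorem ker_norm (hP : IsProjRep P) :
    LinearMap.ker P.ρ.norm = Representation.Coinvariants.ker P.ρ := by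
  obtain ⟨u, hu⟩ := exists_higman hP
  apply le_antisymm
  · intro v hv
    rw [LinearMap.mem_ker] at hv
    have h1 : ∑ x : H, u (P.ρ x⁻¹ v) = 0 := by
      rw [← map_sum]
      have : ∑ x : H, P.ρ x⁻¹ v = P.ρ.norm v := by
        rw [Representation.norm, LinearMap.sum_apply]
        exact Fintype.sum_equiv (Equiv.inv H) _ _ fun x => rfl
      rw [this, hv, map_zero]
    have h2 : v = ∑ x : H, (P.ρ x (u (P.ρ x⁻¹ v)) - u (P.ρ x⁻¹ v)) := by
      rw [Finset.sum_sub_distrib, h1, sub_zero, hu v]
    rw [h2]
    exact Submodule.sum_mem _ fun x _ => Representation.Coinvariants.sub_mem_ker x _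
  · rw [Representation.Coinvariants.ker, Submodule.span_le]
    rintro _ ⟨⟨h, v⟩, rfl⟩
    show P.ρ.norm (P.ρ h v - v) = 0
    rw [map_sub, Representation.norm_self_apply, sub_self]

omit [Fintype H] in
variable (P) in
/-- `Hom_H(P, k)` is the annihilator of the augmentation submodule. -/
theorem invariants_linHom_triv :
    (Representation.linHom P.ρ (1 : Representation k H k)).invariants
      = (Representation.Coinvariants.ker P.ρ).dualAnnihilator := by
  ext φ
  rw [Representation.mem_invariants, Submodule.mem_dualAnnihilator]
  constructor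
  · intro h w hw
    induction hw using Submodule.span_induction with
    | mem w hw =>
      obtain ⟨⟨g, v⟩, rfl⟩ := hw
      have h1 := LinearMap.congr_fun (h g⁻¹) v
      rw [Representation.linHom_apply] at h1
      simp only [LinearMap.comp_apply, inv_inv] at h1
      change φ (P.ρ g v) = φ v at h1
      show φ (P.ρ g v - v) = 0
      rw [map_sub, h1, sub_self]
    | zero => exact map_zero φ
    | add x y _ _ hx hy => rw [map_add, hx, hy, add_zero]
    | smul r x _ hx => rw [map_smul, hx, smul_zero]
  · intro h g
    refine LinearMap.ext fun v => ?_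
    rw [Representation.linHom_apply]
    simp only [LinearMap.comp_apply]
    show φ (P.ρ g⁻¹ v) = φ v
    have := h _ (Representation.Coinvariants.sub_mem_ker (ρ := P.ρ) g⁻¹ v)
    rw [map_sub, sub_eq_zero] at this
    exact this

/-- **EC4 (iii)**: for a finite-dimensional projective representation `P` of a finite group,
`dim P^H = dim Hom_H(P, k)`. -/
theorem finrank_invariants_eq_eqHomRank_triv (hP : IsProjRep P) [FiniteDimensional k P] :
    finrank k P.ρ.invariants = eqHomRank P (Rep.of (1 : Representation k H k)) := by
  have h0 : eqHomRank P (Rep.of (1 : Representation k H k))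
      = finrank k (Representation.Coinvariants.ker P.ρ).dualAnnihilator := by
    show finrank k (Representation.linHom P.ρ (1 : Representation k H k)).invariants = _
    rw [invariants_linHom_triv]
  have h1 := LinearMap.finrank_range_add_finrank_ker P.ρ.norm
  have h2 := Subspace.finrank_add_finrank_dualAnnihilator_eq
    (Representation.Coinvariants.ker P.ρ)
  rw [ker_norm hP, range_norm hP] at h1
  rw [h0]
  omega

end

end Fermat.Agent.TW.GlobalEC.NormIso3
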