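/-
Program TW (S56), WP4 "EC", brick EC4a (plan v2 of helper26), helper3: the contract
`SpecD26.ProjH0`.

`C` a `ℤ[G]`-module (no divisibility, no discreteness needed), `U` a normal member of the level
basis, `P` a finite-dimensional `𝔽_p[G ⧸ U]`-module.  Then

* `dim Hom_G(infl P, C[p]) = dim Hom_{G/U}(P, C^U[p])`          (`HomInv3.eqHomRank_infl_pTorsion`),
* `dim P^{G/U} = dim Hom_{G/U}(P, 𝔽_p)` if `P` is projective    (`NormIso3`).
-/
import Mathlib
import Fermat.Agent.TW.GlobalEC.SpecD26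
import Fermat.Agent.TW.GlobalEC.NormIso3
import Fermat.Agent.TW.GlobalEC.HomInv3

set_option autoImplicit false

open Module

namespace Fermat.Agent.TW.GlobalEC.EC4aMain3

open Fermat.Agent.PT.PRO.LevelCoh28 Fermat.Agent.TW.GlobalEC.Spec26
  Fermat.Agent.TW.GlobalEC.SpecB26 Fermat.Agent.TW.GlobalEC.SpecD26

variable {G : Type} [Group G] (p : ℕ) [Fact p.Prime] (𝓑 : LevelBasis G) (C : Rep.{0} ℤ G)

/-- **(EC4a)** the `H⁰`-clauses of the projective evaluation. -/
theorem projH0 : ProjH0 p 𝓑 C := by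
  intro U _ hU P hfd
  refine ⟨HomInv3.eqHomRank_infl_pTorsion p C U P, fun hP => ?_⟩
  have : U.FiniteIndex := 𝓑.isBasis.finiteIndex U hU
  have : Finite (G ⧸ U) := Subgroup.finite_quotient_of_finiteIndex
  cases nonempty_fintype (G ⧸ U)
  exact NormIso3.finrank_invariants_eq_eqHomRank_triv hP

end Fermat.Agent.TW.GlobalEC.EC4aMain3
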