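/-
Program TW (S56), WP4 "EC", brick EC4b (plan v2 of helper26), helper3: the free module
`L = k[(G ⧸ U) × I]` with `G` acting through `G ⧸ U` on the first coordinate.

* `rhoL k U I`  : the representation of `G` on `L`; `U` acts trivially; discrete;
* `e i`         : the basis vector `[(1, i)]`;
* `liftL ρX v`  : the equivariant linear map `L → X` with `e i ↦ v i` (`v i` fixed by `U`);
* `ext_of_e`    : additive equivariant maps out of `L` agreeing on the `e i` are equal (for `k` a
                  quotient of `ℤ`);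
* `addToLin`    : an additive map between `k`-modules is `k`-linear (for `k` a quotient of `ℤ`).
-/
import Mathlib
import Fermat.Agent.PT.PRO.HyperLevel25

set_option autoImplicit false
set_option linter.unusedSectionVars false

namespace Fermat.Agent.TW.GlobalEC.FreeL3

open Fermat.Agent.PT.PRO

noncomputable section

/-! ### Additive maps are linear over a quotient of `ℤ` -/

section Lin

variable {k : Type} [CommRing k] (hk : Function.Surjective (Int.cast : ℤ → k))
  {A B : Type} [AddCommGroup A] [Module k A] [AddCommGroup B] [Module k B]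

include hk in
theorem map_smul_of_surj (f : A →+ B) (c : k) (x : A) : f (c • x) = c • f x := by
  obtain ⟨n, rfl⟩ := hk c
  rw [Int.cast_smul_eq_zsmul, Int.cast_smul_eq_zsmul, map_zsmul]

/-- An additive map as a `k`-linear map. -/
def addToLin (f : A →+ B) : A →ₗ[k] B where
  toFun := f
  map_add' := f.map_add
  map_smul' c x := map_smul_of_surj hk f c x

@[simp] theorem addToLin_apply (f : A →+ B) (x : A) : addToLin hk f x = f x := rfl

end Lin

variable (k : Type) [CommRing k] {G : Type} [Group G] (U : Subgroup G) [U.Normal] (I : Type)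

/-- `L = k[(G ⧸ U) × I]`. -/
abbrev L : Type := (G ⧸ U) × I →₀ k

/-- Left translation of the index set. -/
def tr (g : G) (xi : (G ⧸ U) × I) : (G ⧸ U) × I := ((g : G ⧸ U) * xi.1, xi.2)

theorem tr_one : tr U I 1 = id := by
  funext xi
  simp [tr]

theorem tr_mul (g h : G) : tr U I (g * h) = tr U I g ∘ tr U I h := by
  funext xi
  simp [tr, mul_assoc]

theorem tr_of_mem {u : G} (hu : u ∈ U) : tr U I u = id := by
  funext xi
  simp [tr, (QuotientGroup.eq_one_iff u).2 hu]

/-- The action of `G` on `L`. -/
def rhoL : Representation k G (L k U I) where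
  toFun g := Finsupp.lmapDomain k k (tr U I g)
  map_one' := by
    rw [tr_one]
    exact Finsupp.lmapDomain_id k k
  map_mul' g h := by
    rw [tr_mul]
    exact Finsupp.lmapDomain_comp k k (tr U I h) (tr U I g)

variable {k U I}

@[simp] theorem rhoL_single (g : G) (x : G ⧸ U) (i : I) (c : k) :
    rhoL k U I g (Finsupp.single (x, i) c) = Finsupp.single ((g : G ⧸ U) * x, i) c := by
  show Finsupp.mapDomain (tr U I g) (Finsupp.single (x, i) c) = _
  rw [Finsupp.mapDomain_single]
  rfl

theorem rhoL_of_mem {u : G} (hu : u ∈ U) (x : L k U I) : rhoL k U I u x = x := by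
  show Finsupp.mapDomain (tr U I u) x = x
  rw [tr_of_mem U I hu, Finsupp.mapDomain_id]

theorem isDiscrete_rhoL {𝒰 : Set (Subgroup G)} (hU : U ∈ 𝒰) :
    HyperLevel25.IsDiscrete 𝒰 (rhoL k U I) :=
  fun x => ⟨U, hU, fun _ hs => rhoL_of_mem hs x⟩

variable (k U) in
/-- The basis vector `[(1, i)]`. -/
def e (i : I) : L k U I := Finsupp.single (1, i) 1

theorem rhoL_e (g : G) (i : I) :
    rhoL k U I g (e k U i) = Finsupp.single ((g : G ⧸ U), i) 1 := by
  rw [e, rhoL_single, mul_one]

/-- `L` has no `p`-torsion if `k` has none. -/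
theorem eq_zero_of_nsmul_eq_zero (p : ℕ) (hkp : ∀ c : k, p • c = 0 → c = 0) (x : L k U I)
    (hx : p • x = 0) : x = 0 := by
  ext a
  have := DFunLike.congr_fun hx a
  rw [Finsupp.smul_apply, Finsupp.zero_apply] at this
  exact hkp _ this

/-! ### The universal property -/

section Lift

variable {X : Type} [AddCommGroup X] [Module k X] (ρX : Representation k G X)

/-- A `U`-fixed vector is moved in the same way by elements with the same image in `G ⧸ U`. -/
theorem rho_eq_of_mk_eq {x : X} (hx : ∀ u ∈ U, ρX u x = x) {g g' : G}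
    (h : (g : G ⧸ U) = (g' : G ⧸ U)) : ρX g x = ρX g' x := by
  have hu : g⁻¹ * g' ∈ U := QuotientGroup.eq.1 h
  have : g' = g * (g⁻¹ * g') := by group
  rw [this, map_mul, Module.End.mul_apply, hx _ hu]

/-- The linear map `L → X` with `[(σ, i)] ↦ σ̃ • v i`. -/
def liftL (v : I → X) : L k U I →ₗ[k] X :=
  Finsupp.linearCombination k (fun xi : (G ⧸ U) × I => ρX xi.1.out (v xi.2))

variable {ρX}

theorem liftL_single_mk {v : I → X} (hv : ∀ i, ∀ u ∈ U, ρX u (v i) = v i) (g : G) (i : I)
    (c : k) : liftL ρX v (Finsupp.single ((g : G ⧸ U), i) c) = c • ρX g (v i) := by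
  rw [liftL, Finsupp.linearCombination_single]
  congr 1
  exact rho_eq_of_mk_eq ρX (hv i) (QuotientGroup.out_eq' _)

theorem liftL_e {v : I → X} (hv : ∀ i, ∀ u ∈ U, ρX u (v i) = v i) (i : I) :
    liftL ρX v (e k U i) = v i := by
  have := liftL_single_mk hv 1 i (1 : k)
  rw [map_one, Module.End.one_apply, one_smul] at this
  exact this

theorem liftL_comm {v : I → X} (hv : ∀ i, ∀ u ∈ U, ρX u (v i) = v i) (g : G) (x : L k U I) :
    liftL ρX v (rhoL k U I g x) = ρX g (liftL ρX v x) := by
  induction x using Finsupp.induction_linear with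
  | zero => simp
  | add x y hx hy => rw [map_add, map_add, hx, hy, map_add, map_add]
  | single a c =>
    obtain ⟨y, i⟩ := a
    obtain ⟨h, rfl⟩ := QuotientGroup.mk_surjective y
    rw [rhoL_single, ← QuotientGroup.mk_mul, liftL_single_mk hv, liftL_single_mk hv, map_smul,
      map_mul, Module.End.mul_apply]

end Lift

/-! ### Uniqueness -/

section Ext

variable (hk : Function.Surjective (Int.cast : ℤ → k)) {Y : Type} [AddCommGroup Y]

include hk in
/-- Two additive maps out of `L`, equivariant for an action of `G` on the target by additive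
maps, which agree on the basis vectors `e i`, are equal. -/
theorem ext_of_e (act : G → Y →+ Y) (f f' : L k U I →+ Y)
    (hf : ∀ g x, f (rhoL k U I g x) = act g (f x))
    (hf' : ∀ g x, f' (rhoL k U I g x) = act g (f' x))
    (h : ∀ i, f (e k U i) = f' (e k U i)) : f = f' := by
  apply Finsupp.addHom_ext
  rintro ⟨y, i⟩ c
  obtain ⟨g, rfl⟩ := QuotientGroup.mk_surjective y
  obtain ⟨n, rfl⟩ := hk c
  have h1 : (Finsupp.single ((g : G ⧸ U), i) ((n : ℤ) : k) : L k U I)
      = n • rhoL k U I g (e k U i) := by
    rw [rhoL_e, Finsupp.smul_single, zsmul_eq_mul, mul_one]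
  rw [h1, map_zsmul, map_zsmul, hf, hf', h]

end Ext

end

end Fermat.Agent.TW.GlobalEC.FreeL3
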