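/-
Program TW (S56), WP4 "EC", brick EC4b (plan v2 of helper26), helper3: counting with a
biadditive pairing into `ZMod p`.

`β : A →+ B →+ ZMod p` biadditive, `qA : A →+ VA`, `qB : B →+ VB` surjective with kernels the left
resp. right kernel of `β`, `VB` finite.  Then `VA` is finite and `#VA = #VB`
(`card_eq_of_kernels`).
-/
import Mathlib
import Fermat.Agent.PT.PRO.PerfectPairing29

set_option autoImplicit false

namespace Fermat.Agent.TW.GlobalEC.CardPair3

open Fermat.Agent.PT.PRO.PerfectPairing29

variable {p : ℕ} [Fact p.Prime] {A B : Type*} [AddCommGroup A] [AddCommGroup B]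

/-- The left kernel of a biadditive pairing. -/
def lker (β : A →+ B →+ ZMod p) : AddSubgroup A := β.ker

/-- The right kernel of a biadditive pairing. -/
def rker (β : A →+ B →+ ZMod p) : AddSubgroup B := β.flip.ker

theorem mem_lker (β : A →+ B →+ ZMod p) (a : A) : a ∈ lker β ↔ ∀ b, β a b = 0 := by
  rw [lker, AddMonoidHom.mem_ker]
  constructor
  · intro h b
    rw [h]
    rfl
  · intro h
    ext b
    exact h b

theorem mem_rker (β : A →+ B →+ ZMod p) (b : B) : b ∈ rker β ↔ ∀ a, β a b = 0 := by
  rw [rker, AddMonoidHom.mem_ker]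
  constructor
  · intro h a
    have := DFunLike.congr_fun h a
    exact this
  · intro h
    ext a
    exact h a

/-- The induced pairing on the quotients by the kernels. -/
noncomputable def quotPair (β : A →+ B →+ ZMod p) :
    (A ⧸ lker β) →+ (B ⧸ rker β) →+ ZMod p :=
  QuotientAddGroup.lift (lker β)
    (AddMonoidHom.mk' (fun a => QuotientAddGroup.lift (rker β) (β a)
        (fun b hb => (mem_rker β b).1 hb a))
      (fun a a' => by
        ext b
        change β (a + a') b = β a b + β a' b
        rw [map_add, AddMonoidHom.add_apply]))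
    (fun a ha => by
      ext b
      exact (mem_lker β a).1 ha b)

theorem quotPair_mk (β : A →+ B →+ ZMod p) (a : A) (b : B) :
    quotPair β (QuotientAddGroup.mk a) (QuotientAddGroup.mk b) = β a b := rfl

/-- The quotients by the two kernels have the same cardinality. -/
theorem card_quotient_eq (β : A →+ B →+ ZMod p) [Finite (B ⧸ rker β)] :
    Finite (A ⧸ lker β) ∧ Nat.card (A ⧸ lker β) = Nat.card (B ⧸ rker β) := by
  refine card_eq_of_nondegenerate (quotPair β) (AddMonoidHom.id (ZMod p)) (fun t _ h => h) ?_ ?_ ?_
  · intro x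
    induction x using QuotientAddGroup.induction_on with
    | H b =>
      rw [← QuotientAddGroup.mk_nsmul, QuotientAddGroup.eq_zero_iff, mem_rker]
      intro a
      rw [map_nsmul, nsmul_eq_mul, ZMod.natCast_self, zero_mul]
  · intro e he
    induction e using QuotientAddGroup.induction_on with
    | H a =>
      rw [QuotientAddGroup.eq_zero_iff, mem_lker]
      intro b
      exact he (QuotientAddGroup.mk b)
  · intro x hx
    induction x using QuotientAddGroup.induction_on with
    | H b =>
      rw [QuotientAddGroup.eq_zero_iff, mem_rker]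
      intro a
      exact hx (QuotientAddGroup.mk a)

/-- **Counting with a pairing**: surjections whose kernels are the kernels of the pairing have
targets of the same cardinality. -/
theorem card_eq_of_kernels (β : A →+ B →+ ZMod p) {VA VB : Type*} [AddCommGroup VA]
    [AddCommGroup VB] (qA : A →+ VA) (qB : B →+ VB) (hqA : Function.Surjective qA)
    (hqB : Function.Surjective qB) (hA : ∀ a, qA a = 0 ↔ ∀ b, β a b = 0)
    (hB : ∀ b, qB b = 0 ↔ ∀ a, β a b = 0) [Finite VB] : Nat.card VA = Nat.card VB := by
  have hkA : qA.ker = lker β := by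
    ext a
    rw [AddMonoidHom.mem_ker, hA, mem_lker]
  have hkB : qB.ker = rker β := by
    ext b
    rw [AddMonoidHom.mem_ker, hB, mem_rker]
  have eA : (A ⧸ lker β) ≃+ VA :=
    (QuotientAddGroup.quotientAddEquivOfEq hkA.symm).trans
      (QuotientAddGroup.quotientKerEquivOfSurjective qA hqA)
  have eB : (B ⧸ rker β) ≃+ VB :=
    (QuotientAddGroup.quotientAddEquivOfEq hkB.symm).trans
      (QuotientAddGroup.quotientKerEquivOfSurjective qB hqB)
  have : Finite (B ⧸ rker β) := Finite.of_equiv _ eB.symm.toEquiv
  rw [← Nat.card_congr eA.toEquiv, ← Nat.card_congr eB.toEquiv]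
  exact (card_quotient_eq β).2

end Fermat.Agent.TW.GlobalEC.CardPair3
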