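/-
Program TW (S56), WP4 "EC", brick EC4b (plan v2 of helper26), helper3: the Poitou–Tate pairing
on `Hom_G(P₁, C) × {lifted cocycles}` and its two kernels, for an ARBITRARY resolution
`R : 0 → P₁ → P₀ → M → 0` (generic coefficient ring `k`, bundled `C : Rep k G`).

* `homInv C R`        : `Hom_G(P₁, C)`, the equivariant linear maps `w : P₁ → C`;
* `liftSub 𝓑 R`       : the lifted cocycles `(a', b)`, `a' : G → P₀` level, `ι ∘ b = d a'`;
* `pv w b = w ∘ b`     : the pairing `pairFun 0 w a' b` of the hyper-cocycle `(0, w)` with `(a', b)`;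
                         it is a level 2-cocycle of `C` and `p • (w ∘ b)` is a level coboundary;
* `beta`              : `(w, (a', b)) ↦ inv (w ∘ b)`, biadditive, for an invariant map `inv` as in
                         `SpecD26.HasInv`;
* `beta_left`         : LEFT kernel `= {y₀ ∘ ι | y₀ ∈ Hom_G(P₀, C)}`        (from `LKDatum`);
* `beta_right`        : RIGHT kernel `= {(a', b) | π ∘ a' is a coboundary}`  (from `RKDatum` and the
                         "Shapiro property" `ShapiroProp` of the resolution: every level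
                         hyper-cocycle is `(0, w) + D⁰ y₀` with `w` equivariant);
* `card_eq`           : hence `#(Hom_G(P₁, C) / Hom_G(P₀, C)) = #H¹_lev(M)` in the form: surjections
                         with these kernels have targets of the same cardinality.
-/
import Mathlib
import Fermat.Agent.PT.PRO.LevelCompare13
import Fermat.Agent.TW.GlobalEC.SpecD26
import Fermat.Agent.TW.GlobalEC.CardPair3

set_option autoImplicit false
set_option linter.unusedSectionVars false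

namespace Fermat.Agent.TW.GlobalEC.HyperPair3

open Fermat.Agent.PT.PRO Fermat.Agent.PT.PRO.IndRes20 Fermat.Agent.PT.PRO.Pairing20
open Fermat.Agent.TW.GlobalEC.SpecD26

noncomputable section

variable {k : Type} [CommRing k] {G : Type} [Group G]
variable {P1 P0 M : Type} [AddCommGroup P1] [Module k P1] [AddCommGroup P0] [Module k P0]
  [AddCommGroup M] [Module k M]
variable (p : ℕ) (𝓑 : LevelCoh28.LevelBasis G) (C : Rep.{0} k G) (R : Res k G P1 P0 M)

/-! ### Equivariant maps -/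

/-- `Hom_G(P₁, C)`. -/
def homInv : AddSubgroup (P1 →ₗ[k] C) where
  carrier := {w | ∀ g x, w (R.ρ1 g x) = C.ρ g (w x)}
  zero_mem' := by
    intro g x
    simp
  add_mem' := by
    intro w w' hw hw' g x
    rw [LinearMap.add_apply, LinearMap.add_apply, map_add, hw g x, hw' g x]
  neg_mem' := by
    intro w hw g x
    rw [LinearMap.neg_apply, LinearMap.neg_apply, map_neg, hw g x]

theorem mem_homInv (w : P1 →ₗ[k] C) : w ∈ homInv C R ↔ ∀ g x, w (R.ρ1 g x) = C.ρ g (w x) :=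
  Iff.rfl

/-- Equivariant maps are the invariants of the conjugation action. -/
theorem linHom_eq_self_iff {V : Type} [AddCommGroup V] [Module k V] (ρV : Representation k G V)
    (w : V →ₗ[k] C) :
    (∀ g, Representation.linHom ρV C.ρ g w = w) ↔ ∀ g x, w (ρV g x) = C.ρ g (w x) := by
  constructor
  · intro h g x
    have h1 := LinearMap.congr_fun (h g) (ρV g x)
    rw [Representation.linHom_apply, LinearMap.comp_apply, LinearMap.comp_apply,
      ← Module.End.mul_apply, ← map_mul, inv_mul_cancel, map_one, Module.End.one_apply] at h1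
    exact h1.symm
  · intro h g
    apply LinearMap.ext
    intro x
    rw [Representation.linHom_apply, LinearMap.comp_apply, LinearMap.comp_apply, ← h,
      ← Module.End.mul_apply, ← map_mul, mul_inv_cancel, map_one, Module.End.one_apply]

/-! ### Lifted cocycles -/

theorem basis' : HyperLevel25.IsLevelBasis 𝓑.sets :=
  LevelCompare13.isLevelBasis_iff.1 𝓑.isBasis

/-- The lifted cocycles `(a', b)`: `a'` level, `ι ∘ b = d a'`. -/
def liftSub : AddSubgroup ((G → P0) × (G × G → P1)) where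
  carrier := {l | (∀ q, R.ι (l.2 q) = HyperLevel25.dOne R.ρ0 l.1 q) ∧
    HyperLevel25.IsLevel₁ 𝓑.sets l.1}
  zero_mem' := by
    refine ⟨fun q => ?_, (basis' 𝓑).isLevel₁_const 0⟩
    simp
  add_mem' := by
    rintro l l' ⟨h1, h2⟩ ⟨h1', h2'⟩
    refine ⟨fun q => ?_, (basis' 𝓑).isLevel₁_add h2 h2'⟩
    rw [Prod.snd_add, Pi.add_apply, map_add, h1 q, h1' q, Prod.fst_add, map_add, Pi.add_apply]
  neg_mem' := by
    rintro l ⟨h1, h2⟩
    refine ⟨fun q => ?_, ?_⟩
    · rw [Prod.snd_neg, Pi.neg_apply, map_neg, h1 q, Prod.fst_neg, map_neg, Pi.neg_apply]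
    · exact HyperLevel25.IsLevel₁.comp h2 (fun x => -x)

theorem mem_liftSub (l : (G → P0) × (G × G → P1)) :
    l ∈ liftSub 𝓑 R ↔ (∀ q, R.ι (l.2 q) = HyperLevel25.dOne R.ρ0 l.1 q) ∧
      HyperLevel25.IsLevel₁ 𝓑.sets l.1 := Iff.rfl

theorem isLift_of_mem {l : (G → P0) × (G × G → P1)} (hl : l ∈ liftSub 𝓑 R) :
    (R.datum C.ρ).IsLift l.1 l.2 := hl.1

/-- `b` is a level 2-cochain. -/
theorem isLevel₂_snd (h0 : HyperLevel25.IsDiscrete 𝓑.sets R.ρ0) {l : (G → P0) × (G × G → P1)}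
    (hl : l ∈ liftSub 𝓑 R) : HyperLevel25.IsLevel₂ 𝓑.sets l.2 := by
  obtain ⟨U, hU, h⟩ := (basis' 𝓑).isLevel₂_dOne h0 hl.2
  refine ⟨U, hU, fun g g' s s' hs hs' => R.ι_inj ?_⟩
  rw [hl.1, hl.1, h g g' s s' hs hs']

/-- `b` is a 2-cocycle of `P₁`. -/
theorem dTwo_snd {l : (G → P0) × (G × G → P1)} (hl : l ∈ liftSub 𝓑 R) (g h j : G) :
    R.ρ1 g (l.2 (h, j)) - l.2 (g * h, j) + l.2 (g, h * j) - l.2 (g, h) = 0 := by
  apply R.ι_inj
  have h0 := congrFun (HyperLevel25.dTwo_dOne R.ρ0 l.1) (g, h, j)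
  simp only [HyperLevel25.dTwo_apply, Pi.zero_apply] at h0
  simp only [map_sub, map_add, map_zero, R.ι_comm, hl.1]
  exact h0

/-! ### The pairing values -/

/-- `w ∘ b`. -/
def pv (w : P1 →ₗ[k] C) (b : G × G → P1) : G × G → C := fun q => w (b q)

theorem pv_apply (w : P1 →ₗ[k] C) (b : G × G → P1) (q : G × G) : pv C w b q = w (b q) := rfl

theorem pv_add_left (w w' : P1 →ₗ[k] C) (b : G × G → P1) :
    pv C (w + w') b = pv C w b + pv C w' b := by
  funext q
  simp [pv]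

theorem pv_add_right (w : P1 →ₗ[k] C) (b b' : G × G → P1) :
    pv C w (b + b') = pv C w b + pv C w b' := by
  funext q
  simp [pv]

/-- `(0, w)` is a hyper-cocycle for equivariant `w`. -/
theorem isHyperCocycle_zero {w : P1 →ₗ[k] C} (hw : w ∈ homInv C R) :
    (R.datum C.ρ).IsHyperCocycle 0 w := by
  refine ⟨map_zero _, fun g => ?_⟩
  have h1 : Representation.linHom R.ρ1 C.ρ g w = w :=
    (linHom_eq_self_iff C R.ρ1 w).2 hw g
  show (R.datum C.ρ).f 0 = Representation.linHom R.ρ1 C.ρ g w - w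
  rw [map_zero, h1, sub_self]

theorem pairFun_zero (w : P1 →ₗ[k] C) (a' : G → P0) (b : G × G → P1) :
    (R.datum C.ρ).pairFun 0 w a' b = pv C w b := by
  funext q
  rw [Datum.pairFun, Pi.zero_apply, map_zero, LinearMap.zero_apply, zero_add]
  rfl

/-- `w ∘ b` is a level 2-cocycle. -/
theorem pv_mem_Z2 (h0 : HyperLevel25.IsDiscrete 𝓑.sets R.ρ0) {w : P1 →ₗ[k] C}
    (hw : w ∈ homInv C R) {l : (G → P0) × (G × G → P1)} (hl : l ∈ liftSub 𝓑 R) :
    pv C w l.2 ∈ LevelCoh28.Z2 𝓑 C := by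
  refine ⟨(LevelCompare13.mem_cocycles₂_iff C _).2 ?_, (LevelCompare13.isLevel₂_iff _).2 ?_⟩
  · funext ⟨g, h, j⟩
    rw [HyperLevel25.dTwo_apply, Pi.zero_apply]
    simp only [pv_apply]
    rw [← hw g, ← map_sub, ← map_add, ← map_sub, dTwo_snd 𝓑 R hl, map_zero]
  · exact HyperLevel25.IsLevel₂.comp (isLevel₂_snd 𝓑 R h0 hl) w

/-- `p • (w ∘ b)` is a level coboundary (`M` is killed by `p`). -/
theorem smul_pv_mem_B2 (hpM : ∀ m : M, p • m = 0) {w : P1 →ₗ[k] C}
    (hw : w ∈ homInv C R) {l : (G → P0) × (G × G → P1)} (hl : l ∈ liftSub 𝓑 R) :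
    p • pv C w l.2 ∈ LevelCoh28.B2 𝓑 C := by
  have hex : ∀ x : P0, ∃ z : P1, R.ι z = p • x := fun x =>
    (R.exact (p • x)).1 (by rw [map_nsmul, hpM])
  choose hf hhf using hex
  rw [LevelCoh28.mem_B2_iff]
  refine ⟨fun g => w (hf (l.1 g)), ?_, ?_⟩
  · exact (LevelCompare13.isLevel₁_iff _).2
      (HyperLevel25.IsLevel₁.comp hl.2 (fun x => w (hf x)))
  · rw [← LevelCompare13.dOne_eq]
    funext ⟨g, h⟩
    rw [HyperLevel25.dOne_apply, Pi.smul_apply, pv_apply, ← hw g, ← map_sub, ← map_add,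
      ← map_nsmul]
    congr 1
    apply R.ι_inj
    rw [map_add, map_sub, R.ι_comm, hhf, hhf, hhf, map_nsmul (R.ρ0 g), map_nsmul R.ι, hl.1,
      HyperLevel25.dOne_apply, smul_add, smul_sub]

theorem isPCocycle₂_pv (h0 : HyperLevel25.IsDiscrete 𝓑.sets R.ρ0) (hpM : ∀ m : M, p • m = 0)
    {w : P1 →ₗ[k] C} (hw : w ∈ homInv C R) {l : (G → P0) × (G × G → P1)}
    (hl : l ∈ liftSub 𝓑 R) : IsPCocycle₂ 𝓑 C p (pv C w l.2) :=
  ⟨pv_mem_Z2 𝓑 C R h0 hw hl, smul_pv_mem_B2 p 𝓑 C R hpM hw hl⟩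

/-! ### The pairing -/

section Beta

variable (inv : (G × G → C) → ZMod p)
  (hadd : ∀ z z', IsPCocycle₂ 𝓑 C p z → IsPCocycle₂ 𝓑 C p z' → inv (z + z') = inv z + inv z')
  (h0 : HyperLevel25.IsDiscrete 𝓑.sets R.ρ0) (hpM : ∀ m : M, p • m = 0)

/-- The pairing `(w, (a', b)) ↦ inv (w ∘ b)`. -/
def beta : homInv C R →+ liftSub 𝓑 R →+ ZMod p :=
  AddMonoidHom.mk' (fun w => AddMonoidHom.mk' (fun l => inv (pv C w.1 l.1.2))
    (fun l l' => by
      show inv (pv C w.1 (l.1.2 + l'.1.2)) = _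
      rw [pv_add_right]
      exact hadd _ _ (isPCocycle₂_pv p 𝓑 C R h0 hpM w.2 l.2) (isPCocycle₂_pv p 𝓑 C R h0 hpM w.2 l'.2)))
    (fun w w' => by
      ext l
      show inv (pv C (w.1 + w'.1) l.1.2) = inv (pv C w.1 l.1.2) + inv (pv C w'.1 l.1.2)
      rw [pv_add_left]
      exact hadd _ _ (isPCocycle₂_pv p 𝓑 C R h0 hpM w.2 l.2) (isPCocycle₂_pv p 𝓑 C R h0 hpM w'.2 l.2))

theorem beta_apply (w : homInv C R) (l : liftSub 𝓑 R) :
    beta p 𝓑 C R inv hadd h0 hpM w l = inv (pv C w.1 l.1.2) := rfl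

variable (hzero : ∀ z, IsPCocycle₂ 𝓑 C p z → (inv z = 0 ↔ z ∈ LevelCoh28.B2 𝓑 C))

include hzero in
theorem beta_eq_zero_iff (w : homInv C R) (l : liftSub 𝓑 R) :
    beta p 𝓑 C R inv hadd h0 hpM w l = 0 ↔
      ∃ u : G → C, HyperLevel25.IsLevel₁ 𝓑.sets u ∧
        pv C w.1 l.1.2 = HyperLevel25.dOne C.ρ u := by
  rw [beta_apply, hzero _ (isPCocycle₂_pv p 𝓑 C R h0 hpM w.2 l.2), LevelCoh28.mem_B2_iff]
  constructor
  · rintro ⟨u, hu, h⟩
    exact ⟨u, (LevelCompare13.isLevel₁_iff _).1 hu, by rw [LevelCompare13.dOne_eq, h]⟩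
  · rintro ⟨u, hu, h⟩
    exact ⟨u, (LevelCompare13.isLevel₁_iff _).2 hu, by rw [← LevelCompare13.dOne_eq, h]⟩

include hzero in
/-- **Left kernel** of `beta`: the restrictions of the equivariant maps `P₀ → C`. -/
theorem beta_left (hLK : LKDatum R C.ρ 𝓑.sets) (w : homInv C R) :
    (∀ l, beta p 𝓑 C R inv hadd h0 hpM w l = 0) ↔
      ∃ y₀ : P0 →ₗ[k] C, (∀ g x, y₀ (R.ρ0 g x) = C.ρ g (y₀ x)) ∧ w.1 = y₀ ∘ₗ R.ι := by
  constructor
  · intro h
    obtain ⟨y₀, h1, h2⟩ := hLK 0 w.1 (isHyperCocycle_zero C R w.2)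
      ((basis' 𝓑).isLevel₁_const 0) (fun a' b hab ha' => by
        obtain ⟨u, hu, hu'⟩ := (beta_eq_zero_iff p 𝓑 C R inv hadd h0 hpM hzero w
          ⟨(a', b), hab, ha'⟩).1 (h _)
        exact ⟨u, hu, by rw [pairFun_zero]; exact hu'⟩)
    refine ⟨y₀, (linHom_eq_self_iff C R.ρ0 y₀).1 (fun g => ?_), h2⟩
    have := congrFun h1 g
    rw [HyperLevel25.dZero_apply, Pi.zero_apply] at this
    exact (sub_eq_zero.1 this.symm)
  · rintro ⟨y₀, hy₀, hw⟩ l
    rw [beta_eq_zero_iff p 𝓑 C R inv hadd h0 hpM hzero]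
    refine ⟨fun g => y₀ (l.1.1 g), HyperLevel25.IsLevel₁.comp l.2.2 y₀, ?_⟩
    funext ⟨g, h⟩
    rw [pv_apply, hw, LinearMap.comp_apply, l.2.1, HyperLevel25.dOne_apply,
      HyperLevel25.dOne_apply, map_add, map_sub, hy₀]

/-- The "Shapiro property" of the resolution `R` relative to `C`: every level hyper-cocycle is
`(0, w) + D⁰ y₀` with `w` equivariant. -/
def ShapiroProp : Prop :=
  ∀ (c : G → (P0 →ₗ[k] C)) (y : P1 →ₗ[k] C), (R.datum C.ρ).IsHyperCocycle c y →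
    HyperLevel25.IsLevel₁ 𝓑.sets c →
    ∃ (y₀ : P0 →ₗ[k] C) (w : P1 →ₗ[k] C), w ∈ homInv C R ∧
      c = HyperLevel25.dZero (R.datum C.ρ).ρY0 y₀ ∧ y = w + y₀ ∘ₗ R.ι

include hzero in
/-- **Right kernel** of `beta`: the lifts of the coboundaries of `M`. -/
theorem beta_right (hRK : RKDatum R C.ρ 𝓑.sets) (hSh : ShapiroProp 𝓑 C R)
    (l : liftSub 𝓑 R) :
    (∀ w, beta p 𝓑 C R inv hadd h0 hpM w l = 0) ↔
      ∃ a₀ : M, ⇑R.π ∘ l.1.1 = HyperLevel25.dZero R.ρM a₀ := by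
  constructor
  · intro h
    refine hRK l.1.1 l.1.2 l.2.1 l.2.2 (fun c y hcy hc => ?_)
    obtain ⟨y₀, w, hw, rfl, rfl⟩ := hSh c y hcy hc
    obtain ⟨u, hu, hu'⟩ := (beta_eq_zero_iff p 𝓑 C R inv hadd h0 hpM hzero ⟨w, hw⟩ l).1 (h _)
    refine ⟨u + fun g => (R.datum C.ρ).ev0 y₀ (l.1.1 g),
      (basis' 𝓑).isLevel₁_add hu (HyperLevel25.IsLevel₁.comp l.2.2 _), ?_⟩
    have h1 : (R.datum C.ρ).pairFun (HyperLevel25.dZero (R.datum C.ρ).ρY0 y₀) (w + y₀ ∘ₗ R.ι)
        l.1.1 l.1.2 = (R.datum C.ρ).pairFun 0 w l.1.1 l.1.2 +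
          (R.datum C.ρ).pairFun (HyperLevel25.dZero (R.datum C.ρ).ρY0 y₀)
            ((R.datum C.ρ).f y₀) l.1.1 l.1.2 := by
      rw [← Datum.pairFun_add_left, zero_add]
      rfl
    rw [h1, pairFun_zero, hu', Datum.pairFun_bdry_left _ y₀ (isLift_of_mem 𝓑 C R l.2), map_add]
    rfl
  · rintro ⟨a₀, ha₀⟩ w
    rw [beta_eq_zero_iff p 𝓑 C R inv hadd h0 hpM hzero]
    obtain ⟨x₀, rfl⟩ := R.π_surj a₀
    -- `a' - d x₀ = ι ∘ t`
    have hex : ∀ g, ∃ z : P1, R.ι z = l.1.1 g - HyperLevel25.dZero R.ρ0 x₀ g := fun g =>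
      (R.exact _).1 (by
        have := congrFun ha₀ g
        rw [Function.comp_apply, HyperLevel25.dZero_apply] at this
        rw [map_sub, this, HyperLevel25.dZero_apply, map_sub, R.π_comm, sub_self])
    choose t ht using hex
    have htl : HyperLevel25.IsLevel₁ 𝓑.sets t := by
      obtain ⟨U, hU, hUl⟩ := (basis' 𝓑).isLevel₁_sub l.2.2
        (HyperLevel25.isLevel₁_dZero h0 x₀)
      refine ⟨U, hU, fun g s hs => R.ι_inj ?_⟩
      rw [ht, ht]
      exact hUl g s hs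
    have hb : l.1.2 = HyperLevel25.dOne R.ρ1 t := by
      funext ⟨g, h⟩
      apply R.ι_inj
      rw [l.2.1, HyperLevel25.dOne_apply, HyperLevel25.dOne_apply, map_add, map_sub, R.ι_comm,
        ht, ht, ht]
      simp only [HyperLevel25.dZero_apply, map_sub, map_mul, Module.End.mul_apply]
      abel
    refine ⟨fun g => w.1 (t g), HyperLevel25.IsLevel₁.comp htl w.1, ?_⟩
    funext ⟨g, h⟩
    rw [pv_apply, hb, HyperLevel25.dOne_apply, HyperLevel25.dOne_apply, map_add, map_sub, w.2]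

include inv hadd h0 hpM hzero in
/-- **Counting**: surjections from `Hom_G(P₁, C)` and from the lifted cocycles whose kernels are
the restrictions of `Hom_G(P₀, C)`, resp. the lifts of coboundaries, have targets of the same
cardinality. -/
theorem card_eq (hLK : LKDatum R C.ρ 𝓑.sets) (hRK : RKDatum R C.ρ 𝓑.sets)
    (hSh : ShapiroProp 𝓑 C R) [Fact p.Prime] {VA VB : Type*} [AddCommGroup VA] [AddCommGroup VB]
    (qA : homInv C R →+ VA) (qB : liftSub 𝓑 R →+ VB) (hqA : Function.Surjective qA)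
    (hqB : Function.Surjective qB)
    (hA : ∀ w : homInv C R, qA w = 0 ↔
      ∃ y₀ : P0 →ₗ[k] C, (∀ g x, y₀ (R.ρ0 g x) = C.ρ g (y₀ x)) ∧ w.1 = y₀ ∘ₗ R.ι)
    (hB : ∀ l : liftSub 𝓑 R, qB l = 0 ↔
      ∃ a₀ : M, ⇑R.π ∘ l.1.1 = HyperLevel25.dZero R.ρM a₀) [Finite VB] :
    Nat.card VA = Nat.card VB :=
  CardPair3.card_eq_of_kernels (beta p 𝓑 C R inv hadd h0 hpM) qA qB hqA hqB
    (fun w => (hA w).trans (beta_left p 𝓑 C R inv hadd h0 hpM hzero hLK w).symm)
    (fun l => (hB l).trans (beta_right p 𝓑 C R inv hadd h0 hpM hzero hRK hSh l).symm)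

end Beta

end

end Fermat.Agent.TW.GlobalEC.HyperPair3
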