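/-
Program TW (S56), WP4 "EC", brick EC4b (plan v2 of helper26), helper3: the algebra
`Ext¹_G(M, C) = Hom_G(P₁, C) / Hom_G(L, C) ≃ Hom_{G/U}(M, C^U / p)`.

Setting: `k` a quotient of `ℤ` (in the application `k = ℤ`), `C : Rep k G`, `U` normal,
`R : 0 → P₁ → L → M → 0` a resolution with `L = k[(G ⧸ U) × I]` (`FreeL3`), `p M = 0`,
`X = C^U = C.quotientToInvariants U`, `Q = X / pX = modPRep p X`.

* `Phi`            : `Hom_G(P₁, C) →+ Hom_G(M, Q)`, `w ↦ (π x̃ ↦ [w(p x̃)])`;
* `Phi_eq_zero_iff`: its kernel is `{y₀ ∘ ι | y₀ ∈ Hom_G(L, C)}`;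
* `Phi_surjective` : it is surjective.
The last two use an additive equivariant `ẽ : L → L` with `π ẽ = π` and `π x = 0 ↔ ẽ x ∈ pL`
(exists when `M` is projective over `𝔽_p[G ⧸ U]`) and the absence of `p`-torsion in `k`.
-/
import Mathlib
import Fermat.Agent.TW.GlobalEC.HyperPair3
import Fermat.Agent.TW.GlobalEC.FreeL3
import Fermat.Agent.TW.GlobalEC.HomInv3

set_option autoImplicit false
set_option linter.unusedSectionVars false

namespace Fermat.Agent.TW.GlobalEC.ExtAlg3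

open Fermat.Agent.PT.PRO Fermat.Agent.PT.PRO.IndRes20
open Fermat.Agent.TW.GlobalEC.SpecB26 Fermat.Agent.TW.GlobalEC.FreeL3
  Fermat.Agent.TW.GlobalEC.HyperPair3 Fermat.Agent.TW.GlobalEC.HomInv3

noncomputable section

variable {k : Type} [CommRing k] {G : Type} [Group G] (U : Subgroup G) [U.Normal] {I : Type}
  {P1 M : Type} [AddCommGroup P1] [Module k P1] [AddCommGroup M] [Module k M]
  (p : ℕ) [Fact p.Prime] (C : Rep.{0} k G) (R : Res k G P1 (L k U I) M)

/-- `Q = C^U / p C^U`. -/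
abbrev Q : Rep.{0} (ZMod p) (G ⧸ U) := modPRep p (C.quotientToInvariants U)

/-- The class map `C^U → Q`, additive. -/
def mkQ : C.quotientToInvariants U →+ Q U p C where
  toFun := modPRep.mk p (C.quotientToInvariants U)
  map_zero' := rfl
  map_add' _ _ := rfl

theorem mkQ_ρ (g : G) (x : C.quotientToInvariants U) :
    mkQ U p C ((C.quotientToInvariants U).ρ (g : G ⧸ U) x) = (Q U p C).ρ (g : G ⧸ U) (mkQ U p C x) :=
  rfl

theorem mkQ_eq_zero_iff (x : C.quotientToInvariants U) :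
    mkQ U p C x = 0 ↔ ∃ y : C.quotientToInvariants U, p • y = x :=
  modPRep.mk_eq_zero_iff p _ x

theorem mkQ_surjective : Function.Surjective (mkQ U p C) :=
  modPRep.mk_surjective p _

/-- The equivariant additive maps `M → Q`. -/
def eqHom : AddSubgroup (M →+ Q U p C) where
  carrier := {φ | ∀ g m, φ (R.ρM g m) = (Q U p C).ρ (g : G ⧸ U) (φ m)}
  zero_mem' := by
    intro g m
    simp
  add_mem' := by
    intro φ φ' h h' g m
    rw [AddMonoidHom.add_apply, AddMonoidHom.add_apply, h g m, h' g m, map_add]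
  neg_mem' := by
    intro φ h g m
    rw [AddMonoidHom.neg_apply, AddMonoidHom.neg_apply, h g m, map_neg]

section Basic

variable (hρ0 : ∀ g x, R.ρ0 g x = rhoL k U I g x) (hpM : ∀ m : M, p • m = 0)

include hρ0 in
theorem ρ0_of_mem {u : G} (hu : u ∈ U) (x : L k U I) : R.ρ0 u x = x := by
  rw [hρ0, rhoL_of_mem hu]

include hρ0 in
theorem ρ1_of_mem {u : G} (hu : u ∈ U) (z : P1) : R.ρ1 u z = z := by
  apply R.ι_inj
  rw [R.ι_comm, ρ0_of_mem U R hρ0 hu]

/-! ### Multiplication by `p`, as a map `L → P₁` -/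

include hpM in
theorem exists_hmul (x : L k U I) : ∃ z : P1, R.ι z = p • x :=
  (R.exact _).1 (by rw [map_nsmul, hpM])

/-- `h : L → P₁` with `ι (h x) = p x`. -/
def hmul (x : L k U I) : P1 := Classical.choose (exists_hmul U p R hpM x)

theorem ι_hmul (x : L k U I) : R.ι (hmul U p R hpM x) = p • x :=
  Classical.choose_spec (exists_hmul U p R hpM x)

theorem hmul_add (x y : L k U I) :
    hmul U p R hpM (x + y) = hmul U p R hpM x + hmul U p R hpM y :=
  R.ι_inj (by rw [map_add, ι_hmul, ι_hmul, ι_hmul, smul_add])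

theorem hmul_ρ (g : G) (x : L k U I) :
    hmul U p R hpM (R.ρ0 g x) = R.ρ1 g (hmul U p R hpM x) :=
  R.ι_inj (by rw [R.ι_comm, ι_hmul, ι_hmul, map_nsmul])

theorem hmul_ι (z : P1) : hmul U p R hpM (R.ι z) = p • z :=
  R.ι_inj (by rw [ι_hmul, map_nsmul])

theorem hmul_nsmul (x : L k U I) : hmul U p R hpM (p • x) = p • hmul U p R hpM x :=
  R.ι_inj (by rw [ι_hmul, map_nsmul, ι_hmul])

/-- `h` as an additive map. -/
def hmulAdd : L k U I →+ P1 := AddMonoidHom.mk' (hmul U p R hpM) (hmul_add U p R hpM)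

/-! ### Values in `C^U` -/

include hρ0 in
theorem fixed_of_mem_homInv {w : P1 →ₗ[k] C} (hw : w ∈ homInv C R) (z : P1) (u : G)
    (hu : u ∈ U) : C.ρ u (w z) = w z := by
  rw [← hw u z, ρ1_of_mem U R hρ0 hu]

/-- `w`, with values in `C^U`. -/
def toX (w : homInv C R) : P1 →+ C.quotientToInvariants U where
  toFun z := mkInv C U (w.1 z) (fixed_of_mem_homInv U C R hρ0 w.2 z)
  map_zero' := invVal_injective C U (by rw [invVal_mkInv, map_zero, invVal_zero])
  map_add' z z' := invVal_injective C U (by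
    rw [invVal_add, invVal_mkInv, invVal_mkInv, invVal_mkInv, map_add])

@[simp] theorem invVal_toX (w : homInv C R) (z : P1) :
    invVal C U (toX U C R hρ0 w z) = w.1 z := rfl

theorem toX_ρ (w : homInv C R) (g : G) (z : P1) :
    toX U C R hρ0 w (R.ρ1 g z) = (C.quotientToInvariants U).ρ (g : G ⧸ U) (toX U C R hρ0 w z) :=
  invVal_injective C U (by rw [invVal_ρ, invVal_toX, invVal_toX, w.2 g z])

theorem toX_add (w w' : homInv C R) (z : P1) :
    toX U C R hρ0 (w + w') z = toX U C R hρ0 w z + toX U C R hρ0 w' z :=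
  invVal_injective C U (by
    rw [invVal_add, invVal_toX, invVal_toX, invVal_toX, AddSubgroup.coe_add,
      LinearMap.add_apply])

/-! ### The map `Φ` -/

/-- A set-theoretic section of `π`. -/
def sec (m : M) : L k U I := Function.surjInv R.π_surj m

theorem π_sec (m : M) : R.π (sec U R m) = m := Function.surjInv_eq R.π_surj m

/-- `φ_w(m) = [w(p x̃)]`, `π x̃ = m`. -/
def phiFun (w : homInv C R) (m : M) : Q U p C :=
  mkQ U p C (toX U C R hρ0 w (hmul U p R hpM (sec U R m)))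

theorem phiFun_π (w : homInv C R) (x : L k U I) :
    phiFun U p C R hρ0 hpM w (R.π x) = mkQ U p C (toX U C R hρ0 w (hmul U p R hpM x)) := by
  obtain ⟨z, hz⟩ := (R.exact (sec U R (R.π x) - x)).1 (by rw [map_sub, π_sec, sub_self])
  have h1 : sec U R (R.π x) = x + R.ι z := by
    rw [hz]
    abel
  rw [phiFun, h1, hmul_add, hmul_ι, map_add, map_add, map_nsmul, map_nsmul]
  have h2 : p • mkQ U p C (toX U C R hρ0 w z) = 0 := by
    rw [← map_nsmul, mkQ_eq_zero_iff]
    exact ⟨_, rfl⟩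
  rw [h2, add_zero]

/-- `φ_w` as an additive map. -/
def phiAdd (w : homInv C R) : M →+ Q U p C :=
  AddMonoidHom.mk' (phiFun U p C R hρ0 hpM w) (fun m m' => by
    obtain ⟨x, rfl⟩ := R.π_surj m
    obtain ⟨x', rfl⟩ := R.π_surj m'
    rw [← map_add, phiFun_π, phiFun_π, phiFun_π, hmul_add, map_add, map_add])

theorem phiAdd_π (w : homInv C R) (x : L k U I) :
    phiAdd U p C R hρ0 hpM w (R.π x) = mkQ U p C (toX U C R hρ0 w (hmul U p R hpM x)) :=
  phiFun_π U p C R hρ0 hpM w x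

theorem phiAdd_mem (w : homInv C R) : phiAdd U p C R hρ0 hpM w ∈ eqHom U p C R := by
  intro g m
  obtain ⟨x, rfl⟩ := R.π_surj m
  rw [← R.π_comm, phiAdd_π, phiAdd_π, hmul_ρ, toX_ρ, mkQ_ρ]

/-- `Φ : Hom_G(P₁, C) →+ Hom_G(M, C^U / p)`. -/
def Phi : homInv C R →+ eqHom U p C R :=
  AddMonoidHom.mk' (fun w => ⟨phiAdd U p C R hρ0 hpM w, phiAdd_mem U p C R hρ0 hpM w⟩)
    (fun w w' => by
      apply Subtype.ext
      apply AddMonoidHom.ext
      intro m
      obtain ⟨x, rfl⟩ := R.π_surj m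
      show phiAdd U p C R hρ0 hpM (w + w') (R.π x)
        = phiAdd U p C R hρ0 hpM w (R.π x) + phiAdd U p C R hρ0 hpM w' (R.π x)
      rw [phiAdd_π, phiAdd_π, phiAdd_π, toX_add, map_add])

theorem Phi_apply_π (w : homInv C R) (x : L k U I) :
    (Phi U p C R hρ0 hpM w).1 (R.π x) = mkQ U p C (toX U C R hρ0 w (hmul U p R hpM x)) :=
  phiFun_π U p C R hρ0 hpM w x

theorem Phi_eq_zero_iff' (w : homInv C R) :
    Phi U p C R hρ0 hpM w = 0 ↔
      ∀ x : L k U I, mkQ U p C (toX U C R hρ0 w (hmul U p R hpM x)) = 0 := by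
  constructor
  · intro h x
    rw [← Phi_apply_π, h]
    rfl
  · intro h
    apply Subtype.ext
    apply AddMonoidHom.ext
    intro m
    obtain ⟨x, rfl⟩ := R.π_surj m
    rw [Phi_apply_π, h x]
    rfl

end Basic

/-! ### Kernel and image of `Φ` -/

section Main

variable (hk : Function.Surjective (Int.cast : ℤ → k))
  (hρ0 : ∀ g x, R.ρ0 g x = rhoL k U I g x) (hpM : ∀ m : M, p • m = 0)
  (hkp : ∀ c : k, p • c = 0 → c = 0)
  (et : L k U I →+ L k U I) (het : ∀ g x, et (rhoL k U I g x) = rhoL k U I g (et x))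
  (hπe : ∀ x, R.π (et x) = R.π x) (hker : ∀ x, R.π x = 0 ↔ ∃ z, et x = p • z)

include hk hπe het hker in
/-- **The kernel of `Φ`**: the restrictions of the equivariant maps `L → C`. -/
theorem Phi_eq_zero_iff (w : homInv C R) :
    Phi U p C R hρ0 hpM w = 0 ↔
      ∃ y₀ : L k U I →ₗ[k] C, (∀ g x, y₀ (R.ρ0 g x) = C.ρ g (y₀ x)) ∧ w.1 = y₀ ∘ₗ R.ι := by
  rw [Phi_eq_zero_iff']
  constructor
  · intro h
    -- step 1: divide `w(p e i)` by `p`
    have h1 : ∀ i, ∃ n : C.quotientToInvariants U,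
        p • n = toX U C R hρ0 w (hmul U p R hpM (e k U i)) := fun i =>
      (mkQ_eq_zero_iff U p C _).1 (h (e k U i))
    choose n hn using h1
    have hv : ∀ i, ∀ u ∈ U, C.ρ u (invVal C U (n i)) = invVal C U (n i) :=
      fun i u hu => invVal_fixed C U (n i) u hu
    let g₁ : L k U I →ₗ[k] C := liftL C.ρ (fun i => invVal C U (n i))
    have hg₁ : ∀ g x, g₁ (rhoL k U I g x) = C.ρ g (g₁ x) := liftL_comm hv
    have claim1 : ∀ x, p • g₁ x = w.1 (hmul U p R hpM x) := by
      have := ext_of_e (U := U) (I := I) hk (fun g : G => (C.ρ g).toAddMonoidHom)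
        ((nsmulAddMonoidHom p).comp g₁.toAddMonoidHom)
        (w.1.toAddMonoidHom.comp (hmulAdd U p R hpM))
        (fun g x => by
          show p • g₁ (rhoL k U I g x) = C.ρ g (p • g₁ x)
          rw [hg₁, map_nsmul])
        (fun g x => by
          show w.1 (hmul U p R hpM (rhoL k U I g x)) = C.ρ g (w.1 (hmul U p R hpM x))
          rw [← hρ0, hmul_ρ, w.2])
        (fun i => by
          show p • g₁ (e k U i) = w.1 (hmul U p R hpM (e k U i))
          rw [show g₁ (e k U i) = invVal C U (n i) from liftL_e hv i, ← invVal_nsmul, hn i,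
            invVal_toX])
      intro x
      exact DFunLike.congr_fun this x
    -- step 2: `w' = w - g₁ ∘ ι` kills `h L`
    let w' : P1 →ₗ[k] C := w.1 - g₁ ∘ₗ R.ι
    have hw' : ∀ g z, w' (R.ρ1 g z) = C.ρ g (w' z) := by
      intro g z
      show w.1 (R.ρ1 g z) - g₁ (R.ι (R.ρ1 g z)) = C.ρ g (w.1 z - g₁ (R.ι z))
      rw [w.2 g z, R.ι_comm, hρ0, hg₁, map_sub]
    have hw'h : ∀ x, w' (hmul U p R hpM x) = 0 := by
      intro x
      show w.1 (hmul U p R hpM x) - g₁ (R.ι (hmul U p R hpM x)) = 0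
      rw [ι_hmul, map_nsmul, claim1, sub_self]
    -- step 3: `κ = ι⁻¹ ∘ (1 - ẽ)`
    have hex : ∀ x : L k U I, ∃ z : P1, R.ι z = x - et x := fun x =>
      (R.exact _).1 (by rw [map_sub, hπe, sub_self])
    choose κ hκ using hex
    have hκadd : ∀ x y, κ (x + y) = κ x + κ y := fun x y =>
      R.ι_inj (by rw [map_add, hκ, hκ, hκ, map_add]; abel)
    have hκρ : ∀ g x, κ (R.ρ0 g x) = R.ρ1 g (κ x) := fun g x =>
      R.ι_inj (by rw [R.ι_comm, hκ, hκ, hρ0, het, ← hρ0, ← hρ0, map_sub])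
    have hκι : ∀ z : P1, w' (κ (R.ι z)) = w' z := by
      intro z
      obtain ⟨z', hz'⟩ := (hker (R.ι z)).1 ((R.exact _).2 ⟨z, rfl⟩)
      have : κ (R.ι z) = z - hmul U p R hpM z' :=
        R.ι_inj (by rw [hκ, map_sub, ι_hmul, hz'])
      rw [this, map_sub, hw'h, sub_zero]
    let g₂ : L k U I →ₗ[k] C := addToLin hk (w'.toAddMonoidHom.comp (AddMonoidHom.mk' κ hκadd))
    have hg₂ : ∀ x, g₂ x = w' (κ x) := fun x => rfl
    refine ⟨g₁ + g₂, fun g x => ?_, ?_⟩
    · rw [LinearMap.add_apply, LinearMap.add_apply, hg₂, hg₂, hκρ, hw', hρ0, hg₁, map_add]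
    · apply LinearMap.ext
      intro z
      rw [LinearMap.comp_apply, LinearMap.add_apply, hg₂, hκι]
      show w.1 z = g₁ (R.ι z) + (w.1 z - g₁ (R.ι z))
      abel
  · rintro ⟨y₀, hy₀, hw⟩ x
    have hfix : ∀ u ∈ U, C.ρ u (y₀ x) = y₀ x := fun u hu => by
      rw [← hy₀, ρ0_of_mem U R hρ0 hu]
    rw [mkQ_eq_zero_iff]
    refine ⟨mkInv C U (y₀ x) hfix, invVal_injective C U ?_⟩
    rw [invVal_nsmul, invVal_mkInv, invVal_toX, hw, LinearMap.comp_apply, ι_hmul, map_nsmul]

include hk hkp hπe het hker in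
/-- **`Φ` is surjective.** -/
theorem Phi_surjective : Function.Surjective (Phi U p C R hρ0 hpM) := by
  rintro ⟨φ, hφ⟩
  -- lift `φ ∘ π` to `ψ : L → C^U`
  have h1 : ∀ i, ∃ c : C.quotientToInvariants U, mkQ U p C c = φ (R.π (e k U i)) := fun i =>
    mkQ_surjective U p C _
  choose ci hci using h1
  have hv : ∀ i, ∀ u ∈ U, C.ρ u (invVal C U (ci i)) = invVal C U (ci i) :=
    fun i u hu => invVal_fixed C U (ci i) u hu
  let ψ : L k U I →ₗ[k] C := liftL C.ρ (fun i => invVal C U (ci i))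
  have hψ : ∀ g x, ψ (rhoL k U I g x) = C.ρ g (ψ x) := liftL_comm hv
  have hψfix : ∀ x, ∀ u ∈ U, C.ρ u (ψ x) = ψ x := fun x u hu => by
    rw [← hψ, rhoL_of_mem hu]
  let ψX : L k U I →+ C.quotientToInvariants U :=
    { toFun := fun x => mkInv C U (ψ x) (hψfix x)
      map_zero' := invVal_injective C U (by rw [invVal_mkInv, map_zero, invVal_zero])
      map_add' := fun x y => invVal_injective C U (by
        rw [invVal_add, invVal_mkInv, invVal_mkInv, invVal_mkInv, map_add]) }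
  have hψX : ∀ x, invVal C U (ψX x) = ψ x := fun x => rfl
  have star : ∀ x, mkQ U p C (ψX x) = φ (R.π x) := by
    have := ext_of_e (U := U) (I := I) hk (fun g : G => ((Q U p C).ρ (g : G ⧸ U)).toAddMonoidHom)
      ((mkQ U p C).comp ψX) (φ.comp R.π.toAddMonoidHom)
      (fun g x => by
        show mkQ U p C (ψX (rhoL k U I g x)) = (Q U p C).ρ (g : G ⧸ U) (mkQ U p C (ψX x))
        rw [← mkQ_ρ]
        congr 1
        exact invVal_injective C U (by rw [invVal_ρ, hψX, hψX, hψ]))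
      (fun g x => by
        show φ (R.π (rhoL k U I g x)) = (Q U p C).ρ (g : G ⧸ U) (φ (R.π x))
        rw [← hρ0, R.π_comm, hφ])
      (fun i => by
        show mkQ U p C (ψX (e k U i)) = φ (R.π (e k U i))
        rw [← hci i]
        congr 1
        exact invVal_injective C U (by rw [hψX]; exact liftL_e hv i))
    intro x
    exact DFunLike.congr_fun this x
  -- division by `p` of `ẽ ∘ ι`
  have hex : ∀ z : P1, ∃ z' : L k U I, et (R.ι z) = p • z' := fun z =>
    (hker (R.ι z)).1 ((R.exact _).2 ⟨z, rfl⟩)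
  choose dv hdv using hex
  have htf : ∀ a b : L k U I, p • a = p • b → a = b := by
    intro a b hab
    have : a - b = 0 := eq_zero_of_nsmul_eq_zero p hkp (a - b) (by rw [smul_sub, hab, sub_self])
    exact sub_eq_zero.1 this
  have hdvadd : ∀ z z', dv (z + z') = dv z + dv z' := fun z z' =>
    htf _ _ (by rw [← hdv, map_add, map_add, hdv, hdv, smul_add])
  have hdvρ : ∀ g z, dv (R.ρ1 g z) = rhoL k U I g (dv z) := fun g z =>
    htf _ _ (by rw [← hdv, R.ι_comm, hρ0, het, hdv, map_nsmul])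
  have hdvh : ∀ x, dv (hmul U p R hpM x) = et x := fun x =>
    htf _ _ (by rw [← hdv, ι_hmul, map_nsmul])
  let w : P1 →ₗ[k] C := addToLin hk (ψ.toAddMonoidHom.comp (AddMonoidHom.mk' dv hdvadd))
  have hwv : ∀ z, w z = ψ (dv z) := fun z => rfl
  have hw : w ∈ homInv C R := by
    intro g z
    rw [hwv, hwv, hdvρ, hψ]
  refine ⟨⟨w, hw⟩, ?_⟩
  apply Subtype.ext
  apply AddMonoidHom.ext
  intro m
  obtain ⟨x, rfl⟩ := R.π_surj m
  rw [Phi_apply_π]
  show mkQ U p C (toX U C R hρ0 ⟨w, hw⟩ (hmul U p R hpM x)) = φ (R.π x)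
  rw [← hπe x, ← star (et x)]
  congr 1
  exact invVal_injective C U (by rw [invVal_toX, hψX, hwv, hdvh])

end Main

end

end Fermat.Agent.TW.GlobalEC.ExtAlg3
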