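/-
Program TW (S56), WP4 "EC", brick EC4b (plan v2 of helper26), helper3: the presentation of a
projective `𝔽_p[G ⧸ U]`-module `P` by the free `ℤ[G ⧸ U]`-module `L = ℤ[(G ⧸ U) × P]`.

* `kerRes`   : for any equivariant surjection `π : k[(G ⧸ U) × I] → M` the resolution
               `0 → ker π → k[(G ⧸ U) × I] → M → 0` (`IndRes20.Res`, generic `k`);
* `piZ`      : `π : ℤ[(G ⧸ U) × P] → P`, `[(σ, x)] ↦ σ x`; equivariant, surjective;
* `exists_et`: if `P` is projective (`Spec26.IsProjRep`) there is an additive equivariant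
               `ẽ : L → L` with `π ẽ = π` and `π x = 0 ↔ ẽ x ∈ p L`.
-/
import Mathlib
import Fermat.Agent.PT.PRO.IndRes20
import Fermat.Agent.TW.GlobalEC.Spec26
import Fermat.Agent.TW.GlobalEC.FreeL3

set_option autoImplicit false
set_option linter.unusedSectionVars false

namespace Fermat.Agent.TW.GlobalEC.ProjPres3

open Fermat.Agent.PT.PRO Fermat.Agent.PT.PRO.IndRes20
open Fermat.Agent.TW.GlobalEC.Spec26 Fermat.Agent.TW.GlobalEC.FreeL3

noncomputable section

/-! ### The resolution with `P₁ = ker π` -/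

section KerRes

variable {k : Type} [CommRing k] {G : Type} [Group G] (U : Subgroup G) [U.Normal] {I : Type}
  {M : Type} [AddCommGroup M] [Module k M]
  (ρM : Representation k G M) (π : L k U I →ₗ[k] M)
  (hπ : ∀ g x, π (rhoL k U I g x) = ρM g (π x)) (hs : Function.Surjective π)

/-- The action of `G` on `ker π`. -/
def kerRho : Representation k G ↥(LinearMap.ker π) where
  toFun g := (rhoL k U I g).restrict (fun x hx => by
    rw [LinearMap.mem_ker] at hx ⊢
    rw [hπ, hx, map_zero])
  map_one' := by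
    apply LinearMap.ext
    intro x
    apply Subtype.ext
    show rhoL k U I 1 x.1 = x.1
    rw [map_one]
    rfl
  map_mul' g h := by
    apply LinearMap.ext
    intro x
    apply Subtype.ext
    show rhoL k U I (g * h) x.1 = rhoL k U I g (rhoL k U I h x.1)
    rw [map_mul]
    rfl

/-- The resolution `0 → ker π → k[(G ⧸ U) × I] → M → 0`. -/
def kerRes : Res k G ↥(LinearMap.ker π) (L k U I) M where
  ρ1 := kerRho U ρM π hπ
  ρ0 := rhoL k U I
  ρM := ρM
  ι := (LinearMap.ker π).subtype
  ι_comm _ _ := rfl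
  ι_inj := Subtype.val_injective
  π := π
  π_comm := hπ
  π_surj := hs
  exact x := ⟨fun h => ⟨⟨x, h⟩, rfl⟩, by
    rintro ⟨z, rfl⟩
    exact z.2⟩

end KerRes

/-! ### The presentation of `P` -/

section Pres

variable {G : Type} [Group G] (U : Subgroup G) [U.Normal] (p : ℕ) [Fact p.Prime]
  (P : Rep.{0} (ZMod p) (G ⧸ U))

/-- The action of `G ⧸ U` on `k[(G ⧸ U) × I]`. -/
def rhoBar (k : Type) [CommRing k] (I : Type) : Representation k (G ⧸ U) (L k U I) where
  toFun σ := Finsupp.lmapDomain k k (fun xi : (G ⧸ U) × I => (σ * xi.1, xi.2))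
  map_one' := by
    have : (fun xi : (G ⧸ U) × I => ((1 : G ⧸ U) * xi.1, xi.2)) = id := by
      funext xi
      simp
    rw [this]
    exact Finsupp.lmapDomain_id k k
  map_mul' σ τ := by
    have : (fun xi : (G ⧸ U) × I => (σ * τ * xi.1, xi.2))
        = (fun xi : (G ⧸ U) × I => (σ * xi.1, xi.2)) ∘ (fun xi => (τ * xi.1, xi.2)) := by
      funext xi
      simp [mul_assoc]
    rw [this]
    exact Finsupp.lmapDomain_comp k k _ _

theorem rhoBar_mk (k : Type) [CommRing k] (I : Type) (g : G) :
    rhoBar U k I (g : G ⧸ U) = rhoL k U I g := rfl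

theorem rhoBar_single (k : Type) [CommRing k] (I : Type) (σ x : G ⧸ U) (i : I) (c : k) :
    rhoBar U k I σ (Finsupp.single (x, i) c) = Finsupp.single (σ * x, i) c := by
  show Finsupp.mapDomain _ (Finsupp.single (x, i) c) = _
  rw [Finsupp.mapDomain_single]

/-- `π : ℤ[(G ⧸ U) × P] → P`. -/
def piZ : L ℤ U P →ₗ[ℤ] P :=
  Finsupp.linearCombination ℤ (fun xi : (G ⧸ U) × P => P.ρ xi.1 xi.2)

/-- `μ : 𝔽_p[(G ⧸ U) × P] → P`. -/
def mu : L (ZMod p) U P →ₗ[ZMod p] P :=
  Finsupp.linearCombination (ZMod p) (fun xi : (G ⧸ U) × P => P.ρ xi.1 xi.2)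

/-- Reduction modulo `p`. -/
def red : L ℤ U P →+ L (ZMod p) U P :=
  Finsupp.mapRange.addMonoidHom (Int.castAddHom (ZMod p))

theorem piZ_single (σ : G ⧸ U) (x : P) (n : ℤ) :
    piZ U p P (Finsupp.single (σ, x) n) = n • P.ρ σ x := by
  rw [piZ, Finsupp.linearCombination_single]

theorem mu_single (σ : G ⧸ U) (x : P) (c : ZMod p) :
    mu U p P (Finsupp.single (σ, x) c) = c • P.ρ σ x := by
  rw [mu, Finsupp.linearCombination_single]

theorem red_single (a : (G ⧸ U) × P) (n : ℤ) :
    red U p P (Finsupp.single a n) = Finsupp.single a (n : ZMod p) := by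
  show Finsupp.mapRange (Int.castAddHom (ZMod p)) (map_zero _) (Finsupp.single a n) = _
  rw [Finsupp.mapRange_single]
  rfl

theorem piZ_eq (x : L ℤ U P) : piZ U p P x = mu U p P (red U p P x) := by
  have : (piZ U p P).toAddMonoidHom = (mu U p P).toAddMonoidHom.comp (red U p P) := by
    apply Finsupp.addHom_ext
    rintro ⟨σ, y⟩ n
    show piZ U p P (Finsupp.single (σ, y) n) = mu U p P (red U p P (Finsupp.single (σ, y) n))
    rw [piZ_single, red_single, mu_single, Int.cast_smul_eq_zsmul]
  exact DFunLike.congr_fun this x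

theorem mu_comm (σ : G ⧸ U) (y : L (ZMod p) U P) :
    mu U p P (rhoBar U (ZMod p) P σ y) = P.ρ σ (mu U p P y) := by
  induction y using Finsupp.induction_linear with
  | zero => simp
  | add x y hx hy => rw [map_add, map_add, hx, hy, map_add, map_add]
  | single a c =>
    obtain ⟨τ, x⟩ := a
    rw [rhoBar_single, mu_single, mu_single, map_smul, map_mul, Module.End.mul_apply]

theorem red_comm (g : G) (x : L ℤ U P) :
    red U p P (rhoL ℤ U P g x) = rhoL (ZMod p) U P g (red U p P x) := by
  show Finsupp.mapRange (Int.castAddHom (ZMod p)) (map_zero _) (Finsupp.mapDomain (tr U P g) x)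
    = Finsupp.mapDomain (tr U P g) (Finsupp.mapRange (Int.castAddHom (ZMod p)) (map_zero _) x)
  rw [Finsupp.mapDomain_mapRange]
  intro a b
  exact map_add _ a b

theorem mu_surjective : Function.Surjective (mu U p P) := by
  intro x
  refine ⟨Finsupp.single (1, x) 1, ?_⟩
  rw [mu_single, one_smul, map_one, Module.End.one_apply]

theorem piZ_surjective : Function.Surjective (piZ U p P) := by
  intro x
  refine ⟨Finsupp.single (1, x) 1, ?_⟩
  rw [piZ_single, one_smul, map_one, Module.End.one_apply]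

theorem piZ_comm (g : G) (x : L ℤ U P) :
    piZ U p P (rhoL ℤ U P g x) = P.ρ (g : G ⧸ U) (piZ U p P x) := by
  rw [piZ_eq, red_comm, ← rhoBar_mk, mu_comm, ← piZ_eq]

/-- The kernel of the reduction is `p L`. -/
theorem red_eq_zero_iff (x : L ℤ U P) : red U p P x = 0 ↔ ∃ z : L ℤ U P, x = p • z := by
  constructor
  · intro h
    have h1 : ∀ a, (p : ℤ) ∣ x a := by
      intro a
      have := DFunLike.congr_fun h a
      rw [← ZMod.intCast_zmod_eq_zero_iff_dvd]
      exact this
    refine ⟨Finsupp.mapRange (fun n : ℤ => n / (p : ℤ)) (by simp) x, ?_⟩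
    ext a
    rw [Finsupp.smul_apply, Finsupp.mapRange_apply, nsmul_eq_mul, Int.mul_ediv_cancel' (h1 a)]
  · rintro ⟨z, rfl⟩
    rw [map_nsmul]
    ext a
    rw [Finsupp.smul_apply, Finsupp.zero_apply, nsmul_eq_mul, ZMod.natCast_self, zero_mul]

/-- A set-theoretic section of the reduction. -/
def lft (y : L (ZMod p) U P) : L ℤ U P :=
  Finsupp.mapRange (ZMod.cast : ZMod p → ℤ) ZMod.cast_zero y

theorem red_lft (y : L (ZMod p) U P) : red U p P (lft U p P y) = y := by
  ext a
  show ((ZMod.cast (y a) : ℤ) : ZMod p) = y a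
  exact ZMod.intCast_zmod_cast _

/-- **The lifted idempotent.** -/
theorem exists_et (hP : IsProjRep P) :
    ∃ et : L ℤ U P →+ L ℤ U P, (∀ g x, et (rhoL ℤ U P g x) = rhoL ℤ U P g (et x)) ∧
      (∀ x, piZ U p P (et x) = piZ U p P x) ∧
      ∀ x, piZ U p P x = 0 ↔ ∃ z, et x = p • z := by
  -- the section of `μ`
  obtain ⟨s, hs, hμs⟩ := hP (Rep.of (rhoBar U (ZMod p) P)) P (mu U p P)
    (fun σ y => mu_comm U p P σ y) (mu_surjective U p P) LinearMap.id (fun _ _ => rfl)
  have hs' : ∀ (g : G) (x : P), s (P.ρ (g : G ⧸ U) x)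
      = rhoL (ZMod p) U P g (s x) := fun g x => hs (g : G ⧸ U) x
  have hμs' : ∀ x : P, mu U p P (s x) = x := hμs
  have hsinj : Function.Injective s := fun x y h => by
    rw [← hμs' x, ← hμs' y, h]
  -- `ẽ`
  let v : P → L ℤ U P := fun i => lft U p P (s i)
  have hv : ∀ i, ∀ u ∈ U, rhoL ℤ U P u (v i) = v i := fun i u hu => rhoL_of_mem hu _
  let et : L ℤ U P →ₗ[ℤ] L ℤ U P := liftL (rhoL ℤ U P) v
  have het : ∀ g x, et (rhoL ℤ U P g x) = rhoL ℤ U P g (et x) := liftL_comm hv
  have hk : Function.Surjective (Int.cast : ℤ → ℤ) := fun n => ⟨n, Int.cast_id⟩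
  have E1 : ∀ x, red U p P (et x) = s (mu U p P (red U p P x)) := by
    have := ext_of_e (U := U) (I := P) hk
      (fun g : G => (rhoL (ZMod p) U P g).toAddMonoidHom)
      ((red U p P).comp et.toAddMonoidHom)
      (s.toAddMonoidHom.comp ((mu U p P).toAddMonoidHom.comp (red U p P)))
      (fun g x => by
        show red U p P (et (rhoL ℤ U P g x)) = rhoL (ZMod p) U P g (red U p P (et x))
        rw [het, red_comm])
      (fun g x => by
        show s (mu U p P (red U p P (rhoL ℤ U P g x)))
          = rhoL (ZMod p) U P g (s (mu U p P (red U p P x)))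
        rw [red_comm, show rhoL (ZMod p) U P g (red U p P x)
          = rhoBar U (ZMod p) P (g : G ⧸ U) (red U p P x) from rfl, mu_comm, hs'])
      (fun i => by
        show red U p P (et (e ℤ U i)) = s (mu U p P (red U p P (e ℤ U i)))
        rw [show et (e ℤ U i) = v i from liftL_e hv i, red_lft, e, red_single, mu_single,
          Int.cast_one, one_smul, map_one, Module.End.one_apply])
    intro x
    exact DFunLike.congr_fun this x
  refine ⟨et.toAddMonoidHom, het, fun x => ?_, fun x => ?_⟩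
  · show piZ U p P (et x) = piZ U p P x
    rw [piZ_eq, E1, hμs', ← piZ_eq]
  · show piZ U p P x = 0 ↔ ∃ z, et x = p • z
    rw [← red_eq_zero_iff, E1, ← piZ_eq]
    constructor
    · intro h
      rw [h, map_zero]
    · intro h
      exact hsinj (by rw [h, map_zero])

end Pres

end

end Fermat.Agent.TW.GlobalEC.ProjPres3
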