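/-
Program TW (S56), WP4 "EC", brick EC4b (plan v2 of helper26), helper3: the contract
`SpecD26.ProjH1`.

`C` a discrete `ℤ[G]`-module with hyper-duality and invariant map, `U ∈ 𝓑` normal with
`H¹_lev(U, C)[p] = 0` and `C^U` `p`-finite, `P` a finite-dimensional projective
`𝔽_p[G ⧸ U]`-module with `H¹_𝓑(G, infl P)` finite-dimensional.  Then

    `dim H¹_𝓑(G, infl P) = dim Hom_{G/U}(P, C^U / p)`.

Proof: resolve `P` by `0 → ker π → ℤ[(G ⧸ U) × P] → P → 0` (`ProjPres3`); the Poitou–Tate pairing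
`Hom_G(P₁, C) × {lifted cocycles} → ℤ/p` (`HyperPair3`) has left kernel the restrictions of
`Hom_G(P₀, C)` and right kernel the lifts of coboundaries (hyper-duality + the Shapiro property
`ShapiroL3`), so `#(Hom_G(P₁, C) / Hom_G(P₀, C)) = #H¹`; and
`Hom_G(P₁, C) / Hom_G(P₀, C) ≃ Hom_{G/U}(P, C^U / p)` (`ExtAlg3`).
-/
import Mathlib
import Fermat.Agent.PT.PRO.IntRep20
import Fermat.Agent.TW.GlobalEC.SpecD26
import Fermat.Agent.TW.GlobalEC.HyperPair3
import Fermat.Agent.TW.GlobalEC.ShapiroL3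
import Fermat.Agent.TW.GlobalEC.ExtAlg3
import Fermat.Agent.TW.GlobalEC.ProjPres3
import Fermat.Agent.TW.GlobalEC.ProjEval3

set_option autoImplicit false
set_option linter.unusedSectionVars false

open Module

namespace Fermat.Agent.TW.GlobalEC.EC4bMain3

open Fermat.Agent.PT.PRO Fermat.Agent.PT.PRO.IndRes20 Fermat.Agent.PT.PRO.LevelCoh28
open Fermat.Agent.TW.GlobalEC.Spec26 Fermat.Agent.TW.GlobalEC.SpecB26
  Fermat.Agent.TW.GlobalEC.SpecC26 Fermat.Agent.TW.GlobalEC.SpecD26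
  Fermat.Agent.TW.GlobalEC.FreeL3 Fermat.Agent.TW.GlobalEC.HyperPair3
  Fermat.Agent.TW.GlobalEC.ProjPres3 Fermat.Agent.TW.GlobalEC.ExtAlg3

noncomputable section

variable {G : Type} [Group G] (p : ℕ) [Fact p.Prime] (𝓑 : LevelBasis G) (U : Subgroup G)
  [U.Normal] (P : Rep.{0} (ZMod p) (G ⧸ U))

/-- The underlying `ℤ[G]`-module of `infl U P`. -/
def rhoM : Representation ℤ G P := IntRep20.intRep (infl U P)

theorem rhoM_apply (g : G) (x : P) : rhoM p U P g x = P.ρ (g : G ⧸ U) x := rfl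

/-- The resolution `0 → ker π → ℤ[(G ⧸ U) × P] → P → 0`. -/
def resP : Res ℤ G ↥(LinearMap.ker (piZ U p P)) (L ℤ U P) P :=
  kerRes U (rhoM p U P) (piZ U p P) (piZ_comm U p P) (piZ_surjective U p P)

theorem resP_ρ0 (g : G) (x : L ℤ U P) : (resP p U P).ρ0 g x = rhoL ℤ U P g x := rfl

theorem nsmul_eq_zero_P (m : P) : p • m = 0 := by
  rw [← Nat.cast_smul_eq_nsmul (ZMod p), ZMod.natCast_self, zero_smul]

/-! ### The map from lifted cocycles to `H¹` -/

theorem comp_mem_Z1 (l : liftSub 𝓑 (resP p U P)) :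
    (⇑(piZ U p P) ∘ l.1.1 : G → P) ∈ Z1 𝓑 (infl U P) := by
  refine ⟨(LevelCompare13.mem_cocycles₁_iff (infl U P) _).2 ?_,
    (LevelCompare13.isLevel₁_iff _).2 (HyperLevel25.IsLevel₁.comp l.2.2 _)⟩
  funext ⟨g, h⟩
  have h1 := congrArg (piZ U p P) (l.2.1 (g, h))
  have h2 : piZ U p P ((resP p U P).ι (l.1.2 (g, h))) = 0 := (l.1.2 (g, h)).2
  rw [h2, HyperLevel25.dOne_apply, map_add, map_sub] at h1
  rw [HyperLevel25.dOne_apply, Pi.zero_apply]
  simp only [Function.comp_apply]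
  rw [h1]
  congr 2
  exact (piZ_comm U p P g _).symm

/-- `(a', b) ↦ [π ∘ a']`. -/
def toH1 : liftSub 𝓑 (resP p U P) →+ H1 𝓑 (infl U P) :=
  AddMonoidHom.mk' (fun l => H1mk 𝓑 (infl U P) ⟨_, comp_mem_Z1 p 𝓑 U P l⟩) (fun l l' => by
    rw [← map_add]
    congr 1
    apply Subtype.ext
    funext g
    show piZ U p P ((l.1.1 + l'.1.1) g) = piZ U p P (l.1.1 g) + piZ U p P (l'.1.1 g)
    rw [Pi.add_apply, map_add])

theorem toH1_eq_zero_iff (l : liftSub 𝓑 (resP p U P)) :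
    toH1 p 𝓑 U P l = 0 ↔
      ∃ a₀ : P, ⇑(resP p U P).π ∘ l.1.1 = HyperLevel25.dZero (resP p U P).ρM a₀ := by
  show H1mk 𝓑 (infl U P) ⟨_, comp_mem_Z1 p 𝓑 U P l⟩ = 0 ↔ _
  rw [H1mk_eq_zero_iff, LevelCompare13.mem_coboundaries₁_iff]
  constructor
  · rintro ⟨a, ha⟩
    exact ⟨a, ha.symm⟩
  · rintro ⟨a, ha⟩
    exact ⟨a, ha.symm⟩

theorem toH1_surjective : Function.Surjective (toH1 p 𝓑 U P) := by
  intro ξ
  obtain ⟨⟨x, hx⟩, rfl⟩ := H1mk_surjective 𝓑 (infl U P) ξ
  have hxc : HyperLevel25.dOne (infl U P).ρ x = 0 :=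
    (LevelCompare13.mem_cocycles₁_iff (infl U P) x).1 hx.1
  have hxl : HyperLevel25.IsLevel₁ 𝓑.sets x := (LevelCompare13.isLevel₁_iff _).1 hx.2
  -- the lift
  let a' : G → L ℤ U P := fun g => Function.surjInv (piZ_surjective U p P) (x g)
  have ha' : ∀ g, piZ U p P (a' g) = x g := fun g =>
    Function.surjInv_eq (piZ_surjective U p P) (x g)
  have hker : ∀ q : G × G, HyperLevel25.dOne (rhoL ℤ U P) a' q ∈ LinearMap.ker (piZ U p P) := by
    rintro ⟨g, h⟩
    rw [LinearMap.mem_ker, HyperLevel25.dOne_apply, map_add, map_sub, piZ_comm, ha', ha', ha']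
    have := congrFun hxc (g, h)
    rw [HyperLevel25.dOne_apply, Pi.zero_apply] at this
    exact this
  let b : G × G → ↥(LinearMap.ker (piZ U p P)) := fun q => ⟨_, hker q⟩
  have hl : ((a', b) : (G → L ℤ U P) × (G × G → ↥(LinearMap.ker (piZ U p P))))
      ∈ liftSub 𝓑 (resP p U P) :=
    ⟨fun q => rfl, HyperLevel25.IsLevel₁.comp hxl (Function.surjInv (piZ_surjective U p P))⟩
  refine ⟨⟨(a', b), hl⟩, ?_⟩
  show H1mk 𝓑 (infl U P) _ = H1mk 𝓑 (infl U P) _
  congr 1
  apply Subtype.ext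
  funext g
  exact ha' g

/-! ### `Hom_{G/U}(P, Q)`: linear versus additive maps -/

/-- The equivariant `𝔽_p`-linear maps `P → Q` are the equivariant additive maps. -/
def invEquiv (C : Rep.{0} ℤ G) :
    (homRep P (modPRep p (C.quotientToInvariants U))).ρ.invariants ≃
      eqHom U p C (resP p U P) where
  toFun f := ⟨(show P →ₗ[ZMod p] Q U p C from f.1).toAddMonoidHom, fun g m =>
    (ProjEval3.mem_invariants_linHom_iff P.ρ (Q U p C).ρ
      (show P →ₗ[ZMod p] Q U p C from f.1)).1 f.2 (g : G ⧸ U) m⟩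
  invFun φ := ⟨φ.1.toZModLinearMap p,
    (ProjEval3.mem_invariants_linHom_iff P.ρ (Q U p C).ρ (φ.1.toZModLinearMap p)).2 (fun σ m => by
      obtain ⟨g, rfl⟩ := QuotientGroup.mk_surjective σ
      exact φ.2 g m)⟩
  left_inv f := rfl
  right_inv φ := rfl

/-! ### The contract -/

/-- **(EC4b)** `dim H¹_𝓑(G, infl P) = dim Hom_{G/U}(P, C^U / p)` for projective `P`. -/
theorem projH1 (C : Rep.{0} ℤ G) : ProjH1 p 𝓑 C := by
  intro hC hHD hinv U _ hU hNT hPF P hfd hP hfin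
  have : U.FiniteIndex := 𝓑.isBasis.finiteIndex U hU
  have : Finite (G ⧸ U) := Subgroup.finite_quotient_of_finiteIndex
  have : Finite P := Module.finite_of_finite (ZMod p)
  have hk : Function.Surjective (Int.cast : ℤ → ℤ) := fun n => ⟨n, Int.cast_id⟩
  have hkp : ∀ c : ℤ, p • c = 0 → c = 0 := by
    intro c hc
    rw [nsmul_eq_mul] at hc
    rcases mul_eq_zero.1 hc with h | h
    · exact absurd (Nat.cast_eq_zero.1 h) (Fact.out : p.Prime).ne_zero
    · exact h
  have hρ0 : ∀ g x, (resP p U P).ρ0 g x = rhoL ℤ U P g x := fun _ _ => rfl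
  have hpM : ∀ m : P, p • m = 0 := nsmul_eq_zero_P p U P
  have h0 : HyperLevel25.IsDiscrete 𝓑.sets (resP p U P).ρ0 := isDiscrete_rhoL hU
  obtain ⟨hLK, hRK⟩ := hHD _ _ _ (resP p U P) h0 hpM
  have hSh : ShapiroProp 𝓑 C (resP p U P) :=
    ShapiroL3.shapiroProp U p 𝓑 C (resP p U P) hρ0 hpM hU hNT
  obtain ⟨inv, hadd, hzero⟩ := hinv
  obtain ⟨et, het, hπe, hker⟩ := exists_et U p P hP
  -- finiteness
  have hfinH : Finite (H1 𝓑 (infl U P)) := Module.finite_of_finite (ZMod p)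
  have hfinQ : Finite (Q U p C) := hPF.2
  have hfinV : Finite (homRep P (modPRep p (C.quotientToInvariants U))).ρ.invariants := by
    have : Finite (P →ₗ[ZMod p] Q U p C) := Finite.of_injective _ DFunLike.coe_injective
    exact Finite.of_injective (fun f => (show P →ₗ[ZMod p] Q U p C from f.1)) (fun f f' h =>
      Subtype.ext h)
  have hfdV : FiniteDimensional (ZMod p)
      (homRep P (modPRep p (C.quotientToInvariants U))).ρ.invariants := Module.Finite.of_finite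
  -- the count
  have hcard : Nat.card (eqHom U p C (resP p U P)) = Nat.card (H1 𝓑 (infl U P)) :=
    card_eq p 𝓑 C (resP p U P) inv hadd h0 hpM hzero hLK hRK hSh
      (Phi U p C (resP p U P) hρ0 hpM) (toH1 p 𝓑 U P)
      (Phi_surjective U p C (resP p U P) hk hρ0 hpM hkp et het hπe hker)
      (toH1_surjective p 𝓑 U P)
      (Phi_eq_zero_iff U p C (resP p U P) hk hρ0 hpM et het hπe hker)
      (toH1_eq_zero_iff p 𝓑 U P)
  have hcard' : Nat.card (homRep P (modPRep p (C.quotientToInvariants U))).ρ.invariants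
      = Nat.card (H1 𝓑 (infl U P)) := (Nat.card_congr (invEquiv p U P C)).trans hcard
  have e1 := Module.natCard_eq_pow_finrank (K := ZMod p)
    (V := (homRep P (modPRep p (C.quotientToInvariants U))).ρ.invariants)
  have e2 := Module.natCard_eq_pow_finrank (K := ZMod p) (V := H1 𝓑 (infl U P))
  rw [e1, e2] at hcard'
  have hp1 : 1 < Nat.card (ZMod p) := by
    rw [Nat.card_eq_fintype_card, ZMod.card]
    exact (Fact.out : p.Prime).one_lt
  exact (Nat.pow_right_injective hp1 hcard').symm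

end

end Fermat.Agent.TW.GlobalEC.EC4bMain3
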