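/-
Program TW (S56), WP4 "EC", brick EC7-abs (abstract assembly), part 1, helper3.

The cup product `Spec26.cup` of level cocycles is a level 2-cocycle, the cup product with a
coboundary (on either side) is a level coboundary, hence under `Spec26.IsDualAt` and an injection
`τ : H²_𝓑(G, T) → k` the cup product pairing `H¹_𝓑(G, Hom(X, T)) × H¹_𝓑(G, X) → k` is perfect and

    `dim H¹_𝓑(G, X) = dim H¹_𝓑(G, Hom(X, T))`        (`finrank_H1_eq_of_isDualAt`).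
-/
import Mathlib
import Fermat.Agent.PT.PRO.LevelCoh28
import Fermat.Agent.TW.GlobalEC.Spec26

set_option autoImplicit false

open groupCohomology Module

namespace Fermat.Agent.TW.GlobalEC.DualRank3

open Fermat.Agent.PT.PRO.LevelCoh28 Fermat.Agent.TW.GlobalEC.Spec26

noncomputable section

/-! ### Perfect pairings between quotients -/

section perfect

variable {k : Type} [Field k] {A B : Type} [AddCommGroup A] [Module k A] [AddCommGroup B]
  [Module k B]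

/-- If the left kernel of a bilinear form `β` is `A'` and `β` kills `B'` on the right, then
`dim A/A' ≤ dim B/B'`. -/
theorem finrank_quotient_le_of_leftKernel (β : A →ₗ[k] B →ₗ[k] k) (A' : Submodule k A)
    (B' : Submodule k B) (hA : ∀ a, (∀ b, β a b = 0) → a ∈ A') (hA' : ∀ a ∈ A', ∀ b, β a b = 0)
    (hB' : ∀ b ∈ B', ∀ a, β a b = 0) [FiniteDimensional k (B ⧸ B')] :
    finrank k (A ⧸ A') ≤ finrank k (B ⧸ B') := by
  -- `γ₀ : A → Dual (B ⧸ B')`
  let γ₀ : A →ₗ[k] Dual k (B ⧸ B') :=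
    { toFun := fun a => B'.liftQ (β a) (fun b hb => hB' b hb a)
      map_add' := fun a a' => by
        apply Submodule.linearMap_qext
        ext b
        simp
      map_smul' := fun r a => by
        apply Submodule.linearMap_qext
        ext b
        simp }
  have hγ₀ : ∀ a b, γ₀ a (Submodule.Quotient.mk b) = β a b := fun a b => rfl
  let γ : (A ⧸ A') →ₗ[k] Dual k (B ⧸ B') := A'.liftQ γ₀ (by
    intro a ha
    rw [LinearMap.mem_ker]
    apply Submodule.linearMap_qext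
    ext b
    exact hA' a ha b)
  have hγ : Function.Injective γ := by
    rw [← LinearMap.ker_eq_bot, LinearMap.ker_eq_bot']
    intro q hq
    obtain ⟨a, rfl⟩ := Submodule.Quotient.mk_surjective _ q
    rw [Submodule.Quotient.mk_eq_zero]
    apply hA
    intro b
    have := LinearMap.congr_fun hq (Submodule.Quotient.mk b)
    exact this
  calc finrank k (A ⧸ A') ≤ finrank k (Dual k (B ⧸ B')) := LinearMap.finrank_le_finrank_of_injective hγ
    _ = finrank k (B ⧸ B') := Subspace.dual_finrank_eq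

/-- If the left kernel of a bilinear form `β` is `A'`, `β` kills `B'` on the right and `B/B'` is
finite-dimensional, then so is `A/A'`. -/
theorem finiteDimensional_quotient_of_leftKernel (β : A →ₗ[k] B →ₗ[k] k) (A' : Submodule k A)
    (B' : Submodule k B) (hA : ∀ a, (∀ b, β a b = 0) → a ∈ A') (hA' : ∀ a ∈ A', ∀ b, β a b = 0)
    (hB' : ∀ b ∈ B', ∀ a, β a b = 0) [FiniteDimensional k (B ⧸ B')] :
    FiniteDimensional k (A ⧸ A') := by
  let γ₀ : A →ₗ[k] Dual k (B ⧸ B') :=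
    { toFun := fun a => B'.liftQ (β a) (fun b hb => hB' b hb a)
      map_add' := fun a a' => by
        apply Submodule.linearMap_qext
        ext b
        simp
      map_smul' := fun r a => by
        apply Submodule.linearMap_qext
        ext b
        simp }
  let γ : (A ⧸ A') →ₗ[k] Dual k (B ⧸ B') := A'.liftQ γ₀ (by
    intro a ha
    rw [LinearMap.mem_ker]
    apply Submodule.linearMap_qext
    ext b
    exact hA' a ha b)
  have hγ : Function.Injective γ := by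
    rw [← LinearMap.ker_eq_bot, LinearMap.ker_eq_bot']
    intro q hq
    obtain ⟨a, rfl⟩ := Submodule.Quotient.mk_surjective _ q
    rw [Submodule.Quotient.mk_eq_zero]
    apply hA
    intro b
    have := LinearMap.congr_fun hq (Submodule.Quotient.mk b)
    exact this
  exact FiniteDimensional.of_injective γ hγ

/-- A bilinear form whose left kernel is `A'` and whose right kernel is `B'` induces a perfect
pairing between `A/A'` and `B/B'`; in particular the two have the same dimension. -/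
theorem finrank_quotient_eq_of_kernels (β : A →ₗ[k] B →ₗ[k] k) (A' : Submodule k A)
    (B' : Submodule k B) (hA : ∀ a, (∀ b, β a b = 0) ↔ a ∈ A')
    (hB : ∀ b, (∀ a, β a b = 0) ↔ b ∈ B') [FiniteDimensional k (A ⧸ A')]
    [FiniteDimensional k (B ⧸ B')] :
    finrank k (A ⧸ A') = finrank k (B ⧸ B') := by
  apply le_antisymm
  · exact finrank_quotient_le_of_leftKernel β A' B' (fun a h => (hA a).1 h)
      (fun a ha => (hA a).2 ha) (fun b hb => (hB b).2 hb)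
  · exact finrank_quotient_le_of_leftKernel β.flip B' A' (fun b h => (hB b).1 h)
      (fun b hb => (hB b).2 hb) (fun a ha => (hA a).2 ha)

end perfect

/-! ### The cup product of level cocycles -/

variable {k G : Type} [Field k] [Group G] (𝓑 : LevelBasis G) {T X : Rep.{0} k G}

theorem cup_add_left (f f' : G → (X →ₗ[k] T)) (x : G → X) :
    cup (f + f') x = cup f x + cup f' x := by
  funext ⟨g, h⟩
  simp [cup]

theorem cup_add_right (f : G → (X →ₗ[k] T)) (x x' : G → X) :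
    cup f (x + x') = cup f x + cup f x' := by
  funext ⟨g, h⟩
  simp [cup]

theorem cup_smul_left (r : k) (f : G → (X →ₗ[k] T)) (x : G → X) :
    cup (r • f) x = r • cup f x := by
  funext ⟨g, h⟩
  simp [cup]

theorem cup_smul_right (r : k) (f : G → (X →ₗ[k] T)) (x : G → X) :
    cup f (r • x) = r • cup f x := by
  funext ⟨g, h⟩
  simp [cup]

/-- The cocycle identity in `Hom_k(X, T)`, evaluated. -/
theorem cocycle_homRep_apply {f : G → (X →ₗ[k] T)} (hf : f ∈ cocycles₁ (homRep X T)) (g h : G)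
    (v : X) : f (g * h) v = T.ρ g (f h (X.ρ g⁻¹ v)) + f g v := by
  have := (mem_cocycles₁_iff (A := homRep X T) f).1 hf g h
  have h1 := LinearMap.congr_fun this v
  exact h1

theorem cup_mem_cocycles₂ {f : G → (X →ₗ[k] T)} (hf : f ∈ cocycles₁ (homRep X T)) {x : G → X}
    (hx : x ∈ cocycles₁ X) : cup f x ∈ cocycles₂ T := by
  rw [mem_cocycles₂_iff]
  intro g h j
  have hx1 := (mem_cocycles₁_iff x).1 hx h j
  simp only [cup_apply]
  rw [cocycle_homRep_apply hf g h, hx1, map_add, map_add, map_mul, Module.End.mul_apply,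
    ← Module.End.mul_apply (X.ρ g⁻¹), ← map_mul, inv_mul_cancel, map_one, Module.End.one_apply]
  abel

theorem cup_isLevel₂ (hX : IsDiscrete 𝓑.sets X) {f : G → (X →ₗ[k] T)}
    (hf : IsLevel₁ 𝓑.sets f) {x : G → X} (hx : IsLevel₁ 𝓑.sets x) :
    IsLevel₂ 𝓑.sets (cup f x) := by
  obtain ⟨V, hV, -, hinv, hfix⟩ := hx.exists_normal_fixing 𝓑.isBasis hX
  obtain ⟨V', hV', hinv'⟩ := hf
  obtain ⟨W, hW, hle⟩ := 𝓑.isBasis.directed V hV V' hV'
  refine ⟨W, hW, fun g h s hs s' hs' => ?_⟩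
  rw [cup_apply, cup_apply, hinv' g s (hle hs).2, hinv h s' (hle hs').1, map_mul,
    Module.End.mul_apply, hfix s (hle hs).1]

theorem cup_mem_Z2 (hX : IsDiscrete 𝓑.sets X) {f : G → (X →ₗ[k] T)}
    (hf : f ∈ Z1 𝓑 (homRep X T)) {x : G → X} (hx : x ∈ Z1 𝓑 X) : cup f x ∈ Z2 𝓑 T :=
  ⟨cup_mem_cocycles₂ hf.1 hx.1, cup_isLevel₂ 𝓑 hX hf.2 hx.2⟩

/-- `(d φ) ∪ x = d (φ ∘ x)` for a cocycle `x`. -/
theorem cup_d₀₁_left (φ : X →ₗ[k] T) {x : G → X} (hx : x ∈ cocycles₁ X) :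
    cup ((d₀₁ (homRep X T)).hom φ) x = (d₁₂ T).hom (fun g => φ (x g)) := by
  funext ⟨g, h⟩
  have hx1 := (mem_cocycles₁_iff x).1 hx g h
  rw [cup_apply, d₁₂_hom_apply, d₀₁_hom_apply]
  show (show X →ₗ[k] T from (homRep X T).ρ g φ) (X.ρ g (x h)) - φ (X.ρ g (x h)) = _
  rw [homRep_ρ_apply, ← Module.End.mul_apply (X.ρ g⁻¹), ← map_mul, inv_mul_cancel, map_one,
    Module.End.one_apply]
  simp only [hx1, map_add]
  abel

theorem cup_d₀₁_left_mem_B2 (φ : X →ₗ[k] T) {x : G → X} (hx : x ∈ Z1 𝓑 X) :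
    cup ((d₀₁ (homRep X T)).hom φ) x ∈ B2 𝓑 T := by
  rw [mem_B2_iff]
  exact ⟨fun g => φ (x g), hx.2.comp φ, (cup_d₀₁_left φ hx.1).symm⟩

/-- `f ∪ (d v) = d (-(g ↦ f g (g v)))` for a cocycle `f`. -/
theorem cup_d₀₁_right {f : G → (X →ₗ[k] T)} (hf : f ∈ cocycles₁ (homRep X T)) (v : X) :
    cup f ((d₀₁ X).hom v) = (d₁₂ T).hom (fun g => -(f g (X.ρ g v))) := by
  funext ⟨g, h⟩
  rw [cup_apply, d₁₂_hom_apply, d₀₁_hom_apply]
  simp only [map_sub, map_neg]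
  rw [cocycle_homRep_apply hf g h, ← Module.End.mul_apply (X.ρ g⁻¹), ← map_mul,
    inv_mul_cancel_left, ← Module.End.mul_apply (X.ρ g), ← map_mul]
  abel

theorem cup_d₀₁_right_mem_B2 (hX : IsDiscrete 𝓑.sets X) {f : G → (X →ₗ[k] T)}
    (hf : f ∈ Z1 𝓑 (homRep X T)) (v : X) : cup f ((d₀₁ X).hom v) ∈ B2 𝓑 T := by
  rw [mem_B2_iff]
  refine ⟨fun g => -(f g (X.ρ g v)), ?_, (cup_d₀₁_right hf.1 v).symm⟩
  obtain ⟨V, hV, hfix⟩ := hX v
  obtain ⟨V', hV', hinv'⟩ := hf.2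
  obtain ⟨W, hW, hle⟩ := 𝓑.isBasis.directed V hV V' hV'
  refine ⟨W, hW, fun g s hs => ?_⟩
  show -(f (g * s) (X.ρ (g * s) v)) = -(f g (X.ρ g v))
  rw [hinv' g s (hle hs).2, map_mul, Module.End.mul_apply, hfix s (hle hs).1]

/-! ### The pairing and the dimension formula -/

/-- The cup product of two level cocycles as a level 2-cocycle. -/
def cupZ2 (hX : IsDiscrete 𝓑.sets X) (f : ↥(Z1 𝓑 (homRep X T))) (x : ↥(Z1 𝓑 X)) : ↥(Z2 𝓑 T) :=
  ⟨cup (f.1 : G → (X →ₗ[k] T)) (x.1 : G → X), cup_mem_Z2 𝓑 hX f.2 x.2⟩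

theorem cupZ2_val (hX : IsDiscrete 𝓑.sets X) (f : ↥(Z1 𝓑 (homRep X T))) (x : ↥(Z1 𝓑 X)) :
    (cupZ2 𝓑 hX f x).1 = cup (f.1 : G → (X →ₗ[k] T)) (x.1 : G → X) := rfl

theorem cupZ2_add_left (hX : IsDiscrete 𝓑.sets X) (f f' : ↥(Z1 𝓑 (homRep X T)))
    (x : ↥(Z1 𝓑 X)) : cupZ2 𝓑 hX (f + f') x = cupZ2 𝓑 hX f x + cupZ2 𝓑 hX f' x :=
  Subtype.ext (cup_add_left (f.1 : G → (X →ₗ[k] T)) (f'.1 : G → (X →ₗ[k] T)) x.1)

theorem cupZ2_smul_left (hX : IsDiscrete 𝓑.sets X) (r : k) (f : ↥(Z1 𝓑 (homRep X T)))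
    (x : ↥(Z1 𝓑 X)) : cupZ2 𝓑 hX (r • f) x = r • cupZ2 𝓑 hX f x :=
  Subtype.ext (cup_smul_left r (f.1 : G → (X →ₗ[k] T)) x.1)

theorem cupZ2_add_right (hX : IsDiscrete 𝓑.sets X) (f : ↥(Z1 𝓑 (homRep X T)))
    (x x' : ↥(Z1 𝓑 X)) : cupZ2 𝓑 hX f (x + x') = cupZ2 𝓑 hX f x + cupZ2 𝓑 hX f x' :=
  Subtype.ext (cup_add_right (f.1 : G → (X →ₗ[k] T)) x.1 x'.1)

theorem cupZ2_smul_right (hX : IsDiscrete 𝓑.sets X) (r : k) (f : ↥(Z1 𝓑 (homRep X T)))
    (x : ↥(Z1 𝓑 X)) : cupZ2 𝓑 hX f (r • x) = r • cupZ2 𝓑 hX f x :=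
  Subtype.ext (cup_smul_right r (f.1 : G → (X →ₗ[k] T)) x.1)

/-- The cup product pairing on level cocycles with values in `k` (through `τ`). -/
def pairZ (hX : IsDiscrete 𝓑.sets X) (τ : H2 𝓑 T →ₗ[k] k) :
    ↥(Z1 𝓑 (homRep X T)) →ₗ[k] ↥(Z1 𝓑 X) →ₗ[k] k :=
  LinearMap.mk₂ k (fun f x => τ (H2mk 𝓑 T (cupZ2 𝓑 hX f x)))
    (fun f f' x => by rw [cupZ2_add_left, map_add, map_add])
    (fun r f x => by rw [cupZ2_smul_left, map_smul, map_smul])
    (fun f x x' => by rw [cupZ2_add_right, map_add, map_add])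
    (fun r f x => by rw [cupZ2_smul_right, map_smul, map_smul])

theorem pairZ_apply (hX : IsDiscrete 𝓑.sets X) (τ : H2 𝓑 T →ₗ[k] k)
    (f : ↥(Z1 𝓑 (homRep X T))) (x : ↥(Z1 𝓑 X)) :
    pairZ 𝓑 hX τ f x = τ (H2mk 𝓑 T (cupZ2 𝓑 hX f x)) := rfl

theorem pairZ_eq_zero_iff (hX : IsDiscrete 𝓑.sets X) (τ : H2 𝓑 T →ₗ[k] k)
    (hτ : Function.Injective τ) (f : ↥(Z1 𝓑 (homRep X T))) (x : ↥(Z1 𝓑 X)) :
    pairZ 𝓑 hX τ f x = 0 ↔ cup (f.1 : G → (X →ₗ[k] T)) (x.1 : G → X) ∈ B2 𝓑 T := by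
  have key := H2mk_eq_zero_iff 𝓑 T (cupZ2 𝓑 hX f x)
  rw [pairZ_apply]
  constructor
  · intro h
    apply key.1
    apply hτ
    rw [h, map_zero]
  · intro h
    rw [key.2 h, map_zero]

/-- **Duality gives equal dimensions**: under `IsDualAt` and an injection `H²_𝓑(G, T) → k`,
`dim H¹_𝓑(G, X) = dim H¹_𝓑(G, Hom_k(X, T))`. -/
theorem finrank_H1_eq_of_isDualAt (hX : IsDiscrete 𝓑.sets X)
    (hτ : ∃ τ : H2 𝓑 T →ₗ[k] k, Function.Injective τ) (hD : IsDualAt 𝓑 T X)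
    [FiniteDimensional k (H1 𝓑 X)] [FiniteDimensional k (H1 𝓑 (homRep X T))] :
    finrank k (H1 𝓑 X) = finrank k (H1 𝓑 (homRep X T)) := by
  obtain ⟨τ, hτ⟩ := hτ
  symm
  refine finrank_quotient_eq_of_kernels (pairZ 𝓑 hX τ) _ _ (fun f => ?_) (fun x => ?_)
  · rw [Submodule.mem_comap, Submodule.subtype_apply]
    constructor
    · intro h
      refine hD.1 f.1 f.2 (fun x hx => ?_)
      exact (pairZ_eq_zero_iff 𝓑 hX τ hτ f ⟨x, hx⟩).1 (h ⟨x, hx⟩)
    · rintro ⟨φ, hφ⟩ x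
      rw [pairZ_eq_zero_iff 𝓑 hX τ hτ, ← hφ]
      exact cup_d₀₁_left_mem_B2 𝓑 φ x.2
  · rw [Submodule.mem_comap, Submodule.subtype_apply]
    constructor
    · intro h
      refine hD.2 x.1 x.2 (fun f hf => ?_)
      exact (pairZ_eq_zero_iff 𝓑 hX τ hτ ⟨f, hf⟩ x).1 (h ⟨f, hf⟩)
    · rintro ⟨v, hv⟩ f
      rw [pairZ_eq_zero_iff 𝓑 hX τ hτ, ← hv]
      exact cup_d₀₁_right_mem_B2 𝓑 hX f.2 v

/-- Under `IsDualAt` and an injection `H²_𝓑(G, T) → k`, finiteness of `H¹_𝓑(G, X)` implies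
finiteness of `H¹_𝓑(G, Hom_k(X, T))`. -/
theorem finiteDimensional_H1_homRep_of_isDualAt (hX : IsDiscrete 𝓑.sets X)
    (hτ : ∃ τ : H2 𝓑 T →ₗ[k] k, Function.Injective τ) (hD : IsDualAt 𝓑 T X)
    [FiniteDimensional k (H1 𝓑 X)] : FiniteDimensional k (H1 𝓑 (homRep X T)) := by
  obtain ⟨τ, hτ⟩ := hτ
  refine finiteDimensional_quotient_of_leftKernel (pairZ 𝓑 hX τ) _
    ((coboundaries₁ X).comap (Z1 𝓑 X).subtype) (fun f h => ?_) (fun f hf x => ?_)
    (fun x hx f => ?_)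
  · rw [Submodule.mem_comap, Submodule.subtype_apply]
    refine hD.1 f.1 f.2 (fun x hx => ?_)
    exact (pairZ_eq_zero_iff 𝓑 hX τ hτ f ⟨x, hx⟩).1 (h ⟨x, hx⟩)
  · rw [Submodule.mem_comap, Submodule.subtype_apply] at hf
    obtain ⟨φ, hφ⟩ := hf
    rw [pairZ_eq_zero_iff 𝓑 hX τ hτ, ← hφ]
    exact cup_d₀₁_left_mem_B2 𝓑 φ x.2
  · rw [Submodule.mem_comap, Submodule.subtype_apply] at hx
    obtain ⟨v, hv⟩ := hx
    rw [pairZ_eq_zero_iff 𝓑 hX τ hτ, ← hv]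
    exact cup_d₀₁_right_mem_B2 𝓑 hX f.2 v

/-- One-sided version of `finrank_H1_eq_of_isDualAt`: only `H¹_𝓑(G, X)` is assumed finite. -/
theorem finrank_H1_eq_of_isDualAt' (hX : IsDiscrete 𝓑.sets X)
    (hτ : ∃ τ : H2 𝓑 T →ₗ[k] k, Function.Injective τ) (hD : IsDualAt 𝓑 T X)
    [FiniteDimensional k (H1 𝓑 X)] :
    finrank k (H1 𝓑 X) = finrank k (H1 𝓑 (homRep X T)) := by
  have := finiteDimensional_H1_homRep_of_isDualAt 𝓑 hX hτ hD
  exact finrank_H1_eq_of_isDualAt 𝓑 hX hτ hD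

end

end Fermat.Agent.TW.GlobalEC.DualRank3
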