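/-
Program TW (S56), WP4 "EC", brick EC4 (projective evaluation), part (ii), helper3.

`C` a discrete `p`-divisible `G`-module, `T = C[p]`, `U` a normal member of the level basis with
`H¹_lev(U, C)[p] = 0`, `Z = Map(G ⧸ U, T)`, `W = Map(G ⧸ U, C)`.  The sequence
`0 → Z → W →(p) W → 0` gives an isomorphism of `𝔽_p[G ⧸ U]`-modules

    `C^U / p C^U  ≃  H¹_𝓑(G, Z)`,      `[(p w)(1)] ↦ [g ↦ g w - w]`   (`w ∈ W`, `p w ∈ W^G`),

(`shapiroEquiv`, `shapiroEquiv_equivariant`).  Surjectivity is Shapiro's lemma (injectivity of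
`H¹(G, W) → H¹(U, C)`, proved by hand) together with `NoPTorsionH1On`.
-/
import Mathlib
import Fermat.Agent.TW.GlobalEC.SpecB26
import Fermat.Agent.TW.GlobalEC.ProjEval3
import Fermat.Agent.TW.GlobalEC.HomInv3

set_option autoImplicit false

open groupCohomology Module

namespace Fermat.Agent.TW.GlobalEC.Shapiro3

open Fermat.Agent.PT.PRO.LevelCoh28 Fermat.Agent.TW.GlobalEC.Spec26
  Fermat.Agent.TW.GlobalEC.SpecB26 Fermat.Agent.TW.GlobalEC.Coind3
  Fermat.Agent.TW.GlobalEC.HomInv3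

noncomputable section

variable {G : Type} [Group G] {R : Type} [CommRing R] (p : ℕ) [Fact p.Prime] (𝓑 : LevelBasis G)
  (C : Rep.{0} R G) (U : Subgroup G) [U.Normal]

/-! ### The coboundary of `W = Map(G ⧸ U, C)` -/

/-- `(d w)(g)(x) = g • w(ḡ⁻¹ x) - w(x)`. -/
def dW (w : G ⧸ U → C) (g : G) (x : G ⧸ U) : C := C.ρ g (w ((g : G ⧸ U)⁻¹ * x)) - w x

theorem dW_add (w w' : G ⧸ U → C) (g : G) (x : G ⧸ U) :
    dW C U (w + w') g x = dW C U w g x + dW C U w' g x := by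
  simp only [dW, Pi.add_apply, map_add]
  abel

theorem dW_sub (w w' : G ⧸ U → C) (g : G) (x : G ⧸ U) :
    dW C U (w - w') g x = dW C U w g x - dW C U w' g x := by
  simp only [dW, Pi.sub_apply, map_sub]
  abel

theorem dW_zero (g : G) (x : G ⧸ U) : dW C U 0 g x = 0 := by
  simp [dW]

theorem dW_neg (w : G ⧸ U → C) (g : G) (x : G ⧸ U) : dW C U (-w) g x = -dW C U w g x := by
  simp only [dW, Pi.neg_apply, map_neg]
  abel

theorem dW_nsmul (n : ℕ) (w : G ⧸ U → C) (g : G) (x : G ⧸ U) :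
    dW C U (n • w) g x = n • dW C U w g x := by
  simp only [dW, Pi.smul_apply, map_nsmul, smul_sub]

/-- The cocycle identity for `dW`. -/
theorem dW_mul (w : G ⧸ U → C) (g h : G) (x : G ⧸ U) :
    dW C U w (g * h) x = C.ρ g (dW C U w h ((g : G ⧸ U)⁻¹ * x)) + dW C U w g x := by
  simp only [dW, QuotientGroup.mk_mul, mul_inv_rev, map_mul, Module.End.mul_apply, map_sub,
    mul_assoc]
  abel

/-- `W' = {w ∈ W | p w ∈ W^G}`. -/
def Wp : AddSubgroup (G ⧸ U → C) where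
  carrier := {w | ∀ g x, p • dW C U w g x = 0}
  zero_mem' := fun g x => by rw [dW_zero, smul_zero]
  add_mem' {w w'} hw hw' := fun g x => by
    rw [dW_add, smul_add, hw g x, hw' g x, add_zero]
  neg_mem' {w} hw := fun g x => by
    rw [dW_neg, smul_neg, hw g x, neg_zero]

omit [Fact p.Prime] in
theorem mem_Wp (w : G ⧸ U → C) : w ∈ Wp p C U ↔ ∀ g x, p • dW C U w g x = 0 := Iff.rfl

/-- The cochain `g ↦ g w - w` with values in `Z = Map(G ⧸ U, C[p])`, for `w ∈ W'`. -/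
def dT (w : Wp p C U) : G → (G ⧸ U → pTorsionRep p C) :=
  fun g x => mkT p C (dW C U w.1 g x) (w.2 g x)

theorem val_dT (w : Wp p C U) (g : G) (x : G ⧸ U) :
    pTorsionRep.val p C (dT p C U w g x) = dW C U w.1 g x := rfl

theorem dT_mem_cocycles₁ (w : Wp p C U) :
    dT p C U w ∈ cocycles₁ (coind U (pTorsionRep p C)) := by
  rw [mem_cocycles₁_iff]
  intro g h
  funext x
  apply pTorsionRep.val_injective
  show dW C U w.1 (g * h) x = C.ρ g (dW C U w.1 h ((g : G ⧸ U)⁻¹ * x)) + dW C U w.1 g x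
  exact dW_mul C U w.1 g h x

theorem dT_isLevel₁ (hC : IsDiscrete 𝓑.sets C) (hU : U ∈ 𝓑.sets) (w : Wp p C U) :
    IsLevel₁ 𝓑.sets (dT p C U w) := by
  have : U.FiniteIndex := 𝓑.isBasis.finiteIndex U hU
  have : Finite (G ⧸ U) := Subgroup.finite_quotient_of_finiteIndex
  obtain ⟨V, hV, -, hfix⟩ := hC.exists_fixing 𝓑.isBasis (Set.finite_range w.1)
  obtain ⟨W₁, hW₁, hle⟩ := 𝓑.isBasis.directed U hU V hV
  refine ⟨W₁, hW₁, fun g s hs => ?_⟩
  funext x
  apply pTorsionRep.val_injective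
  show dW C U w.1 (g * s) x = dW C U w.1 g x
  have hsU : s ∈ U := (hle hs).1
  rw [dW, dW, QuotientGroup.mk_mul_of_mem g hsU, map_mul, Module.End.mul_apply,
    hfix s (hle hs).2 _ ⟨_, rfl⟩]

/-- `w ↦ (g ↦ g w - w)` as an additive map `W' → Z¹_𝓑(G, Z)`. -/
def DZ (hC : IsDiscrete 𝓑.sets C) (hU : U ∈ 𝓑.sets) :
    Wp p C U →+ ↥(Z1 𝓑 (coind U (pTorsionRep p C))) where
  toFun w := ⟨dT p C U w, dT_mem_cocycles₁ p C U w, dT_isLevel₁ p 𝓑 C U hC hU w⟩
  map_zero' := by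
    apply Subtype.ext
    funext g x
    apply pTorsionRep.val_injective
    show dW C U 0 g x = 0
    exact dW_zero C U g x
  map_add' w w' := by
    apply Subtype.ext
    funext g x
    apply pTorsionRep.val_injective
    show dW C U (w.1 + w'.1) g x = dW C U w.1 g x + dW C U w'.1 g x
    exact dW_add C U w.1 w'.1 g x

theorem DZ_apply (hC : IsDiscrete 𝓑.sets C) (hU : U ∈ 𝓑.sets) (w : Wp p C U) :
    ((DZ p 𝓑 C U hC hU w : ↥(Z1 𝓑 (coind U (pTorsionRep p C)))) :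
      G → coind U (pTorsionRep p C)) = dT p C U w := rfl

/-- `w ↦ [g ↦ g w - w]` as an additive map `W' → H¹_𝓑(G, Z)`. -/
def DH (hC : IsDiscrete 𝓑.sets C) (hU : U ∈ 𝓑.sets) :
    Wp p C U →+ H1 𝓑 (coind U (pTorsionRep p C)) :=
  (H1mk 𝓑 (coind U (pTorsionRep p C))).toAddMonoidHom.comp (DZ p 𝓑 C U hC hU)

theorem DH_apply (hC : IsDiscrete 𝓑.sets C) (hU : U ∈ 𝓑.sets) (w : Wp p C U) :
    DH p 𝓑 C U hC hU w = H1mk 𝓑 (coind U (pTorsionRep p C)) (DZ p 𝓑 C U hC hU w) := rfl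

/-! ### `W^G = C^U` -/

/-- The invariant function `x ↦ x • c` attached to `c ∈ C^U`. -/
def wOf (c : C.quotientToInvariants U) : G ⧸ U → C :=
  fun x => invVal C U ((C.quotientToInvariants U).ρ x c)

theorem wOf_one (c : C.quotientToInvariants U) : wOf C U c 1 = invVal C U c := by
  rw [wOf, map_one]
  rfl

theorem rho_wOf (g : G) (c : C.quotientToInvariants U) (y : G ⧸ U) :
    C.ρ g (wOf C U c y) = wOf C U c ((g : G ⧸ U) * y) := by
  rw [wOf, wOf, map_mul, ← invVal_ρ]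
  rfl

theorem dW_wOf (c : C.quotientToInvariants U) (g : G) (x : G ⧸ U) :
    dW C U (wOf C U c) g x = 0 := by
  rw [dW, rho_wOf, mul_inv_cancel_left, sub_self]

theorem wOf_add (c c' : C.quotientToInvariants U) :
    wOf C U (c + c') = wOf C U c + wOf C U c' := by
  funext x
  simp only [wOf, map_add, Pi.add_apply]
  rfl

theorem wOf_nsmul (n : ℕ) (c : C.quotientToInvariants U) :
    wOf C U (n • c) = n • wOf C U c := by
  funext x
  simp only [wOf, map_nsmul, Pi.smul_apply]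
  rfl

/-- A `G`-invariant element of `W` comes from `C^U`. -/
theorem exists_eq_wOf (w : G ⧸ U → C) (h : ∀ g x, dW C U w g x = 0) :
    ∃ c : C.quotientToInvariants U, w = wOf C U c ∧ invVal C U c = w 1 := by
  have h1 : ∀ u ∈ U, C.ρ u (w 1) = w 1 := by
    intro u hu
    have := h u 1
    rw [dW, (QuotientGroup.eq_one_iff u).2 hu, inv_one, one_mul, sub_eq_zero] at this
    exact this
  refine ⟨mkInv C U (w 1) h1, ?_, rfl⟩
  funext x
  obtain ⟨g, rfl⟩ := QuotientGroup.mk_surjective x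
  have := h g (g : G ⧸ U)
  rw [dW, inv_mul_cancel, sub_eq_zero] at this
  rw [← this, wOf, invVal_ρ, invVal_mkInv]

/-! ### The map `κ : W' → C^U`, `w ↦ (p w)(1)` -/

omit [Fact p.Prime] in
theorem Wp_fixed (w : Wp p C U) (u : G) (hu : u ∈ U) : C.ρ u (p • w.1 1) = p • w.1 1 := by
  have := w.2 u 1
  rw [dW, (QuotientGroup.eq_one_iff u).2 hu, inv_one, one_mul, smul_sub, sub_eq_zero,
    ← map_nsmul] at this
  exact this

/-- `κ : W' → C^U`, `w ↦ (p w)(1)`. -/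
def kappa : Wp p C U →+ C.quotientToInvariants U where
  toFun w := mkInv C U (p • w.1 1) (Wp_fixed p C U w)
  map_zero' := by
    apply invVal_injective
    show p • (0 : C) = 0
    exact smul_zero _
  map_add' w w' := by
    apply invVal_injective
    show p • (w.1 1 + w'.1 1) = p • w.1 1 + p • w'.1 1
    exact smul_add _ _ _

omit [Fact p.Prime] in
theorem invVal_kappa (w : Wp p C U) : invVal C U (kappa p C U w) = p • w.1 1 := rfl

omit [Fact p.Prime] in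
/-- `p w` is the invariant function attached to `κ w`. -/
theorem nsmul_eq_wOf_kappa (w : Wp p C U) (x : G ⧸ U) :
    p • w.1 x = wOf C U (kappa p C U w) x := by
  obtain ⟨g, rfl⟩ := QuotientGroup.mk_surjective x
  have := w.2 g (g : G ⧸ U)
  rw [dW, inv_mul_cancel, smul_sub, sub_eq_zero, ← map_nsmul] at this
  rw [← this, wOf, invVal_ρ, invVal_kappa]

omit [Fact p.Prime] in
theorem kappa_surjective (hdiv : ∀ c : C, ∃ c' : C, p • c' = c) :
    Function.Surjective (kappa p C U) := by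
  intro c
  choose r hr using hdiv
  let w : G ⧸ U → C := fun x => r (wOf C U c x)
  have hw : w ∈ Wp p C U := by
    intro g x
    rw [← dW_nsmul]
    have : p • w = wOf C U c := by
      funext x
      exact hr _
    rw [this, dW_wOf]
  refine ⟨⟨w, hw⟩, ?_⟩
  apply invVal_injective
  rw [invVal_kappa]
  show p • r (wOf C U c 1) = _
  rw [hr, wOf_one]

/-! ### The kernel of `W' → H¹_𝓑(G, Z)` -/

/-- If `[g ↦ g w - w] = 0` in `H¹_𝓑(G, Z)` then `κ w ∈ p C^U`. -/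
theorem exists_nsmul_eq_kappa_of_DH_eq_zero (hC : IsDiscrete 𝓑.sets C) (hU : U ∈ 𝓑.sets)
    (w : Wp p C U) (h : DH p 𝓑 C U hC hU w = 0) :
    ∃ c' : C.quotientToInvariants U, p • c' = kappa p C U w := by
  rw [DH_apply, H1mk_eq_zero_iff, DZ_apply] at h
  obtain ⟨z, hz⟩ := h
  -- `w' = w - z` is `G`-invariant
  let w' : G ⧸ U → C := w.1 - fun x => pTorsionRep.val p C (z x)
  have hw' : ∀ g x, dW C U w' g x = 0 := by
    intro g x
    have h1 := congrArg (pTorsionRep.val p C) (congrFun (congrFun hz g) x)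
    rw [val_dT, d₀₁_hom_apply] at h1
    change C.ρ g (pTorsionRep.val p C (z ((g : G ⧸ U)⁻¹ * x))) - pTorsionRep.val p C (z x)
      = dW C U w.1 g x at h1
    rw [dW_sub, ← h1, dW, sub_self]
  obtain ⟨c', hc', hc'1⟩ := exists_eq_wOf C U w' hw'
  refine ⟨c', ?_⟩
  apply invVal_injective
  rw [invVal_nsmul, invVal_kappa, hc'1]
  show p • (w.1 1 - pTorsionRep.val p C (z 1)) = p • w.1 1
  rw [smul_sub, pTorsionRep.nsmul_val, sub_zero]

/-- If `κ w ∈ p C^U` then `[g ↦ g w - w] = 0` in `H¹_𝓑(G, Z)`. -/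
theorem DH_eq_zero_of_nsmul_eq_kappa (hC : IsDiscrete 𝓑.sets C) (hU : U ∈ 𝓑.sets)
    (w : Wp p C U) (c' : C.quotientToInvariants U) (h : p • c' = kappa p C U w) :
    DH p 𝓑 C U hC hU w = 0 := by
  rw [DH_apply, H1mk_eq_zero_iff, DZ_apply]
  have h1 : ∀ x, p • (w.1 x - wOf C U c' x) = 0 := by
    intro x
    rw [smul_sub, nsmul_eq_wOf_kappa, ← h, wOf_nsmul, Pi.smul_apply, sub_self]
  refine ⟨fun x => mkT p C (w.1 x - wOf C U c' x) (h1 x), ?_⟩
  funext g x
  apply pTorsionRep.val_injective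
  rw [val_dT, d₀₁_hom_apply]
  show C.ρ g (w.1 ((g : G ⧸ U)⁻¹ * x) - wOf C U c' ((g : G ⧸ U)⁻¹ * x))
    - (w.1 x - wOf C U c' x) = dW C U w.1 g x
  have h2 := dW_wOf C U c' g x
  rw [dW, sub_eq_zero] at h2
  rw [map_sub, h2, dW]
  abel

/-! ### Surjectivity: Shapiro's lemma and `NoPTorsionH1On` -/

/-- Every level cocycle of `Z` is `g ↦ g w - w` for some `w ∈ W'`. -/
theorem exists_dT_eq (hU : U ∈ 𝓑.sets) (hNT : NoPTorsionH1On 𝓑 C U p)
    (ζ : G → (G ⧸ U → pTorsionRep p C)) (hζ : ζ ∈ Z1 𝓑 (coind U (pTorsionRep p C))) :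
    ∃ w : Wp p C U, dT p C U w = ζ := by
  have hcoc := (mem_cocycles₁_iff (A := coind U (pTorsionRep p C)) ζ).1 hζ.1
  -- the cocycle identity, evaluated
  have hcoc' : ∀ g h x, pTorsionRep.val p C (ζ (g * h) x)
      = C.ρ g (pTorsionRep.val p C (ζ h ((g : G ⧸ U)⁻¹ * x))) + pTorsionRep.val p C (ζ g x) := by
    intro g h x
    have := congrArg (pTorsionRep.val p C) (congrFun (hcoc g h) x)
    exact this
  -- restriction to `U`, evaluated at `1`
  let zz : G → C := fun g => pTorsionRep.val p C (ζ g 1)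
  have hzz1 : ∀ u ∈ U, ∀ v ∈ U, zz (u * v) = zz u + C.ρ u (zz v) := by
    intro u hu v _
    show pTorsionRep.val p C (ζ (u * v) 1) = _
    rw [hcoc' u v 1, (QuotientGroup.eq_one_iff u).2 hu, inv_one, one_mul, add_comm]
  have hzz2 : ∃ V ∈ 𝓑.sets, V ≤ U ∧ ∀ u ∈ U, ∀ v ∈ V, zz (u * v) = zz u := by
    obtain ⟨V₀, hV₀, hinv⟩ := hζ.2
    obtain ⟨V, hV, hle⟩ := 𝓑.isBasis.directed U hU V₀ hV₀
    refine ⟨V, hV, hle.trans inf_le_left, fun u _ v hv => ?_⟩
    show pTorsionRep.val p C (ζ (u * v) 1) = pTorsionRep.val p C (ζ u 1)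
    rw [hinv u v (hle hv).2]
  have hzz3 : ∃ c : C, ∀ u ∈ U, p • zz u = C.ρ u c - c := by
    refine ⟨0, fun u _ => ?_⟩
    rw [map_zero, sub_zero]
    exact pTorsionRep.nsmul_val p C _
  obtain ⟨c, hc⟩ := hNT zz hzz1 hzz2 hzz3
  -- the primitive
  let w : G ⧸ U → C := fun x => C.ρ x.out c - pTorsionRep.val p C (ζ x.out x)
  have hw : ∀ g : G, w (g : G ⧸ U) = C.ρ g c - pTorsionRep.val p C (ζ g (g : G ⧸ U)) := by
    intro g
    set g₀ : G := ((g : G ⧸ U)).out with hg₀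
    have hg₀' : ((g₀ : G) : G ⧸ U) = (g : G ⧸ U) := QuotientGroup.out_eq' _
    have hu : g₀⁻¹ * g ∈ U := QuotientGroup.eq.1 hg₀'
    have hg : g = g₀ * (g₀⁻¹ * g) := by group
    show C.ρ g₀ c - pTorsionRep.val p C (ζ g₀ (g : G ⧸ U)) = _
    have h1 := hcoc' g₀ (g₀⁻¹ * g) (g : G ⧸ U)
    rw [← hg, ← hg₀', inv_mul_cancel] at h1
    have h2 : pTorsionRep.val p C (ζ (g₀⁻¹ * g) 1) = C.ρ (g₀⁻¹ * g) c - c := hc _ hu
    rw [← hg₀', h1, h2, map_sub, ← Module.End.mul_apply, ← map_mul, ← hg]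
    abel
  have hdw : ∀ g x, dW C U w g x = pTorsionRep.val p C (ζ g x) := by
    intro g x
    obtain ⟨h, rfl⟩ := QuotientGroup.mk_surjective x
    have h1 := hcoc' g (g⁻¹ * h) (h : G ⧸ U)
    rw [mul_inv_cancel_left] at h1
    have h2 : ((g : G ⧸ U))⁻¹ * (h : G ⧸ U) = ((g⁻¹ * h : G) : G ⧸ U) := by
      rw [QuotientGroup.mk_mul, QuotientGroup.mk_inv]
    rw [dW, h2, hw, hw, h1, h2, map_sub, ← Module.End.mul_apply, ← map_mul, mul_inv_cancel_left]
    abel
  have hwp : w ∈ Wp p C U := by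
    intro g x
    rw [hdw]
    exact pTorsionRep.nsmul_val p C _
  refine ⟨⟨w, hwp⟩, ?_⟩
  funext g x
  apply pTorsionRep.val_injective
  rw [val_dT]
  exact hdw g x

theorem DH_surjective (hC : IsDiscrete 𝓑.sets C) (hU : U ∈ 𝓑.sets)
    (hNT : NoPTorsionH1On 𝓑 C U p) : Function.Surjective (DH p 𝓑 C U hC hU) := by
  intro ξ
  obtain ⟨ζ, rfl⟩ := H1mk_surjective 𝓑 (coind U (pTorsionRep p C)) ξ
  obtain ⟨w, hw⟩ := exists_dT_eq p 𝓑 C U hU hNT ζ.1 ζ.2
  refine ⟨w, ?_⟩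
  rw [DH_apply]
  congr 1
  exact Subtype.ext hw

/-! ### The isomorphism `C^U / p ≃ H¹_𝓑(G, Z)` -/

/-- Two surjective additive maps with the same kernel have isomorphic targets. -/
theorem exists_addEquiv_of_ker_eq {W Q H : Type} [AddCommGroup W] [AddCommGroup Q]
    [AddCommGroup H] (κ : W →+ Q) (D : W →+ H) (hκ : Function.Surjective κ)
    (hD : Function.Surjective D) (hker : κ.ker = D.ker) :
    ∃ e : Q ≃+ H, ∀ w, e (κ w) = D w := by
  refine ⟨((QuotientAddGroup.quotientKerEquivOfSurjective κ hκ).symm.trans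
    (QuotientAddGroup.quotientAddEquivOfEq hker)).trans
    (QuotientAddGroup.quotientKerEquivOfSurjective D hD), fun w => ?_⟩
  have h1 : (QuotientAddGroup.quotientKerEquivOfSurjective κ hκ).symm (κ w)
      = (w : W ⧸ κ.ker) := by
    rw [AddEquiv.symm_apply_eq]
    rfl
  rw [AddEquiv.trans_apply, AddEquiv.trans_apply, h1]
  rfl

/-- `C^U → C^U / p`, additive. -/
def mkAdd : C.quotientToInvariants U →+ modPRep p (C.quotientToInvariants U) where
  toFun c := modPRep.mk p _ c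
  map_zero' := rfl
  map_add' _ _ := rfl

theorem mkAdd_apply (c : C.quotientToInvariants U) :
    mkAdd p C U c = modPRep.mk p (C.quotientToInvariants U) c := rfl

theorem ker_mkAdd_comp_kappa (hC : IsDiscrete 𝓑.sets C) (hU : U ∈ 𝓑.sets) :
    ((mkAdd p C U).comp (kappa p C U)).ker = (DH p 𝓑 C U hC hU).ker := by
  ext w
  rw [AddMonoidHom.mem_ker, AddMonoidHom.mem_ker, AddMonoidHom.comp_apply, mkAdd_apply,
    modPRep.mk_eq_zero_iff]
  constructor
  · rintro ⟨c', hc'⟩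
    exact DH_eq_zero_of_nsmul_eq_kappa p 𝓑 C U hC hU w c' hc'
  · intro h
    exact exists_nsmul_eq_kappa_of_DH_eq_zero p 𝓑 C U hC hU w h

/-- **EC4 (ii)**: the isomorphism `C^U / p C^U ≃ H¹_𝓑(G, Map(G ⧸ U, C[p]))`, characterised by
`[(p w)(1)] ↦ [g ↦ g w - w]`. -/
theorem exists_shapiroEquiv (hC : IsDiscrete 𝓑.sets C) (hdiv : ∀ c : C, ∃ c' : C, p • c' = c)
    (hU : U ∈ 𝓑.sets) (hNT : NoPTorsionH1On 𝓑 C U p) :
    ∃ e : modPRep p (C.quotientToInvariants U) ≃ₗ[ZMod p] H1 𝓑 (coind U (pTorsionRep p C)),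
      ∀ w : Wp p C U, e (modPRep.mk p _ (kappa p C U w)) = DH p 𝓑 C U hC hU w := by
  have hsurj : Function.Surjective ((mkAdd p C U).comp (kappa p C U)) := by
    intro q
    obtain ⟨c, rfl⟩ := modPRep.mk_surjective p _ q
    obtain ⟨w, rfl⟩ := kappa_surjective p C U hdiv c
    exact ⟨w, rfl⟩
  obtain ⟨e, he⟩ := exists_addEquiv_of_ker_eq ((mkAdd p C U).comp (kappa p C U))
    (DH p 𝓑 C U hC hU) hsurj (DH_surjective p 𝓑 C U hC hU hNT)
    (ker_mkAdd_comp_kappa p 𝓑 C U hC hU)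
  exact ⟨LinearEquiv.ofBijective (e.toAddMonoidHom.toZModLinearMap p) e.bijective, he⟩

/-! ### Equivariance -/

omit [Fact p.Prime] in
theorem star_mem_Wp (y : G ⧸ U) (w : Wp p C U) : (fun x => w.1 (x * y)) ∈ Wp p C U := by
  intro g x
  have := w.2 g (x * y)
  show p • (C.ρ g (w.1 ((g : G ⧸ U)⁻¹ * x * y)) - w.1 (x * y)) = 0
  rw [mul_assoc]
  exact this

/-- The right translation action of `G ⧸ U` on `W'`. -/
def starW (y : G ⧸ U) (w : Wp p C U) : Wp p C U := ⟨fun x => w.1 (x * y), star_mem_Wp p C U y w⟩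

omit [Fact p.Prime] in
theorem starW_apply (y : G ⧸ U) (w : Wp p C U) (x : G ⧸ U) :
    (starW p C U y w).1 x = w.1 (x * y) := rfl

omit [Fact p.Prime] in
theorem kappa_starW (y : G ⧸ U) (w : Wp p C U) :
    kappa p C U (starW p C U y w) = (C.quotientToInvariants U).ρ y (kappa p C U w) := by
  apply invVal_injective
  rw [invVal_kappa, starW_apply, one_mul, nsmul_eq_wOf_kappa]
  rfl

theorem DH_starW (hC : IsDiscrete 𝓑.sets C) (hU : U ∈ 𝓑.sets) (y : G ⧸ U) (w : Wp p C U) :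
    DH p 𝓑 C U hC hU (starW p C U y w)
      = starH1Rho U 𝓑 (pTorsionRep p C) y (DH p 𝓑 C U hC hU w) := by
  rw [DH_apply, DH_apply, starH1Rho_mk]
  congr 1
  apply Subtype.ext
  funext g x
  rw [starZ1Rho_apply, starRho_apply]
  apply pTorsionRep.val_injective
  show dW C U (fun x => w.1 (x * y)) g x = dW C U w.1 g (x * y)
  rw [dW, dW, mul_assoc]

/-- The isomorphism of `exists_shapiroEquiv` is `G ⧸ U`-equivariant. -/
theorem shapiroEquiv_equivariant (hC : IsDiscrete 𝓑.sets C)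
    (hdiv : ∀ c : C, ∃ c' : C, p • c' = c) (hU : U ∈ 𝓑.sets)
    (e : modPRep p (C.quotientToInvariants U) ≃ₗ[ZMod p] H1 𝓑 (coind U (pTorsionRep p C)))
    (he : ∀ w : Wp p C U, e (modPRep.mk p _ (kappa p C U w)) = DH p 𝓑 C U hC hU w)
    (y : G ⧸ U) (q : modPRep p (C.quotientToInvariants U)) :
    e ((modPRep p (C.quotientToInvariants U)).ρ y q)
      = starH1Rho U 𝓑 (pTorsionRep p C) y (e q) := by
  obtain ⟨c, rfl⟩ := modPRep.mk_surjective p _ q
  obtain ⟨w, rfl⟩ := kappa_surjective p C U hdiv c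
  rw [modPRep.mk_ρ, ← kappa_starW, he, he, DH_starW]

/-! ### The dimension formula -/

omit [U.Normal] in
theorem isDiscrete_pTorsionRep (hC : IsDiscrete 𝓑.sets C) :
    IsDiscrete 𝓑.sets (pTorsionRep p C) := by
  intro t
  obtain ⟨V, hV, h⟩ := hC (pTorsionRep.val p C t)
  refine ⟨V, hV, fun s hs => pTorsionRep.val_injective p C ?_⟩
  rw [pTorsionRep.val_ρ, h s hs]

/-- **EC4, `H¹`-part**: `dim H¹_𝓑(G, Hom(P, C[p])) = dim Hom_{G/U}(P, C^U / p)` for `P`
finite-dimensional projective over `𝔽_p[G ⧸ U]`. -/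
theorem finrank_H1_homRep_infl_pTorsion (hC : IsDiscrete 𝓑.sets C)
    (hdiv : ∀ c : C, ∃ c' : C, p • c' = c) (hU : U ∈ 𝓑.sets) (hNT : NoPTorsionH1On 𝓑 C U p)
    (P : Rep.{0} (ZMod p) (G ⧸ U)) [FiniteDimensional (ZMod p) P] (hP : IsProjRep P) :
    finrank (ZMod p) (H1 𝓑 (homRep (SpecB26.infl U P) (pTorsionRep p C)))
      = eqHomRank P (modPRep p (C.quotientToInvariants U)) := by
  obtain ⟨e, he⟩ := exists_shapiroEquiv p 𝓑 C U hC hdiv hU hNT
  have h1 := ProjEval3.finrank_H1_homRep_infl U 𝓑 (pTorsionRep p C) hP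
    (isDiscrete_coind hU (isDiscrete_pTorsionRep p 𝓑 C hC))
  have h2 := eqHomRank_congr P (modPRep p (C.quotientToInvariants U))
    (H1star U 𝓑 (pTorsionRep p C)) e
    (shapiroEquiv_equivariant p 𝓑 C U hC hdiv hU e he)
  rw [h2]
  exact h1

end

end Fermat.Agent.TW.GlobalEC.Shapiro3
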