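/-
Program TW (S56), WP4 "EC", brick EC4 (projective evaluation), helper3: the contract
`SpecB26.ProjectiveEvaluation`.

`C` a discrete `p`-divisible `G`-module, `T = C[p]`, `U` a normal member of the level basis with
`H¹_lev(U, C)[p] = 0`, `P` a finite-dimensional projective `𝔽_p[G ⧸ U]`-module.  Then

* `dim Hom_G(P, T) = dim Hom_{G/U}(P, C^U[p])`                 (`HomInv3.eqHomRank_infl_pTorsion`),
* `dim H¹_𝓑(G, Hom(P, T)) = dim Hom_{G/U}(P, C^U / p)`         (`ProjEval3` + `Shapiro3`),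
* `dim P^{G/U} = dim Hom_{G/U}(P, 𝔽_p)`                        (`NormIso3`).
-/
import Mathlib
import Fermat.Agent.TW.GlobalEC.SpecB26
import Fermat.Agent.TW.GlobalEC.NormIso3
import Fermat.Agent.TW.GlobalEC.HomInv3
import Fermat.Agent.TW.GlobalEC.Shapiro3

set_option autoImplicit false

open Module

namespace Fermat.Agent.TW.GlobalEC.EC4Main3

open Fermat.Agent.PT.PRO.LevelCoh28 Fermat.Agent.TW.GlobalEC.Spec26
  Fermat.Agent.TW.GlobalEC.SpecB26

variable {G : Type} [Group G] {R : Type} [CommRing R] (p : ℕ) [Fact p.Prime] (𝓑 : LevelBasis G)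
  (C : Rep.{0} R G)

/-- **(EC4) Projective evaluation.** -/
theorem projectiveEvaluation : ProjectiveEvaluation p 𝓑 C := by
  intro hC hdiv U _ hU hNT P hfd hP
  refine ⟨HomInv3.eqHomRank_infl_pTorsion p C U P,
    Shapiro3.finrank_H1_homRep_infl_pTorsion p 𝓑 C U hC hdiv hU hNT P hP, ?_⟩
  have : U.FiniteIndex := 𝓑.isBasis.finiteIndex U hU
  have : Finite (G ⧸ U) := Subgroup.finite_quotient_of_finiteIndex
  cases nonempty_fintype (G ⧸ U)
  exact NormIso3.finrank_invariants_eq_eqHomRank_triv hP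

end Fermat.Agent.TW.GlobalEC.EC4Main3
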