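/-
Program TW (S56), WP4 "EC", brick EC7-abs (abstract assembly), part 3, helper3.

The PT-free half of EC7: from

* (EC1) `Spec26.InductionPrinciple (ZMod p) (G ⧸ U)`,
* (EC2) `Spec26.Additivity 𝓑 T`, `T = C[p]`,
* (EC3) duality `Spec26.IsDualAt 𝓑 T (infl U N)` and finiteness for all finite `G ⧸ U`-modules `N`,
        an injection `τ : H²_𝓑(G, T) → 𝔽_p`, and `NoPTorsionH1On 𝓑 C U p`,
* (EC4) `SpecB26.ProjectiveEvaluation` (proved in `EC4Main3`),
* (EC5) `h_P(C^U) = dim Hom(P, 𝔽_p) + dim P^{c = -1}` for projective `P`,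

we get Tate's formula in the form `eps(N) = 0`:

  `dim Hom_G(N, T) - dim H¹_𝓑(G, N) + dim N^G + dim N^{c = -1} = 0`

for every finite-dimensional `𝔽_p[G ⧸ U]`-module `N` (`euler_add_negEigenRank_eq_zero`).
-/
import Mathlib
import Fermat.Agent.TW.GlobalEC.SpecB26
import Fermat.Agent.TW.GlobalEC.EC4Main3
import Fermat.Agent.TW.GlobalEC.DualRank3
import Fermat.Agent.TW.GlobalEC.NegEigen3

set_option autoImplicit false

open Module

namespace Fermat.Agent.TW.GlobalEC.EC7Abs3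

open Fermat.Agent.PT.PRO.LevelCoh28 Fermat.Agent.TW.GlobalEC.Spec26
  Fermat.Agent.TW.GlobalEC.SpecB26

noncomputable section

/-! ### Inflation -/

section infl

variable {k G : Type} [Field k] [Group G] (U : Subgroup G) [U.Normal]

theorem infl_ρ_apply (N : Rep.{0} k (G ⧸ U)) (g : G) (v : N) :
    (infl U N).ρ g v = N.ρ (g : G ⧸ U) v := rfl

/-- The inflation of a short exact sequence is short exact. -/
theorem isShortExact_infl {A B C : Rep.{0} k (G ⧸ U)} {φ : A →ₗ[k] B} {ψ : B →ₗ[k] C}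
    (h : IsShortExact A B C φ ψ) : IsShortExact (infl U A) (infl U B) (infl U C) φ ψ where
  φ_comm g a := h.φ_comm (g : G ⧸ U) a
  ψ_comm g b := h.ψ_comm (g : G ⧸ U) b
  inj := h.inj
  surj := h.surj
  exact := h.exact

/-- An inflated module is discrete (for `U` in the level basis). -/
theorem isDiscrete_infl {𝓑 : LevelBasis G} (hU : U ∈ 𝓑.sets) (N : Rep.{0} k (G ⧸ U)) :
    IsDiscrete 𝓑.sets (infl U N) := by
  intro v
  refine ⟨U, hU, fun s hs => ?_⟩
  rw [infl_ρ_apply, (QuotientGroup.eq_one_iff s).2 hs, map_one, Module.End.one_apply]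

/-- The invariants of an inflated module. -/
theorem finrank_invariants_infl (N : Rep.{0} k (G ⧸ U)) :
    finrank k (infl U N).ρ.invariants = finrank k N.ρ.invariants := by
  have : (infl U N).ρ.invariants = N.ρ.invariants := by
    ext v
    constructor
    · intro h y
      obtain ⟨g, rfl⟩ := QuotientGroup.mk_surjective y
      exact h g
    · intro h g
      exact h (g : G ⧸ U)
  rw [this]

end infl

/-! ### The assembly -/

variable {G : Type} [Group G] {R : Type} [CommRing R] (p : ℕ) [Fact p.Prime] (𝓑 : LevelBasis G)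
  (C : Rep.{0} R G) (U : Subgroup G) [U.Normal]

/-- `eps(N) = dim Hom_G(N, T) - dim H¹_𝓑(G, N) + dim N^G + dim N^{c = -1}`. -/
def eps (cc : G ⧸ U) (N : Rep.{0} (ZMod p) (G ⧸ U)) : ℤ :=
  euler 𝓑 (pTorsionRep p C) (infl U N) + negEigenRank (N.ρ cc)

theorem two_ne_zero_zmod (hp2 : p ≠ 2) : (2 : ZMod p) ≠ 0 := by
  intro h
  have h1 : ((2 : ℕ) : ZMod p) = 0 := by exact_mod_cast h
  rw [ZMod.natCast_eq_zero_iff] at h1
  have hp : p.Prime := Fact.out
  rcases (Nat.dvd_prime Nat.prime_two).1 h1 with h2 | h2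
  · exact hp.one_lt.ne' h2
  · exact hp2 h2

/-- `eps` is additive on short exact sequences. -/
theorem isAdditive_eps (hp2 : p ≠ 2) (hC : IsDiscrete 𝓑.sets C) (hU : U ∈ 𝓑.sets)
    (cc : G ⧸ U) (hcc : cc * cc = 1)
    (hτ : ∃ τ : H2 𝓑 (pTorsionRep p C) →ₗ[ZMod p] ZMod p, Function.Injective τ)
    (hAdd : Additivity 𝓑 (pTorsionRep p C))
    (hDual : ∀ N : Rep.{0} (ZMod p) (G ⧸ U), FiniteDimensional (ZMod p) N →
      IsDualAt 𝓑 (pTorsionRep p C) (infl U N))
    (hfinH1 : ∀ N : Rep.{0} (ZMod p) (G ⧸ U), FiniteDimensional (ZMod p) N →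
      FiniteDimensional (ZMod p) (H1 𝓑 (infl U N)))
    (hfinHom : ∀ N : Rep.{0} (ZMod p) (G ⧸ U), FiniteDimensional (ZMod p) N →
      FiniteDimensional (ZMod p) (homRep (infl U N) (pTorsionRep p C)).ρ.invariants) :
    IsAdditive (eps p 𝓑 C U cc) := by
  intro A B C' φ ψ hSES hB
  have hA : FiniteDimensional (ZMod p) A := FiniteDimensional.of_injective φ hSES.inj
  have hC' : FiniteDimensional (ZMod p) C' := FiniteDimensional.of_surjective ψ hSES.surj
  have h1 := hAdd (Shapiro3.isDiscrete_pTorsionRep p 𝓑 C hC) hτ (infl U A) (infl U B)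
    (infl U C') φ ψ (isShortExact_infl U hSES) hB (isDiscrete_infl U hU B) (hDual A hA)
    (hDual B hB) (hDual C' hC') (hfinH1 A hA) (hfinH1 B hB) (hfinH1 C' hC') (hfinHom A hA)
    (hfinHom B hB) (hfinHom C' hC')
  have hσ : ∀ b : B, B.ρ cc (B.ρ cc b) = b := by
    intro b
    rw [← Module.End.mul_apply, ← map_mul, hcc, map_one, Module.End.one_apply]
  have h2 := NegEigen3.negEigenRank_additive (two_ne_zero_zmod p hp2) (A.ρ cc) (B.ρ cc)
    (C'.ρ cc) hσ φ ψ (hSES.φ_comm cc) (hSES.ψ_comm cc) hSES.inj hSES.surj hSES.exact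
  rw [eps, eps, eps, h1, h2]
  push_cast
  ring

/-- `eps` vanishes on finite-dimensional projective modules. -/
theorem eps_eq_zero_of_isProjRep (hC : IsDiscrete 𝓑.sets C)
    (hdiv : ∀ c : C, ∃ c' : C, p • c' = c) (hU : U ∈ 𝓑.sets) (hNT : NoPTorsionH1On 𝓑 C U p)
    (cc : G ⧸ U)
    (hτ : ∃ τ : H2 𝓑 (pTorsionRep p C) →ₗ[ZMod p] ZMod p, Function.Injective τ)
    (P : Rep.{0} (ZMod p) (G ⧸ U)) (hPfd : FiniteDimensional (ZMod p) P) (hP : IsProjRep P)
    (hDual : IsDualAt 𝓑 (pTorsionRep p C) (infl U P))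
    (hfinH1 : FiniteDimensional (ZMod p) (H1 𝓑 (infl U P)))
    (hEC5 : (eqHomRank P (modPRep p (C.quotientToInvariants U)) : ℤ)
        - eqHomRank P (pTorsionRep p (C.quotientToInvariants U))
      = eqHomRank P (trivRep p (G ⧸ U)) + negEigenRank (P.ρ cc)) :
    eps p 𝓑 C U cc P = 0 := by
  obtain ⟨h1, h2, h3⟩ := EC4Main3.projectiveEvaluation p 𝓑 C hC hdiv U hU hNT P hPfd hP
  have h4 := DualRank3.finrank_H1_eq_of_isDualAt' 𝓑 (isDiscrete_infl U hU P) hτ hDual
  have h5 := finrank_invariants_infl U P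
  rw [eps, euler, h1, h4, h2, h5, h3]
  omega

/-- **EC7-abs**: Tate's formula `eps(N) = 0` for all finite-dimensional `𝔽_p[G ⧸ U]`-modules,
from EC1, EC2, EC3 (duality + finiteness), EC4 and the EC5 formula. -/
theorem euler_add_negEigenRank_eq_zero (hp2 : p ≠ 2) (hC : IsDiscrete 𝓑.sets C)
    (hdiv : ∀ c : C, ∃ c' : C, p • c' = c) (hU : U ∈ 𝓑.sets) (hNT : NoPTorsionH1On 𝓑 C U p)
    (cc : G ⧸ U) (hcc : cc * cc = 1)
    (hτ : ∃ τ : H2 𝓑 (pTorsionRep p C) →ₗ[ZMod p] ZMod p, Function.Injective τ)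
    (hInd : InductionPrinciple (ZMod p) (G ⧸ U))
    (hAdd : Additivity 𝓑 (pTorsionRep p C))
    (hDual : ∀ N : Rep.{0} (ZMod p) (G ⧸ U), FiniteDimensional (ZMod p) N →
      IsDualAt 𝓑 (pTorsionRep p C) (infl U N))
    (hfinH1 : ∀ N : Rep.{0} (ZMod p) (G ⧸ U), FiniteDimensional (ZMod p) N →
      FiniteDimensional (ZMod p) (H1 𝓑 (infl U N)))
    (hfinHom : ∀ N : Rep.{0} (ZMod p) (G ⧸ U), FiniteDimensional (ZMod p) N →
      FiniteDimensional (ZMod p) (homRep (infl U N) (pTorsionRep p C)).ρ.invariants)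
    (hEC5 : ∀ P : Rep.{0} (ZMod p) (G ⧸ U), FiniteDimensional (ZMod p) P → IsProjRep P →
      (eqHomRank P (modPRep p (C.quotientToInvariants U)) : ℤ)
          - eqHomRank P (pTorsionRep p (C.quotientToInvariants U))
        = eqHomRank P (trivRep p (G ⧸ U)) + negEigenRank (P.ρ cc))
    (N : Rep.{0} (ZMod p) (G ⧸ U)) [hN : FiniteDimensional (ZMod p) N] :
    euler 𝓑 (pTorsionRep p C) (infl U N) + negEigenRank (N.ρ cc) = 0 :=
  hInd (eps p 𝓑 C U cc)
    (isAdditive_eps p 𝓑 C U hp2 hC hU cc hcc hτ hAdd hDual hfinH1 hfinHom)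
    (fun P hPfd hP => eps_eq_zero_of_isProjRep p 𝓑 C U hC hdiv hU hNT cc hτ P hPfd hP
      (hDual P hPfd) (hfinH1 P hPfd) (hEC5 P hPfd hP))
    N hN

end

end Fermat.Agent.TW.GlobalEC.EC7Abs3
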