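/-
Program TW (S56), WP4 "EC", brick EC7-abs (abstract assembly), part 4, helper3.

Tate's formula `eps(X) = 0` from the OFFICIAL contracts of WP4:

* (EC1) `ProjAdapter28.inductionPrinciple` (plugged in),
* (EC2) `Spec26.Additivity 𝓑 T`, `T = C[p]` (hypothesis),
* (EC4) `EC4Main3.projectiveEvaluation` (plugged in),
* (EC5) `SpecC26.ArithmeticCore p 𝓑 C cc` (hypothesis),
* (EC3) `τ : H²_𝓑(G, T) ↪ 𝔽_p`, `NoPTorsionH1On 𝓑 C U p` for normal `U ∈ 𝓑`, `IsDualAt 𝓑 T X` and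
        finiteness of `H¹_𝓑(G, X)` for finite discrete `X` (hypotheses).

`tate_formula`: for every finite-dimensional discrete `𝔽_p[G]`-module `X`

   `dim Hom_G(X, T) - dim H¹_𝓑(G, X) + dim X^G + dim X^{cc = -1} = 0`.
-/
import Mathlib
import Fermat.Agent.TW.GlobalEC.SpecC26
import Fermat.Agent.TW.GlobalEC.EC7Abs3
import Fermat.Agent.TW.EUL.ProjAdapter28

set_option autoImplicit false

open Module

namespace Fermat.Agent.TW.GlobalEC.EC7Main3

open Fermat.Agent.PT.PRO.LevelCoh28 Fermat.Agent.TW.GlobalEC.Spec26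
  Fermat.Agent.TW.GlobalEC.SpecB26 Fermat.Agent.TW.GlobalEC.SpecC26

noncomputable section

variable {G : Type} [Group G] {R : Type} [CommRing R] (p : ℕ) [Fact p.Prime] (𝓑 : LevelBasis G)
  (C : Rep.{0} R G)

/-- Tate's formula for modules inflated from `G ⧸ U`, from the official contracts. -/
theorem tate_formula_infl (hp2 : p ≠ 2) (cc : G) (hcc : cc * cc = 1)
    (hC : IsDiscrete 𝓑.sets C) (hdiv : ∀ c : C, ∃ c' : C, p • c' = c)
    (hτ : ∃ τ : H2 𝓑 (pTorsionRep p C) →ₗ[ZMod p] ZMod p, Function.Injective τ)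
    (hAdd : Additivity 𝓑 (pTorsionRep p C)) (hCore : ArithmeticCore p 𝓑 C cc)
    (U : Subgroup G) [U.Normal] (hU : U ∈ 𝓑.sets) (hNT : NoPTorsionH1On 𝓑 C U p)
    (hDual : ∀ N : Rep.{0} (ZMod p) (G ⧸ U), FiniteDimensional (ZMod p) N →
      IsDualAt 𝓑 (pTorsionRep p C) (infl U N))
    (hfinH1 : ∀ N : Rep.{0} (ZMod p) (G ⧸ U), FiniteDimensional (ZMod p) N →
      FiniteDimensional (ZMod p) (H1 𝓑 (infl U N)))
    (N : Rep.{0} (ZMod p) (G ⧸ U)) [FiniteDimensional (ZMod p) N] :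
    euler 𝓑 (pTorsionRep p C) (infl U N)
      + negEigenRank (N.ρ (QuotientGroup.mk cc : G ⧸ U)) = 0 := by
  have : U.FiniteIndex := 𝓑.isBasis.finiteIndex U hU
  have : Finite (G ⧸ U) := Subgroup.finite_quotient_of_finiteIndex
  obtain ⟨hfin, hform⟩ := hCore U hU
  have hcc' : (QuotientGroup.mk cc : G ⧸ U) * (QuotientGroup.mk cc : G ⧸ U) = 1 := by
    rw [← QuotientGroup.mk_mul, hcc, QuotientGroup.mk_one]
  refine EC7Abs3.euler_add_negEigenRank_eq_zero p 𝓑 C U hp2 hC hdiv hU hNT _ hcc' hτ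
    (Fermat.Agent.TW.EUL.ProjAdapter28.inductionPrinciple p (G ⧸ U)) hAdd hDual hfinH1
    (fun N hN => ?_) (fun P hPfd hPproj => ?_) N
  · have := hfin.1
    exact HomInv3.finiteDimensional_hom_infl_pTorsion p C U N
  · have := hform P hPfd hPproj
    rw [SpecC26.hP] at this
    rw [this]
    ring

/-- A finite discrete module is inflated from a finite quotient of the level basis. -/
theorem exists_trivial_level (X : Rep.{0} (ZMod p) G) [FiniteDimensional (ZMod p) X]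
    (hX : IsDiscrete 𝓑.sets X) :
    ∃ U ∈ 𝓑.sets, U.Normal ∧ ∀ s ∈ U, ∀ x : X, X.ρ s x = x := by
  have : Finite X := Module.finite_of_finite (ZMod p)
  obtain ⟨U, hU, hn, hfix⟩ := hX.exists_fixing 𝓑.isBasis (Set.toFinite (Set.univ : Set X))
  exact ⟨U, hU, hn, fun s hs x => hfix s hs x (Set.mem_univ x)⟩

/-- **Tate's formula** (abstract form) for every finite-dimensional discrete `𝔽_p[G]`-module. -/
theorem tate_formula (hp2 : p ≠ 2) (cc : G) (hcc : cc * cc = 1)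
    (hC : IsDiscrete 𝓑.sets C) (hdiv : ∀ c : C, ∃ c' : C, p • c' = c)
    (hτ : ∃ τ : H2 𝓑 (pTorsionRep p C) →ₗ[ZMod p] ZMod p, Function.Injective τ)
    (hAdd : Additivity 𝓑 (pTorsionRep p C)) (hCore : ArithmeticCore p 𝓑 C cc)
    (hNT : ∀ (U : Subgroup G) [U.Normal], U ∈ 𝓑.sets → NoPTorsionH1On 𝓑 C U p)
    (hDual : ∀ X : Rep.{0} (ZMod p) G, FiniteDimensional (ZMod p) X → IsDiscrete 𝓑.sets X →
      IsDualAt 𝓑 (pTorsionRep p C) X)
    (hfinH1 : ∀ X : Rep.{0} (ZMod p) G, FiniteDimensional (ZMod p) X → IsDiscrete 𝓑.sets X →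
      FiniteDimensional (ZMod p) (H1 𝓑 X))
    (X : Rep.{0} (ZMod p) G) [hXfd : FiniteDimensional (ZMod p) X] (hX : IsDiscrete 𝓑.sets X) :
    euler 𝓑 (pTorsionRep p C) X + negEigenRank (X.ρ cc) = 0 := by
  obtain ⟨U, hU, hn, hfix⟩ := exists_trivial_level p 𝓑 X hX
  have htriv : Representation.IsTrivial (X.ρ.comp U.subtype) :=
    ⟨fun s => LinearMap.ext fun x => hfix s.1 s.2 x⟩
  let X' : Rep.{0} (ZMod p) (G ⧸ U) := Rep.of (Representation.ofQuotient X.ρ U)
  have hX'fd : FiniteDimensional (ZMod p) X' := hXfd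
  have hρ : (Representation.ofQuotient X.ρ U).comp (QuotientGroup.mk' U) = X.ρ :=
    MonoidHom.ext fun g => rfl
  have hinfl : infl U X' = X := by
    show Rep.of ((Representation.ofQuotient X.ρ U).comp (QuotientGroup.mk' U)) = X
    rw [hρ]
  have key := tate_formula_infl p 𝓑 C hp2 cc hcc hC hdiv hτ hAdd hCore U hU (hNT U hU)
    (fun N hN => hDual (infl U N) hN (EC7Abs3.isDiscrete_infl U hU N))
    (fun N hN => hfinH1 (infl U N) hN (EC7Abs3.isDiscrete_infl U hU N)) X'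
  rw [hinfl] at key
  exact key

end

end Fermat.Agent.TW.GlobalEC.EC7Main3
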