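/-
Program TW (S56), work package WP4 "EC", brick EC6 (helper28), part 1: the beginning of the long
exact sequence of level cohomology (`PT/PRO/LevelCoh28`) of a short exact sequence
`0 → A --φ--> B --ψ--> C → 0` of discrete modules:

  `0 → A^G → B^G → C^G --δ⁰--> H¹(A) → H¹(B)`,

with the resulting dimension count (over a field)

  `dim C^G + dim A^G = dim B^G + dim ker (H¹(A) → H¹(B))`.
-/
import Mathlib
import Fermat.Agent.PT.PRO.LevelCoh28

set_option autoImplicit false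
set_option linter.unusedSectionVars false

universe u

open CategoryTheory groupCohomology Module

namespace Fermat.Agent.TW.GlobalEC.FiveTerm28

open Fermat.Agent.PT.PRO.LevelCoh28

section Ring

variable {k G : Type u} [CommRing k] [Group G] {𝓑 : LevelBasis G} {A B C : Rep.{u} k G}
  (φ : A →ₗ[k] B) (hφ : ∀ g a, φ (A.ρ g a) = B.ρ g (φ a))
  (ψ : B →ₗ[k] C) (hψ : ∀ g b, ψ (B.ρ g b) = C.ρ g (ψ b))
  (hinj : Function.Injective φ) (hsurj : Function.Surjective ψ)
  (hex : ∀ b, ψ b = 0 ↔ ∃ a, φ a = b) (hB : IsDiscrete 𝓑.sets B)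

/-! ### Maps on invariants -/

/-- The map induced on invariants by an equivariant linear map. -/
def mapInv : A.ρ.invariants →ₗ[k] B.ρ.invariants where
  toFun a := ⟨φ a.1, fun g => by rw [← hφ, a.2 g]⟩
  map_add' _ _ := Subtype.ext (map_add φ _ _)
  map_smul' _ _ := Subtype.ext (map_smul φ _ _)

@[simp] theorem mapInv_coe (a : A.ρ.invariants) : (mapInv φ hφ a : B) = φ a.1 := rfl

include hinj in
theorem mapInv_injective : Function.Injective (mapInv φ hφ) := fun _ _ h =>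
  Subtype.ext (hinj (congrArg Subtype.val h))

include hinj hex in
/-- Exactness of `A^G → B^G → C^G` at `B^G`. -/
theorem exact_mapInv : Function.Exact (mapInv φ hφ) (mapInv ψ hψ) := by
  intro b
  constructor
  · intro h
    obtain ⟨a, ha⟩ := (hex b.1).1 (congrArg Subtype.val h)
    refine ⟨⟨a, fun g => hinj ?_⟩, Subtype.ext ha⟩
    rw [hφ, ha, b.2 g]
  · rintro ⟨a, rfl⟩
    exact Subtype.ext ((hex _).2 ⟨a.1, rfl⟩)

/-! ### The connecting map `δ⁰ : C^G → H¹(A)` -/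

include hφ hinj hB in
/-- If `φ ∘ x = d b` for a vector `b` of the discrete module `B`, then `x` is a level 1-cocycle. -/
theorem mem_Z1_of_comp_eq_d₀₁ {b : B} {x : G → A} (hx : φ ∘ x = (d₀₁ B).hom b) : x ∈ Z1 𝓑 A := by
  refine mem_Z1_of 𝓑 A ?_ (isLevel₁_of_comp (𝓑 := 𝓑) φ hinj (hx ▸ isLevel₁_d₀₁ hB b))
  have h1 : φ ∘ (d₁₂ A).hom x = 0 := by
    rw [← d₁₂_comp φ hφ, hx]
    have := d₀₁_apply_mem_cocycles₁ b
    rwa [cocycles₁, LinearMap.mem_ker] at this
  funext y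
  apply hinj
  have := congrFun h1 y
  simp only [Function.comp_apply] at this
  rw [this]
  exact (map_zero φ).symm

include hφ hinj hex in
/-- The class of `x` only depends on `ψ b`. -/
theorem sub_mem_coboundaries₁_of_eq {b b' : B} (hbb' : ψ b = ψ b') {x x' : G → A}
    (hx : φ ∘ x = (d₀₁ B).hom b) (hx' : φ ∘ x' = (d₀₁ B).hom b') : x - x' ∈ coboundaries₁ A := by
  obtain ⟨a, ha⟩ := (hex (b - b')).1 (by rw [map_sub, hbb', sub_self])
  refine ⟨a, ?_⟩
  funext g
  apply hinj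
  have h1 := congrFun hx g
  have h2 := congrFun hx' g
  have h3 := congrFun (d₀₁_comp φ hφ a) g
  simp only [Function.comp_apply] at h1 h2 h3
  rw [Pi.sub_apply, map_sub, h1, h2, ← h3, ha, map_sub]
  rfl

/-- The cochain `g ↦ φ⁻¹ (g b - b)` for the chosen lift `b` of `c`. -/
noncomputable def delta0Fun (c : C) : G → A :=
  fun g => pre φ (B.ρ g (Function.surjInv hsurj c) - Function.surjInv hsurj c)

include hψ hex in
theorem φ_comp_delta0Fun {c : C} (hc : c ∈ C.ρ.invariants) :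
    φ ∘ delta0Fun φ ψ hsurj c = (d₀₁ B).hom (Function.surjInv hsurj c) := by
  funext g
  simp only [Function.comp_apply, delta0Fun, d₀₁_hom_apply]
  apply φ_pre φ ψ hex
  rw [map_sub, hψ, Function.surjInv_eq hsurj, hc g, sub_self]

/-- `δ⁰ : C^G → H¹(A)`. -/
noncomputable def delta0 : C.ρ.invariants →ₗ[k] H1 𝓑 A where
  toFun c := H1mk 𝓑 A ⟨delta0Fun φ ψ hsurj c.1,
    mem_Z1_of_comp_eq_d₀₁ φ hφ hinj hB (φ_comp_delta0Fun φ ψ hψ hsurj hex c.2)⟩
  map_add' c c' := by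
    rw [← map_add, ← sub_eq_zero, ← map_sub, H1mk_eq_zero_iff]
    have h1 : φ ∘ (delta0Fun φ ψ hsurj c.1 + delta0Fun φ ψ hsurj c'.1) =
        (d₀₁ B).hom (Function.surjInv hsurj c.1 + Function.surjInv hsurj c'.1) := by
      rw [map_add, ← φ_comp_delta0Fun φ ψ hψ hsurj hex c.2,
        ← φ_comp_delta0Fun φ ψ hψ hsurj hex c'.2]
      funext x
      simp
    have h2 : ψ (Function.surjInv hsurj (c + c').1) =
        ψ (Function.surjInv hsurj c.1 + Function.surjInv hsurj c'.1) := by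
      simp [Function.surjInv_eq hsurj]
    exact sub_mem_coboundaries₁_of_eq φ hφ ψ hinj hex h2
      (φ_comp_delta0Fun φ ψ hψ hsurj hex (c + c').2) h1
  map_smul' r c := by
    rw [RingHom.id_apply, ← map_smul, ← sub_eq_zero, ← map_sub, H1mk_eq_zero_iff]
    have h1 : φ ∘ (r • delta0Fun φ ψ hsurj c.1) =
        (d₀₁ B).hom (r • Function.surjInv hsurj c.1) := by
      rw [map_smul, ← φ_comp_delta0Fun φ ψ hψ hsurj hex c.2]
      funext x
      simp
    have h2 : ψ (Function.surjInv hsurj (r • c).1) = ψ (r • Function.surjInv hsurj c.1) := by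
      simp [Function.surjInv_eq hsurj]
    exact sub_mem_coboundaries₁_of_eq φ hφ ψ hinj hex h2
      (φ_comp_delta0Fun φ ψ hψ hsurj hex (r • c).2) h1

include hφ hψ hinj hex hB in
/-- **Characterisation of `δ⁰`**: it may be computed from any lift `b` of `c`. -/
theorem delta0_eq (c : C.ρ.invariants) {b : B} (hbc : ψ b = c.1) (x : ↥(Z1 𝓑 A))
    (hx : φ ∘ (x : G → A) = (d₀₁ B).hom b) :
    delta0 (𝓑 := 𝓑) φ hφ ψ hψ hinj hsurj hex hB c = H1mk 𝓑 A x := by
  show H1mk 𝓑 A _ = H1mk 𝓑 A x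
  rw [← sub_eq_zero, ← map_sub, H1mk_eq_zero_iff]
  exact sub_mem_coboundaries₁_of_eq φ hφ ψ hinj hex
    ((Function.surjInv_eq hsurj c.1).trans hbc.symm)
    (φ_comp_delta0Fun φ ψ hψ hsurj hex c.2) hx

/-- Exactness of `B^G → C^G → H¹(A)` at `C^G`. -/
theorem exact_mapInv_delta0 :
    Function.Exact (mapInv ψ hψ) (delta0 (𝓑 := 𝓑) φ hφ ψ hψ hinj hsurj hex hB) := by
  intro c
  constructor
  · intro h
    -- the chosen cocycle is a coboundary `d a`; correct the lift by `φ a`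
    have h' : delta0Fun φ ψ hsurj c.1 ∈ coboundaries₁ A := (H1mk_eq_zero_iff 𝓑 A _).1 h
    obtain ⟨a, ha⟩ := h'
    have hb := φ_comp_delta0Fun φ ψ hψ hsurj hex c.2
    refine ⟨⟨Function.surjInv hsurj c.1 - φ a, fun g => ?_⟩, Subtype.ext ?_⟩
    · have h1 := congrFun hb g
      have h2 := congrFun ha g
      simp only [Function.comp_apply, d₀₁_hom_apply] at h1 h2
      rw [map_sub, ← hφ, sub_eq_sub_iff_sub_eq_sub, ← h1, ← h2, map_sub]
    · change ψ (Function.surjInv hsurj c.1 - φ a) = c.1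
      rw [map_sub, ψ_φ φ ψ hex, sub_zero, Function.surjInv_eq hsurj]
  · rintro ⟨b, rfl⟩
    have hx : φ ∘ ((0 : ↥(Z1 𝓑 A)) : G → A) = (d₀₁ B).hom b.1 := by
      funext g
      simp only [Function.comp_apply, d₀₁_hom_apply, b.2 g, sub_self]
      exact map_zero φ
    rw [delta0_eq φ hφ ψ hψ hinj hsurj hex hB _ rfl 0 hx, map_zero]

/-- Exactness of `C^G → H¹(A) → H¹(B)` at `H¹(A)`. -/
theorem exact_delta0_mapH1 :
    Function.Exact (delta0 (𝓑 := 𝓑) φ hφ ψ hψ hinj hsurj hex hB) (mapH1 (𝓑 := 𝓑) φ hφ) := by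
  intro y
  constructor
  · intro h
    obtain ⟨x, rfl⟩ := H1mk_surjective 𝓑 A y
    rw [mapH1_mk, H1mk_eq_zero_iff] at h
    obtain ⟨b, hb⟩ := h
    have hb' : φ ∘ (x : G → A) = (d₀₁ B).hom b := hb.symm
    have hc : ψ b ∈ C.ρ.invariants := fun g => by
      have h1 := congrFun hb' g
      simp only [Function.comp_apply, d₀₁_hom_apply] at h1
      rw [← hψ, ← sub_eq_zero, ← map_sub, ← h1]
      exact ψ_φ φ ψ hex _
    exact ⟨⟨ψ b, hc⟩, delta0_eq φ hφ ψ hψ hinj hsurj hex hB ⟨ψ b, hc⟩ rfl x hb'⟩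
  · rintro ⟨c, rfl⟩
    show mapH1 (𝓑 := 𝓑) φ hφ (H1mk 𝓑 A _) = 0
    rw [mapH1_mk, H1mk_eq_zero_iff]
    exact ⟨Function.surjInv hsurj c.1, (φ_comp_delta0Fun φ ψ hψ hsurj hex c.2).symm⟩

end Ring

/-! ### The dimension count -/

section Field

variable {k G : Type u} [Field k] [Group G] {𝓑 : LevelBasis G} {A B C : Rep.{u} k G}
  (φ : A →ₗ[k] B) (hφ : ∀ g a, φ (A.ρ g a) = B.ρ g (φ a))
  (ψ : B →ₗ[k] C) (hψ : ∀ g b, ψ (B.ρ g b) = C.ρ g (ψ b))
  (hinj : Function.Injective φ) (hsurj : Function.Surjective ψ)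
  (hex : ∀ b, ψ b = 0 ↔ ∃ a, φ a = b) (hB : IsDiscrete 𝓑.sets B)

include hφ hψ hinj hsurj hex hB in
/-- `C^G` is finite-dimensional if `B^G` and `ker (H¹(A) → H¹(B))` are. -/
theorem finiteDimensional_invariants [FiniteDimensional k B.ρ.invariants]
    [FiniteDimensional k (LinearMap.ker (mapH1 (𝓑 := 𝓑) φ hφ))] :
    FiniteDimensional k C.ρ.invariants := by
  have hrange : LinearMap.range (delta0 (𝓑 := 𝓑) φ hφ ψ hψ hinj hsurj hex hB) =
      LinearMap.ker (mapH1 (𝓑 := 𝓑) φ hφ) :=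
    ((LinearMap.exact_iff).1 (exact_delta0_mapH1 φ hφ ψ hψ hinj hsurj hex hB)).symm
  have : FiniteDimensional k
      (LinearMap.range (delta0 (𝓑 := 𝓑) φ hφ ψ hψ hinj hsurj hex hB)) := by
    rw [hrange]; infer_instance
  refine Module.Finite.of_exact (f := mapInv ψ hψ)
    (g := (delta0 (𝓑 := 𝓑) φ hφ ψ hψ hinj hsurj hex hB).rangeRestrict) ?_
    (LinearMap.surjective_rangeRestrict _)
  intro c
  rw [← exact_mapInv_delta0 φ hφ ψ hψ hinj hsurj hex hB c]
  constructor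
  · intro h
    exact congrArg Subtype.val h
  · intro h
    exact Subtype.ext h

include hφ hψ hinj hsurj hex hB in
/-- **The dimension count of the five-term sequence.** -/
theorem finrank_invariants_add [FiniteDimensional k B.ρ.invariants]
    [FiniteDimensional k (LinearMap.ker (mapH1 (𝓑 := 𝓑) φ hφ))] :
    finrank k C.ρ.invariants + finrank k A.ρ.invariants =
      finrank k B.ρ.invariants + finrank k (LinearMap.ker (mapH1 (𝓑 := 𝓑) φ hφ)) := by
  have := finiteDimensional_invariants (𝓑 := 𝓑) φ hφ ψ hψ hinj hsurj hex hB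
  have hrange : LinearMap.range (delta0 (𝓑 := 𝓑) φ hφ ψ hψ hinj hsurj hex hB) =
      LinearMap.ker (mapH1 (𝓑 := 𝓑) φ hφ) :=
    ((LinearMap.exact_iff).1 (exact_delta0_mapH1 φ hφ ψ hψ hinj hsurj hex hB)).symm
  have hker : LinearMap.ker (delta0 (𝓑 := 𝓑) φ hφ ψ hψ hinj hsurj hex hB) =
      LinearMap.range (mapInv ψ hψ) :=
    (LinearMap.exact_iff).1 (exact_mapInv_delta0 φ hφ ψ hψ hinj hsurj hex hB)
  have hker' : LinearMap.ker (mapInv ψ hψ) = LinearMap.range (mapInv φ hφ) :=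
    (LinearMap.exact_iff).1 (exact_mapInv φ hφ ψ hψ hinj hex)
  have h1 := LinearMap.finrank_range_add_finrank_ker
    (delta0 (𝓑 := 𝓑) φ hφ ψ hψ hinj hsurj hex hB)
  have h2 := LinearMap.finrank_range_add_finrank_ker (mapInv ψ hψ)
  have h3 : finrank k (LinearMap.range (mapInv φ hφ)) = finrank k A.ρ.invariants :=
    LinearMap.finrank_range_of_inj (mapInv_injective φ hφ hinj)
  rw [hrange, hker] at h1
  rw [hker', h3] at h2
  omega

end Field

end Fermat.Agent.TW.GlobalEC.FiveTerm28
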