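/-
Program TW (S56), work package WP4 "EC", brick EC6 (helper28), part 2 (abstract):
for a short exact sequence `0 → E → I → C → 0` of discrete `R[G]`-modules with `E` `p`-divisible
and a finite-dimensional discrete `𝔽_p[G]`-module `N`:

* `0 → E[p] → I[p] → C[p] → 0` is exact (objects `SpecB26.pTorsionRep`, maps `ModPSeq5.torMap`);
* `0 → Hom(N, E[p]) → Hom(N, I[p]) → Hom(N, C[p]) → 0` is an exact sequence of discrete modules
  (objects `Spec26.homRep`, maps `homMap`);
* hence (`FiveTerm28`)
  `dim Hom_G(N, C[p]) + dim Hom_G(N, E[p]) = dim Hom_G(N, I[p]) + dim ker (H¹(Hom(N, E[p])) → H¹(Hom(N, I[p])))`.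
-/
import Mathlib
import Fermat.Agent.TW.GlobalEC.SpecB26
import Fermat.Agent.TW.GlobalEC.ModPSeq5
import Fermat.Agent.TW.GlobalEC.FiveTerm28

set_option autoImplicit false
set_option linter.unusedSectionVars false

open CategoryTheory groupCohomology Module

namespace Fermat.Agent.TW.GlobalEC.HomSeq28

open Fermat.Agent.PT.PRO.LevelCoh28 Fermat.Agent.TW.GlobalEC.Spec26
open Fermat.Agent.TW.GlobalEC.SpecB26 Fermat.Agent.TW.GlobalEC.ModPSeq5
open Fermat.Agent.TW.GlobalEC.FiveTerm28

/-! ### The functor `Hom_k(N, -)` on representations -/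

section HomFunctor

variable {k G : Type} [Field k] [Group G] (N : Rep.{0} k G) {X Y Z : Rep.{0} k G}

/-- The underlying linear map of an element of `homRep N X`. -/
def toLin (h : homRep N X) : N →ₗ[k] X := h

/-- An element of `homRep N X` from a linear map. -/
def ofLin (h : N →ₗ[k] X) : homRep N X := h

@[simp] theorem toLin_ofLin (h : N →ₗ[k] X) : toLin N (ofLin N h) = h := rfl

@[simp] theorem ofLin_toLin (h : homRep N X) : ofLin N (toLin N h) = h := rfl

theorem toLin_injective : Function.Injective (toLin N (X := X)) := fun _ _ h => h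

theorem toLin_ρ (g : G) (h : homRep N X) (n : N) :
    toLin N ((homRep N X).ρ g h) n = X.ρ g (toLin N h (N.ρ g⁻¹ n)) := rfl

theorem toLin_add (h h' : homRep N X) : toLin N (h + h') = toLin N h + toLin N h' := rfl

theorem toLin_smul (r : k) (h : homRep N X) : toLin N (r • h) = r • toLin N h := rfl

theorem toLin_zero : toLin N (0 : homRep N X) = 0 := rfl

/-- Post-composition with a linear map. -/
def homMap (f : X →ₗ[k] Y) : homRep N X →ₗ[k] homRep N Y where
  toFun h := ofLin N (f.comp (toLin N h))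
  map_add' h h' := by
    apply toLin_injective
    ext n
    simp [toLin_add]
  map_smul' r h := by
    apply toLin_injective
    ext n
    simp [toLin_smul]

@[simp] theorem toLin_homMap (f : X →ₗ[k] Y) (h : homRep N X) (n : N) :
    toLin N (homMap N f h) n = f (toLin N h n) := rfl

theorem homMap_comm (f : X →ₗ[k] Y) (hf : ∀ g x, f (X.ρ g x) = Y.ρ g (f x)) (g : G)
    (h : homRep N X) : homMap N f ((homRep N X).ρ g h) = (homRep N Y).ρ g (homMap N f h) := by
  apply toLin_injective
  ext n
  rw [toLin_homMap, toLin_ρ, toLin_ρ, toLin_homMap, hf]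

theorem homMap_injective (f : X →ₗ[k] Y) (hf : Function.Injective f) :
    Function.Injective (homMap N f) := by
  intro h h' e
  apply toLin_injective
  ext n
  apply hf
  have := congrArg (fun t => toLin N t n) e
  simpa using this

theorem homMap_surjective (f : X →ₗ[k] Y) (hf : Function.Surjective f) :
    Function.Surjective (homMap N f) := by
  intro h
  obtain ⟨s, hs⟩ := f.exists_rightInverse_of_surjective (LinearMap.range_eq_top.2 hf)
  refine ⟨ofLin N (s.comp (toLin N h)), ?_⟩
  apply toLin_injective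
  ext n
  rw [toLin_homMap, toLin_ofLin, LinearMap.comp_apply]
  exact congrArg (fun t : Y →ₗ[k] Y => t (toLin N h n)) hs

theorem homMap_exact (f : X →ₗ[k] Y) (f' : Y →ₗ[k] Z) (hinj : Function.Injective f)
    (hex : ∀ y, f' y = 0 ↔ ∃ x, f x = y) (h : homRep N Y) :
    homMap N f' h = 0 ↔ ∃ h', homMap N f h' = h := by
  constructor
  · intro e
    have hmem : ∀ n, toLin N h n ∈ LinearMap.range f := fun n => by
      have := congrArg (fun t => toLin N t n) e
      simp only [toLin_homMap] at this
      exact (hex _).1 this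
    refine ⟨ofLin N (((LinearEquiv.ofInjective f hinj).symm : LinearMap.range f →ₗ[k] X).comp
      ((toLin N h).codRestrict (LinearMap.range f) hmem)), ?_⟩
    apply toLin_injective
    ext n
    rw [toLin_homMap, toLin_ofLin, LinearMap.comp_apply, LinearEquiv.coe_coe]
    have := LinearEquiv.apply_symm_apply (LinearEquiv.ofInjective f hinj)
      ((toLin N h).codRestrict (LinearMap.range f) hmem n)
    exact congrArg Subtype.val this
  · rintro ⟨h', rfl⟩
    apply toLin_injective
    ext n
    rw [toLin_homMap, toLin_homMap, toLin_zero, LinearMap.zero_apply]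
    exact (hex _).2 ⟨_, rfl⟩

/-- `Hom_k(N, X)` is discrete if `N` is finite-dimensional and discrete and `X` is discrete. -/
theorem isDiscrete_homRep {𝓑 : LevelBasis G} [Module.Finite k N] (hN : IsDiscrete 𝓑.sets N)
    (hX : IsDiscrete 𝓑.sets X) : IsDiscrete 𝓑.sets (homRep N X) := by
  intro h
  obtain ⟨s, hs⟩ := (Module.finite_def (R := k) (M := N)).1 inferInstance
  obtain ⟨U, hU, hUn, hUfix⟩ := hN.exists_fixing 𝓑.isBasis (s.finite_toSet)
  obtain ⟨V, hV, hVn, hVfix⟩ := hX.exists_fixing 𝓑.isBasis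
    ((s.finite_toSet).image (toLin N h))
  obtain ⟨W, hW, hWle⟩ := 𝓑.isBasis.directed U hU V hV
  refine ⟨W, hW, fun w hw => ?_⟩
  apply toLin_injective
  apply LinearMap.ext_on hs
  intro n hn
  rw [toLin_ρ, hUfix w⁻¹ (U.inv_mem ((hWle.trans inf_le_left) hw)) n hn]
  exact hVfix w ((hWle.trans inf_le_right) hw) _ ⟨n, hn, rfl⟩

end HomFunctor

/-! ### The `p`-torsion sequence -/

section Torsion

variable {G : Type} [Group G] {R : Type} [CommRing R] (p : ℕ) [Fact p.Prime]

theorem isDiscrete_pTorsionRep {𝓑 : LevelBasis G} {X : Rep.{0} R G} (hX : IsDiscrete 𝓑.sets X) :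
    IsDiscrete 𝓑.sets (pTorsionRep p X) := by
  intro x
  obtain ⟨U, hU, h⟩ := hX (pTorsionRep.val p X x)
  refine ⟨U, hU, fun s hs => ?_⟩
  apply pTorsionRep.val_injective
  rw [pTorsionRep.val_ρ, h s hs]

variable {E I C : Rep.{0} R G} (ι : E →ₗ[R] I) (π : I →ₗ[R] C)
  (hinj : Function.Injective ι) (hsurj : Function.Surjective π)
  (hex : ∀ x, π x = 0 ↔ ∃ b, ι b = x) (hdiv : ∀ a : E, ∃ b : E, p • b = a)

include hinj in
theorem torMap_injective' : Function.Injective (torMap p ι) := by
  intro x y h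
  apply pTorsionRep.val_injective
  apply hinj
  rw [← val_torMap, ← val_torMap, h]

include hinj hex in
theorem torMap_exact' (y : pTorsionRep p I) :
    torMap p π y = 0 ↔ ∃ x, torMap p ι x = y := by
  constructor
  · intro h0
    have h1 : π (pTorsionRep.val p I y) = 0 := by
      rw [← val_torMap, h0, val_zero]
    obtain ⟨a, ha⟩ := (hex _).1 h1
    have hpa : p • a = 0 := by
      apply hinj
      rw [map_nsmul, ha, pTorsionRep.nsmul_val, map_zero]
    refine ⟨torMk p E a hpa, ?_⟩
    apply pTorsionRep.val_injective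
    rw [val_torMap, val_torMk, ha]
  · rintro ⟨x, rfl⟩
    apply pTorsionRep.val_injective
    rw [val_torMap, val_torMap, val_zero]
    exact (hex _).2 ⟨_, rfl⟩

include hsurj hex hdiv in
/-- `I[p] → C[p]` is surjective if `E` is `p`-divisible. -/
theorem torMap_surjective' : Function.Surjective (torMap p π) := by
  intro c
  obtain ⟨b, hb⟩ := hsurj (pTorsionRep.val p C c)
  have h0 : π (p • b) = 0 := by rw [map_nsmul, hb, pTorsionRep.nsmul_val]
  obtain ⟨a, ha⟩ := (hex _).1 h0
  obtain ⟨a', ha'⟩ := hdiv a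
  have hpb : p • (b - ι a') = 0 := by
    rw [smul_sub, ← map_nsmul, ha', ha, sub_self]
  refine ⟨torMk p I (b - ι a') hpb, ?_⟩
  apply pTorsionRep.val_injective
  rw [val_torMap, val_torMk, map_sub, hb, (hex _).2 ⟨a', rfl⟩, sub_zero]

end Torsion

/-! ### The count -/

section Count

variable {G : Type} [Group G] {R : Type} [CommRing R] (p : ℕ) [Fact p.Prime]
  (𝓑 : LevelBasis G) {E I C : Rep.{0} R G} (ι : E →ₗ[R] I) (π : I →ₗ[R] C)
  (hι : ∀ g a, ι (E.ρ g a) = I.ρ g (ι a)) (hπ : ∀ g b, π (I.ρ g b) = C.ρ g (π b))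
  (hinj : Function.Injective ι) (hsurj : Function.Surjective π)
  (hex : ∀ x, π x = 0 ↔ ∃ b, ι b = x) (hdiv : ∀ a : E, ∃ b : E, p • b = a)
  (hI : IsDiscrete 𝓑.sets I)
  (N : Rep.{0} (ZMod p) G) [Module.Finite (ZMod p) N] (hN : IsDiscrete 𝓑.sets N)

/-- Equivariance of `Hom(N, E[p]) → Hom(N, I[p])`. -/
theorem homTor_comm {X Y : Rep.{0} R G} (f : X →ₗ[R] Y) (hf : ∀ g a, f (X.ρ g a) = Y.ρ g (f a))
    (g : G) (h : homRep N (pTorsionRep p X)) :
    homMap N (torMap p f) ((homRep N (pTorsionRep p X)).ρ g h) =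
      (homRep N (pTorsionRep p Y)).ρ g (homMap N (torMap p f) h) :=
  homMap_comm N _ (torMap_comm p f hf) g h

include hι hπ hinj hsurj hex hdiv hI hN in
/-- **The abstract form of (EC6).** -/
theorem eqHomRank_add
    [FiniteDimensional (ZMod p) (homRep N (pTorsionRep p I)).ρ.invariants]
    [FiniteDimensional (ZMod p) (LinearMap.ker (mapH1 (𝓑 := 𝓑) (homMap N (torMap p ι))
      (homTor_comm p N ι hι)))] :
    FiniteDimensional (ZMod p) (homRep N (pTorsionRep p C)).ρ.invariants ∧
    eqHomRank N (pTorsionRep p C) + eqHomRank N (pTorsionRep p E) =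
      eqHomRank N (pTorsionRep p I) +
        finrank (ZMod p) (LinearMap.ker (mapH1 (𝓑 := 𝓑) (homMap N (torMap p ι))
          (homTor_comm p N ι hι))) := by
  have hB : IsDiscrete 𝓑.sets (homRep N (pTorsionRep p I)) :=
    isDiscrete_homRep N hN (isDiscrete_pTorsionRep p hI)
  have h1 := homMap_injective N _ (torMap_injective' p ι hinj)
  have h2 := homMap_surjective N _ (torMap_surjective' p ι π hsurj hex hdiv)
  have h3 := homMap_exact N _ (torMap p π) (torMap_injective' p ι hinj)
    (torMap_exact' p ι π hinj hex)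
  exact ⟨finiteDimensional_invariants (𝓑 := 𝓑) _ (homTor_comm p N ι hι) _
      (homTor_comm p N π hπ) h1 h2 h3 hB,
    finrank_invariants_add (𝓑 := 𝓑) _ (homTor_comm p N ι hι) _ (homTor_comm p N π hπ) h1 h2 h3 hB⟩

end Count

end Fermat.Agent.TW.GlobalEC.HomSeq28
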