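/-
Program TW (S56), work package WP4 "EC", brick EC6 (helper28), part 4 (abstract):

* `torHom` : the map induced on `p`-torsion by an additive map between modules over possibly
  different groups (and rings);
* `theta`  : for a character `χ`, a `χ`-equivariant perfect pairing `N × M → k` and a module
  `L ≅ k(χ)`, the equivariant isomorphism `θ : M ≃ Hom_k(N, L)`, `θ m f = μ ⟨f, m⟩`
  (in the application `N = M^*(1)`, `L = μ_p`, so this is `M ≅ Hom(M^*(1), μ_p)`);
* coboundaries and invariants are transported along equivariant isomorphisms.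
-/
import Mathlib
import Fermat.Agent.TW.GlobalEC.HomSeq28

set_option autoImplicit false
set_option linter.unusedSectionVars false

open CategoryTheory groupCohomology Module

namespace Fermat.Agent.TW.GlobalEC.TwistIso28

open Fermat.Agent.TW.GlobalEC.Spec26 Fermat.Agent.TW.GlobalEC.SpecB26
open Fermat.Agent.TW.GlobalEC.ModPSeq5 Fermat.Agent.TW.GlobalEC.HomSeq28

/-! ### Maps on `p`-torsion -/

section TorHom

variable {G G' : Type} [Group G] [Group G'] {R R' : Type} [CommRing R] [CommRing R']
  (p : ℕ) [Fact p.Prime] {X : Rep.{0} R G} {Y : Rep.{0} R' G'} (f : X →+ Y)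

/-- The map induced on `p`-torsion, additively. -/
def torHomAdd : pTorsionRep p X →+ pTorsionRep p Y where
  toFun x := torMk p Y (f (pTorsionRep.val p X x)) (by
    rw [← map_nsmul, pTorsionRep.nsmul_val, map_zero])
  map_zero' := pTorsionRep.val_injective p Y (by
    rw [val_torMk, val_zero, val_zero, map_zero])
  map_add' x y := pTorsionRep.val_injective p Y (by
    rw [val_torMk, val_add, val_add, val_torMk, val_torMk, map_add])

/-- The map induced on `p`-torsion. -/
def torHom : pTorsionRep p X →ₗ[ZMod p] pTorsionRep p Y := (torHomAdd p f).toZModLinearMap p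

theorem val_torHom (x : pTorsionRep p X) :
    pTorsionRep.val p Y (torHom p f x) = f (pTorsionRep.val p X x) := rfl

theorem torHom_injective (hf : Function.Injective f) : Function.Injective (torHom p f) := by
  intro x y h
  apply pTorsionRep.val_injective
  apply hf
  rw [← val_torHom, ← val_torHom, h]

end TorHom

/-! ### The isomorphism `θ` -/

section Theta

variable {k K : Type} [Field k] [Group K] (χ : K →* kˣ) (M N L : Rep.{0} k K)
  (pair : N ≃ₗ[k] Module.Dual k M)
  (hpair : ∀ g f m, pair (N.ρ g f) (M.ρ g m) = (χ g : k) * pair f m)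
  (μ : k ≃ₗ[k] L) (hμ : ∀ g a, L.ρ g (μ a) = μ ((χ g : k) * a))

/-- `θ m f = μ ⟨f, m⟩`. -/
def theta : M →ₗ[k] homRep N L where
  toFun m := ofLin N (μ.toLinearMap ∘ₗ (pair.toLinearMap.flip m))
  map_add' m m' := by
    apply toLin_injective
    ext f
    simp [toLin_add]
  map_smul' c m := by
    apply toLin_injective
    ext f
    simp only [toLin_ofLin, LinearMap.coe_comp, LinearEquiv.coe_coe, Function.comp_apply,
      LinearMap.flip_apply, map_smul, LinearMap.smul_apply, RingHom.id_apply, toLin_smul]

theorem toLin_theta (m : M) (f : N) : toLin N (theta M N L pair μ m) f = μ (pair f m) := rfl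

include hpair hμ in
theorem theta_comm (g : K) (m : M) :
    theta M N L pair μ (M.ρ g m) = (homRep N L).ρ g (theta M N L pair μ m) := by
  apply toLin_injective
  ext f
  rw [toLin_theta, toLin_ρ, toLin_theta, hμ]
  congr 1
  have h1 := hpair g (N.ρ g⁻¹ f) m
  have h2 : N.ρ g (N.ρ g⁻¹ f) = f := by
    rw [← Module.End.mul_apply, ← map_mul, mul_inv_cancel, map_one, Module.End.one_apply]
  rw [h2] at h1
  exact h1

theorem theta_injective : Function.Injective (theta M N L pair μ) := by
  rw [← LinearMap.ker_eq_bot, LinearMap.ker_eq_bot']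
  intro m hm
  by_contra hne
  obtain ⟨φ, hφ⟩ : ∃ φ : Module.Dual k M, φ m ≠ 0 := by
    by_contra hcon
    exact hne ((Module.forall_dual_apply_eq_zero_iff k m).1 fun φ => by
      by_contra h
      exact hcon ⟨φ, h⟩)
  have h1 := congrArg (fun t => toLin N t (pair.symm φ)) hm
  simp only [toLin_theta, LinearEquiv.apply_symm_apply, toLin_zero, LinearMap.zero_apply] at h1
  exact hφ (μ.map_eq_zero_iff.1 h1)

theorem theta_surjective [FiniteDimensional k M] : Function.Surjective (theta M N L pair μ) := by
  intro F
  -- the functional `φ ↦ μ⁻¹ (F (pair⁻¹ φ))` on the dual of `M` is evaluation at some `m`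
  let Φ : Module.Dual k (Module.Dual k M) :=
    μ.symm.toLinearMap ∘ₗ toLin N F ∘ₗ pair.symm.toLinearMap
  refine ⟨(Module.evalEquiv k M).symm Φ, ?_⟩
  apply toLin_injective
  ext f
  rw [toLin_theta]
  have h1 : pair f ((Module.evalEquiv k M).symm Φ) = Φ (pair f) := by
    have := congrArg (fun t : Module.Dual k (Module.Dual k M) => t (pair f))
      ((Module.evalEquiv k M).apply_symm_apply Φ)
    simp only [Module.evalEquiv_apply, Module.Dual.eval_apply] at this
    exact this
  rw [h1]
  simp [Φ]

/-- `θ` as a linear equivalence. -/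
noncomputable def thetaEquiv [FiniteDimensional k M] : M ≃ₗ[k] homRep N L :=
  LinearEquiv.ofBijective (theta M N L pair μ)
    ⟨theta_injective M N L pair μ, theta_surjective M N L pair μ⟩

@[simp] theorem thetaEquiv_apply [FiniteDimensional k M] (m : M) :
    thetaEquiv M N L pair μ m = theta M N L pair μ m := rfl

end Theta

/-! ### Transport along equivariant isomorphisms -/

section Transport

variable {k K : Type} [CommRing k] [Group K] {A B : Rep.{0} k K} (e : A ≃ₗ[k] B)
  (he : ∀ g a, e (A.ρ g a) = B.ρ g (e a))

include he in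
theorem comp_mem_coboundaries₁_iff (x : K → A) :
    (fun g => e (x g)) ∈ coboundaries₁ B ↔ x ∈ coboundaries₁ A := by
  constructor
  · rintro ⟨b, hb⟩
    refine ⟨e.symm b, ?_⟩
    funext g
    apply e.injective
    have := congrFun hb g
    rw [d₀₁_hom_apply] at this ⊢
    rw [map_sub, he, e.apply_symm_apply, this]
  · rintro ⟨a, rfl⟩
    refine ⟨e a, ?_⟩
    funext g
    rw [d₀₁_hom_apply, d₀₁_hom_apply, map_sub, he]

include he in
/-- The invariants of isomorphic representations are isomorphic. -/
noncomputable def invEquiv : A.ρ.invariants ≃ₗ[k] B.ρ.invariants :=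
  LinearEquiv.ofBijective
    ((e.toLinearMap.comp (Submodule.subtype _)).codRestrict B.ρ.invariants
      (fun a g => by
        change B.ρ g (e a.1) = e a.1
        rw [← he, a.2 g]))
    ⟨fun a a' h => Subtype.ext (e.injective (congrArg Subtype.val h)),
     fun b => ⟨⟨e.symm b.1, fun g => by
        apply e.injective
        rw [he, e.apply_symm_apply, b.2 g]⟩, Subtype.ext (e.apply_symm_apply b.1)⟩⟩

end Transport

end Fermat.Agent.TW.GlobalEC.TwistIso28
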