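/-
Program TW (S56), work package WP4 "EC", brick EC6 (helper28), part 6 (PT glue):
the `p`-torsion of `E_S` and of `ℚ̄_qˣ` is the line `μ_p ≅ 𝔽_p(χ_cyc)`.

* `lineEquiv` (abstract): an additive injection `e : ZMod p → X` onto the `p`-torsion of a module
  `X` gives `ZMod p ≃ₗ X[p]` (`SpecB26.pTorsionRep`);
* `muE p S hpS : ZMod p ≃ₗ (ES S)[p]`, `a ↦ ζ^a`, with `g • muE a = muE (χ(g) a)`;
* `muLoc p S hpS q : ZMod p ≃ₗ (ℚ̄_qˣ)[p]`, `a ↦ ι_q(ζ)^a`, with `h • muLoc a = muLoc (χ(r_q h) a)`,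
  and `locE (muE a) = muLoc a`.
-/
import Mathlib
import Fermat.Agent.PT.GLUE.Objects21
import Fermat.Agent.PT.GLUE.ESDivisible27
import Fermat.Agent.PT.BR.HomMu7
import Fermat.Agent.TW.GlobalEC.TwistIso28

set_option autoImplicit false
set_option linter.unusedSectionVars false

open CategoryTheory groupCohomology Module ExtCitation

namespace Fermat.Agent.TW.GlobalEC.MuLine28

open Fermat.Agent.PT.GLUE.Objects21 Fermat.Agent.PT.GLUE.ESDivisible27 Fermat.Agent.PT.BR.HomMu7
open Fermat.Agent.TW.GlobalEC.Spec26 Fermat.Agent.TW.GlobalEC.SpecB26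
open Fermat.Agent.TW.GlobalEC.ModPSeq5 Fermat.Agent.TW.GlobalEC.TwistIso28
open Fermat.Agent.S14.Fields (zeta zeta_spec)

local notation "Qbar" => AlgebraicClosure ℚ
local notation "Γ" => (AlgebraicClosure ℚ ≃ₐ[ℚ] AlgebraicClosure ℚ)

/-! ### Lines in the `p`-torsion -/

section Line

variable {K : Type} [Group K] {R : Type} [CommRing R] (p : ℕ) [Fact p.Prime] (X : Rep.{0} R K)
  (e : ZMod p →+ X)

theorem nsmul_apply_eq_zero (a : ZMod p) : p • e a = 0 := by
  rw [← map_nsmul, nsmul_eq_mul, CharP.cast_eq_zero (ZMod p) p, zero_mul, map_zero]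

/-- `a ↦ e a` with values in the `p`-torsion, additively. -/
def lineAdd : ZMod p →+ pTorsionRep p X where
  toFun a := torMk p X (e a) (nsmul_apply_eq_zero p X e a)
  map_zero' := pTorsionRep.val_injective p X (by rw [val_torMk, map_zero, val_zero])
  map_add' a b := pTorsionRep.val_injective p X (by
    rw [val_torMk, val_add, val_torMk, val_torMk, map_add])

variable (he_inj : Function.Injective e) (he_surj : ∀ x : X, p • x = 0 → ∃ a, e a = x)

/-- The `p`-torsion of `X` as a line. -/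
noncomputable def lineEquiv : ZMod p ≃ₗ[ZMod p] pTorsionRep p X :=
  LinearEquiv.ofBijective ((lineAdd p X e).toZModLinearMap p)
    ⟨fun a b h => he_inj (congrArg (pTorsionRep.val p X) h),
     fun x => by
      obtain ⟨a, ha⟩ := he_surj (pTorsionRep.val p X x) (pTorsionRep.nsmul_val p X x)
      exact ⟨a, pTorsionRep.val_injective p X ha⟩⟩

theorem val_lineEquiv (a : ZMod p) :
    pTorsionRep.val p X (lineEquiv p X e he_inj he_surj a) = e a := rfl

end Line

variable (p : ℕ) [Fact p.Prime] (S : Finset Nat.Primes) (hpS : pPrime p ∈ S)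

/-! ### `μ_p ⊆ E_S` -/

theorem toMul_expZeta_pow (a : ZMod p) : Additive.toMul (expZeta p a) ^ p = 1 := by
  have h : p • expZeta p a = 0 := by
    rw [← map_nsmul, nsmul_eq_mul, CharP.cast_eq_zero (ZMod p) p, zero_mul, map_zero]
  have := congrArg Additive.toMul h
  rwa [toMul_nsmul, toMul_zero] at this

/-- `ζ^a` as an element of `E_S`. -/
noncomputable def zetaESAdd : ZMod p →+ ES S where
  toFun a := Additive.ofMul (⟨Additive.toMul (expZeta p a),
    mem_ESgroup_of_pow_eq_one (Fact.out : p.Prime) hpS _ (toMul_expZeta_pow p a)⟩ : ESgroup S)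
  map_zero' := by
    refine (Additive.toMul (α := ESgroup S)).injective ?_
    apply Subtype.ext
    change Additive.toMul (expZeta p 0) = 1
    rw [map_zero, toMul_zero]
  map_add' a b := by
    refine (Additive.toMul (α := ESgroup S)).injective ?_
    apply Subtype.ext
    change Additive.toMul (expZeta p (a + b)) =
      Additive.toMul (expZeta p a) * Additive.toMul (expZeta p b)
    rw [map_add, toMul_add]

theorem coe_zetaESAdd (a : ZMod p) :
    ((Additive.toMul (α := ESgroup S) (zetaESAdd p S hpS a) : ESgroup S) : Qbarˣ) =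
      Additive.toMul (expZeta p a) := rfl

theorem zetaESAdd_injective : Function.Injective (zetaESAdd p S hpS) := by
  intro a b h
  apply expZeta_injective p
  apply Additive.toMul.injective
  rw [← coe_zetaESAdd p S hpS, ← coe_zetaESAdd p S hpS, h]

theorem zetaESAdd_surjective (x : ES S) (hx : p • x = 0) : ∃ a, zetaESAdd p S hpS a = x := by
  have h1 : p • (Additive.ofMul ((Additive.toMul (α := ESgroup S) x : ESgroup S) : Qbarˣ) :
      Additive Qbarˣ) = 0 := by
    have := congrArg (fun y : ES S => Additive.ofMul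
      ((Additive.toMul (α := ESgroup S) y : ESgroup S) : Qbarˣ)) hx
    exact this
  obtain ⟨a, ha⟩ := exists_expZeta_eq p h1
  refine ⟨a, ?_⟩
  refine (Additive.toMul (α := ESgroup S)).injective ?_
  apply Subtype.ext
  rw [coe_zetaESAdd, ha]
  rfl

theorem ρ_zetaESAdd (g : Γ) (a : ZMod p) :
    (ES S).ρ g (zetaESAdd p S hpS a) =
      zetaESAdd p S hpS (((cycloChar p g : (ZMod p)ˣ) : ZMod p) * a) := by
  refine (Additive.toMul (α := ESgroup S)).injective ?_
  apply Subtype.ext
  have := congrArg Additive.toMul (smul_expZeta p g a)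
  exact this

/-- `μ_p = E_S[p]` as a line. -/
noncomputable def muE : ZMod p ≃ₗ[ZMod p] pTorsionRep p (ES S) :=
  lineEquiv p (ES S) (zetaESAdd p S hpS) (zetaESAdd_injective p S hpS)
    (zetaESAdd_surjective p S hpS)

theorem val_muE (a : ZMod p) :
    pTorsionRep.val p (ES S) (muE p S hpS a) = zetaESAdd p S hpS a := rfl

theorem ρ_muE (g : Γ) (a : ZMod p) :
    (pTorsionRep p (ES S)).ρ g (muE p S hpS a) =
      muE p S hpS (((cycloChar p g : (ZMod p)ˣ) : ZMod p) * a) := by
  apply pTorsionRep.val_injective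
  rw [pTorsionRep.val_ρ, val_muE, val_muE, ρ_zetaESAdd]

/-! ### `μ_p ⊆ ℚ̄_qˣ` -/

section Local

variable (q : ℕ) [Fact q.Prime]

local notation "Γq" => (PadicAlgCl q ≃ₐ[ℚ_[q]] PadicAlgCl q)

/-- `ι_q(ζ)^a`. -/
noncomputable def zetaLocAdd : ZMod p →+ unitsLoc q :=
  (locE S q : ES S →ₗ[ℤ] unitsLoc q).toAddMonoidHom.comp (zetaESAdd p S hpS)

theorem zetaLocAdd_apply (a : ZMod p) :
    zetaLocAdd p S hpS q a = locE S q (zetaESAdd p S hpS a) := rfl

theorem zetaLocAdd_injective : Function.Injective (zetaLocAdd p S hpS q) :=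
  (locE_injective S q).comp (zetaESAdd_injective p S hpS)

theorem coe_zetaLocAdd_natCast (n : ℕ) :
    (((Additive.toMul (α := (PadicAlgCl q)ˣ) (zetaLocAdd p S hpS q (n : ZMod p))) :
      (PadicAlgCl q)ˣ) : PadicAlgCl q) = padicEmbedding q (zeta p) ^ n := by
  rw [zetaLocAdd_apply, locE_apply, coe_zetaESAdd, expZeta_natCast, toMul_ofMul,
    Units.val_pow_eq_pow_val, coe_zetaU, map_pow]

theorem zetaLocAdd_surjective (x : unitsLoc q) (hx : p • x = 0) :
    ∃ a, zetaLocAdd p S hpS q a = x := by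
  have : NeZero p := ⟨(Fact.out : p.Prime).ne_zero⟩
  have hprim : IsPrimitiveRoot (padicEmbedding q (zeta p)) p :=
    (zeta_spec p).map_of_injective (padicEmbedding q).injective
  have hx' : p • (show Additive (PadicAlgCl q)ˣ from x) = 0 := hx
  have hu : (((Additive.toMul (α := (PadicAlgCl q)ˣ) x : (PadicAlgCl q)ˣ) : PadicAlgCl q)) ^ p
      = 1 := by
    have := congrArg (fun y : Additive (PadicAlgCl q)ˣ =>
      (((Additive.toMul y : (PadicAlgCl q)ˣ)) : PadicAlgCl q)) hx'
    simp only [toMul_zero, Units.val_one] at this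
    exact this
  obtain ⟨i, -, hi⟩ := hprim.eq_pow_of_pow_eq_one hu
  refine ⟨(i : ZMod p), ?_⟩
  refine (Additive.toMul (α := (PadicAlgCl q)ˣ)).injective ?_
  apply Units.ext
  rw [coe_zetaLocAdd_natCast, hi]

theorem ρ_zetaLocAdd (h : Γq) (a : ZMod p) :
    (unitsLoc q).ρ h (zetaLocAdd p S hpS q a) =
      zetaLocAdd p S hpS q
        (((cycloChar p (localGaloisToGlobal q h) : (ZMod p)ˣ) : ZMod p) * a) := by
  rw [zetaLocAdd_apply, ← locE_ρ, ρ_zetaESAdd, zetaLocAdd_apply]

/-- `μ_p = (ℚ̄_qˣ)[p]` as a line. -/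
noncomputable def muLoc : ZMod p ≃ₗ[ZMod p] pTorsionRep p (unitsLoc q) :=
  lineEquiv p (unitsLoc q) (zetaLocAdd p S hpS q) (zetaLocAdd_injective p S hpS q)
    (zetaLocAdd_surjective p S hpS q)

theorem val_muLoc (a : ZMod p) :
    pTorsionRep.val p (unitsLoc q) (muLoc p S hpS q a) =
      locE S q (pTorsionRep.val p (ES S) (muE p S hpS a)) := rfl

theorem ρ_muLoc (h : Γq) (a : ZMod p) :
    (pTorsionRep p (unitsLoc q)).ρ h (muLoc p S hpS q a) =
      muLoc p S hpS q
        (((cycloChar p (localGaloisToGlobal q h) : (ZMod p)ˣ) : ZMod p) * a) := by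
  apply pTorsionRep.val_injective
  rw [pTorsionRep.val_ρ]
  exact ρ_zetaLocAdd p S hpS q h a

end Local

end Fermat.Agent.TW.GlobalEC.MuLine28
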