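/-
Program TW (S56), work package WP4 "EC", brick EC6 (helper28), part 5:
`Hom_k(N, (∏ᵢ Aᵢ)[p])` for the product `Objects21.piRep A` of a family of `G`-modules:
projections, assembling, coboundaries and invariants are computed componentwise.
-/
import Mathlib
import Fermat.Agent.PT.GLUE.Objects21
import Fermat.Agent.TW.GlobalEC.HomSeq28

set_option autoImplicit false
set_option linter.unusedSectionVars false

open CategoryTheory groupCohomology Module

namespace Fermat.Agent.TW.GlobalEC.PiHom28

open Fermat.Agent.PT.PRO.LevelCoh28 Fermat.Agent.PT.GLUE.Objects21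
open Fermat.Agent.TW.GlobalEC.Spec26 Fermat.Agent.TW.GlobalEC.SpecB26
open Fermat.Agent.TW.GlobalEC.ModPSeq5 Fermat.Agent.TW.GlobalEC.HomSeq28

variable {G : Type} [Group G] {R : Type} [CommRing R] (p : ℕ) [Fact p.Prime] {ι : Type}
  (A : ι → Rep.{0} R G) (N : Rep.{0} (ZMod p) G)

/-- The projection `∏ A → A i`. -/
noncomputable def projLin (i : ι) : piRep A →ₗ[R] A i :=
  (LinearMap.proj i).comp (piEquiv A).toLinearMap

theorem projLin_apply (i : ι) (x : piRep A) : projLin A i x = piEquiv A x i := rfl

theorem projLin_ρ (i : ι) (g : G) (x : piRep A) :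
    projLin A i ((piRep A).ρ g x) = (A i).ρ g (projLin A i x) := piEquiv_ρ A g x i

/-- The projection `Hom(N, (∏ A)[p]) → Hom(N, (A i)[p])`. -/
noncomputable def projHom (i : ι) :
    homRep N (pTorsionRep p (piRep A)) →ₗ[ZMod p] homRep N (pTorsionRep p (A i)) :=
  homMap N (torMap p (projLin A i))

theorem projHom_comm (i : ι) (g : G) (F : homRep N (pTorsionRep p (piRep A))) :
    projHom p A N i ((homRep N (pTorsionRep p (piRep A))).ρ g F) =
      (homRep N (pTorsionRep p (A i))).ρ g (projHom p A N i F) :=
  homMap_comm N _ (torMap_comm p _ (projLin_ρ A i)) g F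

theorem val_toLin_projHom (i : ι) (F : homRep N (pTorsionRep p (piRep A))) (n : N) :
    pTorsionRep.val p (A i) (toLin N (projHom p A N i F) n) =
      piEquiv A (pTorsionRep.val p (piRep A) (toLin N F n)) i := rfl

theorem projHom_jointly_injective {F F' : homRep N (pTorsionRep p (piRep A))}
    (h : ∀ i, projHom p A N i F = projHom p A N i F') : F = F' := by
  apply toLin_injective
  ext n
  apply pTorsionRep.val_injective
  apply (piEquiv A).injective
  funext i
  rw [← val_toLin_projHom, ← val_toLin_projHom, h i]

/-! ### Assembling -/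

section Assemble

variable {p A N} (F : ∀ i, homRep N (pTorsionRep p (A i)))

/-- The family `(F i n)ᵢ` as an element of `(∏ A)[p]`. -/
noncomputable def assembleElt (n : N) : pTorsionRep p (piRep A) :=
  torMk p (piRep A) ((piEquiv A).symm fun i => pTorsionRep.val p (A i) (toLin N (F i) n)) (by
    apply (piEquiv A).injective
    rw [map_nsmul, LinearEquiv.apply_symm_apply, map_zero]
    funext i
    rw [Pi.smul_apply, pTorsionRep.nsmul_val]
    rfl)

theorem piEquiv_val_assembleElt (n : N) (i : ι) :
    piEquiv A (pTorsionRep.val p (piRep A) (assembleElt F n)) i =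
      pTorsionRep.val p (A i) (toLin N (F i) n) := by
  rw [assembleElt, val_torMk, LinearEquiv.apply_symm_apply]

/-- Assembling, additively. -/
noncomputable def assembleAdd : N →+ pTorsionRep p (piRep A) where
  toFun n := assembleElt F n
  map_zero' := by
    apply pTorsionRep.val_injective
    apply (piEquiv A).injective
    funext i
    rw [piEquiv_val_assembleElt, map_zero, val_zero, val_zero, map_zero]
    rfl
  map_add' n n' := by
    apply pTorsionRep.val_injective
    apply (piEquiv A).injective
    funext i
    simp only [piEquiv_val_assembleElt, val_add, map_add, Pi.add_apply]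

/-- The element of `Hom(N, (∏ A)[p])` with components `F i`. -/
noncomputable def assemble : homRep N (pTorsionRep p (piRep A)) :=
  ofLin N ((assembleAdd F).toZModLinearMap p)

theorem projHom_assemble (i : ι) : projHom p A N i (assemble F) = F i := by
  apply toLin_injective
  ext n
  apply pTorsionRep.val_injective
  rw [val_toLin_projHom]
  exact piEquiv_val_assembleElt F n i

end Assemble

/-! ### Coboundaries and invariants -/

theorem mem_coboundaries₁_iff (X : G → homRep N (pTorsionRep p (piRep A))) :
    X ∈ coboundaries₁ (homRep N (pTorsionRep p (piRep A))) ↔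
      ∀ i, (fun g => projHom p A N i (X g)) ∈ coboundaries₁ (homRep N (pTorsionRep p (A i))) := by
  constructor
  · rintro ⟨F, rfl⟩ i
    refine ⟨projHom p A N i F, ?_⟩
    funext g
    rw [d₀₁_hom_apply, d₀₁_hom_apply, map_sub, projHom_comm]
  · intro h
    choose F hF using h
    refine ⟨assemble F, ?_⟩
    funext g
    apply projHom_jointly_injective
    intro i
    have := congrFun (hF i) g
    rw [d₀₁_hom_apply] at this
    rw [d₀₁_hom_apply, map_sub, projHom_comm, projHom_assemble, this]

theorem mem_invariants_iff (F : homRep N (pTorsionRep p (piRep A))) :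
    F ∈ (homRep N (pTorsionRep p (piRep A))).ρ.invariants ↔
      ∀ i, projHom p A N i F ∈ (homRep N (pTorsionRep p (A i))).ρ.invariants := by
  constructor
  · intro h i g
    rw [← projHom_comm, h g]
  · intro h g
    apply projHom_jointly_injective
    intro i
    rw [projHom_comm, h i g]

/-- The invariants of `Hom(N, (∏ A)[p])` are the product of the invariants of the factors. -/
noncomputable def invPiEquiv : (homRep N (pTorsionRep p (piRep A))).ρ.invariants ≃ₗ[ZMod p]
    (∀ i, (homRep N (pTorsionRep p (A i))).ρ.invariants) :=
  LinearEquiv.ofBijective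
    (LinearMap.pi fun i => ((projHom p A N i).comp (Submodule.subtype _)).codRestrict _
      (fun F => (mem_invariants_iff p A N F.1).1 F.2 i))
    ⟨fun F F' h => Subtype.ext (projHom_jointly_injective p A N fun i =>
        congrArg Subtype.val (congrFun h i)),
     fun F => ⟨⟨assemble fun i => (F i).1, (mem_invariants_iff p A N _).2 fun i => by
        rw [projHom_assemble]; exact (F i).2⟩, funext fun i => Subtype.ext (projHom_assemble _ i)⟩⟩

end Fermat.Agent.TW.GlobalEC.PiHom28
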