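/-
Program TW (S56), work package WP4 "EC", brick EC6 (helper28), part 3 (abstract):
Frobenius reciprocity and the injectivity half of Shapiro's lemma for
`Hom_k(N, (Coind^{sm} U)[p])`.

`r : H →* G`, `𝓑` a level basis of `G`, `U` an `H`-module, `sm = SmCoind21.smCoind r 𝓑 U`,
`N` a discrete `𝔽_p[G]`-module.  With `evHom : Hom(N, sm[p]) → Hom(N|_H, U[p])`,
`F ↦ ev ∘ F` (`r`-equivariant):

* `lift_spec` : if `X` is a level 1-cocycle with values in `Hom(N, sm[p])` and
  `evHom (X (r h)) = h • a - a` for all `h : H`, then `X γ = γ • F - F` for the explicit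
  `F n = (g ↦ a (g n) + ev (X g (g n)))`;
* `mem_coboundaries₁_of_evHom` : hence `X` is a coboundary as soon as `evHom ∘ X ∘ r` is one
  (injectivity of `H¹(G, Hom(N, sm[p])) → H¹(H, Hom(N, U[p]))`);
* `evInv` : `Hom_G(N, sm[p]) ≃ Hom_H(N, U[p])` (Frobenius reciprocity).
-/
import Mathlib
import Fermat.Agent.PT.GLUE.SmCoind21
import Fermat.Agent.TW.GlobalEC.HomSeq28

set_option autoImplicit false
set_option linter.unusedSectionVars false

open CategoryTheory groupCohomology Module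

namespace Fermat.Agent.TW.GlobalEC.ShapiroInj28

open Fermat.Agent.PT.PRO.LevelCoh28 Fermat.Agent.PT.GLUE.SmCoind21
open Fermat.Agent.TW.GlobalEC.Spec26 Fermat.Agent.TW.GlobalEC.SpecB26
open Fermat.Agent.TW.GlobalEC.ModPSeq5 Fermat.Agent.TW.GlobalEC.HomSeq28

variable {G H : Type} [Group G] [Group H] (r : H →* G) (𝓑 : LevelBasis G) {R : Type} [CommRing R]
  (U : Rep.{0} R H) (p : ℕ) [Fact p.Prime] (N : Rep.{0} (ZMod p) G)

/-! ### Preliminaries -/

theorem toFun_nsmul (n : ℕ) (f : smCoind r 𝓑 U) (g : G) :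
    toFun r 𝓑 U (n • f) g = n • toFun r 𝓑 U f g := by
  induction n with
  | zero => simp
  | succ n ih => rw [succ_nsmul, succ_nsmul, toFun_add, ih]

theorem val_sub {K : Type} [Group K] (X : Rep.{0} R K) (x y : pTorsionRep p X) :
    pTorsionRep.val p X (x - y) = pTorsionRep.val p X x - pTorsionRep.val p X y := by
  rw [eq_sub_iff_add_eq, ← val_add, sub_add_cancel]

/-- Evaluation at `1` on `p`-torsion, additively. -/
noncomputable def evTorAdd : pTorsionRep p (smCoind r 𝓑 U) →+ pTorsionRep p U where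
  toFun x := torMk p U (ev r 𝓑 U (pTorsionRep.val p _ x)) (by
    rw [← map_nsmul, pTorsionRep.nsmul_val, map_zero])
  map_zero' := pTorsionRep.val_injective p U (by
    rw [val_torMk, val_zero, val_zero, map_zero])
  map_add' x y := pTorsionRep.val_injective p U (by
    rw [val_torMk, val_add, val_add, val_torMk, val_torMk, map_add])

/-- Evaluation at `1` on `p`-torsion. -/
noncomputable def evTor : pTorsionRep p (smCoind r 𝓑 U) →ₗ[ZMod p] pTorsionRep p U :=
  (evTorAdd r 𝓑 U p).toZModLinearMap p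

theorem val_evTor (x : pTorsionRep p (smCoind r 𝓑 U)) :
    pTorsionRep.val p U (evTor r 𝓑 U p x) = ev r 𝓑 U (pTorsionRep.val p _ x) := rfl

theorem evTor_ρ (h : H) (x : pTorsionRep p (smCoind r 𝓑 U)) :
    evTor r 𝓑 U p ((pTorsionRep p (smCoind r 𝓑 U)).ρ (r h) x) =
      (pTorsionRep p U).ρ h (evTor r 𝓑 U p x) := by
  apply pTorsionRep.val_injective
  rw [val_evTor, pTorsionRep.val_ρ, ev_ρ, pTorsionRep.val_ρ, val_evTor]

/-- `F ↦ ev ∘ F`. -/
noncomputable def evHom : homRep N (pTorsionRep p (smCoind r 𝓑 U)) →ₗ[ZMod p]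
    homRep (Rep.res r N) (pTorsionRep p U) where
  toFun F := ofLin (Rep.res r N) ((evTor r 𝓑 U p).comp (toLin N F))
  map_add' F F' := by
    apply toLin_injective
    ext n
    simp [toLin_add]
  map_smul' c F := by
    apply toLin_injective
    ext n
    simp [toLin_smul]

theorem toLin_evHom (F : homRep N (pTorsionRep p (smCoind r 𝓑 U))) (n : N) :
    toLin (Rep.res r N) (evHom r 𝓑 U p N F) n = evTor r 𝓑 U p (toLin N F n) := rfl

theorem evHom_ρ (h : H) (F : homRep N (pTorsionRep p (smCoind r 𝓑 U))) :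
    evHom r 𝓑 U p N ((homRep N (pTorsionRep p (smCoind r 𝓑 U))).ρ (r h) F) =
      (homRep (Rep.res r N) (pTorsionRep p U)).ρ h (evHom r 𝓑 U p N F) := by
  apply toLin_injective
  ext n
  rw [toLin_evHom, toLin_ρ, toLin_ρ, toLin_evHom, evTor_ρ]
  congr 3
  change N.ρ (r h)⁻¹ n = N.ρ (r h⁻¹) n
  rw [show r h⁻¹ = (r h)⁻¹ from map_inv r h]

theorem ρ_inv_ρ {k K : Type} [CommRing k] [Group K] (N : Rep.{0} k K) (g : K) (n : N) :
    N.ρ g⁻¹ (N.ρ g n) = n := by
  rw [← Module.End.mul_apply, ← map_mul, inv_mul_cancel, map_one, Module.End.one_apply]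

/-! ### The explicit primitive -/

section Lift

variable {r 𝓑 U p N}
variable (a : homRep (Rep.res r N) (pTorsionRep p U))
  (X : G → homRep N (pTorsionRep p (smCoind r 𝓑 U)))

/-- The function `g ↦ a (g n) + ev (X g (g n))`. -/
noncomputable def liftFun (n : N) (g : G) : U :=
  pTorsionRep.val p U (toLin (Rep.res r N) a (N.ρ g n)) +
    ev r 𝓑 U (pTorsionRep.val p _ (toLin N (X g) (N.ρ g n)))

theorem liftFun_add (n n' : N) (g : G) :
    liftFun a X (n + n') g = liftFun a X n g + liftFun a X n' g := by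
  simp only [liftFun, map_add, val_add]
  abel

theorem nsmul_liftFun (n : N) (g : G) : p • liftFun a X n g = 0 := by
  rw [liftFun, smul_add, ← map_nsmul, pTorsionRep.nsmul_val, pTorsionRep.nsmul_val, map_zero,
    add_zero]

variable (hX : X ∈ cocycles₁ (homRep N (pTorsionRep p (smCoind r 𝓑 U))))
  (ha : ∀ h : H, evHom r 𝓑 U p N (X (r h)) =
    (homRep (Rep.res r N) (pTorsionRep p U)).ρ h a - a)

include hX ha in
theorem liftFun_equivariant (n : N) (h : H) (g : G) :
    liftFun a X n (r h * g) = U.ρ h (liftFun a X n g) := by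
  have hc := (mem_cocycles₁_iff X).1 hX (r h) g
  -- the value of the key hypothesis at `g n`
  have key : ev r 𝓑 U (pTorsionRep.val p _ (toLin N (X (r h)) (N.ρ (r h) (N.ρ g n)))) =
      U.ρ h (pTorsionRep.val p U (toLin (Rep.res r N) a (N.ρ g n))) -
        pTorsionRep.val p U (toLin (Rep.res r N) a (N.ρ (r h) (N.ρ g n))) := by
    have h1 : ev r 𝓑 U (pTorsionRep.val p _ (toLin N (X (r h)) (N.ρ (r h) (N.ρ g n)))) =
        pTorsionRep.val p U (toLin (Rep.res r N)
          ((homRep (Rep.res r N) (pTorsionRep p U)).ρ h a - a) (N.ρ (r h) (N.ρ g n))) :=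
      congrArg (fun t => pTorsionRep.val p U
        (toLin (Rep.res r N) t (N.ρ (r h) (N.ρ g n)))) (ha h)
    rw [h1]
    have h2 : toLin (Rep.res r N) ((homRep (Rep.res r N) (pTorsionRep p U)).ρ h a - a)
        (N.ρ (r h) (N.ρ g n)) =
        (pTorsionRep p U).ρ h (toLin (Rep.res r N) a (N.ρ g n)) -
          toLin (Rep.res r N) a (N.ρ (r h) (N.ρ g n)) := by
      have h3 : toLin (Rep.res r N) ((homRep (Rep.res r N) (pTorsionRep p U)).ρ h a)
          (N.ρ (r h) (N.ρ g n)) = (pTorsionRep p U).ρ h (toLin (Rep.res r N) a (N.ρ g n)) := by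
        rw [toLin_ρ]
        congr 2
        change N.ρ (r h⁻¹) (N.ρ (r h) (N.ρ g n)) = N.ρ g n
        rw [show r h⁻¹ = (r h)⁻¹ from map_inv r h, ρ_inv_ρ]
      rw [← h3]
      rfl
    rw [h2, val_sub, pTorsionRep.val_ρ]
  have h4 : toLin N (X (r h * g)) (N.ρ (r h) (N.ρ g n)) =
      (pTorsionRep p (smCoind r 𝓑 U)).ρ (r h) (toLin N (X g) (N.ρ g n)) +
        toLin N (X (r h)) (N.ρ (r h) (N.ρ g n)) := by
    rw [hc, toLin_add, LinearMap.add_apply, toLin_ρ, ρ_inv_ρ]
  rw [liftFun, liftFun, map_mul, Module.End.mul_apply, h4, val_add, map_add, key,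
    pTorsionRep.val_ρ, ev_ρ, map_add]
  abel

include hX in
theorem liftFun_isLevel (hXl : IsLevel₁ 𝓑.sets X) (hN : IsDiscrete 𝓑.sets N) (n : N) :
    IsLevel₁ 𝓑.sets (liftFun a X n) := by
  obtain ⟨V1, hV1, hfix⟩ := hN n
  obtain ⟨V2, hV2, hinv⟩ := hXl
  obtain ⟨W, hW, hWle⟩ := 𝓑.isBasis.directed V1 hV1 V2 hV2
  refine ⟨W, hW, fun g s hs => ?_⟩
  rw [liftFun, liftFun, map_mul, Module.End.mul_apply, hfix s ((hWle.trans inf_le_left) hs),
    hinv g s ((hWle.trans inf_le_right) hs)]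

variable (hXl : IsLevel₁ 𝓑.sets X) (hN : IsDiscrete 𝓑.sets N)

/-- `F n`, as an element of `sm[p]`. -/
noncomputable def liftElt (n : N) : pTorsionRep p (smCoind r 𝓑 U) :=
  torMk p _ (mk r 𝓑 U (liftFun a X n) (liftFun_equivariant a X hX ha n)
    (liftFun_isLevel a X hX hXl hN n)) (by
      ext g
      rw [toFun_nsmul, toFun_mk, nsmul_liftFun, toFun_zero])

theorem toFun_val_liftElt (n : N) (g : G) :
    toFun r 𝓑 U (pTorsionRep.val p _ (liftElt a X hX ha hXl hN n)) g = liftFun a X n g := rfl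

/-- `F`, additively. -/
noncomputable def liftAdd : N →+ pTorsionRep p (smCoind r 𝓑 U) where
  toFun n := liftElt a X hX ha hXl hN n
  map_zero' := by
    apply pTorsionRep.val_injective
    ext g
    rw [toFun_val_liftElt, val_zero, toFun_zero, liftFun]
    simp [val_zero]
  map_add' n n' := by
    apply pTorsionRep.val_injective
    ext g
    rw [toFun_val_liftElt, val_add, toFun_add, toFun_val_liftElt, toFun_val_liftElt, liftFun_add]

/-- The primitive `F ∈ Hom(N, sm[p])`. -/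
noncomputable def lift : homRep N (pTorsionRep p (smCoind r 𝓑 U)) :=
  ofLin N ((liftAdd a X hX ha hXl hN).toZModLinearMap p)

theorem toLin_lift (n : N) :
    toLin N (lift a X hX ha hXl hN) n = liftElt a X hX ha hXl hN n := rfl

/-- **`X = d F`.** -/
theorem lift_spec (γ : G) :
    X γ = (homRep N (pTorsionRep p (smCoind r 𝓑 U))).ρ γ (lift a X hX ha hXl hN) -
      lift a X hX ha hXl hN := by
  apply toLin_injective
  ext n
  apply pTorsionRep.val_injective
  ext g
  have hc := (mem_cocycles₁_iff X).1 hX g γ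
  have h1 : toLin N ((homRep N (pTorsionRep p (smCoind r 𝓑 U))).ρ γ (lift a X hX ha hXl hN) -
      lift a X hX ha hXl hN) n =
      (pTorsionRep p (smCoind r 𝓑 U)).ρ γ (liftElt a X hX ha hXl hN (N.ρ γ⁻¹ n)) -
        liftElt a X hX ha hXl hN n := rfl
  have h2 : N.ρ (g * γ) (N.ρ γ⁻¹ n) = N.ρ g n := by
    rw [map_mul, Module.End.mul_apply]
    congr 1
    have := ρ_inv_ρ N γ⁻¹ n
    rwa [inv_inv] at this
  have h3 : toLin N (X (g * γ)) (N.ρ g n) =
      (pTorsionRep p (smCoind r 𝓑 U)).ρ g (toLin N (X γ) n) + toLin N (X g) (N.ρ g n) := by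
    rw [hc, toLin_add, LinearMap.add_apply, toLin_ρ, ρ_inv_ρ]
  rw [h1, val_sub, toFun_sub, pTorsionRep.val_ρ, toFun_ρ, toFun_val_liftElt, toFun_val_liftElt,
    liftFun, liftFun, h2, h3, val_add, map_add, pTorsionRep.val_ρ, ev_apply, toFun_ρ, one_mul]
  abel

end Lift

/-! ### Consequences -/

/-- **Injectivity half of Shapiro's lemma**: a level 1-cocycle with values in `Hom(N, sm[p])`
whose image in `Hom(N|_H, U[p])`-valued cochains of `H` is a coboundary is a coboundary. -/
theorem mem_coboundaries₁_of_evHom (hN : IsDiscrete 𝓑.sets N)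
    {X : G → homRep N (pTorsionRep p (smCoind r 𝓑 U))}
    (hX : X ∈ Z1 𝓑 (homRep N (pTorsionRep p (smCoind r 𝓑 U))))
    (h : (fun h : H => evHom r 𝓑 U p N (X (r h))) ∈
      coboundaries₁ (homRep (Rep.res r N) (pTorsionRep p U))) :
    X ∈ coboundaries₁ (homRep N (pTorsionRep p (smCoind r 𝓑 U))) := by
  obtain ⟨a, ha⟩ := h
  have ha' : ∀ h : H, evHom r 𝓑 U p N (X (r h)) =
      (homRep (Rep.res r N) (pTorsionRep p U)).ρ h a - a := fun h => by
    have := congrFun ha h
    rw [d₀₁_hom_apply] at this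
    exact this.symm
  refine ⟨lift a X hX.1 ha' hX.2 hN, ?_⟩
  funext γ
  rw [d₀₁_hom_apply]
  exact (lift_spec a X hX.1 ha' hX.2 hN γ).symm

/-- `evHom` maps `G`-invariants to `H`-invariants. -/
theorem evHom_mem_invariants {F : homRep N (pTorsionRep p (smCoind r 𝓑 U))}
    (hF : F ∈ (homRep N (pTorsionRep p (smCoind r 𝓑 U))).ρ.invariants) :
    evHom r 𝓑 U p N F ∈ (homRep (Rep.res r N) (pTorsionRep p U)).ρ.invariants := fun h => by
  rw [← evHom_ρ, hF (r h)]

/-- `evHom` on invariants. -/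
noncomputable def evInvMap : (homRep N (pTorsionRep p (smCoind r 𝓑 U))).ρ.invariants →ₗ[ZMod p]
    (homRep (Rep.res r N) (pTorsionRep p U)).ρ.invariants :=
  ((evHom r 𝓑 U p N).comp (Submodule.subtype _)).codRestrict _
    (fun F => evHom_mem_invariants r 𝓑 U p N F.2)

theorem evInvMap_injective : Function.Injective (evInvMap r 𝓑 U p N) := by
  rw [← LinearMap.ker_eq_bot, LinearMap.ker_eq_bot']
  intro F hF
  have hF' : evHom r 𝓑 U p N F.1 = 0 := congrArg Subtype.val hF
  apply Subtype.ext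
  apply toLin_injective
  ext n
  apply pTorsionRep.val_injective
  ext g
  -- `F n g = ev (g • F n) = ev (F (g n))`
  have h1 : (pTorsionRep p (smCoind r 𝓑 U)).ρ g (toLin N F.1 n) = toLin N F.1 (N.ρ g n) := by
    have := congrArg (fun t => toLin N t (N.ρ g n)) (F.2 g)
    simp only [toLin_ρ, ρ_inv_ρ] at this
    exact this
  have h2 : toFun r 𝓑 U (pTorsionRep.val p _ (toLin N F.1 n)) g =
      ev r 𝓑 U (pTorsionRep.val p _ (toLin N F.1 (N.ρ g n))) := by
    rw [← h1, pTorsionRep.val_ρ, ev_apply, toFun_ρ, one_mul]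
  have h3 : evTor r 𝓑 U p (toLin N F.1 (N.ρ g n)) = 0 := by
    rw [← toLin_evHom, hF']
    rfl
  rw [h2, ← val_evTor, h3]
  rfl

theorem evInvMap_surjective (hN : IsDiscrete 𝓑.sets N) :
    Function.Surjective (evInvMap r 𝓑 U p N) := by
  intro a
  have hX : (0 : G → homRep N (pTorsionRep p (smCoind r 𝓑 U))) ∈
      cocycles₁ (homRep N (pTorsionRep p (smCoind r 𝓑 U))) := Submodule.zero_mem _
  have ha : ∀ h : H, evHom r 𝓑 U p N ((0 : G → homRep N (pTorsionRep p (smCoind r 𝓑 U))) (r h)) =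
      (homRep (Rep.res r N) (pTorsionRep p U)).ρ h a.1 - a.1 := fun h => by
    rw [a.2 h, sub_self, Pi.zero_apply, map_zero]
  have hXl : IsLevel₁ 𝓑.sets (0 : G → homRep N (pTorsionRep p (smCoind r 𝓑 U))) :=
    isLevel₁_const 𝓑.isBasis _
  have hspec := lift_spec a.1 0 hX ha hXl hN
  refine ⟨⟨lift a.1 0 hX ha hXl hN, fun γ => ?_⟩, Subtype.ext ?_⟩
  · have := hspec γ
    rw [Pi.zero_apply, eq_comm, sub_eq_zero] at this
    exact this
  · change evHom r 𝓑 U p N (lift a.1 0 hX ha hXl hN) = a.1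
    apply toLin_injective
    ext n
    apply pTorsionRep.val_injective
    rw [toLin_evHom, val_evTor, toLin_lift, ev_apply, toFun_val_liftElt, liftFun, map_one,
      Module.End.one_apply, Pi.zero_apply, toLin_zero, LinearMap.zero_apply, val_zero, map_zero,
      add_zero]

/-- **Frobenius reciprocity** `Hom_G(N, sm[p]) ≃ Hom_H(N, U[p])`. -/
noncomputable def evInv (hN : IsDiscrete 𝓑.sets N) :
    (homRep N (pTorsionRep p (smCoind r 𝓑 U))).ρ.invariants ≃ₗ[ZMod p]
      (homRep (Rep.res r N) (pTorsionRep p U)).ρ.invariants :=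
  LinearEquiv.ofBijective (evInvMap r 𝓑 U p N)
    ⟨evInvMap_injective r 𝓑 U p N, evInvMap_surjective r 𝓑 U p N hN⟩

end Fermat.Agent.TW.GlobalEC.ShapiroInj28
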