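/-
Program TW (S56), work package WP4 "EC", brick EC6 (helper28), final part:

  `dim Hom_Γ(N, C_S[p]) + h⁰(ℚ, M) = dim Ш¹_S(M) + Σ_{q ∈ S} h⁰(ℚ_q, M)`,   `N = M^*(1)`,

for a finite `S`-unramified `𝔽_p[G_ℚ]`-module `M`, `p ∈ S`, `p` odd: the beginning
`0 → H⁰(M) → ⊕_q H⁰(ℚ_q, M) → Hom_Γ(N, C_S) → H¹(G_S, M) → ⊕_q H¹(ℚ_q, M)` of the Poitou–Tate
sequence, obtained from `0 → E_S → I_S → C_S → 0` (`PT/GLUE/Objects21`) by applying
`Hom(N, (-)[p])` (`E_S` is `p`-divisible, `E_S[p] = μ_p`, so `Hom(N, E_S[p]) ≅ M`) and the level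
cohomology sequence `FiveTerm28`; the terms are identified by Frobenius reciprocity and the
injectivity half of Shapiro's lemma (`ShapiroInj28`).
-/
import Mathlib
import Fermat.Agent.PT.GLUE.Objects21
import Fermat.Agent.PT.GLUE.ESDivisible27
import Fermat.Agent.PT.GLUE.BasisCompare13
import Fermat.Agent.PT.BR.ShaBridge13
import Fermat.Agent.PT.BR.DualTwist7
import Fermat.Agent.PT.PRO.FinH1S55_9
import Fermat.Agent.PT.GLOB.H1FiniteCoh15
import Fermat.Agent.TW.Spec.Contract52
import Fermat.Agent.TW.GlobalEC.FiveTerm28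
import Fermat.Agent.TW.GlobalEC.HomSeq28
import Fermat.Agent.TW.GlobalEC.ShapiroInj28
import Fermat.Agent.TW.GlobalEC.TwistIso28
import Fermat.Agent.TW.GlobalEC.PiHom28
import Fermat.Agent.TW.GlobalEC.MuLine28

set_option autoImplicit false
set_option linter.unusedSectionVars false

open CategoryTheory groupCohomology Module ExtCitation

namespace Fermat.Agent.TW.GlobalEC.HomCS28

open Fermat.Agent.PT.PRO.LevelCoh28 Fermat.Agent.PT.GLUE.Objects21
open Fermat.Agent.PT.GLUE.SmCoind21 Fermat.Agent.PT.BR.LevelBridge13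
open Fermat.Agent.PT.BR.DualTwist7
open Fermat.Agent.TW.GlobalEC.Spec26 Fermat.Agent.TW.GlobalEC.SpecB26
open Fermat.Agent.TW.GlobalEC.ModPSeq5 Fermat.Agent.TW.GlobalEC.HomSeq28
open Fermat.Agent.TW.GlobalEC.TwistIso28 Fermat.Agent.TW.GlobalEC.MuLine28
open Fermat.Agent.TW.GlobalEC.PiHom28 Fermat.Agent.TW.GlobalEC.ShapiroInj28
open Fermat.Agent.S14.Fields (zeta zeta_spec)

local notation "Qbar" => AlgebraicClosure ℚ
local notation "Γ" => (AlgebraicClosure ℚ ≃ₐ[ℚ] AlgebraicClosure ℚ)

variable (p : ℕ) [Fact p.Prime] (S : Finset Nat.Primes) (hpS : pPrime p ∈ S)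
  (M : Rep.{0} (ZMod p) Γ) [FiniteDimensional (ZMod p) M]

/-! ### The pairing `N × M → 𝔽_p` and the isomorphisms `θ` -/

/-- `N = M^*(1)` is the dual space of `M`. -/
def pairN : (M.dualTwist (cycloChar p)) ≃ₗ[ZMod p] Module.Dual (ZMod p) M :=
  LinearEquiv.refl _ _

theorem pairN_ρ (g : Γ) (f : M.dualTwist (cycloChar p)) (m : M) :
    pairN p M ((M.dualTwist (cycloChar p)).ρ g f) (M.ρ g m) =
      ((cycloChar p g : (ZMod p)ˣ) : ZMod p) * pairN p M f m := by
  change ((M.dualTwist (cycloChar p)).ρ g f : Module.Dual (ZMod p) M) (M.ρ g m) = _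
  rw [Rep.dualTwist_ρ_apply, LinearMap.smul_apply, LinearMap.comp_apply, ρ_inv_ρ, smul_eq_mul]
  rfl

/-- `θ : M ≃ Hom(N, E_S[p])`, `θ m f = ζ^{f(m)}`. -/
noncomputable def thetaG : M ≃ₗ[ZMod p]
    homRep (M.dualTwist (cycloChar p)) (pTorsionRep p (ES S)) :=
  thetaEquiv M (M.dualTwist (cycloChar p)) (pTorsionRep p (ES S)) (pairN p M) (muE p S hpS)

theorem thetaG_comm (g : Γ) (m : M) :
    thetaG p S hpS M (M.ρ g m) =
      (homRep (M.dualTwist (cycloChar p)) (pTorsionRep p (ES S))).ρ g (thetaG p S hpS M m) :=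
  theta_comm (cycloChar p) M _ _ (pairN p M) (pairN_ρ p M) (muE p S hpS) (ρ_muE p S hpS) g m

theorem toLin_thetaG (m : M) (f : M.dualTwist (cycloChar p)) :
    toLin _ (thetaG p S hpS M m) f = muE p S hpS (pairN p M f m) := rfl

section Local

variable (q : ℕ) [Fact q.Prime]

local notation "Γq" => (PadicAlgCl q ≃ₐ[ℚ_[q]] PadicAlgCl q)

instance : FiniteDimensional (ZMod p) (Rep.res (localGaloisToGlobal q) M) :=
  inferInstanceAs (FiniteDimensional (ZMod p) M)

/-- The local pairing. -/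
def pairL : (Rep.res (localGaloisToGlobal q) (M.dualTwist (cycloChar p))) ≃ₗ[ZMod p]
    Module.Dual (ZMod p) (Rep.res (localGaloisToGlobal q) M) :=
  LinearEquiv.refl _ _

theorem pairL_ρ (h : Γq) (f : Rep.res (localGaloisToGlobal q) (M.dualTwist (cycloChar p)))
    (m : Rep.res (localGaloisToGlobal q) M) :
    pairL p M q ((Rep.res (localGaloisToGlobal q) (M.dualTwist (cycloChar p))).ρ h f)
      ((Rep.res (localGaloisToGlobal q) M).ρ h m) =
      ((((cycloChar p).comp (localGaloisToGlobal q)) h : (ZMod p)ˣ) : ZMod p) *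
        pairL p M q f m :=
  pairN_ρ p M (localGaloisToGlobal q h) f m

/-- `θ_q : M ≃ Hom(N, (ℚ̄_qˣ)[p])`. -/
noncomputable def thetaL : Rep.res (localGaloisToGlobal q) M ≃ₗ[ZMod p]
    homRep (Rep.res (localGaloisToGlobal q) (M.dualTwist (cycloChar p)))
      (pTorsionRep p (unitsLoc q)) :=
  thetaEquiv (Rep.res (localGaloisToGlobal q) M)
    (Rep.res (localGaloisToGlobal q) (M.dualTwist (cycloChar p)))
    (pTorsionRep p (unitsLoc q)) (pairL p M q) (muLoc p S hpS q)

theorem thetaL_comm (h : Γq) (m : Rep.res (localGaloisToGlobal q) M) :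
    thetaL p S hpS M q ((Rep.res (localGaloisToGlobal q) M).ρ h m) =
      (homRep (Rep.res (localGaloisToGlobal q) (M.dualTwist (cycloChar p)))
        (pTorsionRep p (unitsLoc q))).ρ h (thetaL p S hpS M q m) :=
  theta_comm ((cycloChar p).comp (localGaloisToGlobal q)) _ _ _ (pairL p M q) (pairL_ρ p M q)
    (muLoc p S hpS q) (ρ_muLoc p S hpS q) h m

theorem toLin_thetaL (m : M) (f : M.dualTwist (cycloChar p)) :
    toLin (Rep.res (localGaloisToGlobal q) (M.dualTwist (cycloChar p)))
      (thetaL p S hpS M q m) f = muLoc p S hpS q (pairN p M f m) := rfl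

end Local

/-! ### The exact sequence `0 → M → Hom(N, I_S[p]) → Hom(N, C_S[p]) → 0` -/

section Seq

/-- `Hom(N, E_S[p]) → Hom(N, I_S[p])`. -/
noncomputable def iotaH : homRep (M.dualTwist (cycloChar p)) (pTorsionRep p (ES S)) →ₗ[ZMod p]
    homRep (M.dualTwist (cycloChar p)) (pTorsionRep p (IS S)) :=
  homMap _ (torMap p (diag S))

/-- `Hom(N, I_S[p]) → Hom(N, C_S[p])`. -/
noncomputable def piH : homRep (M.dualTwist (cycloChar p)) (pTorsionRep p (IS S)) →ₗ[ZMod p]
    homRep (M.dualTwist (cycloChar p)) (pTorsionRep p (CS S)) :=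
  homMap _ (torMap p (toCS S))

/-- `M ≅ Hom(N, E_S[p]) → Hom(N, I_S[p])`. -/
noncomputable def phi : M →ₗ[ZMod p]
    homRep (M.dualTwist (cycloChar p)) (pTorsionRep p (IS S)) :=
  (iotaH p S M).comp (thetaG p S hpS M).toLinearMap

theorem phi_apply (m : M) : phi p S hpS M m = iotaH p S M (thetaG p S hpS M m) := rfl

theorem phi_comm (g : Γ) (m : M) :
    phi p S hpS M (M.ρ g m) =
      (homRep (M.dualTwist (cycloChar p)) (pTorsionRep p (IS S))).ρ g (phi p S hpS M m) := by
  rw [phi_apply, thetaG_comm, phi_apply]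
  exact homMap_comm _ _ (torMap_comm p _ (diag_ρ S)) g _

theorem piH_comm (g : Γ) (F : homRep (M.dualTwist (cycloChar p)) (pTorsionRep p (IS S))) :
    piH p S M ((homRep (M.dualTwist (cycloChar p)) (pTorsionRep p (IS S))).ρ g F) =
      (homRep (M.dualTwist (cycloChar p)) (pTorsionRep p (CS S))).ρ g (piH p S M F) :=
  homMap_comm _ _ (torMap_comm p _ (toCS_ρ S)) g F

include hpS in
theorem nonempty_S : S.Nonempty := ⟨_, hpS⟩

include hpS in
theorem iotaH_injective : Function.Injective (iotaH p S M) :=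
  homMap_injective _ _ (torMap_injective' p (diag S) (diag_injective S (nonempty_S p S hpS)))

theorem phi_injective : Function.Injective (phi p S hpS M) :=
  (iotaH_injective p S hpS M).comp (thetaG p S hpS M).injective

include hpS in
theorem piH_surjective : Function.Surjective (piH p S M) :=
  homMap_surjective _ _ (torMap_surjective' p (diag S) (toCS S) (toCS_surjective S)
    (toCS_eq_zero_iff S)
    (Fermat.Agent.PT.GLUE.ESDivisible27.exists_nsmul_eq (Fact.out : p.Prime) hpS))

theorem piH_exact (b : homRep (M.dualTwist (cycloChar p)) (pTorsionRep p (IS S))) :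
    piH p S M b = 0 ↔ ∃ m, phi p S hpS M m = b := by
  have h := homMap_exact (M.dualTwist (cycloChar p)) (torMap p (diag S)) (torMap p (toCS S))
    (torMap_injective' p (diag S) (diag_injective S (nonempty_S p S hpS)))
    (torMap_exact' p (diag S) (toCS S) (diag_injective S (nonempty_S p S hpS))
      (toCS_eq_zero_iff S)) b
  constructor
  · intro hb
    obtain ⟨h', hh'⟩ := h.1 hb
    exact ⟨(thetaG p S hpS M).symm h', by
      rw [phi_apply, LinearEquiv.apply_symm_apply]; exact hh'⟩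
  · rintro ⟨m, rfl⟩
    exact h.2 ⟨_, rfl⟩

end Seq

/-! ### Localisation -/

section Loc

/-- The family of local components of `I_S`. -/
noncomputable abbrev famI : ↥S → Rep.{0} ℤ Γ := fun q => ISq S ((q : Nat.Primes) : ℕ)

/-- **Key identity**: the `q`-component of `φ m`, evaluated at `1`, is `θ_q m`. -/
theorem evHom_projHom_phi (q : ↥S) (m : M) :
    evHom (localGaloisToGlobal ((q : Nat.Primes) : ℕ)) (levelS S)
        (unitsLoc ((q : Nat.Primes) : ℕ)) p (M.dualTwist (cycloChar p))
        (projHom p (famI S) (M.dualTwist (cycloChar p)) q (phi p S hpS M m)) =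
      thetaL p S hpS M ((q : Nat.Primes) : ℕ) m := by
  apply toLin_injective
  ext f
  apply pTorsionRep.val_injective
  change ev _ _ _ (diagq S ((q : Nat.Primes) : ℕ)
      (pTorsionRep.val p (ES S) (muE p S hpS (pairN p M f m)))) =
    locE S ((q : Nat.Primes) : ℕ) (pTorsionRep.val p (ES S) (muE p S hpS (pairN p M f m)))
  exact ev_lift _ _ _ (isDiscrete_ES S) (locE S _) (locE_ρ S _) _

variable (hsm : ∀ m : M, ∃ F : IntermediateField ℚ Qbar, FiniteDimensional ℚ F ∧
    ∀ s ∈ F.fixingSubgroup, M.ρ s m = m)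
  (hMur : ∀ q : Nat.Primes, q ∉ S → ∀ A : ValuationSubring Qbar,
    A.LiesOverPrime (q : ℕ) → ∀ g ∈ A.inertiaSubgroupIn ℚ, M.ρ g = 1)

include hpS hsm hMur in
theorem isDiscrete_N_global :
    IsDiscrete (globalBasis S).sets (M.dualTwist (cycloChar p)) :=
  isDiscrete_globalSets S _ (smooth_dualTwist M hsm) (unram_dualTwist M hpS hMur)

include hpS hsm hMur in
theorem isDiscrete_N_level : IsDiscrete (levelS S).sets (M.dualTwist (cycloChar p)) := by
  have h := isDiscrete_N_global p S hpS M hsm hMur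
  have e : (globalBasis S).sets = (levelS S).sets :=
    Fermat.Agent.PT.GLUE.BasisCompare13.globalSets_eq S
  rwa [e] at h

theorem isDiscrete_IS_global : IsDiscrete (globalBasis S).sets (IS S) := by
  have e : (globalBasis S).sets = (levelS S).sets :=
    Fermat.Agent.PT.GLUE.BasisCompare13.globalSets_eq S
  rw [e]
  exact isDiscrete_IS S

include hpS hsm hMur in
theorem isDiscrete_B :
    IsDiscrete (globalBasis S).sets
      (homRep (M.dualTwist (cycloChar p)) (pTorsionRep p (IS S))) :=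
  isDiscrete_homRep _ (isDiscrete_N_global p S hpS M hsm hMur)
    (isDiscrete_pTorsionRep p (isDiscrete_IS_global S))

include hsm hMur in
/-- **The kernel of `H¹(M) → H¹(Hom(N, I_S[p]))` is the kernel of localisation.** -/
theorem phi_comp_mem_coboundaries₁_iff (x : Γ → M) (hx : x ∈ Z1 (globalBasis S) M) :
    (fun g => phi p S hpS M (x g)) ∈
        coboundaries₁ (homRep (M.dualTwist (cycloChar p)) (pTorsionRep p (IS S))) ↔
      ∀ q : ↥S, (fun h => x (localGaloisToGlobal ((q : Nat.Primes) : ℕ) h)) ∈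
        coboundaries₁ (Rep.res (localGaloisToGlobal ((q : Nat.Primes) : ℕ)) M) := by
  refine (PiHom28.mem_coboundaries₁_iff p (famI S) (M.dualTwist (cycloChar p)) _).trans
    (forall_congr' fun q => ?_)
  rw [← comp_mem_coboundaries₁_iff (thetaL p S hpS M ((q : Nat.Primes) : ℕ))
    (thetaL_comm p S hpS M ((q : Nat.Primes) : ℕ))]
  constructor
  · rintro ⟨F, hF⟩
    refine ⟨evHom (localGaloisToGlobal ((q : Nat.Primes) : ℕ)) (levelS S)
      (unitsLoc ((q : Nat.Primes) : ℕ)) p (M.dualTwist (cycloChar p)) F, ?_⟩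
    funext h
    have h1 := congrFun hF (localGaloisToGlobal ((q : Nat.Primes) : ℕ) h)
    rw [d₀₁_hom_apply] at h1
    rw [d₀₁_hom_apply, ← evHom_ρ, ← map_sub, h1, evHom_projHom_phi]
  · intro h
    have hX : (fun g => projHom p (famI S) (M.dualTwist (cycloChar p)) q
        (phi p S hpS M (x g))) ∈ Z1 (levelS S)
          (homRep (M.dualTwist (cycloChar p)) (pTorsionRep p (famI S q))) := by
      have h0 : (fun g => phi p S hpS M (x g)) ∈ Z1 (globalBasis S)
          (homRep (M.dualTwist (cycloChar p)) (pTorsionRep p (IS S))) :=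
        comp_mem_Z1 (phi p S hpS M) (phi_comm p S hpS M) hx
      have h1 : (fun g => projHom p (famI S) (M.dualTwist (cycloChar p)) q
          (phi p S hpS M (x g))) ∈ Z1 (globalBasis S)
            (homRep (M.dualTwist (cycloChar p)) (pTorsionRep p (famI S q))) :=
        comp_mem_Z1 (projHom p (famI S) (M.dualTwist (cycloChar p)) q)
          (projHom_comm p (famI S) _ q)
          (h0 : _ ∈ Z1 (globalBasis S)
            (homRep (M.dualTwist (cycloChar p)) (pTorsionRep p (piRep (famI S)))))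
      have e : (globalBasis S).sets = (levelS S).sets :=
        Fermat.Agent.PT.GLUE.BasisCompare13.globalSets_eq S
      refine ⟨h1.1, ?_⟩
      have h2 : IsLevel₁ (globalBasis S).sets (fun g =>
          projHom p (famI S) (M.dualTwist (cycloChar p)) q (phi p S hpS M (x g))) := h1.2
      rw [e] at h2
      exact h2
    refine mem_coboundaries₁_of_evHom (localGaloisToGlobal ((q : Nat.Primes) : ℕ)) (levelS S)
      (unitsLoc ((q : Nat.Primes) : ℕ)) p (M.dualTwist (cycloChar p))
      (isDiscrete_N_level p S hpS M hsm hMur) hX ?_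
    convert h using 2 with h'
    exact evHom_projHom_phi p S hpS M q _

include hpS hsm hMur in
/-- `Hom_Γ(N, I_S[p]) ≃ ∏_{q ∈ S} M^{Γ_q}`. -/
noncomputable def invEquivB :
    (homRep (M.dualTwist (cycloChar p)) (pTorsionRep p (IS S))).ρ.invariants ≃ₗ[ZMod p]
      (∀ q : ↥S, (Rep.res (localGaloisToGlobal ((q : Nat.Primes) : ℕ)) M).ρ.invariants) :=
  (invPiEquiv p (famI S) (M.dualTwist (cycloChar p))).trans
    (LinearEquiv.piCongrRight fun q =>
      (evInv (localGaloisToGlobal ((q : Nat.Primes) : ℕ)) (levelS S)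
        (unitsLoc ((q : Nat.Primes) : ℕ)) p (M.dualTwist (cycloChar p))
        (isDiscrete_N_level p S hpS M hsm hMur)).trans
      (invEquiv (thetaL p S hpS M ((q : Nat.Primes) : ℕ))
        (thetaL_comm p S hpS M ((q : Nat.Primes) : ℕ))).symm)

end Loc

/-! ### The count -/

section Main

variable (hsm : ∀ m : M, ∃ F : IntermediateField ℚ Qbar, FiniteDimensional ℚ F ∧
    ∀ s ∈ F.fixingSubgroup, M.ρ s m = m)
  (hMur : ∀ q : Nat.Primes, q ∉ S → ∀ A : ValuationSubring Qbar,
    A.LiesOverPrime (q : ℕ) → ∀ g ∈ A.inertiaSubgroupIn ℚ, M.ρ g = 1)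

include hpS hsm hMur in
/-- `H¹(G_S, M)` is finite-dimensional. -/
theorem finiteDimensional_continuousH1S :
    FiniteDimensional (ZMod p) (continuousH1S S M) := by
  obtain ⟨F₀, hF₀, hζ, h1, -⟩ := Fermat.Agent.PT.PRO.FinH1S55_9.exists_F0 S hpS M hsm hMur
  have := hF₀.1
  exact Fermat.Agent.PT.GLOB.H1FiniteCoh15.finiteDimensional_continuousH1S S M F₀ hF₀
    (zeta_spec p) hζ (fun s hs a => by rw [h1 s hs]; rfl)

include hpS hsm hMur in
/-- `H¹(G_S, M^*(1))` is finite-dimensional. -/
theorem finiteDimensional_continuousH1S_dual :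
    FiniteDimensional (ZMod p) (continuousH1S S (M.dualTwist (cycloChar p))) := by
  obtain ⟨F₀, hF₀, hζ, -, h2⟩ := Fermat.Agent.PT.PRO.FinH1S55_9.exists_F0 S hpS M hsm hMur
  have := hF₀.1
  exact Fermat.Agent.PT.GLOB.H1FiniteCoh15.finiteDimensional_continuousH1S S _ F₀ hF₀
    (zeta_spec p) hζ (fun s hs a => by rw [h2 s hs]; rfl)

include hsm hMur in
/-- The kernel of `H¹(G_S, M) → H¹(G_S, Hom(N, I_S[p]))` is the kernel of the total localisation
map. -/
theorem ker_mapH1_phi :
    LinearMap.ker (mapH1 (𝓑 := globalBasis S) (phi p S hpS M) (phi_comm p S hpS M)) =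
      LinearMap.ker (Fermat.Agent.PT.BR.ShaBridge13.locH1 S M) := by
  ext y
  obtain ⟨c, rfl⟩ := H1mk_surjective (globalBasis S) M y
  rw [LinearMap.mem_ker, mapH1_mk, H1mk_eq_zero_iff,
    Fermat.Agent.PT.BR.ShaBridge13.mem_ker_locH1_iff]
  refine (phi_comp_mem_coboundaries₁_iff p S hpS M hsm hMur c.1 c.2).trans
    (forall_congr' fun q => ?_)
  rw [Fermat.Agent.PT.BR.ShaBridge13.resH1_mk, H1mk_eq_zero_iff]
  rfl

include hpS hsm hMur in
/-- **(EC6)**, raw form. -/
theorem eqHomRank_dual_CS_aux (hp2 : p ≠ 2) :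
    FiniteDimensional (ZMod p)
      (homRep (M.dualTwist (cycloChar p)) (pTorsionRep p (CS S))).ρ.invariants ∧
    eqHomRank (M.dualTwist (cycloChar p)) (pTorsionRep p (CS S)) +
        finrank (ZMod p) M.ρ.invariants =
      finrank (ZMod p) (sha₁ S M) +
        ∑ q : ↥S, finrank (ZMod p)
          (Rep.res (localGaloisToGlobal ((q : Nat.Primes) : ℕ)) M).ρ.invariants := by
  have h2 : (2 : ZMod p) ≠ 0 := by
    intro h
    have h3 : ((2 : ℕ) : ZMod p) = 0 := by exact_mod_cast h
    rw [ZMod.natCast_eq_zero_iff] at h3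
    exact hp2 ((Nat.prime_dvd_prime_iff_eq (Fact.out : p.Prime) Nat.prime_two).1 h3)
  -- finiteness of the two outer terms
  have hfinB : FiniteDimensional (ZMod p)
      (homRep (M.dualTwist (cycloChar p)) (pTorsionRep p (IS S))).ρ.invariants :=
    LinearEquiv.finiteDimensional (invEquivB p S hpS M hsm hMur).symm
  have hfinH := finiteDimensional_continuousH1S p S hpS M hsm hMur
  have hfinSha : FiniteDimensional (ZMod p) (sha₁ S M) :=
    Submodule.finiteDimensional_of_le (inf_le_left : sha₁ S M ≤ continuousH1S S M)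
  have hker := ker_mapH1_phi p S hpS M hsm hMur
  have hfinK : FiniteDimensional (ZMod p)
      (LinearMap.ker (mapH1 (𝓑 := globalBasis S) (phi p S hpS M) (phi_comm p S hpS M))) := by
    rw [hker]
    exact LinearEquiv.finiteDimensional
      (Fermat.Agent.PT.BR.ShaBridge13.sha₁Equiv S M h2).symm
  have hB := isDiscrete_B p S hpS M hsm hMur
  refine ⟨FiveTerm28.finiteDimensional_invariants (𝓑 := globalBasis S) (phi p S hpS M)
    (phi_comm p S hpS M) (piH p S M) (piH_comm p S M) (phi_injective p S hpS M)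
    (piH_surjective p S hpS M) (piH_exact p S hpS M) hB, ?_⟩
  have hcount := FiveTerm28.finrank_invariants_add (𝓑 := globalBasis S) (phi p S hpS M)
    (phi_comm p S hpS M) (piH p S M) (piH_comm p S M) (phi_injective p S hpS M)
    (piH_surjective p S hpS M) (piH_exact p S hpS M) hB
  have h3 : finrank (ZMod p)
      (homRep (M.dualTwist (cycloChar p)) (pTorsionRep p (IS S))).ρ.invariants =
      ∑ q : ↥S, finrank (ZMod p)
        (Rep.res (localGaloisToGlobal ((q : Nat.Primes) : ℕ)) M).ρ.invariants := by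
    rw [(invEquivB p S hpS M hsm hMur).finrank_eq, Module.finrank_pi_fintype]
  have h4 : finrank (ZMod p)
      (LinearMap.ker (mapH1 (𝓑 := globalBasis S) (phi p S hpS M) (phi_comm p S hpS M))) =
      finrank (ZMod p) (sha₁ S M) := by
    rw [hker, Fermat.Agent.PT.BR.ShaBridge13.finrank_sha₁ S M h2]
  rw [h3, h4] at hcount
  rw [eqHomRank, hcount, add_comm]

end Main

/-- **(EC6)**: `dim Hom_Γ(N, C_S[p]) + h⁰(ℚ, M) = dim Ш¹_S(M) + Σ_{q ∈ S} h⁰(ℚ_q, M)` for
`N = M^*(1)`, in the vocabulary of `Contract52` / `Defs52`. -/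
theorem eqHomRank_dual_CS (p : ℕ) [Fact p.Prime] (hp2 : p ≠ 2) (S : Finset Nat.Primes)
    (hpS : pPrime p ∈ S) (M : Rep.{0} (ZMod p) Γ)
    (hM : Fermat.Agent.TW.Spec.Contract52.IsSmoothUnramified p S M) :
    FiniteDimensional (ZMod p)
      (homRep (M.dualTwist (cycloChar p)) (pTorsionRep p (CS S))).ρ.invariants ∧
    eqHomRank (M.dualTwist (cycloChar p)) (pTorsionRep p (CS S)) +
        finrank (ZMod p) M.ρ.invariants =
      finrank (ZMod p) (sha₁ S M) +
        ∑ q : ↥S, Fermat.Agent.TW.Spec.Defs52.h0At (q : Nat.Primes) M := by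
  have := hM.finite
  exact eqHomRank_dual_CS_aux p S hpS M hM.smooth hM.unramified hp2

/-- The sum over the places of `S ∪ {∞}` in `Contract52.BaseCase`, split into the archimedean
term and the sum over the primes of `S`. -/
theorem sum_extArith (p : ℕ) [Fact p.Prime] (S : Finset Nat.Primes) (M : Rep.{0} (ZMod p) Γ) :
    ∑ v : extArithIndex S, finrank (ZMod p) (Rep.res (extArithLoc S v) M).ρ.invariants =
      finrank (ZMod p) (Rep.res archimedeanLoc M).ρ.invariants +
        ∑ q : ↥S, Fermat.Agent.TW.Spec.Defs52.h0At (q : Nat.Primes) M := by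
  refine (Fintype.sum_sum_type _).trans ?_
  simp only [Finset.univ_unique, Finset.sum_singleton]
  rfl

/-- The finiteness statements of `Contract52.BaseCase`. -/
theorem finiteDimensional_H1S (p : ℕ) [Fact p.Prime] (S : Finset Nat.Primes)
    (hpS : pPrime p ∈ S) (M : Rep.{0} (ZMod p) Γ)
    (hM : Fermat.Agent.TW.Spec.Contract52.IsSmoothUnramified p S M) :
    FiniteDimensional (ZMod p) (continuousH1S S M) ∧
      FiniteDimensional (ZMod p) (continuousH1S S (M.dualTwist (cycloChar p))) := by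
  have := hM.finite
  exact ⟨finiteDimensional_continuousH1S p S hpS M hM.smooth hM.unramified,
    finiteDimensional_continuousH1S_dual p S hpS M hM.smooth hM.unramified⟩

end Fermat.Agent.TW.GlobalEC.HomCS28
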