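/-
Program TW (S56), WP4 "EC", helper28: the finiteness hypothesis `hfinH1` of Tate's formula
(`EC7Main3.tate_formula`) for `(Γ, levelS S)`.

A finite-dimensional `𝔽_p[Γ]`-module `X` which is discrete for the level basis `levelS S` is smooth
and unramified outside `S` (`isSmoothUnramified_of_isDiscrete`), hence `H¹_lev(levelS S, X)`
is finite-dimensional (`finiteDimensional_H1_levelS`, from `FinH1S` of the Poitou–Tate library).
-/
import Mathlib
import Fermat.Agent.TW.GlobalEC.HomCS28

set_option autoImplicit false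

open CategoryTheory groupCohomology Module ExtCitation

namespace Fermat.Agent.TW.GlobalEC.FinLevel28

open Fermat.Agent.PT.PRO.LevelCoh28 Fermat.Agent.PT.GLUE.Objects21
open Fermat.Agent.PT.BR.LevelBridge13
open Fermat.Agent.TW.Spec.Contract52

local notation "Qbar" => AlgebraicClosure ℚ
local notation "Γ" => (AlgebraicClosure ℚ ≃ₐ[ℚ] AlgebraicClosure ℚ)

variable {k : Type} [Field k] (S : Finset Nat.Primes) (X : Rep.{0} k Γ)

/-- A module which is discrete for `levelS S` is smooth. -/
theorem smooth_of_isDiscrete (hX : IsDiscrete (levelS S).sets X) :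
    ∀ m : X, ∃ F : IntermediateField ℚ Qbar, FiniteDimensional ℚ F ∧
      ∀ s ∈ F.fixingSubgroup, X.ρ s m = m := by
  intro m
  obtain ⟨_, ⟨F, hF, rfl⟩, hm⟩ := hX m
  exact ⟨F, hF.1, hm⟩

/-- A module which is discrete for `levelS S` is unramified outside `S`. -/
theorem unram_of_isDiscrete (hX : IsDiscrete (levelS S).sets X) :
    ∀ q : Nat.Primes, q ∉ S → ∀ A : ValuationSubring Qbar,
      A.LiesOverPrime (q : ℕ) → ∀ g ∈ A.inertiaSubgroupIn ℚ, X.ρ g = 1 := by
  intro q hq A hA g hg
  apply LinearMap.ext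
  intro m
  obtain ⟨_, ⟨F, hF, rfl⟩, hm⟩ := hX m
  exact hm g (hF.2 q hq A hA hg)

variable (p : ℕ) [Fact p.Prime]

/-- A finite-dimensional module which is discrete for `levelS S` satisfies the hypotheses of
S55 (`Contract52.IsSmoothUnramified`). -/
theorem isSmoothUnramified_of_isDiscrete (X : Rep.{0} (ZMod p) Γ) [FiniteDimensional (ZMod p) X]
    (hX : IsDiscrete (levelS S).sets X) : IsSmoothUnramified p S X :=
  ⟨inferInstance, smooth_of_isDiscrete S X hX, unram_of_isDiscrete S X hX⟩

/-- **`hfinH1`**: the level cohomology `H¹_lev(levelS S, X)` of a finite discrete module is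
finite-dimensional (`p ∈ S`). -/
theorem finiteDimensional_H1_levelS (hpS : pPrime p ∈ S) (X : Rep.{0} (ZMod p) Γ)
    [FiniteDimensional (ZMod p) X] (hX : IsDiscrete (levelS S).sets X) :
    FiniteDimensional (ZMod p) (H1 (levelS S) X) := by
  have h := (HomCS28.finiteDimensional_H1S p S hpS X
    (isSmoothUnramified_of_isDiscrete S p X hX)).1
  rw [← Fermat.Agent.PT.GLUE.BasisCompare13.globalBasis_eq S]
  exact (H1Equiv S X).symm.finiteDimensional

/-- The hypothesis `hfinH1` of `EC7Main3.tate_formula`, literally. -/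
theorem hfinH1 (hpS : pPrime p ∈ S) :
    ∀ X : Rep.{0} (ZMod p) Γ, FiniteDimensional (ZMod p) X → IsDiscrete (levelS S).sets X →
      FiniteDimensional (ZMod p) (H1 (levelS S) X) :=
  fun X hfd hX => by
    have := hfd
    exact finiteDimensional_H1_levelS S p hpS X hX

end Fermat.Agent.TW.GlobalEC.FinLevel28
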