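/-
Program TW (S56), WP4 "EC", brick EC3K (helper79), part 1: the pairing of level hyper-1-cocycles
with level 1-cocycles, with values in an abstract "invariant", for an abstract pairing datum
(`PT/PRO/Pairing20.Datum`).

* `IsLB ρ 𝒰 z`   : `z` is the coboundary of a level 1-cochain;
* `IsPC ρ 𝒰 p z` : `z` is a level 2-cocycle and `p z` is a level coboundary;
* an *invariant* is a function `inv` on 2-cochains, additive on `IsPC` and vanishing exactly on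
  `IsLB` among `IsPC`;
* `Lam D inv c y x = inv (pairFun c y (lift of x))` for a hyper-1-cocycle `(c, y)` and a level
  1-cocycle `x` of `A`; it does not depend on the lift, is additive in both variables, vanishes on
  (hyper-)coboundaries;
* `exists_dZero_of_Lam_eq_zero` : if the right kernel statement holds, a cocycle killed by all
  `Lam c y` is a coboundary.
-/
import Mathlib
import Fermat.Agent.PT.PRO.GlobalDuality20

set_option autoImplicit false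
set_option linter.unusedSectionVars false
set_option linter.unusedVariables false

namespace Fermat.Agent.TW.GlobalEC.HyperPair79

open Fermat.Agent.PT.PRO.HyperLevel25 Fermat.Agent.PT.PRO.Pairing20
  Fermat.Agent.PT.PRO.GlobalDuality20

/-! ### Level coboundaries and `p`-cocycles -/

section Basic

variable {k : Type*} [CommRing k] {G : Type*} [Group G] {X : Type*} [AddCommGroup X] [Module k X]
variable {ρ : Representation k G X} {𝒰 : Set (Subgroup G)}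

/-- `z` is the coboundary of a level 1-cochain. -/
def IsLB (ρ : Representation k G X) (𝒰 : Set (Subgroup G)) (z : G × G → X) : Prop :=
  ∃ u : G → X, IsLevel₁ 𝒰 u ∧ z = dOne ρ u

/-- `z` is a level 2-cocycle and `p z` is a level coboundary. -/
def IsPC (ρ : Representation k G X) (𝒰 : Set (Subgroup G)) (p : ℕ) (z : G × G → X) : Prop :=
  dTwo ρ z = 0 ∧ IsLevel₂ 𝒰 z ∧ IsLB ρ 𝒰 (p • z)

theorem IsLB.zero (h𝒰 : IsLevelBasis 𝒰) : IsLB ρ 𝒰 0 :=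
  ⟨0, h𝒰.isLevel₁_const 0, (map_zero _).symm⟩

theorem IsLB.add (h𝒰 : IsLevelBasis 𝒰) {z z' : G × G → X} (h : IsLB ρ 𝒰 z) (h' : IsLB ρ 𝒰 z') :
    IsLB ρ 𝒰 (z + z') := by
  obtain ⟨u, hu, rfl⟩ := h
  obtain ⟨u', hu', rfl⟩ := h'
  exact ⟨u + u', h𝒰.isLevel₁_add hu hu', (map_add _ _ _).symm⟩

theorem IsLB.neg {z : G × G → X} (h : IsLB ρ 𝒰 z) : IsLB ρ 𝒰 (-z) := by
  obtain ⟨u, hu, rfl⟩ := h
  exact ⟨-u, hu.comp (fun x => -x), (map_neg _ _).symm⟩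

theorem IsLB.sub (h𝒰 : IsLevelBasis 𝒰) {z z' : G × G → X} (h : IsLB ρ 𝒰 z) (h' : IsLB ρ 𝒰 z') :
    IsLB ρ 𝒰 (z - z') := by
  rw [sub_eq_add_neg]
  exact h.add h𝒰 h'.neg

theorem IsLB.nsmul (n : ℕ) {z : G × G → X} (h : IsLB ρ 𝒰 z) : IsLB ρ 𝒰 (n • z) := by
  obtain ⟨u, hu, rfl⟩ := h
  exact ⟨n • u, hu.comp (fun x => n • x), (map_nsmul _ _ _).symm⟩

theorem IsLB.isPC (h𝒰 : IsLevelBasis 𝒰) (hρ : IsDiscrete 𝒰 ρ) (p : ℕ) {z : G × G → X}
    (h : IsLB ρ 𝒰 z) : IsPC ρ 𝒰 p z := by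
  refine ⟨?_, ?_, h.nsmul p⟩
  · obtain ⟨u, -, rfl⟩ := h
    exact dTwo_dOne ρ u
  · obtain ⟨u, hu, rfl⟩ := h
    exact h𝒰.isLevel₂_dOne hρ hu

theorem IsPC.add (h𝒰 : IsLevelBasis 𝒰) {p : ℕ} {z z' : G × G → X} (h : IsPC ρ 𝒰 p z)
    (h' : IsPC ρ 𝒰 p z') : IsPC ρ 𝒰 p (z + z') := by
  refine ⟨by rw [map_add, h.1, h'.1, add_zero], h𝒰.isLevel₂_add h.2.1 h'.2.1, ?_⟩
  rw [smul_add]
  exact h.2.2.add h𝒰 h'.2.2

theorem IsPC.neg {p : ℕ} {z : G × G → X} (h : IsPC ρ 𝒰 p z) : IsPC ρ 𝒰 p (-z) := by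
  refine ⟨by rw [map_neg, h.1, neg_zero], h.2.1.comp (fun x => -x), ?_⟩
  rw [smul_neg]
  exact h.2.2.neg

end Basic

/-! ### Invariants -/

section Inv

variable {k : Type*} [CommRing k] {G : Type*} [Group G] {X : Type*} [AddCommGroup X] [Module k X]
variable {ρ : Representation k G X} {𝒰 : Set (Subgroup G)} (h𝒰 : IsLevelBasis 𝒰)
  (hρ : IsDiscrete 𝒰 ρ) {p : ℕ} {Z : Type*} [AddCommGroup Z] {inv : (G × G → X) → Z}
  (hadd : ∀ z z', IsPC ρ 𝒰 p z → IsPC ρ 𝒰 p z' → inv (z + z') = inv z + inv z')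
  (hzero : ∀ z, IsPC ρ 𝒰 p z → (inv z = 0 ↔ IsLB ρ 𝒰 z))

include h𝒰 hρ hzero in
theorem inv_eq_zero_of_isLB {z : G × G → X} (h : IsLB ρ 𝒰 z) : inv z = 0 :=
  (hzero z (h.isPC h𝒰 hρ p)).2 h

include h𝒰 hρ hadd hzero in
theorem inv_congr {z z' : G × G → X} (h : IsPC ρ 𝒰 p z) (h' : IsPC ρ 𝒰 p z')
    (hd : IsLB ρ 𝒰 (z - z')) : inv z = inv z' := by
  have e : z = z' + (z - z') := by abel
  rw [e, hadd z' (z - z') h' (hd.isPC h𝒰 hρ p), inv_eq_zero_of_isLB h𝒰 hρ hzero hd, add_zero]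

include h𝒰 hρ hadd hzero in
theorem inv_neg {z : G × G → X} (h : IsPC ρ 𝒰 p z) : inv (-z) = - inv z := by
  have h0 : inv (z + -z) = 0 := by
    rw [add_neg_cancel]
    exact inv_eq_zero_of_isLB h𝒰 hρ hzero (IsLB.zero h𝒰)
  rw [hadd z (-z) h h.neg] at h0
  exact (neg_eq_of_add_eq_zero_right h0).symm

end Inv

/-! ### Lifts of cocycles -/

section Lift

variable {k : Type*} [CommRing k] {G : Type*} [Group G]
variable {Y0 Y1 F0 F1 A X : Type*}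
  [AddCommGroup Y0] [Module k Y0] [AddCommGroup Y1] [Module k Y1]
  [AddCommGroup F0] [Module k F0] [AddCommGroup F1] [Module k F1]
  [AddCommGroup A] [Module k A] [AddCommGroup X] [Module k X]
variable (D : Datum k G Y0 Y1 F0 F1 A X) {𝒰 : Set (Subgroup G)}

/-- A set-theoretic lift of a 1-cochain of `A` to `F₀`. -/
noncomputable def liftA (x : G → A) : G → F0 := Function.surjInv D.π_surj ∘ x

theorem π_comp_liftA (x : G → A) : ⇑D.π ∘ liftA D x = x :=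
  funext fun g => Function.surjInv_eq D.π_surj (x g)

theorem isLevel₁_liftA {x : G → A} (hx : IsLevel₁ 𝒰 x) : IsLevel₁ 𝒰 (liftA D x) :=
  hx.comp _

theorem π_comp_dOne (a' : G → F0) : ⇑D.π ∘ dOne D.ρF0 a' = dOne D.ρA (⇑D.π ∘ a') :=
  comp_dOne D.ρF0 D.ρA D.π D.π_comm a'

theorem exists_ι_eq {a' : G → F0} (ha : dOne D.ρA (⇑D.π ∘ a') = 0) (q : G × G) :
    ∃ z, D.ι z = dOne D.ρF0 a' q := by
  refine (D.exact _).1 ?_
  have := congrFun (π_comp_dOne D a') q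
  rw [ha] at this
  exact this

open Classical in
/-- The second component of the lift. -/
noncomputable def liftB (a' : G → F0) : G × G → F1 :=
  fun q => if h : ∃ z, D.ι z = dOne D.ρF0 a' q then h.choose else 0

theorem isLift_liftB {a' : G → F0} (ha : dOne D.ρA (⇑D.π ∘ a') = 0) :
    D.IsLift a' (liftB D a') := by
  intro q
  have h := exists_ι_eq D ha q
  rw [liftB, dif_pos h]
  exact h.choose_spec

/-- Everything is of level `V` for a suitable normal `V ∈ 𝒰`. -/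
theorem exists_isLiftAt (h𝒰 : IsLevelBasis 𝒰) (hY0 : IsDiscrete 𝒰 D.ρY0)
    (hY1 : IsDiscrete 𝒰 D.ρY1) (hF0 : IsDiscrete 𝒰 D.ρF0) {c : G → Y0} {y : Y1}
    (hcy : D.IsHyperCocycle c y) (hc : IsLevel₁ 𝒰 c) {a' : G → F0} {b : G × G → F1}
    (hab : D.IsLift a' b) (ha : IsLevel₁ 𝒰 a') :
    ∃ V ∈ 𝒰, V.Normal ∧ IsHyperAt D V c y ∧ IsLiftAt D V a' b := by
  obtain ⟨W₁, hW₁, -, hc1, hc2⟩ := h𝒰.exists_normal_fixing hY0 hc
  obtain ⟨U₁, hU₁, hy⟩ := hY1 y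
  obtain ⟨W₂, hW₂, -, ha1, ha2⟩ := h𝒰.exists_normal_fixing hF0 ha
  obtain ⟨W₃, hW₃, hW₃le⟩ := h𝒰.inf W₁ hW₁ U₁ hU₁
  obtain ⟨W₄, hW₄, hW₄le⟩ := h𝒰.inf W₃ hW₃ W₂ hW₂
  obtain ⟨V, hV, hVle, hVn⟩ := h𝒰.normal W₄ hW₄
  have l1 : V ≤ W₁ := hVle.trans (hW₄le.trans (inf_le_left.trans (hW₃le.trans inf_le_left)))
  have l2 : V ≤ U₁ := hVle.trans (hW₄le.trans (inf_le_left.trans (hW₃le.trans inf_le_right)))
  have l3 : V ≤ W₂ := hVle.trans (hW₄le.trans inf_le_right)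
  have haV : IsLevelAt₁ D.ρF0 V a' :=
    ⟨fun g s hs => ha1 g s (l3 hs), fun g s hs => ha2 g s (l3 hs)⟩
  exact ⟨V, hV, hVn,
    ⟨hcy, ⟨fun g s hs => hc1 g s (l1 hs), fun g s hs => hc2 g s (l1 hs)⟩,
      fun s hs => hy s (l2 hs)⟩,
    ⟨hab, haV, isLevelAt₂_of_isLift hVn hab haV⟩⟩

end Lift

/-! ### The pairing with values in the invariant -/

section Pair

variable {k : Type*} [CommRing k] {G : Type*} [Group G]
variable {Y0 Y1 F0 F1 A X : Type*}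
  [AddCommGroup Y0] [Module k Y0] [AddCommGroup Y1] [Module k Y1]
  [AddCommGroup F0] [Module k F0] [AddCommGroup F1] [Module k F1]
  [AddCommGroup A] [Module k A] [AddCommGroup X] [Module k X]
variable (D : Datum k G Y0 Y1 F0 F1 A X) {𝒰 : Set (Subgroup G)} (h𝒰 : IsLevelBasis 𝒰)
  (hY0 : IsDiscrete 𝒰 D.ρY0) (hY1 : IsDiscrete 𝒰 D.ρY1) (hF0 : IsDiscrete 𝒰 D.ρF0)
  (hX : IsDiscrete 𝒰 D.ρX) {p : ℕ}
  (Hp : ∀ (c : G → Y0) (y : Y1), D.IsHyperCocycle c y →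
    ∃ y₀ : Y0, (p : k) • c = dZero D.ρY0 y₀ ∧ (p : k) • y = D.f y₀)

include h𝒰 hY0 hY1 hF0 in
theorem isLevel₂_pairFun {c : G → Y0} {y : Y1} (hcy : D.IsHyperCocycle c y)
    (hc : IsLevel₁ 𝒰 c) {a' : G → F0} {b : G × G → F1} (hab : D.IsLift a' b)
    (ha : IsLevel₁ 𝒰 a') : IsLevel₂ 𝒰 (D.pairFun c y a' b) := by
  obtain ⟨V, hV, hVn, h1, h2⟩ := exists_isLiftAt D h𝒰 hY0 hY1 hF0 hcy hc hab ha
  exact (isLevelAt₂_pairFun D hVn h1 h2).isLevel₂ hV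

include h𝒰 hY0 hY1 hF0 Hp in
/-- The pairing of a level hyper-cocycle with a level lifted cocycle is a `p`-cocycle. -/
theorem isPC_pairFun {c : G → Y0} {y : Y1} (hcy : D.IsHyperCocycle c y)
    (hc : IsLevel₁ 𝒰 c) {a' : G → F0} {b : G × G → F1} (hab : D.IsLift a' b)
    (ha : IsLevel₁ 𝒰 a') : IsPC D.ρX 𝒰 p (D.pairFun c y a' b) := by
  refine ⟨D.dTwo_pairFun hcy hab, isLevel₂_pairFun D h𝒰 hY0 hY1 hF0 hcy hc hab ha, ?_⟩
  obtain ⟨y₀, h1, h2⟩ := Hp c y hcy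
  refine ⟨fun g => D.ev0 y₀ (a' g), ha.comp _, ?_⟩
  rw [← Nat.cast_smul_eq_nsmul k, ← D.pairFun_smul_left, h1, h2, D.pairFun_bdry_left y₀ hab]

include h𝒰 in
/-- Two level lifts of the same cochain give pairings differing by a level coboundary. -/
theorem pairFun_sub_isLB {c : G → Y0} {y : Y1} (hcy : D.IsHyperCocycle c y)
    {a' a'' : G → F0} {b b'' : G × G → F1} (hab : D.IsLift a' b) (hab' : D.IsLift a'' b'')
    (ha : IsLevel₁ 𝒰 a') (ha' : IsLevel₁ 𝒰 a'') (hπ : ⇑D.π ∘ a' = ⇑D.π ∘ a'') :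
    IsLB D.ρX 𝒰 (D.pairFun c y a' b - D.pairFun c y a'' b'') := by
  have hex : ∀ g, ∃ z, D.ι z = a' g - a'' g := fun g => by
    refine (D.exact _).1 ?_
    have := congrFun hπ g
    simp only [Function.comp_apply] at this
    rw [map_sub, this, sub_self]
  choose t ht using hex
  have hιt : ⇑D.ι ∘ t = a' - a'' := funext ht
  have htl : IsLevel₁ 𝒰 t := by
    obtain ⟨U, hU, h⟩ := h𝒰.isLevel₁_sub ha ha'
    refine ⟨U, hU, fun g s hs => D.ι_inj ?_⟩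
    rw [ht, ht]
    exact h g s hs
  have hbt : dOne D.ρF1 t = b - b'' := by
    funext q
    apply D.ι_inj
    have e1 : D.ι (dOne D.ρF1 t q) = dOne D.ρF0 (⇑D.ι ∘ t) q := D.isLift_ι t q
    have e2 : D.ι (b q) = dOne D.ρF0 a' q := hab q
    have e3 : D.ι (b'' q) = dOne D.ρF0 a'' q := hab' q
    rw [e1, hιt, map_sub (dOne D.ρF0), Pi.sub_apply, Pi.sub_apply, map_sub D.ι, e2, e3]
  have ea : a' = a'' + ⇑D.ι ∘ t := by rw [hιt]; abel
  have eb : b = b'' + dOne D.ρF1 t := by rw [hbt]; abel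
  refine ⟨fun g => D.ev1 y (t g), htl.comp _, ?_⟩
  rw [← D.pairFun_ι hcy t]
  conv_lhs => rw [ea, eb, D.pairFun_add_right]
  abel

include h𝒰 hF0 in
/-- The pairing with the lift `(d x₀, 0)` of a coboundary is a level coboundary. -/
theorem pairFun_dZero_isLB {c : G → Y0} {y : Y1} (hcy : D.IsHyperCocycle c y)
    (hc : IsLevel₁ 𝒰 c) (x₀ : F0) : IsLB D.ρX 𝒰 (D.pairFun c y (dZero D.ρF0 x₀) 0) := by
  rw [D.pairFun_dZero hcy x₀]
  refine IsLB.neg ⟨fun g => D.ev0 (c g) (D.ρF0 g x₀), ?_, rfl⟩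
  obtain ⟨U, hU, hcU⟩ := hc
  obtain ⟨U', hU', hx⟩ := hF0 x₀
  obtain ⟨W, hW, hWle⟩ := h𝒰.inf U hU U' hU'
  refine ⟨W, hW, fun g s hs => ?_⟩
  show D.ev0 (c (g * s)) (D.ρF0 (g * s) x₀) = D.ev0 (c g) (D.ρF0 g x₀)
  rw [hcU g s (hWle hs).1, map_mul, Module.End.mul_apply, hx s (hWle hs).2]

variable {Z : Type*} [AddCommGroup Z] (inv : (G × G → X) → Z)
  (hadd : ∀ z z', IsPC D.ρX 𝒰 p z → IsPC D.ρX 𝒰 p z' → inv (z + z') = inv z + inv z')
  (hzero : ∀ z, IsPC D.ρX 𝒰 p z → (inv z = 0 ↔ IsLB D.ρX 𝒰 z))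

/-- The pairing of the hyper-cochain `(c, y)` with the 1-cochain `x` of `A`, through a chosen
lift of `x`. -/
noncomputable def Lam (c : G → Y0) (y : Y1) (x : G → A) : Z :=
  inv (D.pairFun c y (liftA D x) (liftB D (liftA D x)))

/-- `x` is a level 1-cocycle of `A`. -/
def IsZ (x : G → A) : Prop := dOne D.ρA x = 0 ∧ IsLevel₁ 𝒰 x

theorem isLift_lift {x : G → A} (hx : dOne D.ρA x = 0) :
    D.IsLift (liftA D x) (liftB D (liftA D x)) :=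
  isLift_liftB D (by rw [π_comp_liftA]; exact hx)

include h𝒰 hY0 hY1 hF0 hX Hp hadd hzero in
/-- `Lam` can be computed with any level lift. -/
theorem Lam_eq {c : G → Y0} {y : Y1} (hcy : D.IsHyperCocycle c y) (hc : IsLevel₁ 𝒰 c)
    {x : G → A} (hx : dOne D.ρA x = 0 ∧ IsLevel₁ 𝒰 x) {a' : G → F0} {b : G × G → F1}
    (hab : D.IsLift a' b) (ha : IsLevel₁ 𝒰 a') (hπ : ⇑D.π ∘ a' = x) :
    Lam D inv c y x = inv (D.pairFun c y a' b) := by
  have hl := isLift_lift D hx.1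
  have hla := isLevel₁_liftA D hx.2
  exact inv_congr h𝒰 hX hadd hzero
    (isPC_pairFun D h𝒰 hY0 hY1 hF0 Hp hcy hc hl hla)
    (isPC_pairFun D h𝒰 hY0 hY1 hF0 Hp hcy hc hab ha)
    (pairFun_sub_isLB D h𝒰 hcy hl hab hla ha (by rw [π_comp_liftA, hπ]))

include h𝒰 hY0 hY1 hF0 hX Hp hadd hzero in
theorem Lam_add_right {c : G → Y0} {y : Y1} (hcy : D.IsHyperCocycle c y) (hc : IsLevel₁ 𝒰 c)
    {x x' : G → A} (hx : dOne D.ρA x = 0 ∧ IsLevel₁ 𝒰 x)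
    (hx' : dOne D.ρA x' = 0 ∧ IsLevel₁ 𝒰 x') :
    Lam D inv c y (x + x') = Lam D inv c y x + Lam D inv c y x' := by
  have hl := isLift_lift D hx.1
  have hla := isLevel₁_liftA D hx.2
  have hl' := isLift_lift D hx'.1
  have hla' := isLevel₁_liftA D hx'.2
  have hxx : dOne D.ρA (x + x') = 0 ∧ IsLevel₁ 𝒰 (x + x') :=
    ⟨by rw [map_add, hx.1, hx'.1, add_zero], h𝒰.isLevel₁_add hx.2 hx'.2⟩
  rw [Lam_eq D h𝒰 hY0 hY1 hF0 hX Hp inv hadd hzero hcy hc hxx (hl.add D hl')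
    (h𝒰.isLevel₁_add hla hla') (by
      funext g
      have e1 := congrFun (π_comp_liftA D x) g
      have e2 := congrFun (π_comp_liftA D x') g
      simp only [Function.comp_apply] at e1 e2
      simp only [Function.comp_apply, Pi.add_apply, map_add, e1, e2]),
    D.pairFun_add_right]
  exact hadd _ _ (isPC_pairFun D h𝒰 hY0 hY1 hF0 Hp hcy hc hl hla)
    (isPC_pairFun D h𝒰 hY0 hY1 hF0 Hp hcy hc hl' hla')

include h𝒰 hY0 hY1 hF0 hX Hp hadd hzero in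
theorem Lam_dZero {c : G → Y0} {y : Y1} (hcy : D.IsHyperCocycle c y) (hc : IsLevel₁ 𝒰 c)
    (hA : IsDiscrete 𝒰 D.ρA) (a₀ : A) : Lam D inv c y (dZero D.ρA a₀) = 0 := by
  obtain ⟨x₀, rfl⟩ := D.π_surj a₀
  have hx : dOne D.ρA (dZero D.ρA (D.π x₀)) = 0 ∧ IsLevel₁ 𝒰 (dZero D.ρA (D.π x₀)) :=
    ⟨dOne_dZero _ _, isLevel₁_dZero hA _⟩
  rw [Lam_eq D h𝒰 hY0 hY1 hF0 hX Hp inv hadd hzero hcy hc hx (D.isLift_dZero x₀)
    (isLevel₁_dZero hF0 x₀) (comp_dZero D.ρF0 D.ρA D.π D.π_comm x₀)]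
  exact inv_eq_zero_of_isLB h𝒰 hX hzero (pairFun_dZero_isLB D h𝒰 hF0 hcy hc x₀)

include h𝒰 hY0 hY1 hF0 hX Hp hadd hzero in
theorem Lam_add_left {c c' : G → Y0} {y y' : Y1} (hcy : D.IsHyperCocycle c y)
    (hc : IsLevel₁ 𝒰 c) (hcy' : D.IsHyperCocycle c' y') (hc' : IsLevel₁ 𝒰 c')
    {x : G → A} (hx : dOne D.ρA x = 0 ∧ IsLevel₁ 𝒰 x) :
    Lam D inv (c + c') (y + y') x = Lam D inv c y x + Lam D inv c' y' x := by
  have hl := isLift_lift D hx.1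
  have hla := isLevel₁_liftA D hx.2
  rw [Lam, D.pairFun_add_left]
  exact hadd _ _ (isPC_pairFun D h𝒰 hY0 hY1 hF0 Hp hcy hc hl hla)
    (isPC_pairFun D h𝒰 hY0 hY1 hF0 Hp hcy' hc' hl hla)

include h𝒰 hX hzero in
theorem Lam_bdry (y₀ : Y0) {x : G → A} (hx : dOne D.ρA x = 0 ∧ IsLevel₁ 𝒰 x) :
    Lam D inv (dZero D.ρY0 y₀) (D.f y₀) x = 0 := by
  have hl := isLift_lift D hx.1
  have hla := isLevel₁_liftA D hx.2
  rw [Lam, D.pairFun_bdry_left y₀ hl]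
  exact inv_eq_zero_of_isLB h𝒰 hX hzero ⟨_, hla.comp _, rfl⟩

include h𝒰 hX hzero in
theorem Lam_zero_left (x : G → A) : Lam D inv (0 : G → Y0) (0 : Y1) x = 0 := by
  have e : D.pairFun (0 : G → Y0) (0 : Y1) (liftA D x) (liftB D (liftA D x)) = 0 := by
    funext q
    simp [Datum.pairFun]
  rw [Lam, e]
  exact inv_eq_zero_of_isLB h𝒰 hX hzero (IsLB.zero h𝒰)

theorem isHyperCocycle_zero : D.IsHyperCocycle (0 : G → Y0) (0 : Y1) :=
  ⟨map_zero _, fun g => by simp⟩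

theorem IsHyperCocycle.neg {c : G → Y0} {y : Y1} (h : D.IsHyperCocycle c y) :
    D.IsHyperCocycle (-c) (-y) :=
  ⟨by rw [map_neg, h.1, neg_zero], fun g => by
    rw [Pi.neg_apply, map_neg, map_neg, h.2 g]; abel⟩

include h𝒰 hY0 hY1 hF0 hX Hp hadd hzero in
theorem Lam_neg_left {c : G → Y0} {y : Y1} (hcy : D.IsHyperCocycle c y) (hc : IsLevel₁ 𝒰 c)
    {x : G → A} (hx : dOne D.ρA x = 0 ∧ IsLevel₁ 𝒰 x) :
    Lam D inv (-c) (-y) x = - Lam D inv c y x := by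
  have h := Lam_add_left D h𝒰 hY0 hY1 hF0 hX Hp inv hadd hzero hcy hc
    (IsHyperCocycle.neg D hcy) (hc.comp (fun v => -v)) hx
  rw [add_neg_cancel, add_neg_cancel, Lam_zero_left D h𝒰 hX inv hzero] at h
  exact (neg_eq_of_add_eq_zero_right h.symm).symm

include h𝒰 hY0 hY1 hF0 hX Hp hadd hzero in
/-- **Separation** (from the right kernel statement): a level cocycle of `A` which is killed by
`Lam c y` for every level hyper-cocycle `(c, y)` is a coboundary. -/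
theorem exists_dZero_of_Lam_eq_zero
    (RK : ∀ (a' : G → F0) (b : G × G → F1), D.IsLift a' b → IsLevel₁ 𝒰 a' →
      (∀ (c : G → Y0) (y : Y1), D.IsHyperCocycle c y → IsLevel₁ 𝒰 c →
        ∃ u : G → X, IsLevel₁ 𝒰 u ∧ D.pairFun c y a' b = dOne D.ρX u) →
      ∃ a₀ : A, ⇑D.π ∘ a' = dZero D.ρA a₀)
    {x : G → A} (hx : dOne D.ρA x = 0 ∧ IsLevel₁ 𝒰 x)
    (h : ∀ (c : G → Y0) (y : Y1), D.IsHyperCocycle c y → IsLevel₁ 𝒰 c → Lam D inv c y x = 0) :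
    ∃ a₀ : A, x = dZero D.ρA a₀ := by
  have hl := isLift_lift D hx.1
  have hla := isLevel₁_liftA D hx.2
  obtain ⟨a₀, ha₀⟩ := RK _ _ hl hla (fun c y hcy hc =>
    (hzero _ (isPC_pairFun D h𝒰 hY0 hY1 hF0 Hp hcy hc hl hla)).1 (h c y hcy hc))
  exact ⟨a₀, by rw [← ha₀, π_comp_liftA]⟩

end Pair

end Fermat.Agent.TW.GlobalEC.HyperPair79
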