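/-
Program TW (S56), WP4 "EC", brick EC3K (helper79), part 2: computations with the pairing datum
`K(P; C) = R.datum ρC` of a resolution `R : IndRes20.Res k G P1 P0 M`.

* `hyp R ν`        : the hyper-1-cochain `(g ↦ ν g ∘ π, 0)` attached to `ν : G → Hom(M, C)`;
* `IsCocν`, `IsCobν`, `cupν` : cocycles / coboundaries of `Hom(M, C)` (elementwise) and the cup
  product `(g, h) ↦ ν g (g • x h)`;
* pull-back of hyper-cocycles along a morphism of resolutions, `pairFun_pull`;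
* `core4`           : the computation (4c) of the plan (additive section);
* `exists_isCobν_of_isLB` (left kernel ⇒ injectivity), `isPC_cupν`.
-/
import Mathlib
import Fermat.Agent.PT.PRO.HpAt29
import Fermat.Agent.TW.GlobalEC.HyperPair79
import Fermat.Agent.TW.GlobalEC.SpecD26

set_option autoImplicit false
set_option linter.unusedSectionVars false
set_option linter.unusedVariables false

namespace Fermat.Agent.TW.GlobalEC.HyperRes79

open Fermat.Agent.PT.PRO Fermat.Agent.PT.PRO.HyperLevel25 Fermat.Agent.PT.PRO.Pairing20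
  Fermat.Agent.PT.PRO.GlobalDuality20 Fermat.Agent.PT.PRO.IndRes20
open Fermat.Agent.TW.GlobalEC.HyperPair79

variable {k : Type*} [CommRing k] {G : Type*} [Group G]
variable {P1 P0 M C : Type*} [AddCommGroup P1] [Module k P1] [AddCommGroup P0] [Module k P0]
  [AddCommGroup M] [Module k M] [AddCommGroup C] [Module k C]

/-! ### Cocycles of `Hom(M, C)`, elementwise -/

/-- `ν` is a 1-cocycle of `Hom(M, C)` (conjugation action). -/
def IsCocν (ρM : Representation k G M) (ρC : Representation k G C) (ν : G → (M →ₗ[k] C)) : Prop :=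
  ∀ g h m, ν (g * h) m = ρC g (ν h (ρM g⁻¹ m)) + ν g m

/-- `ν = d φ₀` in `Hom(M, C)`. -/
def IsCobν (ρM : Representation k G M) (ρC : Representation k G C) (ν : G → (M →ₗ[k] C))
    (φ₀ : M →ₗ[k] C) : Prop :=
  ∀ g m, ν g m = ρC g (φ₀ (ρM g⁻¹ m)) - φ₀ m

/-- The cup product `(g, h) ↦ ν g (g • x h)`. -/
def cupν (ρM : Representation k G M) (ν : G → (M →ₗ[k] C)) (x : G → M) : G × G → C :=
  fun q => ν q.1 (ρM q.1 (x q.2))

@[simp] theorem cupν_apply (ρM : Representation k G M) (ν : G → (M →ₗ[k] C)) (x : G → M)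
    (g h : G) : cupν ρM ν x (g, h) = ν g (ρM g (x h)) := rfl

section Single

variable (R : Res k G P1 P0 M) (ρC : Representation k G C)

theorem π_ι (z : P1) : R.π (R.ι z) = 0 := (R.exact _).2 ⟨z, rfl⟩

/-- The hyper-1-cochain `g ↦ ν g ∘ π` attached to `ν`. -/
def hyp (ν : G → (M →ₗ[k] C)) : G → (P0 →ₗ[k] C) := fun g => ν g ∘ₗ R.π

@[simp] theorem hyp_apply (ν : G → (M →ₗ[k] C)) (g : G) (x : P0) : hyp R ν g x = ν g (R.π x) :=
  rfl

theorem isHyperCocycle_hyp {ν : G → (M →ₗ[k] C)} (hν : IsCocν R.ρM ρC ν) :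
    (R.datum ρC).IsHyperCocycle (hyp R ν) 0 := by
  refine ⟨?_, fun g => ?_⟩
  · funext q
    obtain ⟨g, h⟩ := q
    apply LinearMap.ext
    intro x
    simp only [dOne_apply, Res.datum_ρY0, LinearMap.sub_apply, LinearMap.add_apply,
      LinearMap.comp_apply, hyp_apply, Pi.zero_apply, LinearMap.zero_apply, R.π_comm]
    rw [hν g h (R.π x)]
    abel
  · apply LinearMap.ext
    intro z
    simp only [Res.datum_f, LinearMap.comp_apply, hyp_apply, π_ι, map_zero,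
      LinearMap.zero_apply, sub_zero]

theorem isCocν_of_dOne_hyp {ν : G → (M →ₗ[k] C)}
    (h : dOne (R.datum ρC).ρY0 (hyp R ν) = 0) : IsCocν R.ρM ρC ν := by
  intro g h' m
  obtain ⟨x, rfl⟩ := R.π_surj m
  have := LinearMap.congr_fun (congrFun h (g, h')) x
  simp only [dOne_apply, Res.datum_ρY0, LinearMap.sub_apply, LinearMap.add_apply,
    LinearMap.comp_apply, hyp_apply, Pi.zero_apply, LinearMap.zero_apply, R.π_comm] at this
  rw [sub_add_eq_add_sub, sub_eq_zero] at this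
  exact this.symm

theorem pairFun_hyp (ν : G → (M →ₗ[k] C)) (a' : G → P0) (b : G × G → P1) :
    (R.datum ρC).pairFun (hyp R ν) 0 a' b = cupν R.ρM ν (⇑R.π ∘ a') := by
  funext q
  obtain ⟨g, h⟩ := q
  simp only [Datum.pairFun_apply, Res.datum_ev0, Res.datum_ev1, Res.datum_ρF0, hyp_apply,
    LinearMap.zero_apply, add_zero, R.π_comm, cupν_apply, Function.comp_apply]

theorem isLevel₁_hyp {𝒰 : Set (Subgroup G)} {ν : G → (M →ₗ[k] C)} (h : IsLevel₁ 𝒰 ν) :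
    IsLevel₁ 𝒰 (hyp R ν) := h.comp (fun φ => φ ∘ₗ R.π)

theorem comp_π_injective {φ φ' : M →ₗ[k] C} (h : φ ∘ₗ R.π = φ' ∘ₗ R.π) : φ = φ' := by
  apply LinearMap.ext
  intro m
  obtain ⟨x, rfl⟩ := R.π_surj m
  exact LinearMap.congr_fun h x

theorem isLevel₁_of_hyp {𝒰 : Set (Subgroup G)} {ν : G → (M →ₗ[k] C)}
    (h : IsLevel₁ 𝒰 (hyp R ν)) : IsLevel₁ 𝒰 ν := by
  obtain ⟨U, hU, hν⟩ := h
  exact ⟨U, hU, fun g s hs => comp_π_injective R (hν g s hs)⟩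

theorem hyp_eq_dZero {ν : G → (M →ₗ[k] C)} {φ₀ : M →ₗ[k] C} (h : IsCobν R.ρM ρC ν φ₀) :
    hyp R ν = dZero (R.datum ρC).ρY0 (φ₀ ∘ₗ R.π) := by
  funext g
  apply LinearMap.ext
  intro x
  simp only [hyp_apply, dZero_apply, Res.datum_ρY0, LinearMap.sub_apply, LinearMap.comp_apply,
    R.π_comm]
  exact h g (R.π x)

theorem f_comp_π (φ₀ : M →ₗ[k] C) : (R.datum ρC).f (φ₀ ∘ₗ R.π) = 0 := by
  apply LinearMap.ext
  intro z
  simp only [Res.datum_f, LinearMap.comp_apply, π_ι, map_zero, LinearMap.zero_apply]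

theorem isCobν_of_hyp_eq_dZero {ν : G → (M →ₗ[k] C)} {φ₀ : M →ₗ[k] C}
    (h : hyp R ν = dZero (R.datum ρC).ρY0 (φ₀ ∘ₗ R.π)) : IsCobν R.ρM ρC ν φ₀ := by
  intro g m
  obtain ⟨x, rfl⟩ := R.π_surj m
  have := LinearMap.congr_fun (congrFun h g) x
  simp only [hyp_apply, dZero_apply, Res.datum_ρY0, LinearMap.sub_apply, LinearMap.comp_apply,
    R.π_comm] at this
  exact this

/-- A linear map on `P₀` killing `ι P₁` factors through `π`. -/
theorem exists_comp_π_eq (y₀ : P0 →ₗ[k] C) (h : y₀ ∘ₗ R.ι = 0) :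
    ∃ φ₀ : M →ₗ[k] C, y₀ = φ₀ ∘ₗ R.π := by
  have hex : Function.Exact R.ι R.π := fun x => R.exact x
  have hmem : y₀ ∈ LinearMap.ker (LinearMap.lcomp k C R.ι) := by
    rw [LinearMap.mem_ker]
    exact h
  refine ⟨(HomCx29.kerLcompEquiv (X := C) R.ι R.π R.π_surj hex).symm ⟨y₀, hmem⟩, ?_⟩
  have := (HomCx29.kerLcompEquiv (X := C) R.ι R.π R.π_surj hex).apply_symm_apply ⟨y₀, hmem⟩
  have h2 := congrArg Subtype.val this
  rw [HomCx29.coe_kerLcompEquiv_apply] at h2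
  exact h2.symm

theorem exists_hyp_eq (c' : G → (P0 →ₗ[k] C)) (h : ∀ g, c' g ∘ₗ R.ι = 0) :
    ∃ ν : G → (M →ₗ[k] C), c' = hyp R ν := by
  choose ν hν using fun g => exists_comp_π_eq R (c' g) (h g)
  exact ⟨ν, funext hν⟩

/-! #### Discreteness -/

variable {𝒰 : Set (Subgroup G)}

theorem isDiscrete_ρ1 (h0 : IsDiscrete 𝒰 R.ρ0) : IsDiscrete 𝒰 R.ρ1 := by
  intro z
  obtain ⟨U, hU, h⟩ := h0 (R.ι z)
  exact ⟨U, hU, fun s hs => R.ι_inj (by rw [R.ι_comm, h s hs])⟩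

theorem isDiscrete_ρM (h0 : IsDiscrete 𝒰 R.ρ0) : IsDiscrete 𝒰 R.ρM := by
  intro m
  obtain ⟨x, rfl⟩ := R.π_surj m
  obtain ⟨U, hU, h⟩ := h0 x
  exact ⟨U, hU, fun s hs => by rw [← R.π_comm, h s hs]⟩

theorem isDiscrete_ρY0 [Module.Finite k P0] (h𝒰 : IsLevelBasis 𝒰) (h0 : IsDiscrete 𝒰 R.ρ0)
    (hC : IsDiscrete 𝒰 ρC) : IsDiscrete 𝒰 (R.datum ρC).ρY0 :=
  HomCx29.isDiscrete_linHom h𝒰 R.ρ0 ρC h0 hC

theorem isDiscrete_ρY1 [Module.Finite k P1] (h𝒰 : IsLevelBasis 𝒰) (h0 : IsDiscrete 𝒰 R.ρ0)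
    (hC : IsDiscrete 𝒰 ρC) : IsDiscrete 𝒰 (R.datum ρC).ρY1 :=
  HomCx29.isDiscrete_linHom h𝒰 R.ρ1 ρC (isDiscrete_ρ1 R h0) hC

end Single

/-! ### Morphisms of resolutions -/

section Pull

variable {P1' P0' M' : Type*} [AddCommGroup P1'] [Module k P1'] [AddCommGroup P0'] [Module k P0']
  [AddCommGroup M'] [Module k M']
variable (R : Res k G P1 P0 M) (R' : Res k G P1' P0' M') (ρC : Representation k G C)
  (μ0 : P0 →ₗ[k] P0') (μ1 : P1 →ₗ[k] P1') (μ : M →ₗ[k] M')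
  (hμι : ∀ z, R'.ι (μ1 z) = μ0 (R.ι z)) (hμπ : ∀ x, R'.π (μ0 x) = μ (R.π x))
  (hμ0 : ∀ g x, μ0 (R.ρ0 g x) = R'.ρ0 g (μ0 x))

include hμι hμ0 in
theorem μ1_comm (g : G) (z : P1) : μ1 (R.ρ1 g z) = R'.ρ1 g (μ1 z) := by
  apply R'.ι_inj
  rw [hμι, R.ι_comm, hμ0, R'.ι_comm, hμι]

include hμπ hμ0 in
theorem μ_comm (g : G) (m : M) : μ (R.ρM g m) = R'.ρM g (μ m) := by
  obtain ⟨x, rfl⟩ := R.π_surj m
  rw [← R.π_comm, ← hμπ, hμ0, R'.π_comm, hμπ]

include hμι hμ0 in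
/-- Pull-back of a hyper-cocycle along a morphism of resolutions. -/
theorem isHyperCocycle_pull {c : G → (P0' →ₗ[k] C)} {y : P1' →ₗ[k] C}
    (hcy : (R'.datum ρC).IsHyperCocycle c y) :
    (R.datum ρC).IsHyperCocycle (fun g => c g ∘ₗ μ0) (y ∘ₗ μ1) := by
  refine ⟨?_, fun g => ?_⟩
  · have hL : ∀ g (φ : P0' →ₗ[k] C), LinearMap.lcomp k C μ0 ((R'.datum ρC).ρY0 g φ) =
        (R.datum ρC).ρY0 g (LinearMap.lcomp k C μ0 φ) := by
      intro g φ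
      apply LinearMap.ext
      intro x
      simp only [LinearMap.lcomp_apply', Res.datum_ρY0, LinearMap.comp_apply, hμ0]
    have := comp_dOne (R'.datum ρC).ρY0 (R.datum ρC).ρY0 (LinearMap.lcomp k C μ0) hL c
    rw [hcy.1] at this
    have h2 : (⇑(LinearMap.lcomp k C μ0) ∘ c) = fun g => c g ∘ₗ μ0 := rfl
    rw [h2] at this
    rw [← this]
    funext q
    simp
  · apply LinearMap.ext
    intro z
    have h1 := LinearMap.congr_fun (hcy.2 g) (μ1 z)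
    simp only [Res.datum_f, LinearMap.comp_apply, Res.datum_ρY1, LinearMap.sub_apply] at h1
    simp only [Res.datum_f, LinearMap.comp_apply, Res.datum_ρY1, LinearMap.sub_apply]
    rw [← hμι, h1, μ1_comm R R' μ0 μ1 hμι hμ0]

include hμ0 in
theorem pairFun_pull (c : G → (P0' →ₗ[k] C)) (y : P1' →ₗ[k] C) (a' : G → P0)
    (b : G × G → P1) :
    (R.datum ρC).pairFun (fun g => c g ∘ₗ μ0) (y ∘ₗ μ1) a' b =
      (R'.datum ρC).pairFun c y (⇑μ0 ∘ a') (⇑μ1 ∘ b) := by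
  funext q
  obtain ⟨g, h⟩ := q
  simp only [Datum.pairFun_apply, Res.datum_ev0, Res.datum_ev1, Res.datum_ρF0,
    LinearMap.comp_apply, Function.comp_apply, hμ0]

include hμι hμ0 in
theorem isLift_push {a' : G → P0} {b : G × G → P1} (hab : (R.datum ρC).IsLift a' b) :
    (R'.datum ρC).IsLift (⇑μ0 ∘ a') (⇑μ1 ∘ b) := by
  intro q
  have h1 : R.ι (b q) = dOne R.ρ0 a' q := hab q
  have h2 := congrFun (comp_dOne R.ρ0 R'.ρ0 μ0 hμ0 a') q
  show R'.ι (μ1 (b q)) = dOne R'.ρ0 (⇑μ0 ∘ a') q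
  rw [hμι, h1, ← h2]
  rfl

include hμπ in
theorem π_push (a' : G → P0) : ⇑R'.π ∘ (⇑μ0 ∘ a') = ⇑μ ∘ (⇑R.π ∘ a') := by
  funext g
  exact hμπ (a' g)

variable (σ0 : P0' →ₗ[k] P0) (σ1 : P1' →ₗ[k] P1) (hσι : ∀ z, R.ι (σ1 z) = σ0 (R'.ι z))
  (hμσ : ∀ z, μ1 (σ1 z) = z)

include hμι hμπ hμ0 hσι hμσ in
/-- **The computation (4c).**  If the pull-back of the hyper-cocycle `(c, y)` of `R'` along `μ`
is the hyper-coboundary of `y₀`, then `(c, y) = (hyp ν, 0) + D⁰ z₀` with `ν ∘ μ = d φ₀`. -/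
theorem core4 {c : G → (P0' →ₗ[k] C)} {y : P1' →ₗ[k] C}
    (hcy : (R'.datum ρC).IsHyperCocycle c y) (y₀ : P0 →ₗ[k] C)
    (h1 : (fun g => c g ∘ₗ μ0) = dZero (R.datum ρC).ρY0 y₀) (h2 : y ∘ₗ μ1 = y₀ ∘ₗ R.ι) :
    ∃ (ν : G → (M' →ₗ[k] C)) (φ₀ : M →ₗ[k] C) (z₀ : P0' →ₗ[k] C),
      c = hyp R' ν + dZero (R'.datum ρC).ρY0 z₀ ∧ y = z₀ ∘ₗ R'.ι ∧
      ∀ g m, ν g (μ m) = ρC g (φ₀ (R.ρM g⁻¹ m)) - φ₀ m := by
  -- `z₀ = y₀ ∘ σ0`
  have hz : (y₀ ∘ₗ σ0) ∘ₗ R'.ι = y := by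
    apply LinearMap.ext
    intro z
    have := LinearMap.congr_fun h2 (σ1 z)
    simp only [LinearMap.comp_apply, hμσ] at this
    simp only [LinearMap.comp_apply, ← hσι]
    exact this.symm
  -- `c' = c - d z₀` kills `ι'`
  have hc' : ∀ g, (c g - dZero (R'.datum ρC).ρY0 (y₀ ∘ₗ σ0) g) ∘ₗ R'.ι = 0 := by
    intro g
    have e1 : (R'.datum ρC).f (c g) = (R'.datum ρC).ρY1 g y - y := hcy.2 g
    apply LinearMap.ext
    intro z
    have e2 := LinearMap.congr_fun e1 z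
    simp only [Res.datum_f, LinearMap.comp_apply, Res.datum_ρY1, LinearMap.sub_apply] at e2
    have e3 : ∀ w, y w = y₀ (σ0 (R'.ι w)) := fun w => (LinearMap.congr_fun hz w).symm
    simp only [LinearMap.comp_apply, LinearMap.sub_apply, dZero_apply, Res.datum_ρY0,
      LinearMap.zero_apply, e2]
    rw [e3 z, e3 (R'.ρ1 g⁻¹ z), R'.ι_comm]
    abel
  obtain ⟨ν, hν⟩ := exists_hyp_eq R' (fun g => c g - dZero (R'.datum ρC).ρY0 (y₀ ∘ₗ σ0) g) hc'
  -- `y₀ - z₀ ∘ μ0` kills `ι`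
  have hy' : (y₀ - (y₀ ∘ₗ σ0) ∘ₗ μ0) ∘ₗ R.ι = 0 := by
    apply LinearMap.ext
    intro z
    have e1 := LinearMap.congr_fun h2 z
    have e2 := LinearMap.congr_fun h2 (σ1 (μ1 z))
    simp only [LinearMap.comp_apply, hμσ] at e1 e2
    simp only [LinearMap.comp_apply, LinearMap.sub_apply, LinearMap.zero_apply, ← hμι, ← hσι]
    rw [← e1, ← e2, sub_self]
  obtain ⟨φ₀, hφ₀⟩ := exists_comp_π_eq R _ hy'
  refine ⟨ν, φ₀, y₀ ∘ₗ σ0, ?_, hz.symm, fun g m => ?_⟩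
  · funext g
    have := congrFun hν g
    rw [Pi.add_apply, ← this]
    abel
  · obtain ⟨x, rfl⟩ := R.π_surj m
    have e1 := LinearMap.congr_fun (congrFun hν g) (μ0 x)
    have e2 := LinearMap.congr_fun (congrFun h1 g) x
    have e3 : ∀ w, φ₀ (R.π w) = y₀ w - y₀ (σ0 (μ0 w)) := fun w =>
      (LinearMap.congr_fun hφ₀ w).symm
    simp only [LinearMap.comp_apply, LinearMap.sub_apply, dZero_apply, Res.datum_ρY0,
      hyp_apply, hμπ] at e1 e2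
    rw [← e1, e2, ← R.π_comm, e3, e3, ← hμ0, map_sub]
    abel

end Pull

end Fermat.Agent.TW.GlobalEC.HyperRes79
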