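/-
Program TW (S56), WP4 "EC", brick EC3K (helper79), part 3: the three generic consequences of
hyper-duality (`SpecD26.LKDatum`, `SpecD26.RKDatum`) that the kernel-rank identity needs, in a
form which only mentions the base modules (so that they can be used at `k = ℤ`).

`R` (resp. `R'`) a resolution of `M` (resp. `M'`), `μ : R → R'` a morphism of resolutions with a
`k`-linear (not equivariant) section `σ`, `inv` an invariant for `(ρC, 𝒰, p)`: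

* `isPC_cupν`               : the cup product of level cocycles `ν` of `Hom(M, C)` and `x` of `M`
                              is a `p`-cocycle;
* `exists_isCobν_of_isLB`   : (left kernel) `ν` with `ν ∪ x` a level coboundary for all `x` is a
                              coboundary;
* `exists_cocycle_of_annihilates` : (right kernel + left kernel) every functional `lam` on
      `H¹(M')` killing the image of `H¹(M)` is `x ↦ inv (ν ∪ x)` with `ν ∘ μ` a coboundary.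
-/
import Mathlib
import Fermat.Agent.TW.GlobalEC.HyperRes79

set_option autoImplicit false
set_option linter.unusedSectionVars false
set_option linter.unusedVariables false

namespace Fermat.Agent.TW.GlobalEC.HyperMain79

open Fermat.Agent.PT.PRO Fermat.Agent.PT.PRO.HyperLevel25 Fermat.Agent.PT.PRO.Pairing20
  Fermat.Agent.PT.PRO.GlobalDuality20 Fermat.Agent.PT.PRO.IndRes20
open Fermat.Agent.TW.GlobalEC.HyperPair79 Fermat.Agent.TW.GlobalEC.HyperRes79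
open Fermat.Agent.TW.GlobalEC.SpecD26

variable {k : Type*} [CommRing k] {G : Type*} [Group G] {𝒰 : Set (Subgroup G)}
variable {P1 P0 M C : Type*} [AddCommGroup P1] [Module k P1] [AddCommGroup P0] [Module k P0]
  [AddCommGroup M] [Module k M] [AddCommGroup C] [Module k C]
  [Module.Finite k P0] [Module.Finite k P1]

section One

variable (h𝒰 : IsLevelBasis 𝒰) (R : Res k G P1 P0 M) (ρC : Representation k G C)
  (h0 : IsDiscrete 𝒰 R.ρ0) (hC : IsDiscrete 𝒰 ρC) (p : ℕ) (hpM : ∀ m : M, (p : k) • m = 0)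

include h𝒰 h0 hC hpM in
/-- The cup product of a level cocycle of `Hom(M, C)` with a level cocycle of `M` is a
`p`-cocycle of `C`. -/
theorem isPC_cupν {ν : G → (M →ₗ[k] C)} (hν : IsCocν R.ρM ρC ν) (hνl : IsLevel₁ 𝒰 ν)
    {x : G → M} (hx : dOne R.ρM x = 0 ∧ IsLevel₁ 𝒰 x) : IsPC ρC 𝒰 p (cupν R.ρM ν x) := by
  have h := isPC_pairFun (R.datum ρC) h𝒰 (isDiscrete_ρY0 R ρC h𝒰 h0 hC)
    (isDiscrete_ρY1 R ρC h𝒰 h0 hC) h0 (p := p) (HpAt29.hp_datum R ρC p hpM)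
    (isHyperCocycle_hyp R ρC hν) (isLevel₁_hyp R hνl) (isLift_lift (R.datum ρC) hx.1)
    (isLevel₁_liftA (R.datum ρC) hx.2)
  rw [pairFun_hyp] at h
  have e : (⇑R.π ∘ liftA (R.datum ρC) x) = x := π_comp_liftA (R.datum ρC) x
  rw [e] at h
  exact h

/-- **Left kernel ⇒ injectivity**: a level cocycle `ν` of `Hom(M, C)` whose cup product with
every level cocycle of `M` is a level coboundary is a coboundary. -/
theorem exists_isCobν_of_isLB (LK : LKDatum R ρC 𝒰) {ν : G → (M →ₗ[k] C)}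
    (hν : IsCocν R.ρM ρC ν) (hνl : IsLevel₁ 𝒰 ν)
    (h : ∀ x : G → M, dOne R.ρM x = 0 → IsLevel₁ 𝒰 x → IsLB ρC 𝒰 (cupν R.ρM ν x)) :
    ∃ φ₀ : M →ₗ[k] C, IsCobν R.ρM ρC ν φ₀ := by
  obtain ⟨y₀, hc, hy⟩ := LK (hyp R ν) 0 (isHyperCocycle_hyp R ρC hν) (isLevel₁_hyp R hνl)
    (fun a' b hab ha => by
      rw [pairFun_hyp]
      exact h _ (hab.dOne_comp (R.datum ρC)) (ha.comp R.π))
  obtain ⟨φ₀, rfl⟩ := exists_comp_π_eq R y₀ hy.symm
  exact ⟨φ₀, isCobν_of_hyp_eq_dZero R ρC hc⟩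

end One

section Two

variable {P1' P0' M' : Type*} [AddCommGroup P1'] [Module k P1'] [AddCommGroup P0'] [Module k P0']
  [AddCommGroup M'] [Module k M'] [Module.Finite k P0'] [Module.Finite k P1']
variable (h𝒰 : IsLevelBasis 𝒰) (R : Res k G P1 P0 M) (R' : Res k G P1' P0' M')
  (ρC : Representation k G C)
  (μ0 : P0 →ₗ[k] P0') (μ1 : P1 →ₗ[k] P1') (μ : M →ₗ[k] M')
  (hμι : ∀ z, R'.ι (μ1 z) = μ0 (R.ι z)) (hμπ : ∀ x, R'.π (μ0 x) = μ (R.π x))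
  (hμ0 : ∀ g x, μ0 (R.ρ0 g x) = R'.ρ0 g (μ0 x))
  (σ0 : P0' →ₗ[k] P0) (σ1 : P1' →ₗ[k] P1) (hσι : ∀ z, R.ι (σ1 z) = σ0 (R'.ι z))
  (hμσ : ∀ z, μ1 (σ1 z) = z)
  (h0 : IsDiscrete 𝒰 R.ρ0) (h0' : IsDiscrete 𝒰 R'.ρ0) (hC : IsDiscrete 𝒰 ρC)
  (p : ℕ) [Fact p.Prime] (hpM' : ∀ m : M', (p : k) • m = 0)
  (LK : LKDatum R ρC 𝒰) (RK' : RKDatum R' ρC 𝒰)
  (inv : (G × G → C) → ZMod p)
  (hadd : ∀ z z', IsPC ρC 𝒰 p z → IsPC ρC 𝒰 p z' → inv (z + z') = inv z + inv z')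
  (hzero : ∀ z, IsPC ρC 𝒰 p z → (inv z = 0 ↔ IsLB ρC 𝒰 z))
  {V : Type*} [AddCommGroup V] [Module (ZMod p) V] [FiniteDimensional (ZMod p) V]
  (cl : (G → M') → V)
  (cl_add : ∀ x x', (dOne R'.ρM x = 0 ∧ IsLevel₁ 𝒰 x) → (dOne R'.ρM x' = 0 ∧ IsLevel₁ 𝒰 x') →
    cl (x + x') = cl x + cl x')
  (cl_surj : ∀ v, ∃ x, (dOne R'.ρM x = 0 ∧ IsLevel₁ 𝒰 x) ∧ cl x = v)
  (cl_zero : ∀ x, (dOne R'.ρM x = 0 ∧ IsLevel₁ 𝒰 x) → (cl x = 0 ↔ ∃ m, x = dZero R'.ρM m))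

include h𝒰 h0' hC hpM' hadd hzero cl_add cl_surj cl_zero in
/-- The functional on `V = H¹(M')` induced by a level hyper-cocycle `(c, y)` of `R'`. -/
theorem exists_dual_of_hyperCocycle {c : G → (P0' →ₗ[k] C)} {y : P1' →ₗ[k] C}
    (hcy : (R'.datum ρC).IsHyperCocycle c y) (hc : IsLevel₁ 𝒰 c) :
    ∃ l : Module.Dual (ZMod p) V, ∀ x, (dOne R'.ρM x = 0 ∧ IsLevel₁ 𝒰 x) →
      l (cl x) = Lam (R'.datum ρC) inv c y x := by
  classical
  have hY0 := isDiscrete_ρY0 R' ρC h𝒰 h0' hC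
  have hY1 := isDiscrete_ρY1 R' ρC h𝒰 h0' hC
  have Hp := HpAt29.hp_datum R' ρC p hpM'
  have hMd : IsDiscrete 𝒰 (R'.datum ρC).ρA := isDiscrete_ρM R' h0'
  -- independence of the representative
  have key : ∀ x x', (dOne R'.ρM x = 0 ∧ IsLevel₁ 𝒰 x) → (dOne R'.ρM x' = 0 ∧ IsLevel₁ 𝒰 x') →
      cl x = cl x' → Lam (R'.datum ρC) inv c y x = Lam (R'.datum ρC) inv c y x' := by
    intro x x' hx hx' hxx
    have hd : dOne R'.ρM (x - x') = 0 ∧ IsLevel₁ 𝒰 (x - x') :=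
      ⟨by rw [map_sub, hx.1, hx'.1, sub_zero], h𝒰.isLevel₁_sub hx.2 hx'.2⟩
    have e0 : cl (x' + (x - x')) = cl x' + cl (x - x') := cl_add _ _ hx' hd
    rw [add_sub_cancel, hxx] at e0
    obtain ⟨m, hm⟩ := (cl_zero _ hd).1 (by simpa using e0)
    have e1 : x = x' + dZero (R'.datum ρC).ρA m := by
      show x = x' + dZero R'.ρM m
      rw [← hm]; abel
    rw [e1, Lam_add_right (R'.datum ρC) h𝒰 hY0 hY1 h0' hC Hp inv hadd hzero hcy hc hx'
      ⟨dOne_dZero _ _, isLevel₁_dZero hMd m⟩,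
      Lam_dZero (R'.datum ρC) h𝒰 hY0 hY1 h0' hC Hp inv hadd hzero hcy hc hMd m, add_zero]
  choose rep hrep hcl using cl_surj
  let l₀ : V →+ ZMod p := AddMonoidHom.mk' (fun v => Lam (R'.datum ρC) inv c y (rep v))
    (fun v v' => by
      rw [← Lam_add_right (R'.datum ρC) h𝒰 hY0 hY1 h0' hC Hp inv hadd hzero hcy hc (hrep v)
        (hrep v')]
      refine key _ _ (hrep _) ⟨by rw [map_add, (hrep v).1, (hrep v').1, add_zero],
        h𝒰.isLevel₁_add (hrep v).2 (hrep v').2⟩ ?_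
      rw [hcl, cl_add _ _ (hrep v) (hrep v'), hcl, hcl])
  refine ⟨l₀.toZModLinearMap p, fun x hx => ?_⟩
  show Lam (R'.datum ρC) inv c y (rep (cl x)) = _
  exact key _ _ (hrep _) hx (hcl _)

include h𝒰 hμι hμπ hμ0 hσι hμσ h0 h0' hC hpM' LK RK' hadd hzero cl_add cl_surj cl_zero in
/-- **Main generic statement**: a functional `lam` on `V = H¹(M')` which kills the image of
`H¹(M)` is the cup product with a level cocycle `ν` of `Hom(M', C)` such that `ν ∘ μ` is a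
coboundary. -/
theorem exists_cocycle_of_annihilates (lam : Module.Dual (ZMod p) V)
    (hlam : ∀ x : G → M, dOne R.ρM x = 0 → IsLevel₁ 𝒰 x → lam (cl (⇑μ ∘ x)) = 0) :
    ∃ (ν : G → (M' →ₗ[k] C)) (φ₀ : M →ₗ[k] C), IsCocν R'.ρM ρC ν ∧ IsLevel₁ 𝒰 ν ∧
      (∀ g m, ν g (μ m) = ρC g (φ₀ (R.ρM g⁻¹ m)) - φ₀ m) ∧
      ∀ x, dOne R'.ρM x = 0 → IsLevel₁ 𝒰 x → lam (cl x) = inv (cupν R'.ρM ν x) := by
  classical
  have hY0 := isDiscrete_ρY0 R' ρC h𝒰 h0' hC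
  have hY1 := isDiscrete_ρY1 R' ρC h𝒰 h0' hC
  have Hp := HpAt29.hp_datum R' ρC p hpM'
  have hMd : IsDiscrete 𝒰 (R'.datum ρC).ρA := isDiscrete_ρM R' h0'
  -- the subgroup of representable functionals
  let W₀ : AddSubgroup (Module.Dual (ZMod p) V) :=
    { carrier := {l | ∃ (c : G → (P0' →ₗ[k] C)) (y : P1' →ₗ[k] C),
        (R'.datum ρC).IsHyperCocycle c y ∧ IsLevel₁ 𝒰 c ∧
        ∀ x, (dOne R'.ρM x = 0 ∧ IsLevel₁ 𝒰 x) → l (cl x) = Lam (R'.datum ρC) inv c y x}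
      zero_mem' := ⟨0, 0, isHyperCocycle_zero _, h𝒰.isLevel₁_const 0, fun x hx => by
        rw [LinearMap.zero_apply, Lam_zero_left (R'.datum ρC) h𝒰 hC inv hzero]⟩
      add_mem' := by
        rintro l l' ⟨c, y, hcy, hc, hl⟩ ⟨c', y', hcy', hc', hl'⟩
        exact ⟨c + c', y + y', hcy.add _ hcy', h𝒰.isLevel₁_add hc hc', fun x hx => by
          rw [LinearMap.add_apply, hl x hx, hl' x hx,
            Lam_add_left (R'.datum ρC) h𝒰 hY0 hY1 h0' hC Hp inv hadd hzero hcy hc hcy' hc' hx]⟩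
      neg_mem' := by
        rintro l ⟨c, y, hcy, hc, hl⟩
        exact ⟨-c, -y, IsHyperCocycle.neg _ hcy, hc.comp (fun v => -v), fun x hx => by
          rw [LinearMap.neg_apply, hl x hx,
            Lam_neg_left (R'.datum ρC) h𝒰 hY0 hY1 h0' hC Hp inv hadd hzero hcy hc hx]⟩ }
  let W : Submodule (ZMod p) (Module.Dual (ZMod p) V) := AddSubgroup.toZModSubmodule p W₀
  have hWtop : W = ⊤ := by
    have hco : W.dualCoannihilator = ⊥ := by
      rw [eq_bot_iff]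
      intro v hv
      rw [Submodule.mem_dualCoannihilator] at hv
      obtain ⟨x, hx, rfl⟩ := cl_surj v
      obtain ⟨m, hm⟩ := exists_dZero_of_Lam_eq_zero (R'.datum ρC) h𝒰 hY0 hY1 h0' hC Hp inv hadd
        hzero RK' hx (fun c y hcy hc => by
          obtain ⟨l, hl⟩ := exists_dual_of_hyperCocycle h𝒰 R' ρC h0' hC p hpM' inv hadd hzero cl
            cl_add cl_surj cl_zero hcy hc
          rw [← hl x hx]
          exact hv l ⟨c, y, hcy, hc, hl⟩)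
      rw [Submodule.mem_bot]
      exact (cl_zero x hx).2 ⟨m, hm⟩
    rw [← Subspace.dualCoannihilator_dualAnnihilator_eq (W := W), hco,
      Submodule.dualAnnihilator_bot]
  have hlamW : lam ∈ W := by rw [hWtop]; exact Submodule.mem_top
  obtain ⟨c, y, hcy, hc, hl⟩ := hlamW
  -- the pull-back of `(c, y)` is a hyper-coboundary
  obtain ⟨y₀, h1, h2⟩ := LK (fun g => c g ∘ₗ μ0) (y ∘ₗ μ1)
    (isHyperCocycle_pull R R' ρC μ0 μ1 hμι hμ0 hcy) (hc.comp (fun φ => φ ∘ₗ μ0))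
    (fun a' b hab ha => by
      rw [pairFun_pull R R' ρC μ0 μ1 hμ0]
      have hab' := isLift_push R R' ρC μ0 μ1 hμι hμ0 hab
      have ha' : IsLevel₁ 𝒰 (⇑μ0 ∘ a') := ha.comp μ0
      have hx : dOne R.ρM (⇑R.π ∘ a') = 0 := hab.dOne_comp (R.datum ρC)
      have hxl : IsLevel₁ 𝒰 (⇑R.π ∘ a') := ha.comp R.π
      have hx' : dOne R'.ρM (⇑μ ∘ (⇑R.π ∘ a')) = 0 ∧ IsLevel₁ 𝒰 (⇑μ ∘ (⇑R.π ∘ a')) := by
        refine ⟨?_, hxl.comp μ⟩
        rw [← comp_dOne R.ρM R'.ρM μ (μ_comm R R' μ0 μ hμπ hμ0), hx]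
        funext q
        simp
      refine (hzero _ (isPC_pairFun (R'.datum ρC) h𝒰 hY0 hY1 h0' Hp hcy hc hab' ha')).1 ?_
      rw [← Lam_eq (R'.datum ρC) h𝒰 hY0 hY1 h0' hC Hp inv hadd hzero hcy hc hx' hab' ha'
        (π_push R R' μ0 μ hμπ a'), ← hl _ hx']
      exact hlam _ hx hxl)
  obtain ⟨ν, φ₀, z₀, hcν, hyz, hνμ⟩ := core4 R R' ρC μ0 μ1 μ hμι hμπ hμ0 σ0 σ1 hσι hμσ hcy y₀
    h1 h2
  have hhyp : hyp R' ν = c - dZero (R'.datum ρC).ρY0 z₀ := by rw [hcν]; abel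
  have hνcoc : IsCocν R'.ρM ρC ν := by
    apply isCocν_of_dOne_hyp R' ρC
    rw [hhyp, map_sub, hcy.1, dOne_dZero, sub_zero]
  have hνl : IsLevel₁ 𝒰 ν := by
    apply isLevel₁_of_hyp R'
    rw [hhyp]
    exact h𝒰.isLevel₁_sub hc (isLevel₁_dZero hY0 z₀)
  refine ⟨ν, φ₀, hνcoc, hνl, hνμ, fun x hx hxl => ?_⟩
  have hyz' : y = 0 + (R'.datum ρC).f z₀ := by rw [zero_add]; exact hyz
  rw [hl x ⟨hx, hxl⟩]
  conv_lhs => rw [hcν, hyz']
  rw [Lam_add_left (R'.datum ρC) h𝒰 hY0 hY1 h0' hC Hp inv hadd hzero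
    (isHyperCocycle_hyp R' ρC hνcoc) (isLevel₁_hyp R' hνl)
    ((R'.datum ρC).isHyperCocycle_bdry z₀) (isLevel₁_dZero hY0 z₀) ⟨hx, hxl⟩,
    Lam_bdry (R'.datum ρC) h𝒰 hC inv hzero z₀ ⟨hx, hxl⟩, add_zero, Lam, pairFun_hyp]
  have e : (⇑R'.π ∘ liftA (R'.datum ρC) x) = x := π_comp_liftA (R'.datum ρC) x
  rw [e]

end Two

end Fermat.Agent.TW.GlobalEC.HyperMain79
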