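/-
Program TW (S56), WP4 "EC", brick EC3K (helper79), part 4: bridges.

* functoriality of the canonical resolution `0 → Rel k A → k[A] → A → 0` (`FreeRes29`) in `A`;
* the dictionary between cochains of `Spec26.homRep X T` (`X`, `T` representations over `ZMod p`,
  `T` embedded by `val : T →+ C` as the `p`-torsion of a `k`-module `C`) and cochains of
  `Hom_k(X, C)` (`HyperRes79.IsCocν`, `IsCobν`, `cupν`), for a generic coefficient ring `k`
  (in the application `k = ℤ`: being generic avoids the two `Module ℤ` instances on `C`).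
-/
import Mathlib
import Fermat.Agent.PT.PRO.LevelCompare13
import Fermat.Agent.TW.GlobalEC.HyperMain79

set_option autoImplicit false
set_option linter.unusedSectionVars false
set_option linter.unusedVariables false

open CategoryTheory groupCohomology Module

namespace Fermat.Agent.TW.GlobalEC.KernelBridge79

open Fermat.Agent.PT.PRO Fermat.Agent.PT.PRO.HyperLevel25 Fermat.Agent.PT.PRO.IndRes20
open Fermat.Agent.TW.GlobalEC.Spec26
open Fermat.Agent.TW.GlobalEC.HyperPair79 Fermat.Agent.TW.GlobalEC.HyperRes79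

/-! ### Functoriality of the canonical resolution -/

section Functor

variable {k : Type*} [CommRing k] {G : Type*} [Group G]
variable {A A' : Type*} [AddCommGroup A] [Module k A] [AddCommGroup A'] [Module k A']

theorem aug_lmapDomain (φ : A →ₗ[k] A') (x : A →₀ k) :
    FreeRes29.aug k A' (Finsupp.lmapDomain k k φ x) = φ (FreeRes29.aug k A x) := by
  induction x using Finsupp.induction_linear with
  | zero => simp
  | add x y hx hy => rw [map_add, map_add, hx, hy, map_add, map_add]
  | single a c =>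
    rw [Finsupp.lmapDomain_apply, Finsupp.mapDomain_single, FreeRes29.aug_single,
      FreeRes29.aug_single, map_smul]

/-- The map induced on the modules of relations. -/
noncomputable def relMap (φ : A →ₗ[k] A') : FreeRes29.Rel k A →ₗ[k] FreeRes29.Rel k A' :=
  (Finsupp.lmapDomain k k φ).restrict (p := FreeRes29.relSub k A) (q := FreeRes29.relSub k A')
    (fun x hx => by
      rw [FreeRes29.mem_relSub_iff] at hx ⊢
      rw [aug_lmapDomain, hx, map_zero])

theorem relIncl_relMap (φ : A →ₗ[k] A') (z : FreeRes29.Rel k A) :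
    FreeRes29.relIncl k A' (relMap φ z) =
      Finsupp.lmapDomain k k φ (FreeRes29.relIncl k A z) := rfl

theorem lmapDomain_freeRep {ρA : Representation k G A} {ρA' : Representation k G A'}
    (φ : A →ₗ[k] A') (hφ : ∀ g a, φ (ρA g a) = ρA' g (φ a)) (g : G) (x : A →₀ k) :
    Finsupp.lmapDomain k k φ (FreeRes29.freeRep ρA g x) =
      FreeRes29.freeRep ρA' g (Finsupp.lmapDomain k k φ x) := by
  induction x using Finsupp.induction_linear with
  | zero => simp
  | add x y hx hy => rw [map_add, map_add, hx, hy, map_add, map_add]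
  | single a c =>
    rw [FreeRes29.freeRep_single, Finsupp.lmapDomain_apply, Finsupp.mapDomain_single,
      Finsupp.lmapDomain_apply, Finsupp.mapDomain_single, FreeRes29.freeRep_single, hφ]

theorem lmapDomain_lmapDomain_of_leftInverse (φ : A →ₗ[k] A') (s : A' →ₗ[k] A)
    (h : ∀ a, φ (s a) = a) (x : A' →₀ k) :
    Finsupp.lmapDomain k k φ (Finsupp.lmapDomain k k s x) = x := by
  induction x using Finsupp.induction_linear with
  | zero => simp
  | add x y hx hy => rw [map_add, map_add, hx, hy]
  | single a c =>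
    simp only [Finsupp.lmapDomain_apply, Finsupp.mapDomain_single, h]

theorem relMap_relMap_of_leftInverse (φ : A →ₗ[k] A') (s : A' →ₗ[k] A)
    (h : ∀ a, φ (s a) = a) (z : FreeRes29.Rel k A') : relMap φ (relMap s z) = z := by
  apply FreeRes29.relIncl_injective
  rw [relIncl_relMap, relIncl_relMap, lmapDomain_lmapDomain_of_leftInverse φ s h]

end Functor

/-! ### The dictionary `homRep X T` ↔ `Hom_k(X, C)` -/

section Dict

variable {k : Type} [CommRing k] {G : Type} [Group G] {p : ℕ} [Fact p.Prime]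
variable {Cc : Type} [AddCommGroup Cc] [Module k Cc] (ρC : Representation k G Cc)
variable {T : Rep.{0} (ZMod p) G} (val : T →+ Cc) (hval_inj : Function.Injective val)
  (hval_ρ : ∀ g t, val (T.ρ g t) = ρC g (val t))
  (hval_surj : ∀ c : Cc, p • c = 0 → ∃ t : T, val t = c)
variable {X : Rep.{0} (ZMod p) G} [Module k X] (ρM : Representation k G X)
  (hρM : ∀ g x, ρM g x = X.ρ g x)
  (hlin : ∀ (φ : X →+ Cc) (r : k) (x : X), φ (r • x) = r • φ x)

/-- An element of `homRep X T` as a linear map. -/
def ofHom (φ : homRep X T) : X →ₗ[ZMod p] T := φ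

/-- A linear map as an element of `homRep X T`. -/
def toHom (φ : X →ₗ[ZMod p] T) : homRep X T := φ

@[simp] theorem ofHom_toHom (φ : X →ₗ[ZMod p] T) : ofHom (toHom φ) = φ := rfl

theorem ofHom_injective : Function.Injective (ofHom (X := X) (T := T)) := fun _ _ h => h

theorem ofHom_add (φ φ' : homRep X T) : ofHom (φ + φ') = ofHom φ + ofHom φ' := rfl

theorem ofHom_sub (φ φ' : homRep X T) : ofHom (φ - φ') = ofHom φ - ofHom φ' := rfl

theorem ofHom_ρ (g : G) (φ : homRep X T) (m : X) :
    ofHom ((homRep X T).ρ g φ) m = T.ρ g (ofHom φ (X.ρ g⁻¹ m)) := rfl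

/-- `f ↦ val ∘ f`. -/
def toν (f : X →ₗ[ZMod p] T) : X →ₗ[k] Cc where
  toFun x := val (f x)
  map_add' x y := by rw [map_add, map_add]
  map_smul' r x := hlin (val.comp f.toAddMonoidHom) r x

@[simp] theorem toν_apply (f : X →ₗ[ZMod p] T) (x : X) : toν val hlin f x = val (f x) := rfl

include hval_inj in
theorem toν_injective : Function.Injective (toν val hlin) := by
  intro f f' h
  apply LinearMap.ext
  intro x
  exact hval_inj (LinearMap.congr_fun h x)

include hval_inj hval_surj in
theorem exists_ofν (ν : X →ₗ[k] Cc) : ∃ f : X →ₗ[ZMod p] T, toν val hlin f = ν := by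
  have h : ∀ x : X, ∃ t : T, val t = ν x := fun x => by
    apply hval_surj
    have : ν (p • x) = p • ν x := map_nsmul ν p x
    rw [← this, ZModModule.char_nsmul_eq_zero p x, map_zero]
  choose t ht using h
  refine ⟨(AddMonoidHom.mk' t (fun x y => hval_inj ?_)).toZModLinearMap p, ?_⟩
  · rw [map_add, ht, ht, ht, map_add]
  · apply LinearMap.ext
    intro x
    exact ht x

/-- The cochain of `Hom_k(X, C)` attached to a cochain of `homRep X T`. -/
def νof (f : G → homRep X T) : G → (X →ₗ[k] Cc) := fun g => toν val hlin (ofHom (f g))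

@[simp] theorem νof_apply (f : G → homRep X T) (g : G) (m : X) :
    νof val hlin f g m = val (ofHom (f g) m) := rfl

include hval_inj hval_surj in
theorem exists_νof_eq (ν : G → (X →ₗ[k] Cc)) : ∃ f : G → homRep X T, νof val hlin f = ν := by
  choose f hf using fun g => exists_ofν val hval_inj hval_surj hlin (ν g)
  exact ⟨fun g => toHom (f g), funext hf⟩

/-- The cup product `(g, h) ↦ val (f g (g • x h))` with values in `C`. -/
def cupC (f : G → homRep X T) (x : G → X) : G × G → Cc :=
  fun q => val (ofHom (f q.1) (X.ρ q.1 (x q.2)))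

include hρM in
theorem cupC_eq_cupν (f : G → homRep X T) (x : G → X) :
    cupC val f x = cupν ρM (νof val hlin f) x := by
  funext q
  simp only [cupC, cupν, νof_apply, hρM]

include hρM in
theorem dOne_eq (x : G → X) : dOne ρM x = dOne X.ρ x := by
  funext q
  obtain ⟨g, h⟩ := q
  simp only [dOne_apply, hρM]

include hρM in
theorem dZero_eq (m : X) : dZero ρM m = dZero X.ρ m := by
  funext g
  simp only [dZero_apply, hρM]

include hρM in
/-- level cocycles of `X`, in both languages -/
theorem mem_Z1_iff (𝓑 : LevelCoh28.LevelBasis G) (x : G → X) :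
    x ∈ LevelCoh28.Z1 𝓑 X ↔ dOne ρM x = 0 ∧ IsLevel₁ 𝓑.sets x := by
  rw [LevelCoh28.mem_Z1_iff, LevelCompare13.mem_cocycles₁_iff, dOne_eq ρM hρM]
  rfl

include hρM in
theorem mem_coboundaries₁_iff (x : G → X) :
    x ∈ coboundaries₁ X ↔ ∃ m : X, x = dZero ρM m := by
  rw [LevelCompare13.mem_coboundaries₁_iff]
  constructor
  · rintro ⟨m, rfl⟩
    exact ⟨m, (dZero_eq ρM hρM m).symm⟩
  · rintro ⟨m, rfl⟩
    exact ⟨m, (dZero_eq ρM hρM m).symm⟩

include hval_ρ hρM in
theorem isCocν_of_mem_cocycles₁ {f : G → homRep X T} (hf : f ∈ cocycles₁ (homRep X T)) :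
    IsCocν ρM ρC (νof val hlin f) := by
  intro g h m
  have h1 := (mem_cocycles₁_iff f).1 hf g h
  simp only [νof_apply]
  rw [h1, ofHom_add, LinearMap.add_apply, ofHom_ρ, map_add, hval_ρ, hρM]

include hval_inj hval_ρ hρM in
theorem mem_cocycles₁_of_isCocν {f : G → homRep X T} (hf : IsCocν ρM ρC (νof val hlin f)) :
    f ∈ cocycles₁ (homRep X T) := by
  rw [mem_cocycles₁_iff f]
  intro g h
  apply ofHom_injective
  apply LinearMap.ext
  intro m
  apply hval_inj
  have := hf g h m
  simp only [νof_apply] at this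
  rw [this, ofHom_add, LinearMap.add_apply, ofHom_ρ, map_add, hval_ρ, hρM]

include hval_ρ hρM in
theorem isCobν_of_mem_coboundaries₁ {f : G → homRep X T}
    (hf : f ∈ coboundaries₁ (homRep X T)) :
    ∃ φ₀ : X →ₗ[k] Cc, IsCobν ρM ρC (νof val hlin f) φ₀ := by
  obtain ⟨f₀, rfl⟩ := hf
  refine ⟨toν val hlin (ofHom f₀), fun g m => ?_⟩
  simp only [νof_apply, toν_apply]
  rw [d₀₁_hom_apply, ofHom_sub, LinearMap.sub_apply, ofHom_ρ, map_sub, hval_ρ, hρM]

include hval_inj hval_ρ hval_surj hρM in
theorem mem_coboundaries₁_of_isCobν {f : G → homRep X T} {φ₀ : X →ₗ[k] Cc}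
    (hf : IsCobν ρM ρC (νof val hlin f) φ₀) : f ∈ coboundaries₁ (homRep X T) := by
  obtain ⟨f₀, rfl⟩ := exists_ofν val hval_inj hval_surj hlin φ₀
  refine ⟨toHom f₀, ?_⟩
  funext g
  rw [d₀₁_hom_apply]
  apply ofHom_injective
  apply LinearMap.ext
  intro m
  apply hval_inj
  have := hf g m
  simp only [νof_apply, toν_apply] at this
  rw [this, ofHom_sub, LinearMap.sub_apply, ofHom_ρ, map_sub, hval_ρ, hρM, ofHom_toHom]

theorem isLevel₁_νof {𝒰 : Set (Subgroup G)} {f : G → homRep X T} (hf : IsLevel₁ 𝒰 f) :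
    IsLevel₁ 𝒰 (νof val hlin f) := hf.comp (fun φ => toν val hlin (ofHom φ))

include hval_inj in
theorem isLevel₁_of_νof {𝒰 : Set (Subgroup G)} {f : G → homRep X T}
    (hf : IsLevel₁ 𝒰 (νof val hlin f)) : IsLevel₁ 𝒰 f := by
  obtain ⟨U, hU, h⟩ := hf
  exact ⟨U, hU, fun g s hs => ofHom_injective (toν_injective val hval_inj hlin (h g s hs))⟩

end Dict

end Fermat.Agent.TW.GlobalEC.KernelBridge79
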