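/-
Program TW (S56), WP4 "EC", brick EC3K (helper79), part 5: THE KERNEL-RANK IDENTITY (K).

`kernelRank` : `SpecD26.HyperDuality 𝓑 C p → SpecD26.HasInv 𝓑 C p → IsDiscrete 𝓑.sets C →
                 SpecD26.KernelRank 𝓑 (pTorsionRep p C)`,

i.e. for every equivariant surjection `ψ : B → C'` of finite-dimensional discrete
`𝔽_p[G]`-modules (with finite-dimensional `H¹`):

  `dim ker(H¹(C'^D) → H¹(B^D)) + rank(H¹(B) → H¹(C')) = dim H¹(C')`,  `X^D = Hom(X, C[p])`.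

Proof: the pairing `Φ : H¹(C'^D) → Dual(H¹(C'))`, `Φ[f][x] = inv(val ∘ (f ∪ x))` is injective
(left kernel), maps `κ = ker(H¹(C'^D) → H¹(B^D))` into the annihilator of
`W = range(H¹(B) → H¹(C'))`, and onto it (`HyperMain79.exists_cocycle_of_annihilates`).
Everything is done for a generic coefficient ring `k`; `k = ℤ` only in the last theorem.
-/
import Mathlib
import Fermat.Agent.PT.PRO.IntRep20
import Fermat.Agent.TW.GlobalEC.KernelBridge79

set_option autoImplicit false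
set_option linter.unusedSectionVars false
set_option linter.unusedVariables false

open CategoryTheory groupCohomology Module

namespace Fermat.Agent.TW.GlobalEC.KernelRank79

open Fermat.Agent.PT.PRO Fermat.Agent.PT.PRO.HyperLevel25 Fermat.Agent.PT.PRO.IndRes20
open Fermat.Agent.TW.GlobalEC.Spec26 Fermat.Agent.TW.GlobalEC.SpecB26
  Fermat.Agent.TW.GlobalEC.SpecD26
open Fermat.Agent.TW.GlobalEC.HyperPair79 Fermat.Agent.TW.GlobalEC.HyperRes79
  Fermat.Agent.TW.GlobalEC.HyperMain79 Fermat.Agent.TW.GlobalEC.KernelBridge79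

/-! ### More on `inv (ν ∪ x)` (generic) -/

section Generic

variable {k : Type*} [CommRing k] {G : Type*} [Group G] {𝒰 : Set (Subgroup G)}
variable {P1 P0 M C : Type*} [AddCommGroup P1] [Module k P1] [AddCommGroup P0] [Module k P0]
  [AddCommGroup M] [Module k M] [AddCommGroup C] [Module k C]
  [Module.Finite k P0] [Module.Finite k P1]
variable (h𝒰 : IsLevelBasis 𝒰) (R : Res k G P1 P0 M) (ρC : Representation k G C)
  (h0 : IsDiscrete 𝒰 R.ρ0) (hC : IsDiscrete 𝒰 ρC) (p : ℕ) (hpM : ∀ m : M, (p : k) • m = 0)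
  {Z : Type*} [AddCommGroup Z] (inv : (G × G → C) → Z)
  (hadd : ∀ z z', IsPC ρC 𝒰 p z → IsPC ρC 𝒰 p z' → inv (z + z') = inv z + inv z')
  (hzero : ∀ z, IsPC ρC 𝒰 p z → (inv z = 0 ↔ IsLB ρC 𝒰 z))

theorem inv_cupν_eq_Lam (ν : G → (M →ₗ[k] C)) (x : G → M) :
    inv (cupν R.ρM ν x) = Lam (R.datum ρC) inv (hyp R ν) 0 x := by
  rw [Lam, pairFun_hyp]
  have e : (⇑R.π ∘ liftA (R.datum ρC) x) = x := π_comp_liftA (R.datum ρC) x
  rw [e]

include h𝒰 h0 hC hpM hadd hzero in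
theorem inv_cupν_dZero {ν : G → (M →ₗ[k] C)} (hν : IsCocν R.ρM ρC ν) (hνl : IsLevel₁ 𝒰 ν)
    (m : M) : inv (cupν R.ρM ν (dZero R.ρM m)) = 0 := by
  rw [inv_cupν_eq_Lam R ρC inv]
  exact Lam_dZero (R.datum ρC) h𝒰 (isDiscrete_ρY0 R ρC h𝒰 h0 hC)
    (isDiscrete_ρY1 R ρC h𝒰 h0 hC) h0 hC (HpAt29.hp_datum R ρC p hpM) inv hadd hzero
    (isHyperCocycle_hyp R ρC hν) (isLevel₁_hyp R hνl) (isDiscrete_ρM R h0) m

include h𝒰 hC hzero in
theorem inv_cupν_of_isCobν {ν : G → (M →ₗ[k] C)} {φ₀ : M →ₗ[k] C}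
    (h : IsCobν R.ρM ρC ν φ₀) {x : G → M} (hx : dOne R.ρM x = 0 ∧ IsLevel₁ 𝒰 x) :
    inv (cupν R.ρM ν x) = 0 := by
  rw [inv_cupν_eq_Lam R ρC inv, hyp_eq_dZero R ρC h, ← f_comp_π R ρC φ₀]
  exact Lam_bdry (R.datum ρC) h𝒰 hC inv hzero _ hx

end Generic

/-! ### The pairing `Φ` and the identity (K), generic coefficient ring -/

section Main

variable {k : Type} [CommRing k] [IsNoetherianRing k] {G : Type} [Group G] {p : ℕ}
  [Fact p.Prime]
variable (𝓑 : LevelCoh28.LevelBasis G)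
variable {Cc : Type} [AddCommGroup Cc] [Module k Cc] (ρC : Representation k G Cc)
  (hC : IsDiscrete 𝓑.sets ρC)
variable {T : Rep.{0} (ZMod p) G} (val : T →+ Cc) (hval_inj : Function.Injective val)
  (hval_ρ : ∀ g t, val (T.ρ g t) = ρC g (val t))
  (hval_surj : ∀ c : Cc, p • c = 0 → ∃ t : T, val t = c)
variable (inv : (G × G → Cc) → ZMod p)
  (hadd : ∀ z z', IsPC ρC 𝓑.sets p z → IsPC ρC 𝓑.sets p z' → inv (z + z') = inv z + inv z')
  (hzero : ∀ z, IsPC ρC 𝓑.sets p z → (inv z = 0 ↔ IsLB ρC 𝓑.sets z))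

theorem isLevelBasis : IsLevelBasis 𝓑.sets := LevelCompare13.isLevelBasis_iff.1 𝓑.isBasis

section OneModule

variable {X : Rep.{0} (ZMod p) G} [Module k X] (ρM : Representation k G X)
  (hρM : ∀ g x, ρM g x = X.ρ g x)
  (hlin : ∀ (φ : X →+ Cc) (r : k) (x : X), φ (r • x) = r • φ x)
  [Finite X] (hXd : IsDiscrete 𝓑.sets ρM) (hpX : ∀ m : X, (p : k) • m = 0)

include hC hval_ρ hρM hlin hXd hpX in
theorem isPC_cupC {f : G → homRep X T} (hf : f ∈ LevelCoh28.Z1 𝓑 (homRep X T)) {x : G → X}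
    (hx : x ∈ LevelCoh28.Z1 𝓑 X) : IsPC ρC 𝓑.sets p (cupC val f x) := by
  rw [cupC_eq_cupν val ρM hρM hlin]
  exact isPC_cupν (isLevelBasis 𝓑) (HpAt29.freeRes ρM) ρC
    (FreeRes29.isDiscrete_freeRep (isLevelBasis 𝓑) hXd) hC p hpX
    (isCocν_of_mem_cocycles₁ ρC val hval_ρ ρM hρM hlin hf.1) (isLevel₁_νof val hlin hf.2)
    ((mem_Z1_iff ρM hρM 𝓑 x).1 hx)

theorem cupC_add_left (f f' : G → homRep X T) (x : G → X) :
    cupC val (f + f') x = cupC val f x + cupC val f' x := by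
  funext q
  simp only [cupC, Pi.add_apply, ofHom_add, LinearMap.add_apply, map_add]

theorem cupC_add_right (f : G → homRep X T) (x x' : G → X) :
    cupC val f (x + x') = cupC val f x + cupC val f x' := by
  funext q
  simp only [cupC, Pi.add_apply, map_add]

include hC hval_ρ hρM hlin hXd hpX hadd hzero in
/-- **The pairing** `Φ : H¹(X^D) → Dual(H¹(X))`, `Φ[f][x] = inv (val ∘ (f ∪ x))`. -/
theorem exists_Phi :
    ∃ Φ : LevelCoh28.H1 𝓑 (homRep X T) →ₗ[ZMod p] Module.Dual (ZMod p) (LevelCoh28.H1 𝓑 X),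
      ∀ (f : ↥(LevelCoh28.Z1 𝓑 (homRep X T))) (x : ↥(LevelCoh28.Z1 𝓑 X)),
        Φ (LevelCoh28.H1mk 𝓑 (homRep X T) f) (LevelCoh28.H1mk 𝓑 X x) =
          inv (cupC val (f : G → homRep X T) (x : G → X)) := by
  have h𝒰 := isLevelBasis 𝓑
  have h0 := FreeRes29.isDiscrete_freeRep h𝒰 hXd
  -- step 1: the functional attached to a cocycle `f`
  have step1 : ∀ f : ↥(LevelCoh28.Z1 𝓑 (homRep X T)),
      ∃ l : Module.Dual (ZMod p) (LevelCoh28.H1 𝓑 X), ∀ x : ↥(LevelCoh28.Z1 𝓑 X),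
        l (LevelCoh28.H1mk 𝓑 X x) = inv (cupC val (f : G → homRep X T) (x : G → X)) := by
    intro f
    let l₀ : ↥(LevelCoh28.Z1 𝓑 X) →+ ZMod p :=
      AddMonoidHom.mk' (fun x => inv (cupC val (f : G → homRep X T) (x : G → X)))
        (fun x x' => by
          show inv (cupC val (f : G → homRep X T) ((x : G → X) + (x' : G → X))) = _
          rw [cupC_add_right]
          exact hadd _ _
            (isPC_cupC 𝓑 ρC hC val hval_ρ ρM hρM hlin hXd hpX f.2 x.2)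
            (isPC_cupC 𝓑 ρC hC val hval_ρ ρM hρM hlin hXd hpX f.2 x'.2))
    refine ⟨Submodule.liftQ _ (l₀.toZModLinearMap p) ?_, fun x => ?_⟩
    · intro x hx
      rw [Submodule.mem_comap, Submodule.subtype_apply] at hx
      obtain ⟨m, hm⟩ := (mem_coboundaries₁_iff ρM hρM _).1 hx
      rw [LinearMap.mem_ker]
      show inv (cupC val (f : G → homRep X T) (x : G → X)) = 0
      rw [cupC_eq_cupν val ρM hρM hlin, hm]
      exact inv_cupν_dZero h𝒰 (HpAt29.freeRes ρM) ρC h0 hC p hpX inv hadd hzero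
        (isCocν_of_mem_cocycles₁ ρC val hval_ρ ρM hρM hlin f.2.1) (isLevel₁_νof val hlin f.2.2) m
    · rfl
  choose l hl using step1
  -- step 2: additivity in `f`
  let Φ₀ : ↥(LevelCoh28.Z1 𝓑 (homRep X T)) →+ Module.Dual (ZMod p) (LevelCoh28.H1 𝓑 X) :=
    AddMonoidHom.mk' l (fun f f' => by
      apply LinearMap.ext
      intro v
      obtain ⟨x, rfl⟩ := LevelCoh28.H1mk_surjective 𝓑 X v
      rw [LinearMap.add_apply, hl, hl, hl]
      show inv (cupC val ((f : G → homRep X T) + (f' : G → homRep X T)) (x : G → X)) = _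
      rw [cupC_add_left]
      exact hadd _ _
        (isPC_cupC 𝓑 ρC hC val hval_ρ ρM hρM hlin hXd hpX f.2 x.2)
        (isPC_cupC 𝓑 ρC hC val hval_ρ ρM hρM hlin hXd hpX f'.2 x.2))
  refine ⟨Submodule.liftQ _ (Φ₀.toZModLinearMap p) ?_, fun f x => ?_⟩
  · intro f hf
    rw [Submodule.mem_comap, Submodule.subtype_apply] at hf
    rw [LinearMap.mem_ker]
    show l f = 0
    apply LinearMap.ext
    intro v
    obtain ⟨x, rfl⟩ := LevelCoh28.H1mk_surjective 𝓑 X v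
    rw [hl, LinearMap.zero_apply, cupC_eq_cupν val ρM hρM hlin]
    obtain ⟨φ₀, hφ₀⟩ := isCobν_of_mem_coboundaries₁ ρC val hval_ρ ρM hρM hlin hf
    exact inv_cupν_of_isCobν h𝒰 (HpAt29.freeRes ρM) ρC hC p inv hzero hφ₀
      ((mem_Z1_iff ρM hρM 𝓑 _).1 x.2)
  · exact hl f x

end OneModule

section TwoModules

variable {B C' : Rep.{0} (ZMod p) G} [Module k B] [Module k C']
  (ρB : Representation k G B) (hρB : ∀ g x, ρB g x = B.ρ g x)
  (ρC' : Representation k G C') (hρC' : ∀ g x, ρC' g x = C'.ρ g x)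
  (hlinB : ∀ (φ : B →+ Cc) (r : k) (x : B), φ (r • x) = r • φ x)
  (hlinC' : ∀ (φ : C' →+ Cc) (r : k) (x : C'), φ (r • x) = r • φ x)
  [Finite B] [Finite C'] (hBd : IsDiscrete 𝓑.sets ρB) (hC'd : IsDiscrete 𝓑.sets ρC')
  (hpB : ∀ m : B, (p : k) • m = 0) (hpC' : ∀ m : C', (p : k) • m = 0)
  (ψ : B →ₗ[ZMod p] C') (hψ : ∀ g b, ψ (B.ρ g b) = C'.ρ g (ψ b))
  (ψk : B →ₗ[k] C') (hψk : ∀ b, ψk b = ψ b) (sk : C' →ₗ[k] B) (hsk : ∀ c, ψk (sk c) = c)
  [FiniteDimensional (ZMod p) (LevelCoh28.H1 𝓑 C')]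
  (LKB : LKDatum (HpAt29.freeRes ρB) ρC 𝓑.sets)
  (LKC : LKDatum (HpAt29.freeRes ρC') ρC 𝓑.sets)
  (RKC : RKDatum (HpAt29.freeRes ρC') ρC 𝓑.sets)

include hC hval_inj hval_ρ hval_surj hadd hzero hρB hρC' hlinB hlinC' hBd hC'd hpB hpC' hψk hsk
  LKB LKC RKC in
/-- **The kernel-rank identity (K)**, generic coefficient ring. -/
theorem kernelRankAt_generic : KernelRankAt 𝓑 T ψ hψ := by
  classical
  have h𝒰 := isLevelBasis 𝓑
  have h0B := FreeRes29.isDiscrete_freeRep h𝒰 hBd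
  have h0C := FreeRes29.isDiscrete_freeRep h𝒰 hC'd
  obtain ⟨Φ, hΦ⟩ := exists_Phi 𝓑 ρC hC val hval_ρ inv hadd hzero ρC' hρC' hlinC' hC'd hpC'
  -- `Φ` is injective
  have hinj : Function.Injective Φ := by
    rw [← LinearMap.ker_eq_bot, LinearMap.ker_eq_bot']
    intro h hh
    obtain ⟨f, rfl⟩ := LevelCoh28.H1mk_surjective 𝓑 _ h
    rw [LevelCoh28.H1mk_eq_zero_iff]
    obtain ⟨φ₀, hφ₀⟩ := exists_isCobν_of_isLB (HpAt29.freeRes ρC') ρC LKC
      (isCocν_of_mem_cocycles₁ ρC val hval_ρ ρC' hρC' hlinC' f.2.1)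
      (isLevel₁_νof val hlinC' f.2.2)
      (fun x hx hxl => by
        have hxZ : x ∈ LevelCoh28.Z1 𝓑 C' := (mem_Z1_iff ρC' hρC' 𝓑 x).2 ⟨hx, hxl⟩
        have h1 := hΦ f ⟨x, hxZ⟩
        rw [hh, LinearMap.zero_apply] at h1
        have h2 := (hzero _ (isPC_cupC 𝓑 ρC hC val hval_ρ ρC' hρC' hlinC' hC'd hpC' f.2 hxZ)).1
          h1.symm
        rw [cupC_eq_cupν val ρC' hρC' hlinC'] at h2
        exact h2)
    exact mem_coboundaries₁_of_isCobν ρC val hval_inj hval_ρ hval_surj ρC' hρC' hlinC' hφ₀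
  have hψk' : ∀ g a, ψk (ρB g a) = ρC' g (ψk a) := fun g a => by
    rw [hψk, hψk, hρB, hρC', hψ]
  have hmap : (LinearMap.ker (LevelCoh28.mapH1 (𝓑 := 𝓑) (dualMap T ψ)
      (dualMap_comm T ψ hψ))).map Φ =
      (LinearMap.range (LevelCoh28.mapH1 (𝓑 := 𝓑) ψ hψ)).dualAnnihilator := by
    apply le_antisymm
    · -- `Φ(κ) ≤ Ann W`
      rintro _ ⟨h, hhκ, rfl⟩
      rw [Submodule.mem_dualAnnihilator]
      rintro _ ⟨vB, rfl⟩
      obtain ⟨f, rfl⟩ := LevelCoh28.H1mk_surjective 𝓑 _ h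
      obtain ⟨xB, rfl⟩ := LevelCoh28.H1mk_surjective 𝓑 _ vB
      have hcob : ((LevelCoh28.mapZ1 (𝓑 := 𝓑) (dualMap T ψ) (dualMap_comm T ψ hψ) f :
          ↥(LevelCoh28.Z1 𝓑 (homRep B T))) : G → homRep B T) ∈ coboundaries₁ (homRep B T) := by
        have h0 : LevelCoh28.H1mk 𝓑 (homRep B T)
            (LevelCoh28.mapZ1 (𝓑 := 𝓑) (dualMap T ψ) (dualMap_comm T ψ hψ) f) = 0 :=
          LinearMap.mem_ker.1 hhκ
        exact (LevelCoh28.H1mk_eq_zero_iff 𝓑 _ _).1 h0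
      rw [LevelCoh28.mapH1_mk, hΦ]
      have e : cupC val (f : G → homRep C' T)
          ((LevelCoh28.mapZ1 (𝓑 := 𝓑) ψ hψ xB : ↥(LevelCoh28.Z1 𝓑 C')) : G → C') =
          cupC val ((LevelCoh28.mapZ1 (𝓑 := 𝓑) (dualMap T ψ) (dualMap_comm T ψ hψ) f :
            ↥(LevelCoh28.Z1 𝓑 (homRep B T))) : G → homRep B T) (xB : G → B) := by
        funext q
        show val (ofHom ((f : G → homRep C' T) q.1) (C'.ρ q.1 (ψ ((xB : G → B) q.2)))) =
          val (ofHom ((f : G → homRep C' T) q.1) (ψ (B.ρ q.1 ((xB : G → B) q.2))))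
        rw [hψ]
      rw [e, cupC_eq_cupν val ρB hρB hlinB]
      obtain ⟨φ₀, hφ₀⟩ := isCobν_of_mem_coboundaries₁ ρC val hval_ρ ρB hρB hlinB hcob
      exact inv_cupν_of_isCobν h𝒰 (HpAt29.freeRes ρB) ρC hC p inv hzero hφ₀
        ((mem_Z1_iff ρB hρB 𝓑 _).1 xB.2)
    · -- `Ann W ≤ Φ(κ)`
      intro lam hlam
      rw [Submodule.mem_dualAnnihilator] at hlam
      let cl : (G → C') → LevelCoh28.H1 𝓑 C' := fun x =>
        if h : x ∈ LevelCoh28.Z1 𝓑 C' then LevelCoh28.H1mk 𝓑 C' ⟨x, h⟩ else 0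
      have cl_of : ∀ x (h : x ∈ LevelCoh28.Z1 𝓑 C'), cl x = LevelCoh28.H1mk 𝓑 C' ⟨x, h⟩ :=
        fun x h => dif_pos h
      have hZ : ∀ x : G → C', (dOne (HpAt29.freeRes ρC').ρM x = 0 ∧ IsLevel₁ 𝓑.sets x) →
          x ∈ LevelCoh28.Z1 𝓑 C' := fun x hx => (mem_Z1_iff ρC' hρC' 𝓑 x).2 hx
      obtain ⟨ν, φ₀, hν, hνl, hνμ, hνlam⟩ := exists_cocycle_of_annihilates h𝒰
        (HpAt29.freeRes ρB) (HpAt29.freeRes ρC') ρC
        (Finsupp.lmapDomain k k ψk) (relMap ψk) ψk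
        (fun z => relIncl_relMap ψk z) (fun x => aug_lmapDomain ψk x)
        (fun g x => lmapDomain_freeRep ψk hψk' g x)
        (Finsupp.lmapDomain k k sk) (relMap sk) (fun z => relIncl_relMap sk z)
        (relMap_relMap_of_leftInverse ψk sk hsk)
        h0B h0C hC p hpC' LKB RKC inv hadd hzero cl
        (fun x x' hx hx' => by
          rw [cl_of x (hZ x hx), cl_of x' (hZ x' hx'),
            cl_of (x + x') ((LevelCoh28.Z1 𝓑 C').add_mem (hZ x hx) (hZ x' hx')), ← map_add]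
          rfl)
        (fun v => by
          obtain ⟨z, rfl⟩ := LevelCoh28.H1mk_surjective 𝓑 C' v
          exact ⟨z.1, (mem_Z1_iff ρC' hρC' 𝓑 _).1 z.2, cl_of z.1 z.2⟩)
        (fun x hx => by
          rw [cl_of x (hZ x hx), LevelCoh28.H1mk_eq_zero_iff]
          exact mem_coboundaries₁_iff ρC' hρC' x)
        lam
        (fun x hx hxl => by
          have hxZ : x ∈ LevelCoh28.Z1 𝓑 B := (mem_Z1_iff ρB hρB 𝓑 x).2 ⟨hx, hxl⟩
          have e : (⇑ψk ∘ x) = ((LevelCoh28.mapZ1 (𝓑 := 𝓑) ψ hψ ⟨x, hxZ⟩ :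
              ↥(LevelCoh28.Z1 𝓑 C')) : G → C') := by
            funext g
            exact hψk (x g)
          rw [e, cl_of _ (LevelCoh28.mapZ1 (𝓑 := 𝓑) ψ hψ ⟨x, hxZ⟩).2]
          exact hlam _ ⟨LevelCoh28.H1mk 𝓑 B ⟨x, hxZ⟩, rfl⟩)
      obtain ⟨f, hf⟩ := exists_νof_eq val hval_inj hval_surj hlinC' ν
      have hfZ : f ∈ LevelCoh28.Z1 𝓑 (homRep C' T) :=
        ⟨mem_cocycles₁_of_isCocν ρC val hval_inj hval_ρ ρC' hρC' hlinC' (by rw [hf]; exact hν),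
          isLevel₁_of_νof val hval_inj hlinC' (by rw [hf]; exact hνl)⟩
      refine ⟨LevelCoh28.H1mk 𝓑 _ ⟨f, hfZ⟩, ?_, ?_⟩
      · -- the class of `f` lies in `κ`
        show LevelCoh28.H1mk 𝓑 _ ⟨f, hfZ⟩ ∈ LinearMap.ker _
        rw [LinearMap.mem_ker, LevelCoh28.mapH1_mk, LevelCoh28.H1mk_eq_zero_iff]
        refine mem_coboundaries₁_of_isCobν ρC val hval_inj hval_ρ hval_surj ρB hρB hlinB
          (φ₀ := φ₀) (fun g m => ?_)
        have h1 := hνμ g m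
        rw [← hf] at h1
        rw [hψk] at h1
        exact h1
      · apply LinearMap.ext
        intro v
        obtain ⟨x, rfl⟩ := LevelCoh28.H1mk_surjective 𝓑 C' v
        rw [hΦ, cupC_eq_cupν val ρC' hρC' hlinC', hf]
        have hx := (mem_Z1_iff ρC' hρC' 𝓑 _).1 x.2
        have h3 := hνlam _ hx.1 hx.2
        rw [cl_of _ x.2] at h3
        exact h3.symm
  have e1 : finrank (ZMod p) ↥(LinearMap.ker (LevelCoh28.mapH1 (𝓑 := 𝓑) (dualMap T ψ)
      (dualMap_comm T ψ hψ))) = finrank (ZMod p) ↥((LinearMap.ker (LevelCoh28.mapH1 (𝓑 := 𝓑)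
      (dualMap T ψ) (dualMap_comm T ψ hψ))).map Φ) :=
    LinearEquiv.finrank_eq (Submodule.equivMapOfInjective Φ hinj _)
  have e2 := Subspace.finrank_add_finrank_dualAnnihilator_eq
    (LinearMap.range (LevelCoh28.mapH1 (𝓑 := 𝓑) ψ hψ))
  show finrank (ZMod p) ↥(LinearMap.ker (LevelCoh28.mapH1 (𝓑 := 𝓑) (dualMap T ψ)
      (dualMap_comm T ψ hψ))) + finrank (ZMod p) ↥(LinearMap.range (LevelCoh28.mapH1 (𝓑 := 𝓑) ψ hψ))
    = finrank (ZMod p) (LevelCoh28.H1 𝓑 C')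
  rw [e1, hmap]
  omega

end TwoModules

end Main

/-! ### Plugging in the two Poitou–Tate inputs (generic coefficient ring) -/

section Wrapper

variable {k : Type} [CommRing k] [IsDomain k] [IsPrincipalIdealRing k] {G : Type} [Group G]
  {p : ℕ} [Fact p.Prime]
variable (𝓑 : LevelCoh28.LevelBasis G) (C : Rep.{0} k G)

theorem isLB_iff_mem_B2 (z : G × G → C) : IsLB C.ρ 𝓑.sets z ↔ z ∈ LevelCoh28.B2 𝓑 C := by
  rw [LevelCoh28.mem_B2_iff]
  constructor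
  · rintro ⟨u, hu, rfl⟩
    exact ⟨u, hu, (LevelCompare13.dOne_eq C u).symm⟩
  · rintro ⟨u, hu, rfl⟩
    exact ⟨u, hu, (LevelCompare13.dOne_eq C u).symm⟩

theorem isPC_iff_isPCocycle₂ (z : G × G → C) :
    IsPC C.ρ 𝓑.sets p z ↔ IsPCocycle₂ 𝓑 C p z := by
  unfold IsPC IsPCocycle₂
  rw [LevelCoh28.mem_Z2_iff, LevelCompare13.mem_cocycles₂_iff, LevelCompare13.isLevel₂_iff,
    isLB_iff_mem_B2, and_assoc]

variable (hHD : HyperDuality 𝓑 C p) (hinv : HasInv 𝓑 C p)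
  (hC : LevelCoh28.IsDiscrete 𝓑.sets C)
variable {T : Rep.{0} (ZMod p) G} (val : T →+ C) (hval_inj : Function.Injective val)
  (hval_ρ : ∀ g t, val (T.ρ g t) = C.ρ g (val t))
  (hval_surj : ∀ c : C, p • c = 0 → ∃ t : T, val t = c)
variable {B C' : Rep.{0} (ZMod p) G} [Module k B] [Module k C']
  (ρB : Representation k G B) (hρB : ∀ g x, ρB g x = B.ρ g x)
  (ρC' : Representation k G C') (hρC' : ∀ g x, ρC' g x = C'.ρ g x)
  (hlinB : ∀ (φ : B →+ C) (r : k) (x : B), φ (r • x) = r • φ x)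
  (hlinC' : ∀ (φ : C' →+ C) (r : k) (x : C'), φ (r • x) = r • φ x)
  [Finite B] [Finite C'] (hBd : IsDiscrete 𝓑.sets ρB) (hC'd : IsDiscrete 𝓑.sets ρC')
  (hpB : ∀ m : B, (p : k) • m = 0) (hpC' : ∀ m : C', (p : k) • m = 0)
  (ψ : B →ₗ[ZMod p] C') (hψ : ∀ g b, ψ (B.ρ g b) = C'.ρ g (ψ b))
  (ψk : B →ₗ[k] C') (hψk : ∀ b, ψk b = ψ b) (sk : C' →ₗ[k] B) (hsk : ∀ c, ψk (sk c) = c)
  [FiniteDimensional (ZMod p) (LevelCoh28.H1 𝓑 C')]

include hHD hinv hC hval_inj hval_ρ hval_surj hρB hρC' hlinB hlinC' hBd hC'd hpB hpC' hψk hsk in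
/-- (K) from `HyperDuality` and `HasInv`, generic coefficient ring. -/
theorem kernelRankAt_of_hyperDuality : KernelRankAt 𝓑 T ψ hψ := by
  obtain ⟨inv, hadd, hzero⟩ := hinv
  have h𝒰 := isLevelBasis 𝓑
  have hpB' : ∀ m : B, p • m = 0 := fun m => by
    rw [← Nat.cast_smul_eq_nsmul k]; exact hpB m
  have hpC'' : ∀ m : C', p • m = 0 := fun m => by
    rw [← Nat.cast_smul_eq_nsmul k]; exact hpC' m
  obtain ⟨LKB, -⟩ := hHD _ _ _ (HpAt29.freeRes ρB) (FreeRes29.isDiscrete_freeRep h𝒰 hBd) hpB'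
  obtain ⟨LKC, RKC⟩ := hHD _ _ _ (HpAt29.freeRes ρC') (FreeRes29.isDiscrete_freeRep h𝒰 hC'd)
    hpC''
  exact kernelRankAt_generic 𝓑 C.ρ hC val hval_inj hval_ρ hval_surj inv
    (fun z z' hz hz' => hadd z z' ((isPC_iff_isPCocycle₂ 𝓑 C z).1 hz)
      ((isPC_iff_isPCocycle₂ 𝓑 C z').1 hz'))
    (fun z hz => (hzero z ((isPC_iff_isPCocycle₂ 𝓑 C z).1 hz)).trans
      (isLB_iff_mem_B2 𝓑 C z).symm)
    ρB hρB ρC' hρC' hlinB hlinC' hBd hC'd hpB hpC' ψ hψ ψk hψk sk hsk LKB LKC RKC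

end Wrapper

/-! ### The deliverable: `k = ℤ` -/

section Final

variable {G : Type} [Group G]

/-- An additive map is `k`-linear when `ℤ → k` is onto, for ARBITRARY `k`-module structures on
both sides (used at `k = ℤ`, where instance search would otherwise pick the wrong one). -/
theorem map_smul_of_intCast_surjective {k : Type} [CommRing k]
    (hk : Function.Surjective (Int.cast : ℤ → k)) {X Y : Type} [AddCommGroup X] [AddCommGroup Y]
    (mX : Module k X) (mY : Module k Y) (φ : X →+ Y) (r : k) (x : X) : φ (r • x) = r • φ x := by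
  obtain ⟨n, rfl⟩ := hk r
  exact map_intCast_smul φ k k n x

/-- **(EC3K)** the kernel-rank identity (K) for `T = C[p]`, from hyper-duality and the invariant
map of `C`. -/
theorem kernelRank (p : ℕ) [Fact p.Prime] (𝓑 : LevelCoh28.LevelBasis G) (C : Rep.{0} ℤ G)
    (hHD : SpecD26.HyperDuality 𝓑 C p) (hinv : SpecD26.HasInv 𝓑 C p)
    (hC : LevelCoh28.IsDiscrete 𝓑.sets C) :
    SpecD26.KernelRank 𝓑 (SpecB26.pTorsionRep p C) := by
  intro B C' ψ hψ hsurj hBfd hBd hH1B hH1C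
  have : Finite B := Module.finite_of_finite (ZMod p)
  have : Finite C' := Finite.of_surjective ψ hsurj
  obtain ⟨s, hs⟩ := ψ.exists_rightInverse_of_surjective (LinearMap.range_eq_top.2 hsurj)
  have hC'd : LevelCoh28.IsDiscrete 𝓑.sets C' := fun c => by
    obtain ⟨b, rfl⟩ := hsurj c
    obtain ⟨U, hU, h⟩ := hBd b
    exact ⟨U, hU, fun u hu => by rw [← hψ, h u hu]⟩
  exact kernelRankAt_of_hyperDuality 𝓑 C hHD hinv hC
    (T := SpecB26.pTorsionRep p C)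
    (AddMonoidHom.mk' (SpecB26.pTorsionRep.val p C) (fun _ _ => rfl))
    (SpecB26.pTorsionRep.val_injective p C) (SpecB26.pTorsionRep.val_ρ p C)
    (fun c hc => ⟨(⟨c, hc⟩ : SpecB26.pTorsionSub p C), rfl⟩)
    (IntRep20.intRep B) (fun _ _ => rfl) (IntRep20.intRep C') (fun _ _ => rfl)
    (fun φ r x => map_smul_of_intCast_surjective (fun n => ⟨n, Int.cast_id⟩) _ _ φ r x)
    (fun φ r x => map_smul_of_intCast_surjective (fun n => ⟨n, Int.cast_id⟩) _ _ φ r x)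
    ((IntRep20.isDiscrete_intRep_iff 𝓑.sets B).2 hBd)
    ((IntRep20.isDiscrete_intRep_iff 𝓑.sets C').2 hC'd)
    (fun m => IntRep20.natCast_smul_eq_zero B p (ZMod.natCast_self p) m)
    (fun m => IntRep20.natCast_smul_eq_zero C' p (ZMod.natCast_self p) m)
    ψ hψ ψ.toAddMonoidHom.toIntLinearMap (fun _ => rfl) s.toAddMonoidHom.toIntLinearMap
    (fun c => LinearMap.congr_fun hs c)

end Final

end Fermat.Agent.TW.GlobalEC.KernelRank79
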