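/-
TW / WP4 (global Euler characteristic), brick EC3-NT, abstract part (helper59).

`SpecB26.NoPTorsionH1On 𝓑 C U p` ("`H¹_lev(U, C)` has no `p`-torsion", cochains on `G`) follows from
the finite-level statements `HyperColimP18.H1NoPTorsion (fixedRep V' C.ρ) (U.map (mk' V')) p`
("`H¹(U/V', C^{V'})` has no `p`-torsion") for the normal members `V' ≤ U` of the level basis, when
`C` is discrete: a level cocycle on `U` with `p z = ∂c` is inflated from a finite level `V'` fixing
`c`, the finite-level statement gives a primitive in `C^{V'}`, which is a primitive on `U`.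
-/
import Mathlib
import Fermat.Agent.PT.PRO.HyperColimP18
import Fermat.Agent.TW.GlobalEC.SpecB26

set_option autoImplicit false
set_option linter.unusedSectionVars false

namespace Fermat.Agent.TW.GlobalEC.NoPTorsionAbs59

open Fermat.Agent.PT.PRO.LevelCoh28 Fermat.Agent.PT.PRO.HyperColim18
open Fermat.Agent.PT.PRO.HyperColimP18 Fermat.Agent.PT.PRO.GlobalDuality20
open Fermat.Agent.TW.GlobalEC.SpecB26

variable {G : Type} [Group G] {R : Type} [CommRing R]

/-- **From finite levels to the limit**: no `p`-torsion in `H¹` of an open subgroup. -/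
theorem noPTorsionH1On_of_levels (𝓑 : LevelBasis G) (C : Rep.{0} R G)
    (hC : IsDiscrete 𝓑.sets C) (U : Subgroup G) (p : ℕ)
    (h : ∀ V' ∈ 𝓑.sets, ∀ hn : V'.Normal, V' ≤ U →
      haveI := hn; H1NoPTorsion (fixedRep V' C.ρ) (U.map (QuotientGroup.mk' V')) p) :
    NoPTorsionH1On 𝓑 C U p := by
  intro z hz hlev hcob
  obtain ⟨V, hV, hVU, hzV⟩ := hlev
  obtain ⟨c, hc⟩ := hcob
  -- a normal level `V' ≤ V` fixing `c`
  obtain ⟨W, hW, -, hWc⟩ := hC.exists_fixing 𝓑.isBasis (Set.finite_singleton c)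
  obtain ⟨W', hW', hW'le⟩ := 𝓑.isBasis.directed V hV W hW
  obtain ⟨V', hV', hV'W', hn⟩ := 𝓑.isBasis.normalCore W' hW'
  have hV'V : V' ≤ V := hV'W'.trans (hW'le.trans inf_le_left)
  have hV'U : V' ≤ U := hV'V.trans hVU
  have hcfix : ∀ s ∈ V', C.ρ s c = c := fun s hs =>
    hWc s ((hV'W'.trans (hW'le.trans inf_le_right)) hs) c rfl
  have := hn
  -- `z` vanishes at `1` and on `V'`
  have hz1 : z 1 = 0 := by
    have h1 := hz 1 U.one_mem 1 U.one_mem
    rw [mul_one, map_one, Module.End.one_apply] at h1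
    exact left_eq_add.mp h1
  have hzV' : ∀ v ∈ V', z v = 0 := fun v hv => by
    have h1 := hzV 1 U.one_mem v (hV'V hv)
    rw [one_mul] at h1
    rw [h1, hz1]
  -- the values of `z` on `U` are fixed by `V'`
  have hzfix : ∀ u ∈ U, ∀ v ∈ V', C.ρ v (z u) = z u := by
    intro u hu v hv
    have h1 := hz v (hV'U hv) u hu
    rw [hzV' v hv, zero_add] at h1
    have h2 : v * u = u * (u⁻¹ * v * u) := by group
    have h3 : u⁻¹ * v * u ∈ V' := by
      have := hn.conj_mem v hv u⁻¹
      simpa using this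
    rw [← h1, h2]
    exact hzV u hu _ (hV'V h3)
  -- the descended cochain
  classical
  let zbar : G ⧸ V' → fixedSub V' C.ρ := fun q =>
    if hq : ∃ u ∈ U, (QuotientGroup.mk' V') u = q then
      ⟨z hq.choose, fun v hv => hzfix _ hq.choose_spec.1 v hv⟩
    else 0
  have hzbar : ∀ u ∈ U, ((zbar (QuotientGroup.mk' V' u) : fixedSub V' C.ρ) : C) = z u := by
    intro u hu
    have hq : ∃ u' ∈ U, (QuotientGroup.mk' V') u' = QuotientGroup.mk' V' u := ⟨u, hu, rfl⟩
    have h1 : zbar (QuotientGroup.mk' V' u) =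
        ⟨z hq.choose, fun v hv => hzfix _ hq.choose_spec.1 v hv⟩ := dif_pos hq
    rw [h1]
    change z hq.choose = z u
    have h2 : (hq.choose)⁻¹ * u ∈ V' := by
      have := hq.choose_spec.2
      exact QuotientGroup.eq.mp this
    have h3 := hzV hq.choose hq.choose_spec.1 _ (hV'V h2)
    rw [mul_inv_cancel_left] at h3
    exact h3.symm
  have key := h V' hV' hn hV'U zbar ?_ ?_
  · obtain ⟨x, hx⟩ := key
    refine ⟨(x : C), fun u hu => ?_⟩
    have h1 := hx (QuotientGroup.mk' V' u) (Subgroup.mem_map_of_mem _ hu)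
    have h2 : ((zbar (QuotientGroup.mk' V' u) : fixedSub V' C.ρ) : C) =
        ((fixedRep V' C.ρ (QuotientGroup.mk' V' u) x - x : fixedSub V' C.ρ) : C) :=
      congrArg Subtype.val h1
    rw [hzbar u hu] at h2
    exact h2
  · -- cocycle
    rintro _ ⟨u, hu, rfl⟩ _ ⟨u', hu', rfl⟩
    apply Subtype.ext
    rw [← map_mul]
    rw [Submodule.coe_add, hzbar _ (U.mul_mem hu hu'), hzbar u hu]
    change z (u * u') = C.ρ u ((zbar (QuotientGroup.mk' V' u') : fixedSub V' C.ρ) : C) + z u
    rw [hzbar u' hu', hz u hu u' hu', add_comm]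
  · -- `p z` is a coboundary
    refine ⟨⟨c, fun v hv => hcfix v hv⟩, ?_⟩
    rintro _ ⟨u, hu, rfl⟩
    apply Subtype.ext
    change ((p : R) • ((zbar (QuotientGroup.mk' V' u) : fixedSub V' C.ρ) : C)) = C.ρ u c - c
    rw [hzbar u hu, Nat.cast_smul_eq_nsmul]
    exact hc u hu

end Fermat.Agent.TW.GlobalEC.NoPTorsionAbs59
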