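/-
TW / WP4 (global Euler characteristic), brick EC3-NT (helper59): for an odd prime `p ∈ S`,
`H¹_lev(U, C_S)` has no `p`-torsion for every open subgroup `U` of `Γ = Gal(ℚ̄/ℚ)`:

  `noPTorsionH1On_CS : SpecB26.NoPTorsionH1On (levelS S) (CS S) U p`

(the hypothesis `hNT` of `EC7Main3.tate_formula` and of `SpecB26.ProjectiveEvaluation`).

Inputs: the fundamental classes at all finite levels of `(Γ, levelS S, C_S)`
(`FundLevelFinal2.fundFixed_CS`, unconditional), `FundRaw18.hH1_of_h1` (no `p`-torsion in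
`H¹(U/V', (C_S)^{V'})` from the vanishing of `H¹` on `p`-subgroups) and the passage to the limit
`NoPTorsionAbs59.noPTorsionH1On_of_levels`.
-/
import Mathlib
import Fermat.Agent.PT.GLUE.FundLevelFinal2
import Fermat.Agent.PT.PRO.LevelCompare13
import Fermat.Agent.TW.GlobalEC.NoPTorsionAbs59

set_option autoImplicit false
set_option linter.unusedSectionVars false

namespace Fermat.Agent.TW.GlobalEC.NoPTorsion59

open Fermat.Agent.PT.PRO.LevelCoh28 Fermat.Agent.PT.PRO.HyperColim18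
open Fermat.Agent.PT.PRO.HyperColimP18 Fermat.Agent.PT.PRO.FundRaw18
open Fermat.Agent.PT.GLUE.Objects21
open Fermat.Agent.TW.GlobalEC.SpecB26 Fermat.Agent.TW.GlobalEC.NoPTorsionAbs59

local notation "Γ" => (AlgebraicClosure ℚ ≃ₐ[ℚ] AlgebraicClosure ℚ)

variable {S : Finset Nat.Primes}

/-- **EC3-NT**: `H¹_lev(U, C_S)` has no `p`-torsion, for every subgroup `U` of `Γ`. -/
theorem noPTorsionH1On_CS (p : ℕ) [hp : Fact p.Prime] (hp2 : p ≠ 2)
    (hpS : (⟨p, hp.out⟩ : Nat.Primes) ∈ S) (U : Subgroup Γ) :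
    NoPTorsionH1On (levelS S) (CS S) U p := by
  refine noPTorsionH1On_of_levels (levelS S) (CS S) (isDiscrete_CS S) U p ?_
  intro V' hV' hn hV'U
  refine hH1_of_h1 (CS S).ρ
    (Fermat.Agent.PT.PRO.LevelCompare13.isLevelBasis_iff.1 (levelS S).isBasis) (p := p) ?_ U V' hV' hn
    hV'U
  intro W hW hWn H hH
  obtain ⟨u, hu⟩ := Fermat.Agent.PT.GLUE.FundLevelFinal2.fundFixed_CS p hp2 hpS W hW hWn
  exact hu.h1 H hH

end Fermat.Agent.TW.GlobalEC.NoPTorsion59
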