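import Mathlib
import Fermat.Agent.TW.GlobalEC.EC7K3
import Fermat.Agent.TW.GlobalEC.BaseBridge28
import Fermat.Agent.TW.GlobalEC.EC5Final5
import Fermat.Agent.TW.GlobalEC.KernelRank79
import Fermat.Agent.TW.GlobalEC.DualityCS26
import Fermat.Agent.TW.GlobalEC.NoPTorsion59
import Fermat.Agent.TW.GlobalEC.FinLevel28
import Fermat.Agent.TW.GlobalEC.AdditivityK19

/-!
# Program TW (S56), WP4 closed: the global Euler characteristic inequality (helper52)

Final plug of the chapter `TW/GlobalEC` (architect helper26):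
EC1 (helper28), EC2 (helper19/helper11), EC3K (helper79), EC3PT (helper26/helper59),
EC3-NT (helper59), EC4a/EC4b/EC7 (helper3), EC5 (helper5, helper59, helper79, helper2, helper74),
EC6 + bridges + finiteness (helper28) give Tate's formula for `X = M^*(1)` over
`(G_ℚ, levelS S, C_S)`, hence `Contract52.BaseCase p S M`.
-/

set_option autoImplicit false

open CategoryTheory groupCohomology Module ExtCitation

namespace Fermat.Agent.TW.GlobalEC.BaseFinal52

open Fermat.Agent.PT.PRO.LevelCoh28 Fermat.Agent.PT.GLUE.Objects21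
open Fermat.Agent.TW.GlobalEC.Spec26 Fermat.Agent.TW.GlobalEC.SpecB26
open Fermat.Agent.TW.Spec.Contract52

local notation "Γ" => (AlgebraicClosure ℚ ≃ₐ[ℚ] AlgebraicClosure ℚ)

variable (p : ℕ) [Fact p.Prime]

/-- **Tate's global Euler characteristic formula** for `X = M^*(1)`, `M` finite, smooth,
unramified outside `S ∋ p`, `p` odd. -/
theorem tate_CS (hp2 : p ≠ 2) (S : Finset Nat.Primes) (hpS : pPrime p ∈ S)
    (M : Rep.{0} (ZMod p) Γ) (hM : IsSmoothUnramified p S M) :
    euler (levelS S) (pTorsionRep p (CS S)) (M.dualTwist (cycloChar p))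
      + (negEigenRank ((M.dualTwist (cycloChar p)).ρ complexConjugation) : ℤ) = 0 := by
  have hfd : FiniteDimensional (ZMod p) M := hM.finite
  have hHD := DualityCS26.hyperDuality_CS p hp2 S hpS
  have hinv := DualityCS26.hasInv_CS p hp2 S hpS
  have hC : IsDiscrete (levelS S).sets (CS S) := isDiscrete_CS S
  have hK := KernelRank79.kernelRank p (levelS S) (CS S) hHD hinv hC
  exact EC7K3.tate_formula p (levelS S) (CS S) hp2 complexConjugation
    complexConjugation_mul_self hC (AdditivityK19.additivityK (levelS S) _) hK hHD hinv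
    (EC5Final5.arithmeticCore p hp2 hpS)
    (fun U _ _ => NoPTorsion59.noPTorsionH1On_CS p hp2 hpS U)
    (FinLevel28.hfinH1 S p hpS) (M.dualTwist (cycloChar p))
    (HomCS28.isDiscrete_N_level p S hpS M hM.smooth hM.unramified)

/-- **WP4 is closed**: the base case of the Greenberg–Wiles inequality. -/
theorem baseCase (hp2 : p ≠ 2) (S : Finset Nat.Primes) (hpS : pPrime p ∈ S)
    (M : Rep.{0} (ZMod p) Γ) (hM : IsSmoothUnramified p S M) : BaseCase p S M :=
  BaseBridge28.baseCase_of_tate p hp2 S hpS M hM (tate_CS p hp2 S hpS M hM)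

end Fermat.Agent.TW.GlobalEC.BaseFinal52
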