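/-
Program TW (S56), work package WP4 / EC2 (helper11).

The dual `X^D = Hom_k(X, T)` (conjugation action) of a representation with values in a
representation `T`, the cup product `cup f x (g, h) = f(g)(g • x(h))` of a 1-cochain of `X^D` with a
1-cochain of `X`, and the induced pairing
`H¹(X^D) × H¹(X) → H²(T)` on level cohomology (`PT/PRO/LevelCoh28`), with its naturality
(adjointness) in `X`.
-/
import Mathlib
import Fermat.Agent.PT.PRO.LevelCoh28

set_option autoImplicit false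
set_option linter.unusedSectionVars false
set_option linter.style.haveILetI false

universe u

open CategoryTheory groupCohomology Representation

noncomputable section

namespace Fermat.Agent.TW.GlobalEC.CupPair11

open Fermat.Agent.PT.PRO.LevelCoh28

variable {k G : Type u} [CommRing k] [Group G]
variable {𝓑 : LevelBasis G}

/-! ### The dual representation -/

section DualRep

variable (X T : Rep.{u} k G)

/-- `X^D = Hom_k(X, T)` with the conjugation action `(g • f) = T.ρ g ∘ f ∘ X.ρ g⁻¹`. -/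
def dualRep : Rep.{u} k G := Rep.of (Representation.linHom X.ρ T.ρ)

variable {X T}

/-- An element of `X^D` as a linear map. -/
def toLin (f : dualRep X T) : X →ₗ[k] T := f

/-- A linear map as an element of `X^D`. -/
def ofLin (f : X →ₗ[k] T) : dualRep X T := f

@[simp] theorem toLin_ofLin (f : X →ₗ[k] T) : toLin (ofLin f) = f := rfl

@[simp] theorem ofLin_toLin (f : dualRep X T) : ofLin (toLin f) = f := rfl

theorem toLin_injective : Function.Injective (toLin (X := X) (T := T)) := fun _ _ h => h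

theorem dualRep_ρ_apply (g : G) (f : dualRep X T) (x : X) :
    toLin ((dualRep X T).ρ g f) x = T.ρ g (toLin f (X.ρ g⁻¹ x)) := rfl

theorem toLin_add (f f' : dualRep X T) (x : X) : toLin (f + f') x = toLin f x + toLin f' x := rfl

theorem toLin_sub (f f' : dualRep X T) (x : X) : toLin (f - f') x = toLin f x - toLin f' x := rfl

theorem toLin_smul (r : k) (f : dualRep X T) (x : X) : toLin (r • f) x = r • toLin f x := rfl

theorem toLin_zero (x : X) : toLin (0 : dualRep X T) x = 0 := rfl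

theorem ρ_inv_ρ (g : G) (x : X) : X.ρ g⁻¹ (X.ρ g x) = x := by
  rw [← Module.End.mul_apply, ← map_mul, inv_mul_cancel, map_one, Module.End.one_apply]

theorem ρ_ρ_inv (g : G) (x : X) : X.ρ g (X.ρ g⁻¹ x) = x := by
  rw [← Module.End.mul_apply, ← map_mul, mul_inv_cancel, map_one, Module.End.one_apply]

end DualRep

/-! ### The cup product on cochains -/

section Cup

variable {X T : Rep.{u} k G}

/-- `cup f x (g, h) = f(g)(g • x(h))`. -/
def cup (f : G → dualRep X T) (x : G → X) : G × G → T :=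
  fun p => toLin (f p.1) (X.ρ p.1 (x p.2))

theorem cup_apply (f : G → dualRep X T) (x : G → X) (g h : G) :
    cup f x (g, h) = toLin (f g) (X.ρ g (x h)) := rfl

theorem cup_add_left (f f' : G → dualRep X T) (x : G → X) :
    cup (f + f') x = cup f x + cup f' x := by
  funext ⟨g, h⟩
  rw [Pi.add_apply, cup_apply, cup_apply, cup_apply, Pi.add_apply, toLin_add]

theorem cup_smul_left (r : k) (f : G → dualRep X T) (x : G → X) :
    cup (r • f) x = r • cup f x := by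
  funext ⟨g, h⟩
  rw [Pi.smul_apply, cup_apply, cup_apply, Pi.smul_apply, toLin_smul]

theorem cup_add_right (f : G → dualRep X T) (x x' : G → X) :
    cup f (x + x') = cup f x + cup f x' := by
  funext ⟨g, h⟩
  simp only [cup_apply, Pi.add_apply, map_add]

theorem cup_smul_right (r : k) (f : G → dualRep X T) (x : G → X) :
    cup f (r • x) = r • cup f x := by
  funext ⟨g, h⟩
  simp only [cup_apply, Pi.smul_apply, map_smul]

/-- The cup product of two cocycles is a cocycle. -/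
theorem cup_mem_cocycles₂ {f : G → dualRep X T} (hf : f ∈ cocycles₁ (dualRep X T))
    {x : G → X} (hx : x ∈ cocycles₁ X) : cup f x ∈ cocycles₂ T := by
  rw [mem_cocycles₂_iff]
  intro g h j
  have hf' := (mem_cocycles₁_iff f).1 hf g h
  have hx' := (mem_cocycles₁_iff x).1 hx h j
  simp only [cup_apply]
  rw [hf', hx', toLin_add, dualRep_ρ_apply, map_add, map_add, map_mul, Module.End.mul_apply,
    ρ_inv_ρ]
  abel

/-- The cup product of two level cochains is level. -/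
theorem isLevel₂_cup (hX : IsDiscrete 𝓑.sets X) {f : G → dualRep X T}
    (hf : IsLevel₁ 𝓑.sets f) {x : G → X} (hx : IsLevel₁ 𝓑.sets x) :
    IsLevel₂ 𝓑.sets (cup f x) := by
  obtain ⟨U, hU, -, hinv, hfix⟩ := hx.exists_normal_fixing 𝓑.isBasis hX
  obtain ⟨V, hV, hfV⟩ := hf
  obtain ⟨W, hW, hWle⟩ := 𝓑.isBasis.directed U hU V hV
  refine ⟨W, hW, fun g g' s hs s' hs' => ?_⟩
  have hsU : s ∈ U := (Subgroup.mem_inf.1 (hWle hs)).1
  have hsV : s ∈ V := (Subgroup.mem_inf.1 (hWle hs)).2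
  have hs'U : s' ∈ U := (Subgroup.mem_inf.1 (hWle hs')).1
  simp only [cup_apply]
  rw [hfV g s hsV, hinv g' s' hs'U, map_mul, Module.End.mul_apply, hfix s hsU]

theorem cup_mem_Z2 (hX : IsDiscrete 𝓑.sets X) {f : G → dualRep X T}
    (hf : f ∈ Z1 𝓑 (dualRep X T)) {x : G → X} (hx : x ∈ Z1 𝓑 X) : cup f x ∈ Z2 𝓑 T :=
  ⟨cup_mem_cocycles₂ hf.1 hx.1, isLevel₂_cup hX hf.2 hx.2⟩

/-- `cup (d⁰ φ₀) x = d¹ (φ₀ ∘ x)` for a cocycle `x`. -/
theorem cup_d₀₁_left (φ₀ : dualRep X T) {x : G → X} (hx : x ∈ cocycles₁ X) :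
    cup ((d₀₁.{u, u} (dualRep X T)).hom φ₀) x = (d₁₂ T).hom (fun g => toLin φ₀ (x g)) := by
  funext ⟨g, h⟩
  have hx' := (mem_cocycles₁_iff x).1 hx g h
  rw [cup_apply, d₀₁_hom_apply, d₁₂_hom_apply, toLin_sub, dualRep_ρ_apply, ρ_inv_ρ]
  simp only
  rw [hx', map_add]
  abel

/-- `cup f (d⁰ ξ) = d¹ (g ↦ - f(g)(g • ξ))` for a cocycle `f`. -/
theorem cup_d₀₁_right {f : G → dualRep X T} (hf : f ∈ cocycles₁ (dualRep X T)) (ξ : X) :
    cup f ((d₀₁ X).hom ξ) = (d₁₂ T).hom (fun g => - toLin (f g) (X.ρ g ξ)) := by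
  funext ⟨g, h⟩
  have hf' := (mem_cocycles₁_iff f).1 hf g h
  rw [cup_apply, d₀₁_hom_apply, d₁₂_hom_apply]
  simp only
  rw [hf', toLin_add, dualRep_ρ_apply, map_sub, map_sub, map_neg, map_mul, Module.End.mul_apply,
    ρ_inv_ρ]
  abel

theorem cup_mem_B2_of_left {f : G → dualRep X T} (hf : f ∈ coboundaries₁.{u, u} (dualRep X T))
    {x : G → X} (hx : x ∈ Z1 𝓑 X) : cup f x ∈ B2 𝓑 T := by
  obtain ⟨φ₀, rfl⟩ := hf
  rw [cup_d₀₁_left φ₀ hx.1]
  have hl : IsLevel₁ 𝓑.sets (fun g : G => toLin φ₀ (x g)) := by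
    obtain ⟨U, hU, h⟩ := hx.2
    exact ⟨U, hU, fun g s hs => by simp only [h g s hs]⟩
  exact (mem_B2_iff 𝓑 T _).2 ⟨fun g : G => toLin φ₀ (x g), hl, rfl⟩

theorem cup_mem_B2_of_right (hX : IsDiscrete 𝓑.sets X) {f : G → dualRep X T}
    (hf : f ∈ Z1 𝓑 (dualRep X T)) {x : G → X} (hx : x ∈ coboundaries₁ X) :
    cup f x ∈ B2 𝓑 T := by
  obtain ⟨ξ, rfl⟩ := hx
  rw [cup_d₀₁_right hf.1 ξ]
  refine (mem_B2_iff 𝓑 T _).2 ⟨fun g : G => - toLin (f g) (X.ρ g ξ), ?_, rfl⟩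
  obtain ⟨U, hU, hξ⟩ := hX ξ
  obtain ⟨V, hV, hfV⟩ := hf.2
  obtain ⟨W, hW, hWle⟩ := 𝓑.isBasis.directed U hU V hV
  refine ⟨W, hW, fun g s hs => ?_⟩
  have hsU : s ∈ U := (Subgroup.mem_inf.1 (hWle hs)).1
  have hsV : s ∈ V := (Subgroup.mem_inf.1 (hWle hs)).2
  simp only
  rw [hfV g s hsV, map_mul, Module.End.mul_apply, hξ s hsU]

end Cup

/-! ### The pairing `H¹(X^D) × H¹(X) → H²(T)` -/

section Pairing

variable {X T : Rep.{u} k G} (hX : IsDiscrete 𝓑.sets X)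

/-- The pairing on level cocycles with values in `H²(T)`. -/
def pairZ : ↥(Z1 𝓑 (dualRep X T)) →ₗ[k] ↥(Z1 𝓑 X) →ₗ[k] H2 𝓑 T :=
  LinearMap.mk₂ k (fun f x => H2mk 𝓑 T ⟨cup (f : G → dualRep X T) (x : G → X),
      cup_mem_Z2 hX f.2 x.2⟩)
    (fun f f' x => by
      rw [← map_add]
      exact congrArg (H2mk 𝓑 T) (Subtype.ext (cup_add_left _ _ _)))
    (fun r f x => by
      rw [← map_smul]
      exact congrArg (H2mk 𝓑 T) (Subtype.ext (cup_smul_left _ _ _)))
    (fun f x x' => by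
      rw [← map_add]
      exact congrArg (H2mk 𝓑 T) (Subtype.ext (cup_add_right _ _ _)))
    (fun r f x => by
      rw [← map_smul]
      exact congrArg (H2mk 𝓑 T) (Subtype.ext (cup_smul_right _ _ _)))

theorem pairZ_apply (f : ↥(Z1 𝓑 (dualRep X T))) (x : ↥(Z1 𝓑 X)) :
    pairZ hX f x = H2mk 𝓑 T ⟨cup (f : G → dualRep X T) (x : G → X), cup_mem_Z2 hX f.2 x.2⟩ :=
  rfl

/-- The pairing, descended in the second variable. -/
def pairZH : ↥(Z1 𝓑 (dualRep X T)) →ₗ[k] H1 𝓑 X →ₗ[k] H2 𝓑 T :=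
  (Submodule.liftQ _ (pairZ (𝓑 := 𝓑) (T := T) hX).flip (by
    intro x hx
    rw [Submodule.mem_comap, Submodule.subtype_apply] at hx
    rw [LinearMap.mem_ker]
    refine LinearMap.ext fun f => ?_
    rw [LinearMap.flip_apply, pairZ_apply, LinearMap.zero_apply, H2mk_eq_zero_iff]
    exact cup_mem_B2_of_right hX f.2 hx)).flip

theorem pairZH_mk (f : ↥(Z1 𝓑 (dualRep X T))) (x : ↥(Z1 𝓑 X)) :
    pairZH hX f (H1mk 𝓑 X x) = pairZ hX f x := rfl

/-- The pairing `H¹(X^D) × H¹(X) → H²(T)`. -/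
def pairH : H1 𝓑 (dualRep X T) →ₗ[k] H1 𝓑 X →ₗ[k] H2 𝓑 T :=
  Submodule.liftQ _ (pairZH (𝓑 := 𝓑) (T := T) hX) (by
    intro f hf
    rw [Submodule.mem_comap, Submodule.subtype_apply] at hf
    rw [LinearMap.mem_ker]
    refine LinearMap.ext fun w => ?_
    obtain ⟨x, rfl⟩ := H1mk_surjective 𝓑 X w
    rw [pairZH_mk, pairZ_apply, LinearMap.zero_apply, H2mk_eq_zero_iff]
    exact cup_mem_B2_of_left hf x.2)

theorem pairH_mk (f : ↥(Z1 𝓑 (dualRep X T))) (x : ↥(Z1 𝓑 X)) :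
    pairH hX (H1mk 𝓑 (dualRep X T) f) (H1mk 𝓑 X x) =
      H2mk 𝓑 T ⟨cup (f : G → dualRep X T) (x : G → X), cup_mem_Z2 hX f.2 x.2⟩ := rfl

/-- The duality hypothesis of WP4/EC2 (nondegeneracy on both sides at cocycle level). -/
structure Dual (𝓑 : LevelBasis G) (X T : Rep.{u} k G) : Prop where
  left : ∀ f : G → dualRep X T, f ∈ Z1 𝓑 (dualRep X T) →
    (∀ x : G → X, x ∈ Z1 𝓑 X → cup f x ∈ B2 𝓑 T) → f ∈ coboundaries₁.{u, u} (dualRep X T)
  right : ∀ x : G → X, x ∈ Z1 𝓑 X →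
    (∀ f : G → dualRep X T, f ∈ Z1 𝓑 (dualRep X T) → cup f x ∈ B2 𝓑 T) → x ∈ coboundaries₁ X

theorem pairH_left_nondeg (hD : Dual 𝓑 X T) (v : H1 𝓑 (dualRep X T))
    (hv : ∀ w, pairH hX v w = 0) : v = 0 := by
  obtain ⟨f, rfl⟩ := H1mk_surjective 𝓑 (dualRep X T) v
  rw [H1mk_eq_zero_iff]
  refine hD.left _ f.2 (fun x hx => ?_)
  have := hv (H1mk 𝓑 X ⟨x, hx⟩)
  rw [pairH_mk, H2mk_eq_zero_iff] at this
  exact this

theorem pairH_right_nondeg (hD : Dual 𝓑 X T) (w : H1 𝓑 X)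
    (hw : ∀ v : H1 𝓑 (dualRep X T), pairH hX v w = 0) : w = 0 := by
  obtain ⟨x, rfl⟩ := H1mk_surjective 𝓑 X w
  rw [H1mk_eq_zero_iff]
  refine hD.right _ x.2 (fun f hf => ?_)
  have := hw (H1mk 𝓑 (dualRep X T) ⟨f, hf⟩)
  rw [pairH_mk, H2mk_eq_zero_iff] at this
  exact this

end Pairing

/-! ### Naturality -/

section Naturality

variable {X Y T : Rep.{u} k G} (π : X →ₗ[k] Y) (hπ : ∀ g x, π (X.ρ g x) = Y.ρ g (π x))

/-- The transpose `Y^D → X^D`, `f ↦ f ∘ π`. -/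
def dualMap : dualRep Y T →ₗ[k] dualRep X T := LinearMap.lcomp k T π

theorem dualMap_apply (f : dualRep Y T) (x : X) : toLin (dualMap (T := T) π f) x = toLin f (π x) :=
  rfl

include hπ in
theorem dualMap_equivariant (g : G) (f : dualRep Y T) :
    dualMap (T := T) π ((dualRep Y T).ρ g f) = (dualRep X T).ρ g (dualMap (T := T) π f) := by
  apply LinearMap.ext
  intro x
  show toLin (dualMap (T := T) π ((dualRep Y T).ρ g f)) x =
    toLin ((dualRep X T).ρ g (dualMap (T := T) π f)) x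
  rw [dualMap_apply, dualRep_ρ_apply, dualRep_ρ_apply, dualMap_apply, hπ]

include hπ in
/-- Adjointness at cochain level: `cup (f ∘ π) x = cup f (π ∘ x)`. -/
theorem cup_dualMap (f : G → dualRep Y T) (x : G → X) :
    cup (dualMap (T := T) π ∘ f) x = cup f (π ∘ x) := by
  funext ⟨g, h⟩
  rw [cup_apply, cup_apply, Function.comp_apply, Function.comp_apply, dualMap_apply, hπ]

include hπ in
/-- Adjointness of `H¹(π^D)` and `H¹(π)` for the pairings. -/
theorem pairH_dualMap (hX : IsDiscrete 𝓑.sets X) (hY : IsDiscrete 𝓑.sets Y)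
    (v : H1 𝓑 (dualRep Y T)) (w : H1 𝓑 X) :
    pairH hX (mapH1 (𝓑 := 𝓑) (dualMap (T := T) π) (dualMap_equivariant π hπ) v) w =
      pairH hY v (mapH1 (𝓑 := 𝓑) π hπ w) := by
  obtain ⟨f, rfl⟩ := H1mk_surjective 𝓑 (dualRep Y T) v
  obtain ⟨x, rfl⟩ := H1mk_surjective 𝓑 X w
  rw [mapH1_mk, mapH1_mk, pairH_mk, pairH_mk]
  congr 1
  exact Subtype.ext (cup_dualMap π hπ _ _)

end Naturality

end Fermat.Agent.TW.GlobalEC.CupPair11
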