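/-
Program TW (S56), work package WP4 / EC2 (helper11).

The low-degree part `0 → A^G → B^G → C^G --δ⁰--> H¹(A) → H¹(B)` of the long exact sequence of level
cohomology (`PT/PRO/LevelCoh28`) attached to a short exact sequence `0 → A --φ--> B --ψ--> C → 0`
of discrete modules: the connecting map `δ⁰ : C^G → H¹(A)` and exactness at `B^G`, `C^G`, `H¹(A)`.
(`LevelCoh28` has exactness at `H¹(B)`, `H¹(C)`, `H²(A)`, `H²(B)`.)
-/
import Mathlib
import Fermat.Agent.PT.PRO.LevelCoh28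

set_option autoImplicit false
set_option linter.unusedSectionVars false
set_option linter.style.haveILetI false

universe u

open CategoryTheory groupCohomology Representation

noncomputable section

namespace Fermat.Agent.TW.GlobalEC.SixTerm11

open Fermat.Agent.PT.PRO.LevelCoh28

variable {k G : Type u} [CommRing k] [Group G]
variable {𝓑 : LevelBasis G} {A B C : Rep.{u} k G}

/-! ### Invariants -/

section Inv

variable (φ : A →ₗ[k] B) (hφ : ∀ g a, φ (A.ρ g a) = B.ρ g (φ a))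

/-- The map on invariants induced by an equivariant linear map. -/
def mapInv : ↥(invariants A.ρ) →ₗ[k] ↥(invariants B.ρ) :=
  φ.restrict (fun a ha => by
    rw [mem_invariants] at ha ⊢
    intro g
    rw [← hφ, ha g])

@[simp]
theorem mapInv_coe (a : ↥(invariants A.ρ)) :
    ((mapInv φ hφ a : ↥(invariants B.ρ)) : B) = φ (a : A) := rfl

theorem mapInv_injective (hinj : Function.Injective φ) : Function.Injective (mapInv φ hφ) := by
  intro a a' h
  apply Subtype.ext
  apply hinj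
  have := congrArg (fun x : ↥(invariants B.ρ) => (x : B)) h
  simpa using this

end Inv

/-! ### The connecting map `δ⁰ : C^G → H¹(A)` -/

section Connecting

variable (φ : A →ₗ[k] B) (hφ : ∀ g a, φ (A.ρ g a) = B.ρ g (φ a))
  (ψ : B →ₗ[k] C) (hψ : ∀ g b, ψ (B.ρ g b) = C.ρ g (ψ b))
  (hinj : Function.Injective φ) (hsurj : Function.Surjective ψ)
  (hex : ∀ b, ψ b = 0 ↔ ∃ a, φ a = b) (hB : IsDiscrete 𝓑.sets B)

/-- The cochain representing `δ⁰ c`. -/
def delta0Fun (c : C) : G → A := pre φ ∘ (d₀₁ B).hom (Function.surjInv hsurj c)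

include hψ hex in
theorem φ_comp_delta0Fun {c : C} (hc : c ∈ invariants C.ρ) :
    φ ∘ delta0Fun φ ψ hsurj c = (d₀₁ B).hom (Function.surjInv hsurj c) := by
  funext g
  refine φ_pre φ ψ hex ?_
  rw [mem_invariants] at hc
  rw [d₀₁_hom_apply, map_sub, hψ, Function.surjInv_eq hsurj, hc g, sub_self]

include hφ hinj hB in
/-- If `φ ∘ a = d⁰ b` then `a` is a level 1-cocycle. -/
theorem mem_Z1_of_comp_eq_d₀₁ {b : B} {a : G → A} (ha : φ ∘ a = (d₀₁ B).hom b) :
    a ∈ Z1 𝓑 A := by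
  refine mem_Z1_of 𝓑 A ?_ (isLevel₁_of_comp (𝓑 := 𝓑) φ hinj (ha ▸ isLevel₁_d₀₁ hB b))
  funext x
  apply hinj
  have h1 := congrFun (d₁₂_comp φ hφ a) x
  rw [ha] at h1
  have h2 := d₀₁_apply_mem_cocycles₁ b
  rw [cocycles₁, LinearMap.mem_ker] at h2
  rw [h2] at h1
  simp only [Function.comp_apply] at h1
  rw [← h1]
  exact (map_zero φ).symm

include hφ hinj hex in
/-- The class of `a` with `φ ∘ a = d⁰ b` only depends on `ψ b`. -/
theorem sub_mem_coboundaries₁_of_eq {b b' : B} (hbb' : ψ b = ψ b') {a a' : G → A}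
    (ha : φ ∘ a = (d₀₁ B).hom b) (ha' : φ ∘ a' = (d₀₁ B).hom b') :
    a - a' ∈ coboundaries₁ A := by
  have h0 : ψ (b - b') = 0 := by rw [map_sub, hbb', sub_self]
  obtain ⟨a₀, ha₀⟩ := (hex _).1 h0
  refine ⟨a₀, ?_⟩
  funext g
  apply hinj
  have h1 := congrFun (d₀₁_comp φ hφ a₀) g
  have h2 := congrFun ha g
  have h3 := congrFun ha' g
  simp only [Function.comp_apply] at h1 h2 h3
  rw [Pi.sub_apply, map_sub, h2, h3, ← h1, ha₀, map_sub (d₀₁ B).hom, Pi.sub_apply]

/-- `δ⁰` as a linear map on invariants. -/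
def delta0 : ↥(invariants C.ρ) →ₗ[k] H1 𝓑 A where
  toFun c := H1mk 𝓑 A ⟨delta0Fun φ ψ hsurj (c : C),
    mem_Z1_of_comp_eq_d₀₁ φ hφ hinj hB (φ_comp_delta0Fun φ ψ hψ hsurj hex c.2)⟩
  map_add' c c' := by
    rw [← map_add, ← sub_eq_zero, ← map_sub, H1mk_eq_zero_iff]
    have h1 : φ ∘ (delta0Fun φ ψ hsurj (c : C) + delta0Fun φ ψ hsurj (c' : C)) =
        (d₀₁ B).hom (Function.surjInv hsurj (c : C) + Function.surjInv hsurj (c' : C)) := by
      rw [map_add, ← φ_comp_delta0Fun φ ψ hψ hsurj hex c.2,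
        ← φ_comp_delta0Fun φ ψ hψ hsurj hex c'.2]
      funext x
      simp
    have h2 : ψ (Function.surjInv hsurj ((c + c' : ↥(invariants C.ρ)) : C)) =
        ψ (Function.surjInv hsurj (c : C) + Function.surjInv hsurj (c' : C)) := by
      simp [Function.surjInv_eq hsurj]
    exact sub_mem_coboundaries₁_of_eq φ hφ ψ hinj hex h2
      (φ_comp_delta0Fun φ ψ hψ hsurj hex (c + c').2) h1
  map_smul' r c := by
    rw [RingHom.id_apply, ← map_smul, ← sub_eq_zero, ← map_sub, H1mk_eq_zero_iff]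
    have h1 : φ ∘ (r • delta0Fun φ ψ hsurj (c : C)) =
        (d₀₁ B).hom (r • Function.surjInv hsurj (c : C)) := by
      rw [map_smul, ← φ_comp_delta0Fun φ ψ hψ hsurj hex c.2]
      funext x
      simp
    have h2 : ψ (Function.surjInv hsurj ((r • c : ↥(invariants C.ρ)) : C)) =
        ψ (r • Function.surjInv hsurj (c : C)) := by
      simp [Function.surjInv_eq hsurj]
    exact sub_mem_coboundaries₁_of_eq φ hφ ψ hinj hex h2
      (φ_comp_delta0Fun φ ψ hψ hsurj hex (r • c).2) h1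

include hφ hψ hinj hex hB in
/-- **Characterisation of `δ⁰`**: for ANY lift `b` of the invariant `c` and any `a` with
`φ ∘ a = d⁰ b`, the class of `a` is `δ⁰ c`. -/
theorem delta0_eq (c : ↥(invariants C.ρ)) {b : B} (hbc : ψ b = (c : C)) (a : ↥(Z1 𝓑 A))
    (ha : φ ∘ (a : G → A) = (d₀₁ B).hom b) :
    delta0 φ hφ ψ hψ hinj hsurj hex hB c = H1mk 𝓑 A a := by
  show H1mk 𝓑 A _ = H1mk 𝓑 A a
  rw [← sub_eq_zero, ← map_sub, H1mk_eq_zero_iff]
  refine sub_mem_coboundaries₁_of_eq φ hφ ψ hinj hex ?_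
    (φ_comp_delta0Fun φ ψ hψ hsurj hex c.2) ha
  rw [Function.surjInv_eq hsurj, hbc]

end Connecting

/-! ### Exactness -/

section Exactness

variable (φ : A →ₗ[k] B) (hφ : ∀ g a, φ (A.ρ g a) = B.ρ g (φ a))
  (ψ : B →ₗ[k] C) (hψ : ∀ g b, ψ (B.ρ g b) = C.ρ g (ψ b))
  (hinj : Function.Injective φ) (hsurj : Function.Surjective ψ)
  (hex : ∀ b, ψ b = 0 ↔ ∃ a, φ a = b) (hB : IsDiscrete 𝓑.sets B)

include hinj hex in
/-- **Exactness at `B^G`**. -/
theorem ker_mapInv :
    LinearMap.ker (mapInv ψ hψ) = LinearMap.range (mapInv φ hφ) := by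
  ext b
  rw [LinearMap.mem_ker, LinearMap.mem_range]
  constructor
  · intro h
    have h0 : ψ (b : B) = 0 := by
      have := congrArg (fun x : ↥(invariants C.ρ) => (x : C)) h
      simpa using this
    obtain ⟨a, ha⟩ := (hex _).1 h0
    have hainv : a ∈ invariants A.ρ := by
      rw [mem_invariants]
      intro g
      apply hinj
      have hb := b.2
      rw [mem_invariants] at hb
      rw [hφ, ha, hb g]
    exact ⟨⟨a, hainv⟩, Subtype.ext ha⟩
  · rintro ⟨a, rfl⟩
    apply Subtype.ext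
    simp only [mapInv_coe, ZeroMemClass.coe_zero]
    exact (hex _).2 ⟨_, rfl⟩

include hφ hψ hinj hex hB in
/-- **Exactness at `C^G`**: `ker δ⁰ = range (B^G → C^G)`. -/
theorem ker_delta0 :
    LinearMap.ker (delta0 φ hφ ψ hψ hinj hsurj hex hB) = LinearMap.range (mapInv ψ hψ) := by
  ext c
  rw [LinearMap.mem_ker, LinearMap.mem_range]
  constructor
  · intro h
    have h' : H1mk 𝓑 A ⟨delta0Fun φ ψ hsurj (c : C),
        mem_Z1_of_comp_eq_d₀₁ φ hφ hinj hB (φ_comp_delta0Fun φ ψ hψ hsurj hex c.2)⟩ = 0 := h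
    rw [H1mk_eq_zero_iff] at h'
    obtain ⟨a₀, ha₀⟩ := h'
    set b : B := Function.surjInv hsurj (c : C) - φ a₀ with hb
    have hψb : ψ b = (c : C) := by
      rw [hb, map_sub, Function.surjInv_eq hsurj, (hex _).2 ⟨a₀, rfl⟩, sub_zero]
    have hbinv : b ∈ invariants B.ρ := by
      rw [mem_invariants]
      intro g
      have h1 := congrFun (φ_comp_delta0Fun φ ψ hψ hsurj hex c.2) g
      have h2 := congrFun ha₀ g
      simp only [Function.comp_apply] at h1
      rw [d₀₁_hom_apply] at h1 h2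
      have h2' : A.ρ g a₀ - a₀ = delta0Fun φ ψ hsurj (c : C) g := h2
      have h3 : B.ρ g (φ a₀) - φ a₀ = B.ρ g (Function.surjInv hsurj (c : C)) -
          Function.surjInv hsurj (c : C) := by
        rw [← hφ, ← map_sub, h2', h1]
      rw [hb, map_sub]
      exact sub_eq_sub_iff_sub_eq_sub.1 h3.symm
    exact ⟨⟨b, hbinv⟩, Subtype.ext hψb⟩
  · rintro ⟨b, rfl⟩
    have hα : φ ∘ ((0 : ↥(Z1 𝓑 A)) : G → A) = (d₀₁ B).hom (b : B) := by
      funext g
      have hb := b.2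
      rw [mem_invariants] at hb
      rw [d₀₁_hom_apply, hb g, sub_self]
      exact map_zero φ
    rw [delta0_eq φ hφ ψ hψ hinj hsurj hex hB (mapInv ψ hψ b) rfl 0 hα, map_zero]

include hφ hψ hinj hex hB in
/-- **Exactness at `H¹(A)`**: `ker H¹(φ) = range δ⁰`. -/
theorem ker_mapH1_eq_range_delta0 :
    LinearMap.ker (mapH1 (𝓑 := 𝓑) φ hφ) =
      LinearMap.range (delta0 φ hφ ψ hψ hinj hsurj hex hB) := by
  ext x
  obtain ⟨a, rfl⟩ := H1mk_surjective 𝓑 A x
  rw [LinearMap.mem_ker, mapH1_mk, H1mk_eq_zero_iff, LinearMap.mem_range]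
  constructor
  · rintro ⟨b, hb⟩
    have hb' : φ ∘ (a : G → A) = (d₀₁ B).hom b := hb.symm
    have hc : ψ b ∈ invariants C.ρ := by
      rw [mem_invariants]
      intro g
      have h1 := congrFun hb' g
      simp only [Function.comp_apply] at h1
      rw [d₀₁_hom_apply] at h1
      have h2 : ψ (B.ρ g b - b) = 0 := by
        rw [← h1]
        exact (hex _).2 ⟨_, rfl⟩
      rw [map_sub, hψ, sub_eq_zero] at h2
      exact h2
    exact ⟨⟨ψ b, hc⟩, delta0_eq φ hφ ψ hψ hinj hsurj hex hB ⟨ψ b, hc⟩ rfl a hb'⟩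
  · rintro ⟨c, hc⟩
    have h1 : delta0 φ hφ ψ hψ hinj hsurj hex hB c = H1mk 𝓑 A ⟨delta0Fun φ ψ hsurj (c : C),
        mem_Z1_of_comp_eq_d₀₁ φ hφ hinj hB (φ_comp_delta0Fun φ ψ hψ hsurj hex c.2)⟩ := rfl
    rw [h1, ← sub_eq_zero, ← map_sub, H1mk_eq_zero_iff] at hc
    obtain ⟨a₀, ha₀⟩ := hc
    refine ⟨Function.surjInv hsurj (c : C) - φ a₀, ?_⟩
    funext g
    have h2 := congrFun (φ_comp_delta0Fun φ ψ hψ hsurj hex c.2) g
    have h3 := congrFun ha₀ g
    have h4 := congrFun (d₀₁_comp φ hφ a₀) g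
    simp only [Function.comp_apply] at h2 h4
    simp only [AddSubgroupClass.coe_sub, Pi.sub_apply] at h3
    rw [map_sub (d₀₁ B).hom, Pi.sub_apply, h4, h3, map_sub, h2]
    simp [mapZ1]

end Exactness

end Fermat.Agent.TW.GlobalEC.SixTerm11
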