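/-
Program TW (S56), work package WP4 / EC2 (helper11): ADDITIVITY of `a - b + c`.

`G` a group with a level basis `𝓑`, `k` a field, `T` a discrete `k`-representation with an injective
linear map `τ : H²(T) → k`.  For a finite-dimensional discrete representation `X` put
`X^D = Hom_k(X, T)` (`CupPair11.dualRep`) and
`a(X) = dim (X^D)^G = dim Hom_G(X, T)`, `b(X) = dim H¹(X)`, `c(X) = dim X^G`.
For a short exact sequence `0 → N' → N → N'' → 0` such that the cup-product pairing
`H¹(X^D) × H¹(X) → H²(T)` is nondegenerate (`CupPair11.Dual`) for `X = N` and `X = N''`: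
`(a - b + c)(N) = (a - b + c)(N') + (a - b + c)(N'')`.
-/
import Mathlib
import Fermat.Agent.PT.PRO.LevelCoh28
import Fermat.Agent.TW.GlobalEC.SixTerm11
import Fermat.Agent.TW.GlobalEC.CupPair11

set_option autoImplicit false
set_option linter.unusedSectionVars false
set_option linter.style.haveILetI false

universe u

open CategoryTheory groupCohomology Representation Module

noncomputable section

namespace Fermat.Agent.TW.GlobalEC.Additivity11

open Fermat.Agent.PT.PRO.LevelCoh28 Fermat.Agent.TW.GlobalEC.SixTerm11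
  Fermat.Agent.TW.GlobalEC.CupPair11

variable {k G : Type u} [Field k] [Group G] {𝓑 : LevelBasis G}

/-! ### Discreteness of the dual -/

/-- The dual `Hom_k(X, T)` of a finite-dimensional discrete representation with values in a
discrete representation is discrete. -/
theorem isDiscrete_dualRep {X T : Rep.{u} k G} [Module.Finite k X]
    (hX : IsDiscrete 𝓑.sets X) (hT : IsDiscrete 𝓑.sets T) :
    IsDiscrete 𝓑.sets (dualRep X T) := by
  intro f
  obtain ⟨S, hS⟩ := (Module.Finite.fg_top : (⊤ : Submodule k X).FG)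
  obtain ⟨U₁, hU₁, -, h₁⟩ := hX.exists_fixing 𝓑.isBasis (S.finite_toSet)
  obtain ⟨U₂, hU₂, -, h₂⟩ := hT.exists_fixing 𝓑.isBasis
    ((S.finite_toSet).image (fun x => toLin f x))
  obtain ⟨W, hW, hWle⟩ := 𝓑.isBasis.directed U₁ hU₁ U₂ hU₂
  refine ⟨W, hW, fun s hs => ?_⟩
  have hs1 : s⁻¹ ∈ U₁ := U₁.inv_mem (Subgroup.mem_inf.1 (hWle hs)).1
  have hs2 : s ∈ U₂ := (Subgroup.mem_inf.1 (hWle hs)).2
  apply toLin_injective
  refine LinearMap.ext_on hS (fun x hx => ?_)
  rw [dualRep_ρ_apply, h₁ s⁻¹ hs1 x hx]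
  exact h₂ s hs2 _ ⟨x, hx, rfl⟩

/-! ### The dual short exact sequence -/

section DualSequence

variable {N' N N'' : Rep.{u} k G} (T : Rep.{u} k G)
  (ι : N' →ₗ[k] N) (π : N →ₗ[k] N'')
  (hinj : Function.Injective ι) (hsurj : Function.Surjective π)
  (hex : ∀ b, π b = 0 ↔ ∃ a, ι a = b)

include hsurj in
theorem dualMap_injective : Function.Injective (dualMap (T := T) π) := by
  intro f f' h
  apply toLin_injective
  refine LinearMap.ext fun y => ?_
  obtain ⟨x, rfl⟩ := hsurj y
  have := congrArg (fun e => toLin e x) h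
  simpa only [dualMap_apply] using this

include hinj in
theorem dualMap_surjective : Function.Surjective (dualMap (T := T) ι) := by
  intro h
  obtain ⟨r, hr⟩ := LinearMap.exists_leftInverse_of_injective ι (LinearMap.ker_eq_bot.2 hinj)
  refine ⟨ofLin ((toLin h).comp r), ?_⟩
  apply toLin_injective
  refine LinearMap.ext fun x => ?_
  rw [dualMap_apply, toLin_ofLin, LinearMap.comp_apply]
  have := congrArg (fun e : N' →ₗ[k] N' => e x) hr
  simp only [LinearMap.comp_apply, LinearMap.id_apply] at this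
  rw [this]

include hsurj hex in
theorem dualMap_exact (f : dualRep N T) :
    dualMap (T := T) ι f = 0 ↔ ∃ f'' : dualRep N'' T, dualMap (T := T) π f'' = f := by
  constructor
  · intro h
    obtain ⟨s, hs⟩ := LinearMap.exists_rightInverse_of_surjective π
      (LinearMap.range_eq_top.2 hsurj)
    refine ⟨ofLin ((toLin f).comp s), ?_⟩
    apply toLin_injective
    refine LinearMap.ext fun b => ?_
    rw [dualMap_apply, toLin_ofLin, LinearMap.comp_apply]
    have h1 : π (s (π b) - b) = 0 := by
      have := congrArg (fun e : N'' →ₗ[k] N'' => e (π b)) hs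
      simp only [LinearMap.comp_apply, LinearMap.id_apply] at this
      rw [map_sub, this, sub_self]
    obtain ⟨a, ha⟩ := (hex _).1 h1
    have h2 : toLin f (ι a) = 0 := by
      have := congrArg (fun e => toLin e a) h
      simpa only [dualMap_apply, toLin_zero] using this
    rw [ha, map_sub, sub_eq_zero] at h2
    exact h2
  · rintro ⟨f'', rfl⟩
    apply toLin_injective
    refine LinearMap.ext fun a => ?_
    rw [dualMap_apply, dualMap_apply, (hex _).2 ⟨a, rfl⟩, map_zero, toLin_zero]

end DualSequence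

/-! ### Perfect pairings: the annihilator count -/

section Perfect

variable {V W V₁ W₁ : Type u} [AddCommGroup V] [Module k V] [AddCommGroup W] [Module k W]
  [AddCommGroup V₁] [Module k V₁] [AddCommGroup W₁] [Module k W₁]

/-- Let `P : V × W → k` be nondegenerate on both sides with `W` finite-dimensional, `P₁ : V₁ × W₁ → k`
nondegenerate on the left, and `j : V → V₁`, `p : W₁ → W` adjoint. Then
`dim ker j + dim range p = dim W`. -/
theorem finrank_ker_add_finrank_range_of_adjoint [Module.Finite k W]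
    (P : V →ₗ[k] W →ₗ[k] k) (hPl : ∀ v, (∀ w, P v w = 0) → v = 0)
    (hPr : ∀ w, (∀ v, P v w = 0) → w = 0)
    (P₁ : V₁ →ₗ[k] W₁ →ₗ[k] k) (hP₁l : ∀ v, (∀ w, P₁ v w = 0) → v = 0)
    (j : V →ₗ[k] V₁) (p : W₁ →ₗ[k] W) (hadj : ∀ v w, P₁ (j v) w = P v (p w)) :
    finrank k (LinearMap.ker j) + finrank k (LinearMap.range p) = finrank k W := by
  have hPinj : Function.Injective P := by
    rw [← LinearMap.ker_eq_bot, LinearMap.ker_eq_bot']
    intro v hv
    exact hPl v (fun w => by rw [hv, LinearMap.zero_apply])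
  have hPfinj : Function.Injective P.flip := by
    rw [← LinearMap.ker_eq_bot, LinearMap.ker_eq_bot']
    intro w hw
    refine hPr w (fun v => ?_)
    have := congrArg (fun e : V →ₗ[k] k => e v) hw
    simpa using this
  haveI : Module.Finite k (Module.Dual k W) := inferInstance
  haveI hVfin : Module.Finite k V := Module.Finite.of_injective P hPinj
  have h1 : finrank k V ≤ finrank k W := by
    have := LinearMap.finrank_le_finrank_of_injective hPinj
    rwa [Subspace.dual_finrank_eq] at this
  have h2 : finrank k W ≤ finrank k V := by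
    have := LinearMap.finrank_le_finrank_of_injective hPfinj
    rwa [Subspace.dual_finrank_eq] at this
  have hVW : finrank k V = finrank k (Module.Dual k W) := by
    rw [Subspace.dual_finrank_eq]
    exact le_antisymm h1 h2
  have hPsurj : Function.Surjective P :=
    (LinearMap.injective_iff_surjective_of_finrank_eq_finrank hVW).1 hPinj
  let e : V ≃ₗ[k] Module.Dual k W := LinearEquiv.ofBijective P ⟨hPinj, hPsurj⟩
  have hker : LinearMap.ker j =
      Submodule.comap (e : V →ₗ[k] Module.Dual k W) (LinearMap.range p).dualAnnihilator := by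
    ext v
    rw [LinearMap.mem_ker, Submodule.mem_comap, Submodule.mem_dualAnnihilator]
    constructor
    · rintro hv _ ⟨w, rfl⟩
      show P v (p w) = 0
      rw [← hadj, hv, map_zero, LinearMap.zero_apply]
    · intro hv
      refine hP₁l _ (fun w => ?_)
      rw [hadj]
      exact hv _ ⟨w, rfl⟩
  rw [hker, Submodule.comap_equiv_eq_map_symm, LinearEquiv.finrank_map_eq, add_comm]
  exact Subspace.finrank_add_finrank_dualAnnihilator_eq _

end Perfect

/-! ### Additivity -/

section Additivity

variable {N' N N'' T : Rep.{u} k G}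
  (ι : N' →ₗ[k] N) (hι : ∀ g a, ι (N'.ρ g a) = N.ρ g (ι a))
  (π : N →ₗ[k] N'') (hπ : ∀ g b, π (N.ρ g b) = N''.ρ g (π b))
  (hinj : Function.Injective ι) (hsurj : Function.Surjective π)
  (hex : ∀ b, π b = 0 ↔ ∃ a, ι a = b)

/-- `a(X) = dim Hom_G(X, T) = dim (X^D)^G`. -/
def aNum (X T : Rep.{u} k G) : ℕ := finrank k ↥(invariants (dualRep X T).ρ)

/-- `b(X) = dim H¹(X)` (level cohomology). -/
def bNum (𝓑 : LevelBasis G) (X : Rep.{u} k G) : ℕ := finrank k (H1 𝓑 X)

/-- `c(X) = dim X^G`. -/
def cNum (X : Rep.{u} k G) : ℕ := finrank k ↥(invariants X.ρ)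

/-- `ε'(X) = a(X) - b(X) + c(X)`. -/
def eps (𝓑 : LevelBasis G) (X T : Rep.{u} k G) : ℤ :=
  (aNum X T : ℤ) - (bNum 𝓑 X : ℤ) + (cNum X : ℤ)

include hι hπ hinj hsurj hex in
/-- **Additivity (EC2)**, natural-number form. -/
theorem add_eq_add [Module.Finite k N'] [Module.Finite k N] [Module.Finite k N'']
    (hN : IsDiscrete 𝓑.sets N) (hN'' : IsDiscrete 𝓑.sets N'')
    (hT : IsDiscrete 𝓑.sets T)
    (τ : H2 𝓑 T →ₗ[k] k) (hτ : Function.Injective τ)
    (hD : Dual 𝓑 N T) (hD'' : Dual 𝓑 N'' T)
    (hb' : Module.Finite k (H1 𝓑 N')) (hb : Module.Finite k (H1 𝓑 N))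
    (hb'' : Module.Finite k (H1 𝓑 N''))
    (ha' : Module.Finite k ↥(invariants (dualRep N' T).ρ))
    (ha : Module.Finite k ↥(invariants (dualRep N T).ρ)) :
    aNum N T + bNum 𝓑 N' + bNum 𝓑 N'' + cNum N =
      aNum N' T + aNum N'' T + bNum 𝓑 N + cNum N' + cNum N'' := by
  -- the primal sequence
  set i₀ := mapInv ι hι with hi₀
  set p₀ := mapInv π hπ with hp₀
  set δ₀ := delta0 (𝓑 := 𝓑) ι hι π hπ hinj hsurj hex hN with hδ₀
  set i₁ := mapH1 (𝓑 := 𝓑) ι hι with hi₁
  set p₁ := mapH1 (𝓑 := 𝓑) π hπ with hp₁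
  have e1 : finrank k (LinearMap.range i₀) = cNum N' :=
    LinearMap.finrank_range_of_inj (mapInv_injective ι hι hinj)
  have e2 : finrank k (LinearMap.range p₀) + finrank k (LinearMap.range i₀) = cNum N := by
    rw [← ker_mapInv ι hι π hπ hinj hex]
    exact LinearMap.finrank_range_add_finrank_ker p₀
  have e3 : finrank k (LinearMap.range δ₀) + finrank k (LinearMap.range p₀) = cNum N'' := by
    rw [← ker_delta0 (𝓑 := 𝓑) ι hι π hπ hinj hsurj hex hN]
    exact LinearMap.finrank_range_add_finrank_ker δ₀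
  have e4 : finrank k (LinearMap.range i₁) + finrank k (LinearMap.range δ₀) = bNum 𝓑 N' := by
    rw [← ker_mapH1_eq_range_delta0 (𝓑 := 𝓑) ι hι π hπ hinj hsurj hex hN]
    exact LinearMap.finrank_range_add_finrank_ker i₁
  have e5 : finrank k (LinearMap.range p₁) + finrank k (LinearMap.range i₁) = bNum 𝓑 N := by
    rw [← ker_mapH1 (𝓑 := 𝓑) ι hι π hπ hinj hsurj hex hN]
    exact LinearMap.finrank_range_add_finrank_ker p₁
  -- the dual sequence
  have hND : IsDiscrete 𝓑.sets (dualRep N T) := isDiscrete_dualRep hN hT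
  have hπD := dualMap_equivariant (T := T) π hπ
  have hιD := dualMap_equivariant (T := T) ι hι
  have hinjD := dualMap_injective T π hsurj
  have hsurjD := dualMap_surjective T ι hinj
  have hexD := dualMap_exact T ι π hsurj hex
  set j₀ := mapInv (dualMap (T := T) π) hπD with hj₀
  set q₀ := mapInv (dualMap (T := T) ι) hιD with hq₀
  set δD := delta0 (𝓑 := 𝓑) (dualMap (T := T) π) hπD (dualMap (T := T) ι) hιD hinjD hsurjD hexD hND
    with hδD
  set j₁ := mapH1 (𝓑 := 𝓑) (dualMap (T := T) π) hπD with hj₁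
  have f1 : finrank k (LinearMap.range j₀) = aNum N'' T :=
    LinearMap.finrank_range_of_inj (mapInv_injective _ hπD hinjD)
  have f2 : finrank k (LinearMap.range q₀) + finrank k (LinearMap.range j₀) = aNum N T := by
    rw [← ker_mapInv (dualMap (T := T) π) hπD (dualMap (T := T) ι) hιD hinjD hexD]
    exact LinearMap.finrank_range_add_finrank_ker q₀
  have f3 : finrank k (LinearMap.range δD) + finrank k (LinearMap.range q₀) = aNum N' T := by
    rw [← ker_delta0 (𝓑 := 𝓑) (dualMap (T := T) π) hπD (dualMap (T := T) ι) hιD hinjD hsurjD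
      hexD hND]
    exact LinearMap.finrank_range_add_finrank_ker δD
  have f4 : finrank k (LinearMap.ker j₁) = finrank k (LinearMap.range δD) := by
    rw [ker_mapH1_eq_range_delta0 (𝓑 := 𝓑) (dualMap (T := T) π) hπD (dualMap (T := T) ι) hιD
      hinjD hsurjD hexD hND]
  -- duality
  have f5 : finrank k (LinearMap.ker j₁) + finrank k (LinearMap.range p₁) = bNum 𝓑 N'' := by
    refine finrank_ker_add_finrank_range_of_adjoint
      ((pairH (T := T) hN'').compr₂ τ) ?_ ?_ ((pairH (T := T) hN).compr₂ τ) ?_ j₁ p₁ ?_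
    · intro v hv
      refine pairH_left_nondeg hN'' hD'' v (fun w => hτ ?_)
      rw [map_zero]
      exact hv w
    · intro w hw
      refine pairH_right_nondeg hN'' hD'' w (fun v => hτ ?_)
      rw [map_zero]
      exact hw v
    · intro v hv
      refine pairH_left_nondeg hN hD v (fun w => hτ ?_)
      rw [map_zero]
      exact hv w
    · intro v w
      show τ (pairH hN (j₁ v) w) = τ (pairH hN'' v (p₁ w))
      rw [hj₁, hp₁, pairH_dualMap π hπ hN hN'' v w]
  omega

include hι hπ hinj hsurj hex in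
/-- **Additivity (EC2)**: `ε'(N) = ε'(N') + ε'(N'')`. -/
theorem eps_additive [Module.Finite k N'] [Module.Finite k N] [Module.Finite k N'']
    (hN : IsDiscrete 𝓑.sets N) (hN'' : IsDiscrete 𝓑.sets N'')
    (hT : IsDiscrete 𝓑.sets T)
    (τ : H2 𝓑 T →ₗ[k] k) (hτ : Function.Injective τ)
    (hD : Dual 𝓑 N T) (hD'' : Dual 𝓑 N'' T)
    (hb' : Module.Finite k (H1 𝓑 N')) (hb : Module.Finite k (H1 𝓑 N))
    (hb'' : Module.Finite k (H1 𝓑 N''))
    (ha' : Module.Finite k ↥(invariants (dualRep N' T).ρ))
    (ha : Module.Finite k ↥(invariants (dualRep N T).ρ)) :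
    eps 𝓑 N T = eps 𝓑 N' T + eps 𝓑 N'' T := by
  have h := add_eq_add ι hι π hπ hinj hsurj hex hN hN'' hT τ hτ hD hD'' hb' hb hb'' ha' ha
  unfold eps
  omega

end Additivity

end Fermat.Agent.TW.GlobalEC.Additivity11
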