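/-
Program TW (S56), work package WP4 / EC2 (helper11), contract v2 (helper26, `SpecD26.AdditivityK`).

`C = C_S` is not known to be `p`-divisible, so the cup-product duality hypotheses of the first
contract (`Spec26.IsDualAt`) cannot be instantiated.  The additivity of the partial Euler
characteristic `euler = dim Hom_G(X, T) - dim H¹(X) + dim X^G` on a short exact sequence
`0 → A → B → C → 0` only needs ONE numerical consequence of duality,

  (K)   `dim ker(H¹(C^D) → H¹(B^D)) + rank(H¹(B) → H¹(C)) = dim H¹(C)`     (`X^D = Hom_k(X, T)`),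

everything else is the bookkeeping of the two six-term `H⁰/H¹` sequences of `0 → A → B → C → 0`
and of the dual sequence `0 → C^D → B^D → A^D → 0` (`SixTerm11`, `Additivity11`).

* `add_eq_add_of_kernelRank` : the count, in any universe, in the vocabulary of `CupPair11`;
* `additivityK : SpecD26.AdditivityK 𝓑 T` : the literal contract of `SpecD26`.
-/
import Mathlib
import Fermat.Agent.PT.PRO.LevelCoh28
import Fermat.Agent.TW.GlobalEC.SixTerm11
import Fermat.Agent.TW.GlobalEC.CupPair11
import Fermat.Agent.TW.GlobalEC.Additivity11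
import Fermat.Agent.TW.GlobalEC.SpecD26

set_option autoImplicit false
set_option linter.unusedSectionVars false
set_option linter.style.haveILetI false

universe u

open CategoryTheory groupCohomology Representation Module

noncomputable section

namespace Fermat.Agent.TW.GlobalEC.AdditivityK11

open Fermat.Agent.PT.PRO.LevelCoh28 Fermat.Agent.TW.GlobalEC.SixTerm11
  Fermat.Agent.TW.GlobalEC.CupPair11 Fermat.Agent.TW.GlobalEC.Additivity11

/-! ### The count, from the numerical hypothesis (K) -/

section General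

variable {k G : Type u} [Field k] [Group G] {𝓑 : LevelBasis G}

variable {N' N N'' T : Rep.{u} k G}
  (ι : N' →ₗ[k] N) (hι : ∀ g a, ι (N'.ρ g a) = N.ρ g (ι a))
  (π : N →ₗ[k] N'') (hπ : ∀ g b, π (N.ρ g b) = N''.ρ g (π b))
  (hinj : Function.Injective ι) (hsurj : Function.Surjective π)
  (hex : ∀ b, π b = 0 ↔ ∃ a, ι a = b)

include hι hπ hinj hsurj hex in
/-- **Additivity (EC2, contract v2)**, natural-number form: for a short exact sequence
`0 → N' → N → N'' → 0` with `N` finite-dimensional and discrete, `T` discrete, and (K)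
`dim ker(H¹(N''^D) → H¹(N^D)) + rank(H¹(N) → H¹(N'')) = dim H¹(N'')`:
`a(N) + b(N') + b(N'') + c(N) = a(N') + a(N'') + b(N) + c(N') + c(N'')`. -/
theorem add_eq_add_of_kernelRank [Module.Finite k N]
    (hN : IsDiscrete 𝓑.sets N) (hT : IsDiscrete 𝓑.sets T)
    (hK : finrank k (LinearMap.ker (mapH1 (𝓑 := 𝓑) (dualMap (T := T) π)
          (dualMap_equivariant π hπ))) +
        finrank k (LinearMap.range (mapH1 (𝓑 := 𝓑) π hπ)) = finrank k (H1 𝓑 N''))
    (hb' : Module.Finite k (H1 𝓑 N')) (hb : Module.Finite k (H1 𝓑 N))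
    (ha' : Module.Finite k ↥(invariants (dualRep N' T).ρ))
    (ha : Module.Finite k ↥(invariants (dualRep N T).ρ)) :
    aNum N T + bNum 𝓑 N' + bNum 𝓑 N'' + cNum N =
      aNum N' T + aNum N'' T + bNum 𝓑 N + cNum N' + cNum N'' := by
  haveI : Module.Finite k N'' := Module.Finite.of_surjective π hsurj
  -- the primal sequence
  set i₀ := mapInv ι hι with hi₀
  set p₀ := mapInv π hπ with hp₀
  set δ₀ := delta0 (𝓑 := 𝓑) ι hι π hπ hinj hsurj hex hN with hδ₀
  set i₁ := mapH1 (𝓑 := 𝓑) ι hι with hi₁
  set p₁ := mapH1 (𝓑 := 𝓑) π hπ with hp₁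
  have e1 : finrank k (LinearMap.range i₀) = cNum N' :=
    LinearMap.finrank_range_of_inj (mapInv_injective ι hι hinj)
  have e2 : finrank k (LinearMap.range p₀) + finrank k (LinearMap.range i₀) = cNum N := by
    rw [← ker_mapInv ι hι π hπ hinj hex]
    exact LinearMap.finrank_range_add_finrank_ker p₀
  have e3 : finrank k (LinearMap.range δ₀) + finrank k (LinearMap.range p₀) = cNum N'' := by
    rw [← ker_delta0 (𝓑 := 𝓑) ι hι π hπ hinj hsurj hex hN]
    exact LinearMap.finrank_range_add_finrank_ker δ₀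
  have e4 : finrank k (LinearMap.range i₁) + finrank k (LinearMap.range δ₀) = bNum 𝓑 N' := by
    rw [← ker_mapH1_eq_range_delta0 (𝓑 := 𝓑) ι hι π hπ hinj hsurj hex hN]
    exact LinearMap.finrank_range_add_finrank_ker i₁
  have e5 : finrank k (LinearMap.range p₁) + finrank k (LinearMap.range i₁) = bNum 𝓑 N := by
    rw [← ker_mapH1 (𝓑 := 𝓑) ι hι π hπ hinj hsurj hex hN]
    exact LinearMap.finrank_range_add_finrank_ker p₁
  -- the dual sequence
  have hND : IsDiscrete 𝓑.sets (dualRep N T) := isDiscrete_dualRep hN hT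
  have hπD := dualMap_equivariant (T := T) π hπ
  have hιD := dualMap_equivariant (T := T) ι hι
  have hinjD := dualMap_injective T π hsurj
  have hsurjD := dualMap_surjective T ι hinj
  have hexD := dualMap_exact T ι π hsurj hex
  set j₀ := mapInv (dualMap (T := T) π) hπD with hj₀
  set q₀ := mapInv (dualMap (T := T) ι) hιD with hq₀
  set δD := delta0 (𝓑 := 𝓑) (dualMap (T := T) π) hπD (dualMap (T := T) ι) hιD hinjD hsurjD hexD hND
    with hδD
  set j₁ := mapH1 (𝓑 := 𝓑) (dualMap (T := T) π) hπD with hj₁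
  have f1 : finrank k (LinearMap.range j₀) = aNum N'' T :=
    LinearMap.finrank_range_of_inj (mapInv_injective _ hπD hinjD)
  have f2 : finrank k (LinearMap.range q₀) + finrank k (LinearMap.range j₀) = aNum N T := by
    rw [← ker_mapInv (dualMap (T := T) π) hπD (dualMap (T := T) ι) hιD hinjD hexD]
    exact LinearMap.finrank_range_add_finrank_ker q₀
  have f3 : finrank k (LinearMap.range δD) + finrank k (LinearMap.range q₀) = aNum N' T := by
    rw [← ker_delta0 (𝓑 := 𝓑) (dualMap (T := T) π) hπD (dualMap (T := T) ι) hιD hinjD hsurjD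
      hexD hND]
    exact LinearMap.finrank_range_add_finrank_ker δD
  have f4 : finrank k (LinearMap.ker j₁) = finrank k (LinearMap.range δD) := by
    rw [ker_mapH1_eq_range_delta0 (𝓑 := 𝓑) (dualMap (T := T) π) hπD (dualMap (T := T) ι) hιD
      hinjD hsurjD hexD hND]
  -- (K)
  have f5 : finrank k (LinearMap.ker j₁) + finrank k (LinearMap.range p₁) = bNum 𝓑 N'' := hK
  omega

include hι hπ hinj hsurj hex in
/-- **Additivity (EC2, contract v2)**: `ε'(N) = ε'(N') + ε'(N'')` from (K). -/
theorem eps_additive_of_kernelRank [Module.Finite k N]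
    (hN : IsDiscrete 𝓑.sets N) (hT : IsDiscrete 𝓑.sets T)
    (hK : finrank k (LinearMap.ker (mapH1 (𝓑 := 𝓑) (dualMap (T := T) π)
          (dualMap_equivariant π hπ))) +
        finrank k (LinearMap.range (mapH1 (𝓑 := 𝓑) π hπ)) = finrank k (H1 𝓑 N''))
    (hb' : Module.Finite k (H1 𝓑 N')) (hb : Module.Finite k (H1 𝓑 N))
    (ha' : Module.Finite k ↥(invariants (dualRep N' T).ρ))
    (ha : Module.Finite k ↥(invariants (dualRep N T).ρ)) :
    eps 𝓑 N T = eps 𝓑 N' T + eps 𝓑 N'' T := by
  have h := add_eq_add_of_kernelRank ι hι π hπ hinj hsurj hex hN hT hK hb' hb ha' ha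
  unfold eps
  omega

end General

/-! ### The literal contract `SpecD26.AdditivityK` -/

section Contract

variable {k G : Type} [Field k] [Group G]

/-- **(EC2, contract v2)** `SpecD26.AdditivityK`: the partial Euler characteristic
`euler 𝓑 T X = dim Hom_G(X, T) - dim H¹_𝓑(X) + dim X^G` is additive on every short exact sequence
of finite-dimensional discrete modules for which (K) = `SpecD26.KernelRankAt` holds. -/
theorem additivityK (𝓑 : LevelBasis G) (T : Rep.{0} k G) : SpecD26.AdditivityK 𝓑 T := by
  intro hT A B C φ ψ h hBfin hB hK hbA hbB _hbC haA haB _haC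
  haveI : Module.Finite k B := hBfin
  have hex : ∀ b, ψ b = 0 ↔ ∃ a, φ a = b := fun b => h.exact b
  have key : finrank k ↥(Spec26.homRep B T).ρ.invariants + finrank k (H1 𝓑 A) +
      finrank k (H1 𝓑 C) + finrank k ↥B.ρ.invariants =
      finrank k ↥(Spec26.homRep A T).ρ.invariants + finrank k ↥(Spec26.homRep C T).ρ.invariants +
        finrank k (H1 𝓑 B) + finrank k ↥A.ρ.invariants + finrank k ↥C.ρ.invariants :=
    add_eq_add_of_kernelRank (𝓑 := 𝓑) (T := T) φ h.φ_comm ψ h.ψ_comm h.inj h.surj hex hB hT hK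
      hbA hbB haA haB
  unfold Spec26.euler Spec26.eqHomRank
  omega

end Contract

end Fermat.Agent.TW.GlobalEC.AdditivityK11
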