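/-
Program TW (S56), WP4 (global Euler characteristic), brick EC4b, pure algebra (helper55):
a biadditive pairing `β : A →+ B →+ ZMod p` induces a perfect pairing between `A ⧸ lker β` and
`B ⧸ rker β`; if one of the two quotients is finite, so is the other and they have the same
cardinality.
-/
import Mathlib

set_option autoImplicit false
set_option linter.style.haveILetI false

open Module

namespace Fermat.Agent.TW.GlobalEC.CardPair55

/-! ### Vector spaces -/

section Linear

variable {K V W : Type*} [Field K] [AddCommGroup V] [Module K V] [AddCommGroup W] [Module K W]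

/-- Two injective maps `V → W^*`, `W → V^*` with `W` finite-dimensional: `V` is finite-dimensional of
the same dimension. -/
theorem finrank_eq_of_injective_dual [FiniteDimensional K W]
    (φ : V →ₗ[K] Module.Dual K W) (hφ : Function.Injective φ)
    (ψ : W →ₗ[K] Module.Dual K V) (hψ : Function.Injective ψ) :
    FiniteDimensional K V ∧ finrank K V = finrank K W := by
  have hV : FiniteDimensional K V := FiniteDimensional.of_injective φ hφ
  refine ⟨hV, le_antisymm ?_ ?_⟩
  · have := LinearMap.finrank_le_finrank_of_injective hφ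
    rwa [Subspace.dual_finrank_eq] at this
  · have := LinearMap.finrank_le_finrank_of_injective hψ
    rwa [Subspace.dual_finrank_eq] at this

end Linear

/-! ### Perfect pairings of `ZMod p`-modules -/

section Perfect

variable (p : ℕ) [hp : Fact p.Prime] {X Y : Type*} [AddCommGroup X] [AddCommGroup Y]
  [Module (ZMod p) X] [Module (ZMod p) Y]

/-- A biadditive pairing of `ZMod p`-modules which is nondegenerate on both sides, with `Y` finite:
`X` is finite of the same cardinality. -/
theorem card_eq_of_perfect [Finite Y] (γ : X →+ Y →+ ZMod p)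
    (hl : ∀ x, (∀ y, γ x y = 0) → x = 0) (hr : ∀ y, (∀ x, γ x y = 0) → y = 0) :
    Finite X ∧ Nat.card X = Nat.card Y := by
  have : FiniteDimensional (ZMod p) Y := Module.Finite.of_finite
  let f : X →ₗ[ZMod p] Y →ₗ[ZMod p] ZMod p :=
    LinearMap.mk₂ (ZMod p) (fun x y => γ x y)
      (fun x x' y => by rw [map_add, AddMonoidHom.add_apply])
      (fun c x y => ZMod.map_smul ((AddMonoidHom.flip γ) y) c x)
      (fun x y y' => map_add _ _ _)
      (fun c x y => ZMod.map_smul (γ x) c y)
  have hf : ∀ x y, f x y = γ x y := fun x y => rfl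
  have hφi : Function.Injective (f : X →ₗ[ZMod p] Module.Dual (ZMod p) Y) := by
    rw [injective_iff_map_eq_zero]
    intro x hx
    apply hl x
    intro y
    rw [← hf, hx, LinearMap.zero_apply]
  have hψi : Function.Injective (f.flip : Y →ₗ[ZMod p] Module.Dual (ZMod p) X) := by
    rw [injective_iff_map_eq_zero]
    intro y hy
    apply hr y
    intro x
    rw [← hf, ← LinearMap.flip_apply, hy, LinearMap.zero_apply]
  obtain ⟨hfd, hrank⟩ := finrank_eq_of_injective_dual (f : X →ₗ[ZMod p] Module.Dual (ZMod p) Y) hφi
    (f.flip : Y →ₗ[ZMod p] Module.Dual (ZMod p) X) hψi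
  have hfinX : Finite X := Module.finite_of_finite (ZMod p)
  refine ⟨hfinX, ?_⟩
  rw [Module.natCard_eq_pow_finrank (K := ZMod p) (V := X),
    Module.natCard_eq_pow_finrank (K := ZMod p) (V := Y), hrank]

end Perfect

/-! ### Pairings with values in `ZMod p` -/

section Pairing

variable {A B : Type*} [AddCommGroup A] [AddCommGroup B] (p : ℕ) [hp : Fact p.Prime]
  (β : A →+ B →+ ZMod p)

/-- The left kernel of a pairing. -/
def lker : AddSubgroup A where
  carrier := {a | ∀ b, β a b = 0}
  zero_mem' := fun b => by rw [map_zero, AddMonoidHom.zero_apply]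
  add_mem' := fun {a a'} ha ha' b => by rw [map_add, AddMonoidHom.add_apply, ha b, ha' b, add_zero]
  neg_mem' := fun {a} ha b => by rw [map_neg, AddMonoidHom.neg_apply, ha b, neg_zero]

/-- The right kernel of a pairing. -/
def rker : AddSubgroup B where
  carrier := {b | ∀ a, β a b = 0}
  zero_mem' := fun a => map_zero _
  add_mem' := fun {b b'} hb hb' a => by rw [map_add, hb a, hb' a, add_zero]
  neg_mem' := fun {b} hb a => by rw [map_neg, hb a, neg_zero]

theorem mem_lker {a : A} : a ∈ lker p β ↔ ∀ b, β a b = 0 := Iff.rfl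

theorem mem_rker {b : B} : b ∈ rker p β ↔ ∀ a, β a b = 0 := Iff.rfl

/-- The flipped pairing. -/
def flip : B →+ A →+ ZMod p := AddMonoidHom.flip β

theorem flip_apply (a : A) (b : B) : flip p β b a = β a b := rfl

theorem lker_flip : lker p (flip p β) = rker p β := rfl

theorem rker_flip : rker p (flip p β) = lker p β := rfl

theorem nsmul_mem_lker (a : A) : p • a ∈ lker p β := by
  intro b
  rw [map_nsmul, AddMonoidHom.coe_smul, Pi.smul_apply, nsmul_eq_mul, ZMod.natCast_self, zero_mul]

theorem nsmul_mem_rker (b : B) : p • b ∈ rker p β := by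
  intro a
  rw [map_nsmul, nsmul_eq_mul, ZMod.natCast_self, zero_mul]

/-- The pairing induced on the quotients, as a map `A ⧸ lker → (B ⧸ rker →+ ZMod p)`. -/
def quotPair : A ⧸ lker p β →+ (B ⧸ rker p β →+ ZMod p) :=
  QuotientAddGroup.lift (lker p β)
    { toFun := fun a => QuotientAddGroup.lift (rker p β) (β a) (fun b hb => hb a)
      map_zero' := by
        ext b
        show β 0 b = 0
        rw [map_zero, AddMonoidHom.zero_apply]
      map_add' := fun a a' => by
        ext b
        show β (a + a') b = β a b + β a' b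
        rw [map_add, AddMonoidHom.add_apply] }
    (fun a ha => by
      ext b
      exact ha b)

theorem quotPair_mk (a : A) (b : B) :
    quotPair p β (QuotientAddGroup.mk a) (QuotientAddGroup.mk b) = β a b := rfl

theorem quotPair_left_injective (x : A ⧸ lker p β)
    (h : ∀ y, quotPair p β x y = 0) : x = 0 := by
  obtain ⟨a, rfl⟩ := QuotientAddGroup.mk_surjective x
  rw [QuotientAddGroup.eq_zero_iff]
  intro b
  exact h (QuotientAddGroup.mk b)

theorem quotPair_right_injective (y : B ⧸ rker p β)
    (h : ∀ x, quotPair p β x y = 0) : y = 0 := by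
  obtain ⟨b, rfl⟩ := QuotientAddGroup.mk_surjective y
  rw [QuotientAddGroup.eq_zero_iff]
  intro a
  exact h (QuotientAddGroup.mk a)

/-- **Perfectness in cardinalities.**  If `B ⧸ rker β` is finite then `A ⧸ lker β` is finite of the
same cardinality. -/
theorem card_quot_lker_eq_card_quot_rker (hfin : Finite (B ⧸ rker p β)) :
    Finite (A ⧸ lker p β) ∧ Nat.card (A ⧸ lker p β) = Nat.card (B ⧸ rker p β) := by
  have hA : ∀ x : A ⧸ lker p β, p • x = 0 := by
    intro x
    obtain ⟨a, rfl⟩ := QuotientAddGroup.mk_surjective x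
    exact (QuotientAddGroup.eq_zero_iff _).2 (nsmul_mem_lker p β a)
  have hB : ∀ y : B ⧸ rker p β, p • y = 0 := by
    intro y
    obtain ⟨b, rfl⟩ := QuotientAddGroup.mk_surjective y
    exact (QuotientAddGroup.eq_zero_iff _).2 (nsmul_mem_rker p β b)
  exact @card_eq_of_perfect p _ (A ⧸ lker p β) (B ⧸ rker p β) _ _ (AddCommGroup.zmodModule hA)
    (AddCommGroup.zmodModule hB) hfin (quotPair p β) (quotPair_left_injective p β)
    (quotPair_right_injective p β)

/-- The symmetric statement. -/
theorem card_quot_rker_eq_card_quot_lker (hfin : Finite (A ⧸ lker p β)) :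
    Finite (B ⧸ rker p β) ∧ Nat.card (B ⧸ rker p β) = Nat.card (A ⧸ lker p β) :=
  card_quot_lker_eq_card_quot_rker p (flip p β) hfin

/-- A pairing from a biadditive function. -/
def mkPair (γ : A → B → ZMod p) (hl : ∀ a a' b, γ (a + a') b = γ a b + γ a' b)
    (hr : ∀ a b b', γ a (b + b') = γ a b + γ a b') : A →+ B →+ ZMod p :=
  AddMonoidHom.mk' (fun a => AddMonoidHom.mk' (γ a) (hr a)) (fun a a' => by
    ext b
    exact hl a a' b)

theorem mkPair_apply (γ : A → B → ZMod p) (hl : ∀ a a' b, γ (a + a') b = γ a b + γ a' b)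
    (hr : ∀ a b b', γ a (b + b') = γ a b + γ a b') (a : A) (b : B) :
    mkPair p γ hl hr a b = γ a b := rfl

end Pairing

end Fermat.Agent.TW.GlobalEC.CardPair55
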