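/-
Program TW (S56), WP4 "EC", brick EC5d, part G (Mathlib only), helper87.

The Hom-criterion for semisimple modules: let `A` be an algebra over a field `k` and `M`, `M'`
semisimple `A`-modules, finite-dimensional over `k`.  If
`dim_k Hom_A(M, N) = dim_k Hom_A(M', N)` for every (finite-dimensional, semisimple) `N`, then
`M ≃ₗ[A] M'`.
-/
import Mathlib

set_option autoImplicit false
set_option linter.unusedSectionVars false

namespace Fermat.Agent.TW.GlobalEC.HomCrit87

universe u

open Module

variable {k A : Type*} [Field k] [Ring A] [Algebra k A]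

section Basic

variable {M M₁ M₂ N : Type*}
  [AddCommGroup M] [Module k M] [Module A M] [IsScalarTower k A M]
  [AddCommGroup M₁] [Module k M₁] [Module A M₁] [IsScalarTower k A M₁]
  [AddCommGroup M₂] [Module k M₂] [Module A M₂] [IsScalarTower k A M₂]
  [AddCommGroup N] [Module k N] [Module A N] [IsScalarTower k A N]

/-- `Hom_A(M, N)` is finite-dimensional over `k` when `M` and `N` are. -/
instance finiteDimensional_hom [FiniteDimensional k M] [FiniteDimensional k N] :
    FiniteDimensional k (M →ₗ[A] N) :=
  FiniteDimensional.of_injective (LinearMap.restrictScalarsₗ k A M N k)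
    (LinearMap.restrictScalars_injective k)

/-- Precomposition with an `A`-linear equivalence, as a `k`-linear equivalence of Hom spaces. -/
noncomputable def homCongrLeft (e : M ≃ₗ[A] M₁) : (M →ₗ[A] N) ≃ₗ[k] (M₁ →ₗ[A] N) where
  toFun φ := φ.comp e.symm.toLinearMap
  invFun ψ := ψ.comp e.toLinearMap
  map_add' φ ψ := by ext; simp
  map_smul' c φ := by ext; simp
  left_inv φ := by ext; simp
  right_inv ψ := by ext; simp

theorem finrank_hom_congr_left (e : M ≃ₗ[A] M₁) :
    finrank k (M →ₗ[A] N) = finrank k (M₁ →ₗ[A] N) :=
  (homCongrLeft (k := k) (N := N) e).finrank_eq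

theorem finrank_hom_prod [FiniteDimensional k M₁] [FiniteDimensional k M₂]
    [FiniteDimensional k N] :
    finrank k ((M₁ × M₂) →ₗ[A] N) = finrank k (M₁ →ₗ[A] N) + finrank k (M₂ →ₗ[A] N) := by
  rw [← (LinearMap.coprodEquiv (R := A) (M := M₁) (M₂ := M₂) (M₃ := N) k).finrank_eq,
    Module.finrank_prod]

end Basic

section Sub

variable {M : Type*} [AddCommGroup M] [Module k M] [Module A M] [IsScalarTower k A M]

instance finiteDimensional_submodule [FiniteDimensional k M] (S : Submodule A M) :
    FiniteDimensional k S :=
  FiniteDimensional.of_injective (S.subtype.restrictScalars k) S.injective_subtype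

end Sub

/-- The case `M = 0` of the Hom-criterion. -/
theorem nonempty_linearEquiv_of_subsingleton (M M' : Type u)
    [AddCommGroup M] [Module k M] [Module A M] [IsScalarTower k A M]
    [AddCommGroup M'] [Module k M'] [Module A M'] [IsScalarTower k A M']
    [FiniteDimensional k M'] [Subsingleton M]
    (H : finrank k (M →ₗ[A] M') = finrank k (M' →ₗ[A] M')) :
    Nonempty (M ≃ₗ[A] M') := by
  have h0 : finrank k (M' →ₗ[A] M') = 0 := by
    rw [← H]
    have : Subsingleton (M →ₗ[A] M') := ⟨fun f g => by ext x; simp [Subsingleton.elim x 0]⟩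
    exact Module.finrank_zero_of_subsingleton
  have hs : Subsingleton (M' →ₗ[A] M') := Module.finrank_zero_iff.mp h0
  have hM's : Subsingleton M' := by
    refine ⟨fun x y => ?_⟩
    have := LinearMap.congr_fun (Subsingleton.elim (LinearMap.id : M' →ₗ[A] M') 0)
    have hx : x = 0 := this x
    have hy : y = 0 := this y
    rw [hx, hy]
  exact ⟨{ toFun := fun _ => 0, invFun := fun _ => 0,
           map_add' := by simp, map_smul' := by simp,
           left_inv := fun x => Subsingleton.elim _ _,
           right_inv := fun x => Subsingleton.elim _ _ }⟩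

/-- **Hom-criterion.** Semisimple modules, finite-dimensional over `k`, with the same
`k`-dimensions of `Hom_A(-, N)` for all `N` (in the same universe) are isomorphic. -/
theorem nonempty_linearEquiv_of_finrank_hom_eq_aux :
    ∀ (n : ℕ) (M M' : Type u)
      [AddCommGroup M] [Module k M] [Module A M] [IsScalarTower k A M] [FiniteDimensional k M]
      [IsSemisimpleModule A M]
      [AddCommGroup M'] [Module k M'] [Module A M'] [IsScalarTower k A M']
      [FiniteDimensional k M'] [IsSemisimpleModule A M'],
      finrank k M ≤ n →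
      (∀ (N : Type u) [AddCommGroup N] [Module k N] [Module A N] [IsScalarTower k A N]
        [FiniteDimensional k N] [IsSemisimpleModule A N],
        finrank k (M →ₗ[A] N) = finrank k (M' →ₗ[A] N)) →
      Nonempty (M ≃ₗ[A] M') := by
  intro n
  induction n with
  | zero =>
    intro M M' _ _ _ _ _ _ _ _ _ _ _ _ hM H
    have hMs : Subsingleton M := Module.finrank_zero_iff.mp (Nat.le_zero.mp hM)
    exact nonempty_linearEquiv_of_subsingleton M M' (H M')
  | succ n ih =>
    intro M M' _ _ _ _ _ _ _ _ _ _ _ _ hM H
    rcases Nat.eq_zero_or_pos (finrank k M) with h0 | hpos0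
    · have hMs : Subsingleton M := Module.finrank_zero_iff.mp h0
      exact nonempty_linearEquiv_of_subsingleton M M' (H M')
    have hMn : Nontrivial M := Module.nontrivial_of_finrank_pos (R := k) hpos0
    obtain ⟨S, hS⟩ := IsSemisimpleModule.exists_simple_submodule A M
    obtain ⟨C, hC⟩ := exists_isCompl S
    have hSn : Nontrivial S := IsSimpleModule.nontrivial A S
    -- M ≃ S × C
    let eM : (S × C) ≃ₗ[A] M := Submodule.prodEquivOfIsCompl S C hC
    -- a nonzero map M → S, hence a nonzero map M' → S
    have hpos : 0 < finrank k (M →ₗ[A] S) := by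
      rw [Module.finrank_pos_iff_exists_ne_zero]
      refine ⟨(LinearMap.fst A S C).comp eM.symm.toLinearMap, fun h => ?_⟩
      obtain ⟨s, hs⟩ := exists_ne (0 : S)
      have := LinearMap.congr_fun h (eM (s, 0))
      simp at this
      exact hs this
    rw [H S, Module.finrank_pos_iff_exists_ne_zero] at hpos
    obtain ⟨f, hf⟩ := hpos
    have hfs : Function.Surjective f := LinearMap.surjective_of_ne_zero hf
    obtain ⟨C', hC'⟩ := exists_isCompl (LinearMap.ker f)
    -- C' ≃ M' ⧸ ker f ≃ S
    let e1 : C' ≃ₗ[A] S :=
      (Submodule.quotientEquivOfIsCompl (LinearMap.ker f) C' hC').symm ≪≫ₗ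
        f.quotKerEquivOfSurjective hfs
    let eM' : (S × LinearMap.ker f) ≃ₗ[A] M' :=
      (LinearEquiv.prodComm A S (LinearMap.ker f)) ≪≫ₗ
        (LinearEquiv.prodCongr (LinearEquiv.refl A _) e1.symm) ≪≫ₗ
        Submodule.prodEquivOfIsCompl (LinearMap.ker f) C' hC'
    -- dimensions
    have hdim : finrank k M = finrank k S + finrank k C := by
      have := (eM.restrictScalars k).finrank_eq
      rw [← this, Module.finrank_prod]
    have hSpos : 0 < finrank k S := Module.finrank_pos
    have hCn : finrank k C ≤ n := by omega
    -- Hom dimensions for C and ker f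
    have HC : ∀ (N : Type u) [AddCommGroup N] [Module k N] [Module A N] [IsScalarTower k A N]
        [FiniteDimensional k N] [IsSemisimpleModule A N],
        finrank k (C →ₗ[A] N) = finrank k (LinearMap.ker f →ₗ[A] N) := by
      intro N _ _ _ _ _ _
      have h1 := H N
      rw [← finrank_hom_congr_left (k := k) (N := N) eM,
        ← finrank_hom_congr_left (k := k) (N := N) eM', finrank_hom_prod, finrank_hom_prod] at h1
      omega
    obtain ⟨e2⟩ := ih C (LinearMap.ker f) hCn HC
    exact ⟨eM.symm ≪≫ₗ LinearEquiv.prodCongr (LinearEquiv.refl A S) e2 ≪≫ₗ eM'⟩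

/-- **Hom-criterion.** Semisimple modules, finite-dimensional over `k`, with the same
`k`-dimensions of `Hom_A(-, N)` for all `N` (in the same universe) are isomorphic. -/
theorem nonempty_linearEquiv_of_finrank_hom_eq (M M' : Type u)
    [AddCommGroup M] [Module k M] [Module A M] [IsScalarTower k A M] [FiniteDimensional k M]
    [IsSemisimpleModule A M]
    [AddCommGroup M'] [Module k M'] [Module A M'] [IsScalarTower k A M']
    [FiniteDimensional k M'] [IsSemisimpleModule A M']
    (H : ∀ (N : Type u) [AddCommGroup N] [Module k N] [Module A N] [IsScalarTower k A N]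
      [FiniteDimensional k N] [IsSemisimpleModule A N],
      finrank k (M →ₗ[A] N) = finrank k (M' →ₗ[A] N)) :
    Nonempty (M ≃ₗ[A] M') :=
  nonempty_linearEquiv_of_finrank_hom_eq_aux (finrank k M) M M' le_rfl H

end Fermat.Agent.TW.GlobalEC.HomCrit87
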