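/-
Program TW (S56), WP4 "EC", brick EC5d, part G (Mathlib only), helper87.

Characters determine representations: finite group `G`, field `k` of characteristic zero,
finite-dimensional representations `ρ`, `ρ'` with `ρ.character = ρ'.character` are isomorphic.
-/
import Mathlib
import Fermat.Agent.TW.GlobalEC.HomCrit87

set_option autoImplicit false
set_option linter.unusedSectionVars false

namespace Fermat.Agent.TW.GlobalEC.CharIso87

universe u

open Module Representation
open scoped MonoidAlgebra

open Fermat.Agent.TW.GlobalEC.HomCrit87

variable {k G : Type*} [Field k] [Group G]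

section Bridge

variable (N : Type*) [AddCommGroup N] [Module k N] [Module k[G] N] [IsScalarTower k k[G] N]

theorem asAlgebraHom_ofModule' (r : k[G]) (n : N) :
    (ofModule' (k := k) (G := G) N).asAlgebraHom r n = r • n := by
  have : (ofModule' (k := k) (G := G) N).asAlgebraHom = Algebra.lsmul k k N := by
    unfold Representation.asAlgebraHom Representation.ofModule'
    exact Equiv.apply_symm_apply _ _
  rw [this]
  rfl

/-- A `k[G]`-module is the module associated to its representation `ofModule'`. -/
noncomputable def equivAsModule : N ≃ₗ[k[G]] (ofModule' (k := k) (G := G) N).asModule where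
  toFun n := (ofModule' (k := k) (G := G) N).asModuleEquiv.symm n
  invFun x := (ofModule' (k := k) (G := G) N).asModuleEquiv x
  map_add' _ _ := rfl
  map_smul' r n := by
    apply (ofModule' (k := k) (G := G) N).asModuleEquiv.injective
    rw [asModuleEquiv_map_smul]
    simp only [RingHom.id_apply, LinearEquiv.apply_symm_apply]
    exact (asAlgebraHom_ofModule' N r n).symm
  left_inv _ := rfl
  right_inv _ := rfl

end Bridge

section HomRight

variable {A : Type*} [Ring A] [Algebra k A]
variable {M N N₁ : Type*}
  [AddCommGroup M] [Module k M] [Module A M] [IsScalarTower k A M]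
  [AddCommGroup N] [Module k N] [Module A N] [IsScalarTower k A N]
  [AddCommGroup N₁] [Module k N₁] [Module A N₁] [IsScalarTower k A N₁]

/-- Postcomposition with an `A`-linear equivalence, as a `k`-linear equivalence of Hom spaces. -/
noncomputable def homCongrRight (e : N ≃ₗ[A] N₁) : (M →ₗ[A] N) ≃ₗ[k] (M →ₗ[A] N₁) where
  toFun φ := e.toLinearMap.comp φ
  invFun ψ := e.symm.toLinearMap.comp ψ
  map_add' φ ψ := by ext; simp
  map_smul' c φ := by
    ext x
    simp only [LinearMap.comp_apply, LinearMap.smul_apply, RingHom.id_apply,
      LinearEquiv.coe_coe]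
    rw [← algebraMap_smul A c (φ x), map_smul, algebraMap_smul]
  left_inv φ := by ext; simp
  right_inv ψ := by ext; simp

end HomRight

section Main

variable [Fintype G] [CharZero k]

instance neZero_card : NeZero (Nat.card G : k) :=
  ⟨Nat.cast_ne_zero.mpr Nat.card_pos.ne'⟩

/-- `dim Hom_{k[G]}(ρ.asModule, N)` in terms of characters. -/
theorem finrank_hom_asModule_eq {V : Type*} [AddCommGroup V] [Module k V] [FiniteDimensional k V]
    (ρ : Representation k G V)
    (N : Type*) [AddCommGroup N] [Module k N] [Module k[G] N] [IsScalarTower k k[G] N]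
    [FiniteDimensional k N] :
    (finrank k (ρ.asModule →ₗ[k[G]] N) : k) =
      (Nat.card G : k)⁻¹ * ∑ g : G, (ofModule' (k := k) (G := G) N).character g *
        ρ.character g⁻¹ := by
  have : Invertible (Nat.card G : k) := invertibleOfNonzero (NeZero.ne _)
  rw [card_inv_mul_sum_char_mul_char_eq_finrank]
  congr 1
  rw [(IntertwiningMap.equivLinearMapAsModule ρ (ofModule' (k := k) (G := G) N)).finrank_eq]
  exact (homCongrRight (k := k) (M := ρ.asModule) (equivAsModule (k := k) (G := G) N)).finrank_eq

/-- **Characters determine representations** (finite group, characteristic zero). -/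
theorem nonempty_equiv_of_character_eq {V V' : Type u}
    [AddCommGroup V] [Module k V] [FiniteDimensional k V]
    [AddCommGroup V'] [Module k V'] [FiniteDimensional k V']
    (ρ : Representation k G V) (ρ' : Representation k G V')
    (h : ρ.character = ρ'.character) : Nonempty (Representation.Equiv ρ ρ') := by
  have key : Nonempty (ρ.asModule ≃ₗ[k[G]] ρ'.asModule) := by
    apply nonempty_linearEquiv_of_finrank_hom_eq (k := k) (A := k[G])
    intro N _ _ _ _ _ _
    have h1 := finrank_hom_asModule_eq ρ N
    have h2 := finrank_hom_asModule_eq ρ' N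
    rw [h] at h1
    exact Nat.cast_injective (R := k) (h1.trans h2.symm)
  obtain ⟨e⟩ := key
  let f : IntertwiningMap ρ ρ' := (IntertwiningMap.equivLinearMapAsModule ρ ρ').symm e.toLinearMap
  have hf : Function.Bijective f := e.bijective
  exact ⟨f.ofBijective hf⟩

end Main

end Fermat.Agent.TW.GlobalEC.CharIso87
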