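/-
TW / WP4 (global Euler characteristic), brick EC5d, part (d1a) -- helper74.

Rationality of characters of rational representations of finite cyclic groups, in trace form:
for a rational square matrix `M` with `M ^ n = 1` and `k` coprime to `n`, `trace (M ^ k) = trace M`.

Proof without eigenvalues: clear denominators, `N • M = M₀` integral; for a prime `p ≡ k (mod n)`,
`M ^ p = M ^ k` and `trace (M₀ ^ p) ≡ trace M₀ (mod p)` (Frobenius), so `p ∣ N ^ k trace M₀ - N trace (M₀ ^ k)`;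
Dirichlet's theorem gives arbitrarily large such `p`.
-/
import Mathlib

set_option autoImplicit false

namespace Fermat.Agent.TW.GlobalEC.RatTrace74

open Matrix

variable {ι : Type*} [Fintype ι] [DecidableEq ι]

omit [DecidableEq ι] in
/-- Clearing denominators of a rational matrix. -/
theorem exists_int_matrix (M : Matrix ι ι ℚ) :
    ∃ N : ℕ, N ≠ 0 ∧ ∃ M₀ : Matrix ι ι ℤ,
      M₀.map (Int.castRingHom ℚ) = (N : ℚ) • M := by
  classical
  refine ⟨∏ p : ι × ι, (M p.1 p.2).den, ?_, ?_⟩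
  · exact Finset.prod_ne_zero_iff.mpr fun p _ => (M p.1 p.2).den_nz
  · refine ⟨Matrix.of fun i j =>
      (((∏ p : ι × ι, (M p.1 p.2).den) / (M i j).den : ℕ) : ℤ) * (M i j).num, ?_⟩
    ext i j
    have hdvd : (M i j).den ∣ ∏ p : ι × ι, (M p.1 p.2).den :=
      Finset.dvd_prod_of_mem (fun p : ι × ι => (M p.1 p.2).den) (Finset.mem_univ (i, j))
    obtain ⟨c, hc⟩ := hdvd
    have hden : (M i j).den ≠ 0 := (M i j).den_nz
    have hdiv : (∏ p : ι × ι, (M p.1 p.2).den) / (M i j).den = c := by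
      rw [hc]; exact Nat.mul_div_cancel_left c (Nat.pos_of_ne_zero hden)
    simp only [Matrix.map_apply, Matrix.of_apply, Matrix.smul_apply, smul_eq_mul, hdiv,
      Int.coe_castRingHom]
    rw [hc]
    push_cast
    have := Rat.mul_den_eq_num (M i j)
    linear_combination (-(c : ℚ)) * this

/-- **Rationality of traces**: if `M ^ n = 1` over `ℚ` and `k` is coprime to `n` then
`trace (M ^ k) = trace M`. -/
theorem trace_pow_eq_trace (M : Matrix ι ι ℚ) {n k : ℕ} (hn : n ≠ 0) (hM : M ^ n = 1)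
    (hk : k.Coprime n) : (M ^ k).trace = M.trace := by
  obtain ⟨N, hN, M₀, hM₀⟩ := exists_int_matrix M
  -- powers of the integral matrix
  have hpow : ∀ j : ℕ, (M₀ ^ j).map (Int.castRingHom ℚ) = ((N : ℚ) ^ j) • M ^ j := by
    intro j
    have h1 : (M₀ ^ j).map (Int.castRingHom ℚ) = (M₀.map (Int.castRingHom ℚ)) ^ j := by
      have := map_pow (Int.castRingHom ℚ).mapMatrix M₀ j
      simpa [RingHom.mapMatrix_apply] using this
    rw [h1, hM₀, smul_pow]
  have htr : ∀ j : ℕ, (((M₀ ^ j).trace : ℤ) : ℚ) = (N : ℚ) ^ j * (M ^ j).trace := by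
    intro j
    have h1 : (((M₀ ^ j).trace : ℤ) : ℚ) = ((M₀ ^ j).map (Int.castRingHom ℚ)).trace := by
      have := AddMonoidHom.map_trace (Int.castRingHom ℚ) (M₀ ^ j)
      simpa using this
    rw [h1, hpow j, Matrix.trace_smul, smul_eq_mul]
  set δ : ℤ := (N : ℤ) ^ k * M₀.trace - (N : ℤ) * (M₀ ^ k).trace with hδ
  -- the key divisibility for primes `p ≡ k (mod n)`
  have hdvd : ∀ p : ℕ, p.Prime → p ≡ k [MOD n] → (p : ℤ) ∣ δ := by
    intro p hp hpk
    have : Fact p.Prime := ⟨hp⟩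
    have hMp : M ^ p = M ^ k := by
      rw [pow_eq_pow_mod p hM, pow_eq_pow_mod k hM, hpk]
    -- integer identity `N ^ k * tr (M₀ ^ p) = N ^ p * tr (M₀ ^ k)`
    have hint : (N : ℤ) ^ k * (M₀ ^ p).trace = (N : ℤ) ^ p * (M₀ ^ k).trace := by
      have : (((N : ℤ) ^ k * (M₀ ^ p).trace : ℤ) : ℚ) = (((N : ℤ) ^ p * (M₀ ^ k).trace : ℤ) : ℚ) := by
        push_cast
        rw [htr p, htr k, hMp]
        ring
      exact_mod_cast this
    -- Frobenius modulo `p`
    have hfrob : (((M₀ ^ p).trace : ℤ) : ZMod p) = ((M₀.trace : ℤ) : ZMod p) := by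
      have h1 : ∀ j : ℕ, (((M₀ ^ j).trace : ℤ) : ZMod p) =
          ((M₀.map (Int.castRingHom (ZMod p))) ^ j).trace := by
        intro j
        have h2 : (M₀ ^ j).map (Int.castRingHom (ZMod p)) =
            (M₀.map (Int.castRingHom (ZMod p))) ^ j := by
          have := map_pow (Int.castRingHom (ZMod p)).mapMatrix M₀ j
          simpa [RingHom.mapMatrix_apply] using this
        rw [← h2]
        have := AddMonoidHom.map_trace (Int.castRingHom (ZMod p)) (M₀ ^ j)
        simpa using this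
      have h3 := h1 1
      rw [pow_one, pow_one] at h3
      rw [h1 p, ZMod.trace_pow_card, ZMod.pow_card, h3]
    have hz : ((δ : ℤ) : ZMod p) = 0 := by
      have e1 : (((N : ℤ) ^ k * (M₀ ^ p).trace : ℤ) : ZMod p) =
          (((N : ℤ) ^ p * (M₀ ^ k).trace : ℤ) : ZMod p) := by rw [hint]
      push_cast at e1
      rw [hfrob, ZMod.pow_card] at e1
      rw [hδ]
      push_cast
      rw [e1]; ring
    exact (ZMod.intCast_zmod_eq_zero_iff_dvd δ p).mp hz
  -- Dirichlet: a large prime `p ≡ k (mod n)`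
  obtain ⟨p, hpgt, hp, hpk⟩ := Nat.forall_exists_prime_gt_and_modEq δ.natAbs hn hk
  have hδ0 : δ = 0 := by
    by_contra hne
    have h1 := Int.natAbs_dvd_natAbs.mpr (hdvd p hp hpk)
    rw [Int.natAbs_natCast] at h1
    have h2 := Nat.le_of_dvd (Int.natAbs_pos.mpr hne) h1
    omega
  -- conclude over `ℚ`
  have hq : (((N : ℤ) ^ k * M₀.trace : ℤ) : ℚ) = (((N : ℤ) * (M₀ ^ k).trace : ℤ) : ℚ) := by
    have : (N : ℤ) ^ k * M₀.trace = (N : ℤ) * (M₀ ^ k).trace := by
      have := hδ0; rw [hδ] at this; linarith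
    rw [this]
  push_cast at hq
  have h1 := htr 1
  rw [pow_one, pow_one, pow_one] at h1
  rw [h1, htr k] at hq
  have hN' : (N : ℚ) ≠ 0 := by exact_mod_cast hN
  have hNk : (N : ℚ) ^ k ≠ 0 := pow_ne_zero _ hN'
  have : (N : ℚ) ^ k * (N : ℚ) * ((M ^ k).trace - M.trace) = 0 := by linear_combination -hq
  rcases mul_eq_zero.mp this with h | h
  · exact absurd h (mul_ne_zero hNk hN')
  · linarith

/-- Linear-map form. -/
theorem trace_pow_eq_trace_end {V : Type*} [AddCommGroup V] [Module ℚ V] [FiniteDimensional ℚ V]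
    (T : Module.End ℚ V) {n k : ℕ} (hn : n ≠ 0) (hT : T ^ n = 1) (hk : k.Coprime n) :
    LinearMap.trace ℚ V (T ^ k) = LinearMap.trace ℚ V T := by
  classical
  set b := Module.finBasis ℚ V
  have e := LinearMap.toMatrixAlgEquiv b
  have h1 : ∀ S : Module.End ℚ V, LinearMap.trace ℚ V S = (LinearMap.toMatrix b b S).trace :=
    fun S => LinearMap.trace_eq_matrix_trace ℚ b S
  have hpow : ∀ j : ℕ, LinearMap.toMatrix b b (T ^ j) = (LinearMap.toMatrix b b T) ^ j := by
    intro j
    have := map_pow (LinearMap.toMatrixAlgEquiv b) T j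
    simpa [LinearMap.toMatrixAlgEquiv] using this
  rw [h1, h1, hpow]
  apply trace_pow_eq_trace _ hn _ hk
  rw [← hpow, hT]
  simp

end Fermat.Agent.TW.GlobalEC.RatTrace74
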