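/-
TW / WP4 (global Euler characteristic), brick EC5d, part (d1b) -- helper74.

Semisimple criterion: two semisimple `A`-modules, finite-dimensional over a field `k` (`A` a `k`-algebra), with
`dim_k Hom_A(V, U) = dim_k Hom_A(V', U)` for every test module `U`, are isomorphic.
(Induction on the dimension; split off a simple submodule on both sides.)
-/
import Mathlib

set_option autoImplicit false

namespace Fermat.Agent.TW.GlobalEC.SemisimpleCrit74

open Module

universe u

variable {k : Type*} [Field k] {A : Type*} [Ring A] [Algebra k A]

section aux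

variable {V U : Type*} [AddCommGroup V] [Module k V] [Module A V] [IsScalarTower k A V]
  [AddCommGroup U] [Module k U] [Module A U] [IsScalarTower k A U]

/-- `Hom_A(V, U)` is finite-dimensional over `k`. -/
instance finiteDimensional_hom [FiniteDimensional k V] [FiniteDimensional k U] :
    FiniteDimensional k (V →ₗ[A] U) :=
  Module.Finite.of_injective (LinearMap.restrictScalarsₗ k A V U k)
    (LinearMap.restrictScalars_injective k)

/-- An `A`-submodule is finite-dimensional over `k`. -/
instance finiteDimensional_submodule [FiniteDimensional k V] (S : Submodule A V) :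
    FiniteDimensional k S :=
  Module.Finite.of_injective (S.subtype.restrictScalars k) Subtype.val_injective

/-- Additivity of `dim Hom(-, U)` on a product. -/
theorem finrank_hom_prod {P Q : Type*} [AddCommGroup P] [Module k P] [Module A P]
    [IsScalarTower k A P] [AddCommGroup Q] [Module k Q] [Module A Q] [IsScalarTower k A Q]
    [FiniteDimensional k P] [FiniteDimensional k Q] [FiniteDimensional k U] :
    finrank k (P × Q →ₗ[A] U) = finrank k (P →ₗ[A] U) + finrank k (Q →ₗ[A] U) := by
  rw [← (LinearMap.coprodEquiv (R := A) (M := P) (M₂ := Q) (M₃ := U) k).finrank_eq,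
    Module.finrank_prod]

/-- Invariance of `dim Hom(-, U)` under isomorphism. -/
theorem finrank_hom_congr {P Q : Type*} [AddCommGroup P] [Module A P]
    [AddCommGroup Q] [Module A Q] (e : P ≃ₗ[A] Q) :
    finrank k (P →ₗ[A] U) = finrank k (Q →ₗ[A] U) :=
  (LinearEquiv.congrLeft U k e).finrank_eq

end aux

/-- **Semisimple criterion.** -/
theorem nonempty_linearEquiv_of_finrank_hom_eq :
    ∀ (n : ℕ) (V V' : Type u) [AddCommGroup V] [Module k V] [Module A V] [IsScalarTower k A V]
      [FiniteDimensional k V] [IsSemisimpleModule A V]
      [AddCommGroup V'] [Module k V'] [Module A V'] [IsScalarTower k A V']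
      [FiniteDimensional k V'] [IsSemisimpleModule A V'],
      finrank k V = n →
      (∀ (U : Type u) [AddCommGroup U] [Module k U] [Module A U] [IsScalarTower k A U]
        [FiniteDimensional k U], finrank k (V →ₗ[A] U) = finrank k (V' →ₗ[A] U)) →
      Nonempty (V ≃ₗ[A] V') := by
  intro n
  induction n using Nat.strong_induction_on with
  | _ n ih =>
    intro V V' _ _ _ _ _ _ _ _ _ _ _ _ hn h
    by_cases hV : Subsingleton V
    · -- `V = 0`: then `End V' = 0`
      have h0 : finrank k (V' →ₗ[A] V') = 0 := by
        rw [← h V']
        exact finrank_zero_of_subsingleton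
      have hsub : Subsingleton (V' →ₗ[A] V') := Module.finrank_zero_iff.mp h0
      have hV' : Subsingleton V' := by
        refine ⟨fun x y => ?_⟩
        have e : (LinearMap.id : V' →ₗ[A] V') = 0 := Subsingleton.elim _ _
        have hx : x = 0 := by simpa using LinearMap.congr_fun e x
        have hy : y = 0 := by simpa using LinearMap.congr_fun e y
        rw [hx, hy]
      exact ⟨LinearEquiv.ofSubsingleton V V'⟩
    · have hnt : Nontrivial V := not_subsingleton_iff_nontrivial.mp hV
      obtain ⟨S, hS⟩ := IsSemisimpleModule.exists_simple_submodule A V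
      obtain ⟨W, hW⟩ := exists_isCompl S
      have : Nontrivial S := IsSimpleModule.nontrivial A S
      -- a nonzero map `V → S`
      have hVS : finrank k (V →ₗ[A] S) ≠ 0 := by
        have hne : (S.projectionOnto W hW) ≠ 0 := by
          intro h0
          obtain ⟨x, hx⟩ := exists_ne (0 : S)
          apply hx
          have := Submodule.projectionOnto_apply_left hW x
          rw [h0] at this
          simpa using this.symm
        exact (Module.finrank_pos_iff_exists_ne_zero.mpr ⟨_, hne⟩).ne'
      have hV'S : finrank k (V' →ₗ[A] S) ≠ 0 := by rw [← h S]; exact hVS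
      obtain ⟨f, hf⟩ := Module.finrank_pos_iff_exists_ne_zero.mp (Nat.pos_of_ne_zero hV'S)
      have hfsurj : Function.Surjective f := LinearMap.surjective_of_ne_zero hf
      obtain ⟨S', hS'⟩ := exists_isCompl (LinearMap.ker f)
      -- `S' ≃ S`
      have eS : S' ≃ₗ[A] S :=
        (Submodule.quotientEquivOfIsCompl (LinearMap.ker f) S' hS').symm.trans
          (f.quotKerEquivOfSurjective hfsurj)
      have eV : (S × W) ≃ₗ[A] V := Submodule.prodEquivOfIsCompl S W hW
      have eV' : (LinearMap.ker f × S') ≃ₗ[A] V' :=
        Submodule.prodEquivOfIsCompl (LinearMap.ker f) S' hS'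
      -- Hom-dimensions of the complements agree
      have hWK : ∀ (U : Type u) [AddCommGroup U] [Module k U] [Module A U] [IsScalarTower k A U]
          [FiniteDimensional k U],
          finrank k (W →ₗ[A] U) = finrank k (LinearMap.ker f →ₗ[A] U) := by
        intro U _ _ _ _ _
        have h1 : finrank k (V →ₗ[A] U) = finrank k (S →ₗ[A] U) + finrank k (W →ₗ[A] U) := by
          rw [← finrank_hom_congr (k := k) (U := U) eV, finrank_hom_prod]
        have h2 : finrank k (V' →ₗ[A] U) =
            finrank k (LinearMap.ker f →ₗ[A] U) + finrank k (S' →ₗ[A] U) := by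
          rw [← finrank_hom_congr (k := k) (U := U) eV', finrank_hom_prod]
        have h3 : finrank k (S' →ₗ[A] U) = finrank k (S →ₗ[A] U) :=
          finrank_hom_congr (k := k) (U := U) eS
        have := h U
        omega
      -- dimension drops
      have hdim : finrank k V = finrank k S + finrank k W := by
        rw [← (eV.restrictScalars k).finrank_eq, Module.finrank_prod]
      have hSpos : 0 < finrank k S := by
        exact Module.finrank_pos
      obtain ⟨eWK⟩ := ih (finrank k W) (by omega) W (LinearMap.ker f) rfl hWK
      exact ⟨eV.symm.trans (((eS.symm.prodCongr eWK).trans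
        (LinearEquiv.prodComm A S' (LinearMap.ker f))).trans eV')⟩

/-- Version without the explicit dimension. -/
theorem nonempty_linearEquiv_of_forall_finrank_hom_eq
    (V V' : Type u) [AddCommGroup V] [Module k V] [Module A V] [IsScalarTower k A V]
    [FiniteDimensional k V] [IsSemisimpleModule A V]
    [AddCommGroup V'] [Module k V'] [Module A V'] [IsScalarTower k A V']
    [FiniteDimensional k V'] [IsSemisimpleModule A V']
    (h : ∀ (U : Type u) [AddCommGroup U] [Module k U] [Module A U] [IsScalarTower k A U]
      [FiniteDimensional k U], finrank k (V →ₗ[A] U) = finrank k (V' →ₗ[A] U)) :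
    Nonempty (V ≃ₗ[A] V') :=
  nonempty_linearEquiv_of_finrank_hom_eq (finrank k V) V V' rfl h

end Fermat.Agent.TW.GlobalEC.SemisimpleCrit74
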