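/-
TW / WP4 (global Euler characteristic), brick EC5d, part (d1c) -- helper74.

**Cyclic fixed spaces determine a rational representation.**
For a finite group `G` and finite-dimensional representations `ρ`, `ρ'` of `G` over `ℚ`:
if `dim ker (ρ g - 1) = dim ker (ρ' g - 1)` for every `g : G` (equivalently: the fixed spaces of all
cyclic subgroups have the same dimension), then `ρ ≃ ρ'`.

Steps: averaging (`∑_{j<n} tr T^j = n dim ker (T-1)`), rationality of characters (`RatTrace74`),
strong induction on the order of `g` to get `χ = χ'`, Mathlib's orthogonality formula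
`dim Hom_G(ρ, σ) = |G|⁻¹ ∑ χ_σ(g) χ_ρ(g⁻¹)`, Maschke, and the semisimple Hom-criterion
(`SemisimpleCrit74`).
-/
import Mathlib
import Fermat.Agent.TW.GlobalEC.RatTrace74
import Fermat.Agent.TW.GlobalEC.SemisimpleCrit74

set_option autoImplicit false

namespace Fermat.Agent.TW.GlobalEC.CycFixCrit74

open Module

universe u

section averaging

variable {K V : Type*} [Field K] [AddCommGroup V] [Module K V] [FiniteDimensional K V]

/-- Averaging: if `T ^ n = 1` and `n` is invertible, then `∑_{j<n} tr (T^j) = n * dim ker (T - 1)`. -/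
theorem sum_trace_pow_eq (T : Module.End K V) {n : ℕ} (hn : (n : K) ≠ 0) (hT : T ^ n = 1) :
    ∑ j ∈ Finset.range n, LinearMap.trace K V (T ^ j) =
      (n : K) * (finrank K (LinearMap.ker (T - 1)) : K) := by
  set S : Module.End K V := ∑ j ∈ Finset.range n, T ^ j with hS
  have hTS : T * S = S := by
    have h1 : T * S = ∑ j ∈ Finset.range n, T ^ (j + 1) := by
      rw [hS, Finset.mul_sum]
      exact Finset.sum_congr rfl fun j _ => (pow_succ' T j).symm
    have h2 := Finset.sum_range_succ' (fun j => T ^ j) n
    have h3 := Finset.sum_range_succ (fun j => T ^ j) n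
    rw [h3, hT, pow_zero] at h2
    rw [h1]
    exact (add_right_cancel h2).symm
  -- `P = n⁻¹ • S` is a projection onto `ker (T - 1)`
  have hproj : LinearMap.IsProj (LinearMap.ker (T - 1)) ((n : K)⁻¹ • S) := by
    refine ⟨fun x => ?_, fun x hx => ?_⟩
    · rw [LinearMap.mem_ker, LinearMap.sub_apply, LinearMap.smul_apply, map_smul,
        ← Module.End.mul_apply, hTS]
      simp
    · rw [LinearMap.mem_ker, LinearMap.sub_apply, sub_eq_zero, Module.End.one_apply] at hx
      have hpow : ∀ j : ℕ, (T ^ j) x = x := by
        intro j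
        induction j with
        | zero => simp
        | succ j ih => rw [pow_succ, Module.End.mul_apply, hx, ih]
      rw [LinearMap.smul_apply, hS, LinearMap.sum_apply, Finset.sum_congr rfl fun j _ => hpow j,
        Finset.sum_const, Finset.card_range, ← Nat.cast_smul_eq_nsmul K, smul_smul,
        inv_mul_cancel₀ hn, one_smul]
  have htr := hproj.trace
  rw [map_smul, hS, map_sum, smul_eq_mul] at htr
  rw [← htr, ← mul_assoc, mul_inv_cancel₀ hn, one_mul]

end averaging

section character

variable {G : Type*} [Group G] [Finite G]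
  {V V' : Type*} [AddCommGroup V] [Module ℚ V] [FiniteDimensional ℚ V]
  [AddCommGroup V'] [Module ℚ V'] [FiniteDimensional ℚ V']

/-- `∑_{j < ord g} χ(g^j) = ord g * dim V^{g}`. -/
theorem sum_character_pow (ρ : Representation ℚ G V) (g : G) :
    ∑ j ∈ Finset.range (orderOf g), ρ.character (g ^ j) =
      (orderOf g : ℚ) * (finrank ℚ (LinearMap.ker (ρ g - 1)) : ℚ) := by
  have hn : ((orderOf g : ℕ) : ℚ) ≠ 0 := by
    exact_mod_cast (orderOf_pos g).ne'
  have hT : (ρ g) ^ (orderOf g) = 1 := by
    rw [← map_pow, pow_orderOf_eq_one, map_one]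
  have := sum_trace_pow_eq (ρ g) hn hT
  rw [← this]
  refine Finset.sum_congr rfl fun j _ => ?_
  rw [Representation.character, map_pow]

/-- Rationality of characters: `χ(g^j) = χ(g)` for `j` prime to the order of `g`. -/
theorem character_pow_of_coprime (ρ : Representation ℚ G V) (g : G) {j : ℕ}
    (hj : j.Coprime (orderOf g)) : ρ.character (g ^ j) = ρ.character g := by
  have hT : (ρ g) ^ (orderOf g) = 1 := by
    rw [← map_pow, pow_orderOf_eq_one, map_one]
  have := RatTrace74.trace_pow_eq_trace_end (ρ g) (orderOf_pos g).ne' hT hj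
  rw [Representation.character, map_pow]
  exact this

theorem sum_coprime_character (ρ : Representation ℚ G V) (g : G) :
    ∑ j ∈ Finset.filter (fun j => (orderOf g).Coprime j) (Finset.range (orderOf g)),
      ρ.character (g ^ j) = ((orderOf g).totient : ℚ) * ρ.character g := by
  rw [Finset.sum_congr rfl fun j hj =>
    character_pow_of_coprime ρ g (Nat.Coprime.symm (Finset.mem_filter.mp hj).2),
    Finset.sum_const, ← Nat.totient_eq_card_coprime, nsmul_eq_mul]

/-- **Cyclic fixed spaces determine the character** (over `ℚ`). -/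
theorem character_eq_of_finrank_ker_eq (ρ : Representation ℚ G V) (ρ' : Representation ℚ G V')
    (h : ∀ g : G, finrank ℚ (LinearMap.ker (ρ g - 1)) = finrank ℚ (LinearMap.ker (ρ' g - 1))) :
    ρ.character = ρ'.character := by
  suffices H : ∀ n : ℕ, ∀ g : G, orderOf g = n → ρ.character g = ρ'.character g by
    funext g; exact H _ g rfl
  intro n
  induction n using Nat.strong_induction_on with
  | _ n ih =>
    intro g hg
    have hs : ∑ j ∈ Finset.range n, ρ.character (g ^ j) =
        ∑ j ∈ Finset.range n, ρ'.character (g ^ j) := by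
      rw [← hg, sum_character_pow, sum_character_pow, h g]
    rw [← Finset.sum_filter_add_sum_filter_not (Finset.range n) (fun j => n.Coprime j),
      ← Finset.sum_filter_add_sum_filter_not (Finset.range n) (fun j => n.Coprime j)
        (fun j => ρ'.character (g ^ j))] at hs
    have hnc : ∑ j ∈ Finset.filter (fun j => ¬ n.Coprime j) (Finset.range n), ρ.character (g ^ j) =
        ∑ j ∈ Finset.filter (fun j => ¬ n.Coprime j) (Finset.range n), ρ'.character (g ^ j) := by
      refine Finset.sum_congr rfl fun j hj => ?_
      rw [Finset.mem_filter] at hj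
      refine ih (orderOf (g ^ j)) ?_ (g ^ j) rfl
      rw [orderOf_pow, hg]
      have hnpos : 0 < n := hg ▸ orderOf_pos g
      have hgcd : 1 < n.gcd j := by
        have h1 : n.gcd j ≠ 1 := hj.2
        have h0 : n.gcd j ≠ 0 := by
          intro h0
          rw [Nat.gcd_eq_zero_iff] at h0
          omega
        omega
      exact Nat.div_lt_self hnpos hgcd
    subst hg
    rw [hnc, sum_coprime_character, sum_coprime_character] at hs
    have hpos : ((orderOf g).totient : ℚ) ≠ 0 := by
      exact_mod_cast (Nat.totient_pos.mpr (orderOf_pos g)).ne'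
    exact mul_left_cancel₀ hpos (add_right_cancel hs)

/-- Equal characters give equal dimensions of spaces of intertwining maps. -/
theorem finrank_intertwiningMap_eq_of_character_eq (ρ : Representation ℚ G V)
    (ρ' : Representation ℚ G V') (hχ : ρ.character = ρ'.character)
    {U : Type*} [AddCommGroup U] [Module ℚ U] [FiniteDimensional ℚ U] (σ : Representation ℚ G U) :
    finrank ℚ (Representation.IntertwiningMap ρ σ) =
      finrank ℚ (Representation.IntertwiningMap ρ' σ) := by
  have : Fintype G := Fintype.ofFinite G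
  have : Invertible ((Nat.card G : ℕ) : ℚ) :=
    invertibleOfNonzero (by exact_mod_cast Nat.card_pos.ne')
  have h1 := Representation.card_inv_mul_sum_char_mul_char_eq_finrank ρ σ
  have h2 := Representation.card_inv_mul_sum_char_mul_char_eq_finrank ρ' σ
  rw [hχ, h2] at h1
  exact_mod_cast h1.symm

end character

section module

variable {k G : Type*} [CommSemiring k] [Group G]

theorem ofModule'_asAlgebraHom (U : Type*) [AddCommMonoid U] [Module k U]
    [Module (MonoidAlgebra k G) U] [IsScalarTower k (MonoidAlgebra k G) U] (r : MonoidAlgebra k G) (x : U) :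
    (Representation.ofModule' (k := k) (G := G) U).asAlgebraHom r x = r • x := by
  unfold Representation.ofModule' Representation.asAlgebraHom
  rw [Equiv.apply_symm_apply]
  rfl

/-- canonical iso `(ofModule' U).asModule ≃ₗ[k[G]] U` -/
noncomputable def ofModuleAsModuleEquiv (U : Type*) [AddCommMonoid U] [Module k U]
    [Module (MonoidAlgebra k G) U] [IsScalarTower k (MonoidAlgebra k G) U] :
    (Representation.ofModule' (k := k) (G := G) U).asModule ≃ₗ[MonoidAlgebra k G] U :=
  { (Representation.ofModule' (k := k) (G := G) U).asModuleEquiv.toAddEquiv with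
    map_smul' := fun r x => by
      change (Representation.ofModule' (k := k) (G := G) U).asModuleEquiv (r • x) =
        r • (Representation.ofModule' (k := k) (G := G) U).asModuleEquiv x
      rw [Representation.asModuleEquiv_map_smul, ofModule'_asAlgebraHom] }

end module

section congr
variable {k A : Type*} [Field k] [Ring A] [Algebra k A]
  {M M₂ M₃ : Type*} [AddCommGroup M] [Module A M]
  [AddCommGroup M₂] [Module k M₂] [Module A M₂] [IsScalarTower k A M₂]
  [AddCommGroup M₃] [Module k M₃] [Module A M₃] [IsScalarTower k A M₃]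

/-- `Hom_A(M, -)` applied to an `A`-isomorphism, as a `k`-linear equivalence. -/
def homCongrRight (e : M₂ ≃ₗ[A] M₃) : (M →ₗ[A] M₂) ≃ₗ[k] (M →ₗ[A] M₃) where
  toFun f := e.toLinearMap ∘ₗ f
  invFun f := e.symm.toLinearMap ∘ₗ f
  map_add' f g := LinearMap.comp_add _ _ _
  map_smul' c f := by
    ext x
    simp only [LinearMap.coe_comp, LinearEquiv.coe_coe, Function.comp_apply, LinearMap.smul_apply,
      RingHom.id_apply]
    exact LinearMap.map_smul_of_tower e.toLinearMap c (f x)
  left_inv f := by ext; simp
  right_inv f := by ext; simp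

end congr

section final

variable {G : Type*} [Group G] [Finite G]

/-- Equal characters give equal `Hom`-dimensions into every `ℚ[G]`-module. -/
theorem finrank_hom_asModule_eq_of_character_eq
    {V V' : Type*} [AddCommGroup V] [Module ℚ V] [FiniteDimensional ℚ V]
    [AddCommGroup V'] [Module ℚ V'] [FiniteDimensional ℚ V']
    (ρ : Representation ℚ G V) (ρ' : Representation ℚ G V') (hχ : ρ.character = ρ'.character)
    (U : Type*) [AddCommGroup U] [Module ℚ U] [Module (MonoidAlgebra ℚ G) U]
    [IsScalarTower ℚ (MonoidAlgebra ℚ G) U] [FiniteDimensional ℚ U] :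
    finrank ℚ (ρ.asModule →ₗ[MonoidAlgebra ℚ G] U) =
      finrank ℚ (ρ'.asModule →ₗ[MonoidAlgebra ℚ G] U) := by
  rw [← (homCongrRight (k := ℚ) (M := ρ.asModule) (ofModuleAsModuleEquiv (k := ℚ) (G := G) U)).finrank_eq,
    ← (homCongrRight (k := ℚ) (M := ρ'.asModule) (ofModuleAsModuleEquiv (k := ℚ) (G := G) U)).finrank_eq,
    ← (Representation.IntertwiningMap.equivLinearMapAsModule ρ
        (Representation.ofModule' (k := ℚ) (G := G) U)).finrank_eq,
    ← (Representation.IntertwiningMap.equivLinearMapAsModule ρ'
        (Representation.ofModule' (k := ℚ) (G := G) U)).finrank_eq]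
  exact finrank_intertwiningMap_eq_of_character_eq ρ ρ' hχ _

/-- **Equal characters imply isomorphic** (finite group, over `ℚ`). -/
theorem exists_equiv_of_character_eq
    {V V' : Type u} [AddCommGroup V] [Module ℚ V] [FiniteDimensional ℚ V]
    [AddCommGroup V'] [Module ℚ V'] [FiniteDimensional ℚ V']
    (ρ : Representation ℚ G V) (ρ' : Representation ℚ G V') (hχ : ρ.character = ρ'.character) :
    ∃ e : V ≃ₗ[ℚ] V', ∀ g : G, e.toLinearMap ∘ₗ ρ g = ρ' g ∘ₗ e.toLinearMap := by
  have : NeZero ((Nat.card G : ℕ) : ℚ) := ⟨by exact_mod_cast Nat.card_pos.ne'⟩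
  obtain ⟨e⟩ := SemisimpleCrit74.nonempty_linearEquiv_of_forall_finrank_hom_eq (k := ℚ)
    (A := MonoidAlgebra ℚ G) ρ.asModule ρ'.asModule
    (fun U _ _ _ _ _ => finrank_hom_asModule_eq_of_character_eq ρ ρ' hχ U)
  let f : Representation.IntertwiningMap ρ ρ' :=
    (Representation.IntertwiningMap.equivLinearMapAsModule ρ ρ').symm e.toLinearMap
  refine ⟨(ρ.asModuleEquiv.symm.trans (e.restrictScalars ℚ)).trans ρ'.asModuleEquiv, fun g => ?_⟩
  ext x
  exact LinearMap.congr_fun (f.isIntertwining' g) x

/-- **Cyclic fixed spaces determine a rational representation.** -/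
theorem exists_equiv_of_finrank_ker_eq
    {V V' : Type u} [AddCommGroup V] [Module ℚ V] [FiniteDimensional ℚ V]
    [AddCommGroup V'] [Module ℚ V'] [FiniteDimensional ℚ V']
    (ρ : Representation ℚ G V) (ρ' : Representation ℚ G V')
    (h : ∀ g : G, finrank ℚ (LinearMap.ker (ρ g - 1)) = finrank ℚ (LinearMap.ker (ρ' g - 1))) :
    ∃ e : V ≃ₗ[ℚ] V', ∀ g : G, e.toLinearMap ∘ₗ ρ g = ρ' g ∘ₗ e.toLinearMap :=
  exists_equiv_of_character_eq ρ ρ' (character_eq_of_finrank_ker_eq ρ ρ' h)

/-- `Representation.Equiv` form of `exists_equiv_of_finrank_ker_eq`. -/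
theorem nonempty_equiv_of_finrank_ker_eq
    {V V' : Type u} [AddCommGroup V] [Module ℚ V] [FiniteDimensional ℚ V]
    [AddCommGroup V'] [Module ℚ V'] [FiniteDimensional ℚ V']
    (ρ : Representation ℚ G V) (ρ' : Representation ℚ G V')
    (h : ∀ g : G, finrank ℚ (LinearMap.ker (ρ g - 1)) = finrank ℚ (LinearMap.ker (ρ' g - 1))) :
    Nonempty (Representation.Equiv ρ ρ') := by
  obtain ⟨e, he⟩ := exists_equiv_of_finrank_ker_eq ρ ρ' h
  exact ⟨Representation.Equiv.mk e he⟩

omit [Finite G] in
/-- The fixed space of `ρ g` is the space of invariants of the cyclic subgroup generated by `g`. -/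
theorem ker_sub_one_eq_invariants_zpowers {k V : Type*} [CommRing k] [AddCommGroup V] [Module k V]
    (ρ : Representation k G V) (g : G) :
    LinearMap.ker (ρ g - 1) =
      Representation.invariants (ρ.comp (Subgroup.zpowers g).subtype) := by
  ext x
  rw [LinearMap.mem_ker, LinearMap.sub_apply, sub_eq_zero, Module.End.one_apply,
    Representation.mem_invariants]
  constructor
  · rintro hx ⟨d, hd⟩
    obtain ⟨m, rfl⟩ := Subgroup.mem_zpowers_iff.mp hd
    change ρ (g ^ m) x = x
    have hg : ∀ n : ℕ, ρ (g ^ n) x = x := by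
      intro n
      induction n with
      | zero => simp
      | succ n ih => rw [pow_succ, map_mul, Module.End.mul_apply, hx, ih]
    have hginv : ∀ n : ℕ, ρ ((g ^ n)⁻¹) x = x := by
      intro n
      have h1 := hg n
      calc ρ ((g ^ n)⁻¹) x = ρ ((g ^ n)⁻¹) (ρ (g ^ n) x) := by rw [h1]
        _ = x := by rw [← Module.End.mul_apply, ← map_mul, inv_mul_cancel, map_one,
            Module.End.one_apply]
    cases m with
    | ofNat n => simpa using hg n
    | negSucc n => simpa [zpow_negSucc] using hginv (n + 1)
  · intro hx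
    exact hx ⟨g, Subgroup.mem_zpowers g⟩

/-- Subgroup form: if the invariants of every cyclic subgroup have the same dimension, the
rational representations are isomorphic. -/
theorem nonempty_equiv_of_finrank_invariants_eq
    {V V' : Type u} [AddCommGroup V] [Module ℚ V] [FiniteDimensional ℚ V]
    [AddCommGroup V'] [Module ℚ V'] [FiniteDimensional ℚ V']
    (ρ : Representation ℚ G V) (ρ' : Representation ℚ G V')
    (h : ∀ D : Subgroup G, IsCyclic D →
      finrank ℚ (Representation.invariants (ρ.comp D.subtype)) =
        finrank ℚ (Representation.invariants (ρ'.comp D.subtype))) :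
    Nonempty (Representation.Equiv ρ ρ') := by
  refine nonempty_equiv_of_finrank_ker_eq ρ ρ' fun g => ?_
  rw [ker_sub_one_eq_invariants_zpowers, ker_sub_one_eq_invariants_zpowers]
  exact h _ (Subgroup.isCyclic_zpowers g)

end final

end Fermat.Agent.TW.GlobalEC.CycFixCrit74
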