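/-
TW / WP4 / EC5d (helper79).  Traces of finite-order automorphisms of rational vector spaces.

Main result `trace_eq_of_finrank_ker_eq`: if `f`, `f'` are endomorphisms of finite-dimensional
`ℚ`-vector spaces with `f ^ n = 1 = f' ^ n` and `dim ker (f ^ e - 1) = dim ker (f' ^ e - 1)` for all
`e ∣ n`, then `trace f = trace f'`.  (The kernels `ker (f ^ e - 1)` are the fixed spaces of the
subgroups of the cyclic group generated by `f`; over `ℚ` they determine the character because
the cyclotomic polynomials are irreducible.)

Ingredients, over an arbitrary field: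
* `exists_conj_of_irreducible`: two endomorphisms killed by the same irreducible polynomial, on
  spaces of the same finite dimension, are conjugate;
* `supIndep_and_sup_ker_aeval`, `finrank_ker_aeval_prod`, `trace_eq_sum_trace_restrict_ker`:
  kernel decomposition for pairwise coprime polynomials.
-/
import Mathlib

set_option autoImplicit false
set_option linter.unusedSectionVars false
set_option linter.style.haveILetI false

namespace Fermat.Agent.TW.GlobalEC.CycloTrace79

open Polynomial Module

section LemmaC

variable {K : Type*} [Field K] {V V' : Type*} [AddCommGroup V] [Module K V]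
  [FiniteDimensional K V] [AddCommGroup V'] [Module K V'] [FiniteDimensional K V']

theorem isTorsionBy_aeval' (p : K[X]) (f : Module.End K V) (hf : aeval f p = 0) :
    Module.IsTorsionBy K[X] (Module.AEval' f) p := by
  intro m
  apply (Module.AEval'.of f).symm.injective
  rw [Module.AEval.of_symm_smul, hf, map_zero]
  rfl

/-- Two finite-dimensional spaces with endomorphisms killed by the same irreducible polynomial
and of the same dimension are conjugate. -/
theorem exists_conj_of_irreducible (p : K[X]) (hp : Irreducible p)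
    (f : Module.End K V) (f' : Module.End K V') (hf : aeval f p = 0) (hf' : aeval f' p = 0)
    (hdim : finrank K V = finrank K V') :
    ∃ e : V ≃ₗ[K] V', ∀ v, e (f v) = f' (e v) := by
  classical
  haveI : Fact (Irreducible p) := ⟨hp⟩
  have hp0 : p ≠ 0 := hp.ne_zero
  have hM := isTorsionBy_aeval' p f hf
  have hM' := isTorsionBy_aeval' p f' hf'
  letI iM : Module (AdjoinRoot p) (Module.AEval' f) := hM.module
  letI iM' : Module (AdjoinRoot p) (Module.AEval' f') := hM'.module
  have hmk : ∀ (q : K[X]) (m : Module.AEval' f), (AdjoinRoot.mk p q) • m = q • m := fun q m => rfl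
  have hmk' : ∀ (q : K[X]) (m : Module.AEval' f'), (AdjoinRoot.mk p q) • m = q • m :=
    fun q m => rfl
  haveI : IsScalarTower K (AdjoinRoot p) (Module.AEval' f) := by
    refine ⟨fun k a m => ?_⟩
    induction a using AdjoinRoot.induction_on with
    | ih q => rw [AdjoinRoot.smul_mk, hmk, hmk, smul_assoc]
  haveI : IsScalarTower K (AdjoinRoot p) (Module.AEval' f') := by
    refine ⟨fun k a m => ?_⟩
    induction a using AdjoinRoot.induction_on with
    | ih q => rw [AdjoinRoot.smul_mk, hmk', hmk', smul_assoc]
  haveI : FiniteDimensional K (AdjoinRoot p) := (AdjoinRoot.powerBasis hp0).finite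
  haveI : Module.Finite (AdjoinRoot p) (Module.AEval' f) :=
    Module.Finite.of_restrictScalars_finite K _ _
  haveI : Module.Finite (AdjoinRoot p) (Module.AEval' f') :=
    Module.Finite.of_restrictScalars_finite K _ _
  have h1 := Module.finrank_mul_finrank K (AdjoinRoot p) (Module.AEval' f)
  have h2 := Module.finrank_mul_finrank K (AdjoinRoot p) (Module.AEval' f')
  have hV : finrank K (Module.AEval' f) = finrank K V := (Module.AEval'.of f).symm.finrank_eq
  have hV' : finrank K (Module.AEval' f') = finrank K V' := (Module.AEval'.of f').symm.finrank_eq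
  have hpos : 0 < finrank K (AdjoinRoot p) := Module.finrank_pos
  have hF : finrank (AdjoinRoot p) (Module.AEval' f) = finrank (AdjoinRoot p) (Module.AEval' f') := by
    apply Nat.eq_of_mul_eq_mul_left hpos
    rw [h1, h2, hV, hV', hdim]
  let e0 : Module.AEval' f ≃ₗ[AdjoinRoot p] Module.AEval' f' := LinearEquiv.ofFinrankEq _ _ hF
  let e1 : Module.AEval' f ≃ₗ[K] Module.AEval' f' := e0.restrictScalars K
  refine ⟨(Module.AEval'.of f).trans (e1.trans (Module.AEval'.of f').symm), fun v => ?_⟩
  have hX : ∀ m : Module.AEval' f, e0 ((X : K[X]) • m) = (X : K[X]) • e0 m := by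
    intro m
    rw [← hmk, ← hmk', map_smul]
  simp only [LinearEquiv.trans_apply]
  have := hX (Module.AEval'.of f v)
  rw [Module.AEval'.X_smul_of] at this
  change (Module.AEval'.of f').symm (e0 (Module.AEval'.of f (f v))) = _
  rw [this, Module.AEval'.of_symm_X_smul]
  rfl

end LemmaC

section Decomp

variable {K : Type*} [Field K] {V : Type*} [AddCommGroup V] [Module K V] [FiniteDimensional K V]

theorem supIndep_and_sup_ker_aeval {ι : Type*} [DecidableEq ι] (f : Module.End K V)
    (q : ι → K[X]) (s : Finset ι)
    (hq : (s : Set ι).Pairwise (fun i j => IsCoprime (q i) (q j))) :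
    s.SupIndep (fun i => LinearMap.ker (aeval f (q i))) ∧
      s.sup (fun i => LinearMap.ker (aeval f (q i))) = LinearMap.ker (aeval f (∏ i ∈ s, q i)) := by
  induction s using Finset.induction_on with
  | empty =>
    refine ⟨Finset.supIndep_empty _, ?_⟩
    simp only [Finset.sup_empty, Finset.prod_empty, map_one]
    symm
    rw [LinearMap.ker_eq_bot]
    exact fun x y h => h
  | insert a t hat ih =>
    have hq' : (t : Set ι).Pairwise (fun i j => IsCoprime (q i) (q j)) :=
      hq.mono (by simp [Finset.coe_insert])
    obtain ⟨ih1, ih2⟩ := ih hq'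
    have hcop : IsCoprime (q a) (∏ i ∈ t, q i) := by
      apply IsCoprime.prod_right
      intro i hi
      apply hq (by simp) (by simp [hi])
      rintro rfl
      exact hat hi
    refine ⟨ih1.insert ?_, ?_⟩
    · rw [ih2]
      exact disjoint_ker_aeval_of_isCoprime f hcop
    · rw [Finset.sup_insert, ih2, Finset.prod_insert hat,
        sup_ker_aeval_eq_ker_aeval_mul_of_coprime f hcop]

theorem finrank_ker_aeval_prod {ι : Type*} [DecidableEq ι] (f : Module.End K V)
    (q : ι → K[X]) (s : Finset ι)
    (hq : (s : Set ι).Pairwise (fun i j => IsCoprime (q i) (q j))) :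
    finrank K (LinearMap.ker (aeval f (∏ i ∈ s, q i))) =
      ∑ i ∈ s, finrank K (LinearMap.ker (aeval f (q i))) := by
  induction s using Finset.induction_on with
  | empty =>
    have h1 : LinearMap.ker (aeval f (∏ i ∈ (∅ : Finset ι), q i)) = ⊥ := by
      rw [Finset.prod_empty, map_one, LinearMap.ker_eq_bot]
      exact fun x y h => h
    rw [h1, finrank_bot, Finset.sum_empty]
  | insert a t hat ih =>
    have hq' : (t : Set ι).Pairwise (fun i j => IsCoprime (q i) (q j)) :=
      hq.mono (by simp [Finset.coe_insert])
    have hcop : IsCoprime (q a) (∏ i ∈ t, q i) := by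
      apply IsCoprime.prod_right
      intro i hi
      apply hq (by simp) (by simp [hi])
      rintro rfl
      exact hat hi
    rw [Finset.prod_insert hat, Finset.sum_insert hat, ← ih hq',
      ← sup_ker_aeval_eq_ker_aeval_mul_of_coprime f hcop]
    have hdisj := disjoint_ker_aeval_of_isCoprime f hcop
    have h := Submodule.finrank_sup_add_finrank_inf_eq (LinearMap.ker (aeval f (q a)))
      (LinearMap.ker (aeval f (∏ i ∈ t, q i)))
    rw [hdisj.eq_bot, finrank_bot, add_zero] at h
    exact h

end Decomp

section Restrict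

variable {K : Type*} [Field K] {V : Type*} [AddCommGroup V] [Module K V]

theorem aeval_restrict_apply (f : Module.End K V) (N : Submodule K V) (h : ∀ x ∈ N, f x ∈ N)
    (p : K[X]) : ∀ x : N, ((aeval (f.restrict h) p) x : V) = aeval f p x := by
  induction p using Polynomial.induction_on with
  | C a =>
    intro x
    simp [Module.algebraMap_end_apply]
  | add p q hp hq =>
    intro x
    simp only [map_add, LinearMap.add_apply, Submodule.coe_add, hp x, hq x]
  | monomial n a ih =>
    intro x
    have e1 : (C a * X ^ (n + 1) : K[X]) = (C a * X ^ n) * X := by ring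
    have h1 : aeval (f.restrict h) (C a * X ^ n * X) = aeval (f.restrict h) (C a * X ^ n) *
        f.restrict h := by rw [map_mul, aeval_X]
    have h2 : aeval f (C a * X ^ n * X) = aeval f (C a * X ^ n) * f := by rw [map_mul, aeval_X]
    rw [e1, h1, h2, Module.End.mul_apply, Module.End.mul_apply, ih (f.restrict h x)]
    rfl

theorem mapsTo_ker_aeval (f : Module.End K V) (q : K[X]) :
    ∀ x ∈ LinearMap.ker (aeval f q), f x ∈ LinearMap.ker (aeval f q) := by
  intro x hx
  rw [LinearMap.mem_ker] at hx ⊢
  have hc : aeval f q * f = f * aeval f q := by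
    calc aeval f q * f = aeval f (q * X) := by rw [map_mul, aeval_X]
      _ = aeval f (X * q) := by rw [mul_comm]
      _ = f * aeval f q := by rw [map_mul, aeval_X]
  have := congrArg (fun g : Module.End K V => g x) hc
  simp only [Module.End.mul_apply] at this
  rw [this, hx, map_zero]

theorem aeval_restrict_ker_eq_zero (f : Module.End K V) (q : K[X]) :
    aeval (f.restrict (mapsTo_ker_aeval f q)) q = 0 := by
  ext x
  rw [aeval_restrict_apply]
  simp

end Restrict

section Trace

variable {K : Type*} [Field K] {V : Type*} [AddCommGroup V] [Module K V] [FiniteDimensional K V]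

theorem trace_eq_sum_trace_restrict_ker {ι : Type*} [DecidableEq ι] (f : Module.End K V)
    (q : ι → K[X]) (s : Finset ι)
    (hq : (s : Set ι).Pairwise (fun i j => IsCoprime (q i) (q j)))
    (hf : aeval f (∏ i ∈ s, q i) = 0) :
    LinearMap.trace K V f = ∑ i : s, LinearMap.trace K (LinearMap.ker (aeval f (q i)))
      (f.restrict (mapsTo_ker_aeval f (q i))) := by
  obtain ⟨h1, h2⟩ := supIndep_and_sup_ker_aeval f q s hq
  have hint : DirectSum.IsInternal (fun i : s => LinearMap.ker (aeval f (q i))) := by
    apply DirectSum.isInternal_submodule_of_iSupIndep_of_iSup_eq_top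
    · exact h1.independent
    · have : (⨆ i : s, LinearMap.ker (aeval f (q i))) =
          s.sup (fun i => LinearMap.ker (aeval f (q i))) := by
        rw [Finset.sup_eq_iSup, iSup_subtype']
      rw [this, h2, hf, LinearMap.ker_zero]
  exact LinearMap.trace_eq_sum_trace_restrict hint (fun i => mapsTo_ker_aeval f (q i))

end Trace

section Rat

variable {V V' : Type*} [AddCommGroup V] [Module ℚ V] [FiniteDimensional ℚ V]
  [AddCommGroup V'] [Module ℚ V'] [FiniteDimensional ℚ V']

theorem pairwise_isCoprime_cyclotomic (s : Finset ℕ) :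
    (s : Set ℕ).Pairwise (fun i j => IsCoprime (cyclotomic i ℚ) (cyclotomic j ℚ)) :=
  fun _ _ _ _ hij => cyclotomic.isCoprime_rat hij

theorem aeval_X_pow_sub_one (f : Module.End ℚ V) (e : ℕ) :
    aeval f (X ^ e - 1 : ℚ[X]) = f ^ e - 1 := by
  rw [map_sub, map_pow, aeval_X, map_one]

/-- `dim ker (f ^ e - 1)` is the sum of the dimensions of the cyclotomic kernels. -/
theorem finrank_ker_pow_sub_one (f : Module.End ℚ V) (e : ℕ) (he : 0 < e) :
    finrank ℚ (LinearMap.ker (f ^ e - 1)) =
      ∑ d ∈ e.divisors, finrank ℚ (LinearMap.ker (aeval f (cyclotomic d ℚ))) := by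
  rw [← finrank_ker_aeval_prod f (fun d => cyclotomic d ℚ) e.divisors
    (pairwise_isCoprime_cyclotomic _), prod_cyclotomic_eq_X_pow_sub_one he, aeval_X_pow_sub_one]

/-- The dimensions of the cyclotomic kernels are determined by the dimensions of the
`ker (f ^ e - 1)`. -/
theorem finrank_ker_cyclotomic_eq (n : ℕ) (f : Module.End ℚ V) (f' : Module.End ℚ V')
    (h : ∀ e ∈ n.divisors, finrank ℚ (LinearMap.ker (f ^ e - 1)) =
      finrank ℚ (LinearMap.ker (f' ^ e - 1))) :
    ∀ d ∈ n.divisors, finrank ℚ (LinearMap.ker (aeval f (cyclotomic d ℚ))) =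
      finrank ℚ (LinearMap.ker (aeval f' (cyclotomic d ℚ))) := by
  intro d
  induction d using Nat.strong_induction_on with
  | _ d ih =>
    intro hd
    have hdpos : 0 < d := Nat.pos_of_mem_divisors hd
    have h1 := finrank_ker_pow_sub_one f d hdpos
    have h2 := finrank_ker_pow_sub_one f' d hdpos
    rw [← Nat.cons_self_properDivisors hdpos.ne', Finset.sum_cons] at h1 h2
    have h3 : ∑ i ∈ d.properDivisors, finrank ℚ (LinearMap.ker (aeval f (cyclotomic i ℚ))) =
        ∑ i ∈ d.properDivisors, finrank ℚ (LinearMap.ker (aeval f' (cyclotomic i ℚ))) := by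
      apply Finset.sum_congr rfl
      intro i hi
      rw [Nat.mem_properDivisors] at hi
      apply ih i hi.2
      rw [Nat.mem_divisors] at hd ⊢
      exact ⟨hi.1.trans hd.1, hd.2⟩
    have h4 := h d hd
    omega

/-- **Traces of finite-order rational automorphisms are determined by fixed-space dimensions.** -/
theorem trace_eq_of_finrank_ker_eq (n : ℕ) (hn : 0 < n) (f : Module.End ℚ V)
    (f' : Module.End ℚ V') (hf : f ^ n = 1) (hf' : f' ^ n = 1)
    (h : ∀ e ∈ n.divisors, finrank ℚ (LinearMap.ker (f ^ e - 1)) =
      finrank ℚ (LinearMap.ker (f' ^ e - 1))) :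
    LinearMap.trace ℚ V f = LinearMap.trace ℚ V' f' := by
  have hprod : ∀ g : Module.End ℚ V, g ^ n = 1 →
      aeval g (∏ d ∈ n.divisors, cyclotomic d ℚ) = 0 := by
    intro g hg
    rw [prod_cyclotomic_eq_X_pow_sub_one hn, aeval_X_pow_sub_one, hg, sub_self]
  have hprod' : aeval f' (∏ d ∈ n.divisors, cyclotomic d ℚ) = 0 := by
    rw [prod_cyclotomic_eq_X_pow_sub_one hn, aeval_X_pow_sub_one, hf', sub_self]
  rw [trace_eq_sum_trace_restrict_ker f (fun d => cyclotomic d ℚ) n.divisors
      (pairwise_isCoprime_cyclotomic _) (hprod f hf),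
    trace_eq_sum_trace_restrict_ker f' (fun d => cyclotomic d ℚ) n.divisors
      (pairwise_isCoprime_cyclotomic _) hprod']
  apply Finset.sum_congr rfl
  intro i _
  have hdim := finrank_ker_cyclotomic_eq n f f' h i.1 i.2
  have hipos : 0 < i.1 := Nat.pos_of_mem_divisors i.2
  obtain ⟨e, he⟩ := exists_conj_of_irreducible (cyclotomic i.1 ℚ)
    (cyclotomic.irreducible_rat hipos)
    (f.restrict (mapsTo_ker_aeval f (cyclotomic i.1 ℚ)))
    (f'.restrict (mapsTo_ker_aeval f' (cyclotomic i.1 ℚ)))
    (aeval_restrict_ker_eq_zero f _) (aeval_restrict_ker_eq_zero f' _) hdim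
  have hconj : f'.restrict (mapsTo_ker_aeval f' (cyclotomic i.1 ℚ)) =
      e.conj (f.restrict (mapsTo_ker_aeval f (cyclotomic i.1 ℚ))) := by
    ext x
    rw [LinearEquiv.conj_apply_apply, he, LinearEquiv.apply_symm_apply]
  rw [hconj, LinearMap.trace_conj']

end Rat

end Fermat.Agent.TW.GlobalEC.CycloTrace79
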