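/-
Program TW (S56), WP4 (global Euler characteristic), brick EC3K-a, pure algebra (helper55):
a pairing whose right kernel is trivial on a finite-dimensional space represents every functional.

* `exists_eq_of_flip_injective` : `K` a field, `B : V →ₗ[K] W →ₗ[K] K`, `W` finite-dimensional, right kernel
  trivial ⇒ every `λ ∈ W^*` is `B v`.
* `exists_apply_eq_of_rker_trivial` : the same for a biadditive pairing `β : V →+ W →+ ZMod p` of an abelian
  group `V` with a finite-dimensional `ZMod p`-space `W` (the set of represented functionals is an additive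
  subgroup, hence a subspace).
-/
import Mathlib

set_option autoImplicit false

open Module

namespace Fermat.Agent.TW.GlobalEC.DualSurj55

section Field

variable {K V W : Type*} [Field K] [AddCommGroup W] [Module K W] [FiniteDimensional K W]

/-- A subspace of the dual of a finite-dimensional space with trivial common kernel is everything. -/
theorem eq_top_of_dualCoannihilator_eq_bot (Φ : Subspace K (Module.Dual K W))
    (h : ∀ w : W, (∀ f ∈ Φ, f w = 0) → w = 0) : Φ = ⊤ := by
  have hco : Φ.dualCoannihilator = ⊥ := by
    rw [eq_bot_iff]
    intro w hw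
    rw [Submodule.mem_dualCoannihilator] at hw
    rw [Submodule.mem_bot]
    exact h w hw
  have h1 := Subspace.finrank_add_finrank_dualCoannihilator_eq Φ
  rw [hco, finrank_bot, add_zero] at h1
  apply Submodule.eq_top_of_finrank_eq
  rw [h1, Subspace.dual_finrank_eq]

variable [AddCommGroup V] [Module K V]

/-- A bilinear pairing with trivial right kernel on a finite-dimensional space represents every
functional. -/
theorem exists_eq_of_flip_injective (B : V →ₗ[K] W →ₗ[K] K)
    (hr : ∀ w : W, (∀ v, B v w = 0) → w = 0) (l : Module.Dual K W) : ∃ v : V, B v = l := by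
  have htop : LinearMap.range B = ⊤ := by
    apply eq_top_of_dualCoannihilator_eq_bot
    intro w hw
    apply hr w
    intro v
    exact hw (B v) ⟨v, rfl⟩
  have : l ∈ LinearMap.range B := by rw [htop]; exact Submodule.mem_top
  exact this

end Field

section ZModP

variable (p : ℕ) [hp : Fact p.Prime] {V W : Type*} [AddCommGroup V] [AddCommGroup W]
  [Module (ZMod p) W] [FiniteDimensional (ZMod p) W]

/-- A biadditive `ZMod p`-valued pairing of an abelian group `V` with a finite-dimensional `ZMod p`-space
`W`, with trivial right kernel, represents every additive functional on `W`. -/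
theorem exists_apply_eq_of_rker_trivial (β : V →+ W →+ ZMod p)
    (hr : ∀ w : W, (∀ v, β v w = 0) → w = 0) (l : W →+ ZMod p) : ∃ v : V, ∀ w, β v w = l w := by
  -- the additive subgroup of represented functionals, as a subspace
  let F : AddSubgroup (Module.Dual (ZMod p) W) :=
    { carrier := {f | ∃ v : V, ∀ w, β v w = f w}
      zero_mem' := ⟨0, fun w => by rw [map_zero, AddMonoidHom.zero_apply, LinearMap.zero_apply]⟩
      add_mem' := by
        rintro f f' ⟨v, hv⟩ ⟨v', hv'⟩
        exact ⟨v + v', fun w => by
          rw [map_add, AddMonoidHom.add_apply, hv, hv', LinearMap.add_apply]⟩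
      neg_mem' := by
        rintro f ⟨v, hv⟩
        exact ⟨-v, fun w => by rw [map_neg, AddMonoidHom.neg_apply, hv, LinearMap.neg_apply]⟩ }
  have htop : AddSubgroup.toZModSubmodule p F = ⊤ := by
    apply eq_top_of_dualCoannihilator_eq_bot
    intro w hw
    apply hr w
    intro v
    have hmem : (β v).toZModLinearMap p ∈ AddSubgroup.toZModSubmodule p F := ⟨v, fun w => rfl⟩
    exact hw _ hmem
  have hl : l.toZModLinearMap p ∈ AddSubgroup.toZModSubmodule p F := by
    rw [htop]; exact Submodule.mem_top
  obtain ⟨v, hv⟩ := hl
  exact ⟨v, hv⟩

/-- The same for a pairing given as a function which is additive in each variable. -/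
theorem exists_apply_eq_of_rker_trivial' (β : V → W → ZMod p)
    (hl : ∀ v v' w, β (v + v') w = β v w + β v' w) (hr' : ∀ v w w', β v (w + w') = β v w + β v w')
    (hr : ∀ w : W, (∀ v, β v w = 0) → w = 0) (l : W →+ ZMod p) : ∃ v : V, ∀ w, β v w = l w :=
  exists_apply_eq_of_rker_trivial p
    (AddMonoidHom.mk' (fun v => AddMonoidHom.mk' (β v) (hr' v)) (fun v v' => by
      ext w
      exact hl v v' w)) hr l

end ZModP

end Fermat.Agent.TW.GlobalEC.DualSurj55
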