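/-
Program TW (S56), work package WP4 "EC", brick EC3K (helper functions), helper26: GENERIC PART.

For a resolution `R : IndRes20.Res k G P1 P0 M` (`0 → P₁ → P₀ → M → 0`) and a `G`-module `C`, the
cochain-level left kernel statement `SpecD26.LKDatum R ρC 𝒰` for the pairing datum
`K(P; C) = R.datum ρC` is translated into a statement about the base modules `M`, `C` only:
the cup product pairing `H¹(G, Hom(M, C)) × H¹(G, M) → H²(G, C)`,
`(φ ∪ x)(g, h) = φ(g)(g • x(h))` (level cochains), has trivial left kernel.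
(`C` is NOT assumed `p`-divisible; the right kernel of this pairing is in general not trivial.)

Everything is stated pointwise (no module structure on `M →ₗ[k] C` occurs in the statements), so
that the theorems can be used at `k = ℤ` without meeting the `ℤ`-module instance diamond.
-/
import Mathlib
import Fermat.Agent.TW.GlobalEC.SpecD26

set_option autoImplicit false
set_option linter.unusedSectionVars false

namespace Fermat.Agent.TW.GlobalEC.DualityGen26

open Fermat.Agent.PT.PRO.HyperLevel25 Fermat.Agent.PT.PRO.Pairing20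
  Fermat.Agent.PT.PRO.IndRes20

variable {k : Type*} [CommRing k] {G : Type*} [Group G]
variable {P1 P0 M C : Type*} [AddCommGroup P1] [Module k P1] [AddCommGroup P0] [Module k P0]
  [AddCommGroup M] [Module k M] [AddCommGroup C] [Module k C]

/-- `φ : G → Hom(M, C)` is a 1-cocycle for the conjugation action (pointwise form). -/
def IsHomCocycle (ρM : Representation k G M) (ρC : Representation k G C)
    (φ : G → (M →ₗ[k] C)) : Prop :=
  ∀ g h m, φ (g * h) m = ρC g (φ h (ρM g⁻¹ m)) + φ g m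

/-- `φ : G → Hom(M, C)` is the coboundary of `φ₀` (pointwise form). -/
def IsHomCoboundary (ρM : Representation k G M) (ρC : Representation k G C)
    (φ : G → (M →ₗ[k] C)) (φ₀ : M →ₗ[k] C) : Prop :=
  ∀ g m, φ g m = ρC g (φ₀ (ρM g⁻¹ m)) - φ₀ m

/-- The cup product `(φ ∪ x)(g, h) = φ(g)(g • x(h))`. -/
def cupFun (ρM : Representation k G M) (φ : G → (M →ₗ[k] C)) (x : G → M) : G × G → C :=
  fun q => φ q.1 (ρM q.1 (x q.2))

variable (R : Res k G P1 P0 M) (ρC : Representation k G C) {𝒰 : Set (Subgroup G)}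

/-- The hyper-cocycle `(φ ∘ π, 0)` of `K(P; C)` attached to a cocycle `φ` of `Hom(M, C)`. -/
theorem isHyperCocycle_of_isHomCocycle {φ : G → (M →ₗ[k] C)} (hφ : IsHomCocycle R.ρM ρC φ) :
    (R.datum ρC).IsHyperCocycle (fun g => φ g ∘ₗ R.π) 0 := by
  refine ⟨?_, fun g => ?_⟩
  · funext q
    obtain ⟨g, h⟩ := q
    apply LinearMap.ext
    intro x
    simp only [dOne_apply, Res.datum_ρY0, LinearMap.sub_apply, LinearMap.add_apply,
      LinearMap.comp_apply, Pi.zero_apply, LinearMap.zero_apply, R.π_comm]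
    rw [hφ g h (R.π x)]
    abel
  · apply LinearMap.ext
    intro z
    have hz : R.π (R.ι z) = 0 := (R.exact _).2 ⟨z, rfl⟩
    simp only [Res.datum_f, LinearMap.comp_apply, hz, map_zero, sub_zero, LinearMap.zero_apply]

/-- The pairing of `(φ ∘ π, 0)` with a lift of `x` is the cup product `φ ∪ x`. -/
theorem pairFun_of_hom (φ : G → (M →ₗ[k] C)) (a' : G → P0) (b : G × G → P1) :
    (R.datum ρC).pairFun (fun g => φ g ∘ₗ R.π) 0 a' b = cupFun R.ρM φ (⇑R.π ∘ a') := by
  funext q
  obtain ⟨g, h⟩ := q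
  simp only [Datum.pairFun_apply, Res.datum_ev0, Res.datum_ev1, Res.datum_ρF0,
    LinearMap.comp_apply, LinearMap.zero_apply, add_zero, R.π_comm, cupFun, Function.comp_apply]

/-- **Left kernel.**  A level cocycle `φ` of `Hom(M, C)` whose cup products with all level
cocycles of `M` are coboundaries of level cochains is a coboundary. -/
theorem left_kernel_hom (hLK : SpecD26.LKDatum R ρC 𝒰)
    {φ : G → (M →ₗ[k] C)} (hφ : IsHomCocycle R.ρM ρC φ) (hφl : IsLevel₁ 𝒰 φ)
    (hpair : ∀ x : G → M, dOne R.ρM x = 0 → IsLevel₁ 𝒰 x →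
      ∃ u : G → C, IsLevel₁ 𝒰 u ∧ cupFun R.ρM φ x = dOne ρC u) :
    ∃ φ₀ : M →ₗ[k] C, IsHomCoboundary R.ρM ρC φ φ₀ := by
  have hcy := isHyperCocycle_of_isHomCocycle R ρC hφ
  have hcl : IsLevel₁ 𝒰 (fun g => φ g ∘ₗ R.π) := hφl.comp (fun ψ => ψ ∘ₗ R.π)
  obtain ⟨y₀, hc, hy⟩ := hLK _ _ hcy hcl (fun a' b hab ha => by
    have hx : dOne R.ρM (⇑R.π ∘ a') = 0 := hab.dOne_comp
    obtain ⟨u, hu, hcup⟩ := hpair (⇑R.π ∘ a') hx (ha.comp R.π)
    exact ⟨u, hu, by rw [pairFun_of_hom, hcup]⟩)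
  -- `y₀` kills `ι P₁`, hence factors through `π`
  have hker : LinearMap.ker R.π ≤ LinearMap.ker y₀ := by
    intro x hx
    obtain ⟨z, rfl⟩ := (R.exact x).1 hx
    have := LinearMap.congr_fun hy z
    simp only [Res.datum_f, LinearMap.comp_apply, LinearMap.zero_apply] at this
    exact this.symm
  obtain ⟨φ₀, hφ₀⟩ : ∃ φ₀ : M →ₗ[k] C, ∀ x, φ₀ (R.π x) = y₀ x := by
    refine ⟨((LinearMap.ker R.π).liftQ y₀ hker) ∘ₗ
      (R.π.quotKerEquivOfSurjective R.π_surj).symm.toLinearMap, fun x => ?_⟩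
    have : (R.π.quotKerEquivOfSurjective R.π_surj).symm (R.π x) =
        Submodule.Quotient.mk x := by
      rw [LinearEquiv.symm_apply_eq]
      rfl
    rw [LinearMap.comp_apply, LinearEquiv.coe_coe, this, Submodule.liftQ_apply]
  refine ⟨φ₀, fun g m => ?_⟩
  obtain ⟨x, rfl⟩ := R.π_surj m
  have h1 := LinearMap.congr_fun (congrFun hc g) x
  simp only [LinearMap.comp_apply, dZero_apply, Res.datum_ρY0, LinearMap.sub_apply] at h1
  rw [h1, ← hφ₀, ← hφ₀, R.π_comm]

/-- Existence of a level lift `(a', b)` of a level cocycle `x` of `M`. -/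
theorem exists_lift {x : G → M} (hx : dOne R.ρM x = 0) (hxl : IsLevel₁ 𝒰 x) :
    ∃ (a' : G → P0) (b : G × G → P1), (R.datum ρC).IsLift a' b ∧ IsLevel₁ 𝒰 a' ∧
      ⇑R.π ∘ a' = x := by
  have hπ : ⇑R.π ∘ (Function.surjInv R.π_surj ∘ x) = x := by
    funext g
    exact Function.surjInv_eq R.π_surj (x g)
  have hb : ∀ q : G × G, ∃ z : P1, R.ι z = dOne R.ρ0 (Function.surjInv R.π_surj ∘ x) q := by
    intro q
    apply (R.exact _).1
    have := congrFun (comp_dOne R.ρ0 R.ρM R.π R.π_comm (Function.surjInv R.π_surj ∘ x)) q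
    rw [Function.comp_apply] at this
    rw [this, hπ, hx]
    rfl
  choose b hb using hb
  exact ⟨Function.surjInv R.π_surj ∘ x, b, hb, hxl.comp _, hπ⟩

end Fermat.Agent.TW.GlobalEC.DualityGen26
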