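/-
Program TW (S56), WP4 "EC", brick EC7-v2 (abstract assembly against the contracts of `SpecD26`),
helper76.

Tate's formula `eps(X) = 0` from the contracts of plan v2 of WP4 (no divisibility of `C`, no
`IsDualAt`):

* (EC1)  `ProjAdapter28.inductionPrinciple`                       (plugged in),
* (EC2)  `SpecD26.AdditivityK 𝓑 T`, `T = C[p]`                    (hypothesis),
* (EC3K) `SpecD26.KernelRank 𝓑 T`                                 (hypothesis),
* (EC4a) `EC4aMain3.projH0`                                        (plugged in),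
* (EC4b) `SpecD26.ProjH1 p 𝓑 C`                                   (hypothesis),
* (EC5)  `SpecC26.ArithmeticCore p 𝓑 C cc`                        (hypothesis),
* (EC3PT) `SpecD26.HyperDuality 𝓑 C p`, `SpecD26.HasInv 𝓑 C p`, `NoPTorsionH1On 𝓑 C U p` for the
         normal `U ∈ 𝓑`, finiteness of `H¹_𝓑(G, X)` for finite discrete `X`   (hypotheses).

`tate_formula_v2`: for every finite-dimensional discrete `𝔽_p[G]`-module `X`

   `dim Hom_G(X, T) - dim H¹_𝓑(G, X) + dim X^G + dim X^{cc = -1} = 0`,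

with literally the conclusion of `EC7Main3.tate_formula`.
-/
import Mathlib
import Fermat.Agent.TW.GlobalEC.SpecD26
import Fermat.Agent.TW.GlobalEC.EC7Main3
import Fermat.Agent.TW.GlobalEC.EC4aMain3
import Fermat.Agent.TW.EUL.ProjAdapter28

set_option autoImplicit false

open Module

namespace Fermat.Agent.TW.GlobalEC.EC7v2_76

open Fermat.Agent.PT.PRO.LevelCoh28 Fermat.Agent.TW.GlobalEC.Spec26
  Fermat.Agent.TW.GlobalEC.SpecB26 Fermat.Agent.TW.GlobalEC.SpecC26
  Fermat.Agent.TW.GlobalEC.SpecD26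

noncomputable section

variable {G : Type} [Group G] (p : ℕ) [Fact p.Prime] (𝓑 : LevelBasis G) (C : Rep.{0} ℤ G)
  (U : Subgroup G) [U.Normal]

/-- `eps` is additive on short exact sequences, from (EC2) in the form `AdditivityK` and
(EC3K). -/
theorem isAdditive_eps_v2 (hp2 : p ≠ 2) (hC : IsDiscrete 𝓑.sets C) (hU : U ∈ 𝓑.sets)
    (cc : G ⧸ U) (hcc : cc * cc = 1)
    (hAddK : AdditivityK 𝓑 (pTorsionRep p C)) (hK : KernelRank 𝓑 (pTorsionRep p C))
    (hfinH1 : ∀ N : Rep.{0} (ZMod p) (G ⧸ U), FiniteDimensional (ZMod p) N →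
      FiniteDimensional (ZMod p) (H1 𝓑 (infl U N)))
    (hfinHom : ∀ N : Rep.{0} (ZMod p) (G ⧸ U), FiniteDimensional (ZMod p) N →
      FiniteDimensional (ZMod p) (homRep (infl U N) (pTorsionRep p C)).ρ.invariants) :
    IsAdditive (EC7Abs3.eps p 𝓑 C U cc) := by
  intro A B C' φ ψ hSES hB
  have hA : FiniteDimensional (ZMod p) A := FiniteDimensional.of_injective φ hSES.inj
  have hC' : FiniteDimensional (ZMod p) C' := FiniteDimensional.of_surjective ψ hSES.surj
  have hS := EC7Abs3.isShortExact_infl U hSES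
  have hKat : KernelRankAt 𝓑 (pTorsionRep p C) (B := infl U B) (C := infl U C') ψ hS.ψ_comm :=
    hK (infl U B) (infl U C') ψ hS.ψ_comm hSES.surj hB (EC7Abs3.isDiscrete_infl U hU B)
      (hfinH1 B hB) (hfinH1 C' hC')
  have h1 := hAddK (Shapiro3.isDiscrete_pTorsionRep p 𝓑 C hC) (infl U A) (infl U B)
    (infl U C') φ ψ hS hB (EC7Abs3.isDiscrete_infl U hU B) hKat
    (hfinH1 A hA) (hfinH1 B hB) (hfinH1 C' hC') (hfinHom A hA) (hfinHom B hB) (hfinHom C' hC')
  have hσ : ∀ b : B, B.ρ cc (B.ρ cc b) = b := by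
    intro b
    rw [← Module.End.mul_apply, ← map_mul, hcc, map_one, Module.End.one_apply]
  have h2 := NegEigen3.negEigenRank_additive (EC7Abs3.two_ne_zero_zmod p hp2) (A.ρ cc) (B.ρ cc)
    (C'.ρ cc) hσ φ ψ (hSES.φ_comm cc) (hSES.ψ_comm cc) hSES.inj hSES.surj hSES.exact
  rw [EC7Abs3.eps, EC7Abs3.eps, EC7Abs3.eps, h1, h2]
  push_cast
  ring

/-- `eps` vanishes on finite-dimensional projective modules, from (EC4a), (EC4b) and the (EC5)
formula. -/
theorem eps_eq_zero_of_isProjRep_v2 (hC : IsDiscrete 𝓑.sets C) (hU : U ∈ 𝓑.sets)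
    (hNT : NoPTorsionH1On 𝓑 C U p) (cc : G ⧸ U)
    (hHD : HyperDuality 𝓑 C p) (hinv : HasInv 𝓑 C p) (hH1 : ProjH1 p 𝓑 C)
    (hPF : IsPFinite p (C.quotientToInvariants U))
    (P : Rep.{0} (ZMod p) (G ⧸ U)) (hPfd : FiniteDimensional (ZMod p) P) (hproj : IsProjRep P)
    (hfinH1 : FiniteDimensional (ZMod p) (H1 𝓑 (infl U P)))
    (hEC5 : hP p P (C.quotientToInvariants U) =
      (negEigenRank (P.ρ cc) : ℤ) + (eqHomRank P (trivRep p (G ⧸ U)) : ℤ)) :
    EC7Abs3.eps p 𝓑 C U cc P = 0 := by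
  obtain ⟨h1, h3⟩ := EC4aMain3.projH0 p 𝓑 C U hU P hPfd
  have h2 := hH1 hC hHD hinv U hU hNT hPF P hPfd hproj hfinH1
  have h5 := EC7Abs3.finrank_invariants_infl U P
  have h3' := h3 hproj
  rw [SpecC26.hP] at hEC5
  rw [EC7Abs3.eps, euler, h1, h2, h5, h3']
  omega

/-- **EC7-v2, inflated form**: Tate's formula `eps(N) = 0` for all finite-dimensional
`𝔽_p[G ⧸ U]`-modules, from the contracts of plan v2. -/
theorem tate_formula_infl_v2 (hp2 : p ≠ 2) (cc : G) (hcc : cc * cc = 1)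
    (hC : IsDiscrete 𝓑.sets C)
    (hHD : HyperDuality 𝓑 C p) (hinv : HasInv 𝓑 C p)
    (hAddK : AdditivityK 𝓑 (pTorsionRep p C)) (hK : KernelRank 𝓑 (pTorsionRep p C))
    (hH1 : ProjH1 p 𝓑 C) (hCore : ArithmeticCore p 𝓑 C cc)
    (hU : U ∈ 𝓑.sets) (hNT : NoPTorsionH1On 𝓑 C U p)
    (hfinH1 : ∀ N : Rep.{0} (ZMod p) (G ⧸ U), FiniteDimensional (ZMod p) N →
      FiniteDimensional (ZMod p) (H1 𝓑 (infl U N)))
    (N : Rep.{0} (ZMod p) (G ⧸ U)) [hN : FiniteDimensional (ZMod p) N] :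
    euler 𝓑 (pTorsionRep p C) (infl U N)
      + negEigenRank (N.ρ (QuotientGroup.mk cc : G ⧸ U)) = 0 := by
  have : U.FiniteIndex := 𝓑.isBasis.finiteIndex U hU
  have : Finite (G ⧸ U) := Subgroup.finite_quotient_of_finiteIndex
  obtain ⟨hfin, hform⟩ := hCore U hU
  have hcc' : (QuotientGroup.mk cc : G ⧸ U) * (QuotientGroup.mk cc : G ⧸ U) = 1 := by
    rw [← QuotientGroup.mk_mul, hcc, QuotientGroup.mk_one]
  have hfinHom : ∀ N : Rep.{0} (ZMod p) (G ⧸ U), FiniteDimensional (ZMod p) N →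
      FiniteDimensional (ZMod p) (homRep (infl U N) (pTorsionRep p C)).ρ.invariants := by
    intro N hN
    have := hfin.1
    exact HomInv3.finiteDimensional_hom_infl_pTorsion p C U N
  exact Fermat.Agent.TW.EUL.ProjAdapter28.inductionPrinciple p (G ⧸ U)
    (EC7Abs3.eps p 𝓑 C U (QuotientGroup.mk cc))
    (isAdditive_eps_v2 p 𝓑 C U hp2 hC hU _ hcc' hAddK hK hfinH1 hfinHom)
    (fun P hPfd hPproj =>
      eps_eq_zero_of_isProjRep_v2 p 𝓑 C U hC hU hNT _ hHD hinv hH1 hfin P hPfd hPproj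
        (hfinH1 P hPfd) (hform P hPfd hPproj))
    N hN

/-- **EC7-v2: Tate's formula** for every finite-dimensional discrete `𝔽_p[G]`-module, from the
contracts of plan v2 of WP4.  The conclusion is literally that of `EC7Main3.tate_formula`. -/
theorem tate_formula_v2 (hp2 : p ≠ 2) (cc : G) (hcc : cc * cc = 1)
    (hC : IsDiscrete 𝓑.sets C)
    (hHD : HyperDuality 𝓑 C p) (hinv : HasInv 𝓑 C p)
    (hAddK : AdditivityK 𝓑 (pTorsionRep p C)) (hK : KernelRank 𝓑 (pTorsionRep p C))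
    (hH1 : ProjH1 p 𝓑 C) (hCore : ArithmeticCore p 𝓑 C cc)
    (hNT : ∀ (U : Subgroup G) [U.Normal], U ∈ 𝓑.sets → NoPTorsionH1On 𝓑 C U p)
    (hfinH1 : ∀ X : Rep.{0} (ZMod p) G, FiniteDimensional (ZMod p) X → IsDiscrete 𝓑.sets X →
      FiniteDimensional (ZMod p) (H1 𝓑 X))
    (X : Rep.{0} (ZMod p) G) [hXfd : FiniteDimensional (ZMod p) X] (hX : IsDiscrete 𝓑.sets X) :
    euler 𝓑 (pTorsionRep p C) X + negEigenRank (X.ρ cc) = 0 := by
  obtain ⟨U, hU, hn, hfix⟩ := EC7Main3.exists_trivial_level p 𝓑 X hX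
  have htriv : Representation.IsTrivial (X.ρ.comp U.subtype) :=
    ⟨fun s => LinearMap.ext fun x => hfix s.1 s.2 x⟩
  let X' : Rep.{0} (ZMod p) (G ⧸ U) := Rep.of (Representation.ofQuotient X.ρ U)
  have hX'fd : FiniteDimensional (ZMod p) X' := hXfd
  have hρ : (Representation.ofQuotient X.ρ U).comp (QuotientGroup.mk' U) = X.ρ :=
    MonoidHom.ext fun g => rfl
  have hinfl : infl U X' = X := by
    show Rep.of ((Representation.ofQuotient X.ρ U).comp (QuotientGroup.mk' U)) = X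
    rw [hρ]
  have key := tate_formula_infl_v2 p 𝓑 C U hp2 cc hcc hC hHD hinv hAddK hK hH1 hCore hU
    (hNT U hU)
    (fun N hN => hfinH1 (infl U N) hN (EC7Abs3.isDiscrete_infl U hU N)) X'
  rw [hinfl] at key
  exact key

end

end Fermat.Agent.TW.GlobalEC.EC7v2_76
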