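/-
TW / WP4 (global Euler characteristic), brick EC3K-b (helper5): functoriality of the canonical
resolution `0 → FreeRes29.Rel k A → k[A] → A → 0` (`PT/PRO/FreeRes29`, `HpAt29.freeRes`) and the
"section step" (4c) of the kernel-rank argument.

Generic commutative ring `k`, plain representations `ρB`, `ρC`, `ρX` of `G` on `B`, `C'`, `X`.

* `mapFree t`, `mapRel t` : `k[B] → k[C']`, `FreeRes29.Rel k B → FreeRes29.Rel k C'` for a `k`-linear `t : B → C'`
  (compatible with `aug`, `relIncl`; equivariant if `t` is; functorial);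
* pull-back along an equivariant `ψ : B → C'` of hyper-cocycles of `K(R_{C'}; X)` to `K(R_B; X)`
  (`isHyperCocycle_pullback`), push-forward of lifts (`isLift_push`), compatibility of the pairing
  (`pairFun_pullback`), pull-back of hyper-coboundaries (`dZero_pullback`, `f_pullback`);
* `exists_hom_of_pullback_bdry` : **step (4c)**: if `ψ` has a `k`-linear section and the pull-back
  of a hyper-cocycle `(c, y)` of `K(R_{C'}; X)` is the hyper-coboundary of `y₀`, then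
  `(c, y) = D⁰ z₀ + (φ ∘ aug, 0)` for a cocycle `φ` of `Hom(C', X)` whose pull-back `φ ∘ ψ` to
  `Hom(B, X)` is a coboundary.
-/
import Mathlib
import Fermat.Agent.PT.PRO.HpAt29
import Fermat.Agent.TW.GlobalEC.DualityGen26

set_option autoImplicit false
set_option linter.unusedSectionVars false

namespace Fermat.Agent.TW.GlobalEC.FreeResFunct5

open Fermat.Agent.PT.PRO.HyperLevel25 Fermat.Agent.PT.PRO.Pairing20
open Fermat.Agent.PT.PRO.FreeRes29 Fermat.Agent.PT.PRO.HpAt29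
open Fermat.Agent.PT.PRO.IndRes20 (Res)
open Fermat.Agent.PT.PRO
open Fermat.Agent.TW.GlobalEC.DualityGen26

variable {k : Type*} [CommRing k] {G : Type*} [Group G]
variable {B C' D' X : Type*} [AddCommGroup B] [Module k B] [AddCommGroup C'] [Module k C']
  [AddCommGroup D'] [Module k D'] [AddCommGroup X] [Module k X]

/-! ### `k[t] : k[B] → k[C']` -/

/-- `k[t] : k[B] → k[C']`, `[b] ↦ [t b]`. -/
noncomputable def mapFree (t : B →ₗ[k] C') : (B →₀ k) →ₗ[k] (C' →₀ k) :=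
  Finsupp.lmapDomain k k t

@[simp] theorem mapFree_single (t : B →ₗ[k] C') (b : B) (c : k) :
    mapFree t (Finsupp.single b c) = Finsupp.single (t b) c :=
  Finsupp.mapDomain_single

theorem aug_mapFree (t : B →ₗ[k] C') (x : B →₀ k) :
    aug k C' (mapFree t x) = t (aug k B x) := by
  induction x using Finsupp.induction_linear with
  | zero => simp
  | add x y hx hy => rw [map_add, map_add, hx, hy, map_add, map_add]
  | single a c => rw [mapFree_single, aug_single, aug_single, map_smul]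

theorem mapFree_freeRep {ρB : Representation k G B} {ρC : Representation k G C'}
    (t : B →ₗ[k] C') (ht : ∀ g b, t (ρB g b) = ρC g (t b)) (g : G) (x : B →₀ k) :
    mapFree t (freeRep ρB g x) = freeRep ρC g (mapFree t x) := by
  induction x using Finsupp.induction_linear with
  | zero => simp
  | add x y hx hy => rw [map_add, map_add, hx, hy, map_add, map_add]
  | single a c => rw [freeRep_single, mapFree_single, mapFree_single, freeRep_single, ht]

theorem mapFree_comp (t : C' →ₗ[k] D') (s : B →ₗ[k] C') (x : B →₀ k) :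
    mapFree (t ∘ₗ s) x = mapFree t (mapFree s x) := by
  induction x using Finsupp.induction_linear with
  | zero => simp
  | add x y hx hy => rw [map_add, map_add, hx, hy, map_add]
  | single a c => rw [mapFree_single, mapFree_single, mapFree_single, LinearMap.comp_apply]

theorem mapFree_id (x : B →₀ k) : mapFree (LinearMap.id : B →ₗ[k] B) x = x := by
  induction x using Finsupp.induction_linear with
  | zero => simp
  | add x y hx hy => rw [map_add, hx, hy]
  | single a c => rw [mapFree_single, LinearMap.id_apply]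

/-- If `t ∘ s = id` then `k[t] ∘ k[s] = id`. -/
theorem mapFree_section (t : B →ₗ[k] C') (s : C' →ₗ[k] B) (hs : ∀ x, t (s x) = x)
    (x : C' →₀ k) : mapFree t (mapFree s x) = x := by
  rw [← mapFree_comp]
  have : t ∘ₗ s = LinearMap.id := LinearMap.ext hs
  rw [this, mapFree_id]

/-! ### `Rel(t) : FreeRes29.Rel k B → FreeRes29.Rel k C'` -/

/-- The map induced on the modules of relations by a `k`-linear map. -/
noncomputable def mapRel (t : B →ₗ[k] C') : FreeRes29.Rel k B →ₗ[k] FreeRes29.Rel k C' :=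
  LinearMap.codRestrict (relSub k C') (mapFree t ∘ₗ relIncl k B) (fun z => by
    rw [mem_relSub_iff, LinearMap.comp_apply, aug_mapFree, aug_relIncl, map_zero])

@[simp] theorem relIncl_mapRel (t : B →ₗ[k] C') (z : FreeRes29.Rel k B) :
    relIncl k C' (mapRel t z) = mapFree t (relIncl k B z) := rfl

theorem mapRel_relRep {ρB : Representation k G B} {ρC : Representation k G C'}
    (t : B →ₗ[k] C') (ht : ∀ g b, t (ρB g b) = ρC g (t b)) (g : G) (z : FreeRes29.Rel k B) :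
    mapRel t (relRep ρB g z) = relRep ρC g (mapRel t z) := by
  apply relIncl_injective
  rw [relIncl_mapRel, relIncl_relRep, relIncl_relRep, relIncl_mapRel, mapFree_freeRep t ht]

theorem mapRel_comp (t : C' →ₗ[k] D') (s : B →ₗ[k] C') (z : FreeRes29.Rel k B) :
    mapRel (t ∘ₗ s) z = mapRel t (mapRel s z) := by
  apply relIncl_injective
  rw [relIncl_mapRel, relIncl_mapRel, relIncl_mapRel, mapFree_comp]

theorem mapRel_id (z : FreeRes29.Rel k B) : mapRel (LinearMap.id : B →ₗ[k] B) z = z := by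
  apply relIncl_injective
  rw [relIncl_mapRel, mapFree_id]

theorem mapRel_section (t : B →ₗ[k] C') (s : C' →ₗ[k] B) (hs : ∀ x, t (s x) = x)
    (z : FreeRes29.Rel k C') : mapRel t (mapRel s z) = z := by
  apply relIncl_injective
  rw [relIncl_mapRel, relIncl_mapRel, mapFree_section t s hs]

/-! ### Pull-back along an equivariant map -/

section Pullback

variable {ρB : Representation k G B} {ρC : Representation k G C'} (ρX : Representation k G X)
  (ψ : B →ₗ[k] C') (hψ : ∀ g b, ψ (ρB g b) = ρC g (ψ b))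

include hψ

/-- The conjugation action commutes with the pull-back along `k[ψ]`. -/
theorem ρY0_comp_mapFree (g : G) (y₀ : (C' →₀ k) →ₗ[k] X) :
    ((freeRes ρB).datum ρX).ρY0 g (y₀ ∘ₗ mapFree ψ) =
      ((freeRes ρC).datum ρX).ρY0 g y₀ ∘ₗ mapFree ψ := by
  apply LinearMap.ext
  intro x
  simp only [Res.datum_ρY0, LinearMap.comp_apply]
  change ρX g (y₀ (mapFree ψ (freeRep ρB g⁻¹ x))) = ρX g (y₀ (freeRep ρC g⁻¹ (mapFree ψ x)))
  rw [mapFree_freeRep ψ hψ]

/-- The conjugation action commutes with the pull-back along `Rel(ψ)`. -/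
theorem ρY1_comp_mapRel (g : G) (y : FreeRes29.Rel k C' →ₗ[k] X) :
    ((freeRes ρB).datum ρX).ρY1 g (y ∘ₗ mapRel ψ) =
      ((freeRes ρC).datum ρX).ρY1 g y ∘ₗ mapRel ψ := by
  apply LinearMap.ext
  intro z
  simp only [Res.datum_ρY1, LinearMap.comp_apply]
  change ρX g (y (mapRel ψ (relRep ρB g⁻¹ z))) = ρX g (y (relRep ρC g⁻¹ (mapRel ψ z)))
  rw [mapRel_relRep ψ hψ]

/-- `f` commutes with the pull-back. -/
theorem f_pullback (y₀ : (C' →₀ k) →ₗ[k] X) :
    ((freeRes ρB).datum ρX).f (y₀ ∘ₗ mapFree ψ) =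
      ((freeRes ρC).datum ρX).f y₀ ∘ₗ mapRel ψ := by
  apply LinearMap.ext
  intro z
  rfl

/-- `d⁰` commutes with the pull-back. -/
theorem dZero_pullback (y₀ : (C' →₀ k) →ₗ[k] X) (g : G) :
    dZero ((freeRes ρB).datum ρX).ρY0 (y₀ ∘ₗ mapFree ψ) g =
      dZero ((freeRes ρC).datum ρX).ρY0 y₀ g ∘ₗ mapFree ψ := by
  rw [dZero_apply, dZero_apply, ρY0_comp_mapFree ρX ψ hψ, LinearMap.sub_comp]

/-- **Pull-back of hyper-cocycles.** -/
theorem isHyperCocycle_pullback {c : G → ((C' →₀ k) →ₗ[k] X)} {y : FreeRes29.Rel k C' →ₗ[k] X}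
    (hcy : ((freeRes ρC).datum ρX).IsHyperCocycle c y) :
    ((freeRes ρB).datum ρX).IsHyperCocycle (fun g => c g ∘ₗ mapFree ψ) (y ∘ₗ mapRel ψ) := by
  refine ⟨?_, fun g => ?_⟩
  · funext q
    obtain ⟨g, h⟩ := q
    have h0 := congrFun hcy.1 (g, h)
    simp only [dOne_apply, Pi.zero_apply] at h0 ⊢
    rw [ρY0_comp_mapFree ρX ψ hψ, ← LinearMap.sub_comp, ← LinearMap.add_comp, h0,
      LinearMap.zero_comp]
  · rw [f_pullback ρX ψ hψ, hcy.2 g, LinearMap.sub_comp, ρY1_comp_mapRel ρX ψ hψ]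

theorem isLevel₁_pullback {𝒰 : Set (Subgroup G)} {c : G → ((C' →₀ k) →ₗ[k] X)}
    (hc : IsLevel₁ 𝒰 c) : IsLevel₁ 𝒰 (fun g => c g ∘ₗ mapFree ψ) :=
  hc.comp (fun φ => φ ∘ₗ mapFree ψ)

/-- **Push-forward of lifts.** -/
theorem isLift_push {a' : G → (B →₀ k)} {b : G × G → FreeRes29.Rel k B}
    (hab : ((freeRes ρB).datum ρX).IsLift a' b) :
    ((freeRes ρC).datum ρX).IsLift (⇑(mapFree ψ) ∘ a') (⇑(mapRel ψ) ∘ b) := by
  intro q
  obtain ⟨g, h⟩ := q
  have h0 := hab (g, h)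
  simp only [Res.datum_ι, Res.datum_ρF0, dOne_apply, Function.comp_apply] at h0 ⊢
  change relIncl k C' (mapRel ψ (b (g, h))) = _
  rw [relIncl_mapRel]
  change mapFree ψ (relIncl k B (b (g, h))) =
    freeRep ρC g (mapFree ψ (a' h)) - mapFree ψ (a' (g * h)) + mapFree ψ (a' g)
  have h1 : relIncl k B (b (g, h)) = freeRep ρB g (a' h) - a' (g * h) + a' g := h0
  rw [h1, map_add, map_sub, mapFree_freeRep ψ hψ]

theorem aug_comp_push (a' : G → (B →₀ k)) :
    ⇑(aug k C') ∘ (⇑(mapFree ψ) ∘ a') = ⇑ψ ∘ (⇑(aug k B) ∘ a') := by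
  funext g
  exact aug_mapFree ψ (a' g)

theorem isLevel₁_push {𝒰 : Set (Subgroup G)} {a' : G → (B →₀ k)} (ha : IsLevel₁ 𝒰 a') :
    IsLevel₁ 𝒰 (⇑(mapFree ψ) ∘ a') := ha.comp _

/-- **The pairing is compatible with pull-back / push-forward.** -/
theorem pairFun_pullback (c : G → ((C' →₀ k) →ₗ[k] X)) (y : FreeRes29.Rel k C' →ₗ[k] X)
    (a' : G → (B →₀ k)) (b : G × G → FreeRes29.Rel k B) :
    ((freeRes ρB).datum ρX).pairFun (fun g => c g ∘ₗ mapFree ψ) (y ∘ₗ mapRel ψ) a' b =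
      ((freeRes ρC).datum ρX).pairFun c y (⇑(mapFree ψ) ∘ a') (⇑(mapRel ψ) ∘ b) := by
  funext q
  obtain ⟨g, h⟩ := q
  simp only [Datum.pairFun_apply, Res.datum_ev0, Res.datum_ev1, Res.datum_ρF0,
    LinearMap.comp_apply, Function.comp_apply]
  change c g (mapFree ψ (freeRep ρB g (a' h))) + _ = c g (freeRep ρC g (mapFree ψ (a' h))) + _
  rw [mapFree_freeRep ψ hψ]

end Pullback

/-! ### Step (4c) -/

section Section

variable {ρB : Representation k G B} {ρC : Representation k G C'} (ρX : Representation k G X)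
  (ψ : B →ₗ[k] C') (hψ : ∀ g b, ψ (ρB g b) = ρC g (ψ b))
  (s : C' →ₗ[k] B) (hs : ∀ x, ψ (s x) = x)

include hψ hs

omit hψ hs in
/-- A linear map on `k[A]` killing the relations factors through the augmentation. -/
theorem exists_factor_aug {A : Type*} [AddCommGroup A] [Module k A] (w : (A →₀ k) →ₗ[k] X)
    (hw : w ∘ₗ relIncl k A = 0) : ∃ ν : A →ₗ[k] X, w = ν ∘ₗ aug k A := by
  have hmem : w ∈ LinearMap.ker (LinearMap.lcomp k X (relIncl k A)) := by
    rw [LinearMap.mem_ker]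
    exact hw
  refine ⟨(kerEquiv (X := X)).symm ⟨w, hmem⟩, ?_⟩
  have := coe_kerEquiv_apply (k := k) (A := A) (X := X) ((kerEquiv (X := X)).symm ⟨w, hmem⟩)
  rw [LinearEquiv.apply_symm_apply] at this
  exact this

/-- **Step (4c).**  Let `ψ : B → C'` be equivariant with a `k`-linear section `s`, `(c, y)` a
hyper-cocycle of `K(R_{C'}; X)` whose pull-back to `K(R_B; X)` is the hyper-coboundary of `y₀`.
Then `(c, y) = D⁰ z₀ + (φ ∘ aug, 0)` with `φ` a cocycle of `Hom(C', X)` such that `φ ∘ ψ` is the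
coboundary of some `ν ∈ Hom(B, X)`.  (`φ g` depends only on `c g` and `d⁰ z₀ g`.) -/
theorem exists_hom_of_pullback_bdry {c : G → ((C' →₀ k) →ₗ[k] X)} {y : FreeRes29.Rel k C' →ₗ[k] X}
    (hcy : ((freeRes ρC).datum ρX).IsHyperCocycle c y) (y₀ : (B →₀ k) →ₗ[k] X)
    (h1 : ∀ g, c g ∘ₗ mapFree ψ = dZero ((freeRes ρB).datum ρX).ρY0 y₀ g)
    (h2 : y ∘ₗ mapRel ψ = ((freeRes ρB).datum ρX).f y₀) :
    ∃ (z₀ : (C' →₀ k) →ₗ[k] X) (φ : G → (C' →ₗ[k] X)) (ν : B →ₗ[k] X),
      IsHomCocycle ρC ρX φ ∧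
      (∀ g, c g = dZero ((freeRes ρC).datum ρX).ρY0 z₀ g + φ g ∘ₗ aug k C') ∧
      y = ((freeRes ρC).datum ρX).f z₀ ∧
      IsHomCoboundary ρB ρX (fun g => φ g ∘ₗ ψ) ν := by
  -- the candidate `z₀`
  let z₀ : (C' →₀ k) →ₗ[k] X := y₀ ∘ₗ mapFree s
  have hA : ((freeRes ρC).datum ρX).f z₀ = y := by
    apply LinearMap.ext
    intro z
    change y₀ (mapFree s (relIncl k C' z)) = y z
    have e1 : mapFree s (relIncl k C' z) = relIncl k B (mapRel s z) := rfl
    have e2 : y₀ (relIncl k B (mapRel s z)) = (((freeRes ρB).datum ρX).f y₀) (mapRel s z) := rfl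
    rw [e1, e2, ← h2, LinearMap.comp_apply, mapRel_section ψ s hs]
  -- the difference `c' = c - d⁰ z₀` kills the relations
  let c' : G → ((C' →₀ k) →ₗ[k] X) := fun g => c g - dZero ((freeRes ρC).datum ρX).ρY0 z₀ g
  have hB : ∀ g, c' g ∘ₗ relIncl k C' = 0 := by
    intro g
    have e1 : ((freeRes ρC).datum ρX).f (c g) = ((freeRes ρC).datum ρX).ρY1 g y - y := hcy.2 g
    have e2 : ((freeRes ρC).datum ρX).f (dZero ((freeRes ρC).datum ρX).ρY0 z₀ g) =
        ((freeRes ρC).datum ρX).ρY1 g y - y := by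
      rw [dZero_apply, map_sub, ((freeRes ρC).datum ρX).f_comm, hA]
    have e3 : ((freeRes ρC).datum ρX).f (c' g) = 0 := by
      change ((freeRes ρC).datum ρX).f (c g - dZero ((freeRes ρC).datum ρX).ρY0 z₀ g) = 0
      rw [map_sub, e1, e2, sub_self]
    exact e3
  choose φ hφ using fun g => exists_factor_aug (c' g) (hB g)
  have hc'coc : dOne ((freeRes ρC).datum ρX).ρY0 c' = 0 := by
    have e : c' = c - dZero ((freeRes ρC).datum ρX).ρY0 z₀ := rfl
    rw [e, map_sub, hcy.1, dOne_dZero, sub_zero]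
  -- `w = y₀ - z₀ ∘ k[ψ]` kills the relations of `B`
  let w : (B →₀ k) →ₗ[k] X := y₀ - z₀ ∘ₗ mapFree ψ
  have hw : w ∘ₗ relIncl k B = 0 := by
    apply LinearMap.ext
    intro z
    change y₀ (relIncl k B z) - z₀ (mapFree ψ (relIncl k B z)) = 0
    have e1 : y₀ (relIncl k B z) = y (mapRel ψ z) := (LinearMap.congr_fun h2 z).symm
    have e2 : z₀ (mapFree ψ (relIncl k B z)) = y (mapRel ψ z) :=
      LinearMap.congr_fun hA (mapRel ψ z)
    rw [e1, e2, sub_self]
  obtain ⟨ν, hν⟩ := exists_factor_aug w hw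
  refine ⟨z₀, φ, ν, ?_, ?_, hA.symm, ?_⟩
  · -- `φ` is a cocycle
    intro g h m
    obtain ⟨x, rfl⟩ := aug_surjective (k := k) m
    have e := LinearMap.congr_fun (((freeRes ρC).datum ρX).cocycle_mul hc'coc g h) x
    rw [LinearMap.add_apply, Res.datum_ρY0] at e
    simp only [LinearMap.comp_apply] at e
    rw [hφ (g * h), hφ h, hφ g] at e
    simp only [LinearMap.comp_apply] at e
    have e4 : aug k C' ((freeRes ρC).ρ0 g⁻¹ x) = ρC g⁻¹ (aug k C' x) := aug_freeRep ρC g⁻¹ x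
    rw [e4] at e
    exact e
  · intro g
    rw [← hφ g]
    change c g = dZero ((freeRes ρC).datum ρX).ρY0 z₀ g +
      (c g - dZero ((freeRes ρC).datum ρX).ρY0 z₀ g)
    abel
  · -- `φ ∘ ψ` is the coboundary of `ν`
    intro g m
    obtain ⟨x, rfl⟩ := aug_surjective (k := k) m
    have e1 : φ g (ψ (aug k B x)) = c' g (mapFree ψ x) := by
      rw [hφ g, LinearMap.comp_apply, aug_mapFree]
    have e2 : c' g ∘ₗ mapFree ψ = dZero ((freeRes ρB).datum ρX).ρY0 w g := by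
      have e : c' g ∘ₗ mapFree ψ =
          c g ∘ₗ mapFree ψ - dZero ((freeRes ρC).datum ρX).ρY0 z₀ g ∘ₗ mapFree ψ :=
        LinearMap.sub_comp _ _ _
      rw [e, h1 g, ← dZero_pullback ρX ψ hψ z₀ g]
      change _ = dZero ((freeRes ρB).datum ρX).ρY0 (y₀ - z₀ ∘ₗ mapFree ψ) g
      rw [map_sub, Pi.sub_apply]
    have e3 : c' g (mapFree ψ x) = dZero ((freeRes ρB).datum ρX).ρY0 w g x :=
      LinearMap.congr_fun e2 x
    change φ g (ψ (aug k B x)) = _
    rw [e1, e3, dZero_apply, LinearMap.sub_apply, Res.datum_ρY0, hν]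
    simp only [LinearMap.comp_apply]
    have e4 : aug k B ((freeRes ρB).ρ0 g⁻¹ x) = ρB g⁻¹ (aug k B x) := aug_freeRep ρB g⁻¹ x
    rw [e4]

omit hψ hs in
/-- In a decomposition `c = d⁰ z₀ + φ ∘ aug`, the cocycle `φ` is level if `c` and `d⁰ z₀` are. -/
theorem isLevel₁_of_decomp {𝒰 : Set (Subgroup G)} (h𝒰 : IsLevelBasis 𝒰)
    {c : G → ((C' →₀ k) →ₗ[k] X)} {z₀ : (C' →₀ k) →ₗ[k] X} {φ : G → (C' →ₗ[k] X)}
    (hdec : ∀ g, c g = dZero ((freeRes ρC).datum ρX).ρY0 z₀ g + φ g ∘ₗ aug k C')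
    (hc : IsLevel₁ 𝒰 c) (hz : IsLevel₁ 𝒰 (dZero ((freeRes ρC).datum ρX).ρY0 z₀)) :
    IsLevel₁ 𝒰 φ := by
  obtain ⟨U, hU, hcU⟩ := hc
  obtain ⟨U', hU', hzU⟩ := hz
  obtain ⟨W, hW, hWle⟩ := h𝒰.inf U hU U' hU'
  refine ⟨W, hW, fun g t ht => ?_⟩
  have h1 := hdec (g * t)
  rw [hcU g t (hWle ht).1, hzU g t (hWle ht).2, hdec g] at h1
  have h2 : φ g ∘ₗ aug k C' = φ (g * t) ∘ₗ aug k C' := add_left_cancel h1
  apply LinearMap.ext
  intro m
  obtain ⟨x, rfl⟩ := aug_surjective (k := k) m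
  exact (LinearMap.congr_fun h2 x).symm

omit hψ hs in
/-- The pairing of a decomposed hyper-cocycle `(c, y) = D⁰ z₀ + (φ ∘ aug, 0)` with a lift is, up
to the coboundary of `g ↦ z₀ (a' g)`, the cup product of `φ` with the lifted cocycle. -/
theorem pairFun_of_decomp {c : G → ((C' →₀ k) →ₗ[k] X)} {y : FreeRes29.Rel k C' →ₗ[k] X}
    {z₀ : (C' →₀ k) →ₗ[k] X} {φ : G → (C' →ₗ[k] X)}
    (hdec : ∀ g, c g = dZero ((freeRes ρC).datum ρX).ρY0 z₀ g + φ g ∘ₗ aug k C')
    (hy : y = ((freeRes ρC).datum ρX).f z₀) {a' : G → (C' →₀ k)} {b : G × G → FreeRes29.Rel k C'}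
    (hab : ((freeRes ρC).datum ρX).IsLift a' b) :
    ((freeRes ρC).datum ρX).pairFun c y a' b =
      dOne ρX (fun g => z₀ (a' g)) + cupFun ρC φ (⇑(aug k C') ∘ a') := by
  have hc : c = dZero ((freeRes ρC).datum ρX).ρY0 z₀ + fun g => φ g ∘ₗ aug k C' := by
    funext g
    exact hdec g
  have hy' : y = ((freeRes ρC).datum ρX).f z₀ + 0 := by rw [add_zero]; exact hy
  rw [hc, hy', Datum.pairFun_add_left, Datum.pairFun_bdry_left _ z₀ hab]
  have h3 : ((freeRes ρC).datum ρX).pairFun (fun g => φ g ∘ₗ aug k C') 0 a' b =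
      cupFun ρC φ (⇑(aug k C') ∘ a') := pairFun_of_hom (freeRes ρC) ρX φ a' b
  rw [h3]
  rfl

/-- **Step (4c), with levels.** -/
theorem exists_hom_of_pullback_bdry_level {𝒰 : Set (Subgroup G)} (h𝒰 : IsLevelBasis 𝒰)
    (hY0 : IsDiscrete 𝒰 ((freeRes ρC).datum ρX).ρY0)
    {c : G → ((C' →₀ k) →ₗ[k] X)} {y : FreeRes29.Rel k C' →ₗ[k] X}
    (hcy : ((freeRes ρC).datum ρX).IsHyperCocycle c y) (hc : IsLevel₁ 𝒰 c)
    (y₀ : (B →₀ k) →ₗ[k] X)
    (h1 : ∀ g, c g ∘ₗ mapFree ψ = dZero ((freeRes ρB).datum ρX).ρY0 y₀ g)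
    (h2 : y ∘ₗ mapRel ψ = ((freeRes ρB).datum ρX).f y₀) :
    ∃ (z₀ : (C' →₀ k) →ₗ[k] X) (φ : G → (C' →ₗ[k] X)) (ν : B →ₗ[k] X),
      IsHomCocycle ρC ρX φ ∧ IsLevel₁ 𝒰 φ ∧
      (∀ g, c g = dZero ((freeRes ρC).datum ρX).ρY0 z₀ g + φ g ∘ₗ aug k C') ∧
      y = ((freeRes ρC).datum ρX).f z₀ ∧
      IsHomCoboundary ρB ρX (fun g => φ g ∘ₗ ψ) ν := by
  obtain ⟨z₀, φ, ν, hφ, hdec, hy, hν⟩ := exists_hom_of_pullback_bdry ρX ψ hψ s hs hcy y₀ h1 h2
  exact ⟨z₀, φ, ν, hφ, isLevel₁_of_decomp ρX h𝒰 hdec hc (isLevel₁_dZero hY0 z₀), hdec, hy, hν⟩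

end Section

end Fermat.Agent.TW.GlobalEC.FreeResFunct5
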