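/-
TW / WP4 (global Euler characteristic), brick EC3PT, item `HasInv`, abstract part (helper59).

`SpecD26.HasInv 𝓑 C p` (an additive invariant on the level 2-cocycles of `C` killed by `p` in
cohomology, vanishing exactly on the level coboundaries) from an injective additive map
`τ : H²_lev(G; C)[p] →+ ℤ/p` in the vocabulary of the Poitou–Tate library
(`Resolved4.Hlev2`, `InvP4.pTor`): `inv z := τ [z]`.
-/
import Mathlib
import Fermat.Agent.PT.PRO.InvP4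
import Fermat.Agent.PT.PRO.LevelCompare13
import Fermat.Agent.TW.GlobalEC.SpecD26

set_option autoImplicit false
set_option linter.unusedSectionVars false

namespace Fermat.Agent.TW.GlobalEC.HasInvAbs59

open Fermat.Agent.PT.PRO Fermat.Agent.PT.PRO.HyperLevel25 Fermat.Agent.PT.PRO.Resolved4
open Fermat.Agent.PT.PRO.InvP4
open Fermat.Agent.TW.GlobalEC.SpecD26

variable {k : Type} [CommRing k] {G : Type} [Group G]

section

variable (𝓑 : LevelCoh28.LevelBasis G) (C : Rep.{0} k G) (p : ℕ)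
  (h𝒰 : HyperLevel25.IsLevelBasis 𝓑.sets) (hC : HyperLevel25.IsDiscrete 𝓑.sets C.ρ)

theorem isLevel₂_of_isPCocycle₂ {z : G × G → C} (hz : IsPCocycle₂ 𝓑 C p z) :
    HyperLevel25.IsLevel₂ 𝓑.sets z :=
  (LevelCompare13.isLevel₂_iff z).1 hz.1.2

theorem dTwo_of_isPCocycle₂ {z : G × G → C} (hz : IsPCocycle₂ 𝓑 C p z) :
    HyperLevel25.dTwo C.ρ z = 0 :=
  (LevelCompare13.mem_cocycles₂_iff C z).1 hz.1.1

/-- Membership in `LevelCoh28.B2`, in the vocabulary of `HyperLevel25`. -/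
theorem mem_B2_iff' (z : G × G → C) :
    z ∈ LevelCoh28.B2 𝓑 C ↔ ∃ b : G → C, HyperLevel25.IsLevel₁ 𝓑.sets b ∧
      HyperLevel25.dOne C.ρ b = z := by
  rw [LevelCoh28.mem_B2_iff]
  constructor
  · rintro ⟨b, hb, rfl⟩
    exact ⟨b, hb, LevelCompare13.dOne_eq C b⟩
  · rintro ⟨b, hb, rfl⟩
    exact ⟨b, hb, (LevelCompare13.dOne_eq C b).symm⟩

/-- The class in `H²_lev(C)[p]` of a level 2-cocycle killed by `p` in cohomology. -/
noncomputable def cls (z : G × G → C) (hz : IsPCocycle₂ 𝓑 C p z) :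
    pTor p (Hlev2 h𝒰 C.ρ hC) :=
  ⟨(lvl h𝒰 C.ρ hC).π2 (mkZ2 h𝒰 C.ρ hC z (isLevel₂_of_isPCocycle₂ 𝓑 C p hz)
      (dTwo_of_isPCocycle₂ 𝓑 C p hz)), by
    rw [mem_pTor, ← map_nsmul, π2_lvl_eq_zero_iff]
    obtain ⟨b, hb, hdb⟩ := (mem_B2_iff' 𝓑 C _).1 hz.2
    exact ⟨b, hb, hdb⟩⟩

theorem cls_add (z z' : G × G → C) (hz : IsPCocycle₂ 𝓑 C p z) (hz' : IsPCocycle₂ 𝓑 C p z')
    (hzz' : IsPCocycle₂ 𝓑 C p (z + z')) :
    cls 𝓑 C p h𝒰 hC (z + z') hzz' = cls 𝓑 C p h𝒰 hC z hz + cls 𝓑 C p h𝒰 hC z' hz' := by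
  apply Subtype.ext
  change (lvl h𝒰 C.ρ hC).π2 _ = (lvl h𝒰 C.ρ hC).π2 _ + (lvl h𝒰 C.ρ hC).π2 _
  rw [← map_add]
  rfl

theorem cls_eq_zero_iff (z : G × G → C) (hz : IsPCocycle₂ 𝓑 C p z) :
    cls 𝓑 C p h𝒰 hC z hz = 0 ↔ z ∈ LevelCoh28.B2 𝓑 C := by
  rw [Subtype.ext_iff, mem_B2_iff']
  change (lvl h𝒰 C.ρ hC).π2 _ = 0 ↔ _
  rw [π2_lvl_eq_zero_iff]
  rfl

theorem isPCocycle₂_add {z z' : G × G → C} (hz : IsPCocycle₂ 𝓑 C p z)
    (hz' : IsPCocycle₂ 𝓑 C p z') : IsPCocycle₂ 𝓑 C p (z + z') := by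
  refine ⟨(LevelCoh28.Z2 𝓑 C).add_mem hz.1 hz'.1, ?_⟩
  rw [smul_add]
  exact (LevelCoh28.B2 𝓑 C).add_mem hz.2 hz'.2

/-- **`HasInv` from an injective invariant map on `H²_lev(C)[p]`.** -/
theorem hasInv_of_tau (τ : pTor p (Hlev2 h𝒰 C.ρ hC) →+ ZMod p) (hτ : Function.Injective τ) :
    HasInv 𝓑 C p := by
  classical
  refine ⟨fun z => if hz : IsPCocycle₂ 𝓑 C p z then τ (cls 𝓑 C p h𝒰 hC z hz) else 0, ?_, ?_⟩
  · intro z z' hz hz'
    have hzz' := isPCocycle₂_add 𝓑 C p hz hz'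
    simp only [dif_pos hz, dif_pos hz', dif_pos hzz']
    rw [cls_add 𝓑 C p h𝒰 hC z z' hz hz' hzz', map_add]
  · intro z hz
    simp only [dif_pos hz]
    rw [← cls_eq_zero_iff 𝓑 C p h𝒰 hC z hz]
    constructor
    · intro h
      apply hτ
      rw [h, map_zero]
    · intro h
      rw [h, map_zero]

end

end Fermat.Agent.TW.GlobalEC.HasInvAbs59
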