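/-
TW / WP4 (global Euler characteristic), brick EC3PT, item `HasInv` (helper59): for an odd prime
`p ∈ S` the module `C_S` of `G_S = (Γ, levelS S)` has an invariant map,

  `hasInv_CS : SpecD26.HasInv (levelS S) (CS S) p`,

from the fundamental classes at the finite levels (`FundLevelFinal2.fundFixed_CS`, unconditional)
through `InvFund18.exists_inv_of_isFundClass` and `HasInvAbs59.hasInv_of_tau`.
-/
import Mathlib
import Fermat.Agent.PT.PRO.InvFund18
import Fermat.Agent.PT.GLUE.FundLevelFinal2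
import Fermat.Agent.TW.GlobalEC.HasInvAbs59

set_option autoImplicit false
set_option linter.unusedSectionVars false

namespace Fermat.Agent.TW.GlobalEC.HasInv59

open Fermat.Agent.PT.PRO Fermat.Agent.PT.GLUE.Objects21
open Fermat.Agent.TW.GlobalEC.SpecD26 Fermat.Agent.TW.GlobalEC.HasInvAbs59

variable {S : Finset Nat.Primes}

/-- **The invariant map of `C_S`** (`p` odd, `p ∈ S`). -/
theorem hasInv_CS (p : ℕ) [hp : Fact p.Prime] (hp2 : p ≠ 2)
    (hpS : (⟨p, hp.out⟩ : Nat.Primes) ∈ S) : HasInv (levelS S) (CS S) p := by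
  have h𝒰 : HyperLevel25.IsLevelBasis (levelS S).sets :=
    LevelCompare13.isLevelBasis_iff.1 (levelS S).isBasis
  have hC : HyperLevel25.IsDiscrete (levelS S).sets (CS S).ρ := isDiscrete_CS S
  obtain ⟨τ, hτ⟩ := InvFund18.exists_inv_of_isFundClass (CS S).ρ h𝒰 hC
    (Fermat.Agent.PT.GLUE.FundLevelFinal2.fundFixed_CS p hp2 hpS)
  exact hasInv_of_tau (levelS S) (CS S) p h𝒰 hC τ hτ

end Fermat.Agent.TW.GlobalEC.HasInv59
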