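/-
TW / WP4 (global Euler characteristic), brick EC3PT, item `HyperDuality` (helper59), generic part.

For a resolution `R : Res k G P1 P0 M` with `P₀`, `P₁` finitely generated, `P₀` and `C` discrete:

  `HypPFund18.HypPDatum R ρC 𝒰 ℱ p`  ⟹  `SpecD26.LKDatum R ρC 𝒰 ∧ SpecD26.RKDatum R ρC 𝒰`

(`GlobalDuality20b.left_kernel / right_kernel` for the datum `R.datum ρC`, whose conclusions are
`LKDatum / RKDatum` verbatim; the discreteness of `Hom(P_i, C)` is `Resolved4.isDiscrete_linHom`).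
Everything is stated for a generic commutative ring `k`, so that at `k = ℤ` the module instances
on `P_i →ₗ[k] C` are the structural ones.
-/
import Mathlib
import Fermat.Agent.PT.PRO.HypPFund18
import Fermat.Agent.PT.PRO.Setup20
import Fermat.Agent.TW.GlobalEC.SpecD26

set_option autoImplicit false
set_option linter.unusedSectionVars false

namespace Fermat.Agent.TW.GlobalEC.HyperDualityAbs59

open Fermat.Agent.PT.PRO Fermat.Agent.PT.PRO.IndRes20 Fermat.Agent.PT.PRO.HyperLevel25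
open Fermat.Agent.TW.GlobalEC.SpecD26

variable {k : Type*} [CommRing k] {G : Type*} [Group G]
variable {P1 P0 M C : Type*} [AddCommGroup P1] [Module k P1] [AddCommGroup P0] [Module k P0]
  [AddCommGroup M] [Module k M] [AddCommGroup C] [Module k C]
  [Module.Finite k P0] [Module.Finite k P1]

/-- `P₁` is discrete when `P₀` is. -/
theorem isDiscrete_ρ1 (R : Res k G P1 P0 M) {𝒰 : Set (Subgroup G)} (h0 : IsDiscrete 𝒰 R.ρ0) :
    IsDiscrete 𝒰 R.ρ1 := by
  intro x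
  obtain ⟨U, hU, h⟩ := h0 (R.ι x)
  exact ⟨U, hU, fun s hs => R.ι_inj (by rw [R.ι_comm, h s hs])⟩

/-- **Left kernel** for `K(P; C)` from the finite-level hypotheses. -/
theorem lkDatum_of_hypPDatum (R : Res k G P1 P0 M) (ρC : Representation k G C)
    {𝒰 ℱ : Set (Subgroup G)} {p : ℕ} (h𝒰 : IsLevelBasis 𝒰) (h0 : IsDiscrete 𝒰 R.ρ0)
    (hC : IsDiscrete 𝒰 ρC) (H : HypPFund18.HypPDatum R ρC 𝒰 ℱ p) : LKDatum R ρC 𝒰 := by
  intro c y hcy hc hpair
  exact GlobalDuality20b.left_kernel (D := R.datum ρC) h𝒰 H.hypP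
    (Resolved4.isDiscrete_linHom h𝒰 h0 hC)
    (Resolved4.isDiscrete_linHom h𝒰 (isDiscrete_ρ1 R h0) hC) hcy hc hpair

/-- **Right kernel** for `K(P; C)` from the finite-level hypotheses. -/
theorem rkDatum_of_hypPDatum (R : Res k G P1 P0 M) (ρC : Representation k G C)
    {𝒰 ℱ : Set (Subgroup G)} {p : ℕ} (h𝒰 : IsLevelBasis 𝒰) (h0 : IsDiscrete 𝒰 R.ρ0)
    (H : HypPFund18.HypPDatum R ρC 𝒰 ℱ p) : RKDatum R ρC 𝒰 := by
  intro a' b hab ha hpair
  exact GlobalDuality20b.right_kernel (D := R.datum ρC) h𝒰 H.hypP h0 hab ha hpair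

/-- Both kernels. -/
theorem kernels_of_hypPDatum (R : Res k G P1 P0 M) (ρC : Representation k G C)
    {𝒰 ℱ : Set (Subgroup G)} {p : ℕ} (h𝒰 : IsLevelBasis 𝒰) (h0 : IsDiscrete 𝒰 R.ρ0)
    (hC : IsDiscrete 𝒰 ρC) (H : HypPFund18.HypPDatum R ρC 𝒰 ℱ p) :
    LKDatum R ρC 𝒰 ∧ RKDatum R ρC 𝒰 :=
  ⟨lkDatum_of_hypPDatum R ρC h𝒰 h0 hC H, rkDatum_of_hypPDatum R ρC h𝒰 h0 H⟩

end Fermat.Agent.TW.GlobalEC.HyperDualityAbs59
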