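/-
TW / WP4 (global Euler characteristic), brick EC3PT, item `HyperDuality` (helper59): for an odd
prime `p ∈ S` the module `C_S` of `G_S = (Γ, levelS S)` satisfies hyper-duality,

  `hyperDuality_CS : SpecD26.HyperDuality (levelS S) (CS S) p`,

i.e. the left and right kernel statements of the Poitou–Tate pairing for the datum `K(P; C_S)` of
EVERY resolution `0 → P₁ → P₀ → M → 0` (`P_i` finite free over `ℤ`, `P₀` discrete, `p M = 0`).
Inputs (all unconditional): the fundamental classes at the finite levels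
(`FundLevelFinal2.fundFixed_CS`), (GEXnorm) (`GexNormFinal15.gexNormLevel`), assembled by
`GlobalHypP8.hypPDatum_level` into `HypPDatum R (CS S).ρ (levelS S).sets (trivFam R _) p`, then
`HyperDualityAbs59.kernels_of_hypPDatum`.  Also exported: the `HypPDatum` itself
(`hypPDatum_CS`), for consumers that prefer the PT shape.
-/
import Mathlib
import Fermat.Agent.PT.PRO.GlobalHypP8
import Fermat.Agent.PT.PRO.LevelCompare13
import Fermat.Agent.PT.GLUE.FundLevelFinal2
import Fermat.Agent.PT.GLUE.GexNormFinal15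
import Fermat.Agent.TW.GlobalEC.HyperDualityAbs59

set_option autoImplicit false
set_option linter.unusedSectionVars false

namespace Fermat.Agent.TW.GlobalEC.HyperDualityCS59

open Fermat.Agent.PT.PRO Fermat.Agent.PT.PRO.IndRes20 Fermat.Agent.PT.GLUE.Objects21
open Fermat.Agent.TW.GlobalEC.SpecD26 Fermat.Agent.TW.GlobalEC.HyperDualityAbs59

local notation "Γ" => (AlgebraicClosure ℚ ≃ₐ[ℚ] AlgebraicClosure ℚ)

variable {S : Finset Nat.Primes}

/-- The level basis of `G_S`, in `HyperLevel25` vocabulary. -/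
theorem isLevelBasis_levelS (S : Finset Nat.Primes) :
    HyperLevel25.IsLevelBasis (levelS S).sets :=
  LevelCompare13.isLevelBasis_iff.1 (levelS S).isBasis

section Datum

variable {P1 P0 M : Type} [AddCommGroup P1] [Module ℤ P1] [AddCommGroup P0] [Module ℤ P0]
  [AddCommGroup M] [Module ℤ M] [Module.Free ℤ P0] [Module.Finite ℤ P0] [Module.Free ℤ P1]
  [Module.Finite ℤ P1]

/-- **The finite-level hypotheses `HypP` for `K(P; C_S)`**, for every resolution by finite free
`ℤ`-modules with discrete `P₀` of a module killed by `p` (`p` odd, `p ∈ S`). -/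
theorem hypPDatum_CS (p : ℕ) [hp : Fact p.Prime] (hp2 : p ≠ 2)
    (hpS : (⟨p, hp.out⟩ : Nat.Primes) ∈ S) (R : Res ℤ Γ P1 P0 M)
    (h0 : HyperLevel25.IsDiscrete (levelS S).sets R.ρ0) (hpM : ∀ m : M, p • m = 0) :
    HypPFund18.HypPDatum R (CS S).ρ (levelS S).sets (GlobalHypP8.trivFam R (levelS S).sets) p :=
  GlobalHypP8.hypPDatum_level R (CS S).ρ (isLevelBasis_levelS S) hpM (isDiscrete_CS S) h0
    (Fermat.Agent.PT.GLUE.FundLevelFinal2.fundFixed_CS p hp2 hpS)
    (Fermat.Agent.PT.GLUE.GexNormFinal15.gexNormLevel hp.out hp2 hpS)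

end Datum

/-- **Hyper-duality for `C_S`** (`p` odd, `p ∈ S`). -/
theorem hyperDuality_CS (p : ℕ) [hp : Fact p.Prime] (hp2 : p ≠ 2)
    (hpS : (⟨p, hp.out⟩ : Nat.Primes) ∈ S) : HyperDuality (levelS S) (CS S) p := by
  intro P1 P0 M _ _ _ _ _ _ _ _ _ _ R h0 hpM
  exact kernels_of_hypPDatum R (CS S).ρ (isLevelBasis_levelS S) h0 (isDiscrete_CS S)
    (hypPDatum_CS p hp2 hpS R h0 hpM)

end Fermat.Agent.TW.GlobalEC.HyperDualityCS59
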