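/-
Program TW (S56), WP4 "EC", brick EC3K step (4a), helper26: the Poitou–Tate pairing on
`{level hyper-cocycles of K(P; C)} × {lifted cocycles}` for an ARBITRARY resolution
`R : 0 → P₁ → P₀ → M → 0` (generic coefficient ring `k`, bundled `C : Rep k G`), and the
SURJECTIVITY of `ℍ¹(K(P; C)) → Hom(H¹_lev(M), ℤ/p)`.

This generalises helper3's `HyperPair3` (hyper-cocycles `(0, w)`) to all level hyper-cocycles
`(c, y)`, so that no "Shapiro property" of the resolution is needed.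

* `hypSub 𝓑 C R`    : the level hyper-cocycles `(c, y)`;
* `isPCocycle₂_pairFun` : `pairFun c y a' b` is a level 2-cocycle of `C` and `p` times it is a level
                       coboundary (`p M = 0`);
* `gamma`           : `((c, y), (a', b)) ↦ inv (pairFun c y a' b)`, biadditive;
* `gamma_right`     : RIGHT kernel `= {(a', b) | π ∘ a' is a coboundary}`      (from `RKDatum`);
* `exists_hyp_eq`   : for a surjection `q` from the lifted cocycles onto a finite group `W` whose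
                       kernel consists of the lifts of coboundaries (i.e. `W = H¹_lev(M)`), every
                       `lam : W →+ ℤ/p` is `l ↦ gamma h l` for some level hyper-cocycle `h`.
-/
import Mathlib
import Fermat.Agent.PT.PRO.GlobalDuality20
import Fermat.Agent.PT.PRO.Setup20
import Fermat.Agent.PT.PRO.PerfectPairing29
import Fermat.Agent.TW.GlobalEC.HyperPair3

set_option autoImplicit false
set_option linter.unusedSectionVars false

namespace Fermat.Agent.TW.GlobalEC.HyperPairGen26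

open Fermat.Agent.PT.PRO Fermat.Agent.PT.PRO.IndRes20 Fermat.Agent.PT.PRO.Pairing20
open Fermat.Agent.PT.PRO.GlobalDuality20
open Fermat.Agent.TW.GlobalEC.SpecD26 Fermat.Agent.TW.GlobalEC.HyperPair3

noncomputable section

variable {k : Type} [CommRing k] {G : Type} [Group G]
variable {P1 P0 M : Type} [AddCommGroup P1] [Module k P1] [AddCommGroup P0] [Module k P0]
  [AddCommGroup M] [Module k M]
variable (p : ℕ) (𝓑 : LevelCoh28.LevelBasis G) (C : Rep.{0} k G) (R : Res k G P1 P0 M)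

/-! ### Level hyper-cocycles -/

theorem isHyperCocycle_neg {c : G → (P0 →ₗ[k] C)} {y : P1 →ₗ[k] C}
    (h : (R.datum C.ρ).IsHyperCocycle c y) : (R.datum C.ρ).IsHyperCocycle (-c) (-y) := by
  refine ⟨by rw [map_neg, h.1, neg_zero], fun g => ?_⟩
  rw [Pi.neg_apply, map_neg, map_neg, h.2 g]
  abel

theorem isHyperCocycle_zero' : (R.datum C.ρ).IsHyperCocycle 0 0 := by
  refine ⟨map_zero _, fun g => ?_⟩
  rw [Pi.zero_apply, map_zero, map_zero, sub_zero]

/-- The level hyper-1-cocycles `(c, y)` of `K(P; C)`. -/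
def hypSub : AddSubgroup ((G → (P0 →ₗ[k] C)) × (P1 →ₗ[k] C)) where
  carrier := {h | (R.datum C.ρ).IsHyperCocycle h.1 h.2 ∧ HyperLevel25.IsLevel₁ 𝓑.sets h.1}
  zero_mem' := ⟨isHyperCocycle_zero' C R, (basis' 𝓑).isLevel₁_const 0⟩
  add_mem' := by
    rintro h h' ⟨h1, h2⟩ ⟨h1', h2'⟩
    exact ⟨h1.add _ h1', (basis' 𝓑).isLevel₁_add h2 h2'⟩
  neg_mem' := by
    rintro h ⟨h1, h2⟩
    exact ⟨isHyperCocycle_neg C R h1, HyperLevel25.IsLevel₁.comp h2 (fun x => -x)⟩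

theorem mem_hypSub (h : (G → (P0 →ₗ[k] C)) × (P1 →ₗ[k] C)) :
    h ∈ hypSub 𝓑 C R ↔ (R.datum C.ρ).IsHyperCocycle h.1 h.2 ∧
      HyperLevel25.IsLevel₁ 𝓑.sets h.1 := Iff.rfl

/-! ### The pairing values are `p`-cocycles -/

section Values

variable [Module.Finite k P0] [Module.Finite k P1]

/-- `pairFun c y a' b` is a level 2-cocycle. -/
theorem pairFun_mem_Z2 (h0 : HyperLevel25.IsDiscrete 𝓑.sets R.ρ0)
    (hC : LevelCoh28.IsDiscrete 𝓑.sets C) {h : (G → (P0 →ₗ[k] C)) × (P1 →ₗ[k] C)}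
    (hh : h ∈ hypSub 𝓑 C R) {l : (G → P0) × (G × G → P1)} (hl : l ∈ liftSub 𝓑 R) :
    (R.datum C.ρ).pairFun h.1 h.2 l.1 l.2 ∈ LevelCoh28.Z2 𝓑 C := by
  refine ⟨(LevelCompare13.mem_cocycles₂_iff C _).2 ?_, (LevelCompare13.isLevel₂_iff _).2 ?_⟩
  · exact (R.datum C.ρ).dTwo_pairFun hh.1 hl.1
  · have h𝒰 := basis' 𝓑
    have hC' : HyperLevel25.IsDiscrete 𝓑.sets C.ρ := hC
    have hY0 : HyperLevel25.IsDiscrete 𝓑.sets (R.datum C.ρ).ρY0 :=
      Resolved4.isDiscrete_linHom h𝒰 h0 hC'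
    have hY1 : HyperLevel25.IsDiscrete 𝓑.sets (R.datum C.ρ).ρY1 :=
      Resolved4.isDiscrete_linHom h𝒰 (Setup20.toResolved R h0).disc1 hC'
    obtain ⟨W1, hW1, -, hc1, hc2⟩ := h𝒰.exists_normal_fixing hY0 hh.2
    obtain ⟨W2, hW2, -, ha1, ha2⟩ := h𝒰.exists_normal_fixing h0 hl.2
    obtain ⟨U1, hU1, hy⟩ := hY1 h.2
    obtain ⟨W3, hW3, hW3le⟩ := h𝒰.inf W1 hW1 W2 hW2
    obtain ⟨W4, hW4, hW4le⟩ := h𝒰.inf W3 hW3 U1 hU1
    obtain ⟨V, hV, hVle, hVn⟩ := h𝒰.normal W4 hW4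
    have hVW1 : V ≤ W1 := hVle.trans (hW4le.trans (inf_le_left.trans (hW3le.trans inf_le_left)))
    have hVW2 : V ≤ W2 := hVle.trans (hW4le.trans (inf_le_left.trans (hW3le.trans inf_le_right)))
    have hVU1 : V ≤ U1 := hVle.trans (hW4le.trans inf_le_right)
    have hcy : IsHyperAt (R.datum C.ρ) V h.1 h.2 :=
      ⟨hh.1, ⟨fun g s hs => hc1 g s (hVW1 hs), fun g s hs => hc2 g s (hVW1 hs)⟩,
        fun s hs => hy s (hVU1 hs)⟩
    have haV : IsLevelAt₁ (R.datum C.ρ).ρF0 V l.1 :=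
      ⟨fun g s hs => ha1 g s (hVW2 hs), fun g s hs => ha2 g s (hVW2 hs)⟩
    have hab : IsLiftAt (R.datum C.ρ) V l.1 l.2 :=
      ⟨hl.1, haV, isLevelAt₂_of_isLift hVn hl.1 haV⟩
    exact (isLevelAt₂_pairFun (R.datum C.ρ) hVn hcy hab).isLevel₂ hV

/-- `p • pairFun c y a' b` is a level coboundary (`M` is killed by `p`). -/
theorem smul_pairFun_mem_B2 (hpM : ∀ m : M, p • m = 0)
    {h : (G → (P0 →ₗ[k] C)) × (P1 →ₗ[k] C)} (hh : h ∈ hypSub 𝓑 C R)
    {l : (G → P0) × (G × G → P1)} (hl : l ∈ liftSub 𝓑 R) :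
    p • (R.datum C.ρ).pairFun h.1 h.2 l.1 l.2 ∈ LevelCoh28.B2 𝓑 C := by
  have hex : ∀ x : P0, ∃ z : P1, R.ι z = p • x := fun x =>
    (R.exact (p • x)).1 (by rw [map_nsmul, hpM])
  choose hf hhf using hex
  have ht1 : (p • l.1 : G → P0) = ⇑(R.datum C.ρ).ι ∘ (fun g => hf (l.1 g)) := by
    funext g
    show p • l.1 g = R.ι (hf (l.1 g))
    rw [hhf]
  have ht2 : (p • l.2 : G × G → P1) =
      HyperLevel25.dOne (R.datum C.ρ).ρF1 (fun g => hf (l.1 g)) := by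
    funext ⟨g, h'⟩
    apply R.ι_inj
    show R.ι (p • l.2 (g, h')) = R.ι (HyperLevel25.dOne R.ρ1 (fun g => hf (l.1 g)) (g, h'))
    rw [HyperLevel25.dOne_apply, map_add, map_sub, R.ι_comm, hhf, hhf, hhf,
      map_nsmul (R.ρ0 g), map_nsmul R.ι, hl.1, HyperLevel25.dOne_apply, smul_add, smul_sub]
  have key : p • (R.datum C.ρ).pairFun h.1 h.2 l.1 l.2 =
      (R.datum C.ρ).pairFun h.1 h.2 (p • l.1) (p • l.2) := by
    funext ⟨g, h'⟩
    simp only [Pi.smul_apply, Datum.pairFun_apply, smul_add, map_nsmul]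
  rw [key, ht1, ht2, Datum.pairFun_ι _ hh.1, LevelCoh28.mem_B2_iff]
  refine ⟨fun g => (R.datum C.ρ).ev1 h.2 (hf (l.1 g)),
    (LevelCompare13.isLevel₁_iff _).2
      (HyperLevel25.IsLevel₁.comp hl.2 (fun x => (R.datum C.ρ).ev1 h.2 (hf x))), ?_⟩
  rw [← LevelCompare13.dOne_eq]
  rfl

theorem isPCocycle₂_pairFun (h0 : HyperLevel25.IsDiscrete 𝓑.sets R.ρ0)
    (hC : LevelCoh28.IsDiscrete 𝓑.sets C) (hpM : ∀ m : M, p • m = 0)
    {h : (G → (P0 →ₗ[k] C)) × (P1 →ₗ[k] C)} (hh : h ∈ hypSub 𝓑 C R)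
    {l : (G → P0) × (G × G → P1)} (hl : l ∈ liftSub 𝓑 R) :
    IsPCocycle₂ 𝓑 C p ((R.datum C.ρ).pairFun h.1 h.2 l.1 l.2) :=
  ⟨pairFun_mem_Z2 𝓑 C R h0 hC hh hl, smul_pairFun_mem_B2 p 𝓑 C R hpM hh hl⟩

end Values

/-! ### The pairing -/

section Gamma

variable [Module.Finite k P0] [Module.Finite k P1]
variable (inv : (G × G → C) → ZMod p)
  (hadd : ∀ z z', IsPCocycle₂ 𝓑 C p z → IsPCocycle₂ 𝓑 C p z' → inv (z + z') = inv z + inv z')
  (h0 : HyperLevel25.IsDiscrete 𝓑.sets R.ρ0) (hC : LevelCoh28.IsDiscrete 𝓑.sets C)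
  (hpM : ∀ m : M, p • m = 0)

/-- The pairing `((c, y), (a', b)) ↦ inv (pairFun c y a' b)`. -/
def gamma : hypSub 𝓑 C R →+ liftSub 𝓑 R →+ ZMod p :=
  AddMonoidHom.mk' (fun h => AddMonoidHom.mk'
    (fun l => inv ((R.datum C.ρ).pairFun h.1.1 h.1.2 l.1.1 l.1.2))
    (fun l l' => by
      show inv ((R.datum C.ρ).pairFun h.1.1 h.1.2 (l.1.1 + l'.1.1) (l.1.2 + l'.1.2)) = _
      rw [Datum.pairFun_add_right]
      exact hadd _ _ (isPCocycle₂_pairFun p 𝓑 C R h0 hC hpM h.2 l.2)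
        (isPCocycle₂_pairFun p 𝓑 C R h0 hC hpM h.2 l'.2)))
    (fun h h' => by
      ext l
      show inv ((R.datum C.ρ).pairFun (h.1.1 + h'.1.1) (h.1.2 + h'.1.2) l.1.1 l.1.2) =
        inv ((R.datum C.ρ).pairFun h.1.1 h.1.2 l.1.1 l.1.2) +
          inv ((R.datum C.ρ).pairFun h'.1.1 h'.1.2 l.1.1 l.1.2)
      rw [Datum.pairFun_add_left]
      exact hadd _ _ (isPCocycle₂_pairFun p 𝓑 C R h0 hC hpM h.2 l.2)
        (isPCocycle₂_pairFun p 𝓑 C R h0 hC hpM h'.2 l.2))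

theorem gamma_apply (h : hypSub 𝓑 C R) (l : liftSub 𝓑 R) :
    gamma p 𝓑 C R inv hadd h0 hC hpM h l =
      inv ((R.datum C.ρ).pairFun h.1.1 h.1.2 l.1.1 l.1.2) := rfl

variable (hzero : ∀ z, IsPCocycle₂ 𝓑 C p z → (inv z = 0 ↔ z ∈ LevelCoh28.B2 𝓑 C))

include hzero in
theorem gamma_eq_zero_iff (h : hypSub 𝓑 C R) (l : liftSub 𝓑 R) :
    gamma p 𝓑 C R inv hadd h0 hC hpM h l = 0 ↔
      ∃ u : G → C, HyperLevel25.IsLevel₁ 𝓑.sets u ∧
        (R.datum C.ρ).pairFun h.1.1 h.1.2 l.1.1 l.1.2 = HyperLevel25.dOne C.ρ u := by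
  rw [gamma_apply, hzero _ (isPCocycle₂_pairFun p 𝓑 C R h0 hC hpM h.2 l.2),
    LevelCoh28.mem_B2_iff]
  constructor
  · rintro ⟨u, hu, h'⟩
    exact ⟨u, (LevelCompare13.isLevel₁_iff _).1 hu, by rw [LevelCompare13.dOne_eq, h']⟩
  · rintro ⟨u, hu, h'⟩
    exact ⟨u, (LevelCompare13.isLevel₁_iff _).2 hu, by rw [← LevelCompare13.dOne_eq, h']⟩

include hzero in
/-- **Right kernel** of `gamma`: the lifts of the coboundaries of `M`. -/
theorem gamma_right (hRK : RKDatum R C.ρ 𝓑.sets) (l : liftSub 𝓑 R) :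
    (∀ h, gamma p 𝓑 C R inv hadd h0 hC hpM h l = 0) ↔
      ∃ a₀ : M, ⇑R.π ∘ l.1.1 = HyperLevel25.dZero R.ρM a₀ := by
  constructor
  · intro h
    refine hRK l.1.1 l.1.2 l.2.1 l.2.2 (fun c y hcy hc => ?_)
    exact (gamma_eq_zero_iff p 𝓑 C R inv hadd h0 hC hpM hzero ⟨(c, y), hcy, hc⟩ l).1 (h _)
  · rintro ⟨a₀, ha₀⟩ h
    rw [gamma_eq_zero_iff p 𝓑 C R inv hadd h0 hC hpM hzero]
    obtain ⟨x₀, rfl⟩ := R.π_surj a₀
    -- `a' - d x₀ = ι ∘ t`
    have hex : ∀ g, ∃ z : P1, R.ι z = l.1.1 g - HyperLevel25.dZero R.ρ0 x₀ g := fun g =>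
      (R.exact _).1 (by
        have := congrFun ha₀ g
        rw [Function.comp_apply, HyperLevel25.dZero_apply] at this
        rw [map_sub, this, HyperLevel25.dZero_apply, map_sub, R.π_comm, sub_self])
    choose t ht using hex
    have htl : HyperLevel25.IsLevel₁ 𝓑.sets t := by
      obtain ⟨U, hU, hUl⟩ := (basis' 𝓑).isLevel₁_sub l.2.2
        (HyperLevel25.isLevel₁_dZero h0 x₀)
      refine ⟨U, hU, fun g s hs => R.ι_inj ?_⟩
      rw [ht, ht]
      exact hUl g s hs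
    have hb : l.1.2 = HyperLevel25.dOne R.ρ1 t := by
      funext ⟨g, h'⟩
      apply R.ι_inj
      rw [l.2.1, HyperLevel25.dOne_apply, HyperLevel25.dOne_apply, map_add, map_sub, R.ι_comm,
        ht, ht, ht]
      simp only [HyperLevel25.dZero_apply, map_sub, map_mul, Module.End.mul_apply]
      abel
    have ha : l.1.1 = HyperLevel25.dZero (R.datum C.ρ).ρF0 x₀ + ⇑(R.datum C.ρ).ι ∘ t := by
      funext g
      show l.1.1 g = HyperLevel25.dZero R.ρ0 x₀ g + R.ι (t g)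
      rw [ht]
      abel
    have hb' : l.1.2 = 0 + HyperLevel25.dOne (R.datum C.ρ).ρF1 t := by
      rw [zero_add]
      exact hb
    -- the level of `g ↦ c g (g x₀)`
    have hlev : HyperLevel25.IsLevel₁ 𝓑.sets
        (fun g => (R.datum C.ρ).ev0 (h.1.1 g) ((R.datum C.ρ).ρF0 g x₀)) := by
      obtain ⟨U1, hU1, hc⟩ := h.2.2
      obtain ⟨U2, hU2, hx⟩ := h0 x₀
      obtain ⟨U, hU, hUle⟩ := (basis' 𝓑).inf U1 hU1 U2 hU2
      refine ⟨U, hU, fun g s hs => ?_⟩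
      show (R.datum C.ρ).ev0 (h.1.1 (g * s)) (R.ρ0 (g * s) x₀) =
        (R.datum C.ρ).ev0 (h.1.1 g) (R.ρ0 g x₀)
      rw [hc g s (hUle hs).1, map_mul, Module.End.mul_apply, hx s (hUle hs).2]
    refine ⟨(-fun g => (R.datum C.ρ).ev0 (h.1.1 g) ((R.datum C.ρ).ρF0 g x₀)) +
        fun g => (R.datum C.ρ).ev1 h.1.2 (t g),
      (basis' 𝓑).isLevel₁_add (HyperLevel25.IsLevel₁.comp hlev (fun x => -x))
        (HyperLevel25.IsLevel₁.comp htl _), ?_⟩
    rw [ha, hb', Datum.pairFun_add_right, Datum.pairFun_dZero _ h.2.1, Datum.pairFun_ι _ h.2.1,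
      map_add, map_neg]
    rfl

include hzero in
/-- **Surjectivity of the hyper-pairing**: if `q` is a surjection from the lifted cocycles onto a
finite group `W` whose kernel consists of the lifts of coboundaries (i.e. `W = H¹_lev(M)`), then
every additive `lam : W → ℤ/p` is represented by a level hyper-cocycle. -/
theorem exists_hyp_eq [Fact p.Prime] (hRK : RKDatum R C.ρ 𝓑.sets) {W : Type*} [AddCommGroup W]
    [Finite W] (q : liftSub 𝓑 R →+ W) (hq : Function.Surjective q)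
    (hqker : ∀ l : liftSub 𝓑 R, q l = 0 ↔
      ∃ a₀ : M, ⇑R.π ∘ l.1.1 = HyperLevel25.dZero R.ρM a₀) (lam : W →+ ZMod p) :
    ∃ h : hypSub 𝓑 C R, ∀ l : liftSub 𝓑 R,
      gamma p 𝓑 C R inv hadd h0 hC hpM h l = lam (q l) := by
  classical
  set γ := gamma p 𝓑 C R inv hadd h0 hC hpM with hγ
  have hγr : ∀ l, (∀ h, γ h l = 0) ↔ q l = 0 := fun l =>
    (gamma_right p 𝓑 C R inv hadd h0 hC hpM hzero hRK l).trans (hqker l).symm
  -- `γ h` only depends on `q l`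
  have hdep : ∀ (h : hypSub 𝓑 C R) (l l' : liftSub 𝓑 R), q l = q l' → γ h l = γ h l' := by
    intro h l l' hll
    have h1 : q (l - l') = 0 := by rw [map_sub, hll, sub_self]
    have h2 := (hγr (l - l')).2 h1 h
    rw [map_sub, sub_eq_zero] at h2
    exact h2
  let s : W → liftSub 𝓑 R := Function.surjInv hq
  have hs : ∀ w, q (s w) = w := Function.surjInv_eq hq
  -- the induced pairing on `W`
  let B : hypSub 𝓑 C R →+ W →+ ZMod p :=
    AddMonoidHom.mk' (fun h => AddMonoidHom.mk' (fun w => γ h (s w)) (fun w w' => by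
      show γ h (s (w + w')) = γ h (s w) + γ h (s w')
      rw [← map_add]
      exact hdep h _ _ (by rw [hs, map_add, hs, hs])))
      (fun h h' => by
        ext w
        show γ (h + h') (s w) = γ h (s w) + γ h' (s w)
        rw [map_add, AddMonoidHom.add_apply])
  have hB : ∀ h l, B h (q l) = γ h l := fun h l => hdep h _ _ (hs (q l))
  have hW : ∀ w : W, p • w = 0 := by
    intro w
    obtain ⟨l, rfl⟩ := hq w
    rw [← map_nsmul, hqker]
    refine ⟨0, ?_⟩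
    funext g
    show R.π ((p • l.1.1) g) = HyperLevel25.dZero R.ρM 0 g
    rw [Pi.smul_apply, map_nsmul, hpM, HyperLevel25.dZero_apply, map_zero, sub_zero]
  have hr : ∀ w : W, (∀ h, B h w = 0) → w = 0 := by
    intro w hw
    rw [← hs w]
    exact (hγr (s w)).1 (fun h => hw h)
  obtain ⟨h, hh⟩ := PerfectPairing29.surjective_of_right_kernel B (AddMonoidHom.id (ZMod p))
    (fun t _ ht => ht) hW hr lam
  refine ⟨h, fun l => ?_⟩
  rw [← hB h l]
  exact DFunLike.congr_fun hh (q l)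

end Gamma

end

end Fermat.Agent.TW.GlobalEC.HyperPairGen26
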