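/-
TW / WP4 / EC5d (helper79).  A criterion for rational representations of finite groups.

* `nonempty_equiv_of_char_eq`: over a field of characteristic zero, finite-dimensional
  representations of a finite group with equal characters are equivalent (Maschke + the scalar
  product formula for `dim Hom_G`, induction on the dimension; no algebraic closure needed).
* `character_eq_of_finrank_fixed_eq`, `nonempty_equiv_of_finrank_fixed_eq`: over `ℚ`, if
  `dim ker (ρ g - 1) = dim ker (σ g - 1)` for every `g` (i.e. the cyclic subgroups have fixed
  spaces of the same dimension), then `ρ` and `σ` have the same character, hence are equivalent.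
-/
import Mathlib
import Fermat.Agent.TW.GlobalEC.CycloTrace79

set_option autoImplicit false
set_option linter.unusedSectionVars false
set_option linter.style.haveILetI false

namespace Fermat.Agent.TW.GlobalEC.RatRepCrit79

open Representation Module

section Basic

variable {k : Type*} [Field k] {G : Type*} [Group G]
variable {V : Type*} [AddCommGroup V] [Module k V]
variable {W : Type*} [AddCommGroup W] [Module k W]

theorem char_prod [FiniteDimensional k V] [FiniteDimensional k W]
    (ρ : Representation k G V) (σ : Representation k G W) :
    (ρ.prod σ).character = ρ.character + σ.character := by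
  ext g
  simp only [character, Pi.add_apply]
  exact LinearMap.trace_prodMap' _ _

theorem isCompl_toSubmodule {ρ : Representation k G V} {S S' : Subrepresentation ρ}
    (h : IsCompl S S') : IsCompl S.toSubmodule S'.toSubmodule := by
  constructor
  · rw [disjoint_iff, ← Subrepresentation.toSubmodule_inf, h.inf_eq_bot]
    rfl
  · rw [codisjoint_iff, ← Subrepresentation.toSubmodule_sup, h.sup_eq_top]
    rfl

/-- Complementary subrepresentations give a product decomposition. -/
noncomputable def equivProdOfIsCompl (ρ : Representation k G V) (S S' : Subrepresentation ρ)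
    (h : IsCompl S S') : (S.toRepresentation.prod S'.toRepresentation).Equiv ρ :=
  Representation.Equiv.mk
    (Submodule.prodEquivOfIsCompl S.toSubmodule S'.toSubmodule (isCompl_toSubmodule h)) (by
      intro g
      ext x
      · simp [Subrepresentation.toRepresentation]
      · simp [Subrepresentation.toRepresentation])

theorem char_of_isCompl [FiniteDimensional k V] (ρ : Representation k G V)
    (S S' : Subrepresentation ρ) (h : IsCompl S S') :
    ρ.character = S.toRepresentation.character + S'.toRepresentation.character := by
  rw [← char_prod, char_iso (equivProdOfIsCompl ρ S S' h)]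

/-- product of equivalences -/
noncomputable def equivProdCongr {V₁ V₂ W₁ W₂ : Type*} [AddCommGroup V₁] [Module k V₁]
    [AddCommGroup V₂] [Module k V₂] [AddCommGroup W₁] [Module k W₁] [AddCommGroup W₂] [Module k W₂]
    {ρ₁ : Representation k G V₁} {ρ₂ : Representation k G V₂} {σ₁ : Representation k G W₁}
    {σ₂ : Representation k G W₂} (e₁ : ρ₁.Equiv σ₁) (e₂ : ρ₂.Equiv σ₂) :
    (ρ₁.prod ρ₂).Equiv (σ₁.prod σ₂) :=
  Representation.Equiv.mk (LinearEquiv.prodCongr e₁.toLinearEquiv e₂.toLinearEquiv) (by
    intro g
    ext x
    · simpa using IntertwiningMap.isIntertwining ρ₁ σ₁ e₁.toIntertwiningMap g x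
    · simp
    · simp
    · simpa using IntertwiningMap.isIntertwining ρ₂ σ₂ e₂.toIntertwiningMap g x)

/-- swap -/
noncomputable def equivProdComm (ρ : Representation k G V) (σ : Representation k G W) :
    (ρ.prod σ).Equiv (σ.prod ρ) :=
  Representation.Equiv.mk (LinearEquiv.prodComm k V W) (by
    intro g
    ext x <;> simp)

end Basic


section KS

universe u v

variable {k : Type*} [Field k] [CharZero k] {G : Type*} [Group G] [Fintype G]

theorem natCard_ne_zero : (Nat.card G : k) ≠ 0 := by
  exact_mod_cast (Nat.card_pos (α := G)).ne'

theorem finrank_intertwining_eq_of_char_eq {V W U : Type*} [AddCommGroup V] [Module k V]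
    [FiniteDimensional k V] [AddCommGroup W] [Module k W] [FiniteDimensional k W]
    [AddCommGroup U] [Module k U] [FiniteDimensional k U]
    (ρ : Representation k G V) (σ : Representation k G W) (τ : Representation k G U)
    (h : ρ.character = σ.character) :
    finrank k (IntertwiningMap ρ τ) = finrank k (IntertwiningMap σ τ) := by
  haveI : Invertible (Nat.card G : k) := invertibleOfNonzero natCard_ne_zero
  have h1 := card_inv_mul_sum_char_mul_char_eq_finrank ρ τ
  have h2 := card_inv_mul_sum_char_mul_char_eq_finrank σ τ
  rw [h] at h1
  exact_mod_cast h1.symm.trans h2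

theorem surjective_of_minimal {V W : Type*} [AddCommGroup V] [Module k V]
    [FiniteDimensional k V] [AddCommGroup W] [Module k W]
    {ρ : Representation k G V} {σ : Representation k G W} (S : Subrepresentation ρ)
    (hmin : ∀ S₂ : Subrepresentation ρ, (∃ v ∈ S₂, v ≠ 0) →
      finrank k S.toSubmodule ≤ finrank k S₂.toSubmodule)
    (F : IntertwiningMap σ S.toRepresentation) (hF : F ≠ 0) : Function.Surjective F := by
  let S₂ : Subrepresentation ρ :=
    { toSubmodule := (LinearMap.range F.toLinearMap).map S.toSubmodule.subtype
      apply_mem_toSubmodule := by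
        intro g v hv
        obtain ⟨s, ⟨w, rfl⟩, rfl⟩ := hv
        refine ⟨F.toLinearMap (σ g w), ⟨σ g w, rfl⟩, ?_⟩
        have := IntertwiningMap.isIntertwining σ S.toRepresentation F g w
        simp only [IntertwiningMap.coe_toLinearMap, Submodule.subtype_apply]
        rw [this]
        rfl }
  have hne : ∃ v ∈ S₂, v ≠ 0 := by
    have : ∃ w, F w ≠ 0 := by
      by_contra hcon
      push Not at hcon
      apply hF
      ext w
      simpa using congrArg Subtype.val (hcon w)
    obtain ⟨w, hw⟩ := this
    refine ⟨(F w : V), ⟨F w, ⟨w, rfl⟩, rfl⟩, ?_⟩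
    intro h0
    exact hw (Subtype.ext h0)
  have h1 := hmin S₂ hne
  have h2 : finrank k S₂.toSubmodule = finrank k (LinearMap.range F.toLinearMap) :=
    Submodule.finrank_map_subtype_eq _ _
  have h3 : finrank k (LinearMap.range F.toLinearMap) ≤ finrank k S.toSubmodule :=
    Submodule.finrank_le _
  have h4 : LinearMap.range F.toLinearMap = ⊤ :=
    Submodule.eq_top_of_finrank_eq (by omega)
  exact LinearMap.range_eq_top.mp h4


/-- the restriction of a surjective intertwining map to a complement of its kernel -/
noncomputable def equivOfComplKer {V W : Type*} [AddCommGroup V] [Module k V]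
    [AddCommGroup W] [Module k W]
    {ρ : Representation k G V} {σ : Representation k G W}
    (F : IntertwiningMap σ ρ) (hF : Function.Surjective F)
    (T' : Subrepresentation σ) (hT : IsCompl F.ker T') : T'.toRepresentation.Equiv ρ :=
  Representation.Equiv.mk
    (LinearEquiv.ofBijective (F.toLinearMap.comp T'.toSubmodule.subtype) (by
      have hc := isCompl_toSubmodule hT
      constructor
      · rw [← LinearMap.ker_eq_bot, LinearMap.ker_eq_bot']
        intro x hx
        have hx1 : (x : W) ∈ F.ker.toSubmodule := by
          simpa using hx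
        have hx2 : (x : W) ∈ F.ker.toSubmodule ⊓ T'.toSubmodule := ⟨hx1, x.2⟩
        rw [hc.inf_eq_bot] at hx2
        exact Subtype.ext ((Submodule.mem_bot k).mp hx2)
      · intro s
        obtain ⟨w, rfl⟩ := hF s
        have hw : w ∈ F.ker.toSubmodule ⊔ T'.toSubmodule := by
          rw [hc.sup_eq_top]; trivial
        obtain ⟨t, ht, t', ht', rfl⟩ := Submodule.mem_sup.mp hw
        refine ⟨⟨t', ht'⟩, ?_⟩
        have ht0 : F t = 0 := by simpa using ht
        simp [ht0])) (by
      intro g
      ext x
      simp only [LinearMap.coe_comp, LinearEquiv.coe_coe, Function.comp_apply]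
      exact IntertwiningMap.isIntertwining σ ρ F g (x : W))

/-- **Representations of a finite group over a field of characteristic zero with the same
character are equivalent.** -/
theorem nonempty_equiv_of_char_eq_aux : ∀ (n : ℕ) {V : Type u} [AddCommGroup V] [Module k V]
    [FiniteDimensional k V] {W : Type v} [AddCommGroup W] [Module k W] [FiniteDimensional k W]
    (ρ : Representation k G V) (σ : Representation k G W), finrank k V = n →
    ρ.character = σ.character → Nonempty (ρ.Equiv σ) := by
  intro n
  induction n using Nat.strong_induction_on with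
  | _ n ih =>
  intro V _ _ _ W _ _ _ ρ σ hn hχ
  classical
  haveI : NeZero (Nat.card G : k) := ⟨natCard_ne_zero⟩
  have hdimW : finrank k W = n := by
    have := congrFun hχ 1
    rw [char_one, char_one, hn] at this
    exact_mod_cast this.symm
  rcases Nat.eq_zero_or_pos n with h0 | hpos
  · subst h0
    haveI : Subsingleton V := Module.finrank_zero_iff.mp hn
    haveI : Subsingleton W := Module.finrank_zero_iff.mp hdimW
    exact ⟨Representation.Equiv.mk (LinearEquiv.ofSubsingleton V W)
      (fun g => LinearMap.ext fun x => Subsingleton.elim _ _)⟩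
  · -- a nonzero subrepresentation of minimal dimension
    haveI : Nontrivial V := Module.nontrivial_of_finrank_pos (R := k) (hn ▸ hpos)
    have hP : ∃ m, ∃ S : Subrepresentation ρ, (∃ v ∈ S, v ≠ 0) ∧
        finrank k S.toSubmodule = m := by
      obtain ⟨v, hv⟩ := exists_ne (0 : V)
      exact ⟨_, ⊤, ⟨v, trivial, hv⟩, rfl⟩
    obtain ⟨S, hSne, hSmin⟩ : ∃ S : Subrepresentation ρ, (∃ v ∈ S, v ≠ 0) ∧
        ∀ S₂ : Subrepresentation ρ, (∃ v ∈ S₂, v ≠ 0) →
          finrank k S.toSubmodule ≤ finrank k S₂.toSubmodule := by
      obtain ⟨S, hS1, hS2⟩ := Nat.find_spec hP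
      exact ⟨S, hS1, fun S₂ h2 => hS2 ▸ Nat.find_min' hP ⟨S₂, h2, rfl⟩⟩
    obtain ⟨S', hSS'⟩ := exists_isCompl S
    -- the projection onto `S`
    let e := equivProdOfIsCompl ρ S S' hSS'
    let π : IntertwiningMap ρ S.toRepresentation :=
      (IntertwiningMap.fst k S.toRepresentation S'.toRepresentation).comp
        e.symm.toIntertwiningMap
    have hπ : π ≠ 0 := by
      obtain ⟨v, hvS, hv0⟩ := hSne
      intro h0
      have h1 : e.symm v = ((⟨v, hvS⟩ : S.toSubmodule), (0 : S'.toSubmodule)) := by
        rw [← Representation.Equiv.coe_symm, LinearEquiv.symm_apply_eq]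
        change v = Submodule.prodEquivOfIsCompl _ _ (isCompl_toSubmodule hSS') (_, _)
        rw [Submodule.coe_prodEquivOfIsCompl']
        simp
      have h2 : π v = ⟨v, hvS⟩ := by
        change (e.symm v).1 = _
        rw [h1]
      rw [h0] at h2
      exact hv0 (congrArg Subtype.val h2).symm
    have hpos1 : 0 < finrank k (IntertwiningMap ρ S.toRepresentation) :=
      Module.finrank_pos_iff_exists_ne_zero.mpr ⟨π, hπ⟩
    rw [finrank_intertwining_eq_of_char_eq ρ σ S.toRepresentation hχ] at hpos1
    obtain ⟨F, hF⟩ := Module.finrank_pos_iff_exists_ne_zero.mp hpos1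
    have hFs := surjective_of_minimal S hSmin F hF
    obtain ⟨T', hTT'⟩ := exists_isCompl F.ker
    let eT := equivOfComplKer F hFs T' hTT'
    -- characters
    have hc1 := char_of_isCompl ρ S S' hSS'
    have hc2 := char_of_isCompl σ F.ker T' hTT'
    have hc3 := char_iso eT
    have hc4 : S'.toRepresentation.character = F.ker.toRepresentation.character := by
      have : S.toRepresentation.character + S'.toRepresentation.character =
          S.toRepresentation.character + F.ker.toRepresentation.character := by
        rw [← hc1, hχ, hc2, hc3, add_comm]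
      exact add_left_cancel this
    -- dimensions
    have hd1 := Submodule.finrank_add_eq_of_isCompl (isCompl_toSubmodule hSS')
    have hd2 : 0 < finrank k S.toSubmodule := by
      obtain ⟨v, hvS, hv0⟩ := hSne
      exact Module.finrank_pos_iff_exists_ne_zero.mpr
        ⟨⟨v, hvS⟩, fun h => hv0 (congrArg Subtype.val h)⟩
    have hd3 : finrank k S'.toSubmodule < n := by omega
    obtain ⟨eIH⟩ := ih _ hd3 S'.toRepresentation F.ker.toRepresentation rfl hc4
    -- assemble
    exact ⟨e.symm.trans ((equivProdCongr eT.symm eIH).trans
      ((equivProdComm _ _).trans (equivProdOfIsCompl σ F.ker T' hTT')))⟩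

theorem nonempty_equiv_of_char_eq {V : Type u} [AddCommGroup V] [Module k V]
    [FiniteDimensional k V] {W : Type v} [AddCommGroup W] [Module k W] [FiniteDimensional k W]
    (ρ : Representation k G V) (σ : Representation k G W)
    (h : ρ.character = σ.character) : Nonempty (ρ.Equiv σ) :=
  nonempty_equiv_of_char_eq_aux _ ρ σ rfl h

end KS

section Rat

universe u v

variable {G : Type*} [Group G] [Fintype G]
variable {V : Type u} [AddCommGroup V] [Module ℚ V] [FiniteDimensional ℚ V]
variable {W : Type v} [AddCommGroup W] [Module ℚ W] [FiniteDimensional ℚ W]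

/-- Over `ℚ`, the character is determined by the dimensions of the fixed spaces of the cyclic
subgroups: `ker (ρ g - 1)` is the fixed space of the subgroup generated by `g`. -/
theorem character_eq_of_finrank_fixed_eq (ρ : Representation ℚ G V) (σ : Representation ℚ G W)
    (h : ∀ g : G, finrank ℚ (LinearMap.ker (ρ g - 1)) = finrank ℚ (LinearMap.ker (σ g - 1))) :
    ρ.character = σ.character := by
  ext g
  unfold character
  apply CycloTrace79.trace_eq_of_finrank_ker_eq (orderOf g) (orderOf_pos g) (ρ g) (σ g)
  · rw [← map_pow, pow_orderOf_eq_one, map_one]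
  · rw [← map_pow, pow_orderOf_eq_one, map_one]
  · intro e _
    rw [← map_pow, ← map_pow]
    exact h (g ^ e)

/-- **Criterion for rational representations.**  Two finite-dimensional rational representations
of a finite group whose cyclic subgroups have fixed spaces of the same dimensions are
equivalent. -/
theorem nonempty_equiv_of_finrank_fixed_eq (ρ : Representation ℚ G V) (σ : Representation ℚ G W)
    (h : ∀ g : G, finrank ℚ (LinearMap.ker (ρ g - 1)) = finrank ℚ (LinearMap.ker (σ g - 1))) :
    Nonempty (ρ.Equiv σ) :=
  nonempty_equiv_of_char_eq ρ σ (character_eq_of_finrank_fixed_eq ρ σ h)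

end Rat

end Fermat.Agent.TW.GlobalEC.RatRepCrit79
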