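/-
Program TW (S56), WP4 "EC", brick EC5d, part G (Mathlib only), helper87.

Rationality of characters: if `T` is an endomorphism of a finite-dimensional `ℚ`-vector space with
`T ^ n = 1` and `j` is coprime to `n`, then `tr (T ^ j) = tr T`.

Proof: clear denominators (`B = D • A` integral); for a prime `p ≡ j mod n` we have
`A ^ p = A ^ j`, and `tr (B ^ p) ≡ tr B mod p` (Frobenius).  Hence the fixed integer
`D * tr (B ^ j) - D ^ j * tr B` is divisible by infinitely many primes (Dirichlet), so it is `0`.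
-/
import Mathlib

set_option autoImplicit false
set_option linter.unusedSectionVars false
set_option linter.style.haveILetI false

namespace Fermat.Agent.TW.GlobalEC.TracePowCoprime87

open Matrix

variable {ι : Type*} [Fintype ι] [DecidableEq ι]

/-- Clearing denominators of a rational matrix. -/
theorem exists_int_matrix (A : Matrix ι ι ℚ) :
    ∃ (D : ℤ) (B : Matrix ι ι ℤ), D ≠ 0 ∧ B.map (Int.cast : ℤ → ℚ) = (D : ℚ) • A := by
  obtain ⟨b, hb⟩ := IsLocalization.exist_integer_multiples_of_finite (nonZeroDivisors ℤ)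
    (fun x : ι × ι => A x.1 x.2)
  choose z hz using hb
  refine ⟨(b : ℤ), Matrix.of (fun i k => z (i, k)), nonZeroDivisors.coe_ne_zero b, ?_⟩
  ext i k
  have := hz (i, k)
  simp only [Matrix.map_apply, Matrix.of_apply, Matrix.smul_apply, smul_eq_mul]
  simp only [algebraMap_int_eq, Int.coe_castRingHom, zsmul_eq_mul] at this
  exact this

theorem map_intCast_pow (B : Matrix ι ι ℤ) (m : ℕ) :
    (B ^ m).map (Int.cast : ℤ → ℚ) = (B.map (Int.cast : ℤ → ℚ)) ^ m := by
  have := map_pow (Int.castRingHom ℚ).mapMatrix B m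
  simpa [RingHom.mapMatrix_apply] using this

theorem map_intCast_injective :
    Function.Injective (fun B : Matrix ι ι ℤ => B.map (Int.cast : ℤ → ℚ)) := by
  intro B C h
  ext i k
  have := congrFun (congrFun h i) k
  simpa using this

/-- Frobenius congruence for the trace of an integer matrix. -/
theorem trace_pow_prime_zmod (B : Matrix ι ι ℤ) (p : ℕ) [Fact p.Prime] :
    ((B ^ p).trace : ZMod p) = (B.trace : ZMod p) := by
  have h0 : ∀ C : Matrix ι ι ℤ, (C.trace : ZMod p) =
      ((Int.castRingHom (ZMod p)).mapMatrix C).trace := by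
    intro C
    simp only [Matrix.trace, Matrix.diag_apply, RingHom.mapMatrix_apply, Matrix.map_apply,
      Int.coe_castRingHom, Int.cast_sum]
  have h1 := h0 (B ^ p)
  have h2 := h0 B
  rw [h1, h2, map_pow, ZMod.trace_pow_card, ZMod.pow_card]

/-- **Rationality of characters**, matrix form. -/
theorem matrix_trace_pow_eq_of_coprime (A : Matrix ι ι ℚ) {n j : ℕ} (hn : n ≠ 0)
    (hA : A ^ n = 1) (hj : j.Coprime n) : (A ^ j).trace = A.trace := by
  obtain ⟨D, B, hD, hB⟩ := exists_int_matrix A
  set c : ℤ := D * (B ^ j).trace - D ^ j * B.trace with hc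
  -- `c = 0` because infinitely many primes divide it
  have hc0 : c = 0 := by
    obtain ⟨p, hpgt, hp, hpj⟩ :=
      Nat.forall_exists_prime_gt_and_modEq (max j c.natAbs) hn hj
    haveI : Fact p.Prime := ⟨hp⟩
    have hpj' : j ≤ p := le_of_lt (lt_of_le_of_lt (le_max_left _ _) hpgt)
    have hpc : c.natAbs < p := lt_of_le_of_lt (le_max_right _ _) hpgt
    -- `A ^ p = A ^ j`
    have hAp : A ^ p = A ^ j := by
      rw [pow_eq_pow_mod p hA, pow_eq_pow_mod j hA]
      congr 1
    -- `B ^ p = D ^ (p - j) • B ^ j`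
    have hBp : B ^ p = D ^ (p - j) • B ^ j := by
      apply map_intCast_injective
      show (B ^ p).map (Int.cast : ℤ → ℚ) = (D ^ (p - j) • B ^ j).map (Int.cast : ℤ → ℚ)
      have hsm : (D ^ (p - j) • B ^ j).map (Int.cast : ℤ → ℚ) =
          ((D : ℚ) ^ (p - j)) • (B ^ j).map (Int.cast : ℤ → ℚ) := by
        ext i k
        simp only [Matrix.map_apply, Matrix.smul_apply, smul_eq_mul, Int.cast_mul, Int.cast_pow]
      rw [hsm, map_intCast_pow, map_intCast_pow, hB, smul_pow, smul_pow, hAp, smul_smul,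
        ← pow_add, Nat.sub_add_cancel hpj']
    -- reduce mod `p`
    have h1 := trace_pow_prime_zmod B p
    rw [hBp, Matrix.trace_smul] at h1
    have hcz : (c : ZMod p) = 0 := by
      have hDp : (D : ZMod p) ^ p = D := ZMod.pow_card _
      have h1' : (D : ZMod p) ^ (p - j) * ((B ^ j).trace : ZMod p) = (B.trace : ZMod p) := by
        simpa using h1
      have h3 : (D : ZMod p) ^ j * ((D : ZMod p) ^ (p - j) * ((B ^ j).trace : ZMod p)) =
          (D : ZMod p) * ((B ^ j).trace : ZMod p) := by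
        rw [← mul_assoc, ← pow_add, Nat.add_sub_cancel' hpj', hDp]
      rw [hc]
      push_cast
      rw [← h3, h1']
      ring
    have hdvd : (p : ℤ) ∣ c := (ZMod.intCast_zmod_eq_zero_iff_dvd c p).mp hcz
    apply Int.eq_zero_of_abs_lt_dvd hdvd
    rw [Int.abs_eq_natAbs]
    exact_mod_cast hpc
  -- conclude over `ℚ`
  have hDq : (D : ℚ) ≠ 0 := Int.cast_ne_zero.mpr hD
  have e1 : ((B ^ j).trace : ℚ) = (D : ℚ) ^ j * (A ^ j).trace := by
    have : ((B ^ j).trace : ℚ) = ((B ^ j).map (Int.cast : ℤ → ℚ)).trace := by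
      simp [Matrix.trace]
    rw [this, map_intCast_pow, hB, smul_pow, Matrix.trace_smul, smul_eq_mul]
  have e2 : (B.trace : ℚ) = (D : ℚ) * A.trace := by
    have : (B.trace : ℚ) = (B.map (Int.cast : ℤ → ℚ)).trace := by
      simp [Matrix.trace]
    rw [this, hB, Matrix.trace_smul, smul_eq_mul]
  have e3 : (c : ℚ) = 0 := by rw [hc0]; simp
  rw [hc] at e3
  push_cast at e3
  rw [e1, e2] at e3
  have hDj : (D : ℚ) ^ j ≠ 0 := pow_ne_zero _ hDq
  have : (D : ℚ) * (D : ℚ) ^ j * ((A ^ j).trace - A.trace) = 0 := by linear_combination e3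
  rcases mul_eq_zero.mp this with h | h
  · exact absurd h (mul_ne_zero hDq hDj)
  · exact sub_eq_zero.mp h

/-- **Rationality of characters**: `tr (T ^ j) = tr T` for `T ^ n = 1`, `j` coprime to `n`,
over `ℚ`. -/
theorem trace_pow_eq_of_coprime {V : Type*} [AddCommGroup V] [Module ℚ V]
    [FiniteDimensional ℚ V] (T : Module.End ℚ V) {n j : ℕ} (hn : n ≠ 0) (hT : T ^ n = 1)
    (hj : j.Coprime n) : LinearMap.trace ℚ V (T ^ j) = LinearMap.trace ℚ V T := by
  classical
  let b := Module.finBasis ℚ V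
  have hA : (LinearMap.toMatrix b b T) ^ n = 1 := by
    rw [LinearMap.toMatrix_pow, hT, LinearMap.toMatrix_one]
  have := matrix_trace_pow_eq_of_coprime (LinearMap.toMatrix b b T) hn hA hj
  rw [LinearMap.trace_eq_matrix_trace ℚ b, LinearMap.trace_eq_matrix_trace ℚ b,
    ← LinearMap.toMatrix_pow]
  exact this

end Fermat.Agent.TW.GlobalEC.TracePowCoprime87
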