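/-
Program TW (S56), WP4 "EC", brick EC5d, part G (Mathlib only), helper87.

**Theorem G1.** Two finite-dimensional rational representations `ρ`, `ρ'` of a finite group `G`
such that `dim ker (ρ g - 1) = dim ker (ρ' g - 1)` for every `g : G` (equal dimensions of the fixed
spaces of all cyclic subgroups) are isomorphic.
-/
import Mathlib
import Fermat.Agent.TW.GlobalEC.CharIso87
import Fermat.Agent.TW.GlobalEC.TracePowCoprime87

set_option autoImplicit false
set_option linter.unusedSectionVars false

namespace Fermat.Agent.TW.GlobalEC.RatRepCyclic87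

universe u

open Module Representation

open Fermat.Agent.TW.GlobalEC.CharIso87 Fermat.Agent.TW.GlobalEC.TracePowCoprime87

section Average

variable {k V : Type*} [Field k] [CharZero k] [AddCommGroup V] [Module k V]
  [FiniteDimensional k V]

theorem mul_sum_pow_eq (T : Module.End k V) {n : ℕ} (hT : T ^ n = 1) :
    T * ∑ i ∈ Finset.range n, T ^ i = ∑ i ∈ Finset.range n, T ^ i := by
  rw [Finset.mul_sum]
  have h1 : ∑ i ∈ Finset.range n, T * T ^ i = ∑ i ∈ Finset.range n, T ^ (i + 1) := by
    refine Finset.sum_congr rfl fun i _ => ?_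
    rw [pow_succ']
  rw [h1]
  have h2 := Finset.sum_range_succ' (fun i => T ^ i) n
  have h3 := Finset.sum_range_succ (fun i => T ^ i) n
  simp only [pow_zero] at h2
  rw [h3, hT] at h2
  exact add_right_cancel h2.symm

/-- The dimension of the fixed space of an operator of finite order is the average of the
traces of its powers. -/
theorem card_mul_finrank_ker_sub_one (T : Module.End k V) {n : ℕ} (hn : n ≠ 0)
    (hT : T ^ n = 1) :
    (n : k) * (finrank k (LinearMap.ker (T - 1)) : k) =
      ∑ i ∈ Finset.range n, LinearMap.trace k V (T ^ i) := by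
  have hn' : (n : k) ≠ 0 := Nat.cast_ne_zero.mpr hn
  set P : Module.End k V := (n : k)⁻¹ • ∑ i ∈ Finset.range n, T ^ i with hP
  have hproj : LinearMap.IsProj (LinearMap.ker (T - 1)) P := by
    refine ⟨fun v => ?_, fun v hv => ?_⟩
    · rw [LinearMap.mem_ker, LinearMap.sub_apply, sub_eq_zero]
      show T (P v) = (1 : Module.End k V) (P v)
      have : T * P = P := by rw [hP, mul_smul_comm, mul_sum_pow_eq T hT]
      rw [← Module.End.mul_apply, this]
      rfl
    · have hTv : T v = v := by
        have := LinearMap.mem_ker.mp hv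
        rw [LinearMap.sub_apply, sub_eq_zero] at this
        exact this
      have hpow : ∀ i : ℕ, (T ^ i) v = v := by
        intro i
        induction i with
        | zero => simp
        | succ i ih => rw [pow_succ, Module.End.mul_apply, hTv, ih]
      rw [hP, LinearMap.smul_apply, LinearMap.sum_apply]
      simp only [hpow, Finset.sum_const, Finset.card_range]
      rw [← Nat.cast_smul_eq_nsmul k, smul_smul, inv_mul_cancel₀ hn', one_smul]
  have htr := hproj.trace
  rw [hP, map_smul, map_sum, smul_eq_mul] at htr
  rw [← htr, ← mul_assoc, mul_inv_cancel₀ hn', one_mul]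

end Average

section Main

variable {G : Type*} [Group G] [Fintype G]

/-- Equal fixed-space dimensions for all cyclic subgroups force equal characters (over `ℚ`). -/
theorem character_eq_of_finrank_ker_eq {V V' : Type*}
    [AddCommGroup V] [Module ℚ V] [FiniteDimensional ℚ V]
    [AddCommGroup V'] [Module ℚ V'] [FiniteDimensional ℚ V']
    (ρ : Representation ℚ G V) (ρ' : Representation ℚ G V')
    (h : ∀ g : G, finrank ℚ (LinearMap.ker (ρ g - 1)) = finrank ℚ (LinearMap.ker (ρ' g - 1))) :
    ρ.character = ρ'.character := by
  suffices H : ∀ m : ℕ, ∀ g : G, orderOf g = m → ρ.character g = ρ'.character g by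
    ext g
    exact H _ g rfl
  intro m
  induction m using Nat.strong_induction_on with
  | _ m ih =>
    intro g hg
    have hm : m ≠ 0 := by
      rw [← hg]
      exact (orderOf_pos g).ne'
    have hT : (ρ g) ^ m = 1 := by rw [← map_pow, ← hg, pow_orderOf_eq_one, map_one]
    have hT' : (ρ' g) ^ m = 1 := by rw [← map_pow, ← hg, pow_orderOf_eq_one, map_one]
    have e1 := card_mul_finrank_ker_sub_one (ρ g) hm hT
    have e2 := card_mul_finrank_ker_sub_one (ρ' g) hm hT'
    rw [h g] at e1
    have e3 : ∑ i ∈ Finset.range m, LinearMap.trace ℚ V ((ρ g) ^ i) =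
        ∑ i ∈ Finset.range m, LinearMap.trace ℚ V' ((ρ' g) ^ i) := e1.symm.trans e2
    -- split according to coprimality
    rw [← Finset.sum_filter_add_sum_filter_not (Finset.range m) (fun i => i.Coprime m),
      ← Finset.sum_filter_add_sum_filter_not (Finset.range m) (fun i => i.Coprime m)
        (f := fun i => LinearMap.trace ℚ V' ((ρ' g) ^ i))] at e3
    have hnc : ∑ i ∈ (Finset.range m).filter (fun i => ¬ i.Coprime m),
          LinearMap.trace ℚ V ((ρ g) ^ i) =
        ∑ i ∈ (Finset.range m).filter (fun i => ¬ i.Coprime m),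
          LinearMap.trace ℚ V' ((ρ' g) ^ i) := by
      refine Finset.sum_congr rfl fun i hi => ?_
      rw [Finset.mem_filter, Finset.mem_range] at hi
      have hord : orderOf (g ^ i) < m := by
        rw [orderOf_pow, hg]
        apply Nat.div_lt_self (Nat.pos_of_ne_zero hm)
        have hgpos : 0 < Nat.gcd m i := Nat.gcd_pos_of_pos_left _ (Nat.pos_of_ne_zero hm)
        have hne : Nat.gcd m i ≠ 1 := fun h1 => hi.2 (Nat.Coprime.symm h1)
        omega
      have := ih _ hord (g ^ i) rfl
      simpa [Representation.character, map_pow] using this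
    have hc : ∀ i ∈ (Finset.range m).filter (fun i => i.Coprime m),
        LinearMap.trace ℚ V ((ρ g) ^ i) = ρ.character g := by
      intro i hi
      rw [Finset.mem_filter] at hi
      exact trace_pow_eq_of_coprime (ρ g) hm hT hi.2
    have hc' : ∀ i ∈ (Finset.range m).filter (fun i => i.Coprime m),
        LinearMap.trace ℚ V' ((ρ' g) ^ i) = ρ'.character g := by
      intro i hi
      rw [Finset.mem_filter] at hi
      exact trace_pow_eq_of_coprime (ρ' g) hm hT' hi.2
    rw [Finset.sum_congr rfl hc, Finset.sum_congr rfl hc', hnc, Finset.sum_const,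
      Finset.sum_const] at e3
    have e4 := add_right_cancel e3
    have hcard : ((Finset.range m).filter (fun i => i.Coprime m)).card ≠ 0 := by
      rw [Finset.card_ne_zero]
      rcases Nat.lt_or_ge 1 m with h1 | h1
      · exact ⟨1, by simp [h1]⟩
      · have hm1 : m = 1 := by omega
        subst hm1
        exact ⟨0, by simp⟩
    rw [nsmul_eq_mul, nsmul_eq_mul] at e4
    exact mul_left_cancel₀ (Nat.cast_ne_zero.mpr hcard) e4

/-- **Theorem G1.** Rational representations of a finite group with the same dimensions of the
fixed spaces of all cyclic subgroups are isomorphic. -/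
theorem nonempty_equiv_of_finrank_ker_eq {V V' : Type u}
    [AddCommGroup V] [Module ℚ V] [FiniteDimensional ℚ V]
    [AddCommGroup V'] [Module ℚ V'] [FiniteDimensional ℚ V']
    (ρ : Representation ℚ G V) (ρ' : Representation ℚ G V')
    (h : ∀ g : G, finrank ℚ (LinearMap.ker (ρ g - 1)) = finrank ℚ (LinearMap.ker (ρ' g - 1))) :
    Nonempty (Representation.Equiv ρ ρ') :=
  nonempty_equiv_of_character_eq ρ ρ' (character_eq_of_finrank_ker_eq ρ ρ' h)

end Main

end Fermat.Agent.TW.GlobalEC.RatRepCyclic87
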