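/-
TW / WP4 (global Euler characteristic), brick EC5b, part 4 (helper79): the `T`-ideles
`I_T(L) = ∏_{q ∈ T} (L ⊗[ℚ] ℚ_[q])ˣ` (`Interface23.IT`, `ClassAction23.repIT`) as a Galois module.

`L/K` Galois extension of number fields, `G = L ≃ₐ[K] L`, `T` a finite set of rational primes,
`p` an odd prime, `f : Rep (ZMod p) G → ℤ` additive.  Then `repIT T K L` is `p`-finite and

  `chi p f (repIT T K L) = ∑ q ∈ T, chi p f (locRep K L q)`                    (`chi_repIT_eq_sum`)
  `chi p f (repIT T K L) = ∑ q ∈ T, f (𝔽_p[primes of L above q])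
                              + (if p ∈ T then f (𝓞_L / p) else 0)`             (`chi_repIT`)

and in the encoding of `SpecC26` (`ec5b_IT`, `ec5b_IT_rat`): for `P` finite-dimensional projective
`h_P(I_T(L)) = ∑ q ∈ T, dim Hom_G(P, 𝔽_p[primes above q]) + (dim Hom_G(P, 𝓞_L/p) if p ∈ T)`,
the last term being `dim P` for `K = ℚ`.

The product is handled by induction on `T` with the split exact sequences
`1 → (L ⊗ ℚ_{q₀})ˣ → I_{T ∪ {q₀}}(L) → I_T(L) → 1`.
-/
import Mathlib
import Fermat.Agent.PT.GLOB.ClassAction23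
import Fermat.Agent.TW.GlobalEC.SemilocalChi79

set_option autoImplicit false
set_option linter.unusedSectionVars false

namespace Fermat.Agent.TW.GlobalEC.SemilocalIT79

open NumberField IsDedekindDomain HeightOneSpectrum Module
open scoped TensorProduct
open Fermat.Agent.PT.GLOB.Interface23 Fermat.Agent.PT.GLOB.ClassAction23
open Fermat.Agent.TW.GlobalEC.Spec26 Fermat.Agent.TW.GlobalEC.SpecB26
open Fermat.Agent.TW.GlobalEC.ChiP74 Fermat.Agent.TW.GlobalEC.Adm59
open Fermat.Agent.TW.GlobalEC.PrimesDecomp5 Fermat.Agent.TW.GlobalEC.SemilocalChi79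

noncomputable section

/-! ### Finite products of multiplicative `G`-modules -/

section Abstract

variable {G : Type} [Group G] {ι : Type} [DecidableEq ι] (M : ι → Type)
  [∀ i, CommGroup (M i)] [∀ i, MulDistribMulAction G (M i)]

/-- The product of the `M i` over `i ∈ s`. -/
abbrev PiOn (s : Finset ι) : Type := ∀ i : ↥s, M i.1

variable (s : Finset ι) (i₀ : ι)

/-- Restriction `∏_{s ∪ {i₀}} M i → ∏_s M i`. -/
def resPi : PiOn M (insert i₀ s) →* PiOn M s where
  toFun y := fun i => y ⟨i.1, Finset.mem_insert_of_mem i.2⟩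
  map_one' := rfl
  map_mul' _ _ := rfl

theorem resPi_apply (y : PiOn M (insert i₀ s)) (i : s) :
    resPi M s i₀ y i = y ⟨i.1, Finset.mem_insert_of_mem i.2⟩ := rfl

/-- The inclusion of the `i₀`-component `M i₀ → ∏_{s ∪ {i₀}} M i`. -/
def inclPi : M i₀ →* PiOn M (insert i₀ s) :=
  MonoidHom.mulSingle (fun i : ↥(insert i₀ s) => M i.1)
    (⟨i₀, Finset.mem_insert_self i₀ s⟩ : ↥(insert i₀ s))

theorem inclPi_apply_self (z : M i₀) :
    inclPi M s i₀ z ⟨i₀, Finset.mem_insert_self i₀ s⟩ = z :=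
  Pi.mulSingle_eq_same (M := fun i : ↥(insert i₀ s) => M i.1)
    (⟨i₀, Finset.mem_insert_self i₀ s⟩ : ↥(insert i₀ s)) z

theorem inclPi_apply_of_ne (z : M i₀) (i : ↥(insert i₀ s)) (hi : i.1 ≠ i₀) :
    inclPi M s i₀ z i = 1 :=
  Pi.mulSingle_eq_of_ne (M := fun i : ↥(insert i₀ s) => M i.1)
    (i := (⟨i₀, Finset.mem_insert_self i₀ s⟩ : ↥(insert i₀ s))) (i' := i)
    (fun h => hi (congrArg Subtype.val h)) z

theorem inclPi_injective : Function.Injective (inclPi M s i₀) := by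
  intro z w h
  have := congrFun h ⟨i₀, Finset.mem_insert_self i₀ s⟩
  rwa [inclPi_apply_self, inclPi_apply_self] at this

theorem resPi_surjective : Function.Surjective (resPi M s i₀) := by
  intro w
  refine ⟨fun i => if h : i.1 ∈ s then w ⟨i.1, h⟩ else 1, ?_⟩
  funext i
  rw [resPi_apply, dif_pos i.2]

theorem resPi_eq_one_iff (hi₀ : i₀ ∉ s) (y : PiOn M (insert i₀ s)) :
    resPi M s i₀ y = 1 ↔ y ∈ Set.range (inclPi M s i₀) := by
  constructor
  · intro h
    refine ⟨y ⟨i₀, Finset.mem_insert_self i₀ s⟩, ?_⟩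
    funext i
    by_cases hi : i.1 = i₀
    · have hi' : i = ⟨i₀, Finset.mem_insert_self i₀ s⟩ := Subtype.ext hi
      rw [hi', inclPi_apply_self]
    · rw [inclPi_apply_of_ne M s i₀ _ i hi]
      have his : i.1 ∈ s := (Finset.mem_insert.mp i.2).resolve_left hi
      have := congrFun h ⟨i.1, his⟩
      rw [resPi_apply] at this
      exact this.symm
  · rintro ⟨z, rfl⟩
    funext i
    rw [resPi_apply]
    exact inclPi_apply_of_ne M s i₀ z _ (fun h => hi₀ (h ▸ i.2))

theorem resPi_smul (σ : G) (y : PiOn M (insert i₀ s)) :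
    resPi M s i₀ (σ • y) = σ • resPi M s i₀ y := rfl

theorem inclPi_smul (σ : G) (z : M i₀) :
    inclPi M s i₀ (σ • z) = σ • inclPi M s i₀ z := by
  funext i
  by_cases hi : i.1 = i₀
  · have hi' : i = ⟨i₀, Finset.mem_insert_self i₀ s⟩ := Subtype.ext hi
    rw [hi', Pi.smul_apply, inclPi_apply_self, inclPi_apply_self]
  · rw [Pi.smul_apply, inclPi_apply_of_ne M s i₀ _ i hi, inclPi_apply_of_ne M s i₀ _ i hi,
      smul_one]

variable {p : ℕ} [Fact p.Prime]

/-- **Finite products**: if all `M i` (`i ∈ s`) are `p`-finite, so is `∏_{i ∈ s} M i`, and `chi`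
is the sum of the `chi`'s. -/
theorem isPFinite_and_chi_piOn {f : Rep.{0} (ZMod p) G → ℤ} (hf : IsAdditive f)
    (s : Finset ι) (hs : ∀ i ∈ s, IsPFinite p (mRep G (M i))) :
    IsPFinite p (mRep G (PiOn M s)) ∧
      chi p f (mRep G (PiOn M s)) = ∑ i ∈ s, chi p f (mRep G (M i)) := by
  induction s using Finset.induction_on with
  | empty =>
    have : Finite (mRep G (PiOn M ∅)) := by
      have : Subsingleton (PiOn M ∅) :=
        ⟨fun a b => funext fun i => absurd i.2 (Finset.notMem_empty _)⟩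
      exact inferInstanceAs (Finite (Additive (PiOn M ∅)))
    exact ⟨IsPFinite.of_finite _, by rw [Finset.sum_empty]; exact chi_eq_zero_of_finite' hf _⟩
  | insert i₀ s hi₀ ih =>
    obtain ⟨ih1, ih2⟩ := ih (fun i hi => hs i (Finset.mem_insert_of_mem hi))
    have hloc : IsPFinite p (mRep G (M i₀)) := hs i₀ (Finset.mem_insert_self i₀ s)
    have hφ : ∀ (σ : G) (x : mRep G (M i₀)),
        mLin (G := G) (inclPi M s i₀) ((mRep G (M i₀)).ρ σ x) =
          (mRep G (PiOn M (insert i₀ s))).ρ σ (mLin (G := G) (inclPi M s i₀) x) :=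
      mLin_comm _ (inclPi_smul M s i₀)
    have hψ : ∀ (σ : G) (x : mRep G (PiOn M (insert i₀ s))),
        mLin (G := G) (resPi M s i₀) ((mRep G (PiOn M (insert i₀ s))).ρ σ x) =
          (mRep G (PiOn M s)).ρ σ (mLin (G := G) (resPi M s i₀) x) :=
      mLin_comm _ (resPi_smul M s i₀)
    have hinj : Function.Injective (mLin (G := G) (inclPi M s i₀)) := by
      intro x y hxy
      exact congrArg Additive.ofMul (inclPi_injective M s i₀ (congrArg Additive.toMul hxy))
    have hsurj : Function.Surjective (mLin (G := G) (resPi M s i₀)) := by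
      intro w
      obtain ⟨y, hy⟩ := resPi_surjective M s i₀ (Additive.toMul (α := PiOn M s) w)
      exact ⟨Additive.ofMul y, congrArg Additive.ofMul hy⟩
    have hex : Function.Exact (mLin (G := G) (inclPi M s i₀)) (mLin (G := G) (resPi M s i₀)) := by
      intro y
      constructor
      · intro h0
        obtain ⟨z, hz⟩ := (resPi_eq_one_iff M s i₀ hi₀
          (Additive.toMul (α := PiOn M (insert i₀ s)) y)).mp (congrArg Additive.toMul h0)
        exact ⟨Additive.ofMul z, congrArg Additive.ofMul hz⟩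
      · rintro ⟨x, rfl⟩
        exact congrArg Additive.ofMul ((resPi_eq_one_iff M s i₀ hi₀ _).mpr
          ⟨Additive.toMul (α := M i₀) x, rfl⟩)
    have hmid : IsPFinite p (mRep G (PiOn M (insert i₀ s))) :=
      (HPCalculus74.isPFinite_iff p _).mp
        (Adm.of_exact_mid (mLin (G := G) (inclPi M s i₀)) (mLin (G := G) (resPi M s i₀))
          hinj hsurj hex ((HPCalculus74.isPFinite_iff p _).mpr hloc)
          ((HPCalculus74.isPFinite_iff p _).mpr ih1))
    refine ⟨hmid, ?_⟩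
    rw [Finset.sum_insert hi₀, ← ih2]
    exact chi_additive p hf (mLin (G := G) (inclPi M s i₀)) (mLin (G := G) (resPi M s i₀))
      hφ hψ hinj hsurj hex hloc hmid ih1

end Abstract

/-! ### The `T`-ideles -/

variable (K L : Type) [Field K] [Field L] [NumberField K] [NumberField L] [Algebra K L]
  [IsGalois K L] {p : ℕ} [Fact p.Prime]

/-- `I_T(L)` is `p`-finite and `chi` of `I_T(L)` is the sum of the `chi`'s of the semilocal unit
groups `(L ⊗ ℚ_q)ˣ`, `q ∈ T`. -/
theorem isPFinite_and_chi_repIT (hp2 : p ≠ 2) {f : Rep.{0} (ZMod p) (L ≃ₐ[K] L) → ℤ}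
    (hf : IsAdditive f) (T : Finset Nat.Primes) :
    IsPFinite p (repIT T K L) ∧
      chi p f (repIT T K L) = ∑ q ∈ T, chi p f (locRep K L (q : ℕ)) :=
  isPFinite_and_chi_piOn (G := L ≃ₐ[K] L) (fun q : Nat.Primes => (Loc L q)ˣ) hf T
    (fun q _ => isPFinite_locRep K L (q : ℕ) p hp2)

theorem isPFinite_repIT (hp2 : p ≠ 2) (T : Finset Nat.Primes) : IsPFinite p (repIT T K L) :=
  (isPFinite_and_chi_repIT K L hp2 (f := fun _ => 0) (fun _ _ _ _ _ _ _ => by simp) T).1

open scoped Classical in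
theorem sum_ite_prime (T : Finset Nat.Primes) (c : ℤ) :
    ∑ q ∈ T, (if ((q : Nat.Primes) : ℕ) = p then c else 0) =
      if (⟨p, Fact.out⟩ : Nat.Primes) ∈ T then c else 0 := by
  by_cases hmem : (⟨p, Fact.out⟩ : Nat.Primes) ∈ T
  · rw [if_pos hmem]
    refine (Finset.sum_eq_single_of_mem (⟨p, Fact.out⟩ : Nat.Primes) hmem ?_).trans (if_pos rfl)
    intro q _ hne
    exact if_neg (fun h => hne (Subtype.ext h))
  · rw [if_neg hmem]
    refine Finset.sum_eq_zero (fun q hq => if_neg (fun h => hmem ?_))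
    have h' : (⟨p, Fact.out⟩ : Nat.Primes) = q := Subtype.ext h.symm
    rw [h']
    exact hq

open scoped Classical in
/-- **EC5b for the `T`-ideles, additive form.** -/
theorem chi_repIT (hp2 : p ≠ 2) {f : Rep.{0} (ZMod p) (L ≃ₐ[K] L) → ℤ} (hf : IsAdditive f)
    (T : Finset Nat.Primes) :
    chi p f (repIT T K L) =
      ∑ q ∈ T, f (Rep.ofMulAction (ZMod p) (L ≃ₐ[K] L) (PrimesOverQ L (q : ℕ))) +
        (if (⟨p, Fact.out⟩ : Nat.Primes) ∈ T then f (modPRep p (intRep K L)) else 0) := by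
  rw [(isPFinite_and_chi_repIT K L hp2 hf T).2,
    Finset.sum_congr rfl (fun (q : Nat.Primes) _ => chi_locRep' K L (q : ℕ) hp2 hf), Finset.sum_add_distrib,
    sum_ite_prime]

open scoped Classical in
/-- **EC5b for the `T`-ideles** in the encoding of `SpecC26`: `I_T(L) = repIT T K L` is
`p`-finite and `h_P(I_T(L)) = ∑_{q ∈ T} dim Hom_G(P, 𝔽_p[primes above q]) +
(dim Hom_G(P, 𝓞_L / p) if p ∈ T)`. -/
theorem ec5b_IT (hp2 : p ≠ 2) (P : Rep.{0} (ZMod p) (L ≃ₐ[K] L)) [FiniteDimensional (ZMod p) P]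
    (hproj : IsProjRep P) (T : Finset Nat.Primes) :
    SpecC26.IsPFinite p (repIT T K L) ∧
    SpecC26.hP p P (repIT T K L) =
      ∑ q ∈ T, (eqHomRank P (Rep.ofMulAction (ZMod p) (L ≃ₐ[K] L) (PrimesOverQ L (q : ℕ))) : ℤ) +
        (if (⟨p, Fact.out⟩ : Nat.Primes) ∈ T then (eqHomRank P (modPRep p (intRep K L)) : ℤ)
          else 0) :=
  ⟨(HPCalculus74.isPFinite_iff p _).mpr (isPFinite_repIT K L hp2 T),
    chi_repIT K L hp2 (ChiP74.isAdditive_eqHomRank P hproj) T⟩

end

/-- **EC5b for the `T`-ideles over `ℚ`**: for `L/ℚ` Galois and `p ∈ T`,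
`h_P(I_T(L)) = ∑_{q ∈ T} dim Hom_G(P, 𝔽_p[primes above q]) + dim P`. -/
theorem ec5b_IT_rat (L : Type) [Field L] [NumberField L] [IsGalois ℚ L] {p : ℕ} [Fact p.Prime]
    (hp2 : p ≠ 2) (P : Rep.{0} (ZMod p) (L ≃ₐ[ℚ] L)) [FiniteDimensional (ZMod p) P]
    (hproj : IsProjRep P) (T : Finset Nat.Primes) (hpT : ∃ q ∈ T, ((q : Nat.Primes) : ℕ) = p) :
    SpecC26.IsPFinite p (repIT T ℚ L) ∧
    SpecC26.hP p P (repIT T ℚ L) =
      ∑ q ∈ T, (eqHomRank P (Rep.ofMulAction (ZMod p) (L ≃ₐ[ℚ] L) (PrimesOverQ L (q : ℕ))) : ℤ) +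
        (finrank (ZMod p) P : ℤ) := by
  obtain ⟨h1, h2⟩ := ec5b_IT ℚ L hp2 P hproj T
  refine ⟨h1, ?_⟩
  have hmem : (⟨p, Fact.out⟩ : Nat.Primes) ∈ T := by
    obtain ⟨q, hq, hqp⟩ := hpT
    have : (⟨p, Fact.out⟩ : Nat.Primes) = q := Subtype.ext hqp.symm
    rw [this]; exact hq
  rw [h2, if_pos hmem, intRep_rat, IntegersModP2.eqHomRank_integersRep_modP L p P hproj]

end Fermat.Agent.TW.GlobalEC.SemilocalIT79
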