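/-
Program TW (S56), WP4 "EC", brick EC4b (plan v2 of helper26), helper3: the "Shapiro property"
(`HyperPair3.ShapiroProp`) of a resolution `0 → P₁ → L → M → 0` with `L = k[(G ⧸ U) × I]`
(`FreeL3`), `U` a normal member of the level basis with `H¹_lev(U, C)[p] = 0`
(`SpecB26.NoPTorsionH1On`), `p M = 0`:

every level hyper-cocycle `(c, y)` of `K(P; C)` is `(0, w) + D⁰ y₀` with `w : P₁ → C` equivariant.

Proof (Shapiro's lemma by hand): `u ↦ c(u)(e i)` is a level cocycle on `U` whose `p`-th multiple is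
the coboundary of `y(p e i)`, hence `= u x_i - x_i`; put `y₀[(σ, i)] = σ̃ x_i - c(σ̃)[(σ, i)]`.
-/
import Mathlib
import Fermat.Agent.TW.GlobalEC.HyperPair3
import Fermat.Agent.TW.GlobalEC.FreeL3

set_option autoImplicit false
set_option linter.unusedSectionVars false

namespace Fermat.Agent.TW.GlobalEC.ShapiroL3

open Fermat.Agent.PT.PRO Fermat.Agent.PT.PRO.IndRes20 Fermat.Agent.PT.PRO.Pairing20
open Fermat.Agent.TW.GlobalEC.SpecB26 Fermat.Agent.TW.GlobalEC.FreeL3
  Fermat.Agent.TW.GlobalEC.HyperPair3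

variable {k : Type} [CommRing k] {G : Type} [Group G] (U : Subgroup G) [U.Normal] {I : Type}
  {P1 M : Type} [AddCommGroup P1] [Module k P1] [AddCommGroup M] [Module k M]
  (p : ℕ) (𝓑 : LevelCoh28.LevelBasis G) (C : Rep.{0} k G) (R : Res k G P1 (L k U I) M)

/-- **The Shapiro property** of a resolution with `P₀ = k[(G ⧸ U) × I]`. -/
theorem shapiroProp (hρ0 : ∀ g x, R.ρ0 g x = rhoL k U I g x) (hpM : ∀ m : M, p • m = 0)
    (hU : U ∈ 𝓑.sets) (hNT : NoPTorsionH1On 𝓑 C U p) : ShapiroProp 𝓑 C R := by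
  intro c y hcy hc
  -- the cocycle identities, evaluated
  have hmul : ∀ g h (x : L k U I), c (g * h) x = C.ρ g (c h (R.ρ0 g⁻¹ x)) + c g x := by
    intro g h x
    have h1 := (R.datum C.ρ).cocycle_mul hcy.1 g h
    have h2 := LinearMap.congr_fun h1 x
    rw [LinearMap.add_apply, Res.datum_ρY0] at h2
    exact h2
  have hy : ∀ g (z : P1), c g (R.ι z) = C.ρ g (y (R.ρ1 g⁻¹ z)) - y z := by
    intro g z
    have h1 := hcy.2 g
    have h2 := LinearMap.congr_fun h1 z
    rw [LinearMap.sub_apply, Res.datum_ρY1, Res.datum_f] at h2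
    exact h2
  -- `U` acts trivially
  have hU0 : ∀ u ∈ U, ∀ x : L k U I, R.ρ0 u x = x := fun u hu x => by
    rw [hρ0, rhoL_of_mem hu]
  have hU1 : ∀ u ∈ U, ∀ z : P1, R.ρ1 u z = z := by
    intro u hu z
    apply R.ι_inj
    rw [R.ι_comm, hU0 u hu]
  -- `p e i` comes from `P₁`
  have hex : ∀ i, ∃ z : P1, R.ι z = p • e k U i := fun i =>
    (R.exact _).1 (by rw [map_nsmul, hpM])
  choose zi hzi using hex
  -- the primitives on `U`
  have key : ∀ i, ∃ x : C, ∀ u ∈ U, c u (e k U i) = C.ρ u x - x := by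
    intro i
    refine hNT (fun g => c g (e k U i)) ?_ ?_ ?_
    · intro u hu v _
      show c (u * v) (e k U i) = c u (e k U i) + C.ρ u (c v (e k U i))
      rw [hmul u v, hU0 u⁻¹ (U.inv_mem hu), add_comm]
    · obtain ⟨V₀, hV₀, hinv⟩ := hc
      obtain ⟨V, hV, hle⟩ := 𝓑.isBasis.directed U hU V₀ hV₀
      refine ⟨V, hV, hle.trans inf_le_left, fun u _ v hv => ?_⟩
      show c (u * v) (e k U i) = c u (e k U i)
      rw [hinv u v (hle hv).2]
    · refine ⟨y (zi i), fun u hu => ?_⟩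
      show p • c u (e k U i) = _
      rw [← map_nsmul, ← hzi, hy u, hU1 u⁻¹ (U.inv_mem hu)]
  choose x hx using key
  -- the primitive
  let y₀ : L k U I →ₗ[k] C := Finsupp.linearCombination k
    (fun xi : (G ⧸ U) × I => C.ρ xi.1.out (x xi.2) - c xi.1.out (Finsupp.single xi 1))
  have hA : ∀ (g : G) (i : I), y₀ (Finsupp.single ((g : G ⧸ U), i) 1)
      = C.ρ g (x i) - c g (Finsupp.single ((g : G ⧸ U), i) 1) := by
    intro g i
    show Finsupp.linearCombination k _ (Finsupp.single ((g : G ⧸ U), i) 1) = _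
    rw [Finsupp.linearCombination_single, one_smul]
    show C.ρ (g : G ⧸ U).out (x i) - c (g : G ⧸ U).out (Finsupp.single ((g : G ⧸ U), i) 1) = _
    set g₀ : G := (g : G ⧸ U).out with hg₀def
    have hg₀ : ((g₀ : G) : G ⧸ U) = (g : G ⧸ U) := QuotientGroup.out_eq' _
    have hu : g₀⁻¹ * g ∈ U := QuotientGroup.eq.1 hg₀
    have hg : g = g₀ * (g₀⁻¹ * g) := by group
    have hs : R.ρ0 g₀⁻¹ (Finsupp.single ((g : G ⧸ U), i) 1) = e k U i := by
      rw [hρ0, rhoL_single, ← hg₀, ← QuotientGroup.mk_mul, inv_mul_cancel]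
      rfl
    have h1 := hmul g₀ (g₀⁻¹ * g) (Finsupp.single ((g : G ⧸ U), i) 1)
    rw [← hg, hs, hx i _ hu] at h1
    rw [h1, map_sub, ← Module.End.mul_apply, ← map_mul, ← hg]
    abel
  have hB : ∀ g (s : L k U I), c g s = C.ρ g (y₀ (R.ρ0 g⁻¹ s)) - y₀ s := by
    intro g
    have : c g = (C.ρ g ∘ₗ y₀ ∘ₗ R.ρ0 g⁻¹) - y₀ := by
      apply Finsupp.lhom_ext
      rintro ⟨s, i⟩ b
      obtain ⟨h, rfl⟩ := QuotientGroup.mk_surjective s
      have hb : (Finsupp.single ((h : G ⧸ U), i) b : L k U I)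
          = b • Finsupp.single ((h : G ⧸ U), i) 1 := by
        rw [Finsupp.smul_single, smul_eq_mul, mul_one]
      rw [hb, map_smul, map_smul]
      congr 1
      rw [LinearMap.sub_apply, LinearMap.comp_apply, LinearMap.comp_apply, hρ0, rhoL_single,
        ← QuotientGroup.mk_mul, hA, hA, map_sub,
        ← Module.End.mul_apply, ← map_mul, mul_inv_cancel_left]
      have h1 := hmul g (g⁻¹ * h) (Finsupp.single ((h : G ⧸ U), i) 1)
      rw [mul_inv_cancel_left, hρ0, rhoL_single, ← QuotientGroup.mk_mul] at h1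
      rw [h1]
      abel
    intro s
    rw [this]
    rfl
  refine ⟨y₀, y - y₀ ∘ₗ R.ι, ?_, ?_, by abel⟩
  · intro g z
    have h1 := hy g (R.ρ1 g z)
    rw [← Module.End.mul_apply, ← map_mul, inv_mul_cancel, map_one, Module.End.one_apply,
      R.ι_comm, hB g, ← Module.End.mul_apply, ← map_mul, inv_mul_cancel, map_one,
      Module.End.one_apply] at h1
    rw [LinearMap.sub_apply, LinearMap.sub_apply, LinearMap.comp_apply, LinearMap.comp_apply,
      R.ι_comm, map_sub]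
    have h2 : y (R.ρ1 g z) - y₀ (R.ρ0 g (R.ι z))
        = C.ρ g (y z) - C.ρ g (y₀ (R.ι z))
          - (C.ρ g (y z) - y (R.ρ1 g z) - (C.ρ g (y₀ (R.ι z)) - y₀ (R.ρ0 g (R.ι z)))) := by abel
    rw [h2, ← h1, sub_self, sub_zero]
  · funext g
    apply LinearMap.ext
    intro s
    rw [hB g s, HyperLevel25.dZero_apply, LinearMap.sub_apply, Res.datum_ρY0]
    rfl

end Fermat.Agent.TW.GlobalEC.ShapiroL3
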